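/-
S44-L6-TLMULT (helper1022), part (B1): the multiplicative Hecke transform commutes with the
Gauss reduction, on `q`-expansions.

* `kronNorm_mul`, `tmul_mul`, ... : the `q`-series transform
  `x ↦ x(q^ℓ) * kronNorm ζ ℓ x` is multiplicative (`ζ` a primitive `ℓ`-th root of unity);
* `coe_heckeFun` : the `q`-expansion of `heckeFun N ℓ x = Norm_α (β x)` is that transform
  (landed `S37.helper9793.norm_heckeBetaBar_along_alpha`);
* `heckeFun_mem_gaussF`, `gaussFRed_heckeFun` : **(B1)** `heckeFun` preserves the Gauss valuation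
  ring `gaussF A π N` at EVERY level `N` prime to `ℓ` (the residue characteristic may divide
  `N`), and the reduction of `heckeFun N ℓ x` is the transform of the reduction of `x`;
* `gpRho_heckeFun` : the same for the total reduction map `S35.helper882.gpRho`.
-/
import Fermat.Agent.S29.helper8217_KummerClass
import Fermat.Agent.S37.helper9793_KroneckerFF
import Fermat.Agent.S37.helper5666_KroneckerVal
import Fermat.Agent.S18.helper8991_GaussInst

set_option autoImplicit false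

noncomputable section

namespace Fermat.Agent.S44.helper1022

open AlgebraicCurve ModularCurve
open Fermat.Agent.S37.helper5666 Fermat.Agent.S18.helper8991

/-! ### The multiplicative Hecke transform on `q`-series -/

section QSeries

variable {R : Type*} [CommRing R]

theorem kronProd_mul (ζ : Rˣ) (l : ℕ) (x y : LaurentSeries R) :
    kronProd ζ l (x * y) = kronProd ζ l x * kronProd ζ l y := by
  unfold kronProd
  rw [← Finset.prod_mul_distrib]
  exact Finset.prod_congr rfl fun b _ => map_mul _ _ _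

theorem kronProd_one (ζ : Rˣ) (l : ℕ) : kronProd ζ l (1 : LaurentSeries R) = 1 := by
  unfold kronProd
  exact Finset.prod_eq_one fun b _ => map_one _

theorem kronNorm_mul (ζ : Rˣ) (l : ℕ) [NeZero l] (hζ : ζ ^ l = 1)
    (hreg : ∀ n : ℤ, ¬ (l : ℤ) ∣ n → ∀ a : R, ((ζ ^ n : Rˣ) : R) * a = a → a = 0)
    (x y : LaurentSeries R) :
    kronNorm ζ l (x * y) = kronNorm ζ l x * kronNorm ζ l y := by
  apply qExpand_injective (R := R) l
  rw [map_mul, qExpand_kronNorm ζ l hζ hreg, qExpand_kronNorm ζ l hζ hreg,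
    qExpand_kronNorm ζ l hζ hreg, kronProd_mul]

theorem kronNorm_one (ζ : Rˣ) (l : ℕ) [NeZero l] (hζ : ζ ^ l = 1)
    (hreg : ∀ n : ℤ, ¬ (l : ℤ) ∣ n → ∀ a : R, ((ζ ^ n : Rˣ) : R) * a = a → a = 0) :
    kronNorm ζ l (1 : LaurentSeries R) = 1 := by
  apply qExpand_injective (R := R) l
  rw [qExpand_kronNorm ζ l hζ hreg, kronProd_one, map_one]

/-- The multiplicative Hecke transform `x ↦ x(q^l) * kronNorm ζ l x` on `q`-series. -/
def tmulQ (ζ : Rˣ) (l : ℕ) [NeZero l] (x : LaurentSeries R) : LaurentSeries R :=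
  qExpand R l x * kronNorm ζ l x

theorem tmulQ_def (ζ : Rˣ) (l : ℕ) [NeZero l] (x : LaurentSeries R) :
    tmulQ ζ l x = qExpand R l x * kronNorm ζ l x := rfl

theorem tmulQ_mul (ζ : Rˣ) (l : ℕ) [NeZero l] (hζ : ζ ^ l = 1)
    (hreg : ∀ n : ℤ, ¬ (l : ℤ) ∣ n → ∀ a : R, ((ζ ^ n : Rˣ) : R) * a = a → a = 0)
    (x y : LaurentSeries R) : tmulQ ζ l (x * y) = tmulQ ζ l x * tmulQ ζ l y := by
  rw [tmulQ_def, tmulQ_def, tmulQ_def, map_mul, kronNorm_mul ζ l hζ hreg]
  ring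

theorem tmulQ_one (ζ : Rˣ) (l : ℕ) [NeZero l] (hζ : ζ ^ l = 1)
    (hreg : ∀ n : ℤ, ¬ (l : ℤ) ∣ n → ∀ a : R, ((ζ ^ n : Rˣ) : R) * a = a → a = 0) :
    tmulQ ζ l (1 : LaurentSeries R) = 1 := by
  rw [tmulQ_def, map_one, kronNorm_one ζ l hζ hreg, one_mul]

theorem coeffMap_tmulQ {S : Type*} [CommRing S] (f : R →+* S) (ζ : Rˣ) (l : ℕ) [NeZero l]
    (x : LaurentSeries R) :
    coeffMap f (tmulQ ζ l x) = tmulQ (Units.map (f : R →* S) ζ) l (coeffMap f x) := by
  rw [tmulQ_def, tmulQ_def, map_mul, coeffMap_qExpand, coeffMap_kronNorm_map]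

end QSeries

section QSeriesField

variable {k : Type*} [Field k]

theorem rot_injective (u : kˣ) : Function.Injective (rot u) := by
  intro x y h
  have h1 := congrArg (rot u⁻¹) h
  rwa [rot_rot, rot_rot, inv_mul_cancel, show rot (1 : kˣ) = RingHom.id _ from ?_] at h1
  ext x n
  simp

theorem kronProd_ne_zero (ζ : kˣ) (l : ℕ) {x : LaurentSeries k} (hx : x ≠ 0) :
    kronProd ζ l x ≠ 0 := by
  unfold kronProd
  rw [Finset.prod_ne_zero_iff]
  intro b _ h0
  exact hx (rot_injective (ζ ^ b) (by rw [h0, map_zero]))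

theorem tmulQ_ne_zero (ζ : kˣ) (l : ℕ) [NeZero l] (hζ : IsPrimitiveRoot ζ l)
    {x : LaurentSeries k} (hx : x ≠ 0) : tmulQ ζ l x ≠ 0 := by
  rw [tmulQ_def]
  refine mul_ne_zero (fun h0 => hx (qExpand_injective (R := k) l (by rw [h0, map_zero]))) ?_
  intro h0
  have h1 := qExpand_kronNorm ζ l hζ.pow_eq_one (hreg_of_isPrimitiveRoot l ζ hζ) x
  rw [h0, map_zero] at h1
  exact kronProd_ne_zero ζ l hx h1.symm

theorem tmulQ_div (ζ : kˣ) (l : ℕ) [NeZero l] (hζ : IsPrimitiveRoot ζ l)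
    (x y : LaurentSeries k) (hy : y ≠ 0) : tmulQ ζ l (x / y) = tmulQ ζ l x / tmulQ ζ l y := by
  rw [eq_div_iff (tmulQ_ne_zero ζ l hζ hy),
    ← tmulQ_mul ζ l hζ.pow_eq_one (hreg_of_isPrimitiveRoot l ζ hζ), div_mul_cancel₀ _ hy]

end QSeriesField

/-! ### (B1) `heckeFun` and the Gauss reduction -/

section GaussRed

local notation "Kbar" => AlgebraicClosure ℚ

variable (N ℓ : ℕ) [NeZero N] [NeZero ℓ]

/-- The `q`-expansion of `heckeFun N ℓ x = Norm_α (β x)` is `x(q^ℓ) * kronNorm ζ ℓ x`. -/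
theorem coe_heckeFun (hℓ : ℓ.Prime) (hℓN : ¬ ℓ ∣ N) (ζ : Kbarˣ) (hζ : IsPrimitiveRoot ζ ℓ)
    (x : modularFunctionFieldBar N) :
    ((Fermat.Agent.S29.helper8217.heckeFun (L := Kbar) N ℓ x : modularFunctionFieldBar N) :
        LaurentSeries Kbar) = tmulQ ζ ℓ (x : LaurentSeries Kbar) :=
  Fermat.Agent.S37.helper9793.norm_heckeBetaBar_along_alpha N ℓ hℓ hℓN ζ hζ x

variable (A : ValuationSubring Kbar) {k : Type*} [Field k] (π : A →+* k)

/-- **(B1)** `heckeFun N ℓ` preserves the Gauss valuation ring, and its reduction is the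
multiplicative Hecke transform of the reduction.  No hypothesis relating the residue
characteristic to the level `N`; `ζ̄` must stay primitive (i.e. `ℓ` is invertible in `k`). -/
theorem exists_heckeFun_mem_gaussF (hℓ : ℓ.Prime) (hℓN : ¬ ℓ ∣ N) (ζ : Aˣ)
    (hζ : IsPrimitiveRoot ζ ℓ) (hζk : IsPrimitiveRoot (Units.map (π : A →* k) ζ) ℓ)
    {x : modularFunctionFieldBar N} (hx : x ∈ gaussF A π N) :
    ∃ h : Fermat.Agent.S29.helper8217.heckeFun (L := Kbar) N ℓ x ∈ gaussF A π N,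
      gaussFRed A π N ⟨_, h⟩
        = tmulQ (Units.map (π : A →* k) ζ) ℓ (gaussFRed A π N ⟨x, hx⟩) := by
  obtain ⟨X, Y, hY, hXY⟩ := (mem_gaussF_iff A π N x).mp hx
  have hinj : Function.Injective (Units.map (A.subtype : A →* Kbar)) :=
    Units.map_injective (f := (A.subtype : A →* Kbar)) Subtype.val_injective
  have hζL : IsPrimitiveRoot (Units.map (A.subtype : A →* Kbar) ζ) ℓ := hζ.map_of_injective hinj
  have hT := coe_heckeFun N ℓ hℓ hℓN _ hζL x
  have hincY : tmulQ (Units.map (A.subtype : A →* Kbar) ζ) ℓ (inc A Y) = inc A (tmulQ ζ ℓ Y) :=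
    (coeffMap_tmulQ A.subtype ζ ℓ Y).symm
  have hincX : tmulQ (Units.map (A.subtype : A →* Kbar) ζ) ℓ (inc A X) = inc A (tmulQ ζ ℓ X) :=
    (coeffMap_tmulQ A.subtype ζ ℓ X).symm
  have key : ((Fermat.Agent.S29.helper8217.heckeFun (L := Kbar) N ℓ x : modularFunctionFieldBar N)
      : LaurentSeries Kbar) * inc A (tmulQ ζ ℓ Y) = inc A (tmulQ ζ ℓ X) := by
    rw [hT, ← hincY, ← hincX,
      ← tmulQ_mul _ ℓ hζL.pow_eq_one (hreg_of_isPrimitiveRoot ℓ _ hζL)]
    exact congrArg (tmulQ (Units.map (A.subtype : A →* Kbar) ζ) ℓ) hXY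
  have hredT : ∀ Z : LaurentSeries A,
      red A π (tmulQ ζ ℓ Z) = tmulQ (Units.map (π : A →* k) ζ) ℓ (red A π Z) :=
    fun Z => coeffMap_tmulQ π ζ ℓ Z
  have hredY : red A π (tmulQ ζ ℓ Y) ≠ 0 := by
    rw [hredT]
    exact tmulQ_ne_zero _ ℓ hζk hY
  have hmem : Fermat.Agent.S29.helper8217.heckeFun (L := Kbar) N ℓ x ∈ gaussF A π N :=
    (mem_gaussF_iff A π N _).mpr ⟨_, _, hredY, key⟩
  refine ⟨hmem, ?_⟩
  have e1 := gaussFRed_eq A π N ⟨_, hmem⟩ hredY key
  have e2 := gaussFRed_eq A π N ⟨x, hx⟩ hY hXY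
  rw [e1, e2, tmulQ_div _ ℓ hζk _ _ hY, hredT, hredT]

theorem heckeFun_mem_gaussF (hℓ : ℓ.Prime) (hℓN : ¬ ℓ ∣ N) (ζ : Aˣ)
    (hζ : IsPrimitiveRoot ζ ℓ) (hζk : IsPrimitiveRoot (Units.map (π : A →* k) ζ) ℓ)
    {x : modularFunctionFieldBar N} (hx : x ∈ gaussF A π N) :
    Fermat.Agent.S29.helper8217.heckeFun (L := Kbar) N ℓ x ∈ gaussF A π N :=
  (exists_heckeFun_mem_gaussF N ℓ A π hℓ hℓN ζ hζ hζk hx).1

theorem gaussFRed_heckeFun (hℓ : ℓ.Prime) (hℓN : ¬ ℓ ∣ N) (ζ : Aˣ)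
    (hζ : IsPrimitiveRoot ζ ℓ) (hζk : IsPrimitiveRoot (Units.map (π : A →* k) ζ) ℓ)
    {x : modularFunctionFieldBar N} (hx : x ∈ gaussF A π N) :
    gaussFRed A π N ⟨_, heckeFun_mem_gaussF N ℓ A π hℓ hℓN ζ hζ hζk hx⟩
      = tmulQ (Units.map (π : A →* k) ζ) ℓ (gaussFRed A π N ⟨x, hx⟩) :=
  (exists_heckeFun_mem_gaussF N ℓ A π hℓ hℓN ζ hζ hζk hx).2

end GaussRed

/-! ### Roots of unity in the valuation ring and in the residue field -/

section Roots

variable {L : Type*} [Field L] (A : ValuationSubring L) {k : Type*} [Field k] (π : A →+* k)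

/-- A primitive `ℓ`-th root of unity of `L` lies in `A`, as a primitive root of unity. -/
theorem exists_primitiveRoot_valuationSubring (ℓ : ℕ) [NeZero ℓ] (ζ : Lˣ)
    (hζ : IsPrimitiveRoot ζ ℓ) :
    ∃ u : Aˣ, IsPrimitiveRoot u ℓ ∧ Units.map (A.subtype : A →* L) u = ζ := by
  obtain ⟨u, hu⟩ := exists_unit_of_pow_eq_one A ζ ℓ (NeZero.ne ℓ) hζ.pow_eq_one
  refine ⟨u, ?_, hu⟩
  have hinj : Function.Injective (Units.map (A.subtype : A →* L)) :=
    Units.map_injective (f := (A.subtype : A →* L)) Subtype.val_injective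
  refine IsPrimitiveRoot.of_map_of_injective (f := Units.map (A.subtype : A →* L)) ?_ hinj
  rw [hu]
  exact hζ

/-- If the prime `ℓ` is invertible in `k`, a primitive `ℓ`-th root of unity of `A` stays
primitive in `k`. -/
theorem isPrimitiveRoot_map_of_natCast_ne_zero {ℓ : ℕ} (hℓ : ℓ.Prime) (hk : (ℓ : k) ≠ 0)
    (u : Aˣ) (hu : IsPrimitiveRoot u ℓ) : IsPrimitiveRoot (Units.map (π : A →* k) u) ℓ := by
  have hpow : (Units.map (π : A →* k) u) ^ ℓ = 1 := by
    rw [← map_pow, hu.pow_eq_one, map_one]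
  have hne : Units.map (π : A →* k) u ≠ 1 := by
    intro h1
    have h2 : π (u : A) = 1 := by
      have := congrArg Units.val h1
      simpa using this
    have hu' : IsPrimitiveRoot (u : A) ℓ := IsPrimitiveRoot.coe_units_iff.mpr hu
    have h3 := hu'.geom_sum_eq_zero hℓ.one_lt
    have h4 := congrArg π h3
    rw [map_sum, map_zero] at h4
    simp only [map_pow, h2, one_pow, Finset.sum_const, Finset.card_range, nsmul_eq_mul,
      mul_one] at h4
    exact hk h4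
  haveI : Fact ℓ.Prime := ⟨hℓ⟩
  have hord := orderOf_eq_prime hpow hne
  rw [← hord]
  exact IsPrimitiveRoot.orderOf _

end Roots

end Fermat.Agent.S44.helper1022
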