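import Mathlib
import Fermat.Agent.S29.helper36_KummerCorr

/-!
# S44-L6-ORDCMP: the Eisenstein order comparison (step (5) of the S44 blueprint)

Carrier-free core of the sentence "comparing orders at a node of the reductions of `T_l Θ`
and `Θ ^ (l + 1)` gives `(a_l - l - 1) n_x = 0`", in the Prelude vocabulary
(`AlgebraicCurve.Place`, `Divisor.correspondence`) and the landed `S29.helper36`
vocabulary (`ordDiv`, `normAlong`).

* `dvd_pushforwardAlong_apply`, `dvd_correspondence_apply` : divisibility of a push-forward /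
  correspondence at one place from divisibility on the fibre;
* `dvd_ord_normAlong_off` (A) : `p ∣ ord_y g` at every place outside a set `C` of "cusps" which
  is stable under the correspondence  ⟹  `p ∣ ord_x (N_ψ (φ g))` at every place outside `C`;
* `dvd_mul_ord_of_rel` (B) : the step.  `N_ψ (φ Θ) = c * Θ ^ (l + 1) * h ^ (a - (l + 1)) * w ^ p`
  and `p ∣ ord_y Θ` off `C`  ⟹  `p ∣ (a - (l + 1)) * ord_x h` off `C`;
* `dvd_ord_of_rel` : with `a - (l + 1)` prime to `p`:  `p ∣ ord_x h` off `C`;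
* `exists_rel_of_hecke` (B0) : the characteristic-zero seam producing the relation of (B) from
  `T ε = c₀ ε ^ (l + 1)`, `T h = c₁ h ^ a w ^ p` and "reduction commutes with `T`";
* `exists_mu`, `dvd_ord_theta_of_jensen` (C) : the `μ`-bookkeeping;
* `eisenstein_step` : everything together.
-/

set_option autoImplicit false

noncomputable section

namespace Fermat.Agent.S44.helper1043

open AlgebraicCurve Fermat.Agent.S29.helper36

/-! ### Orders of constants and powers -/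

section PlaceBasics

variable {K F : Type*} [Field K] [Field F] [Algebra K F]

/-- a nonzero constant has order `0` at every place. -/
theorem ord_const (v : Place K F) {c : K} (hc : c ≠ 0) : v.ord (algebraMap K F c) = 0 := by
  have h1 : algebraMap K F c ∈ v.toValuationSubring := v.algebraMap_mem' c
  have h2 : algebraMap K F c⁻¹ ∈ v.toValuationSubring := v.algebraMap_mem' c⁻¹
  have e1 : algebraMap K F c * algebraMap K F c⁻¹ = 1 := by
    rw [← map_mul, mul_inv_cancel₀ hc, map_one]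
  have e2 : algebraMap K F c⁻¹ * algebraMap K F c = 1 := by
    rw [← map_mul, inv_mul_cancel₀ hc, map_one]
  let u : v.toValuationSubringˣ :=
    ⟨⟨_, h1⟩, ⟨_, h2⟩, Subtype.ext e1, Subtype.ext e2⟩
  exact v.ord_coe_unit u

/-- order of a natural power. -/
theorem ord_npow (v : Place K F) (f : F) (n : ℕ) : v.ord (f ^ n) = n * v.ord f := by
  have h := v.ord_zpow f (n : ℤ)
  rwa [zpow_natCast] at h

end PlaceBasics

/-! ### (A) divisibility through a correspondence, off a stable set of places -/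

section Core

variable {K F F' : Type*} [Field K] [Field F] [Field F'] [Algebra K F] [Algebra K F']

/-- if `n` divides `D` at every place of the fibre over `v`, it divides the push-forward
at `v`. -/
theorem dvd_pushforwardAlong_apply (ψ : F →ₐ[K] F') (hψ : ψ.toRingHom.IsIntegral) (n : ℤ)
    (D : Divisor K F') (v : Place K F)
    (h : ∀ w : Place K F', w.restrictAlong ψ hψ = v → n ∣ D w) :
    n ∣ Divisor.pushforwardAlong ψ hψ D v := by
  classical
  have hD : ∑ w ∈ D.support, Finsupp.single w (D w) = D := Finsupp.sum_single D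
  have key : Divisor.pushforwardAlong ψ hψ D v
      = ∑ w ∈ D.support, Divisor.pushforwardAlong ψ hψ (Finsupp.single w (D w)) v := by
    conv_lhs => rw [← hD]
    rw [map_sum, Finsupp.finsetSum_apply]
  rw [key]
  refine Finset.dvd_sum fun w _ => ?_
  rw [Divisor.pushforwardAlong_single, Finsupp.single_apply]
  split_ifs with hw
  · exact Dvd.dvd.mul_right (h w hw) _
  · exact dvd_zero _

variable [HasPrincipalDivisors K F']

/-- if `n` divides `D` at every place outside `C`, and places of `F'` lying over `C` along `φ`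
lie over `C` along `ψ`, then `n` divides `ψ_* φ^* D` at every place outside `C`. -/
theorem dvd_correspondence_apply (φ ψ : F →ₐ[K] F') (hφ : φ.toRingHom.IsIntegral)
    (hψ : ψ.toRingHom.IsIntegral) (C : Set (Place K F))
    (hC : ∀ w : Place K F', w.restrictAlong φ hφ ∈ C → w.restrictAlong ψ hψ ∈ C)
    (n : ℤ) (D : Divisor K F) (h : ∀ v : Place K F, v ∉ C → n ∣ D v)
    (v : Place K F) (hv : v ∉ C) :
    n ∣ Divisor.correspondence φ ψ hφ hψ D v := by
  rw [Divisor.correspondence_apply]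
  refine dvd_pushforwardAlong_apply ψ hψ n _ v fun w hw => ?_
  rw [Divisor.pullbackAlong_apply]
  exact Dvd.dvd.mul_left (h _ fun hc => hv (hw ▸ hC w hc)) _

variable [HasPrincipalDivisors K F]

/-- **(A)** `n ∣ ord_y u` at every place outside the correspondence-stable set `C`  ⟹
`n ∣ ord_x (N_ψ (φ u))` at every place outside `C`.  (`S29.helper36.dvd_ord_normAlong` with the
divisibility hypothesis only off `C`.) -/
theorem dvd_ord_normAlong_off (φ ψ : F →ₐ[K] F') (hφ : φ.toRingHom.IsIntegral)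
    (hψ : ψ.toRingHom.IsIntegral) (hfin : FiniteAlong K ψ) (hN : NormFormulaAlong K ψ hfin)
    (C : Set (Place K F))
    (hC : ∀ w : Place K F', w.restrictAlong φ hφ ∈ C → w.restrictAlong ψ hψ ∈ C)
    {n : ℕ} {u : F} (h : ∀ v : Place K F, v ∉ C → (n : ℤ) ∣ v.ord u)
    (v : Place K F) (hv : v ∉ C) :
    (n : ℤ) ∣ v.ord (normAlong ψ (φ u)) := by
  rcases eq_or_ne u 0 with rfl | hu
  · rw [map_zero, normAlong_zero ψ hfin, v.ord_zero]
    exact dvd_zero _
  · have h1 := correspondence_ordDiv φ ψ hφ hψ hfin hN hu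
    have h2 : v.ord (normAlong ψ (φ u)) = Divisor.correspondence φ ψ hφ hψ (ordDiv K u) v := by
      rw [h1, ordDiv_apply]
    rw [h2]
    exact dvd_correspondence_apply φ ψ hφ hψ C hC n (ordDiv K u) (fun y hy => h y hy) v hv

/-- **(B)** the Eisenstein step on the special fibre.  If
`N_ψ (φ Θ) = c * Θ ^ (l + 1) * h ^ (a - (l + 1)) * w ^ p` and `p` divides the order of `Θ` at
every place outside `C`, then `p` divides `(a - (l + 1)) * ord_x h` at every place `x`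
outside `C`. -/
theorem dvd_mul_ord_of_rel (φ ψ : F →ₐ[K] F') (hφ : φ.toRingHom.IsIntegral)
    (hψ : ψ.toRingHom.IsIntegral) (hfin : FiniteAlong K ψ) (hN : NormFormulaAlong K ψ hfin)
    (C : Set (Place K F))
    (hC : ∀ w : Place K F', w.restrictAlong φ hφ ∈ C → w.restrictAlong ψ hψ ∈ C)
    (p l : ℕ) (a : ℤ) {Θ hb wb : F} {c : K} (hΘ : Θ ≠ 0) (hhb : hb ≠ 0) (hwb : wb ≠ 0)
    (hc : c ≠ 0)
    (hrel : normAlong ψ (φ Θ)
      = algebraMap K F c * Θ ^ (l + 1) * hb ^ (a - ((l : ℤ) + 1)) * wb ^ p)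
    (hΘp : ∀ v : Place K F, v ∉ C → (p : ℤ) ∣ v.ord Θ)
    (v : Place K F) (hv : v ∉ C) :
    (p : ℤ) ∣ (a - ((l : ℤ) + 1)) * v.ord hb := by
  have hA := dvd_ord_normAlong_off φ ψ hφ hψ hfin hN C hC hΘp v hv
  have hcF : algebraMap K F c ≠ 0 := (map_ne_zero (algebraMap K F)).mpr hc
  have hΘl : Θ ^ (l + 1) ≠ 0 := pow_ne_zero _ hΘ
  have hhz : hb ^ (a - ((l : ℤ) + 1)) ≠ 0 := zpow_ne_zero _ hhb
  have hwp : wb ^ p ≠ 0 := pow_ne_zero _ hwb
  rw [hrel, v.ord_mul (mul_ne_zero (mul_ne_zero hcF hΘl) hhz) hwp,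
    v.ord_mul (mul_ne_zero hcF hΘl) hhz, v.ord_mul hcF hΘl, ord_const v hc, ord_npow,
    v.ord_zpow, ord_npow, zero_add] at hA
  have h1 : (p : ℤ) ∣ ((l + 1 : ℕ) : ℤ) * v.ord Θ := Dvd.dvd.mul_left (hΘp v hv) _
  have h2 : (p : ℤ) ∣ (p : ℤ) * v.ord wb := dvd_mul_right _ _
  have h3 := (Int.dvd_add_left h2).mp hA
  exact (Int.dvd_add_right h1).mp h3

/-- **(B')** with `a - (l + 1)` prime to `p`: all orders of `h` off `C` are divisible by `p`. -/
theorem dvd_ord_of_rel (φ ψ : F →ₐ[K] F') (hφ : φ.toRingHom.IsIntegral)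
    (hψ : ψ.toRingHom.IsIntegral) (hfin : FiniteAlong K ψ) (hN : NormFormulaAlong K ψ hfin)
    (C : Set (Place K F))
    (hC : ∀ w : Place K F', w.restrictAlong φ hφ ∈ C → w.restrictAlong ψ hψ ∈ C)
    (p l : ℕ) (hp : p.Prime) (a : ℤ) (ha : ¬ (p : ℤ) ∣ a - ((l : ℤ) + 1))
    {Θ hb wb : F} {c : K} (hΘ : Θ ≠ 0) (hhb : hb ≠ 0) (hwb : wb ≠ 0) (hc : c ≠ 0)
    (hrel : normAlong ψ (φ Θ)
      = algebraMap K F c * Θ ^ (l + 1) * hb ^ (a - ((l : ℤ) + 1)) * wb ^ p)
    (hΘp : ∀ v : Place K F, v ∉ C → (p : ℤ) ∣ v.ord Θ)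
    (v : Place K F) (hv : v ∉ C) :
    (p : ℤ) ∣ v.ord hb := by
  have h := dvd_mul_ord_of_rel φ ψ hφ hψ hfin hN C hC p l a hΘ hhb hwb hc hrel hΘp v hv
  exact ((Nat.prime_iff_prime_int.mp hp).dvd_or_dvd h).resolve_left ha

end Core

/-! ### (B0) the characteristic-zero seam -/

section Seam

variable {K0 F0 : Type*} [Field K0] [Field F0] [Algebra K0 F0]
variable {L : Type*} [Field L]

/-- `x` is a unit of the subring `O` of the field `F0`. -/
def IsOUnit (O : Subring F0) (x : F0) : Prop := x ≠ 0 ∧ x ∈ O ∧ x⁻¹ ∈ O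

theorem IsOUnit.mul {O : Subring F0} {x y : F0} (hx : IsOUnit O x) (hy : IsOUnit O y) :
    IsOUnit O (x * y) := by
  refine ⟨mul_ne_zero hx.1 hy.1, O.mul_mem hx.2.1 hy.2.1, ?_⟩
  rw [mul_inv]
  exact O.mul_mem hx.2.2 hy.2.2

theorem IsOUnit.inv {O : Subring F0} {x : F0} (hx : IsOUnit O x) : IsOUnit O x⁻¹ :=
  ⟨inv_ne_zero hx.1, hx.2.2, by rw [inv_inv]; exact hx.2.1⟩

theorem IsOUnit.one (O : Subring F0) : IsOUnit O (1 : F0) :=
  ⟨one_ne_zero, O.one_mem, by rw [inv_one]; exact O.one_mem⟩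

theorem IsOUnit.pow {O : Subring F0} {x : F0} (hx : IsOUnit O x) (n : ℕ) : IsOUnit O (x ^ n) := by
  refine ⟨pow_ne_zero _ hx.1, O.pow_mem hx.2.1 n, ?_⟩
  rw [← inv_pow]
  exact O.pow_mem hx.2.2 n

theorem IsOUnit.zpow {O : Subring F0} {x : F0} (hx : IsOUnit O x) (n : ℤ) :
    IsOUnit O (x ^ n) := by
  rcases n with n | n
  · simpa using hx.pow n
  · rw [zpow_negSucc]
    exact (hx.pow (n + 1)).inv

/-- a map multiplicative on `O` is a homomorphism on the `O`-units: inverses. -/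
theorem rho_inv {O : Subring F0} {ρ : F0 → L} (hone : ρ 1 = 1)
    (hmul : ∀ x y, x ∈ O → y ∈ O → ρ (x * y) = ρ x * ρ y) {x : F0} (hx : IsOUnit O x) :
    ρ x⁻¹ = (ρ x)⁻¹ := by
  have h := hmul x x⁻¹ hx.2.1 hx.2.2
  rw [mul_inv_cancel₀ hx.1, hone] at h
  exact eq_inv_of_mul_eq_one_right h.symm

theorem rho_ne_zero {O : Subring F0} {ρ : F0 → L} (hone : ρ 1 = 1)
    (hmul : ∀ x y, x ∈ O → y ∈ O → ρ (x * y) = ρ x * ρ y) {x : F0} (hx : IsOUnit O x) :
    ρ x ≠ 0 := by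
  intro h0
  have h := hmul x x⁻¹ hx.2.1 hx.2.2
  rw [mul_inv_cancel₀ hx.1, hone, h0, zero_mul] at h
  exact one_ne_zero h

theorem rho_pow {O : Subring F0} {ρ : F0 → L} (hone : ρ 1 = 1)
    (hmul : ∀ x y, x ∈ O → y ∈ O → ρ (x * y) = ρ x * ρ y) {x : F0} (hx : x ∈ O) (n : ℕ) :
    ρ (x ^ n) = ρ x ^ n := by
  induction n with
  | zero => simpa using hone
  | succ n ih => rw [pow_succ, hmul _ _ (O.pow_mem hx n) hx, ih, pow_succ]

theorem rho_zpow {O : Subring F0} {ρ : F0 → L} (hone : ρ 1 = 1)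
    (hmul : ∀ x y, x ∈ O → y ∈ O → ρ (x * y) = ρ x * ρ y) {x : F0} (hx : IsOUnit O x) (n : ℤ) :
    ρ (x ^ n) = ρ x ^ n := by
  rcases n with n | n
  · simpa using rho_pow hone hmul hx.2.1 n
  · rw [zpow_negSucc, zpow_negSucc, rho_inv hone hmul (hx.pow (n + 1)),
      rho_pow hone hmul hx.2.1]

variable {k κ κ' : Type*} [Field k] [Field κ] [Field κ'] [Algebra k κ] [Algebra k κ']
variable [Algebra κ L]

/-- **(B0)** the characteristic-zero seam.  `O` is the valuation ring of `v_∞` in the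
characteristic-zero function field `F0`, `ρ` its reduction map (any map which is multiplicative
on `O`), with values in a field `L` containing the function field `κ` of the special fibre;
`T` is the (multiplicative) Hecke operator upstairs.  Hypotheses:

* `hmem` : units of `O` reduce into `κ`;
* `hT`   : `T` preserves `O`-units, and reduction intertwines `T` with `N_ψ ∘ φ`;
* `hval` : every nonzero function is a constant times an `O`-unit;
* `hconst` : a constant which is an `O`-unit reduces to a nonzero constant;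
* `hTeps : T ε = c₀ ε ^ (l + 1)`,  `hTh : T h = c₁ h ^ a w ^ p`.

Conclusion: for every `μ : ℤ` the reductions `Θ̄`, `h̄` of `Θ = h ε ^ (- μ)` and `h` satisfy
`N_ψ (φ Θ̄) = c̄ Θ̄ ^ (l + 1) h̄ ^ (a - (l + 1)) w̄ ^ p`, the hypothesis of `dvd_mul_ord_of_rel`. -/
theorem exists_rel_of_hecke (φ ψ : κ →ₐ[k] κ') (O : Subring F0) (ρ : F0 → L)
    (hone : ρ 1 = 1) (hmul : ∀ x y, x ∈ O → y ∈ O → ρ (x * y) = ρ x * ρ y)
    (hmem : ∀ x, IsOUnit O x → ∃ y : κ, algebraMap κ L y = ρ x)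
    (T : F0 →*₀ F0)
    (hT : ∀ x, IsOUnit O x → IsOUnit O (T x) ∧
      ∀ y : κ, algebraMap κ L y = ρ x → algebraMap κ L (normAlong ψ (φ y)) = ρ (T x))
    (hval : ∀ x : F0, x ≠ 0 → ∃ c : K0, c ≠ 0 ∧ IsOUnit O (algebraMap K0 F0 c * x))
    (hconst : ∀ c : K0, IsOUnit O (algebraMap K0 F0 c) →
      ∃ cb : k, cb ≠ 0 ∧ ρ (algebraMap K0 F0 c) = algebraMap κ L (algebraMap k κ cb))
    (p l : ℕ) (a μ : ℤ) {eps h w : F0} (heps : IsOUnit O eps) (hh : IsOUnit O h) (hw : w ≠ 0)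
    {c0 c1 : K0} (hc0 : c0 ≠ 0) (hc1 : c1 ≠ 0)
    (hTeps : T eps = algebraMap K0 F0 c0 * eps ^ (l + 1))
    (hTh : T h = algebraMap K0 F0 c1 * h ^ a * w ^ p) :
    ∃ (Θb hb wb : κ) (cb : k), Θb ≠ 0 ∧ hb ≠ 0 ∧ wb ≠ 0 ∧ cb ≠ 0 ∧
      algebraMap κ L Θb = ρ (h * eps ^ (-μ)) ∧ algebraMap κ L hb = ρ h ∧
      normAlong ψ (φ Θb)
        = algebraMap k κ cb * Θb ^ (l + 1) * hb ^ (a - ((l : ℤ) + 1)) * wb ^ p := by
  -- notation
  have hinj : Function.Injective (algebraMap κ L) := (algebraMap κ L).injective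
  set Θ : F0 := h * eps ^ (-μ) with hΘdef
  have hΘ : IsOUnit O Θ := hh.mul (heps.zpow _)
  -- normalise `w`
  obtain ⟨d, hd, hwu⟩ := hval w hw
  set wu : F0 := algebraMap K0 F0 d * w with hwudef
  have hdF : algebraMap K0 F0 d ≠ 0 := (map_ne_zero _).mpr hd
  have hc0F : algebraMap K0 F0 c0 ≠ 0 := (map_ne_zero _).mpr hc0
  have hc1F : algebraMap K0 F0 c1 ≠ 0 := (map_ne_zero _).mpr hc1
  -- the constant
  set C : K0 := c1 * c0 ^ (-μ) * (d ^ p)⁻¹ with hCdef
  have hCne : C ≠ 0 :=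
    mul_ne_zero (mul_ne_zero hc1 (zpow_ne_zero _ hc0)) (inv_ne_zero (pow_ne_zero _ hd))
  -- the upstairs relation
  have hrel0 : T Θ = algebraMap K0 F0 C * Θ ^ (l + 1) * h ^ (a - ((l : ℤ) + 1)) * wu ^ p := by
    rw [hΘdef, map_mul, map_zpow₀, hTh, hTeps, hCdef, hwudef]
    simp only [map_mul, map_zpow₀, map_inv₀, map_pow]
    have e1 : (h * eps ^ (-μ)) ^ (l + 1) = h ^ ((l : ℤ) + 1) * (eps ^ (l + 1)) ^ (-μ) := by
      rw [mul_pow, ← zpow_natCast h, ← zpow_natCast (eps ^ (-μ)), ← zpow_mul,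
        ← zpow_natCast eps, ← zpow_mul]
      push_cast
      rw [mul_comm (-μ) ((l : ℤ) + 1)]
    rw [e1, mul_zpow, mul_pow]
    have e2 : h ^ a = h ^ ((l : ℤ) + 1) * h ^ (a - ((l : ℤ) + 1)) := by
      rw [← zpow_add₀ hh.1]
      congr 1
      ring
    rw [e2]
    field_simp
  -- the constant is an `O`-unit
  have hM : IsOUnit O (Θ ^ (l + 1) * h ^ (a - ((l : ℤ) + 1)) * wu ^ p) :=
    ((hΘ.pow _).mul (hh.zpow _)).mul (hwu.pow _)
  have hTΘ := hT Θ hΘ
  have hCunit : IsOUnit O (algebraMap K0 F0 C) := by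
    have e : algebraMap K0 F0 C
        = T Θ * (Θ ^ (l + 1) * h ^ (a - ((l : ℤ) + 1)) * wu ^ p)⁻¹ := by
      rw [hrel0, eq_mul_inv_iff_mul_eq₀ hM.1]
      ring
    rw [e]
    exact hTΘ.1.mul hM.inv
  obtain ⟨cb, hcb, hρC⟩ := hconst C hCunit
  -- reductions
  obtain ⟨Θb, hΘb⟩ := hmem Θ hΘ
  obtain ⟨hb, hhb⟩ := hmem h hh
  obtain ⟨wb, hwb⟩ := hmem wu hwu
  have hne : ∀ {x : F0} {y : κ}, IsOUnit O x → algebraMap κ L y = ρ x → y ≠ 0 := by
    intro x y hx hy h0
    rw [h0, map_zero] at hy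
    exact rho_ne_zero hone hmul hx hy.symm
  refine ⟨Θb, hb, wb, cb, hne hΘ hΘb, hne hh hhb, hne hwu hwb, hcb, hΘb, hhb, ?_⟩
  apply hinj
  rw [hTΘ.2 Θb hΘb, hrel0]
  have h1 : IsOUnit O (algebraMap K0 F0 C * Θ ^ (l + 1)) := hCunit.mul (hΘ.pow _)
  have h2 : IsOUnit O (algebraMap K0 F0 C * Θ ^ (l + 1) * h ^ (a - ((l : ℤ) + 1))) :=
    h1.mul (hh.zpow _)
  rw [hmul _ _ h2.2.1 (hwu.pow p).2.1, hmul _ _ h1.2.1 (hh.zpow _).2.1,
    hmul _ _ hCunit.2.1 (hΘ.pow _).2.1, rho_pow hone hmul hΘ.2.1, rho_zpow hone hmul hh,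
    rho_pow hone hmul hwu.2.1, hρC, ← hΘb, ← hhb, ← hwb]
  simp only [map_mul, map_pow, map_zpow₀]

/-- normalisation of `h` to an `O`-unit: if `T h = c₁ h ^ a w ^ p`, and `T` maps constants to
constants, then a constant multiple `d h` of `h` is an `O`-unit with `T (d h) = c₁' (d h) ^ a w ^ p`
(same `w`). -/
theorem exists_unit_multiple (O : Subring F0) (T : F0 →*₀ F0)
    (hTK : ∀ c : K0, ∃ c' : K0, T (algebraMap K0 F0 c) = algebraMap K0 F0 c')
    (hval : ∀ x : F0, x ≠ 0 → ∃ c : K0, c ≠ 0 ∧ IsOUnit O (algebraMap K0 F0 c * x))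
    (p : ℕ) (a : ℤ) {h w : F0} (hh : h ≠ 0) {c1 : K0} (hc1 : c1 ≠ 0)
    (hTh : T h = algebraMap K0 F0 c1 * h ^ a * w ^ p) :
    ∃ (d c1' : K0), d ≠ 0 ∧ c1' ≠ 0 ∧ IsOUnit O (algebraMap K0 F0 d * h) ∧
      T (algebraMap K0 F0 d * h)
        = algebraMap K0 F0 c1' * (algebraMap K0 F0 d * h) ^ a * w ^ p := by
  obtain ⟨d, hd, hu⟩ := hval h hh
  obtain ⟨d', hd'⟩ := hTK d
  have hdF : algebraMap K0 F0 d ≠ 0 := (map_ne_zero _).mpr hd
  have hd'ne : d' ≠ 0 := by
    rintro rfl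
    rw [map_zero] at hd'
    exact hdF ((map_eq_zero T).mp hd')
  refine ⟨d, d' * c1 * (d ^ a)⁻¹, hd, mul_ne_zero (mul_ne_zero hd'ne hc1)
    (inv_ne_zero (zpow_ne_zero _ hd)), hu, ?_⟩
  rw [map_mul, hd', hTh, mul_zpow]
  simp only [map_mul, map_inv₀, map_zpow₀]
  have : algebraMap K0 F0 d ^ a ≠ 0 := zpow_ne_zero _ hdF
  field_simp

end Seam

/-! ### (C) the `μ`-bookkeeping -/

section Mu

/-- **(C)**, Jensen form.  `n x`, `ν x` the residues of `dlog h̄`, `dlog ε̄` at the node `x`,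
`t x` the thickness (mod `p`).  If `t x * ν x = V` is a unit independent of `x` (exact Jensen for
`ε`) and `t x * n x = C` is independent of `x` (output of step (4) + peu ramifié), then
`n x ≡ μ ν x mod p` with one `μ`. -/
theorem exists_mu_of_thickness {X : Type*} (p : ℕ) [Fact p.Prime] (n ν : X → ℤ)
    (t : X → ZMod p) {C V : ZMod p} (hV : V ≠ 0) (hn : ∀ x, t x * (n x : ZMod p) = C)
    (hν : ∀ x, t x * (ν x : ZMod p) = V) :
    ∃ μ : ℤ, ∀ x, (p : ℤ) ∣ n x - μ * ν x := by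
  obtain ⟨μ, hμ⟩ := ZMod.intCast_surjective (C * V⁻¹)
  refine ⟨μ, fun x => ?_⟩
  rw [← ZMod.intCast_zmod_eq_zero_iff_dvd]
  push_cast
  rw [hμ, sub_eq_zero]
  have ht : t x ≠ 0 := by
    rintro h0
    have := hν x
    rw [h0, zero_mul] at this
    exact hV this.symm
  apply mul_left_cancel₀ ht
  rw [hn x, mul_comm (C * V⁻¹), ← mul_assoc, hν x, mul_comm V, mul_assoc, inv_mul_cancel₀ hV,
    mul_one]

/-- **(C)**, first-order form (cover-free designs): if for every node `x` some `m x` has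
`n x + m x * ν x ≡ 0` and the classes `m x mod p` are all equal, then `n x ≡ μ ν x` with one
`μ`. -/
theorem exists_mu_of_const {X : Type*} (p : ℕ) (n ν m : X → ℤ)
    (hm : ∀ x, (p : ℤ) ∣ n x + m x * ν x) (hconst : ∀ x y, (p : ℤ) ∣ m x - m y) :
    ∃ μ : ℤ, ∀ x, (p : ℤ) ∣ n x - μ * ν x := by
  rcases isEmpty_or_nonempty X with hX | ⟨⟨x0⟩⟩
  · exact ⟨0, fun x => (hX.false x).elim⟩
  · refine ⟨-m x0, fun x => ?_⟩
    have h1 := hm x
    have h2 : (p : ℤ) ∣ (m x0 - m x) * ν x := Dvd.dvd.mul_right (hconst x0 x) _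
    have e : n x - -m x0 * ν x = n x + m x * ν x + (m x0 - m x) * ν x := by ring
    rw [e]
    exact dvd_add h1 h2

end Mu

/-! ### the Eisenstein step, assembled on the special fibre -/

section Step

variable {K F F' : Type*} [Field K] [Field F] [Field F'] [Algebra K F] [Algebra K F']
variable [HasPrincipalDivisors K F'] [HasPrincipalDivisors K F]

omit [HasPrincipalDivisors K F'] [HasPrincipalDivisors K F] in
/-- order of `Θ = h ε ^ (- μ)`. -/
theorem ord_theta (v : Place K F) {hb eb : F} (hhb : hb ≠ 0) (heb : eb ≠ 0) (μ : ℤ) :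
    v.ord (hb * eb ^ (-μ)) = v.ord hb - μ * v.ord eb := by
  rw [v.ord_mul hhb (zpow_ne_zero _ heb), v.ord_zpow]
  ring

/-- **the Eisenstein step** (step (5) of the blueprint, special-fibre part).
`C` = cusps (stable under the correspondence), `S` = nodes.  Suppose

* off `C ∪ S` the orders of `h̄` and of `ε̄` are divisible by `p`
  (`h̄` is locally a unit times a `p`-th power at smooth points; `ε̄` is a unit there);
* at the nodes, `ord_x h̄ ≡ μ ord_x ε̄ mod p` with ONE `μ` (the output of (C));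
* `N_ψ (φ Θ̄) = c̄ Θ̄ ^ (l + 1) h̄ ^ (a - (l + 1)) w̄ ^ p` for `Θ̄ = h̄ ε̄ ^ (- μ)` (the output of (B0));
* `p ∤ a - (l + 1)` (the witness prime).

Then `p ∣ ord_x h̄` at EVERY place outside the cusps: all residues of `dlog h̄` at the nodes
vanish. -/
theorem eisenstein_step (φ ψ : F →ₐ[K] F') (hφ : φ.toRingHom.IsIntegral)
    (hψ : ψ.toRingHom.IsIntegral) (hfin : FiniteAlong K ψ) (hN : NormFormulaAlong K ψ hfin)
    (C S : Set (Place K F))
    (hC : ∀ w : Place K F', w.restrictAlong φ hφ ∈ C → w.restrictAlong ψ hψ ∈ C)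
    (p l : ℕ) (hp : p.Prime) (a μ : ℤ) (ha : ¬ (p : ℤ) ∣ a - ((l : ℤ) + 1))
    {hb eb wb : F} {c : K} (hhb : hb ≠ 0) (heb : eb ≠ 0) (hwb : wb ≠ 0) (hc : c ≠ 0)
    (hsmooth_h : ∀ v : Place K F, v ∉ C → v ∉ S → (p : ℤ) ∣ v.ord hb)
    (hsmooth_e : ∀ v : Place K F, v ∉ C → v ∉ S → (p : ℤ) ∣ v.ord eb)
    (hnode : ∀ v : Place K F, v ∈ S → (p : ℤ) ∣ v.ord hb - μ * v.ord eb)
    (hrel : normAlong ψ (φ (hb * eb ^ (-μ)))
      = algebraMap K F c * (hb * eb ^ (-μ)) ^ (l + 1) * hb ^ (a - ((l : ℤ) + 1)) * wb ^ p)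
    (v : Place K F) (hv : v ∉ C) :
    (p : ℤ) ∣ v.ord hb := by
  have hΘ : hb * eb ^ (-μ) ≠ 0 := mul_ne_zero hhb (zpow_ne_zero _ heb)
  refine dvd_ord_of_rel φ ψ hφ hψ hfin hN C hC p l hp a ha hΘ hhb hwb hc hrel ?_ v hv
  intro y hy
  rw [ord_theta y hhb heb μ]
  by_cases hyS : y ∈ S
  · exact hnode y hyS
  · exact dvd_sub (hsmooth_h y hy hyS) (Dvd.dvd.mul_left (hsmooth_e y hy hyS) _)

end Step

end Fermat.Agent.S44.helper1043
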