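import Mathlib
import Fermat.Agent.S44.helper1043_OrdCmp
import Fermat.Agent.S35.helper1928_ResField
import Fermat.Agent.S36.helper5460_DeltaUnit
import Fermat.Agent.S29.helper8217_KummerClass
import Fermat.Agent.S37.helper1588_FFKDegree

/-!
# S44 block (EIS): Spec

`p` prime, `p ∤ M`, level `N = p * M`, `A` a valuation subring of `ℚ̄` above `p`, `k` its residue
field, `κ(M) = modularFunctionFieldFullC k M` the function field of the `∞`-component of the
special fibre, `ρ = helper882.gpRho A (p * M)` the reduction at the Gauss valuation `v_∞`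
(landed: values in `κ(M)`, `helper1928.gpRho_mem_fullC`).

* `alphaC`, `betaC : κ(M) →ₐ[k] κ(M l)` : inclusion and `q ↦ q ^ l` on the special fibre;
* `rhoK` : `ρ` with values in `κ(M)`;  `epsFn = Δ(q) / Δ(q ^ p)`;  `IsNonCusp x : 0 ≤ ord_x j`;
* `Stmt_EIS` : THE BLOCK EXPORT.  For a `p`-Kummer function `h` of Gauss norm `1` whose class is
  a `T_l`-eigenvector with eigenvalue `a`, `p ∤ a - (l + 1)`: if
  `ord_x (ρ h) ≡ μ ord_x (ρ ε) mod p` at every non-cuspidal place `x` of the special fibre with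
  one `μ` (output of (CNT) off the nodes and of (PL) at the nodes), then `p ∣ ord_x (ρ h)` at
  every non-cuspidal place `x`;
* the leaf statements `Stmt_TlMult`, `Stmt_DeltaMult`, `Stmt_RedComm`, `Stmt_EpsUnit`,
  `Stmt_FibreCorr` from which `helper1043_EisAsm` proves `Stmt_EIS`.
-/

set_option autoImplicit false

noncomputable section

namespace Fermat.Agent.S44.helper1043

open ModularCurve AlgebraicCurve
open Fermat.Agent.S24.helper24 (Kbar FN)
open Fermat.Agent.S29.helper36 (normAlong)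

/-! ### The correspondence on the special fibre -/

section SpecialFibre

variable (k : Type) [Field k] (M l : ℕ) [NeZero M] [NeZero l]

/-- `ᾱ` : the inclusion `κ(M) ⊆ κ(M l)`. -/
def alphaC : ↥(modularFunctionFieldFullC k M) →ₐ[k] ↥(modularFunctionFieldFullC k (M * l)) :=
  haveI : NeZero (M * l) := ⟨Nat.mul_ne_zero (NeZero.ne M) (NeZero.ne l)⟩
  IntermediateField.inclusion (full_degeneracyC_le k (dvd_mul_right M l))

/-- `β̄` : `f(q) ↦ f(q ^ l)`, `κ(M) → κ(M l)`. -/
def betaC : ↥(modularFunctionFieldFullC k M) →ₐ[k] ↥(modularFunctionFieldFullC k (M * l)) :=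
  ((qExpandAlgHomC k l).comp (modularFunctionFieldFullC k M).val).codRestrict
    (modularFunctionFieldFullC k (M * l)).toSubalgebra
    (fun x => full_degeneracyC_map_le k M l ⟨x, x.2, rfl⟩)

@[simp]
theorem coe_alphaC (x : ↥(modularFunctionFieldFullC k M)) :
    ((alphaC k M l x : ↥(modularFunctionFieldFullC k (M * l))) : LaurentSeries k) = x :=
  IntermediateField.coe_inclusion _ x

omit [NeZero M] in
@[simp]
theorem coe_betaC (x : ↥(modularFunctionFieldFullC k M)) :
    ((betaC k M l x : ↥(modularFunctionFieldFullC k (M * l))) : LaurentSeries k)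
      = qExpand k l (x : LaurentSeries k) := rfl

end SpecialFibre

/-! ### The block export -/

section Spec

set_option synthInstance.maxHeartbeats 400000

variable (p M : ℕ) [Fact p.Prime] [NeZero M] (hpM : ¬ p ∣ M) (A : ValuationSubring Kbar)
  (hA : (p : Kbar) ∈ A.nonunits)

/-- the reduction at `v_∞` of a function of level `p * M`, as an element of the function field
`κ(M)` of the special fibre (`0` outside the Gauss ring). -/
def rhoK (f : FN (p * M)) : ↥(modularFunctionFieldFullC (IsLocalRing.ResidueField A) M) :=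
  ⟨Fermat.Agent.S35.helper882.gpRho A (p * M) f,
    Fermat.Agent.S35.helper1928.gpRho_mem_fullC p M hpM A hA f⟩

/-- `ε = Δ(q) / Δ(q ^ p)`, a function of level `p * M`. -/
def epsFn : FN (p * M) :=
  haveI : NeZero p := ⟨(Fact.out : p.Prime).ne_zero⟩
  haveI : NeZero (p * M) := ⟨Nat.mul_ne_zero (NeZero.ne p) (NeZero.ne M)⟩
  (Fermat.Agent.S36.helper5460.deltaQuot (p * M) p (dvd_mul_right p M))⁻¹

/-- a place of the special fibre which is not a cusp: `j` is regular there. -/
def IsNonCusp {k : Type} [Field k] (M : ℕ) (x : Place k ↥(modularFunctionFieldFullC k M)) :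
    Prop :=
  0 ≤ x.ord (Fermat.Agent.S37.helper1588.jC k M)

/-- the multiplicative Hecke operator `T_l` on functions of level `N`, landed S29 vocabulary
(`= Norm_{α} ∘ β`). -/
abbrev heckeT (N : ℕ) [NeZero N] (l : Nat.Primes) (u : FN N) : FN N :=
  haveI : NeZero (l : ℕ) := ⟨l.2.ne_zero⟩
  Fermat.Agent.S29.helper8217.heckeFun (L := Kbar) N l u

/-- **(EIS)**, the export of the Eisenstein block. -/
def Stmt_EIS : Prop :=
  haveI : NeZero p := ⟨(Fact.out : p.Prime).ne_zero⟩
  haveI : NeZero (p * M) := ⟨Nat.mul_ne_zero (NeZero.ne p) (NeZero.ne M)⟩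
  ∀ h : FN (p * M), Fermat.Agent.S29.helper8217.IsKummer Kbar p h →
    (Fermat.Agent.S35.helper882.gpRing A (p * M)).valuation h = 1 →
    ∀ (l : Nat.Primes) (a : ℤ), ¬ (l : ℕ) ∣ p * M →
      heckeOperatorBar (p * M) l (Fermat.Agent.S29.helper8217.kummerClass Kbar p h)
        = a • Fermat.Agent.S29.helper8217.kummerClass Kbar p h →
      ¬ (p : ℤ) ∣ a - ((l : ℕ) + 1) →
    ∀ μ : ℤ,
      (∀ x : Place (IsLocalRing.ResidueField A)
          ↥(modularFunctionFieldFullC (IsLocalRing.ResidueField A) M),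
        IsNonCusp M x →
          (p : ℤ) ∣ x.ord (rhoK p M hpM A hA h) - μ * x.ord (rhoK p M hpM A hA (epsFn p M))) →
    ∀ x : Place (IsLocalRing.ResidueField A)
        ↥(modularFunctionFieldFullC (IsLocalRing.ResidueField A) M),
      IsNonCusp M x → (p : ℤ) ∣ x.ord (rhoK p M hpM A hA h)

/-! ### The leaf statements of the block -/

/-- **(TLMULT-A)**: a `T_l`-eigenclass has a multiplicatively `T_l`-eigen Kummer function
(any level `N`, any modulus `n`). -/
def Stmt_TlMult (N : ℕ) [NeZero N] (n : ℕ) : Prop :=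
  ∀ h : FN N, Fermat.Agent.S29.helper8217.IsKummer Kbar n h → ∀ (l : Nat.Primes) (a : ℤ),
    heckeOperatorBar N l (Fermat.Agent.S29.helper8217.kummerClass Kbar n h)
      = a • Fermat.Agent.S29.helper8217.kummerClass Kbar n h →
    ∃ (w : FN N) (c : Kbar), w ≠ 0 ∧ c ≠ 0 ∧
      heckeT N l h = algebraMap Kbar (FN N) c * h ^ a * w ^ n

/-- **(DELTAMULT)**: `T_l ε = c₀ ε ^ (l + 1)` for `ε = Δ(q) / Δ(q ^ p)`, `l ∤ p M`. -/
def Stmt_DeltaMult : Prop :=
  haveI : NeZero p := ⟨(Fact.out : p.Prime).ne_zero⟩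
  haveI : NeZero (p * M) := ⟨Nat.mul_ne_zero (NeZero.ne p) (NeZero.ne M)⟩
  ∀ l : Nat.Primes, ¬ (l : ℕ) ∣ p * M → ∃ c0 : Kbar, c0 ≠ 0 ∧
    heckeT (p * M) l (epsFn p M)
      = algebraMap Kbar (FN (p * M)) c0 * epsFn p M ^ ((l : ℕ) + 1)

/-- **(EPSUNIT)**: `ε` is a unit of the Gauss ring at `v_∞`. -/
def Stmt_EpsUnit : Prop :=
  epsFn p M ∈ Fermat.Agent.S35.helper882.gpRing A (p * M) ∧
    (epsFn p M)⁻¹ ∈ Fermat.Agent.S35.helper882.gpRing A (p * M)

/-- **(REDCOMM)**: `T_l` preserves the Gauss ring at `v_∞` and commutes with reduction: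
`ρ (T_l x) = N_{ᾱ} (β̄ (ρ x))` in `κ(M)`. -/
def Stmt_RedComm : Prop :=
  haveI : NeZero p := ⟨(Fact.out : p.Prime).ne_zero⟩
  haveI : NeZero (p * M) := ⟨Nat.mul_ne_zero (NeZero.ne p) (NeZero.ne M)⟩
  ∀ l : Nat.Primes, ¬ (l : ℕ) ∣ p * M →
    haveI : NeZero (l : ℕ) := ⟨l.2.ne_zero⟩
    ∀ x : FN (p * M), x ∈ Fermat.Agent.S35.helper882.gpRing A (p * M) →
      heckeT (p * M) l x ∈ Fermat.Agent.S35.helper882.gpRing A (p * M) ∧
      rhoK p M hpM A hA (heckeT (p * M) l x)
        = normAlong (alphaC (IsLocalRing.ResidueField A) M l)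
            (betaC (IsLocalRing.ResidueField A) M l (rhoK p M hpM A hA x))

end Spec

/-- **(FIBRECORR)**: the Hecke correspondence `(ᾱ, β̄)` on the special fibre has the inputs of
the norm-order formula, and a place of `κ(M l)` at which `j` is regular lies over a non-cuspidal
place along `β̄` (modular equation). -/
def Stmt_FibreCorr (k : Type) [Field k] (M l : ℕ) [NeZero M] [NeZero l] : Prop :=
  ∃ (_ : HasPrincipalDivisors k ↥(modularFunctionFieldFullC k M))
    (_ : HasPrincipalDivisors k ↥(modularFunctionFieldFullC k (M * l)))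
    (hβ : (betaC k M l).toRingHom.IsIntegral) (hα : (alphaC k M l).toRingHom.IsIntegral)
    (hfin : FiniteAlong k (alphaC k M l)),
    NormFormulaAlong k (alphaC k M l) hfin ∧
      ∀ w : Place k ↥(modularFunctionFieldFullC k (M * l)),
        IsNonCusp M (w.restrictAlong (alphaC k M l) hα) →
          IsNonCusp M (w.restrictAlong (betaC k M l) hβ)

end Fermat.Agent.S44.helper1043
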