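import Mathlib
import Fermat.Agent.S44.helper1043_EisSpec
import Fermat.Agent.S37.helper8426_HeckeInputs
import Fermat.Agent.S37.helper4136_HeckeInputsMod
import Fermat.Agent.S29.helper36_FunctionFieldL

/-!
# S44 block (EIS): assembly

`stmt_EIS_of_leaves` : the block export `Stmt_EIS` from the leaf statements
`Stmt_TlMult` (proved here: `stmt_TlMult`), `Stmt_DeltaMult`, `Stmt_EpsUnit`, `Stmt_RedComm`,
`Stmt_FibreCorr`, through the carrier-free core `helper1043_OrdCmp`
(`exists_rel_of_hecke` + `dvd_ord_of_rel`).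
-/

set_option autoImplicit false
set_option linter.style.haveILetI false

noncomputable section

namespace Fermat.Agent.S44.helper1043

open ModularCurve AlgebraicCurve
open Fermat.Agent.S24.helper24 (Kbar FN)
open Fermat.Agent.S29.helper36 (normAlong heckeNorm)

/-! ### `T_l` upstairs -/

section Upstairs

variable (N : ℕ) [NeZero N] (l : Nat.Primes)

theorem heckeT_eq_heckeNorm (u : FN N) :
    heckeT N l u = (haveI : NeZero (l : ℕ) := ⟨l.2.ne_zero⟩; heckeNorm N l u) := rfl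

/-- `T_l` as a monoid-with-zero homomorphism. -/
def heckeT0 : FN N →*₀ FN N :=
  haveI : NeZero (l : ℕ) := ⟨l.2.ne_zero⟩
  { toFun := heckeT N l
    map_zero' := by
      obtain ⟨hα, hβ, hP, hfin, hFI, hN⟩ := Fermat.Agent.S37.helper8426.heckeInputsAlong N l
      show heckeNorm N l (0 : FN N) = 0
      rw [Fermat.Agent.S29.helper36.heckeNorm_apply, map_zero]
      exact Fermat.Agent.S29.helper36.normAlong_zero _ hfin
    map_one' := by
      show heckeNorm N l (1 : FN N) = 1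
      exact map_one _
    map_mul' := fun x y => by
      show heckeNorm N l (x * y) = heckeNorm N l x * heckeNorm N l y
      exact map_mul _ x y }

theorem heckeT0_apply (u : FN N) : heckeT0 N l u = heckeT N l u := rfl

/-- **(TLMULT-A)** from the landed S29 Kummer-class calculus. -/
theorem stmt_TlMult (n : ℕ) (hn : n ≠ 0) : Stmt_TlMult N n := by
  intro h hK l a heig
  haveI : NeZero (l : ℕ) := ⟨l.2.ne_zero⟩
  haveI : HasPrincipalDivisors Kbar (FN N) :=
    Fermat.Agent.S37.helper4136.hasPrincipalDivisors_level N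
  obtain ⟨hK', hcl⟩ := Fermat.Agent.S29.helper8217.heckeOperatorBar_kummerClass l
    (Fermat.Agent.S37.helper8426.heckeInputsAlong N l) hn hK
  rw [heig, ← Fermat.Agent.S29.helper8217.kummerClass_zpow hK a] at hcl
  obtain ⟨w, c, hw, hc, hcv, he⟩ :=
    (Fermat.Agent.S29.helper8217.kummerClass_eq_iff hn hK' (hK.zpow a)).mp hcl.symm
  obtain ⟨c', rfl⟩ := Fermat.Agent.S29.helper36.exists_algebraMap_eq_of_ord_eq_zero Kbar N hcv
  refine ⟨w, c', hw, fun h0 => hc (by rw [h0, map_zero]), ?_⟩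
  show Fermat.Agent.S29.helper8217.heckeFun (L := Kbar) N l h = _
  rw [he]
  ring

end Upstairs

/-! ### Units of the Gauss ring -/

section GaussUnits

variable {F : Type*} [Field F] (V : ValuationSubring F)

theorem isOUnit_of_valuation_eq_one {x : F} (h : V.valuation x = 1) : IsOUnit V.toSubring x := by
  have hx : x ≠ 0 := by
    rintro rfl
    rw [map_zero] at h
    exact zero_ne_one h
  refine ⟨hx, (V.valuation_le_one_iff x).mp h.le, (V.valuation_le_one_iff x⁻¹).mp ?_⟩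
  rw [map_inv₀, h, inv_one]

theorem valuation_eq_one_of_isOUnit {x : F} (h : IsOUnit V.toSubring x) : V.valuation x = 1 := by
  have h1 : V.valuation x ≤ 1 := (V.valuation_le_one_iff x).mpr h.2.1
  have h2 : V.valuation x⁻¹ ≤ 1 := (V.valuation_le_one_iff x⁻¹).mpr h.2.2
  have h0 : V.valuation x ≠ 0 := (Valuation.ne_zero_iff _).mpr h.1
  rw [map_inv₀, inv_le_one₀ (zero_lt_iff.mpr h0)] at h2
  exact le_antisymm h1 h2

end GaussUnits

/-! ### The assembly -/

section Assembly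

set_option synthInstance.maxHeartbeats 400000

variable (p M : ℕ) [Fact p.Prime] [NeZero M] (hpM : ¬ p ∣ M) (A : ValuationSubring Kbar)
  (hA : (p : Kbar) ∈ A.nonunits)

local notation "kk" => IsLocalRing.ResidueField A
set_option quotPrecheck false in
local notation "κ" => ↥(modularFunctionFieldFullC (IsLocalRing.ResidueField A) M)
local notation "LL" => LaurentSeries (IsLocalRing.ResidueField A)
local notation "VV" => Fermat.Agent.S35.helper882.gpRing A (p * M)
local notation "ρρ" => Fermat.Agent.S35.helper882.gpRho A (p * M)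

theorem coe_rhoK (f : FN (p * M)) : ((rhoK p M hpM A hA f : κ) : LL) = ρρ f := rfl

omit [Fact p.Prime] [NeZero M] in
theorem gp_hmul : ∀ x y, x ∈ (VV).toSubring → y ∈ (VV).toSubring → ρρ (x * y) = ρρ x * ρρ y :=
  fun _ _ hx hy => Fermat.Agent.S35.helper882.gpRho_mul A (p * M) hx hy

omit [Fact p.Prime] [NeZero M] in
theorem gp_hval (x : FN (p * M)) (hx : x ≠ 0) :
    ∃ c : Kbar, c ≠ 0 ∧ IsOUnit (VV).toSubring (algebraMap Kbar (FN (p * M)) c * x) := by
  obtain ⟨c, hc, hcv⟩ := Fermat.Agent.S35.helper882.exists_gpBase_eq_valuation A (p * M) hx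
  refine ⟨c⁻¹, inv_ne_zero hc, isOUnit_of_valuation_eq_one (VV) ?_⟩
  rw [map_mul, map_inv₀, map_inv₀, ← Fermat.Agent.S35.helper882.gpBase_apply, hcv]
  exact inv_mul_cancel₀ ((Valuation.ne_zero_iff _).mpr hx)

omit [Fact p.Prime] [NeZero M] in
theorem gp_hconst (c : Kbar) (hc : IsOUnit (VV).toSubring (algebraMap Kbar (FN (p * M)) c)) :
    ∃ cb : kk, cb ≠ 0 ∧ ρρ (algebraMap Kbar (FN (p * M)) c)
      = algebraMap κ LL (algebraMap kk κ cb) := by
  have hcA : c ∈ A := by
    rw [← Fermat.Agent.S35.helper882.gpBase_le_one_iff A (p * M),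
      Fermat.Agent.S35.helper882.gpBase_apply, ValuationSubring.valuation_le_one_iff]
    exact hc.2.1
  have hcA' : c⁻¹ ∈ A := by
    rw [← Fermat.Agent.S35.helper882.gpBase_le_one_iff A (p * M),
      Fermat.Agent.S35.helper882.gpBase_apply, ValuationSubring.valuation_le_one_iff, map_inv₀]
    exact hc.2.2
  have hc0 : c ≠ 0 := fun h0 => hc.1 (by rw [h0, map_zero])
  refine ⟨IsLocalRing.residue A ⟨c, hcA⟩, ?_, ?_⟩
  · intro h0
    have h1 : IsLocalRing.residue A (⟨c, hcA⟩ * ⟨c⁻¹, hcA'⟩) = 1 := by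
      have : (⟨c, hcA⟩ * ⟨c⁻¹, hcA'⟩ : A) = 1 := Subtype.ext (mul_inv_cancel₀ hc0)
      rw [this, map_one]
    rw [map_mul, h0, zero_mul] at h1
    exact zero_ne_one h1
  · rw [Fermat.Agent.S35.helper882.gpRho_algebraMap A (p * M) hcA]
    rfl

theorem gp_hT (hR : Stmt_RedComm p M hpM A hA) (l : Nat.Primes) (hl : ¬ (l : ℕ) ∣ p * M)
    [NeZero (l : ℕ)] [NeZero (p * M)] (x : FN (p * M)) (hx : IsOUnit (VV).toSubring x) :
    IsOUnit (VV).toSubring (heckeT0 (p * M) l x) ∧
      ∀ y : κ, algebraMap κ LL y = ρρ x →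
        algebraMap κ LL (normAlong (alphaC kk M l) (betaC kk M l y))
          = ρρ (heckeT0 (p * M) l x) := by
  obtain ⟨h1, h2⟩ := hR l hl x hx.2.1
  obtain ⟨h3, -⟩ := hR l hl x⁻¹ hx.2.2
  refine ⟨⟨?_, h1, ?_⟩, ?_⟩
  · rw [Ne, map_eq_zero]
    exact hx.1
  · rw [← map_inv₀]
    exact h3
  · intro y hy
    have hy' : y = rhoK p M hpM A hA x := Subtype.ext hy
    rw [hy']
    exact (congrArg (fun z : κ => (z : LL)) h2).symm

/-- **(EIS) from its leaves.** -/
theorem stmt_EIS_of_leaves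
    (hΔ : Stmt_DeltaMult p M) (hε : Stmt_EpsUnit p M A) (hR : Stmt_RedComm p M hpM A hA)
    (hF : ∀ l : Nat.Primes, ¬ (l : ℕ) ∣ p * M →
      haveI : NeZero (l : ℕ) := ⟨l.2.ne_zero⟩
      Stmt_FibreCorr (IsLocalRing.ResidueField A) M l) :
    Stmt_EIS p M hpM A hA := by
  haveI : NeZero p := ⟨(Fact.out : p.Prime).ne_zero⟩
  haveI : NeZero (p * M) := ⟨Nat.mul_ne_zero (NeZero.ne p) (NeZero.ne M)⟩
  intro h hK hv l a hl heig ha μ hμ x hx
  haveI : NeZero (l : ℕ) := ⟨l.2.ne_zero⟩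
  have hp : p.Prime := Fact.out
  -- leaves
  obtain ⟨w, c1, hw, hc1, hTh⟩ := stmt_TlMult (p * M) p hp.ne_zero h hK l a heig
  obtain ⟨c0, hc0, hTε⟩ := hΔ l hl
  obtain ⟨hP, hP', hβ, hα, hfin, hN, hcusp⟩ := hF l hl
  have hone : ρρ 1 = 1 := Fermat.Agent.S35.helper882.gpRho_one A (p * M)
  have hmul := gp_hmul p M A
  have hεu : IsOUnit (VV).toSubring (epsFn p M) :=
    ⟨inv_ne_zero (Fermat.Agent.S36.helper5460.deltaQuot_ne_zero (p * M) p _), hε.1, hε.2⟩
  have hhu : IsOUnit (VV).toSubring h := isOUnit_of_valuation_eq_one (VV) hv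
  -- the relation on the special fibre
  obtain ⟨Θb, hb, wb, cb, hΘb0, hhb0, hwb0, hcb0, hΘb, hhb, hrel⟩ :=
    exists_rel_of_hecke (K0 := Kbar) (k := kk) (betaC kk M l) (alphaC kk M l)
      (VV).toSubring ρρ hone hmul (fun x _ => ⟨rhoK p M hpM A hA x, rfl⟩) (heckeT0 (p * M) l)
      (gp_hT p M hpM A hA hR l hl) (gp_hval p M A) (gp_hconst p M A) p l a μ hεu hhu hw hc0 hc1
      hTε hTh
  have hhb' : hb = rhoK p M hpM A hA h := Subtype.ext hhb
  have hεb0 : rhoK p M hpM A hA (epsFn p M) ≠ 0 := by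
    intro h0
    have h1 := congrArg (fun z : κ => (z : LL)) h0
    exact rho_ne_zero hone hmul hεu h1
  have hΘb' : Θb = rhoK p M hpM A hA h * rhoK p M hpM A hA (epsFn p M) ^ (-μ) := by
    apply Subtype.ext
    have e1 : ((Θb : κ) : LL) = ρρ (h * epsFn p M ^ (-μ)) := hΘb
    rw [e1, hmul _ _ hhu.2.1 (hεu.zpow _).2.1, rho_zpow hone hmul hεu]
    have e2 : ((rhoK p M hpM A hA h * rhoK p M hpM A hA (epsFn p M) ^ (-μ) : κ) : LL)
        = ρρ h * ρρ (epsFn p M) ^ (-μ) := by
      have := map_zpow₀ (algebraMap κ LL) (rhoK p M hpM A hA (epsFn p M)) (-μ)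
      rw [show ((rhoK p M hpM A hA h * rhoK p M hpM A hA (epsFn p M) ^ (-μ) : κ) : LL)
        = algebraMap κ LL (rhoK p M hpM A hA h)
          * algebraMap κ LL (rhoK p M hpM A hA (epsFn p M) ^ (-μ)) from rfl, this]
      rfl
    rw [e2]
  -- the order comparison
  rw [← hhb']
  refine dvd_ord_of_rel (betaC kk M l) (alphaC kk M l) hβ hα hfin hN
    {y | ¬ IsNonCusp M y} (fun w hw hw' => hw (hcusp w hw')) p l hp a ha hΘb0 hhb0 hwb0 hcb0 hrel
    ?_ x (fun hx' => hx' hx)
  intro y hy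
  have hy' : IsNonCusp M y := not_not.mp hy
  rw [hΘb', ord_theta y (hhb' ▸ hhb0) hεb0 μ]
  exact hμ y hy'

end Assembly

end Fermat.Agent.S44.helper1043
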