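import Mathlib
import Fermat.Agent.S44.helper1043_EisSpec
import Fermat.Agent.S18.helper4307_PlacesFullC
import Fermat.Agent.S37.helper1187_IntClosureInsep
import Fermat.Agent.S37.helper4136_HeckeInputsMod
import Fermat.Agent.S37.helper4381_ModEq
import Fermat.Agent.S37.helper126_TorsionCore
import Fermat.Agent.S24.helper2549_Exchange

/-!
# S44 block (EIS), leaf FIBRECORR: the Hecke correspondence on the special fibre

`k` algebraically closed, the primes dividing `M * l` invertible in `k`, `l` prime.  Then the
pair `(ᾱ, β̄) = (alphaC, betaC) : κ(M) → κ(M l)` has all inputs of the norm-order formula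
(principal divisors, integrality, finiteness, norm formula — landed S18 / S37 bricks valid in any
characteristic), and by the modular equation a place of `κ(M l)` at which `j(q)` is regular is a
place at which `j(q ^ l)` is regular.  This is `Stmt_FibreCorr k M l`.
-/

set_option autoImplicit false
set_option linter.style.haveILetI false

noncomputable section

namespace Fermat.Agent.S44.helper1043

open ModularCurve AlgebraicCurve IntermediateField
open Fermat.Agent.S37.helper1588 (jC)

/-! ### The modular equation over an arbitrary coefficient ring -/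

section ModEq

/-- `j(q ^ l)` is integral over `ℤ[j(q)]` in `k((q))`, `l` prime, any field `k`. -/
theorem isIntegral_qExpand_jqModC (k : Type*) [Field k] (l : ℕ) [NeZero l] (hl : l.Prime) :
    IsIntegral (Subring.closure ({jqModC k} : Set (LaurentSeries k)))
      (qExpand k l (jqModC k)) := by
  haveI : Fact l.Prime := ⟨hl⟩
  obtain ⟨Φ, hΦ, -, h1, -⟩ := Fermat.Agent.S28.helper28.primeRel_int l
    (Fermat.Agent.S28.helper508.stmt_FormalPrime l)
  let g : LaurentSeries ℤ →+* LaurentSeries k := coeffMap (Int.castRingHom k)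
  have hgJ : g (jqModC ℤ) = jqModC k := coeffMap_jqModC _
  have hgV : g (qExpand ℤ l (jqModC ℤ)) = qExpand k l (jqModC k) := by
    show coeffMap (Int.castRingHom k) (qExpand ℤ l (jqModC ℤ)) = _
    rw [coeffMap_qExpand, coeffMap_jqModC]
  have h0 := congrArg g h1
  rw [map_zero, ← Polynomial.eval_map_apply, Polynomial.map_map,
    Fermat.Agent.S28.helper28.ringHom_comp_evalJ, hgJ, hgV] at h0
  exact Fermat.Agent.S37.helper4381.isIntegral_closure_singleton_of_evalJ _ _ Φ hΦ h0

end ModEq

/-! ### The correspondence -/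

section Corr

variable (k : Type) [Field k] (M l : ℕ) [NeZero M] [NeZero l]

theorem alphaC_jC : alphaC k M l (jC k M) = jC k (M * l) :=
  Subtype.ext (coe_alphaC k M l (jC k M))

omit [NeZero M] in
theorem coe_betaC_jC :
    ((betaC k M l (jC k M) : ↥(modularFunctionFieldFullC k (M * l))) : LaurentSeries k)
      = qExpand k l (jqModC k) := rfl

omit [NeZero M] in
/-- `j(q ^ l)` is integral over `ℤ[j(q)]` in `κ(M l)`. -/
theorem isIntegral_betaC_jC (hl : l.Prime) :
    IsIntegral (Subring.closure ({jC k (M * l)} : Set ↥(modularFunctionFieldFullC k (M * l))))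
      (betaC k M l (jC k M)) := by
  apply Fermat.Agent.S37.helper4381.isIntegral_closure_of_algebraMap
    (F' := LaurentSeries k)
  rw [Set.image_singleton]
  exact isIntegral_qExpand_jqModC k l hl

omit [NeZero M] in
/-- a valuation subring of `κ(M l)` containing `j(q)` contains `j(q ^ l)`. -/
theorem betaC_jC_mem_of_jC_mem (hl : l.Prime)
    (V : ValuationSubring ↥(modularFunctionFieldFullC k (M * l))) (h : jC k (M * l) ∈ V) :
    betaC k M l (jC k M) ∈ V := by
  have hint := isIntegral_betaC_jC k M l hl
  have hle : Subring.closure ({jC k (M * l)} : Set ↥(modularFunctionFieldFullC k (M * l)))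
      ≤ V.toSubring := by
    rw [Subring.closure_le]
    intro x hx
    rw [Set.mem_singleton_iff] at hx
    rw [hx]
    exact h
  obtain ⟨P, hP, hroot⟩ := hint
  have hint' : IsIntegral V (betaC k M l (jC k M)) := by
    refine ⟨P.map (Subring.inclusion hle), hP.map _, ?_⟩
    rw [Polynomial.eval₂_map]
    exact hroot
  obtain ⟨y, hy⟩ := (IsIntegrallyClosed.isIntegral_iff
    (R := V) (K := ↥(modularFunctionFieldFullC k (M * l)))).mp hint'
  rw [← hy]
  exact y.2

variable [IsAlgClosed k]

/-- **(FIBRECORR)**. -/
theorem stmt_FibreCorr (hl : l.Prime) (hk : ∀ q : ℕ, q.Prime → q ∣ M * l → (q : k) ≠ 0) :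
    Stmt_FibreCorr k M l := by
  haveI : NeZero (M * l) := ⟨Nat.mul_ne_zero (NeZero.ne M) (NeZero.ne l)⟩
  have hkM : ∀ q : ℕ, q.Prime → q ∣ M → (q : k) ≠ 0 :=
    fun q hq hqM => hk q hq (Dvd.dvd.mul_right hqM l)
  haveI hP : HasPrincipalDivisors k ↥(modularFunctionFieldFullC k M) :=
    Fermat.Agent.S18.helper4307.hasPrincipalDivisors_fullC k M hkM
  haveI hP' : HasPrincipalDivisors k ↥(modularFunctionFieldFullC k (M * l)) :=
    Fermat.Agent.S18.helper4307.hasPrincipalDivisors_fullC k (M * l) hk
  haveI hfd : FiniteDimensional k⟮jC k M⟯ ↥(modularFunctionFieldFullC k M) :=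
    Fermat.Agent.S37.helper1588.finiteDimensional_jC k M hkM
  haveI hfd' : FiniteDimensional k⟮jC k (M * l)⟯ ↥(modularFunctionFieldFullC k (M * l)) :=
    Fermat.Agent.S37.helper1588.finiteDimensional_jC k (M * l) hk
  haveI hfdα : FiniteDimensional k⟮alphaC k M l (jC k M)⟯
      ↥(modularFunctionFieldFullC k (M * l)) := by
    rw [alphaC_jC]
    exact hfd'
  have htr : Transcendental k (betaC k M l (jC k M)) := fun h =>
    Fermat.Agent.S37.helper1588.transcendental_jC k M
      ((isAlgebraic_algHom_iff (betaC k M l) (betaC k M l).toRingHom.injective).mp h)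
  haveI hfdβ : FiniteDimensional k⟮betaC k M l (jC k M)⟯
      ↥(modularFunctionFieldFullC k (M * l)) :=
    Fermat.Agent.S24.helper2549.exchange (jC k (M * l)) _ htr
  have hfinα : FiniteAlong k (alphaC k M l) :=
    Fermat.Agent.S37.helper4136.finiteAlong_of_finiteDimensional _ (jC k M)
  have hfinβ : FiniteAlong k (betaC k M l) :=
    Fermat.Agent.S37.helper4136.finiteAlong_of_finiteDimensional _ (jC k M)
  have hα := Fermat.Agent.S37.helper4136.isIntegral_of_finiteAlong _ hfinα
  have hβ := Fermat.Agent.S37.helper4136.isIntegral_of_finiteAlong _ hfinβ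
  refine ⟨hP, hP', hβ, hα, hfinα,
    Fermat.Agent.S37.helper1187.normFormulaAlong_of_isAlgClosed _ hfinα (jC k M), ?_⟩
  intro w hw
  unfold IsNonCusp at hw ⊢
  rw [Fermat.Agent.S37.helper126.ord_nonneg_iff] at hw ⊢
  have hw' : alphaC k M l (jC k M) ∈ w.toValuationSubring := hw
  rw [alphaC_jC] at hw'
  exact betaC_jC_mem_of_jC_mem k M l hl w.toValuationSubring hw'

end Corr

end Fermat.Agent.S44.helper1043
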