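import Mathlib
import Fermat.Agent.S44.helper1043_EisAsm
import Fermat.Agent.S44.helper1043_FibreCorr

/-!
# S44 block (EIS): the export from the three remaining leaves

`stmt_FibreCorr_residue` : `Stmt_FibreCorr` at the residue field of a valuation subring of `ℚ̄`
above `p`, for every prime `l ∤ p M`;
`stmt_EIS` : `Stmt_EIS` from `Stmt_DeltaMult` (DELTAMULT), `Stmt_EpsUnit` (EPSUNIT) and
`Stmt_RedComm` (REDCOMM).
-/

set_option autoImplicit false
set_option linter.style.haveILetI false

noncomputable section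

namespace Fermat.Agent.S44.helper1043

open ModularCurve AlgebraicCurve
open Fermat.Agent.S24.helper24 (Kbar FN)

section Final

set_option synthInstance.maxHeartbeats 400000

variable (p M : ℕ) [Fact p.Prime] [NeZero M] (hpM : ¬ p ∣ M) (A : ValuationSubring Kbar)
  (hA : (p : Kbar) ∈ A.nonunits)

include hpM hA in
/-- **(FIBRECORR)** at the residue field of `A`. -/
theorem stmt_FibreCorr_residue (l : Nat.Primes) (hl : ¬ (l : ℕ) ∣ p * M) :
    haveI : NeZero (l : ℕ) := ⟨l.2.ne_zero⟩
    Stmt_FibreCorr (IsLocalRing.ResidueField A) M l := by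
  haveI : NeZero (l : ℕ) := ⟨l.2.ne_zero⟩
  haveI : NeZero (M * l) := ⟨Nat.mul_ne_zero (NeZero.ne M) (NeZero.ne (l : ℕ))⟩
  have hp : p.Prime := Fact.out
  haveI := Fermat.Agent.Lib.helper6879.isAlgClosed_residueField A
  have hpl : ¬ p ∣ M * l := by
    intro h
    rcases (Nat.Prime.dvd_mul hp).mp h with h1 | h1
    · exact hpM h1
    · have : p = l := (Nat.prime_dvd_prime_iff_eq hp l.2).mp h1
      exact hl (this ▸ Dvd.intro M rfl)
  exact stmt_FibreCorr (IsLocalRing.ResidueField A) M l l.2
    (Fermat.Agent.S18.helper4307.natCast_ne_zero_residue (M * l) hp hpl A hA)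

/-- **(EIS)** from DELTAMULT, EPSUNIT and REDCOMM. -/
theorem stmt_EIS (hΔ : Stmt_DeltaMult p M) (hε : Stmt_EpsUnit p M A)
    (hR : Stmt_RedComm p M hpM A hA) : Stmt_EIS p M hpM A hA :=
  stmt_EIS_of_leaves p M hpM A hA hΔ hε hR
    (fun l hl => stmt_FibreCorr_residue p M hpM A hA l hl)

end Final

end Fermat.Agent.S44.helper1043
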