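/-
helper3840 — S44, brick L6-DELTAMULT (blueprint step (5), the characteristic-0 analytic input).

`Δ` is a *multiplicative* Hecke eigenfunction: for every prime `l`,
`Δ(l z) * ∏_{j mod l} Δ((z + j) / l) = (-1)^(l+1) * Δ(z)^(l+1)`,
on the landed multiplicative Hecke transform `helper2982.tmulT` (S29).  Consequently the modular
unit `eps_p(z) = Δ(z) / Δ(p z)` satisfies `tmulT l eps_p = eps_p ^ (l+1)` exactly for `l ≠ p`.

The proof is the Euler-product identity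
`∏_{j<l} P(ζ^j x) * P(x^(l^2)) = P(x^l)^(l+1)`, `P(x) = ∏_{n ≥ 1} (1 - x^n)`, `ζ` a primitive
`l`-th root of unity; no valence formula and no dimension count are used.
-/
import Mathlib
import Fermat.Agent.S29.helper2982_MultHecke

set_option autoImplicit false

open Complex
open UpperHalfPlane hiding I
open scoped Real MatrixGroups

namespace Fermat.Agent.S44.helper3840

noncomputable section

/-! ### Part 1: Euler's product and its behaviour under `x ↦ ζ^j x` -/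

/-- Euler's product `P(x) = ∏_{n ≥ 1} (1 - x^n)`. -/
def eulerP (x : ℂ) : ℂ := ∏' n : ℕ, (1 - x ^ (n + 1))

theorem multipliable_eulerP {x : ℂ} (hx : ‖x‖ < 1) :
    Multipliable fun n : ℕ => 1 - x ^ (n + 1) :=
  ModularForm.multipliable_one_sub_pow hx

/-- The finite cyclotomic product `∏_{j<l} (1 - ω^j y) = 1 - y^l`. -/
theorem prod_one_sub_root_mul {l : ℕ} (hl : 0 < l) {ω : ℂ} (hω : IsPrimitiveRoot ω l) (y : ℂ) :
    ∏ j ∈ Finset.range l, (1 - ω ^ j * y) = 1 - y ^ l := by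
  have h := X_pow_sub_C_eq_prod hω hl (rfl : y ^ l = y ^ l)
  have h2 := congrArg (Polynomial.eval 1) h
  simp only [Polynomial.eval_sub, Polynomial.eval_pow, Polynomial.eval_X, one_pow,
    Polynomial.eval_C, Polynomial.eval_prod] at h2
  exact h2.symm

/-- The product of all powers `ζ^j`, `j < l`, of a primitive `l`-th root of unity. -/
theorem prod_root_pow {l : ℕ} (hl : 0 < l) {ω : ℂ} (hω : IsPrimitiveRoot ω l) :
    ∏ j ∈ Finset.range l, ω ^ j = (-1) ^ (l + 1) := by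
  have h := X_pow_sub_C_eq_prod hω hl (one_pow l : (1 : ℂ) ^ l = 1)
  have h2 := congrArg (Polynomial.eval 0) h
  simp only [Polynomial.eval_sub, Polynomial.eval_pow, Polynomial.eval_X,
    Polynomial.eval_C, Polynomial.eval_prod, mul_one, zero_sub, zero_pow hl.ne'] at h2
  have h3 : ∏ j ∈ Finset.range l, (-(ω ^ j)) = (-1) ^ l * ∏ j ∈ Finset.range l, ω ^ j := by
    have hneg : ∀ j ∈ Finset.range l, -(ω ^ j) = (-1) * ω ^ j := fun j _ => by ring
    rw [Finset.prod_congr rfl hneg, Finset.prod_mul_distrib, Finset.prod_const, Finset.card_range]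
  rw [h3] at h2
  have h4 : ((-1 : ℂ) ^ l) * ((-1 : ℂ) ^ l) = 1 := by
    rw [← mul_pow]; norm_num
  calc ∏ j ∈ Finset.range l, ω ^ j
      = ((-1 : ℂ) ^ l * (-1 : ℂ) ^ l) * ∏ j ∈ Finset.range l, ω ^ j := by rw [h4, one_mul]
    _ = (-1 : ℂ) ^ l * ((-1 : ℂ) ^ l * ∏ j ∈ Finset.range l, ω ^ j) := by ring
    _ = (-1 : ℂ) ^ l * (-1) := by rw [← h2]
    _ = (-1) ^ (l + 1) := by ring

/-- The finite product over the `l`-th roots of unity of one Euler factor (`l` prime). -/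
theorem prod_euler_factor {l : ℕ} (hl : l.Prime) {ζ : ℂ} (hζ : IsPrimitiveRoot ζ l) (x : ℂ)
    (m : ℕ) :
    ∏ j ∈ Finset.range l, (1 - (ζ ^ j * x) ^ m) =
      if l ∣ m then (1 - x ^ m) ^ l else 1 - (x ^ l) ^ m := by
  have hrw : ∀ j : ℕ, (ζ ^ j * x) ^ m = (ζ ^ m) ^ j * x ^ m := fun j => by
    rw [mul_pow, ← pow_mul, ← pow_mul, mul_comm j m]
  simp only [hrw]
  split_ifs with hdvd
  · obtain ⟨k, rfl⟩ := hdvd
    have h1 : ζ ^ (l * k) = 1 := by rw [pow_mul, hζ.pow_eq_one, one_pow]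
    simp [h1]
  · have hcop : m.Coprime l := ((Nat.Prime.coprime_iff_not_dvd hl).mpr hdvd).symm
    rw [prod_one_sub_root_mul hl.pos (hζ.pow_of_coprime m hcop) (x ^ m), ← pow_mul, ← pow_mul,
      mul_comm]

/-- Re-indexing an infinite product supported on the multiples of `l` (shifted by one). -/
theorem tprod_ite_dvd {l : ℕ} (hl : 0 < l) (f : ℕ → ℂ) :
    ∏' n : ℕ, (if l ∣ n + 1 then f ((n + 1) / l - 1) else 1) = ∏' m : ℕ, f m := by
  set g : ℕ → ℂ := fun n => if l ∣ n + 1 then f ((n + 1) / l - 1) else 1 with hg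
  set φ : ℕ → ℕ := fun m => l * (m + 1) - 1 with hφ
  have hpos : ∀ m : ℕ, 1 ≤ l * (m + 1) := fun m => Nat.mul_pos hl (Nat.succ_pos m)
  have hφ1 : ∀ m : ℕ, φ m + 1 = l * (m + 1) := fun m => Nat.sub_add_cancel (hpos m)
  have hinj : Function.Injective φ := by
    intro a b hab
    have h1 : l * (a + 1) = l * (b + 1) := by rw [← hφ1, ← hφ1, hab]
    have := Nat.eq_of_mul_eq_mul_left hl h1
    omega
  have hgφ : ∀ m : ℕ, g (φ m) = f m := by
    intro m
    simp only [hg, hφ1]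
    rw [if_pos (Dvd.intro _ rfl), Nat.mul_div_cancel_left _ hl]
    simp
  have hsupp : Function.mulSupport g ⊆ Set.range φ := by
    intro n hn
    rw [Function.mem_mulSupport] at hn
    by_cases hd : l ∣ n + 1
    · obtain ⟨k, hk⟩ := hd
      have hk1 : 1 ≤ k := by
        rcases Nat.eq_zero_or_pos k with rfl | h
        · simp at hk
        · exact h
      refine ⟨k - 1, ?_⟩
      simp only [hφ]
      rw [Nat.sub_add_cancel hk1, ← hk]
      simp
    · exact absurd (by simp [hg, hd]) hn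
  rw [← hinj.tprod_eq hsupp]
  exact tprod_congr hgφ

theorem multipliable_ite_dvd {l : ℕ} (hl : 0 < l) (f : ℕ → ℂ) (hf : Multipliable f) :
    Multipliable fun n : ℕ => if l ∣ n + 1 then f ((n + 1) / l - 1) else 1 := by
  set g : ℕ → ℂ := fun n => if l ∣ n + 1 then f ((n + 1) / l - 1) else 1 with hg
  set φ : ℕ → ℕ := fun m => l * (m + 1) - 1 with hφ
  have hpos : ∀ m : ℕ, 1 ≤ l * (m + 1) := fun m => Nat.mul_pos hl (Nat.succ_pos m)
  have hφ1 : ∀ m : ℕ, φ m + 1 = l * (m + 1) := fun m => Nat.sub_add_cancel (hpos m)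
  have hinj : Function.Injective φ := by
    intro a b hab
    have h1 : l * (a + 1) = l * (b + 1) := by rw [← hφ1, ← hφ1, hab]
    have := Nat.eq_of_mul_eq_mul_left hl h1
    omega
  have hgφ : g ∘ φ = f := by
    funext m
    simp only [Function.comp, hg, hφ1]
    rw [if_pos (Dvd.intro _ rfl), Nat.mul_div_cancel_left _ hl]
    simp
  have hout : ∀ n ∉ Set.range φ, g n = 1 := by
    intro n hn
    by_cases hd : l ∣ n + 1
    · exfalso
      apply hn
      obtain ⟨k, hk⟩ := hd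
      have hk1 : 1 ≤ k := by
        rcases Nat.eq_zero_or_pos k with rfl | h
        · simp at hk
        · exact h
      refine ⟨k - 1, ?_⟩
      simp only [hφ]
      rw [Nat.sub_add_cancel hk1, ← hk]
      simp
    · simp [hg, hd]
  have := (hinj.multipliable_iff hout).mp (by rw [hgφ]; exact hf)
  exact this

theorem norm_root_pow_mul {l : ℕ} (hl : 0 < l) {ζ : ℂ} (hζ : IsPrimitiveRoot ζ l) (j : ℕ)
    (x : ℂ) : ‖ζ ^ j * x‖ = ‖x‖ := by
  have h1 : ‖ζ‖ = 1 := Complex.norm_eq_one_of_pow_eq_one hζ.pow_eq_one hl.ne'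
  rw [norm_mul, norm_pow, h1, one_pow, one_mul]

/-- **Euler-product form of the multiplicative Hecke relation**: for `l` prime, `ζ` a primitive
`l`-th root of unity and `‖x‖ < 1`,
`∏_{j<l} P(ζ^j x) * P(x^(l^2)) = P(x^l)^(l+1)`. -/
theorem eulerP_hecke {l : ℕ} (hl : l.Prime) {ζ : ℂ} (hζ : IsPrimitiveRoot ζ l) {x : ℂ}
    (hx : ‖x‖ < 1) :
    (∏ j ∈ Finset.range l, eulerP (ζ ^ j * x)) * eulerP (x ^ (l ^ 2)) =
      eulerP (x ^ l) ^ (l + 1) := by
  have hlpos := hl.pos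
  have hxl : ‖x ^ l‖ < 1 := by
    rw [norm_pow]; exact pow_lt_one₀ (norm_nonneg x) hx hl.ne_zero
  have hxl2 : ‖x ^ (l ^ 2)‖ < 1 := by
    rw [norm_pow]; exact pow_lt_one₀ (norm_nonneg x) hx (pow_ne_zero 2 hl.ne_zero)
  have hE : ∀ y : ℂ, eulerP y = ∏' n : ℕ, (1 - y ^ (n + 1)) := fun y => rfl
  have hquot : ∀ n : ℕ, l ∣ n + 1 → (n + 1) / l - 1 + 1 = (n + 1) / l := by
    intro n hdvd
    have : 1 ≤ (n + 1) / l :=
      (Nat.one_le_div_iff hlpos).mpr (Nat.le_of_dvd (Nat.succ_pos n) hdvd)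
    omega
  have hcM : Multipliable (fun n : ℕ =>
      if l ∣ n + 1 then 1 - (x ^ l) ^ ((n + 1) / l - 1 + 1) else 1) :=
    multipliable_ite_dvd hlpos (fun m => 1 - (x ^ l) ^ (m + 1)) (multipliable_eulerP hxl)
  have hdM : Multipliable (fun n : ℕ =>
      if l ∣ n + 1 then 1 - (x ^ (l ^ 2)) ^ ((n + 1) / l - 1 + 1) else 1) :=
    multipliable_ite_dvd hlpos (fun m => 1 - (x ^ (l ^ 2)) ^ (m + 1)) (multipliable_eulerP hxl2)
  have hcP : ∏' n : ℕ, (if l ∣ n + 1 then 1 - (x ^ l) ^ ((n + 1) / l - 1 + 1) else 1) =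
      eulerP (x ^ l) :=
    tprod_ite_dvd hlpos (fun m => 1 - (x ^ l) ^ (m + 1))
  have hdP : ∏' n : ℕ, (if l ∣ n + 1 then 1 - (x ^ (l ^ 2)) ^ ((n + 1) / l - 1 + 1) else 1) =
      eulerP (x ^ (l ^ 2)) :=
    tprod_ite_dvd hlpos (fun m => 1 - (x ^ (l ^ 2)) ^ (m + 1))
  have hbM : Multipliable (fun n : ℕ => if l ∣ n + 1 then (1 : ℂ) else 1 - (x ^ l) ^ (n + 1)) := by
    have hsum : Summable fun n : ℕ =>
        ‖(if l ∣ n + 1 then (0 : ℂ) else -(x ^ l) ^ (n + 1))‖ := by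
      refine Summable.of_norm_bounded (g := fun n : ℕ => ‖x ^ l‖ ^ (n + 1)) ?_ ?_
      · exact (summable_nat_add_iff 1).mpr (summable_geometric_of_lt_one (norm_nonneg _) hxl)
      · intro n
        by_cases hdvd : l ∣ n + 1
        · rw [if_pos hdvd, norm_zero, norm_zero]
          exact pow_nonneg (norm_nonneg _) _
        · rw [if_neg hdvd, norm_norm, norm_neg, norm_pow]
    refine (multipliable_one_add_of_summable hsum).congr fun n => ?_
    by_cases hdvd : l ∣ n + 1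
    · rw [if_pos hdvd, if_pos hdvd, add_zero]
    · rw [if_neg hdvd, if_neg hdvd, sub_eq_add_neg]
  have ha : ∀ n : ℕ, ∏ j ∈ Finset.range l, (1 - (ζ ^ j * x) ^ (n + 1)) =
      (if l ∣ n + 1 then (1 : ℂ) else 1 - (x ^ l) ^ (n + 1)) *
        (if l ∣ n + 1 then 1 - (x ^ l) ^ ((n + 1) / l - 1 + 1) else 1) ^ l := by
    intro n
    rw [prod_euler_factor hl hζ x (n + 1)]
    by_cases hdvd : l ∣ n + 1
    · rw [if_pos hdvd, if_pos hdvd, if_pos hdvd, hquot n hdvd, ← pow_mul,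
        Nat.mul_div_cancel' hdvd, one_mul]
    · rw [if_neg hdvd, if_neg hdvd, if_neg hdvd, one_pow, mul_one]
  have hbd : ∀ n : ℕ, (if l ∣ n + 1 then (1 : ℂ) else 1 - (x ^ l) ^ (n + 1)) *
      (if l ∣ n + 1 then 1 - (x ^ (l ^ 2)) ^ ((n + 1) / l - 1 + 1) else 1) =
        1 - (x ^ l) ^ (n + 1) := by
    intro n
    by_cases hdvd : l ∣ n + 1
    · rw [if_pos hdvd, if_pos hdvd, hquot n hdvd, one_mul, ← pow_mul, ← pow_mul, pow_two,
        mul_assoc, Nat.mul_div_cancel' hdvd]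
    · rw [if_neg hdvd, if_neg hdvd, mul_one]
  have h1 : ∏ j ∈ Finset.range l, eulerP (ζ ^ j * x) =
      (∏' n : ℕ, (if l ∣ n + 1 then (1 : ℂ) else 1 - (x ^ l) ^ (n + 1))) *
        eulerP (x ^ l) ^ l := by
    rw [Finset.prod_congr rfl (fun j _ => hE (ζ ^ j * x)),
      ← Multipliable.tprod_finsetProd (fun j _ =>
        multipliable_eulerP (by rw [norm_root_pow_mul hlpos hζ]; exact hx)),
      tprod_congr ha, Multipliable.tprod_mul hbM (hcM.pow l), Multipliable.tprod_pow hcM, hcP]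
  have h2 : (∏' n : ℕ, (if l ∣ n + 1 then (1 : ℂ) else 1 - (x ^ l) ^ (n + 1))) *
      eulerP (x ^ (l ^ 2)) = eulerP (x ^ l) := by
    rw [← hdP, ← Multipliable.tprod_mul hbM hdM, tprod_congr hbd, hE]
  rw [h1]
  calc (∏' n : ℕ, (if l ∣ n + 1 then (1 : ℂ) else 1 - (x ^ l) ^ (n + 1))) *
        eulerP (x ^ l) ^ l * eulerP (x ^ (l ^ 2))
      = ((∏' n : ℕ, (if l ∣ n + 1 then (1 : ℂ) else 1 - (x ^ l) ^ (n + 1))) *
          eulerP (x ^ (l ^ 2))) * eulerP (x ^ l) ^ l := by ring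
    _ = eulerP (x ^ l) ^ (l + 1) := by rw [h2]; ring

/-! ### Part 2: the discriminant as a multiplicative Hecke eigenfunction -/

local notation "Δ" => ModularForm.discriminant

open ModularForm (heckeMatrix heckeDiagMatrix coe_heckeMatrix_smul coe_heckeDiagMatrix_smul)
open Fermat.Agent.S29.helper2982 (tmulT)

/-- `F(q) = q * P(q)^24`, so that `Δ(τ) = F(e^{2πiτ})`. -/
def discF (q : ℂ) : ℂ := q * eulerP q ^ 24

theorem discriminant_eq_discF (τ : ℍ) : Δ τ = discF (cexp (2 * π * I * τ)) := by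
  have hq : Function.Periodic.qParam 1 (τ : ℂ) = cexp (2 * π * I * τ) := by
    simp [Function.Periodic.qParam]
  have hmul : Multipliable fun n : ℕ => 1 - (cexp (2 * π * I * τ)) ^ (n + 1) :=
    multipliable_eulerP (UpperHalfPlane.norm_exp_two_pi_I_lt_one τ)
  have h24 : ∀ n : ℕ, (1 - ModularForm.eta_q n (τ : ℂ)) ^ 24 =
      (1 - cexp (2 * π * I * τ) ^ (n + 1)) ^ 24 := by
    intro n
    rw [ModularForm.eta_q_eq_pow]
  rw [ModularForm.discriminant_eq_q_prod, tprod_congr h24, discF, eulerP, ← hmul.tprod_pow 24, hq]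

/-- The Hecke relation for `F(q) = q P(q)^24`. -/
theorem discF_hecke {l : ℕ} (hl : l.Prime) {ζ : ℂ} (hζ : IsPrimitiveRoot ζ l) {x : ℂ}
    (hx : ‖x‖ < 1) :
    discF (x ^ (l ^ 2)) * ∏ j ∈ Finset.range l, discF (ζ ^ j * x) =
      (-1) ^ (l + 1) * discF (x ^ l) ^ (l + 1) := by
  have h := eulerP_hecke hl hζ hx
  have hprod : ∏ j ∈ Finset.range l, discF (ζ ^ j * x) =
      (-1) ^ (l + 1) * x ^ l * (∏ j ∈ Finset.range l, eulerP (ζ ^ j * x)) ^ 24 := by
    unfold discF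
    rw [Finset.prod_mul_distrib, Finset.prod_pow, Finset.prod_mul_distrib, Finset.prod_const,
      Finset.card_range, prod_root_pow hl.pos hζ]
  rw [hprod]
  unfold discF
  calc x ^ (l ^ 2) * eulerP (x ^ (l ^ 2)) ^ 24 *
        ((-1) ^ (l + 1) * x ^ l * (∏ j ∈ Finset.range l, eulerP (ζ ^ j * x)) ^ 24)
      = (-1) ^ (l + 1) * x ^ (l ^ 2 + l) *
          ((∏ j ∈ Finset.range l, eulerP (ζ ^ j * x)) * eulerP (x ^ (l ^ 2))) ^ 24 := by ring
    _ = (-1) ^ (l + 1) * (x ^ l * eulerP (x ^ l) ^ 24) ^ (l + 1) := by rw [h]; ring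

theorem prod_zmod_val {M : Type*} [CommMonoid M] (l : ℕ) [NeZero l] (f : ℕ → M) :
    ∏ j : ZMod l, f j.val = ∏ i ∈ Finset.range l, f i := by
  cases l with
  | zero => exact absurd rfl (NeZero.ne 0)
  | succ n => exact Fin.prod_univ_eq_prod_range f (n + 1)

/-- **`z ↦ Δ(m z)` is a multiplicative Hecke eigenfunction** for `T_l`, `l ∤ m`:
`Δ(m l z) * ∏_{j mod l} Δ(m (z + j) / l) = (-1)^(l+1) * Δ(m z)^(l+1)`. -/
theorem tmulT_discriminant_comp (l : ℕ) [Fact l.Prime] {m : ℕ} (hm : m ≠ 0) (hlm : ¬ l ∣ m)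
    (z : ℍ) :
    tmulT l (fun w : ℍ => Δ (heckeDiagMatrix m • w)) z =
      (-1) ^ (l + 1) * Δ (heckeDiagMatrix m • z) ^ (l + 1) := by
  have hl : l.Prime := Fact.out
  have : NeZero l := ⟨hl.ne_zero⟩
  have hl0 : (l : ℂ) ≠ 0 := Nat.cast_ne_zero.mpr hl.ne_zero
  -- the auxiliary point `τ' = m z / l` and the parameters `x`, `ζ`
  set τ' : ℍ := heckeMatrix l 0 • (heckeDiagMatrix m • z) with hτ'
  have hτ'c : (τ' : ℂ) = (m : ℂ) * z / l := by
    rw [hτ', coe_heckeMatrix_smul hl.ne_zero, coe_heckeDiagMatrix_smul hm]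
    simp
  set x : ℂ := cexp (2 * π * I * τ') with hx
  have hxn : ‖x‖ < 1 := UpperHalfPlane.norm_exp_two_pi_I_lt_one τ'
  set ζ : ℂ := cexp (2 * π * I / l) ^ m with hζdef
  have hζ : IsPrimitiveRoot ζ l :=
    (Complex.isPrimitiveRoot_exp l hl.ne_zero).pow_of_coprime m
      ((Nat.Prime.coprime_iff_not_dvd hl).mpr hlm).symm
  have h1 : Δ (heckeDiagMatrix m • (heckeDiagMatrix l • z)) = discF (x ^ (l ^ 2)) := by
    rw [discriminant_eq_discF, hx, ← Complex.exp_nat_mul, coe_heckeDiagMatrix_smul hm,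
      coe_heckeDiagMatrix_smul hl.ne_zero, hτ'c]
    congr 2
    push_cast
    field_simp
  have h2 : ∀ j : ℕ, Δ (heckeDiagMatrix m • (heckeMatrix l j • z)) = discF (ζ ^ j * x) := by
    intro j
    rw [discriminant_eq_discF, hx, hζdef, ← Complex.exp_nat_mul, ← Complex.exp_nat_mul,
      ← Complex.exp_add, coe_heckeDiagMatrix_smul hm, coe_heckeMatrix_smul hl.ne_zero, hτ'c]
    congr 2
    field_simp
    ring
  have h3 : Δ (heckeDiagMatrix m • z) = discF (x ^ l) := by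
    rw [discriminant_eq_discF, hx, ← Complex.exp_nat_mul, coe_heckeDiagMatrix_smul hm, hτ'c]
    congr 2
    field_simp
  have hT : tmulT l (fun w : ℍ => Δ (heckeDiagMatrix m • w)) z =
      Δ (heckeDiagMatrix m • (heckeDiagMatrix l • z)) *
        ∏ j : ZMod l, Δ (heckeDiagMatrix m • (heckeMatrix l j.val • z)) := rfl
  rw [hT, h1, h3, Finset.prod_congr rfl (fun j _ => h2 j.val),
    prod_zmod_val l (fun j => discF (ζ ^ j * x))]
  exact discF_hecke hl hζ hxn

theorem heckeDiagMatrix_one_smul (w : ℍ) : heckeDiagMatrix 1 • w = w :=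
  UpperHalfPlane.ext (by rw [coe_heckeDiagMatrix_smul one_ne_zero]; simp)

/-- **`Δ` is a multiplicative Hecke eigenfunction**:
`Δ(l z) * ∏_{j mod l} Δ((z + j) / l) = (-1)^(l+1) * Δ(z)^(l+1)` for every prime `l`. -/
theorem tmulT_discriminant (l : ℕ) [Fact l.Prime] (z : ℍ) :
    tmulT l (fun w : ℍ => Δ w) z = (-1) ^ (l + 1) * Δ z ^ (l + 1) := by
  have hl : l.Prime := Fact.out
  have h := tmulT_discriminant_comp l one_ne_zero (Nat.Prime.not_dvd_one hl) z
  have e : (fun w : ℍ => Δ (heckeDiagMatrix 1 • w)) = fun w : ℍ => Δ w :=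
    funext fun w => by rw [heckeDiagMatrix_one_smul]
  rw [e, heckeDiagMatrix_one_smul] at h
  exact h

/-! ### Part 3: the modular unit `eps_p(z) = Δ(z) / Δ(p z)` -/

/-- The modular unit `eps_p(z) = Δ(z) / Δ(p z)` on `Γ₀(p)`. -/
def epsFun (p : ℕ) (z : ℍ) : ℂ := Δ z / Δ (heckeDiagMatrix p • z)

theorem epsFun_ne_zero (p : ℕ) (z : ℍ) : epsFun p z ≠ 0 :=
  div_ne_zero (ModularForm.discriminant_ne_zero z) (ModularForm.discriminant_ne_zero _)

/-- **The modular unit `eps_p` is a multiplicative Hecke eigenfunction with eigenvalue `l + 1`**,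
exactly (no constant): `tmulT l eps_p = eps_p ^ (l + 1)` for every prime `l ∤ p`. -/
theorem tmulT_epsFun (l : ℕ) [Fact l.Prime] {p : ℕ} (hp : p ≠ 0) (hlp : ¬ l ∣ p) (z : ℍ) :
    tmulT l (epsFun p) z = epsFun p z ^ (l + 1) := by
  have h0 : tmulT l (epsFun p) z =
      tmulT l (fun w : ℍ => Δ w) z / tmulT l (fun w : ℍ => Δ (heckeDiagMatrix p • w)) z :=
    Fermat.Agent.S29.helper2982.tmulT_div l (fun w : ℍ => Δ w)
      (fun w : ℍ => Δ (heckeDiagMatrix p • w)) z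
  have hs : ((-1 : ℂ)) ^ (l + 1) ≠ 0 := pow_ne_zero _ (by norm_num)
  rw [h0, tmulT_discriminant, tmulT_discriminant_comp l hp hlp, epsFun, div_pow,
    mul_div_mul_left _ _ hs]

end

end Fermat.Agent.S44.helper3840
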