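/-
helper3840 — S44, L6-DELTAFN (backup, AVATAR design): the Hecke avatar engine and the
function-field form of DELTAMULT.

* `evMer_of_avatar` : an element `u ∈ F_N` with an analytic avatar `U` (S36 `helper5460.IsAvatar`)
  is realised in `Mer` by `U`;
* `heckeFun_eq_of_avatar` : **the Hecke avatar engine** — if `u, v ∈ F_N` have avatars `U, V` and
  `tmulT ℓ U = V` pointwise on `ℍ` (`tmulT ℓ U z = U(ℓ z) * ∏_{j mod ℓ} U((z + j)/ℓ)`), then
  `heckeFun N ℓ u = v`, i.e. `Norm_{F_{Nℓ}/α F_N}(β u) = v`  (from the landed analytic norm formula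
  `S29.helper1832.norm_coset_504`);
* `heckeFun_deltaQuot` : `heckeFun N ℓ (Δ(q^d)/Δ(q)) = (Δ(q^d)/Δ(q))^(ℓ+1)` for `d ∣ N`, `ℓ ∤ N`
  (constant `c0 = 1`), and the same for the inverse `eps = Δ(q)/Δ(q^d)`.
-/
import Fermat.Agent.S29.helper1832_NormForms
import Fermat.Agent.S36.helper5460_DeltaUnit
import Fermat.Agent.S37.helper137_KroneckerNorm
import Fermat.Agent.S44.helper3840_DeltaMult

set_option autoImplicit false

open Complex ModularCurve CongruenceSubgroup AlgebraicCurve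
open UpperHalfPlane hiding I
open scoped MatrixGroups Manifold OnePoint

namespace Fermat.Agent.S44.helper3840

open Fermat.Agent.S24 Fermat.Agent.S24.helper24 Fermat.Agent.S24.helper580
open Fermat.Agent.S29.helper1832
open Fermat.Agent.S36.helper5460 (IsAvatar deltaQuot deltaQuotFun deltaQuotInvFun
  isAvatar_deltaQuot isAvatar_deltaQuot_inv)
open P2MW.S_ModularForm_heckeT_slash_eq_self_of_mem_Gamma0.ModularForm.HeckeSlashInvariance
  (heckeRep)
open Fermat.Agent.S29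

noncomputable section

local notation "Δ" => ModularForm.discriminant

/-! ### The realisation of an element with an avatar -/

/-- The avatar as an element of the ring `Hol` of holomorphic functions on `ℍ`. -/
def avatarHol {N : ℕ} {u : FN N} {U : ℍ → ℂ} (hU : IsAvatar N u U) : Hol := ⟨U, hU.1.mdiff⟩

theorem avatarHol_apply {N : ℕ} {u : FN N} {U : ℍ → ℂ} (hU : IsAvatar N u U) (τ : ℍ) :
    (avatarHol hU : ℍ → ℂ) τ = U τ := rfl

/-- An element of `F_N` with an analytic avatar `U` is realised in `Mer` by `U`. -/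
theorem evMer_of_avatar {N : ℕ} {u : FN N} {U : ℍ → ℂ} (hU : IsAvatar N u U) :
    helper504.evMer N u = algebraMap Hol Mer (avatarHol hU) := by
  obtain ⟨a, b, hb, hab⟩ := IsFractionRing.div_surjective (A := helper3176.AN N) u
  have hb0 : (b : FN N) ≠ 0 := by
    intro h0
    have : b = 0 := Subtype.ext h0
    exact (nonZeroDivisors.ne_zero hb) this
  have hab' : u * (b : FN N) = (a : FN N) := by
    have : algebraMap (helper3176.AN N) (FN N) a / algebraMap (helper3176.AN N) (FN N) b = u :=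
      hab
    rw [← this]
    exact div_mul_cancel₀ _ hb0
  have hpt : ∀ τ : ℍ, U τ * helper504.evFun N b τ = helper504.evFun N a τ :=
    hU.mul_evFun a b hab'
  have hHol : avatarHol hU * helper504.evHol N b = helper504.evHol N a := by
    refine Hol.ext fun τ => ?_
    show U τ * (helper504.evHol N b : ℍ → ℂ) τ = (helper504.evHol N a : ℍ → ℂ) τ
    rw [helper504.evHol_apply, helper504.evHol_apply]
    exact hpt τ
  have hMer := congrArg (algebraMap Hol Mer) hHol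
  rw [map_mul, ← helper504.evMer_coe, ← helper504.evMer_coe, ← hab', map_mul] at hMer
  have hne : helper504.evMer N (b : FN N) ≠ 0 := (map_ne_zero _).mpr hb0
  exact (mul_right_cancel₀ hne hMer).symm

/-! ### The Hecke avatar engine -/

/-- The coset product of pull-backs of a holomorphic function is `tmulT`. -/
theorem prod_pullHolGL_apply (ℓ : ℕ) [Fact ℓ.Prime] (f : Hol) (τ : ℍ) :
    ((∏ x : OnePoint (ZMod ℓ),
      pullHolGL (heckeRep ℓ x) (helper1856.det_heckeRep_pos x) f : Hol) : ℍ → ℂ) τ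
      = helper2982.tmulT ℓ (f : ℍ → ℂ) τ := by
  have hl1 : ¬ ℓ ∣ 1 := (Fact.out : ℓ.Prime).not_dvd_one
  rw [← helper2982.tmul_corrT 1 ℓ hl1, helper2982.tmul_apply]
  have e1 : ((∏ x : OnePoint (ZMod ℓ),
      pullHolGL (heckeRep ℓ x) (helper1856.det_heckeRep_pos x) f : Hol) : ℍ → ℂ)
      = ∏ x : OnePoint (ZMod ℓ),
        ((pullHolGL (heckeRep ℓ x) (helper1856.det_heckeRep_pos x) f : Hol) : ℍ → ℂ) :=
    map_prod (Hol.val : Hol →ₐ[ℂ] (ℍ → ℂ)) _ _
  rw [e1, Finset.prod_apply]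
  rfl

/-- **The Hecke avatar engine.** If `u, v ∈ F_N` have analytic avatars `U, V` and
`U(ℓ τ) * ∏_{j mod ℓ} U((τ + j)/ℓ) = V τ` for all `τ ∈ ℍ`, then
`heckeFun N ℓ u = Norm_{F_{Nℓ}/α F_N}(β u) = v` in the function field (`ℓ ∤ N` prime). -/
theorem heckeFun_eq_of_avatar {N ℓ : ℕ} [NeZero N] [Fact ℓ.Prime] (hℓN : ¬ ℓ ∣ N) (u v : FN N)
    (U V : ℍ → ℂ) (hU : IsAvatar N u U) (hV : IsAvatar N v V)
    (hc : ∀ τ : ℍ, helper2982.tmulT ℓ U τ = V τ) :
    helper8217.heckeFun (L := Kbar) N ℓ u = v := by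
  apply (helper504.evMer N).injective
  rw [norm_coset_504 hℓN u, evMer_of_avatar hU, evMer_of_avatar hV]
  simp only [pullGL_algebraMap]
  rw [← map_prod]
  congr 1
  refine Hol.ext fun τ => ?_
  rw [prod_pullHolGL_apply]
  exact hc τ

/-! ### The modular unit `Δ(q^d)/Δ(q)` -/

theorem pt_eq_heckeDiag {d : ℕ} (hd : 0 < d) (τ : ℍ) :
    Fermat.Agent.S28.helper407.pt d 0 1 τ = ModularForm.heckeDiagMatrix d • τ := by
  apply UpperHalfPlane.ext
  rw [Fermat.Agent.S28.helper407.coe_pt hd one_pos, ModularForm.coe_heckeDiagMatrix_smul hd.ne']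
  simp

/-- The avatar `τ ↦ Δ(dτ)/Δ(τ)` is a multiplicative Hecke eigenfunction, eigenvalue `ℓ + 1`. -/
theorem tmulT_deltaQuotFun (l : ℕ) [Fact l.Prime] {d : ℕ} (hd : d ≠ 0) (hld : ¬ l ∣ d) (z : ℍ) :
    helper2982.tmulT l (deltaQuotFun d) z = deltaQuotFun d z ^ (l + 1) := by
  have h0 : deltaQuotFun d = fun w : ℍ => Δ (ModularForm.heckeDiagMatrix d • w) / Δ w := by
    funext w
    show Δ (Fermat.Agent.S28.helper407.pt d 0 1 w) * (Δ w)⁻¹ = _
    rw [pt_eq_heckeDiag (Nat.pos_of_ne_zero hd), div_eq_mul_inv]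
  have h1 := helper2982.tmulT_div l (fun w : ℍ => Δ (ModularForm.heckeDiagMatrix d • w))
    (fun w : ℍ => Δ w) z
  have hs : ((-1 : ℂ)) ^ (l + 1) ≠ 0 := pow_ne_zero _ (by norm_num)
  rw [h0, h1, tmulT_discriminant, tmulT_discriminant_comp l hd hld, div_pow,
    mul_div_mul_left _ _ hs]

/-- The inverse avatar `τ ↦ Δ(τ)/Δ(dτ)`. -/
theorem tmulT_deltaQuotInvFun (l : ℕ) [Fact l.Prime] {d : ℕ} (hd : d ≠ 0) (hld : ¬ l ∣ d)
    (z : ℍ) :
    helper2982.tmulT l (deltaQuotInvFun d) z = deltaQuotInvFun d z ^ (l + 1) := by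
  have h0 : deltaQuotInvFun d = epsFun d := by
    funext w
    show Δ w * (Δ (Fermat.Agent.S28.helper407.pt d 0 1 w))⁻¹ = _
    rw [pt_eq_heckeDiag (Nat.pos_of_ne_zero hd), epsFun, div_eq_mul_inv]
  rw [h0, tmulT_epsFun l hd hld]

/-- **DELTAMULT on the function field** (`hTeps` with `c0 = 1`): for `d ∣ N` and a prime `ℓ ∤ N`,
`heckeFun N ℓ (Δ(q^d)/Δ(q)) = (Δ(q^d)/Δ(q))^(ℓ+1)`. -/
theorem heckeFun_deltaQuot {N l : ℕ} [NeZero N] [Fact l.Prime] (hlN : ¬ l ∣ N) (d : ℕ)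
    [NeZero d] (hd : d ∣ N) :
    helper8217.heckeFun (L := Kbar) N l (deltaQuot N d hd) = deltaQuot N d hd ^ (l + 1) :=
  heckeFun_eq_of_avatar hlN _ _ _ _ (isAvatar_deltaQuot N d hd)
    ((isAvatar_deltaQuot N d hd).pow (l + 1))
    (fun τ => tmulT_deltaQuotFun l (NeZero.ne d) (fun h => hlN (h.trans hd)) τ)

/-- The same for `eps = Δ(q)/Δ(q^d) = (deltaQuot N d hd)⁻¹`. -/
theorem heckeFun_deltaQuot_inv {N l : ℕ} [NeZero N] [Fact l.Prime] (hlN : ¬ l ∣ N) (d : ℕ)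
    [NeZero d] (hd : d ∣ N) :
    helper8217.heckeFun (L := Kbar) N l (deltaQuot N d hd)⁻¹ = ((deltaQuot N d hd)⁻¹) ^ (l + 1) :=
  heckeFun_eq_of_avatar hlN _ _ _ _ (isAvatar_deltaQuot_inv N d hd)
    ((isAvatar_deltaQuot_inv N d hd).pow (l + 1))
    (fun τ => tmulT_deltaQuotInvFun l (NeZero.ne d) (fun h => hlN (h.trans hd)) τ)

/-! ### The other norm `Norm_{F_{Nℓ}/β F_N}(α ·)` -/

/-- The Hecke avatar engine for the norm along `β` of `α u` (the two norms agree by the landed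
`S37.helper137.norm_alpha_beta_eq_norm_beta_alpha`). -/
theorem norm_beta_alpha_eq_of_avatar {N ℓ : ℕ} [NeZero N] [Fact ℓ.Prime] (hℓN : ¬ ℓ ∣ N)
    (u v : FN N) (U V : ℍ → ℂ) (hU : IsAvatar N u U) (hV : IsAvatar N v V)
    (hc : ∀ τ : ℍ, helper2982.tmulT ℓ U τ = V τ) :
    (letI := algebraAlong (heckeBetaBar Kbar N ℓ)
     (Algebra.norm (FN N) (heckeAlphaBar Kbar N ℓ u) : FN N)) = v := by
  have hl : ℓ.Prime := Fact.out
  have hcop : Nat.Coprime ℓ N := (Nat.Prime.coprime_iff_not_dvd hl).mpr hℓN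
  have h := Fermat.Agent.S37.helper137.norm_alpha_beta_eq_norm_beta_alpha hl hcop u
  exact h.symm.trans (heckeFun_eq_of_avatar hℓN u v U V hU hV hc)

/-- **DELTAMULT for `Norm_β(α ·)`**: `Norm_{F_{Nℓ}/β F_N}(α (Δ(q^d)/Δ(q))) = (Δ(q^d)/Δ(q))^(ℓ+1)`. -/
theorem norm_beta_alpha_deltaQuot {N l : ℕ} [NeZero N] [Fact l.Prime] (hlN : ¬ l ∣ N) (d : ℕ)
    [NeZero d] (hd : d ∣ N) :
    (letI := algebraAlong (heckeBetaBar Kbar N l)
     (Algebra.norm (FN N) (heckeAlphaBar Kbar N l (deltaQuot N d hd)) : FN N))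
      = deltaQuot N d hd ^ (l + 1) :=
  norm_beta_alpha_eq_of_avatar hlN _ _ _ _ (isAvatar_deltaQuot N d hd)
    ((isAvatar_deltaQuot N d hd).pow (l + 1))
    (fun τ => tmulT_deltaQuotFun l (NeZero.ne d) (fun h => hlN (h.trans hd)) τ)

theorem norm_beta_alpha_deltaQuot_inv {N l : ℕ} [NeZero N] [Fact l.Prime] (hlN : ¬ l ∣ N)
    (d : ℕ) [NeZero d] (hd : d ∣ N) :
    (letI := algebraAlong (heckeBetaBar Kbar N l)
     (Algebra.norm (FN N) (heckeAlphaBar Kbar N l (deltaQuot N d hd)⁻¹) : FN N))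
      = ((deltaQuot N d hd)⁻¹) ^ (l + 1) :=
  norm_beta_alpha_eq_of_avatar hlN _ _ _ _ (isAvatar_deltaQuot_inv N d hd)
    ((isAvatar_deltaQuot_inv N d hd).pow (l + 1))
    (fun τ => tmulT_deltaQuotInvFun l (NeZero.ne d) (fun h => hlN (h.trans hd)) τ)

end

end Fermat.Agent.S44.helper3840
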