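/-
S44-L6-EPSVAL (helper4539, board #2465): the modular unit `eps = Δ(t) / Δ(t^q)` at the two Gauss
valuations of level `q * M` (step (5) of the S44 route; `q = p` there).

Nothing about the unit itself is retyped here.  The element, its analytic avatar, its Atkin–Lehner
relation and its integer structure are the S36 F2-UNIT bricks

* `S36.helper5460.deltaQuot N d hd : FN N`            (`Δ(t^d) / Δ(t)`, so `eps = (deltaQuot _ q _)⁻¹`),
* `S36.helper5460.atkinLehnerBar_deltaQuot`           (`W_q u * u = q⁻¹²`),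
* `S36.helper4857.deltaQuotZ q`, `deltaUnitZ q`       (mutually inverse integer Laurent series,
                                                       `≡ Δ^(q-1)`, `Δ^(1-q)` modulo `q`).

This file states what the S44 consumers (COUNT for `h * eps^m`, ORDCMP, exact Jensen for `eps`) need,
in the canonical two-valuation vocabulary of the S35 geometry module (`S35.helper882`):
`V_∞ = gpRing A N`, `V_0 = gpRingW A N W`, `v = gpVal A N W`, `vL = gpBase A N`, `red = gpRed A N W`,
`W = S35.helper1219.atkinLehnerBar q M hc`, `N = q * M`.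

* any level `N`, `q ∣ N` (expansion form): `deltaQuot_mem_gaussF`, `deltaQuot_inv_mem_gaussF`,
  `valuation_deltaQuot` (`= 1`), `gaussFRed_deltaQuot`, `gaussFRed_deltaQuot_inv` and the
  characteristic `q` forms `gaussFRed_deltaQuot_char` (`= Δ̄^(q-1)`),
  `gaussFRed_deltaQuot_inv_mul_pow` (`red(eps) * Δ̄^(q-1) = 1`);
* level `q * M`: `atkinLehnerBar_deltaQuot_eq` (`W u = q⁻¹² u⁻¹`),
  `atkinLehnerBar_const_mul_deltaQuot` (`W (q¹² u) = u⁻¹`), `atkinLehnerBar_eps` (`W eps = q¹² u`);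
* the two valuations: `gpVal_zero_deltaQuot` (`= 1`), `gpVal_one_deltaQuot` (`= vL(q¹²)⁻¹`),
  `gpVal_zero_eps` (`v_∞(eps) = 1`), `gpVal_one_eps` (`v_0(eps) = vL(q¹²)`), i.e. additively
  `v_∞(eps) = 0`, `v_0(eps) = 12 v(q)`;
* the reductions: `gpRho_eps` (`red_∞ eps = ` the integer series `deltaUnitZ q` read in `k`),
  `gpRho_atkinLehnerBar_eps_div` (`red_0 (eps / q¹²) = deltaQuotZ q` read in `k`), the unit
  statements `eps_div_mem_gpRingW`, `eps_div_inv_mem_gpRingW`, and, when `q` is not a unit of `A`,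
  `gpRed_eps` (`red eps = (red_∞ eps, 0)`: `eps` vanishes identically on the `0`-component).
-/
import Mathlib
import Fermat.Agent.S36.helper5460_DeltaUnit
import Fermat.Agent.S36.helper4857_DeltaUnitInt
import Fermat.Agent.S35.helper882_GaussPair
import Fermat.Agent.S35.helper4640_CuspUnit

set_option autoImplicit false

open ModularCurve

noncomputable section

namespace Fermat.Agent.S44.helper4539

open Fermat.Agent.S18 Fermat.Agent.S35.helper882
open Fermat.Agent.S36.helper5460 (deltaQuot coe_deltaQuot deltaQuotQ deltaQuot_ne_zero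
  atkinLehnerBar_deltaQuot)
open Fermat.Agent.S36.helper4857 (deltaQuotZ deltaUnitZ DeltaLZ)

local notation "Kbar" => AlgebraicClosure ℚ

/-! ## Expansions -/

section Expansion

variable (N q : ℕ) [NeZero N] [NeZero q] (hd : q ∣ N)

/-- The expansion of `Δ(t^q)/Δ(t)` is the integer Laurent series `deltaQuotZ q`. -/
theorem coe_deltaQuot_eq :
    ((deltaQuot N q hd : modularFunctionFieldBar N) : LaurentSeries Kbar)
      = coeffMap (Int.castRingHom Kbar) (deltaQuotZ q) := by
  rw [coe_deltaQuot, deltaQuotQ]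
  exact Fermat.Agent.S36.helper4857.coeffEmb_deltaQuot q Kbar

/-- The expansion of `eps = Δ(t)/Δ(t^q)` is the integer Laurent series `deltaUnitZ q`. -/
theorem coe_deltaQuot_inv_eq :
    (((deltaQuot N q hd)⁻¹ : modularFunctionFieldBar N) : LaurentSeries Kbar)
      = coeffMap (Int.castRingHom Kbar) (deltaUnitZ q) :=
  Fermat.Agent.S35.helper4640.coe_inv_eq N
    (Fermat.Agent.S36.helper4857.deltaQuotZ_mul_deltaUnitZ q) (coe_deltaQuot_eq N q hd)

end Expansion

/-! ## The Gauss valuation at `∞` (any level, any residue map) -/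

section Gauss

variable (A : ValuationSubring Kbar) {k : Type*} [Field k] (π : A →+* k)
variable (N q : ℕ) [NeZero N] [NeZero q] (hd : q ∣ N)

theorem deltaQuot_mem_gaussF : deltaQuot N q hd ∈ helper8991.gaussF A π N :=
  Fermat.Agent.S35.helper4640.mem_gaussF_of_coe_eq A π N (coe_deltaQuot_eq N q hd)

theorem deltaQuot_inv_mem_gaussF : (deltaQuot N q hd)⁻¹ ∈ helper8991.gaussF A π N :=
  Fermat.Agent.S35.helper4640.mem_gaussF_of_coe_eq A π N (coe_deltaQuot_inv_eq N q hd)

/-- `v_∞(Δ(t^q)/Δ(t)) = 1` (multiplicative notation): a unit of the Gauss ring. -/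
theorem valuation_deltaQuot :
    (helper8991.gaussF A π N).valuation (deltaQuot N q hd) = 1 := by
  have h1 := (ValuationSubring.valuation_le_one_iff _ _).mpr (deltaQuot_mem_gaussF A π N q hd)
  have h2 := (ValuationSubring.valuation_le_one_iff _ _).mpr (deltaQuot_inv_mem_gaussF A π N q hd)
  have h0 : (helper8991.gaussF A π N).valuation (deltaQuot N q hd) ≠ 0 :=
    (Valuation.ne_zero_iff _).mpr (deltaQuot_ne_zero N q hd)
  rw [map_inv₀, inv_le_one₀ (zero_lt_iff.mpr h0)] at h2
  exact le_antisymm h1 h2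

theorem valuation_deltaQuot_inv :
    (helper8991.gaussF A π N).valuation (deltaQuot N q hd)⁻¹ = 1 := by
  rw [map_inv₀, valuation_deltaQuot, inv_one]

/-- The reduction of `Δ(t^q)/Δ(t)` is the integer series `deltaQuotZ q` read in `k`. -/
theorem gaussFRed_deltaQuot :
    helper8991.gaussFRed A π N ⟨deltaQuot N q hd, deltaQuot_mem_gaussF A π N q hd⟩
      = coeffMap (Int.castRingHom k) (deltaQuotZ q) :=
  Fermat.Agent.S35.helper4640.gaussFRed_of_coe_eq A π N (coe_deltaQuot_eq N q hd) _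

/-- The reduction of `eps = Δ(t)/Δ(t^q)` is the integer series `deltaUnitZ q` read in `k`. -/
theorem gaussFRed_deltaQuot_inv :
    helper8991.gaussFRed A π N ⟨(deltaQuot N q hd)⁻¹, deltaQuot_inv_mem_gaussF A π N q hd⟩
      = coeffMap (Int.castRingHom k) (deltaUnitZ q) :=
  Fermat.Agent.S35.helper4640.gaussFRed_of_coe_eq A π N (coe_deltaQuot_inv_eq N q hd) _

/-- In residue characteristic `q`: `red_∞ (Δ(t^q)/Δ(t)) = Δ̄^(q-1)`. -/
theorem gaussFRed_deltaQuot_char [ExpChar k q] :
    helper8991.gaussFRed A π N ⟨deltaQuot N q hd, deltaQuot_mem_gaussF A π N q hd⟩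
      = coeffMap (Int.castRingHom k) DeltaLZ ^ (q - 1) := by
  rw [gaussFRed_deltaQuot, Fermat.Agent.S36.helper4857.coeffMap_deltaQuotZ_char]

/-- In residue characteristic `q`: `red_∞ (eps) * Δ̄^(q-1) = 1`, i.e. `red_∞ eps = Δ̄^(1-q)`. -/
theorem gaussFRed_deltaQuot_inv_mul_pow [ExpChar k q] :
    helper8991.gaussFRed A π N ⟨(deltaQuot N q hd)⁻¹, deltaQuot_inv_mem_gaussF A π N q hd⟩
      * coeffMap (Int.castRingHom k) DeltaLZ ^ (q - 1) = 1 := by
  rw [gaussFRed_deltaQuot_inv, Fermat.Agent.S36.helper4857.coeffMap_deltaUnitZ_mul_pow]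

end Gauss

/-! ## Residue characteristic -/

/-- The residue field of a valuation subring of `ℚ̄` in which the prime `q` is not a unit has
characteristic exponent `q`. -/
theorem expChar_residueField (A : ValuationSubring Kbar) {q : ℕ} (hq : q.Prime)
    (hA : (q : Kbar) ∈ A.nonunits) : ExpChar (IsLocalRing.ResidueField A) q := by
  obtain ⟨hmem, hmax⟩ := ValuationSubring.mem_nonunits_iff_exists_mem_maximalIdeal.mp hA
  have h0 : ((q : ℕ) : IsLocalRing.ResidueField A) = 0 := by
    have h1 : IsLocalRing.residue A (⟨(q : Kbar), hmem⟩ : A) = 0 :=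
      (IsLocalRing.residue_eq_zero_iff _).mpr hmax
    have h2 : (⟨(q : Kbar), hmem⟩ : A) = ((q : ℕ) : A) := Subtype.ext (by simp)
    rw [h2, map_natCast] at h1
    exact h1
  have : CharP (IsLocalRing.ResidueField A) q := (CharP.charP_iff_prime_eq_zero hq).mpr h0
  exact ExpChar.prime hq

/-! ## Level `q * M`: the Atkin–Lehner side and the pair of valuations -/

section AL

variable (A : ValuationSubring Kbar) (q M : ℕ) [NeZero q] [NeZero M] (hc : Nat.Coprime q M)

/-- `W_q (Δ(t^q)/Δ(t)) = q⁻¹² · Δ(t)/Δ(t^q)`. -/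
theorem atkinLehnerBar_deltaQuot_eq :
    Fermat.Agent.S35.helper1219.atkinLehnerBar q M hc (deltaQuot (q * M) q (dvd_mul_right q M))
      = algebraMap Kbar (modularFunctionFieldBar (q * M)) (((q : Kbar) ^ 12)⁻¹)
        * (deltaQuot (q * M) q (dvd_mul_right q M))⁻¹ :=
  (eq_mul_inv_iff_mul_eq₀ (deltaQuot_ne_zero (q * M) q (dvd_mul_right q M))).mpr
    (atkinLehnerBar_deltaQuot q M hc)

/-- `W_q (q¹² · Δ(t^q)/Δ(t)) = Δ(t)/Δ(t^q) = eps`. -/
theorem atkinLehnerBar_const_mul_deltaQuot :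
    Fermat.Agent.S35.helper1219.atkinLehnerBar q M hc
        (algebraMap Kbar (modularFunctionFieldBar (q * M)) ((q : Kbar) ^ 12)
          * deltaQuot (q * M) q (dvd_mul_right q M))
      = (deltaQuot (q * M) q (dvd_mul_right q M))⁻¹ := by
  have hq0 : ((q : Kbar) ^ 12) ≠ 0 := pow_ne_zero 12 (Nat.cast_ne_zero.mpr (NeZero.ne q))
  rw [map_mul, AlgEquiv.commutes, atkinLehnerBar_deltaQuot_eq, ← mul_assoc, ← map_mul,
    mul_inv_cancel₀ hq0, map_one, one_mul]

/-- `W_q (eps) = q¹² / eps`, in the form `W_q (u⁻¹) = q¹² · u`, `u = Δ(t^q)/Δ(t)`. -/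
theorem atkinLehnerBar_eps :
    Fermat.Agent.S35.helper1219.atkinLehnerBar q M hc
        (deltaQuot (q * M) q (dvd_mul_right q M))⁻¹
      = algebraMap Kbar (modularFunctionFieldBar (q * M)) ((q : Kbar) ^ 12)
        * deltaQuot (q * M) q (dvd_mul_right q M) := by
  have hq0 : ((q : Kbar) ^ 12) ≠ 0 := pow_ne_zero 12 (Nat.cast_ne_zero.mpr (NeZero.ne q))
  rw [map_inv₀, atkinLehnerBar_deltaQuot_eq, mul_inv, inv_inv, ← map_inv₀, inv_inv]

/-- `W_q (eps / q¹²) = Δ(t^q)/Δ(t)`. -/
theorem atkinLehnerBar_eps_div :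
    Fermat.Agent.S35.helper1219.atkinLehnerBar q M hc
        (algebraMap Kbar (modularFunctionFieldBar (q * M)) (((q : Kbar) ^ 12)⁻¹)
          * (deltaQuot (q * M) q (dvd_mul_right q M))⁻¹)
      = deltaQuot (q * M) q (dvd_mul_right q M) := by
  have hq0 : ((q : Kbar) ^ 12) ≠ 0 := pow_ne_zero 12 (Nat.cast_ne_zero.mpr (NeZero.ne q))
  rw [map_mul, AlgEquiv.commutes, atkinLehnerBar_eps, ← mul_assoc, ← map_mul,
    inv_mul_cancel₀ hq0, map_one, one_mul]

/-! ### The two valuations -/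

/-- `v_∞ (Δ(t^q)/Δ(t)) = 1`. -/
theorem gpVal_zero_deltaQuot :
    gpVal A (q * M) (Fermat.Agent.S35.helper1219.atkinLehnerBar q M hc) 0
      (deltaQuot (q * M) q (dvd_mul_right q M)) = 1 :=
  valuation_deltaQuot A (IsLocalRing.residue A) (q * M) q (dvd_mul_right q M)

/-- `v_0 (Δ(t^q)/Δ(t)) = v(q¹²)⁻¹`. -/
theorem gpVal_one_deltaQuot :
    gpVal A (q * M) (Fermat.Agent.S35.helper1219.atkinLehnerBar q M hc) 1
      (deltaQuot (q * M) q (dvd_mul_right q M)) = (gpBase A (q * M) ((q : Kbar) ^ 12))⁻¹ := by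
  rw [gpVal_one, atkinLehnerBar_deltaQuot_eq, map_mul, valuation_deltaQuot_inv, mul_one,
    ← gpBase_apply, map_inv₀]

/-- **`v_∞ (eps) = 0`** (multiplicatively: `1`). -/
theorem gpVal_zero_eps :
    gpVal A (q * M) (Fermat.Agent.S35.helper1219.atkinLehnerBar q M hc) 0
      (deltaQuot (q * M) q (dvd_mul_right q M))⁻¹ = 1 := by
  rw [map_inv₀, gpVal_zero_deltaQuot, inv_one]

/-- **`v_0 (eps) = 12 v(q)`** (multiplicatively: `v(q¹²)`). -/
theorem gpVal_one_eps :
    gpVal A (q * M) (Fermat.Agent.S35.helper1219.atkinLehnerBar q M hc) 1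
      (deltaQuot (q * M) q (dvd_mul_right q M))⁻¹ = gpBase A (q * M) ((q : Kbar) ^ 12) := by
  rw [map_inv₀, gpVal_one_deltaQuot, inv_inv]

/-! ### Membership and reductions -/

theorem eps_mem_gpRing : (deltaQuot (q * M) q (dvd_mul_right q M))⁻¹ ∈ gpRing A (q * M) :=
  deltaQuot_inv_mem_gaussF A (IsLocalRing.residue A) (q * M) q (dvd_mul_right q M)

theorem deltaQuot_mem_gpRing : deltaQuot (q * M) q (dvd_mul_right q M) ∈ gpRing A (q * M) :=
  deltaQuot_mem_gaussF A (IsLocalRing.residue A) (q * M) q (dvd_mul_right q M)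

/-- `eps / q¹²` lies in `V_0`. -/
theorem eps_div_mem_gpRingW :
    algebraMap Kbar (modularFunctionFieldBar (q * M)) (((q : Kbar) ^ 12)⁻¹)
        * (deltaQuot (q * M) q (dvd_mul_right q M))⁻¹
      ∈ gpRingW A (q * M) (Fermat.Agent.S35.helper1219.atkinLehnerBar q M hc) := by
  show Fermat.Agent.S35.helper1219.atkinLehnerBar q M hc _ ∈ gpRing A (q * M)
  rw [atkinLehnerBar_eps_div]
  exact deltaQuot_mem_gpRing A q M

/-- `(eps / q¹²)⁻¹ = q¹² · Δ(t^q)/Δ(t)` lies in `V_0`: `eps / q¹²` is a unit of `V_0`. -/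
theorem eps_div_inv_mem_gpRingW :
    algebraMap Kbar (modularFunctionFieldBar (q * M)) ((q : Kbar) ^ 12)
        * deltaQuot (q * M) q (dvd_mul_right q M)
      ∈ gpRingW A (q * M) (Fermat.Agent.S35.helper1219.atkinLehnerBar q M hc) := by
  show Fermat.Agent.S35.helper1219.atkinLehnerBar q M hc _ ∈ gpRing A (q * M)
  rw [atkinLehnerBar_const_mul_deltaQuot]
  exact eps_mem_gpRing A q M

/-- `red_∞ (eps)` is the integer series `deltaUnitZ q = t^(1-q) (E(t)/E(t^q))²⁴` read in `k`. -/
theorem gpRho_eps :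
    gpRho A (q * M) (deltaQuot (q * M) q (dvd_mul_right q M))⁻¹
      = coeffMap (Int.castRingHom (IsLocalRing.ResidueField A)) (deltaUnitZ q) := by
  rw [gpRho_of_mem A (q * M) (eps_mem_gpRing A q M)]
  exact gaussFRed_deltaQuot_inv A (IsLocalRing.residue A) (q * M) q (dvd_mul_right q M)

/-- `red_∞ (Δ(t^q)/Δ(t))` is the integer series `deltaQuotZ q` read in `k`. -/
theorem gpRho_deltaQuot :
    gpRho A (q * M) (deltaQuot (q * M) q (dvd_mul_right q M))
      = coeffMap (Int.castRingHom (IsLocalRing.ResidueField A)) (deltaQuotZ q) := by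
  rw [gpRho_of_mem A (q * M) (deltaQuot_mem_gpRing A q M)]
  exact gaussFRed_deltaQuot A (IsLocalRing.residue A) (q * M) q (dvd_mul_right q M)

/-- `red_0 (eps / q¹²) = red_∞ (Δ(t^q)/Δ(t))`: the integer series `deltaQuotZ q` read in `k`. -/
theorem gpRho_atkinLehnerBar_eps_div :
    gpRho A (q * M) (Fermat.Agent.S35.helper1219.atkinLehnerBar q M hc
        (algebraMap Kbar (modularFunctionFieldBar (q * M)) (((q : Kbar) ^ 12)⁻¹)
          * (deltaQuot (q * M) q (dvd_mul_right q M))⁻¹))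
      = coeffMap (Int.castRingHom (IsLocalRing.ResidueField A)) (deltaQuotZ q) := by
  rw [atkinLehnerBar_eps_div, gpRho_deltaQuot]

/-- `red_0 ((eps / q¹²)⁻¹) = red_∞ (eps)`: the integer series `deltaUnitZ q` read in `k`. -/
theorem gpRho_atkinLehnerBar_const_mul_deltaQuot :
    gpRho A (q * M) (Fermat.Agent.S35.helper1219.atkinLehnerBar q M hc
        (algebraMap Kbar (modularFunctionFieldBar (q * M)) ((q : Kbar) ^ 12)
          * deltaQuot (q * M) q (dvd_mul_right q M)))
      = coeffMap (Int.castRingHom (IsLocalRing.ResidueField A)) (deltaUnitZ q) := by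
  rw [atkinLehnerBar_const_mul_deltaQuot, gpRho_eps]

/-- Both valuations of `eps` are `≤ 1` as soon as `q ∈ A`: `eps` lies in the common unit ball. -/
theorem gpVal_eps_le_one (hqA : (q : Kbar) ∈ A) (i : Fin 2) :
    gpVal A (q * M) (Fermat.Agent.S35.helper1219.atkinLehnerBar q M hc) i
      (deltaQuot (q * M) q (dvd_mul_right q M))⁻¹ ≤ 1 := by
  fin_cases i
  · exact (gpVal_zero_eps A q M hc).le
  · show gpVal A (q * M) (Fermat.Agent.S35.helper1219.atkinLehnerBar q M hc) 1 _ ≤ 1
    rw [gpVal_one_eps, gpBase_le_one_iff]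
    exact pow_mem hqA 12

/-- **The pair reduction of `eps`** when `q` is not a unit of `A`: `red eps = (red_∞ eps, 0)`,
i.e. `eps` is a unit along the `∞`-component and vanishes identically along the `0`-component. -/
theorem gpRed_eps (hA : (q : Kbar) ∈ A.nonunits) :
    gpRed A (q * M) (Fermat.Agent.S35.helper1219.atkinLehnerBar q M hc)
        (deltaQuot (q * M) q (dvd_mul_right q M))⁻¹
      = (coeffMap (Int.castRingHom (IsLocalRing.ResidueField A)) (deltaUnitZ q), 0) := by
  obtain ⟨hqA, -⟩ := ValuationSubring.mem_nonunits_iff_exists_mem_maximalIdeal.mp hA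
  refine Prod.ext (gpRho_eps A q M) ?_
  show gpRho A (q * M) (Fermat.Agent.S35.helper1219.atkinLehnerBar q M hc
    (deltaQuot (q * M) q (dvd_mul_right q M))⁻¹) = 0
  have hle : (gpRing A (q * M)).valuation (Fermat.Agent.S35.helper1219.atkinLehnerBar q M hc
      (deltaQuot (q * M) q (dvd_mul_right q M))⁻¹) ≤ 1 := gpVal_eps_le_one A q M hc hqA 1
  have hmem : Fermat.Agent.S35.helper1219.atkinLehnerBar q M hc
      (deltaQuot (q * M) q (dvd_mul_right q M))⁻¹ ∈ gpRing A (q * M) :=
    (ValuationSubring.valuation_le_one_iff _ _).mp hle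
  rw [gpRho_eq_zero_iff A (q * M) hmem]
  have h1 : (gpRing A (q * M)).valuation (Fermat.Agent.S35.helper1219.atkinLehnerBar q M hc
      (deltaQuot (q * M) q (dvd_mul_right q M))⁻¹)
      = gpBase A (q * M) ((q : Kbar) ^ 12) := gpVal_one_eps A q M hc
  rw [h1, map_pow]
  exact pow_lt_one₀ zero_le ((gpBase_lt_one_iff A (q * M) _).mpr hA) (by norm_num)

end AL

end Fermat.Agent.S44.helper4539
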