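import Mathlib
import Fermat.Agent.S44.helper1043_EisSpec
import Fermat.Agent.S44.helper3840_HeckeAvatar
import Fermat.Agent.S44.helper4539_EpsVal

/-!
# S44 block (EIS): the leaves DELTAMULT and EPSUNIT in the Spec shapes

Adapters only: `stmt_DeltaMult` is `helper3840.heckeFun_deltaQuot_inv` (`c₀ = 1`), `stmt_EpsUnit`
is `helper4539.eps_mem_gpRing` + `helper4539.deltaQuot_mem_gpRing`.
-/

set_option autoImplicit false
set_option linter.style.haveILetI false

noncomputable section

namespace Fermat.Agent.S44.helper1043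

open ModularCurve
open Fermat.Agent.S24.helper24 (Kbar FN)

section Leaves

variable (p M : ℕ) [Fact p.Prime] [NeZero M] (A : ValuationSubring Kbar)

/-- **(DELTAMULT)** in the Spec shape (`c₀ = 1`). -/
theorem stmt_DeltaMult : Stmt_DeltaMult p M := by
  haveI : NeZero p := ⟨(Fact.out : p.Prime).ne_zero⟩
  haveI : NeZero (p * M) := ⟨Nat.mul_ne_zero (NeZero.ne p) (NeZero.ne M)⟩
  intro l hl
  haveI : Fact (l : ℕ).Prime := ⟨l.2⟩
  refine ⟨1, one_ne_zero, ?_⟩
  rw [map_one, one_mul]
  exact Fermat.Agent.S44.helper3840.heckeFun_deltaQuot_inv hl p (dvd_mul_right p M)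

/-- **(EPSUNIT)** in the Spec shape. -/
theorem stmt_EpsUnit : Stmt_EpsUnit p M A := by
  haveI : NeZero p := ⟨(Fact.out : p.Prime).ne_zero⟩
  refine ⟨Fermat.Agent.S44.helper4539.eps_mem_gpRing A p M, ?_⟩
  unfold epsFn
  rw [inv_inv]
  exact Fermat.Agent.S44.helper4539.deltaQuot_mem_gpRing A p M

end Leaves

end Fermat.Agent.S44.helper1043
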