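/-
S44, leaf L6-EISPRIME (helper311): THE NON-EISENSTEIN PRIME.

`P` a Frey package, `W` an integral model of the Frey curve, `ρ = E[p]` irreducible.  Then for
every finite set `S` of primes there is a prime `l`, good for `W`, `l ∉ S`, `l ≠ p`, with
`p ∤ a_l(W) - (l + 1)`; in other words the Hecke operator `η = T_l - (l + 1)` does not lie in any
maximal ideal of residue characteristic `p` attached to `ρ` ("`𝔪` is not Eisenstein").

* `exists_prime_apOfModel_ne`       : the statement over `ℤ`.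
* `exists_prime_apOfModel_ne_cong`  : the same with `l ≡ 1 mod p * M` for a prescribed `M ≥ 1`.
* `exists_prime_apOfModel_notMem`   : the statement in any commutative ring `R` and any proper
  ideal `𝔪 ∋ p` of `R`: `a_l(W) - (l + 1) ∉ 𝔪`.
* `exists_prime_eigenvalue_notMem`  : the statement for a system `a l ≡ a_l(W) mod 𝔪` supplied by
  a congruence hypothesis valid for all good primes outside a finite set (the shape in which the
  Eisenstein step consumes it: `a l = a_l(f)`).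
* `exists_prime_apOfModel_zmod_ne`  : the statement in `ZMod p`, with `l ∤ M`:
  `(a_l(W) : ZMod p) ≠ l + 1`.
* `exists_prime_qCoeff_notMem`      : the statement for the data of the frozen
  `ModularRepOfLevel` (`f`, `𝔪` maximal in `integralClosure ℤ ℂ`, the congruence of `f` with `W`).
* `exists_prime_nonEisenstein`      : all-in-one: `l ∉ S`, `l ∤ M`, `l ≡ 1 mod p * M`, and the
  three equivalent forms `p ∤ a_l - (l + 1)`, `p ∤ l + 1 - a_l`, `(a_l : ZMod p) ≠ l + 1`.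

Everything is a thin adapter over the witness prime of S41 (`helper560_WitnessCong`), which rests
on generator-Chebotarev (S29) and the Frobenius Cayley–Hamilton relation on `E[p]` (S52/S58).
-/
import Fermat.Agent.S41.helper560_WitnessCong

set_option autoImplicit false

namespace Fermat.Agent.S44.helper311

open WeierstrassCurve WeierstrassCurve.Affine WeierstrassCurve.Affine.Point

/-- `p ∣ l + 1 - a` iff `p ∣ a - (l + 1)`. -/
theorem dvd_sub_comm_aux (p a l : ℤ) : p ∣ l + 1 - a ↔ p ∣ a - (l + 1) := by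
  rw [← dvd_neg, neg_sub]

/-- **L6-EISPRIME with congruence.**  For every `M ≥ 1` and every finite set `S` there is a prime
`l`, good for the integral model `W` of the Frey curve, `l ∉ S`, `l ≠ p`, `l ≡ 1 mod p * M`, with
`p ∤ a_l(W) - (l + 1)`. -/
theorem exists_prime_apOfModel_ne_cong (P : FreyPackage) (W : WeierstrassCurve ℤ)
    (hW : W.IsIntegralModelOf P.freyCurve)
    (hirr : GaloisRepIsIrreducible (K := AlgebraicClosure ℚ) ℚ P.freyCurve P.p)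
    (M : ℕ) (hM : 0 < M) (S : Finset ℕ) :
    ∃ l : ℕ, l.Prime ∧ l ∉ S ∧ W.IsGoodPrimeFor l ∧ l ≠ P.p ∧ l ≡ 1 [MOD P.p * M] ∧
      ¬ ((P.p : ℤ) ∣ W.apOfModel l - (l + 1)) := by
  have hp2 : P.p ≠ 2 := by have := P.hp5; omega
  obtain ⟨l, hl, hgood, hlS, hlp, hmod, hnd⟩ :=
    Fermat.Agent.S41.helper560.exists_good_prime_cong P.freyCurve hW P.pp hp2 hirr M hM S
  exact ⟨l, hl, hlS, hgood, hlp, hmod, fun h => hnd ((dvd_sub_comm_aux _ _ _).mpr h)⟩

/-- **L6-EISPRIME.**  For every finite set `S` there is a prime `l`, good for the integral model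
`W` of the Frey curve, `l ∉ S`, `l ≠ p`, with `p ∤ a_l(W) - (l + 1)`. -/
theorem exists_prime_apOfModel_ne (P : FreyPackage) (W : WeierstrassCurve ℤ)
    (hW : W.IsIntegralModelOf P.freyCurve)
    (hirr : GaloisRepIsIrreducible (K := AlgebraicClosure ℚ) ℚ P.freyCurve P.p) (S : Finset ℕ) :
    ∃ l : ℕ, l.Prime ∧ l ∉ S ∧ W.IsGoodPrimeFor l ∧ l ≠ P.p ∧
      ¬ ((P.p : ℤ) ∣ W.apOfModel l - (l + 1)) := by
  obtain ⟨l, hl, hlS, hgood, hlp, -, hnd⟩ :=
    exists_prime_apOfModel_ne_cong P W hW hirr 1 Nat.one_pos S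
  exact ⟨l, hl, hlS, hgood, hlp, hnd⟩

/-- **L6-EISPRIME, ideal form.**  `R` any commutative ring, `𝔪` a proper ideal containing `p`.
For every `M ≥ 1` and every finite set `S` there is a prime `l`, good for `W`, `l ∉ S`, `l ≠ p`,
`l ≡ 1 mod p * M`, with `a_l(W) - (l + 1) ∉ 𝔪`. -/
theorem exists_prime_apOfModel_notMem (P : FreyPackage) (W : WeierstrassCurve ℤ)
    (hW : W.IsIntegralModelOf P.freyCurve)
    (hirr : GaloisRepIsIrreducible (K := AlgebraicClosure ℚ) ℚ P.freyCurve P.p)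
    {R : Type*} [CommRing R] (𝔪 : Ideal R) (h𝔪 : 𝔪 ≠ ⊤) (hpm : (P.p : R) ∈ 𝔪)
    (M : ℕ) (hM : 0 < M) (S : Finset ℕ) :
    ∃ l : ℕ, l.Prime ∧ l ∉ S ∧ W.IsGoodPrimeFor l ∧ l ≠ P.p ∧ l ≡ 1 [MOD P.p * M] ∧
      ((W.apOfModel l : ℤ) : R) - ((l : R) + 1) ∉ 𝔪 := by
  obtain ⟨l, hl, hlS, hgood, hlp, hmod, hnd⟩ :=
    exists_prime_apOfModel_ne_cong P W hW hirr M hM S
  refine ⟨l, hl, hlS, hgood, hlp, hmod, fun hmem => ?_⟩
  have h1 : ((W.apOfModel l - ((l : ℤ) + 1) : ℤ) : R) ∈ 𝔪 := by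
    have e : ((W.apOfModel l - ((l : ℤ) + 1) : ℤ) : R) =
        ((W.apOfModel l : ℤ) : R) - ((l : R) + 1) := by
      push_cast
      ring
    rw [e]
    exact hmem
  exact Fermat.Agent.S41.helper560.intCast_notMem_of_not_dvd h𝔪 P.pp hpm hnd h1

/-- **L6-EISPRIME, eigenvalue form.**  `R` any commutative ring, `𝔪` a proper ideal containing
`p`, and `a : ℕ → R` a system of "eigenvalues" with `a l ≡ a_l(W) mod 𝔪` for every prime `l` good
for `W`, different from `p` and outside a finite set `T` (e.g. `T` = the primes dividing the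
level).  For every `M ≥ 1` and every finite set `S` there is a prime `l`, good for `W`, `l ∉ S`,
`l ∉ T`, `l ≠ p`, `l ≡ 1 mod p * M`, with `a l - (l + 1) ∉ 𝔪`. -/
theorem exists_prime_eigenvalue_notMem (P : FreyPackage) (W : WeierstrassCurve ℤ)
    (hW : W.IsIntegralModelOf P.freyCurve)
    (hirr : GaloisRepIsIrreducible (K := AlgebraicClosure ℚ) ℚ P.freyCurve P.p)
    {R : Type*} [CommRing R] (𝔪 : Ideal R) (h𝔪 : 𝔪 ≠ ⊤) (hpm : (P.p : R) ∈ 𝔪)
    (T : Finset ℕ) (a : ℕ → R)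
    (hcong : ∀ l : ℕ, l.Prime → W.IsGoodPrimeFor l → l ∉ T → l ≠ P.p →
      a l - ((W.apOfModel l : ℤ) : R) ∈ 𝔪)
    (M : ℕ) (hM : 0 < M) (S : Finset ℕ) :
    ∃ l : ℕ, l.Prime ∧ l ∉ S ∧ l ∉ T ∧ W.IsGoodPrimeFor l ∧ l ≠ P.p ∧ l ≡ 1 [MOD P.p * M] ∧
      a l - ((W.apOfModel l : ℤ) : R) ∈ 𝔪 ∧ a l - ((l : R) + 1) ∉ 𝔪 := by
  classical
  obtain ⟨l, hl, hlST, hgood, hlp, hmod, hnd⟩ :=
    exists_prime_apOfModel_notMem P W hW hirr 𝔪 h𝔪 hpm M hM (S ∪ T)
  rw [Finset.mem_union, not_or] at hlST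
  have ham := hcong l hl hgood hlST.2 hlp
  refine ⟨l, hl, hlST.1, hlST.2, hgood, hlp, hmod, ham, fun hmem => hnd ?_⟩
  have e : ((W.apOfModel l : ℤ) : R) - ((l : R) + 1) =
      (a l - ((l : R) + 1)) - (a l - ((W.apOfModel l : ℤ) : R)) := by ring
  rw [e]
  exact 𝔪.sub_mem hmem ham

/-- **L6-EISPRIME, `ZMod p` form** (the export shape announced for S44-L6-NONEIS): for `M ≥ 1`
there is a prime `l ∤ M`, good for `W`, `l ≠ p`, with `(a_l(W) : ZMod p) ≠ l + 1`. -/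
theorem exists_prime_apOfModel_zmod_ne (P : FreyPackage)
    (hirr : GaloisRepIsIrreducible (K := AlgebraicClosure ℚ) ℚ P.freyCurve P.p)
    (W : WeierstrassCurve ℤ) (hW : W.IsIntegralModelOf P.freyCurve) (M : ℕ) (hM : 0 < M) :
    ∃ l : ℕ, l.Prime ∧ W.IsGoodPrimeFor l ∧ ¬ l ∣ M ∧ l ≠ P.p ∧
      ((W.apOfModel l : ℤ) : ZMod P.p) ≠ (l : ZMod P.p) + 1 := by
  obtain ⟨l, hl, hlS, hgood, hlp, hnd⟩ := exists_prime_apOfModel_ne P W hW hirr M.primeFactors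
  have hlM : ¬ l ∣ M := fun hdvd => hlS (Nat.mem_primeFactors.mpr ⟨hl, hdvd, hM.ne'⟩)
  refine ⟨l, hl, hgood, hlM, hlp, fun heq => hnd ?_⟩
  rw [← ZMod.intCast_zmod_eq_zero_iff_dvd]
  push_cast
  rw [heq]
  ring

/-- **L6-EISPRIME for the data of the frozen `ModularRepOfLevel`.**  `f` a weight-2 cusp form of
level `N ≥ 1`, `𝔪` a maximal ideal of `integralClosure ℤ ℂ` containing `p`, and the congruence
`a_l(f) ≡ a_l(W) mod 𝔪` at the primes `l ∤ N`, good for `W`, `l ≠ p`.  Then for every `M ≥ 1` and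
every finite set `S` there is such a prime `l ∉ S`, `l ≡ 1 mod p * M`, with
`a_l(f) - (l + 1) ∉ 𝔪`. -/
theorem exists_prime_qCoeff_notMem (P : FreyPackage) (W : WeierstrassCurve ℤ)
    (hW : W.IsIntegralModelOf P.freyCurve)
    (hirr : GaloisRepIsIrreducible (K := AlgebraicClosure ℚ) ℚ P.freyCurve P.p)
    {N : ℕ} (hN : 0 < N) (f : CuspForm (CongruenceSubgroup.Gamma0 N) 2)
    (𝔪 : Ideal (integralClosure ℤ ℂ)) (hmax : 𝔪.IsMaximal)
    (hpm : (P.p : integralClosure ℤ ℂ) ∈ 𝔪)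
    (hcong : ∀ l : ℕ, l.Prime → W.IsGoodPrimeFor l → ¬ l ∣ N → l ≠ P.p →
      ∃ a : integralClosure ℤ ℂ, (a : ℂ) = ModularFormClass.qCoeff f l ∧
        a - ((W.apOfModel l : ℤ) : integralClosure ℤ ℂ) ∈ 𝔪)
    (M : ℕ) (hM : 0 < M) (S : Finset ℕ) :
    ∃ l : ℕ, l.Prime ∧ l ∉ S ∧ ¬ l ∣ N ∧ W.IsGoodPrimeFor l ∧ l ≠ P.p ∧ l ≡ 1 [MOD P.p * M] ∧
      ¬ ((P.p : ℤ) ∣ W.apOfModel l - (l + 1)) ∧
      ∃ a : integralClosure ℤ ℂ, (a : ℂ) = ModularFormClass.qCoeff f l ∧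
        a - ((W.apOfModel l : ℤ) : integralClosure ℤ ℂ) ∈ 𝔪 ∧
        a - ((l : integralClosure ℤ ℂ) + 1) ∉ 𝔪 := by
  have hp2 : P.p ≠ 2 := by have := P.hp5; omega
  obtain ⟨l, hl, hgood, hlS, hlp, hlN, hmod, hnd, a, ha, ham, hnot⟩ :=
    Fermat.Agent.S41.helper560.exists_witness_prime P.freyCurve hW P.pp hp2 hN hirr f 𝔪 hmax hpm
      hcong M hM S
  exact ⟨l, hl, hlS, hlN, hgood, hlp, hmod, fun h => hnd ((dvd_sub_comm_aux _ _ _).mpr h),
    a, ha, ham, hnot⟩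

/-- **L6-EISPRIME, all-in-one.**  For every `M ≥ 1` and every finite set `S` there is a prime
`l ∉ S`, `l ∤ M`, good for `W`, `l ≠ p`, `l ≡ 1 mod p * M`, with `a_l(W) ≢ l + 1 mod p`, stated in
the three shapes used by the consumers (`p ∤ a_l - (l + 1)`, `p ∤ l + 1 - a_l`, and in
`ZMod p`). -/
theorem exists_prime_nonEisenstein (P : FreyPackage) (W : WeierstrassCurve ℤ)
    (hW : W.IsIntegralModelOf P.freyCurve)
    (hirr : GaloisRepIsIrreducible (K := AlgebraicClosure ℚ) ℚ P.freyCurve P.p)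
    (M : ℕ) (hM : 0 < M) (S : Finset ℕ) :
    ∃ l : ℕ, l.Prime ∧ l ∉ S ∧ ¬ l ∣ M ∧ W.IsGoodPrimeFor l ∧ l ≠ P.p ∧ l ≡ 1 [MOD P.p * M] ∧
      ¬ ((P.p : ℤ) ∣ W.apOfModel l - (l + 1)) ∧ ¬ ((P.p : ℤ) ∣ (l : ℤ) + 1 - W.apOfModel l) ∧
      ((W.apOfModel l : ℤ) : ZMod P.p) ≠ (l : ZMod P.p) + 1 := by
  classical
  obtain ⟨l, hl, hlS, hgood, hlp, hmod, hnd⟩ :=
    exists_prime_apOfModel_ne_cong P W hW hirr M hM (S ∪ M.primeFactors)
  rw [Finset.mem_union, not_or] at hlS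
  have hlM : ¬ l ∣ M := fun hdvd => hlS.2 (Nat.mem_primeFactors.mpr ⟨hl, hdvd, hM.ne'⟩)
  refine ⟨l, hl, hlS.1, hlM, hgood, hlp, hmod, hnd,
    fun h => hnd ((dvd_sub_comm_aux _ _ _).mp h), fun heq => hnd ?_⟩
  rw [← ZMod.intCast_zmod_eq_zero_iff_dvd]
  push_cast
  rw [heq]
  ring

end Fermat.Agent.S44.helper311
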