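import Fermat.Agent.S44.helper6368_ExitLift
import Fermat.Agent.S23.helper23_Final

/-!
# S44, exit step: Deligne–Serre lifting, unconditional forms (helper6368)

The theorems of `helper6368_ExitLift` with the hypothesis `CuspForm.HasIntegralStructure M 2`
discharged by the landed statement S23 (`S23.helper23.hasIntegralStructure`).

* `modularRepOfLevel_of_ideal'`, `isResiduallyModularOfLevel_of_ideal'` : ideal form.
* `modularRepOfLevel_of_modEigen'`, `isResiduallyModularOfLevel_of_modEigen'` : coefficient form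
  (a nonzero `k`-combination `G` of reductions of integral forms satisfying the Hecke relations).
* `modularRepOfLevel_of_intEigen` : one integral form `f₀`, eigen modulo `p`.
-/

set_option autoImplicit false

open CuspForm CongruenceSubgroup ModularFormClass

namespace Fermat.Agent.S44.helper6368

variable {M : ℕ} [NeZero M]

/-- **Exit lifting, ideal form** (`IsResiduallyModularOfLevel`), unconditional. -/
theorem isResiduallyModularOfLevel_of_ideal' (W : WeierstrassCurve ℤ) (p : ℕ)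
    (I : Ideal (CuspForm.heckeAlgebra M 2 (∅ : Set ℕ))) (hI : I ≠ ⊤)
    (hp : ((p : ℕ) : CuspForm.heckeAlgebra M 2 (∅ : Set ℕ)) ∈ I)
    (hT : ∀ (ℓ : ℕ) (hℓ : ℓ.Prime) (hℓM : ¬ ℓ ∣ M), W.IsGoodPrimeFor ℓ → ℓ ≠ p →
      CuspForm.heckeAlgebra.T hℓ hℓM (Set.notMem_empty ℓ) -
        ((W.apOfModel ℓ : ℤ) : CuspForm.heckeAlgebra M 2 (∅ : Set ℕ)) ∈ I) :
    W.IsResiduallyModularOfLevel p M :=
  isResiduallyModularOfLevel_of_ideal (Fermat.Agent.S23.helper23.hasIntegralStructure M 2)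
    W p I hI hp hT

/-- **Exit lifting, ideal form** (`FreyPackage.ModularRepOfLevel`), unconditional. -/
theorem modularRepOfLevel_of_ideal' (P : FreyPackage) (W : WeierstrassCurve ℤ)
    (hW : W.IsIntegralModelOf P.freyCurve)
    (I : Ideal (CuspForm.heckeAlgebra M 2 (∅ : Set ℕ))) (hI : I ≠ ⊤)
    (hp : ((P.p : ℕ) : CuspForm.heckeAlgebra M 2 (∅ : Set ℕ)) ∈ I)
    (hT : ∀ (ℓ : ℕ) (hℓ : ℓ.Prime) (hℓM : ¬ ℓ ∣ M), W.IsGoodPrimeFor ℓ → ℓ ≠ P.p →
      CuspForm.heckeAlgebra.T hℓ hℓM (Set.notMem_empty ℓ) -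
        ((W.apOfModel ℓ : ℤ) : CuspForm.heckeAlgebra M 2 (∅ : Set ℕ)) ∈ I) :
    P.ModularRepOfLevel M :=
  modularRepOfLevel_of_ideal (Fermat.Agent.S23.helper23.hasIntegralStructure M 2)
    P W hW I hI hp hT

/-- **Exit lifting, coefficient form** (`IsResiduallyModularOfLevel`), unconditional. -/
theorem isResiduallyModularOfLevel_of_modEigen' {k : Type*} [CommRing k]
    (W : WeierstrassCurve ℤ) (p : ℕ) (hpk : ((p : ℕ) : k) = 0)
    {ι : Type} (s : Finset ι) (c : ι → k) (g : ι → CuspForm (Gamma0 M) 2) (a : ι → ℕ → ℤ)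
    (ha : ∀ i ∈ s, ∀ n, ((a i n : ℤ) : ℂ) = qCoeff ⇑(g i) n)
    (G : ℕ → k) (hG : ∀ n, G n = ∑ i ∈ s, c i * ((a i n : ℤ) : k)) (hG0 : ∃ n, G n ≠ 0)
    (heig : ∀ ℓ : ℕ, ℓ.Prime → ¬ ℓ ∣ M → W.IsGoodPrimeFor ℓ → ℓ ≠ p → ∀ n : ℕ,
      G (n * ℓ) + (if ℓ ∣ n then (ℓ : k) * G (n / ℓ) else 0)
        = ((W.apOfModel ℓ : ℤ) : k) * G n) :
    W.IsResiduallyModularOfLevel p M :=
  isResiduallyModularOfLevel_of_modEigen (Fermat.Agent.S23.helper23.hasIntegralStructure M 2)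
    W p hpk s c g a ha G hG hG0 heig

/-- **Exit lifting, coefficient form** (`FreyPackage.ModularRepOfLevel`), unconditional. -/
theorem modularRepOfLevel_of_modEigen' {k : Type*} [CommRing k]
    (P : FreyPackage) (W : WeierstrassCurve ℤ) (hW : W.IsIntegralModelOf P.freyCurve)
    (hpk : ((P.p : ℕ) : k) = 0)
    {ι : Type} (s : Finset ι) (c : ι → k) (g : ι → CuspForm (Gamma0 M) 2) (a : ι → ℕ → ℤ)
    (ha : ∀ i ∈ s, ∀ n, ((a i n : ℤ) : ℂ) = qCoeff ⇑(g i) n)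
    (G : ℕ → k) (hG : ∀ n, G n = ∑ i ∈ s, c i * ((a i n : ℤ) : k)) (hG0 : ∃ n, G n ≠ 0)
    (heig : ∀ ℓ : ℕ, ℓ.Prime → ¬ ℓ ∣ M → W.IsGoodPrimeFor ℓ → ℓ ≠ P.p → ∀ n : ℕ,
      G (n * ℓ) + (if ℓ ∣ n then (ℓ : k) * G (n / ℓ) else 0)
        = ((W.apOfModel ℓ : ℤ) : k) * G n) :
    P.ModularRepOfLevel M :=
  modularRepOfLevel_of_modEigen (Fermat.Agent.S23.helper23.hasIntegralStructure M 2)
    P W hW hpk s c g a ha G hG hG0 heig

/-- **Exit lifting, one integral form.** An integral weight-2 cusp form `f₀` of level `M` with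
integer coefficients `a₀`, not all divisible by `p`, which is a Hecke eigenform modulo `p` with
eigenvalues `a_ℓ(W)` at the good primes. -/
theorem isResiduallyModularOfLevel_of_intEigen (W : WeierstrassCurve ℤ) {p : ℕ}
    (f₀ : CuspForm (Gamma0 M) 2) (a₀ : ℕ → ℤ)
    (ha₀ : ∀ n, ((a₀ n : ℤ) : ℂ) = qCoeff ⇑f₀ n) (hne : ∃ n, ¬ (p : ℤ) ∣ a₀ n)
    (heig : ∀ ℓ : ℕ, ℓ.Prime → ¬ ℓ ∣ M → W.IsGoodPrimeFor ℓ → ℓ ≠ p → ∀ n : ℕ,
      (p : ℤ) ∣ a₀ (n * ℓ) + (if ℓ ∣ n then (ℓ : ℤ) * a₀ (n / ℓ) else 0)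
        - W.apOfModel ℓ * a₀ n) :
    W.IsResiduallyModularOfLevel p M := by
  refine isResiduallyModularOfLevel_of_modEigen' (k := ZMod p) W p (ZMod.natCast_self p)
    (ι := Unit) {()} (fun _ => 1) (fun _ => f₀) (fun _ => a₀) (fun _ _ n => ha₀ n)
    (fun n => ((a₀ n : ℤ) : ZMod p)) (fun n => by simp) ?_ ?_
  · obtain ⟨n, hn⟩ := hne
    refine ⟨n, fun h0 => hn ?_⟩
    exact (ZMod.intCast_zmod_eq_zero_iff_dvd (a₀ n) p).1 h0
  · intro ℓ hℓ hℓM hgood hℓp n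
    have h := (ZMod.intCast_zmod_eq_zero_iff_dvd _ p).2 (heig ℓ hℓ hℓM hgood hℓp n)
    by_cases hd : ℓ ∣ n
    · rw [if_pos hd] at h ⊢
      push_cast at h
      exact sub_eq_zero.1 h
    · rw [if_neg hd] at h ⊢
      push_cast at h
      exact sub_eq_zero.1 h

/-- **Exit lifting, one integral form**, `FreyPackage.ModularRepOfLevel` vocabulary. -/
theorem modularRepOfLevel_of_intEigen (P : FreyPackage) (W : WeierstrassCurve ℤ)
    (hW : W.IsIntegralModelOf P.freyCurve)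
    (f₀ : CuspForm (Gamma0 M) 2) (a₀ : ℕ → ℤ)
    (ha₀ : ∀ n, ((a₀ n : ℤ) : ℂ) = qCoeff ⇑f₀ n) (hne : ∃ n, ¬ (P.p : ℤ) ∣ a₀ n)
    (heig : ∀ ℓ : ℕ, ℓ.Prime → ¬ ℓ ∣ M → W.IsGoodPrimeFor ℓ → ℓ ≠ P.p → ∀ n : ℕ,
      (P.p : ℤ) ∣ a₀ (n * ℓ) + (if ℓ ∣ n then (ℓ : ℤ) * a₀ (n / ℓ) else 0)
        - W.apOfModel ℓ * a₀ n) :
    P.ModularRepOfLevel M := by
  obtain ⟨f, 𝔪, hf, hmax, hp𝔪, hcong⟩ :=
    isResiduallyModularOfLevel_of_intEigen W f₀ a₀ ha₀ hne heig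
  exact ⟨f, W, 𝔪, hf, hW, hmax, hp𝔪, hcong⟩

end Fermat.Agent.S44.helper6368

namespace Fermat.Agent.S44.helper6368

variable {M : ℕ} [NeZero M]

/-- **Exit lifting, span form.** `G : ℕ → k` lies in the `k`-span of the reductions of finitely
many integral weight-2 cusp forms of level `M`, is nonzero, and satisfies the Hecke relations. -/
theorem isResiduallyModularOfLevel_of_mem_span {k : Type*} [CommRing k]
    (W : WeierstrassCurve ℤ) (p : ℕ) (hpk : ((p : ℕ) : k) = 0)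
    {ι : Type} [Finite ι] (g : ι → CuspForm (Gamma0 M) 2) (a : ι → ℕ → ℤ)
    (ha : ∀ i n, ((a i n : ℤ) : ℂ) = qCoeff ⇑(g i) n)
    (G : ℕ → k)
    (hG : G ∈ Submodule.span k (Set.range fun i : ι => fun n : ℕ => ((a i n : ℤ) : k)))
    (hG0 : G ≠ 0)
    (heig : ∀ ℓ : ℕ, ℓ.Prime → ¬ ℓ ∣ M → W.IsGoodPrimeFor ℓ → ℓ ≠ p → ∀ n : ℕ,
      G (n * ℓ) + (if ℓ ∣ n then (ℓ : k) * G (n / ℓ) else 0)
        = ((W.apOfModel ℓ : ℤ) : k) * G n) :
    W.IsResiduallyModularOfLevel p M := by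
  classical
  have := Fintype.ofFinite ι
  obtain ⟨c, hc⟩ := (Submodule.mem_span_range_iff_exists_fun k).1 hG
  refine isResiduallyModularOfLevel_of_modEigen' W p hpk Finset.univ c g a
    (fun i _ n => ha i n) G (fun n => ?_) ?_ heig
  · rw [← hc]
    simp [Finset.sum_apply]
  · by_contra h
    push_neg at h
    exact hG0 (funext h)

/-- **Exit lifting, span form**, `FreyPackage.ModularRepOfLevel` vocabulary. -/
theorem modularRepOfLevel_of_mem_span {k : Type*} [CommRing k]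
    (P : FreyPackage) (W : WeierstrassCurve ℤ) (hW : W.IsIntegralModelOf P.freyCurve)
    (hpk : ((P.p : ℕ) : k) = 0)
    {ι : Type} [Finite ι] (g : ι → CuspForm (Gamma0 M) 2) (a : ι → ℕ → ℤ)
    (ha : ∀ i n, ((a i n : ℤ) : ℂ) = qCoeff ⇑(g i) n)
    (G : ℕ → k)
    (hG : G ∈ Submodule.span k (Set.range fun i : ι => fun n : ℕ => ((a i n : ℤ) : k)))
    (hG0 : G ≠ 0)
    (heig : ∀ ℓ : ℕ, ℓ.Prime → ¬ ℓ ∣ M → W.IsGoodPrimeFor ℓ → ℓ ≠ P.p → ∀ n : ℕ,
      G (n * ℓ) + (if ℓ ∣ n then (ℓ : k) * G (n / ℓ) else 0)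
        = ((W.apOfModel ℓ : ℤ) : k) * G n) :
    P.ModularRepOfLevel M := by
  obtain ⟨f, 𝔪, hf, hmax, hp𝔪, hcong⟩ :=
    isResiduallyModularOfLevel_of_mem_span W P.p hpk g a ha G hG hG0 heig
  exact ⟨f, W, 𝔪, hf, hW, hmax, hp𝔪, hcong⟩

/-- **Exit lifting, power-series form.** `G : PowerSeries k` lies in the `k`-span of the
reductions `PowerSeries.map (Int.castRingHom k) (PowerSeries.mk (a i))` of the `q`-expansions of
finitely many integral weight-2 cusp forms of level `M`. -/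
theorem modularRepOfLevel_of_powerSeries {k : Type*} [CommRing k]
    (P : FreyPackage) (W : WeierstrassCurve ℤ) (hW : W.IsIntegralModelOf P.freyCurve)
    (hpk : ((P.p : ℕ) : k) = 0)
    {ι : Type} [Finite ι] (g : ι → CuspForm (Gamma0 M) 2) (a : ι → ℕ → ℤ)
    (ha : ∀ i n, ((a i n : ℤ) : ℂ) = qCoeff ⇑(g i) n)
    (G : PowerSeries k)
    (hG : G ∈ Submodule.span k (Set.range fun i : ι =>
      PowerSeries.map (Int.castRingHom k) (PowerSeries.mk (a i))))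
    (hG0 : G ≠ 0)
    (heig : ∀ ℓ : ℕ, ℓ.Prime → ¬ ℓ ∣ M → W.IsGoodPrimeFor ℓ → ℓ ≠ P.p → ∀ n : ℕ,
      PowerSeries.coeff (n * ℓ) G
          + (if ℓ ∣ n then (ℓ : k) * PowerSeries.coeff (n / ℓ) G else 0)
        = ((W.apOfModel ℓ : ℤ) : k) * PowerSeries.coeff n G) :
    P.ModularRepOfLevel M := by
  classical
  have := Fintype.ofFinite ι
  obtain ⟨c, hc⟩ := (Submodule.mem_span_range_iff_exists_fun k).1 hG
  have hcoeff : ∀ n, PowerSeries.coeff n G = ∑ i, c i * ((a i n : ℤ) : k) := by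
    intro n
    rw [← hc, map_sum]
    refine Finset.sum_congr rfl fun i _ => ?_
    rw [PowerSeries.coeff_smul, PowerSeries.coeff_map, PowerSeries.coeff_mk]
    rfl
  refine modularRepOfLevel_of_modEigen' P W hW hpk Finset.univ c g a
    (fun i _ n => ha i n) (fun n => PowerSeries.coeff n G) hcoeff ?_ heig
  by_contra h
  push_neg at h
  exact hG0 (PowerSeries.ext fun n => by rw [h n, map_zero])

end Fermat.Agent.S44.helper6368
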