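/-
S44 (row 38): level lowering at `p` for the Frey representation — TOP SPEC (helper3130, captain).

Blueprint: findings #3246 (steps (1)-(6)), ruling #1 = findings #3816.

This file fixes the vocabulary and the TEN top seams of the S44 project, and proves the frozen
statement from them (`result_of_seams`).  Every seam is ONE `Prop` about the landed objects

* `F_N = modularFunctionFieldBar N` (q-expansions over `ℚ̄`), `J₀(N) = ModularCurve.JZero N`,
* `A` a valuation subring of `ℚ̄` over `p`, `k = A / 𝔪_A`,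
* `ρ = helper882.gpRho A N : F_N → k((q))` (coefficientwise reduction on the Gauss ring at `∞`),
* `W_p = helper1219.atkinLehnerBar p M _` on `F_(p M)`,
* level convention `N = p * M` (as in the landed S35/S34 geometry kit), exit level `M`.

Seams (owners in the registry table `s44_leaves`):

* `Stmt_Embed`       (T1)  machine side: `hmod`, `hirr` ⟹ level `M` already, or a `p`-new copy `V ≅ E[p]`
                           inside `J₀(p M)[p]` with the Hecke eigenvalues of the Frey curve;
* `Stmt_OmegaExists` (T2)  every `p`-torsion class has a residual logarithmic derivative;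
* `Stmt_Tor1`        (T3a) step (3): a `p`-new class with `Ω = 0` lies in `T` (`InT`: its Kummer function
                           is a `p`-th power to every precision at both Gauss valuations);
* `Stmt_Tor`         (T3b) step (2): the inertia group at `p` acts on `T` through the cyclotomic character;
* `Stmt_WInertia`    (T4)  `W`-side: inertia at `p` acts trivially on `E[p]` modulo a proper subgroup;
* `Stmt_CycloRam`    (T5)  the mod `p` cyclotomic character is nontrivial on inertia at `p`;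
* `Stmt_Hol`         (T6)  steps (1)+(4)+(5): for `c ∈ V` all orders of `ρ(h_c)` are divisible by `p`
                           (its `W`-side input is pinned as `Stmt_WPeu`);
* `Stmt_HolExit`     (T7)  exit (6): `θx/x` with `p ∣ div x` on `X₀(M)/k` is a `k`-combination of
                           reductions of integral weight-2 cusp forms of level `M`;
* `Stmt_OmegaHecke`  (T8)  `Ω` intertwines `T_ℓ` on `J₀` with the formal weight-2 Hecke operator.

The last arrow (mod `p` eigen-combination ⟹ `ModularRepOfLevel M`) is the compiled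
`helper6368.modularRepOfLevel_of_modEigen'`.

* `Stmt_TwoDvd`      (T9)  a `p`-new Frey module forces `2 ∣ M` (`E[p]` is ramified at `2`, `J₀(N)[p]` is
                           unramified at `2` when `2 ∤ N`): L1-TWO.

The seams (T3b), (T6), (T7) carry the hypothesis `2 ∣ M` (the landed two-component geometry has
its charts at an auxiliary prime `r ∣ M`, `r = 2`; the landed residue certificates of the exit live
on the Hauptmodul line of level `2`); the top discharges it by (T9).  No level `2N`.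
-/
import Mathlib
import Fermat.Prelude.Def_FLTPrelim_FreyPackage
import Fermat.Prelude.Def_FLTPrelim_GaloisRep
import Fermat.Prelude.Def_FLTPrelim_Modularity
import Fermat.Prelude.Def_FLTPrelim_ModularRep
import Fermat.Prelude.Def_FLTPrelim_Ramification
import Fermat.Prelude.Def_FreyPackage_IsConductorLevel
import Fermat.Prelude.Def_ModularCurve_HeckeModule
import Fermat.Agent.S35.helper882_GaussPair
import Fermat.Agent.S35.helper1219_AtkinLehnerFF
import Fermat.Agent.S29.helper2378_HeckeComm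
import Fermat.Agent.Lib.helper54_Frobenius
import Fermat.Agent.S44.helper6368_ExitLiftFinal

set_option autoImplicit false

open WeierstrassCurve WeierstrassCurve.Affine WeierstrassCurve.Affine.Point
open CuspForm ModularFormClass UpperHalfPlane
open ModularCurve AlgebraicCurve

noncomputable section

namespace Fermat.Agent.S44.helper3130

local notation "Kbar" => AlgebraicClosure ℚ
local notation "GQ" => (AlgebraicClosure ℚ ≃ₐ[ℚ] AlgebraicClosure ℚ)
local notation "FN" => modularFunctionFieldBar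

/-- The prime of a Frey package is nonzero (instance form, for the level `P.p * M`). -/
instance freyNeZero (P : FreyPackage) : NeZero P.p := ⟨P.hp0⟩

/-! ## Vocabulary -/

/-- The `p`-torsion `E[p]` of the Frey curve over `ℚ̄`, with its Galois action (frozen carrier of
`GaloisRepIsIrreducible`). -/
abbrev FreyTors (P : FreyPackage) : Type :=
  Submodule.torsionBy ℤ (P.freyCurve⁄Kbar).Point P.p

/-- `h` is a **Kummer function** of the class `c ∈ J₀(N)` for the exponent `n`:
`h ≠ 0`, `div h = n • D` and `[D] = c`. -/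
def IsKummerFn (N n : ℕ) [NeZero N] (c : JZero N) (h : FN N) : Prop :=
  h ≠ 0 ∧ ∃ D : Divisor.degZero (K := Kbar) (F := FN N),
    Pic0.mk D = c ∧ ∀ v : Place Kbar (FN N), v.ord h = (n : ℤ) * (D : Divisor Kbar (FN N)) v

/-- `σ` acts on the `p`-th roots of unity of `ℚ̄` by `ζ ↦ ζ ^ m` (so `m` is the value of the mod `p`
cyclotomic character at `σ`). -/
def IsCycloExp (p : ℕ) (σ : GQ) (m : ℤ) : Prop :=
  ∀ ζ : Kbar, ζ ^ p = 1 → σ ζ = ζ ^ m

section Omega

variable (A : ValuationSubring Kbar) (N : ℕ) [NeZero N]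

/-- `G` is the **residual logarithmic derivative** `Ω(c) = θ(h̄)/h̄` (`θ = q d/dq`) of the class `c`
along `A`: there is a Kummer function `h` of `c` (exponent `p`) which is a unit for the Gauss
valuation at `∞`, and `G * ρ(h) = θ(ρ(h))` in `k((q))`. -/
def IsOmega (p : ℕ) (c : JZero N) (G : LaurentSeries (IsLocalRing.ResidueField A)) : Prop :=
  ∃ h : FN N, IsKummerFn N p c h ∧ (Fermat.Agent.S35.helper882.gpRing A N).valuation h = 1 ∧
    ∀ n : ℤ, (G * Fermat.Agent.S35.helper882.gpRho A N h).coeff n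
      = (n : IsLocalRing.ResidueField A) * (Fermat.Agent.S35.helper882.gpRho A N h).coeff n

end Omega

/-- `G ∈ k((q))` is a `k`-linear combination of reductions of weight-2 cusp forms of level `M` with
integral `q`-expansions (in particular `G ∈ q k[[q]]`). -/
def InCuspSpan (M : ℕ) {k : Type} [Field k] (G : LaurentSeries k) : Prop :=
  (∀ n : ℤ, n ≤ 0 → G.coeff n = 0) ∧
  ∃ (ι : Type) (s : Finset ι) (c : ι → k) (g : ι → CuspForm (CongruenceSubgroup.Gamma0 M) 2)
    (a : ι → ℕ → ℤ),
    (∀ i ∈ s, ∀ n, ((a i n : ℤ) : ℂ) = qCoeff ⇑(g i) n) ∧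
    ∀ n : ℕ, G.coeff (n : ℤ) = ∑ i ∈ s, c i * ((a i n : ℤ) : k)

section PNew

variable (p M : ℕ) [NeZero p] [NeZero M] (hcop : Nat.Coprime p M)

/-- The class `c ∈ J₀(p M)` is **`p`-new**, function form: for every Kummer function `h` of `c`
(exponent `p`) the two norms to level `M` — of `h` and of `W_p h` along `F_M ⊆ F_(p M)` — are `p`-th
powers.  (Equivalent to `α_* c = 0 = β_* c` in `J₀(M)`: `div (Nm h) = p • α_* D`.) -/
def IsPNew (c : JZero (p * M)) : Prop :=
  letI : Algebra (FN M) (FN (p * M)) :=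
    (Fermat.Agent.S29.helper2378.levelIncl (M := M) (M' := p * M)
      (Dvd.intro_left p rfl)).toRingHom.toAlgebra
  ∀ h : FN (p * M), IsKummerFn (p * M) p c h →
    (∃ w : FN M, Algebra.norm (FN M) h = w ^ p) ∧
    (∃ w : FN M,
      Algebra.norm (FN M) (Fermat.Agent.S35.helper1219.atkinLehnerBar p M hcop h) = w ^ p)

end PNew

section TorsionT

variable (p M : ℕ) [NeZero p] [NeZero M] (hcop : Nat.Coprime p M) (A : ValuationSubring Kbar)

/-- The class `c ∈ J₀(p M)` lies in **`T`**: it has a Kummer function `h` (exponent `p`) which is a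
`p`-th power to every precision at both Gauss valuations `v_∞`, `v_0 = v_∞ ∘ W_p`, with approximants
in the function field (equivalently: `h` is a `p`-th power in both completions of `F_(p M)`). -/
def InT (c : JZero (p * M)) : Prop :=
  ∃ h : FN (p * M), IsKummerFn (p * M) p c h ∧
    ∀ γ : (Fermat.Agent.S35.helper882.gpRing A (p * M)).ValueGroup, γ ≠ 0 →
      ∀ i : Fin 2, ∃ g : FN (p * M),
        Fermat.Agent.S35.helper882.gpVal A (p * M)
          (Fermat.Agent.S35.helper1219.atkinLehnerBar p M hcop) i (h - g ^ p) ≤ γ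

end TorsionT

/-- A **`p`-new Frey module** at level `p M`: a subgroup `V ⊆ J₀(p M)`, Galois-equivariantly
isomorphic to `E[p]`, on which the good Hecke operators act through the Frobenius traces of the
integral model `W`, and consisting of `p`-new classes. -/
structure NewFreyModule (P : FreyPackage) (M : ℕ) [NeZero M] (hcop : Nat.Coprime P.p M)
    (W : WeierstrassCurve ℤ) (V : AddSubgroup (JZero (P.p * M))) : Prop where
  model : W.IsIntegralModelOf P.freyCurve
  iso : ∃ e : FreyTors P ≃+ V, ∀ (σ : GQ) (x : FreyTors P),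
    ((e (σ • x) : V) : JZero (P.p * M)) = σ • ((e x : V) : JZero (P.p * M))
  hecke : ∀ (ℓ : ℕ) (hℓ : ℓ.Prime), ¬ ℓ ∣ P.p * M → W.IsGoodPrimeFor ℓ →
    ∀ c ∈ V, heckeOperatorBar (P.p * M) ⟨ℓ, hℓ⟩ c = (W.apOfModel ℓ) • c
  pnew : ∀ c ∈ V, IsPNew P.p M hcop c

/-! ## The seams -/

/-- **(T1) EMBED + p-OLD EXIT** (L8).  From `hmod` at level `p M` and `hirr`: either the level is
already `M`, or there is a `p`-new Frey module at level `p M`. -/
def Stmt_Embed : Prop :=
  ∀ (P : FreyPackage) (M : ℕ) [NeZero M] (hcop : Nat.Coprime P.p M),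
    P.IsConductorLevel (P.p * M) →
    GaloisRepIsIrreducible (K := AlgebraicClosure ℚ) ℚ P.freyCurve P.p →
    P.ModularRepOfLevel (P.p * M) →
    P.ModularRepOfLevel M ∨
      ∃ (W : WeierstrassCurve ℤ) (V : AddSubgroup (JZero (P.p * M))), NewFreyModule P M hcop W V

/-- **(T2) OMEGA exists** (L2-OMEGA).  Every `p`-torsion class has a residual logarithmic
derivative. -/
def Stmt_OmegaExists : Prop :=
  ∀ (p : ℕ) (_ : p.Prime) (N : ℕ) [NeZero N] (A : ValuationSubring Kbar), A.LiesOverPrime p →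
    ∀ c : JZero N, p • c = 0 → ∃ G, IsOmega A N p c G

/-- **(T3a) TOR-1** (step (3), L3).  A `p`-new `p`-torsion class with `Ω = 0` lies in `T`. -/
def Stmt_Tor1 : Prop :=
  ∀ (p : ℕ) (_ : p.Prime) (_ : 5 ≤ p) (M : ℕ) [NeZero p] [NeZero M] (hcop : Nat.Coprime p M),
    Squarefree (p * M) →
    ∀ (A : ValuationSubring Kbar), A.LiesOverPrime p →
    ∀ c : JZero (p * M), p • c = 0 → IsPNew p M hcop c → IsOmega A (p * M) p c 0 →
      InT p M hcop A c

/-- **(T3b) TOR** (step (2), L2).  The inertia group at `A` acts on the `p`-torsion classes of `T`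
through the cyclotomic character (level `p M` with `2 ∣ M`). -/
def Stmt_Tor : Prop :=
  ∀ (p : ℕ) (_ : p.Prime) (_ : 5 ≤ p) (M : ℕ) [NeZero p] [NeZero M] (hcop : Nat.Coprime p M),
    Squarefree (p * M) → 2 ∣ M →
    ∀ (A : ValuationSubring Kbar), A.LiesOverPrime p →
    ∀ c : JZero (p * M), p • c = 0 → InT p M hcop A c →
      ∀ σ ∈ A.inertiaSubgroupIn ℚ, ∀ m : ℤ, IsCycloExp p σ m → σ • c = m • c

/-- **(T3) KER** = (T3a) + (T3b).  A `p`-new `p`-torsion class with `Ω = 0` is an eigenvector of the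
inertia group at `A` for the cyclotomic character. -/
def Stmt_Ker : Prop :=
  ∀ (p : ℕ) (_ : p.Prime) (_ : 5 ≤ p) (M : ℕ) [NeZero p] [NeZero M] (hcop : Nat.Coprime p M),
    Squarefree (p * M) → 2 ∣ M →
    ∀ (A : ValuationSubring Kbar), A.LiesOverPrime p →
    ∀ c : JZero (p * M), p • c = 0 → IsPNew p M hcop c → IsOmega A (p * M) p c 0 →
      ∀ σ ∈ A.inertiaSubgroupIn ℚ, ∀ m : ℤ, IsCycloExp p σ m → σ • c = m • c

theorem ker_of_tor (h3a : Stmt_Tor1) (h3b : Stmt_Tor) : Stmt_Ker :=
  fun p hp hp5 M _ _ hcop hsq h2 A hA c hc hnew hom =>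
    h3b p hp hp5 M hcop hsq h2 A hA c hc (h3a p hp hp5 M hcop hsq A hA c hc hnew hom)

/-- **(T4) W-INERTIA** (L9).  For `p ∣ abc` the inertia group at `A` acts trivially on `E[p]` modulo
a proper subgroup (the `μ_p`-line of the Tate curve). -/
def Stmt_WInertia : Prop :=
  ∀ (P : FreyPackage), (P.p : ℤ) ∣ P.a * P.b * P.c →
    ∀ (A : ValuationSubring Kbar), A.LiesOverPrime P.p →
      ∃ V1 : AddSubgroup (FreyTors P), V1 ≠ ⊤ ∧
        ∀ σ ∈ A.inertiaSubgroupIn ℚ, ∀ x : FreyTors P, σ • x - x ∈ V1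

/-- **(T6-W) PEU RAMIFIE** (L9; consumed inside the proof of (T6), step (4)).  For `p ∣ abc` there
is `u ≡ 1 mod p`, fixed by the inertia group at `A`, such that `E[p]` is pointwise fixed by every
inertia element fixing the `p`-th roots of unity and the `p`-th roots of `u`: the inertia action on
`E[p]` factors through `K₀(ζ_p, u^(1/p))`, `K₀ = ℚ̄^(I_A)`. -/
def Stmt_WPeu : Prop :=
  ∀ (P : FreyPackage), (P.p : ℤ) ∣ P.a * P.b * P.c →
    ∀ (A : ValuationSubring Kbar), A.LiesOverPrime P.p →
      ∃ u : Kbar, (∃ c ∈ A, u = 1 + (P.p : Kbar) * c) ∧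
        (∀ σ ∈ A.inertiaSubgroupIn ℚ, σ u = u) ∧
        ∀ σ ∈ A.inertiaSubgroupIn ℚ, (∀ ζ : Kbar, ζ ^ P.p = 1 → σ ζ = ζ) →
          (∀ y : Kbar, y ^ P.p = u → σ y = y) → ∀ x : FreyTors P, σ • x = x

/-- **(T5) CYCLO-RAM** (L1-BASE).  The mod `p` cyclotomic character is nontrivial on the inertia
group at `A` (`p` odd). -/
def Stmt_CycloRam : Prop :=
  ∀ (p : ℕ) (_ : p.Prime) (_ : 5 ≤ p) (A : ValuationSubring Kbar), A.LiesOverPrime p →
    ∃ σ ∈ A.inertiaSubgroupIn ℚ, ∃ m : ℤ, IsCycloExp p σ m ∧ ¬ (p : ℤ) ∣ m - 1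

/-- **(T6) HOL** (steps (1)+(4)+(5): COUNT, (PL), Eisenstein; `W`-side peu ramifié inside; level
`p M` with `2 ∣ M`).  For `c` in a `p`-new Frey module and `h` a Kummer function of `c` which is a Gauss
unit at `∞`, the reduction `ρ(h)` is a function on `X₀(M)/k` all of whose orders are divisible by
`p` (at ordinary points, cusps and supersingular points). -/
def Stmt_Hol : Prop :=
  ∀ (P : FreyPackage) (M : ℕ) [NeZero M] (hcop : Nat.Coprime P.p M),
    P.IsConductorLevel (P.p * M) → 2 ∣ M →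
    GaloisRepIsIrreducible (K := AlgebraicClosure ℚ) ℚ P.freyCurve P.p →
    ∀ (A : ValuationSubring Kbar), A.LiesOverPrime P.p →
    ∀ (W : WeierstrassCurve ℤ) (V : AddSubgroup (JZero (P.p * M))), NewFreyModule P M hcop W V →
    ∀ c ∈ V, ∀ h : FN (P.p * M), IsKummerFn (P.p * M) P.p c h →
      (Fermat.Agent.S35.helper882.gpRing A (P.p * M)).valuation h = 1 →
      ∃ x : modularFunctionFieldFullC (IsLocalRing.ResidueField A) M,
        (x : LaurentSeries (IsLocalRing.ResidueField A))
            = Fermat.Agent.S35.helper882.gpRho A (P.p * M) h ∧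
        ∀ y : Place (IsLocalRing.ResidueField A)
            (modularFunctionFieldFullC (IsLocalRing.ResidueField A) M), (P.p : ℤ) ∣ y.ord x

/-- **(T7) HOL-EXIT** (L7).  On `X₀(M)` over `k = A / 𝔪_A` (`p ∤ M`, `2 ∣ M`): if `x ≠ 0` has all
orders divisible by `p` and `G * x = θ x`, then `G` is a `k`-combination of reductions of integral
weight-2 cusp forms of level `M`.  (The hypothesis `2 ∣ M` is supplied by the top from (T9); with it
the cusp-residue input of the exit is the landed Hauptmodul-line certificate.) -/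
def Stmt_HolExit : Prop :=
  ∀ (p : ℕ) (_ : p.Prime) (_ : 5 ≤ p) (M : ℕ) [NeZero M], ¬ p ∣ M → 2 ∣ M →
    ∀ (A : ValuationSubring Kbar), A.LiesOverPrime p →
    ∀ x : modularFunctionFieldFullC (IsLocalRing.ResidueField A) M, x ≠ 0 →
      (∀ y : Place (IsLocalRing.ResidueField A)
          (modularFunctionFieldFullC (IsLocalRing.ResidueField A) M), (p : ℤ) ∣ y.ord x) →
      ∀ G : LaurentSeries (IsLocalRing.ResidueField A),
        (∀ n : ℤ, (G * (x : LaurentSeries (IsLocalRing.ResidueField A))).coeff n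
          = (n : IsLocalRing.ResidueField A)
            * (x : LaurentSeries (IsLocalRing.ResidueField A)).coeff n) →
        InCuspSpan M G

/-- **(T8) OMEGA-HECKE** (L2-OMEGA + L6-TLMULT + L6-DLOGHECKE).  If `T_ℓ c = a • c` (`ℓ ∤ N`) then
`Ω(c)` satisfies the weight-2 Hecke relation with eigenvalue `a`. -/
def Stmt_OmegaHecke : Prop :=
  ∀ (p : ℕ) (_ : p.Prime) (N : ℕ) [NeZero N] (A : ValuationSubring Kbar), A.LiesOverPrime p →
    ∀ c : JZero N, p • c = 0 →
    ∀ (ℓ : ℕ) (hℓ : ℓ.Prime), ¬ ℓ ∣ N → ℓ ≠ p → ∀ a : ℤ, heckeOperatorBar N ⟨ℓ, hℓ⟩ c = a • c →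
    ∀ G, IsOmega A N p c G → ∀ n : ℕ,
      G.coeff ((n * ℓ : ℕ) : ℤ) + (if ℓ ∣ n then (ℓ : IsLocalRing.ResidueField A)
          * G.coeff ((n / ℓ : ℕ) : ℤ) else 0)
        = (a : IsLocalRing.ResidueField A) * G.coeff (n : ℤ)

/-- **(T9) TWO** (L1-TWO).  A `p`-new Frey module at level `p M` forces `2 ∣ M`: `E[p]` of a Frey
curve is ramified at `2`, while `J₀(N)[p]` is unramified at `2` when `2 ∤ N`. -/
def Stmt_TwoDvd : Prop :=
  ∀ (P : FreyPackage) (M : ℕ) [NeZero M] (hcop : Nat.Coprime P.p M)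
    (W : WeierstrassCurve ℤ) (V : AddSubgroup (JZero (P.p * M))),
    NewFreyModule P M hcop W V → 2 ∣ M

/-- The core statement: level `p M` ⟹ level `M`. -/
def Stmt_Core : Prop :=
  ∀ (P : FreyPackage) (M : ℕ), P.IsConductorLevel (P.p * M) →
    GaloisRepIsIrreducible (K := AlgebraicClosure ℚ) ℚ P.freyCurve P.p →
    P.ModularRepOfLevel (P.p * M) → P.ModularRepOfLevel M

/-! ## Assembly -/

/-- The frozen statement S44 from the core statement. -/
theorem result_of_core (hcore : Stmt_Core) (P : FreyPackage) {N : ℕ}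
    (hcond : P.IsConductorLevel N) (hpN : P.p ∣ N)
    (hirr : GaloisRepIsIrreducible (K := AlgebraicClosure ℚ) ℚ P.freyCurve P.p)
    (hmod : P.ModularRepOfLevel N) :
    ∃ M : ℕ, M ∣ N ∧ ¬ P.p ∣ M ∧ P.ModularRepOfLevel M := by
  obtain ⟨M, rfl⟩ := hpN
  refine ⟨M, Dvd.intro_left _ rfl, ?_, hcore P M hcond hirr hmod⟩
  intro hpM
  have hsq : P.p ^ 2 ∣ P.p * M := by
    rw [pow_two]
    exact mul_dvd_mul_left _ hpM
  exact hcond.sq_not_dvd P.pp hsq

theorem coprime_of_conductorLevel (P : FreyPackage) {M : ℕ}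
    (hcond : P.IsConductorLevel (P.p * M)) : Nat.Coprime P.p M := by
  rw [Nat.Prime.coprime_iff_not_dvd P.pp]
  intro hpM
  have hsq : P.p ^ 2 ∣ P.p * M := by
    rw [pow_two]
    exact mul_dvd_mul_left _ hpM
  exact hcond.sq_not_dvd P.pp hsq

/-- The residue field of a valuation subring over `p` has characteristic `p`. -/
theorem natCast_residueField_eq_zero {p : ℕ} (A : ValuationSubring Kbar)
    (hA : A.LiesOverPrime p) : ((p : ℕ) : IsLocalRing.ResidueField A) = 0 := by
  have h1 : ((p : ℕ) : IsLocalRing.ResidueField A) = IsLocalRing.residue A ((p : ℕ) : A) := by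
    simp
  rw [h1, IsLocalRing.residue_eq_zero_iff]
  have h2 : (((p : ℕ) : A) : Kbar) ∈ A.nonunits := by
    have h3 := hA
    unfold ValuationSubring.LiesOverPrime at h3
    simpa using h3
  rw [ValuationSubring.mem_nonunits_iff_exists_mem_maximalIdeal] at h2
  obtain ⟨ha, hmem⟩ := h2
  exact hmem

/-- **NONVANISHING of `Ω` on a `p`-new Frey module** (the exit logic of step (6)): otherwise the
inertia group at `p` would act on `E[p]` through the cyclotomic character, against (T4)+(T5). -/
theorem exists_omega_ne_zero (h2 : Stmt_OmegaExists) (h3 : Stmt_Ker) (h4 : Stmt_WInertia)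
    (h5 : Stmt_CycloRam) (P : FreyPackage) (M : ℕ) [NeZero M] (hcop : Nat.Coprime P.p M)
    (hsq : Squarefree (P.p * M)) (h2M : 2 ∣ M) (hpabc : (P.p : ℤ) ∣ P.a * P.b * P.c)
    (A : ValuationSubring Kbar) (hA : A.LiesOverPrime P.p)
    (W : WeierstrassCurve ℤ) (V : AddSubgroup (JZero (P.p * M)))
    (hV : NewFreyModule P M hcop W V) :
    ∃ c ∈ V, ∃ G, IsOmega A (P.p * M) P.p c G ∧ G ≠ 0 := by
  obtain ⟨e, he⟩ := hV.iso
  -- every class of `V` is `p`-torsion
  have hptors : ∀ c ∈ V, P.p • c = 0 := by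
    intro c hc
    obtain ⟨x, hx⟩ := e.surjective ⟨c, hc⟩
    have hx0 : (P.p : ℤ) • x = 0 := by
      apply Subtype.ext
      have := x.2
      rw [Submodule.mem_torsionBy_iff] at this
      simpa using this
    have h1 : (P.p : ℤ) • (e x) = 0 := by rw [← map_zsmul, hx0, _root_.map_zero]
    have h2' : (P.p : ℤ) • ((e x : V) : JZero (P.p * M)) = 0 := by
      have := congrArg (fun v : V => (v : JZero (P.p * M))) h1
      simpa using this
    rw [hx] at h2'
    simpa using h2'
  by_contra hcon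
  push Not at hcon
  -- so `Ω = 0` on `V`
  have hzero : ∀ c ∈ V, IsOmega A (P.p * M) P.p c 0 := by
    intro c hc
    obtain ⟨G, hG⟩ := h2 P.p P.pp (P.p * M) A hA c (hptors c hc)
    have := hcon c hc G hG
    rwa [this] at hG
  obtain ⟨σ, hσ, m, hm, hpm⟩ := h5 P.p P.pp P.hp5 A hA
  obtain ⟨V1, hV1, hV1σ⟩ := h4 P hpabc A hA
  apply hV1
  rw [eq_top_iff]
  intro x _
  -- `σ x = m x` in `E[p]`
  have hc : ((e x : V) : JZero (P.p * M)) ∈ V := (e x).2
  have hker := h3 P.p P.pp P.hp5 M hcop hsq h2M A hA _ (hptors _ hc) (hV.pnew _ hc) (hzero _ hc)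
    σ hσ m hm
  have hex : e (σ • x) = e (m • x) := by
    apply Subtype.ext
    rw [he σ x, hker, map_zsmul]
    rfl
  have hσx : σ • x = m • x := e.injective hex
  have hmem : (m - 1) • x ∈ V1 := by
    have := hV1σ σ hσ x
    rw [hσx] at this
    rwa [sub_smul, one_smul]
  -- `p ∤ m - 1` and `p x = 0`
  have hx0 : (P.p : ℤ) • x = 0 := by
    apply Subtype.ext
    have := x.2
    rw [Submodule.mem_torsionBy_iff] at this
    simpa using this
  have hcop' : IsCoprime (m - 1) (P.p : ℤ) := by
    rw [isCoprime_comm]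
    exact (Nat.prime_iff_prime_int.mp P.pp).coprime_iff_not_dvd.mpr hpm
  obtain ⟨u, w, huw⟩ := hcop'
  have hx : x = u • ((m - 1) • x) := by
    have h1 : (u * (m - 1) + w * (P.p : ℤ)) • x = x := by rw [huw, one_smul]
    rw [add_smul, mul_smul, mul_smul, hx0, smul_zero, add_zero] at h1
    exact h1.symm
  rw [hx]
  exact V1.zsmul_mem hmem u

/-- **The core statement from the seams.** -/
theorem core_of_seams (h1 : Stmt_Embed) (h2 : Stmt_OmegaExists) (h3a : Stmt_Tor1)
    (h3b : Stmt_Tor) (h4 : Stmt_WInertia) (h5 : Stmt_CycloRam) (h6 : Stmt_Hol) (h7 : Stmt_HolExit)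
    (h8 : Stmt_OmegaHecke) (h9 : Stmt_TwoDvd) : Stmt_Core := by
  intro P M hcond hirr hmod
  have h3 : Stmt_Ker := ker_of_tor h3a h3b
  have hM0 : M ≠ 0 := by
    rintro rfl
    exact (Nat.lt_irrefl 0) (by simpa using hcond.pos)
  have : NeZero M := ⟨hM0⟩
  have hcop : Nat.Coprime P.p M := coprime_of_conductorLevel P hcond
  have hpM : ¬ P.p ∣ M := (Nat.Prime.coprime_iff_not_dvd P.pp).mp hcop
  have hpabc : (P.p : ℤ) ∣ P.a * P.b * P.c := hcond.p_dvd_abc (Dvd.intro _ rfl)
  rcases h1 P M hcop hcond hirr hmod with hold | ⟨W, V, hV⟩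
  · exact hold
  have h2M : 2 ∣ M := h9 P M hcop W V hV
  obtain ⟨A, hA⟩ := Fermat.Agent.Lib.helper54.exists_liesOverPrime P.pp
  obtain ⟨c, hc, G, hG, hG0⟩ :=
    exists_omega_ne_zero h2 h3 h4 h5 P M hcop hcond.squarefree h2M hpabc A hA W V hV
  have hG' := hG
  obtain ⟨h, hK, hval, hθ⟩ := hG'
  obtain ⟨x, hx, hord⟩ := h6 P M hcop hcond h2M hirr A hA W V hV c hc h hK hval
  have hx0 : x ≠ 0 := by
    rintro rfl
    have h0 : Fermat.Agent.S35.helper882.gpRho A (P.p * M) h = 0 := by
      rw [← hx]; rfl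
    have hmem : h ∈ Fermat.Agent.S35.helper882.gpRing A (P.p * M) := by
      rw [← ValuationSubring.valuation_le_one_iff, hval]
    rw [Fermat.Agent.S35.helper882.gpRho_eq_zero_iff A (P.p * M) hmem, hval] at h0
    exact lt_irrefl _ h0
  have hspan : InCuspSpan M G := by
    refine h7 P.p P.pp P.hp5 M hpM h2M A hA x hx0 hord G ?_
    intro n
    rw [hx]
    exact hθ n
  obtain ⟨hneg, ι, s, cf, g, a, ha, hcoef⟩ := hspan
  -- the exit
  refine Fermat.Agent.S44.helper6368.modularRepOfLevel_of_modEigen'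
    (k := IsLocalRing.ResidueField A) P W hV.model (natCast_residueField_eq_zero A hA)
    s cf g a ha (fun n => G.coeff (n : ℤ)) hcoef ?_ ?_
  · -- `G ≠ 0`
    by_contra hall
    push Not at hall
    apply hG0
    ext n
    rcases le_or_gt n 0 with hn | hn
    · simpa using hneg n hn
    · obtain ⟨n', rfl⟩ := Int.eq_ofNat_of_zero_le hn.le
      simpa using hall n'
  · intro ℓ hℓ hℓM hgood hℓp n
    have hℓN : ¬ ℓ ∣ P.p * M := by
      intro hdvd
      rcases (Nat.Prime.dvd_mul hℓ).mp hdvd with h' | h'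
      · exact hℓp ((Nat.prime_dvd_prime_iff_eq hℓ P.pp).mp h')
      · exact hℓM h'
    have hptors : P.p • c = 0 := by
      obtain ⟨e, -⟩ := hV.iso
      obtain ⟨y, hy⟩ := e.surjective ⟨c, hc⟩
      have hy0 : (P.p : ℤ) • y = 0 := by
        apply Subtype.ext
        have := y.2
        rw [Submodule.mem_torsionBy_iff] at this
        simpa using this
      have h1' : (P.p : ℤ) • (e y) = 0 := by rw [← map_zsmul, hy0, _root_.map_zero]
      have h2' : (P.p : ℤ) • ((e y : V) : JZero (P.p * M)) = 0 := by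
        have := congrArg (fun v : V => (v : JZero (P.p * M))) h1'
        simpa using this
      rw [hy] at h2'
      simpa using h2'
    have := h8 P.p P.pp (P.p * M) A hA c hptors ℓ hℓ hℓN hℓp (W.apOfModel ℓ)
      (hV.hecke ℓ hℓ hℓN hgood c hc) G hG n
    simpa using this

/-- **The frozen statement S44 from the seams.** -/
theorem result_of_seams (h1 : Stmt_Embed) (h2 : Stmt_OmegaExists) (h3a : Stmt_Tor1)
    (h3b : Stmt_Tor) (h4 : Stmt_WInertia) (h5 : Stmt_CycloRam) (h6 : Stmt_Hol) (h7 : Stmt_HolExit)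
    (h8 : Stmt_OmegaHecke) (h9 : Stmt_TwoDvd) (P : FreyPackage) {N : ℕ}
    (hcond : P.IsConductorLevel N) (hpN : P.p ∣ N)
    (hirr : GaloisRepIsIrreducible (K := AlgebraicClosure ℚ) ℚ P.freyCurve P.p)
    (hmod : P.ModularRepOfLevel N) :
    ∃ M : ℕ, M ∣ N ∧ ¬ P.p ∣ M ∧ P.ModularRepOfLevel M :=
  result_of_core (core_of_seams h1 h2 h3a h3b h4 h5 h6 h7 h8 h9) P hcond hpN hirr hmod

end Fermat.Agent.S44.helper3130
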