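import Mathlib
import Fermat.Agent.S44.helper1043_EisFinal
import Fermat.Agent.S44.helper1043_EisLeaves
import Fermat.Agent.S44.helper3130_Spec
import Fermat.Agent.S44.helper311_EisPrime

/-!
# S44 block (EIS): the export in the vocabulary of the top Spec (`helper3130_Spec`)

* `isKummer_of_isKummerFn` : a Kummer function of a class `c` in the sense of the Spec
  (`helper3130.IsKummerFn`) is a Kummer element in the sense of the landed S29 calculus, with
  `kummerClass = c`;
* `eis_frey` : for a class `c` of a `p`-new Frey module `V ⊆ J₀(p M)` and a Kummer function `h` of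
  `c` of Gauss norm `1`: if `ord_x (ρ h) ≡ μ ord_x (ρ ε) mod p` at every non-cuspidal place `x` of
  the special fibre (one `μ`), then `p ∣ ord_x (ρ h)` at every non-cuspidal place.  The
  non-Eisenstein prime is chosen inside (`helper311.exists_prime_nonEisenstein`), the eigen-relation
  is `NewFreyModule.hecke`.  Hypothesis: the leaf `Stmt_RedComm`.
-/

set_option autoImplicit false
set_option linter.style.haveILetI false

noncomputable section

namespace Fermat.Agent.S44.helper1043

open WeierstrassCurve WeierstrassCurve.Affine WeierstrassCurve.Affine.Point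
open ModularCurve AlgebraicCurve
open Fermat.Agent.S24.helper24 (Kbar FN)

/-- The prime of a Frey package, as a `Fact`. -/
instance freyFactPrime (P : FreyPackage) : Fact P.p.Prime := ⟨P.pp⟩

section Bridge

variable {N : ℕ} [NeZero N]

/-- Spec Kummer functions are S29 Kummer elements, with the right class. -/
theorem isKummer_of_isKummerFn {n : ℕ} (hn : n ≠ 0) {c : JZero N} {h : FN N}
    (hK : Fermat.Agent.S44.helper3130.IsKummerFn N n c h) :
    Fermat.Agent.S29.helper8217.IsKummer Kbar n h ∧
      Fermat.Agent.S29.helper8217.kummerClass Kbar n h = c := by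
  obtain ⟨h0, D, hD, hord⟩ := hK
  have hIs : Fermat.Agent.S29.helper8217.IsKummer Kbar n h :=
    ⟨h0, fun v => ⟨(D : Divisor Kbar (FN N)) v, hord v⟩⟩
  refine ⟨hIs, ?_⟩
  rw [Fermat.Agent.S29.helper8217.kummerClass_eq_mk hIs, ← hD]
  refine Fermat.Agent.S29.helper8217.mk_eq_mk_of_coe_eq ?_
  refine Finsupp.ext fun v => ?_
  show Fermat.Agent.S29.helper8217.kummerDivisor Kbar n h v = _
  rw [Fermat.Agent.S29.helper8217.kummerDivisor_apply, hord v,
    Int.mul_ediv_cancel_left _ (Int.natCast_ne_zero.mpr hn)]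

end Bridge

section Frey

set_option synthInstance.maxHeartbeats 400000

/-- **(EIS) for a `p`-new Frey module**, in the binders of the top Spec. -/
theorem eis_frey (P : FreyPackage) (M : ℕ) [NeZero M] (hcop : Nat.Coprime P.p M)
    (hirr : GaloisRepIsIrreducible (K := AlgebraicClosure ℚ) ℚ P.freyCurve P.p)
    (A : ValuationSubring Kbar) (hA : A.LiesOverPrime P.p)
    (hR : Stmt_RedComm P.p M ((Nat.Prime.coprime_iff_not_dvd P.pp).mp hcop) A hA)
    (W : WeierstrassCurve ℤ) (V : AddSubgroup (JZero (P.p * M)))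
    (hV : Fermat.Agent.S44.helper3130.NewFreyModule P M hcop W V)
    (c : JZero (P.p * M)) (hc : c ∈ V) (h : FN (P.p * M))
    (hK : Fermat.Agent.S44.helper3130.IsKummerFn (P.p * M) P.p c h)
    (hv : (Fermat.Agent.S35.helper882.gpRing A (P.p * M)).valuation h = 1)
    (μ : ℤ)
    (hμ : ∀ x : Place (IsLocalRing.ResidueField A)
        ↥(modularFunctionFieldFullC (IsLocalRing.ResidueField A) M),
      IsNonCusp M x →
        (P.p : ℤ) ∣ x.ord (rhoK P.p M ((Nat.Prime.coprime_iff_not_dvd P.pp).mp hcop) A hA h)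
          - μ * x.ord (rhoK P.p M ((Nat.Prime.coprime_iff_not_dvd P.pp).mp hcop) A hA
              (epsFn P.p M)))
    (x : Place (IsLocalRing.ResidueField A)
        ↥(modularFunctionFieldFullC (IsLocalRing.ResidueField A) M))
    (hx : IsNonCusp M x) :
    (P.p : ℤ) ∣ x.ord (rhoK P.p M ((Nat.Prime.coprime_iff_not_dvd P.pp).mp hcop) A hA h) := by
  have hpM : ¬ P.p ∣ M := (Nat.Prime.coprime_iff_not_dvd P.pp).mp hcop
  have hpos : 0 < P.p * M := Nat.mul_pos P.hppos (Nat.pos_of_ne_zero (NeZero.ne M))
  obtain ⟨l, hl, -, hlN, hgood, -, -, hnd, -, -⟩ :=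
    Fermat.Agent.S44.helper311.exists_prime_nonEisenstein P W hV.model hirr (P.p * M) hpos ∅
  obtain ⟨hIs, hcl⟩ := isKummer_of_isKummerFn P.hp0 hK
  have heig := hV.hecke l hl hlN hgood c hc
  have hE := stmt_EIS P.p M hpM A hA (stmt_DeltaMult P.p M) (stmt_EpsUnit P.p M A) hR
  refine hE h hIs hv ⟨l, hl⟩ (W.apOfModel l) hlN ?_ ?_ μ hμ x hx
  · rw [hcl]
    exact heig
  · exact_mod_cast hnd

end Frey

end Fermat.Agent.S44.helper1043
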