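import Mathlib
import Fermat.Agent.S44.helper1043_EisSpec
import Fermat.Agent.S37.helper3285_RedNormPair
import Fermat.Agent.S37.helper9342_NormTrickMod

/-!
# S44 block (EIS), leaf (REDCOMM) (helper3247): `T_l` commutes with reduction at `v_∞`

`p` prime, `p ∤ M`, level `p * M`, `A` a valuation subring of `ℚ̄` above `p`, `k` its residue field,
`l` a prime not dividing `p * M`.  The extension `F_{p M l} / F_{p M}` (along `heckeAlphaBar`) has
degree `l + 1`; the Gauss valuation rings at both levels have residue fields `κ(M l)` and `κ(M)`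
(landed `helper1928.range_gaussFRed`), and `[κ(M l) : κ(M)] = l + 1` (landed `helper1588.finrank_jC`).
Hence (`helper3285.pair_norm_red`: residue degree ≥ generic degree) the norm commutes with the
reduction.  Applied to `β x = x(q ^ l)` this is `Stmt_RedComm` of `helper1043_EisSpec`, verbatim.
-/

set_option autoImplicit false
set_option synthInstance.maxHeartbeats 400000

noncomputable section

namespace Fermat.Agent.S44.helper3247

open ModularCurve AlgebraicCurve IntermediateField
open Fermat.Agent.S24.helper24 (Kbar FN)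
open Fermat.Agent.S18
open Fermat.Agent.S44.helper1043

/-! ### `q ↦ q ^ l` and coefficientwise maps -/

theorem coeffMap_qExpand_l {R S : Type*} [CommRing R] [CommRing S] (f : R →+* S) (n : ℕ)
    [NeZero n] (x : LaurentSeries R) : coeffMap f (qExpand R n x) = qExpand S n (coeffMap f x) := by
  ext m
  by_cases hm : (n : ℤ) ∣ m
  · obtain ⟨m, rfl⟩ := hm
    rw [coeffMap_coeff, qExpand_coeff_mul, qExpand_coeff_mul, coeffMap_coeff]
  · rw [coeffMap_coeff, qExpand_coeff_of_not_dvd n _ hm, qExpand_coeff_of_not_dvd n _ hm,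
      map_zero]

/-! ### `α`, `β` and the Gauss rings (any level, any valuation subring) -/

section AlphaBeta

variable {L : Type*} [Field L] [Algebra ℚ L] (A : ValuationSubring L) {k : Type*} [Field k]
  (π : A →+* k) (N l : ℕ) [NeZero N] [NeZero l]

/-- `α` (the inclusion) reflects and preserves Gauss-integrality. -/
theorem heckeAlphaBar_mem_gaussF_iff (x : ↥(laurentBaseChange L (modularFunctionFieldFull N))) :
    heckeAlphaBar L N l x ∈ helper8991.gaussF A π (N * l) ↔ x ∈ helper8991.gaussF A π N := by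
  rw [helper8991.mem_gaussF_iff, helper8991.mem_gaussF_iff, coe_heckeAlphaBar]

/-- `α` commutes with the Gauss reduction. -/
theorem gaussFRed_heckeAlphaBar {x : ↥(laurentBaseChange L (modularFunctionFieldFull N))}
    (hx : x ∈ helper8991.gaussF A π N)
    (hx' : heckeAlphaBar L N l x ∈ helper8991.gaussF A π (N * l)) :
    helper8991.gaussFRed A π (N * l) ⟨_, hx'⟩ = helper8991.gaussFRed A π N ⟨x, hx⟩ := by
  obtain ⟨X, Y, hY, hXY⟩ := (helper8991.mem_gaussF_iff A π N x).mp hx
  rw [helper8991.gaussFRed_eq A π (N * l) ⟨_, hx'⟩ hY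
      (by rw [coe_heckeAlphaBar]; exact hXY),
    helper8991.gaussFRed_eq A π N ⟨x, hx⟩ hY hXY]

omit [NeZero N] in
/-- `β` (`q ↦ q ^ l`) preserves Gauss-integrality and commutes with the Gauss reduction. -/
theorem exists_heckeBetaBar_mem_gaussF {x : ↥(laurentBaseChange L (modularFunctionFieldFull N))}
    (hx : x ∈ helper8991.gaussF A π N) :
    ∃ h : heckeBetaBar L N l x ∈ helper8991.gaussF A π (N * l),
      helper8991.gaussFRed A π (N * l) ⟨_, h⟩ =
        qExpand k l (helper8991.gaussFRed A π N ⟨x, hx⟩) := by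
  obtain ⟨X, Y, hY, hXY⟩ := (helper8991.mem_gaussF_iff A π N x).mp hx
  have hY' : helper8991.red A π (qExpand A l Y) ≠ 0 := by
    show coeffMap π (qExpand A l Y) ≠ 0
    rw [coeffMap_qExpand_l]
    intro h0
    apply hY
    apply qExpand_injective (R := k) (N := l)
    rw [map_zero]
    exact h0
  have e : ((heckeBetaBar L N l x : ↥(laurentBaseChange L (modularFunctionFieldFull (N * l)))) :
      LaurentSeries L) * helper8991.inc A (qExpand A l Y) = helper8991.inc A (qExpand A l X) := by
    rw [coe_heckeBetaBar]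
    show qExpand L l _ * coeffMap A.subtype (qExpand A l Y) = coeffMap A.subtype (qExpand A l X)
    rw [coeffMap_qExpand_l, coeffMap_qExpand_l, ← map_mul]
    exact congrArg (qExpand L l) hXY
  have hmem : heckeBetaBar L N l x ∈ helper8991.gaussF A π (N * l) :=
    (helper8991.mem_gaussF_iff A π (N * l) _).mpr ⟨_, _, hY', e⟩
  refine ⟨hmem, ?_⟩
  rw [helper8991.gaussFRed_eq A π (N * l) ⟨_, hmem⟩ hY' e,
    helper8991.gaussFRed_eq A π N ⟨x, hx⟩ hY hXY]
  show coeffMap π (qExpand A l X) / coeffMap π (qExpand A l Y) =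
    qExpand k l (coeffMap π X / coeffMap π Y)
  rw [coeffMap_qExpand_l, coeffMap_qExpand_l, map_div₀]

end AlphaBeta

/-! ### The degree of the special fibre: `[κ(M l) : κ(M)] = l + 1` -/

section Degree

variable (k : Type) [Field k] (M l : ℕ) [NeZero M] [NeZero l]

theorem alphaC_jC_eq :
    alphaC k M l (Fermat.Agent.S37.helper1588.jC k M) = Fermat.Agent.S37.helper1588.jC k (M * l) :=
  Subtype.ext (coe_alphaC k M l _)

/-- `[κ(M l) : κ(M)] = l + 1` for a prime `l ∤ M`, over every field in which the primes of `M l`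
are invertible. -/
theorem finrankAlong_alphaC (hl : l.Prime) (hlM : ¬ l ∣ M)
    (hk : ∀ q : ℕ, q.Prime → q ∣ M * l → (q : k) ≠ 0) :
    finrankAlong k (alphaC k M l) = l + 1 := by
  have : NeZero (M * l) := ⟨Nat.mul_ne_zero (NeZero.ne M) (NeZero.ne l)⟩
  have h := Fermat.Agent.S37.helper9342.finrank_adjoin_mul_finrankAlong (alphaC k M l)
    (Fermat.Agent.S37.helper1588.jC k M)
  rw [alphaC_jC_eq,
    Fermat.Agent.S37.helper1588.finrank_jC k M (fun q hq hqM => hk q hq (Dvd.dvd.mul_right hqM l)),
    Fermat.Agent.S37.helper1588.finrank_jC k (M * l) hk,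
    Fermat.Agent.Lib.helper1356.dedekindPsi_mul_prime_of_not_dvd hl (NeZero.ne M) hlM,
    mul_comm] at h
  exact Nat.eq_of_mul_eq_mul_right (Fermat.Agent.S37.helper9342.dedekindPsi_pos M) h

end Degree

/-! ### The reduction at level `p * M'` with values in `κ(M')` -/

section Level

variable (p : ℕ) [Fact p.Prime] (A : ValuationSubring Kbar) (hA : (p : Kbar) ∈ A.nonunits)

include hA in
theorem gaussFRed_mem_fullC_of_eq {N' M' : ℕ} [NeZero M'] (hN : N' = p * M') (hpM' : ¬ p ∣ M')
    (f : ↥(helper8991.gaussF A (IsLocalRing.residue A) N')) :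
    helper8991.gaussFRed A (IsLocalRing.residue A) N' f ∈
      modularFunctionFieldFullC (IsLocalRing.ResidueField A) M' := by
  subst hN
  exact Fermat.Agent.S35.helper1928.gaussFRed_mem_fullC_level p M' hpM' A hA f

include hA in
theorem range_gaussFRed_of_eq {N' M' : ℕ} [NeZero M'] (hN : N' = p * M') (hpM' : ¬ p ∣ M') :
    Set.range (helper8991.gaussFRed A (IsLocalRing.residue A) N') =
      (modularFunctionFieldFullC (IsLocalRing.ResidueField A) M' : Set _) := by
  subst hN
  exact Fermat.Agent.S35.helper1928.range_gaussFRed p M' hpM' A hA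

/-- The Gauss reduction at level `N' = p * M'`, with values in `κ(M')`. -/
def redTo {N' M' : ℕ} [NeZero M'] (hN : N' = p * M') (hpM' : ¬ p ∣ M') :
    ↥(helper8991.gaussF A (IsLocalRing.residue A) N') →+*
      ↥(modularFunctionFieldFullC (IsLocalRing.ResidueField A) M') :=
  (helper8991.gaussFRed A (IsLocalRing.residue A) N').codRestrict
    (modularFunctionFieldFullC (IsLocalRing.ResidueField A) M')
    (fun f => gaussFRed_mem_fullC_of_eq p A hA hN hpM' f)

theorem coe_redTo {N' M' : ℕ} [NeZero M'] (hN : N' = p * M') (hpM' : ¬ p ∣ M')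
    (f : ↥(helper8991.gaussF A (IsLocalRing.residue A) N')) :
    ((redTo p A hA hN hpM' f : ↥(modularFunctionFieldFullC (IsLocalRing.ResidueField A) M')) :
      LaurentSeries (IsLocalRing.ResidueField A)) =
      helper8991.gaussFRed A (IsLocalRing.residue A) N' f := rfl

theorem redTo_surjective {N' M' : ℕ} [NeZero M'] (hN : N' = p * M') (hpM' : ¬ p ∣ M') :
    Function.Surjective (redTo p A hA hN hpM') := by
  intro y
  have hy : (y : LaurentSeries (IsLocalRing.ResidueField A)) ∈
      Set.range (helper8991.gaussFRed A (IsLocalRing.residue A) N') := by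
    rw [range_gaussFRed_of_eq p A hA hN hpM']
    exact y.2
  obtain ⟨f, hf⟩ := hy
  exact ⟨f, Subtype.ext hf⟩

theorem redTo_eq_zero_iff {N' M' : ℕ} [NeZero M'] (hN : N' = p * M') (hpM' : ¬ p ∣ M')
    (f : ↥(helper8991.gaussF A (IsLocalRing.residue A) N')) :
    redTo p A hA hN hpM' f = 0 ↔
      (f : FN N') ∈ (helper8991.gaussF A (IsLocalRing.residue A) N').nonunits := by
  rw [← Subtype.coe_inj, coe_redTo, ZeroMemClass.coe_zero, helper8991.gaussFRed_eq_zero_iff,
    ValuationSubring.mem_nonunits_iff, ← ValuationSubring.valuation_lt_one_iff]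

end Level

/-! ### (REDCOMM) -/

section Main

variable (p M : ℕ) [Fact p.Prime] [NeZero M] (hpM : ¬ p ∣ M) (A : ValuationSubring Kbar)
  (hA : (p : Kbar) ∈ A.nonunits)

/-- **(REDCOMM)**, the leaf of block (EIS) in the exact shape of `helper1043_EisSpec`: `T_l`
preserves the Gauss ring at `v_∞` and `ρ (T_l x) = N_{ᾱ} (β̄ (ρ x))` in `κ(M)`. -/
theorem stmt_RedComm : Stmt_RedComm p M hpM A hA := by
  have hp : p.Prime := Fact.out
  have : NeZero p := ⟨hp.ne_zero⟩
  have : NeZero (p * M) := ⟨Nat.mul_ne_zero (NeZero.ne p) (NeZero.ne M)⟩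
  intro l hl
  have : NeZero (l : ℕ) := ⟨l.2.ne_zero⟩
  intro x hx
  have hlp : (l : ℕ) ≠ p := fun h => hl (h ▸ dvd_mul_right _ _)
  have hlM : ¬ (l : ℕ) ∣ M := fun h => hl (Dvd.dvd.mul_left h p)
  have hpMl : ¬ p ∣ M * l := by
    intro h
    rcases (Nat.Prime.dvd_mul hp).mp h with h | h
    · exact hpM h
    · exact hlp ((Nat.prime_dvd_prime_iff_eq hp l.2).mp h).symm
  have : NeZero (M * l) := ⟨Nat.mul_ne_zero (NeZero.ne M) (NeZero.ne (l : ℕ))⟩
  have hchar := helper508.charP_residueField p A hA
  have hk : ∀ q : ℕ, q.Prime → q ∣ M * l → (q : IsLocalRing.ResidueField A) ≠ 0 := by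
    intro q hq hqMl h0
    have h1 : p ∣ q := (CharP.cast_eq_zero_iff (IsLocalRing.ResidueField A) p q).mp h0
    have hqp : p = q := (Nat.prime_dvd_prime_iff_eq hp hq).mp h1
    exact hpMl (hqp ▸ hqMl)
  let algF := algebraAlong (heckeAlphaBar Kbar (p * M) l)
  let algK := algebraAlong (alphaC (IsLocalRing.ResidueField A) M l)
  have hdegF : Module.finrank (FN (p * M)) (FN (p * M * l)) = l + 1 :=
    Fermat.Agent.S37.helper9342.finrankAlong_heckeAlphaBar_of_not_dvd (p * M) l.2 hl
  have hdegK : Module.finrank ↥(modularFunctionFieldFullC (IsLocalRing.ResidueField A) M)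
      ↥(modularFunctionFieldFullC (IsLocalRing.ResidueField A) (M * l)) = l + 1 :=
    finrankAlong_alphaC (IsLocalRing.ResidueField A) M l l.2 hlM hk
  have finF : Module.Finite (FN (p * M)) (FN (p * M * l)) :=
    Module.finite_of_finrank_pos (by rw [hdegF]; omega)
  have finK : Module.Finite ↥(modularFunctionFieldFullC (IsLocalRing.ResidueField A) M)
      ↥(modularFunctionFieldFullC (IsLocalRing.ResidueField A) (M * l)) :=
    Module.finite_of_finrank_pos (by rw [hdegK]; omega)
  have hN1 : p * M = p * M := rfl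
  have hN2 : p * M * l = p * (M * l) := Nat.mul_assoc p M l
  obtain ⟨hβ, hβred⟩ := exists_heckeBetaBar_mem_gaussF A (IsLocalRing.residue A) (p * M) l hx
  have hW : ∀ a : FN (p * M), algebraMap (FN (p * M)) (FN (p * M * l)) a ∈
      helper8991.gaussF A (IsLocalRing.residue A) (p * M * l) ↔
      a ∈ helper8991.gaussF A (IsLocalRing.residue A) (p * M) :=
    fun a => heckeAlphaBar_mem_gaussF_iff A (IsLocalRing.residue A) (p * M) l a
  have hcomp : ∀ a : ↥(helper8991.gaussF A (IsLocalRing.residue A) (p * M)),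
      redTo p A hA hN2 hpMl (Fermat.Agent.S37.helper3285.pairIncl
        (helper8991.gaussF A (IsLocalRing.residue A) (p * M * l))
        (helper8991.gaussF A (IsLocalRing.residue A) (p * M)) (fun a ha => (hW a).mpr ha) a) =
      algebraMap ↥(modularFunctionFieldFullC (IsLocalRing.ResidueField A) M)
        ↥(modularFunctionFieldFullC (IsLocalRing.ResidueField A) (M * l))
        (redTo p A hA hN1 hpM a) := by
    intro a
    apply Subtype.ext
    show helper8991.gaussFRed A (IsLocalRing.residue A) (p * M * l)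
        ⟨heckeAlphaBar Kbar (p * M) l (a : FN (p * M)), (hW a).mpr a.2⟩ =
      ((alphaC (IsLocalRing.ResidueField A) M l (redTo p A hA hN1 hpM a) :
        ↥(modularFunctionFieldFullC (IsLocalRing.ResidueField A) (M * l))) :
        LaurentSeries (IsLocalRing.ResidueField A))
    rw [coe_alphaC, coe_redTo]
    exact gaussFRed_heckeAlphaBar A (IsLocalRing.residue A) (p * M) l a.2 _
  obtain ⟨hmem, hnorm⟩ := Fermat.Agent.S37.helper3285.pair_norm_red
    (helper8991.gaussF A (IsLocalRing.residue A) (p * M * l))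
    (helper8991.gaussF A (IsLocalRing.residue A) (p * M)) hW
    (redTo p A hA hN2 hpMl) (redTo p A hA hN1 hpM)
    (redTo_surjective p A hA hN2 hpMl) (redTo_eq_zero_iff p A hA hN2 hpMl)
    (redTo_surjective p A hA hN1 hpM) hcomp
    (by rw [hdegF, hdegK]) ⟨heckeBetaBar Kbar (p * M) l x, hβ⟩
  refine ⟨hmem, ?_⟩
  have h1 := congrArg Subtype.val hnorm
  rw [coe_redTo] at h1
  apply Subtype.ext
  refine (Fermat.Agent.S35.helper882.gpRho_of_mem A (p * M) hmem).trans (h1.trans ?_)
  congr 1
  show Algebra.norm ↥(modularFunctionFieldFullC (IsLocalRing.ResidueField A) M) _ =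
    Algebra.norm ↥(modularFunctionFieldFullC (IsLocalRing.ResidueField A) M) _
  congr 1
  apply Subtype.ext
  rw [coe_redTo, hβred, coe_betaC]
  show _ = qExpand _ _ (Fermat.Agent.S35.helper882.gpRho A (p * M) x)
  rw [Fermat.Agent.S35.helper882.gpRho_of_mem A (p * M) hx]

end Main

end Fermat.Agent.S44.helper3247
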