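import Mathlib
import Fermat.Agent.S44.helper1043_EisFrey
import Fermat.Agent.S44.helper3247_RedComm

/-!
# S44 block (EIS): CLOSED

All leaves of the Eisenstein block are proved:

* `Stmt_TlMult` (`helper1043_EisAsm.stmt_TlMult`), `Stmt_FibreCorr` (`helper1043_FibreCorr`),
* `Stmt_DeltaMult` (`helper3840.heckeFun_deltaQuot_inv`), `Stmt_EpsUnit` (`helper4539_EpsVal`),
* `Stmt_RedComm` (`helper3247.stmt_RedComm`).

Hence, hypothesis-free:

* `stmt_EIS_closed : Stmt_EIS p M hpM A hA`;
* `eis_frey_closed` : the consumer form for the seam (T6) in the vocabulary of `helper3130_Spec`: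
  for a class `c` of a `p`-new Frey module `V ⊆ J₀(p M)` and a Kummer function `h` of `c` of Gauss
  norm `1` at `v_∞`: if `ord_x (ρ h) ≡ μ ord_x (ρ ε) mod p` at every non-cuspidal place `x` of the
  special fibre (one `μ`; output of (CNT) + (PL)), then `p ∣ ord_x (ρ h)` at every non-cuspidal
  place `x`.
-/

set_option autoImplicit false
set_option linter.style.haveILetI false

noncomputable section

namespace Fermat.Agent.S44.helper1043

open WeierstrassCurve WeierstrassCurve.Affine WeierstrassCurve.Affine.Point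
open ModularCurve AlgebraicCurve
open Fermat.Agent.S24.helper24 (Kbar FN)

section Closed

set_option synthInstance.maxHeartbeats 400000

/-- **(EIS)**, hypothesis-free. -/
theorem stmt_EIS_closed (p M : ℕ) [Fact p.Prime] [NeZero M] (hpM : ¬ p ∣ M)
    (A : ValuationSubring Kbar) (hA : (p : Kbar) ∈ A.nonunits) : Stmt_EIS p M hpM A hA :=
  stmt_EIS p M hpM A hA (stmt_DeltaMult p M) (stmt_EpsUnit p M A)
    (Fermat.Agent.S44.helper3247.stmt_RedComm p M hpM A hA)

/-- **(EIS) for a `p`-new Frey module**, hypothesis-free, in the binders of the top Spec. -/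
theorem eis_frey_closed (P : FreyPackage) (M : ℕ) [NeZero M] (hcop : Nat.Coprime P.p M)
    (hirr : GaloisRepIsIrreducible (K := AlgebraicClosure ℚ) ℚ P.freyCurve P.p)
    (A : ValuationSubring Kbar) (hA : A.LiesOverPrime P.p)
    (W : WeierstrassCurve ℤ) (V : AddSubgroup (JZero (P.p * M)))
    (hV : Fermat.Agent.S44.helper3130.NewFreyModule P M hcop W V)
    (c : JZero (P.p * M)) (hc : c ∈ V) (h : FN (P.p * M))
    (hK : Fermat.Agent.S44.helper3130.IsKummerFn (P.p * M) P.p c h)
    (hv : (Fermat.Agent.S35.helper882.gpRing A (P.p * M)).valuation h = 1)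
    (μ : ℤ)
    (hμ : ∀ x : Place (IsLocalRing.ResidueField A)
        ↥(modularFunctionFieldFullC (IsLocalRing.ResidueField A) M),
      IsNonCusp M x →
        (P.p : ℤ) ∣ x.ord (rhoK P.p M ((Nat.Prime.coprime_iff_not_dvd P.pp).mp hcop) A hA h)
          - μ * x.ord (rhoK P.p M ((Nat.Prime.coprime_iff_not_dvd P.pp).mp hcop) A hA
              (epsFn P.p M)))
    (x : Place (IsLocalRing.ResidueField A)
        ↥(modularFunctionFieldFullC (IsLocalRing.ResidueField A) M))
    (hx : IsNonCusp M x) :
    (P.p : ℤ) ∣ x.ord (rhoK P.p M ((Nat.Prime.coprime_iff_not_dvd P.pp).mp hcop) A hA h) :=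
  eis_frey P M hcop hirr A hA
    (Fermat.Agent.S44.helper3247.stmt_RedComm P.p M
      ((Nat.Prime.coprime_iff_not_dvd P.pp).mp hcop) A hA)
    W V hV c hc h hK hv μ hμ x hx

end Closed

end Fermat.Agent.S44.helper1043
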