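/-
S44 — L8 (OCC-FP), helper1121: an `𝔽_p`-rational occurrence statement.

`exists_torsion_eigen`: if the mod-`p` representation of a Frey package is modular of level `N`
(`P.ModularRepOfLevel N`), then `J₀(N)[p]` itself (not `κ ⊗ J₀(N)[p]`) contains a nonzero common
eigenvector `x₀` of the Prelude Hecke operators `T_ℓ` with the INTEGER eigenvalues
`W.apOfModel ℓ` of an integral model `W` of the Frey curve.

Chain (every link below the abstract lemma is a landed theorem):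
* `S29.helper5875.exists_eigen_functional_of_lattice` at `κ = ℤ̄ ⧸ 𝔪`: a nonzero eigen-functional
  `w : perLattice N →+ κ`;
* `exists_torsion_eigen_of_functional` (this file, Mathlib only): compose `w` with an additive
  functional `κ →+ ZMod p`, lift to `Module.Dual ℤ L`, push through `ι`;
* `S31.helper2756.exists_k5 ∘ S29.helper1590.toPar` with the landed Kummer dictionary
  `S29.helper5782.multSpecAll`.
-/
import Fermat.Prelude.Def_FLTPrelim_ModularRep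
import Fermat.Agent.S29.helper5782_Final

set_option autoImplicit false

open ModularCurve ModularCurve.Period CongruenceSubgroup AlgebraicCurve
open scoped MatrixGroups

namespace Fermat.Agent.S44.helper1121

section Abstract

variable {L κ : Type*} [AddCommGroup L] [Module.Free ℤ L] [Field κ]

/-- A functional on a free `ℤ`-module all of whose values are divisible by `p` is `p`
times a functional. -/
theorem exists_eq_nsmul_of_dvd (p : ℕ) (φ : Module.Dual ℤ L) (h : ∀ y : L, (p : ℤ) ∣ φ y) :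
    ∃ φ' : Module.Dual ℤ L, φ = p • φ' := by
  classical
  let b := Module.Free.chooseBasis ℤ L
  refine ⟨b.constr ℤ fun j => φ (b j) / (p : ℤ), ?_⟩
  apply b.ext
  intro j
  rw [LinearMap.smul_apply, Module.Basis.constr_basis, nsmul_eq_mul]
  exact (Int.mul_ediv_cancel' (h (b j))).symm

/-- Every additive map from a free `ℤ`-module to `ZMod p` lifts to an integral
functional. -/
theorem exists_lift_zmod (p : ℕ) [NeZero p] (v : L →+ ZMod p) :
    ∃ φ : Module.Dual ℤ L, ∀ y : L, ((φ y : ℤ) : ZMod p) = v y := by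
  classical
  let b := Module.Free.chooseBasis ℤ L
  let φ : Module.Dual ℤ L := b.constr ℤ fun j => ((v (b j)).val : ℤ)
  refine ⟨φ, fun y => ?_⟩
  have key : (Int.castAddHom (ZMod p)).toIntLinearMap ∘ₗ φ = v.toIntLinearMap := by
    apply b.ext
    intro j
    show ((φ (b j) : ℤ) : ZMod p) = v (b j)
    rw [show φ (b j) = ((v (b j)).val : ℤ) from Module.Basis.constr_basis _ _ _ _,
      Int.cast_natCast, ZMod.natCast_zmod_val]
  exact congrArg (fun f : L →ₗ[ℤ] ZMod p => f y) key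

/-- **From an eigen-functional with integer eigenvalues to an eigenvector of `J[p]`.**
`L` a free `ℤ`-module with operators `τ i`, `κ` a field of characteristic `p`,
`w : L →+ κ` a nonzero functional with `w ∘ τ i = n i • w` for INTEGERS `n i`;
`ι : Module.Dual ℤ L →+ J` with `p • ι = 0`, kernel inside `p • Dual` and
`ι (φ ∘ τ i) = T i (ι φ)`.  Then `J` contains a nonzero element killed by `p` which is a common
eigenvector of the `T i` with eigenvalues `n i`. -/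
theorem exists_torsion_eigen_of_functional {J I : Type*} [AddCommGroup J] (p : ℕ)
    [Fact p.Prime] [CharP κ p] (ι : Module.Dual ℤ L →+ J)
    (hιp : ∀ φ : Module.Dual ℤ L, p • ι φ = 0)
    (hker : ∀ φ : Module.Dual ℤ L, ι φ = 0 → ∃ φ' : Module.Dual ℤ L, φ = p • φ')
    (τ : I → Module.End ℤ L) (T : I → J → J)
    (hT : ∀ (i : I) (φ : Module.Dual ℤ L), ι (φ ∘ₗ τ i) = T i (ι φ))
    (n : I → ℤ) (w : L →+ κ) (hw : w ≠ 0)
    (hwa : ∀ (i : I) (y : L), w (τ i y) = (n i : κ) * w y) :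
    ∃ x : J, x ≠ 0 ∧ p • x = 0 ∧ ∀ i, T i x = n i • x := by
  classical
  have hp0 : NeZero p := ⟨(Fact.out : p.Prime).ne_zero⟩
  -- a point where `w` does not vanish
  obtain ⟨y₀, hy₀⟩ : ∃ y₀ : L, w y₀ ≠ 0 := by
    by_contra hcon
    push Not at hcon
    exact hw (AddMonoidHom.ext fun y => by rw [hcon y, AddMonoidHom.zero_apply])
  -- an `𝔽_p`-linear functional on `κ` not vanishing at `w y₀`
  let _ : Algebra (ZMod p) κ := ZMod.algebra κ p
  obtain ⟨f, hf⟩ := Module.Projective.exists_dual_ne_zero (ZMod p) hy₀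
  let v : L →+ ZMod p := f.toAddMonoidHom.comp w
  have hv : ∀ y : L, v y = f (w y) := fun y => rfl
  have hva : ∀ (i : I) (y : L), v (τ i y) = (n i : ZMod p) * v y := by
    intro i y
    rw [hv, hwa, ← zsmul_eq_mul, hv, ← zsmul_eq_mul]
    exact map_zsmul f.toAddMonoidHom (n i) (w y)
  -- the integral lift
  obtain ⟨φ₀, hφ₀⟩ := exists_lift_zmod p v
  have hne : ¬ ∃ φ' : Module.Dual ℤ L, φ₀ = p • φ' := by
    rintro ⟨φ', hφ'⟩
    apply hf
    rw [← hv, ← hφ₀, hφ', LinearMap.smul_apply, nsmul_eq_mul]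
    simp
  have hdiv : ∀ i : I, ∃ φ' : Module.Dual ℤ L, φ₀ ∘ₗ τ i - n i • φ₀ = p • φ' := by
    intro i
    apply exists_eq_nsmul_of_dvd
    intro y
    rw [← ZMod.intCast_zmod_eq_zero_iff_dvd]
    simp only [LinearMap.sub_apply, LinearMap.coe_comp, Function.comp_apply,
      LinearMap.smul_apply, smul_eq_mul, Int.cast_sub, Int.cast_mul, hφ₀, hva, sub_self]
  refine ⟨ι φ₀, fun h0 => hne (hker φ₀ h0), hιp φ₀, fun i => ?_⟩
  obtain ⟨φ', hφ'⟩ := hdiv i
  have h1 : φ₀ ∘ₗ τ i = n i • φ₀ + p • φ' := by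
    rw [← hφ', add_sub_cancel]
  rw [← hT, h1, map_add, map_zsmul, map_nsmul, hιp, add_zero]

end Abstract

section Modular

open Fermat.Agent.S29.helper5875 Fermat.Agent.S16.helper2138 Fermat.Agent.S31.helper2756
  Fermat.Agent.S29.helper1590

/-- **(OCC), `𝔽_p`-rational form with integer eigenvalues.**  Let `g` be a normalised weight-two
eigenform of level `N`, `𝔪` a maximal ideal of the algebraic integers containing the prime `p`,
and `n ℓ` integers with `a_ℓ(g) ≡ n ℓ` modulo `𝔪` for the primes `ℓ ∤ N` of a set `S`.  Then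
`J₀(N)` contains a nonzero point killed by `p` on which every such `T_ℓ` acts by `n ℓ`. -/
theorem exists_torsion_eigen_of_congr {N : ℕ} [NeZero N]
    {g : CuspForm (Gamma0 N) 2} (hg : g.IsNormalizedEigenform) {p : ℕ} (hp : p.Prime)
    (𝔪 : Ideal (integralClosure ℤ ℂ)) (h𝔪 : 𝔪.IsMaximal)
    (hp𝔪 : (p : integralClosure ℤ ℂ) ∈ 𝔪) (S : Set ℕ) (n : ℕ → ℤ)
    (hcong : ∀ ℓ : ℕ, ℓ.Prime → ¬ ℓ ∣ N → ℓ ∈ S →
      ∃ a : integralClosure ℤ ℂ, (a : ℂ) = ModularFormClass.qCoeff g ℓ ∧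
        a - ((n ℓ : ℤ) : integralClosure ℤ ℂ) ∈ 𝔪) :
    ∃ x₀ : JZero N, x₀ ≠ 0 ∧ p • x₀ = 0 ∧
      ∀ (ℓ : ℕ) (hℓ : ℓ.Prime), ¬ ℓ ∣ N → ℓ ∈ S →
        heckeOperatorBar N ⟨ℓ, hℓ⟩ x₀ = n ℓ • x₀ := by
  classical
  have : Fact p.Prime := ⟨hp⟩
  -- the residue field `κ = ℤ̄ ⧸ 𝔪`
  let _ : Field (integralClosure ℤ ℂ ⧸ 𝔪) := Ideal.Quotient.field 𝔪
  let ψ : integralClosure ℤ ℂ →+* (integralClosure ℤ ℂ ⧸ 𝔪) := Ideal.Quotient.mk 𝔪
  have hchar : CharP (integralClosure ℤ ℂ ⧸ 𝔪) p := by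
    have h0 : ((p : ℕ) : integralClosure ℤ ℂ ⧸ 𝔪) = 0 := by
      have : ψ (p : integralClosure ℤ ℂ) = 0 := Ideal.Quotient.eq_zero_iff_mem.2 hp𝔪
      simpa using this
    exact (CharP.charP_iff_prime_eq_zero hp).2 h0
  -- the Kummer correspondence at modulus `p`
  obtain ⟨Mult, hMult⟩ := Fermat.Agent.S29.helper5782.multSpecAll N p hp
  obtain ⟨ι, hιp, hιker, hιT⟩ := exists_k5 (N := N) (n := p) hp.ne_zero hMult
  -- the eigen-functional on the period lattice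
  have hfinA : Module.Finite ℤ (CuspForm.heckeAlgebra N 2 ∅) := Fermat.Agent.S22.result N 2 ∅
  obtain ⟨w, hw0, hw⟩ := exists_eigen_functional_of_lattice (CuspForm.heckeAlgebra N 2 ∅)
    (fun S T => mul_comm S T) (perLattice N) (perLattice_fg N) (perLattice_sep N)
    (fun T hT φ hφ => perLattice_comp_mem N ∅ hT hφ) g
    (Fermat.Agent.S29.helper7617.ne_zero_of_isNormalizedEigenform hg)
    (fun T hT => Fermat.Agent.S29.helper7617.exists_apply_eq_smul hg ∅ hT) ψ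
  have hfin : Module.Finite ℤ (perLattice N) := Module.Finite.iff_fg.2 (perLattice_fg N)
  have hfree : Module.Free ℤ (perLattice N) := inferInstance
  -- the index set
  let I : Type := {ℓ : Nat.Primes // ¬ (ℓ : ℕ) ∣ N ∧ (ℓ : ℕ) ∈ S}
  let τ : I → Module.End ℤ (perLattice N) := fun i => perT N i.1.2 i.2.1
  let ι' : Module.Dual ℤ (perLattice N) →+ JZero N := ι.comp (toPar N)
  obtain ⟨x, hx0, hxp, hx⟩ := exists_torsion_eigen_of_functional
    (κ := integralClosure ℤ ℂ ⧸ 𝔪) p ι'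
    (fun φ => hιp _)
    (fun φ hφ => exists_eq_nsmul_of_toPar N φ ((hιker _).1 hφ))
    τ (fun i => heckeOperatorBar N i.1)
    (fun i φ => by
      have : Fact ((i.1 : Nat.Primes) : ℕ).Prime := ⟨i.1.2⟩
      have : NeZero ((i.1 : Nat.Primes) : ℕ) := ⟨i.1.2.ne_zero⟩
      exact hιT _ i.1.2 i.2.1 (Fermat.Agent.S37.helper8426.heckeInputsAlong N _)
        (toPar N φ) (toPar N (φ ∘ₗ τ i)) (toPar_comp_perT N i.1.2 i.2.1 φ))
    (fun i => n ((i.1 : Nat.Primes) : ℕ)) w hw0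
    (fun i y => by
      obtain ⟨a, ha, ham⟩ := hcong _ i.1.2 i.2.1 i.2.2
      have hTg : CuspForm.heckeTLin 2 i.1.2 i.2.1 g = ((a : integralClosure ℤ ℂ) : ℂ) • g := by
        rw [ha]
        have h := Fermat.Agent.S29.helper7617.heckeTLin_apply_eq_smul hg i.1.2 i.2.1
        exact h
      have h1 := hw _ (CuspForm.heckeTLin_mem_heckeAlgebra i.1.2 i.2.1 (Set.notMem_empty _))
        a hTg (y : CuspForm (Gamma0 N) 2 →ₗ[ℂ] ℂ) y.2
      have h2 : ψ a = ((n ((i.1 : Nat.Primes) : ℕ) : ℤ) : integralClosure ℤ ℂ ⧸ 𝔪) := by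
        have h3 : ψ (a - ((n ((i.1 : Nat.Primes) : ℕ) : ℤ) : integralClosure ℤ ℂ)) = 0 :=
          Ideal.Quotient.eq_zero_iff_mem.2 ham
        rw [map_sub, map_intCast, sub_eq_zero] at h3
        exact h3
      rw [← h2]
      exact h1)
  exact ⟨x, hx0, hxp, fun ℓ hℓ hℓN hℓS => hx ⟨⟨ℓ, hℓ⟩, hℓN, hℓS⟩⟩

/-- **(OCC-FP)**: a modular mod-`p` representation of a Frey package occurs `𝔽_p`-rationally in
`J₀(N)[p]`, with the integer eigenvalues `W.apOfModel ℓ` of an integral model of the Frey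
curve. -/
theorem exists_torsion_eigen (P : FreyPackage) {N : ℕ} [NeZero N]
    (hmod : P.ModularRepOfLevel N) :
    ∃ (W : WeierstrassCurve ℤ) (x₀ : JZero N), W.IsIntegralModelOf P.freyCurve ∧ x₀ ≠ 0 ∧
      P.p • x₀ = 0 ∧ ∀ (ℓ : ℕ) (hℓ : ℓ.Prime), ¬ ℓ ∣ N → W.IsGoodPrimeFor ℓ → ℓ ≠ P.p →
        heckeOperatorBar N ⟨ℓ, hℓ⟩ x₀ = W.apOfModel ℓ • x₀ := by
  obtain ⟨g, W, 𝔪, hg, hW, h𝔪, hp𝔪, hcong⟩ := hmod
  obtain ⟨x₀, hx0, hxp, hx⟩ := exists_torsion_eigen_of_congr hg P.pp 𝔪 h𝔪 hp𝔪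
    {ℓ : ℕ | W.IsGoodPrimeFor ℓ ∧ ℓ ≠ P.p} (fun ℓ => W.apOfModel ℓ)
    (fun ℓ hℓ hℓN hℓS => hcong ℓ hℓ hℓS.1 hℓN hℓS.2)
  exact ⟨W, x₀, hW, hx0, hxp, fun ℓ hℓ hℓN hgood hℓp => hx ℓ hℓ hℓN ⟨hgood, hℓp⟩⟩

/-- The same for a residually modular integral Weierstrass curve
(`W.IsResiduallyModularOfLevel p M`). -/
theorem exists_torsion_eigen_of_residuallyModular (W : WeierstrassCurve ℤ) {p M : ℕ}
    [NeZero M] (hp : p.Prime) (hmod : W.IsResiduallyModularOfLevel p M) :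
    ∃ x₀ : JZero M, x₀ ≠ 0 ∧ p • x₀ = 0 ∧
      ∀ (ℓ : ℕ) (hℓ : ℓ.Prime), ¬ ℓ ∣ M → W.IsGoodPrimeFor ℓ → ℓ ≠ p →
        heckeOperatorBar M ⟨ℓ, hℓ⟩ x₀ = W.apOfModel ℓ • x₀ := by
  obtain ⟨g, 𝔪, hg, h𝔪, hp𝔪, hcong⟩ := hmod
  obtain ⟨x₀, hx0, hxp, hx⟩ := exists_torsion_eigen_of_congr hg hp 𝔪 h𝔪 hp𝔪
    {ℓ : ℕ | W.IsGoodPrimeFor ℓ ∧ ℓ ≠ p} (fun ℓ => W.apOfModel ℓ)
    (fun ℓ hℓ hℓN hℓS => hcong ℓ hℓ hℓS.1 hℓN hℓS.2)
  exact ⟨x₀, hx0, hxp, fun ℓ hℓ hℓN hgood hℓp => hx ℓ hℓ hℓN ⟨hgood, hℓp⟩⟩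

end Modular

end Fermat.Agent.S44.helper1121
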