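/-
S44, block (W): the closest `p`-th root (Mathlib only).

For a valuation `v` on a field, an odd prime `p` with `v p < 1` and a primitive `p`-th root of
unity `ζ`: if `v (s - 1) ≤ v p ^ 2` and `s` has a `p`-th root, then `s` has a `p`-th root `y`
with `v (y - 1) < v (ζ - 1)` (`exists_pth_root_close`), and such a root is unique
(`pth_root_close_unique`).  Hence it is fixed by every valuation-preserving automorphism fixing
`s`: this is the case "`c` a non-unit" of the normal form `u = t ^ p * (1 + p c)` of units.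
-/
import Mathlib

set_option autoImplicit false

namespace Fermat.Agent.S44.helper1420

open Finset

section UnitRoot

variable {K : Type*} [Field K] {Γ₀ : Type*} [LinearOrderedCommGroupWithZero Γ₀]
  (v : Valuation K Γ₀)

/-- The value of a root of unity is `1`. -/
theorem ur_val_eq_one {x : K} {n : ℕ} (hn : n ≠ 0) (h : x ^ n = 1) : v x = 1 := by
  have h1 : v x ^ n = 1 ^ n := by rw [← map_pow, h, map_one, one_pow]
  exact (pow_left_inj₀ zero_le zero_le hn).mp h1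

/-- `v (ζ ^ n - 1) ≤ v (ζ - 1)` for a root of unity `ζ`. -/
theorem ur_val_pow_sub_one_le {ζ : K} {p : ℕ} (hp : p ≠ 0) (h : ζ ^ p = 1) (n : ℕ) :
    v (ζ ^ n - 1) ≤ v (ζ - 1) := by
  have hζ1 : v ζ = 1 := ur_val_eq_one v hp h
  rw [← geom_sum_mul, map_mul]
  have hs : v (∑ i ∈ range n, ζ ^ i) ≤ 1 := by
    apply Valuation.map_sum_le
    intro i _
    rw [map_pow, hζ1, one_pow]
  calc v (∑ i ∈ range n, ζ ^ i) * v (ζ - 1) ≤ 1 * v (ζ - 1) := by gcongr
    _ = v (ζ - 1) := one_mul _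

/-- `v (ζ ^ k - 1) = v (ζ - 1)` for `0 < k < p`. -/
theorem ur_val_pow_sub_one {p : ℕ} (hp : p.Prime) {ζ : K} (hζ : IsPrimitiveRoot ζ p) {k : ℕ}
    (hk0 : 0 < k) (hkp : k < p) : v (ζ ^ k - 1) = v (ζ - 1) := by
  apply le_antisymm (ur_val_pow_sub_one_le v hp.ne_zero hζ.pow_eq_one k)
  have hcop : Nat.Coprime k p := by
    rw [Nat.coprime_comm, Nat.Prime.coprime_iff_not_dvd hp]
    exact Nat.not_dvd_of_pos_of_lt hk0 hkp
  obtain ⟨m, -, hm⟩ := Nat.exists_mul_mod_eq_one_of_coprime hcop hp.one_lt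
  have hk : (ζ ^ k) ^ p = 1 := by rw [← pow_mul, mul_comm, pow_mul, hζ.pow_eq_one, one_pow]
  have e : (ζ ^ k) ^ m = ζ := by
    rw [← pow_mul, pow_eq_pow_mod (k * m) hζ.pow_eq_one, hm, pow_one]
  have := ur_val_pow_sub_one_le v hp.ne_zero hk m
  rwa [e] at this

/-- `v (ζ - 1) ^ (p - 1) = v p`. -/
theorem ur_val_sub_one_pow {p : ℕ} (hp : p.Prime) {ζ : K} (hζ : IsPrimitiveRoot ζ p) :
    v (ζ - 1) ^ (p - 1) = v (p : K) := by
  have hp' : p = (p - 1) + 1 := (Nat.sub_add_cancel hp.one_le).symm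
  have hζ' : IsPrimitiveRoot ζ ((p - 1) + 1) := by rw [← hp']; exact hζ
  have h := hζ'.prod_one_sub_pow_eq_order
  have hcast : (((p - 1 : ℕ) : K) + 1) = (p : K) := by
    rw [Nat.cast_sub hp.one_le]; push_cast; ring
  rw [hcast] at h
  rw [← h, map_prod]
  have : ∀ k ∈ range (p - 1), v (1 - ζ ^ (k + 1)) = v (ζ - 1) := by
    intro k hk
    rw [v.map_sub_swap]
    exact ur_val_pow_sub_one v hp hζ (by omega) (by have := mem_range.mp hk; omega)
  rw [prod_congr rfl this, prod_const, card_range]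

/-- **The closest `p`-th root exists**: if `v (s - 1) ≤ v p ^ 2` (`p` odd, `v p < 1`) and `s`
has a `p`-th root, then it has one within `v (ζ - 1)` of `1`. -/
theorem exists_pth_root_close {p : ℕ} (hp : p.Prime) (hp2 : p ≠ 2) {ζ : K}
    (hζ : IsPrimitiveRoot ζ p) (hvp : v (p : K) < 1) (hp0 : (p : K) ≠ 0) {s : K}
    (hs : v (s - 1) ≤ v (p : K) ^ 2) {w : K} (hw : w ^ p = s) :
    ∃ y : K, y ^ p = s ∧ v (y - 1) < v (ζ - 1) := by
  have hprod : 1 - s = ∏ i ∈ range p, (1 - ζ ^ i * w) := by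
    have h := X_pow_sub_C_eq_prod hζ hp.pos hw
    have h' := congrArg (Polynomial.eval (1 : K)) h
    simpa [Polynomial.eval_prod] using h'
  have hπ := ur_val_sub_one_pow v hp hζ
  have hπ0 : 0 < v (ζ - 1) := by
    rw [Valuation.pos_iff]
    intro h
    have h1 : (0 : Γ₀) ^ (p - 1) = v (p : K) := by rw [← hπ, h, map_zero]
    have hp1 : p - 1 ≠ 0 := by have := hp.two_le; omega
    rw [zero_pow hp1] at h1
    exact (Valuation.ne_zero_iff v).mpr hp0 h1.symm
  have hπ1 : v (ζ - 1) < 1 := by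
    by_contra hcon
    have h1 : (1 : Γ₀) ≤ v (ζ - 1) ^ (p - 1) := one_le_pow₀ (not_lt.mp hcon)
    rw [hπ] at h1
    exact absurd hvp (not_lt.mpr h1)
  obtain ⟨i, -, hlt⟩ : ∃ i ∈ range p, v (1 - ζ ^ i * w) < v (ζ - 1) := by
    by_contra hcon
    have hall : ∀ i ∈ range p, v (ζ - 1) ≤ v (1 - ζ ^ i * w) :=
      fun i hi => le_of_not_gt (fun h => hcon ⟨i, hi, h⟩)
    have h1 := prod_le_prod' hall
    rw [prod_const, card_range, ← map_prod, ← hprod, v.map_sub_swap 1 s] at h1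
    have h2 : v (ζ - 1) ^ p ≤ v (ζ - 1) ^ (2 * (p - 1)) := by
      calc v (ζ - 1) ^ p ≤ v (s - 1) := h1
        _ ≤ v (p : K) ^ 2 := hs
        _ = v (ζ - 1) ^ (2 * (p - 1)) := by rw [← hπ, ← pow_mul, mul_comm]
    have h3 : v (ζ - 1) ^ (2 * (p - 1)) < v (ζ - 1) ^ p :=
      pow_lt_pow_right_of_lt_one₀ hπ0 hπ1 (by have := hp.two_le; omega)
    exact absurd h2 (not_le.mpr h3)
  refine ⟨ζ ^ i * w, ?_, by rw [v.map_sub_swap]; exact hlt⟩
  rw [mul_pow, hw, ← pow_mul, mul_comm i p, pow_mul, hζ.pow_eq_one, one_pow, one_mul]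

/-- **The closest `p`-th root is unique.** -/
theorem pth_root_close_unique {p : ℕ} (hp : p.Prime) {ζ : K} (hζ : IsPrimitiveRoot ζ p)
    {y y' : K} (hy0 : y ≠ 0) (h : y' ^ p = y ^ p) (hy : v (y - 1) < v (ζ - 1))
    (hy' : v (y' - 1) < v (ζ - 1)) : y' = y := by
  by_contra hne
  have hπle : v (ζ - 1) ≤ 1 :=
    v.map_sub_le (ur_val_eq_one v hp.ne_zero hζ.pow_eq_one).le (le_of_eq v.map_one)
  have hvy : v y = 1 := by
    have e : y = 1 + (y - 1) := by ring
    rw [e]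
    exact v.map_one_add_of_lt (lt_of_lt_of_le hy hπle)
  set ξ : K := y' / y with hξ
  have hξp : ξ ^ p = 1 := by rw [hξ, div_pow, h, div_self (pow_ne_zero p hy0)]
  have hξ1 : ξ ≠ 1 := by
    intro h1
    apply hne
    rw [hξ, div_eq_one_iff_eq hy0] at h1
    exact h1
  have hprim : IsPrimitiveRoot ξ p := by
    have : Fact p.Prime := ⟨hp⟩
    have := IsPrimitiveRoot.orderOf ξ
    rwa [orderOf_eq_prime hξp hξ1] at this
  have hp1 : p - 1 ≠ 0 := by have := hp.two_le; omega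
  have heq : v (ξ - 1) = v (ζ - 1) := by
    have h1 : v (ξ - 1) ^ (p - 1) = v (ζ - 1) ^ (p - 1) := by
      rw [ur_val_sub_one_pow v hp hprim, ur_val_sub_one_pow v hp hζ]
    exact (pow_left_inj₀ zero_le zero_le hp1).mp h1
  have e : y' - y = (ξ - 1) * y := by
    rw [hξ]; field_simp
  have hlt : v (y' - y) < v (ζ - 1) := by
    have e2 : y' - y = (y' - 1) - (y - 1) := by ring
    rw [e2]
    exact lt_of_le_of_lt (v.map_sub _ _) (max_lt hy' hy)
  rw [e, map_mul, hvy, mul_one, heq] at hlt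
  exact lt_irrefl _ hlt

end UnitRoot

end Fermat.Agent.S44.helper1420
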