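/-
S44, block (W): the two abstract linear-algebra steps of the assembly (Mathlib only).

* `exists_eq_smul_add_smul` : a `ZMod p`-module with `p ^ 2` elements is generated by a nonzero
  `z` and any `x ∉ ⟨z⟩`.
* `exists_fixed_outside_span` : the cocycle normal form.  `I` acts on `V` with `σ z = χ(σ) z`,
  `σ x₀ - x₀ ∈ ⟨z⟩`; if the elements of `I ∩ S` with `χ = 1` fix `x₀`, then some `x ∉ ⟨z⟩`
  (a translate `x₀ + t z`) is fixed by all of `I ∩ S`.
-/
import Mathlib

set_option autoImplicit false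

namespace Fermat.Agent.S44.helper1420

section Abs

variable {p : ℕ} [Fact p.Prime] {V : Type*} [AddCommGroup V] [Module (ZMod p) V]

/-- A nonzero multiple of `x` in the span of `z` puts `x` in the span of `z`. -/
theorem mem_span_of_smul_mem {z x : V} {c : ZMod p} (hc : c ≠ 0)
    (h : c • x ∈ Submodule.span (ZMod p) {z}) : x ∈ Submodule.span (ZMod p) {z} := by
  have := Submodule.smul_mem _ c⁻¹ h
  rwa [smul_smul, inv_mul_cancel₀ hc, one_smul] at this

/-- In a `ZMod p`-module with `p ^ 2` elements, a nonzero `z` and an `x` outside its span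
generate everything. -/
theorem exists_eq_smul_add_smul (hcard : Nat.card V = p ^ 2) {z x : V} (hz : z ≠ 0)
    (hx : x ∉ Submodule.span (ZMod p) {z}) (y : V) : ∃ a b : ZMod p, y = a • z + b • x := by
  classical
  have hp : p.Prime := Fact.out
  let f : ZMod p × ZMod p → V := fun c => c.1 • z + c.2 • x
  have hinj : Function.Injective f := by
    rintro ⟨a, b⟩ ⟨a', b'⟩ h
    have h0 : a • z + b • x = a' • z + b' • x := h
    have h1 : (a - a') • z + (b - b') • x = 0 := by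
      rw [sub_smul, sub_smul]
      have := sub_eq_zero.mpr h0
      rw [← this]; abel
    have hb : b - b' = 0 := by
      by_contra hb
      apply hx
      have h2 : (b - b') • x = -((a - a') • z) := eq_neg_of_add_eq_zero_right h1
      refine mem_span_of_smul_mem hb ?_
      rw [h2]
      exact Submodule.neg_mem _ (Submodule.smul_mem _ _ (Submodule.mem_span_singleton_self z))
    rw [hb, zero_smul, add_zero] at h1
    have ha : a - a' = 0 := by
      by_contra ha
      apply hz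
      have h3 : z = (a - a')⁻¹ • (a - a') • z := by rw [smul_smul, inv_mul_cancel₀ ha, one_smul]
      rw [h3, h1, smul_zero]
    rw [sub_eq_zero.mp ha, sub_eq_zero.mp hb]
  have hpos : p ^ 2 ≠ 0 := pow_ne_zero _ hp.ne_zero
  have hfin : Finite V := Nat.finite_of_card_ne_zero (by rw [hcard]; exact hpos)
  have hcard' : Nat.card V ≤ Nat.card (ZMod p × ZMod p) := by
    rw [Nat.card_prod, Nat.card_zmod, hcard, sq]
  have hsurj : Function.Surjective f := (hinj.bijective_of_nat_card_le hcard').2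
  obtain ⟨⟨a, b⟩, h⟩ := hsurj y
  exact ⟨a, b, h.symm⟩

/-- In a `ZMod p`-module with `p ^ 2` elements no single element spans. -/
theorem exists_notMem_span (hcard : Nat.card V = p ^ 2) (z : V) :
    ∃ x : V, x ∉ Submodule.span (ZMod p) {z} := by
  have hp : p.Prime := Fact.out
  by_contra hcon
  have hall : ∀ y : V, y ∈ Submodule.span (ZMod p) {z} := fun y => by
    by_contra hy
    exact hcon ⟨y, hy⟩
  have hsurj : Function.Surjective (fun c : ZMod p => c • z) := fun y => by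
    obtain ⟨c, hc⟩ := Submodule.mem_span_singleton.mp (hall y)
    exact ⟨c, hc⟩
  have hle : Nat.card V ≤ Nat.card (ZMod p) := Nat.card_le_card_of_surjective _ hsurj
  rw [hcard, Nat.card_zmod] at hle
  have h1 : 1 < p := hp.one_lt
  nlinarith [hle, h1]

variable {G : Type*} [Group G] [DistribMulAction G V] [SMulCommClass G (ZMod p) V]

/-- **Cocycle normal form.**  `I` acts on `z` through the character `χ` and moves `x₀ ∉ ⟨z⟩`
inside `⟨z⟩`.  If every element of `I ∩ S` with `χ = 1` fixes `x₀` and `χ ≠ 1` somewhere on `I`,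
then there is `x ∉ ⟨z⟩`, not a `χ`-eigenvector of `I`, fixed by all of `I ∩ S`. -/
theorem exists_fixed_outside_span (I S : Subgroup G) (χ : G → ZMod p)
    (hχmul : ∀ σ τ, χ (σ * τ) = χ σ * χ τ) (hχ0 : ∀ σ, χ σ ≠ 0)
    {z x₀ : V} (hz : z ≠ 0) (hW1 : ∀ σ ∈ I, σ • z = χ σ • z)
    (hW2 : ∀ σ ∈ I, σ • x₀ - x₀ ∈ Submodule.span (ZMod p) {z})
    (hx₀ : x₀ ∉ Submodule.span (ZMod p) {z})
    (ha : ∀ σ ∈ I, σ ∈ S → χ σ = 1 → σ • x₀ = x₀)
    (hχ : ∃ σ ∈ I, χ σ ≠ 1) :
    ∃ x : V, x ∉ Submodule.span (ZMod p) {z} ∧ (∃ σ ∈ I, σ • x ≠ χ σ • x) ∧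
      ∀ σ ∈ I, σ ∈ S → σ • x = x := by
  classical
  -- an element outside the line is never a `χ`-eigenvector of a `σ` with `χ σ ≠ 1`
  have key : ∀ x : V, x ∉ Submodule.span (ZMod p) {z} →
      (∀ σ ∈ I, σ • x - x ∈ Submodule.span (ZMod p) {z}) →
      ∀ σ ∈ I, χ σ ≠ 1 → σ • x ≠ χ σ • x := by
    intro x hx hxW σ hσ hne h
    have h1 := hxW σ hσ
    rw [h] at h1
    have h2 : (χ σ - 1) • x ∈ Submodule.span (ZMod p) {z} := by rwa [sub_smul, one_smul]
    exact hx (mem_span_of_smul_mem (sub_ne_zero.mpr hne) h2)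
  have hχ1 : χ 1 = 1 := by
    have h := hχmul 1 1
    rw [mul_one] at h
    have h0 := hχ0 1
    field_simp at h
    exact h.symm
  have hχinv : ∀ σ, χ σ⁻¹ * χ σ = 1 := fun σ => by rw [← hχmul, inv_mul_cancel, hχ1]
  have hinjz : ∀ c c' : ZMod p, c • z = c' • z → c = c' := by
    intro c c' h
    by_contra hne
    apply hz
    have h1 : (c - c') • z = 0 := by rw [sub_smul, h, sub_self]
    have h3 : z = (c - c')⁻¹ • (c - c') • z := by
      rw [smul_smul, inv_mul_cancel₀ (sub_ne_zero.mpr hne), one_smul]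
    rw [h3, h1, smul_zero]
  by_cases hcase : ∀ σ ∈ I, σ ∈ S → χ σ = 1
  · obtain ⟨σ₀, hσ₀, hne⟩ := hχ
    exact ⟨x₀, hx₀, ⟨σ₀, hσ₀, key x₀ hx₀ hW2 σ₀ hσ₀ hne⟩,
      fun σ hσ hS => ha σ hσ hS (hcase σ hσ hS)⟩
  · obtain ⟨σ₁, hcase⟩ := not_forall.mp hcase
    obtain ⟨hσ₁, hcase⟩ := Classical.not_imp.mp hcase
    obtain ⟨hS₁, hne₁⟩ := Classical.not_imp.mp hcase
    obtain ⟨l₁, hl₁⟩ := Submodule.mem_span_singleton.mp (hW2 σ₁ hσ₁)
    have hd : (1 - χ σ₁) ≠ 0 := sub_ne_zero.mpr (Ne.symm hne₁)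
    -- the relation `l (1 - χ σ₁) = l₁ (1 - χ σ)` for `σ ∈ I ∩ S`
    have hrel : ∀ σ ∈ I, σ ∈ S → ∀ l : ZMod p, l • z = σ • x₀ - x₀ →
        l * (1 - χ σ₁) = l₁ * (1 - χ σ) := by
      intro σ hσ hS l hl
      have e1 : σ₁ • x₀ = x₀ + l₁ • z := by rw [hl₁]; abel
      have e2 : σ • x₀ = x₀ + l • z := by rw [hl]; abel
      -- the commutator fixes `x₀`
      have hh : ((σ₁ * σ)⁻¹ * (σ * σ₁)) • x₀ = x₀ := by
        refine ha _ (I.mul_mem (I.inv_mem (I.mul_mem hσ₁ hσ)) (I.mul_mem hσ hσ₁))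
          (S.mul_mem (S.inv_mem (S.mul_mem hS₁ hS)) (S.mul_mem hS hS₁)) ?_
        rw [hχmul, hχmul σ σ₁, mul_comm (χ σ) (χ σ₁), ← hχmul σ₁ σ, hχinv]
      have hcomm : (σ * σ₁) • x₀ = (σ₁ * σ) • x₀ := by
        have h := congrArg (fun v => (σ₁ * σ) • v) hh
        simp only [← mul_smul, mul_inv_cancel_left] at h
        exact h
      have h3 : (σ * σ₁) • x₀ = x₀ + (l + l₁ * χ σ) • z := by
        rw [mul_smul, e1, smul_add, e2, smul_comm σ l₁ z, hW1 σ hσ, smul_smul, add_smul]; abel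
      have h4 : (σ₁ * σ) • x₀ = x₀ + (l₁ + l * χ σ₁) • z := by
        rw [mul_smul, e2, smul_add, e1, smul_comm σ₁ l z, hW1 σ₁ hσ₁, smul_smul, add_smul]; abel
      rw [h3, h4] at hcomm
      have h5 := hinjz _ _ (add_left_cancel hcomm)
      linear_combination h5
    set t : ZMod p := l₁ / (1 - χ σ₁) with ht
    have hxt : x₀ + t • z ∉ Submodule.span (ZMod p) {z} := by
      intro hmem
      apply hx₀
      have := Submodule.sub_mem _ hmem
        (Submodule.smul_mem _ t (Submodule.mem_span_singleton_self z))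
      rwa [add_sub_cancel_right] at this
    have hfix : ∀ σ ∈ I, σ ∈ S → σ • (x₀ + t • z) = x₀ + t • z := by
      intro σ hσ hS
      obtain ⟨l, hl⟩ := Submodule.mem_span_singleton.mp (hW2 σ hσ)
      have e2 : σ • x₀ = x₀ + l • z := by rw [hl]; abel
      have hr := hrel σ hσ hS l hl
      have hlt : l + t * χ σ = t := by
        rw [ht]
        field_simp
        linear_combination hr
      rw [smul_add, e2, smul_comm σ t z, hW1 σ hσ, smul_smul, add_assoc, ← add_smul, hlt]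
    refine ⟨x₀ + t • z, hxt, ⟨σ₁, hσ₁, fun h => ?_⟩, hfix⟩
    rw [hfix σ₁ hσ₁ hS₁] at h
    -- `(1 - χ σ₁) • x = 0`
    have h6 : (1 - χ σ₁) • (x₀ + t • z) = 0 := by
      rw [sub_smul, one_smul, ← h, sub_self]
    apply hxt
    have h7 : x₀ + t • z = (1 - χ σ₁)⁻¹ • (1 - χ σ₁) • (x₀ + t • z) := by
      rw [smul_smul, inv_mul_cancel₀ hd, one_smul]
    rw [h7, h6, smul_zero]
    exact Submodule.zero_mem _

end Abs

end Fermat.Agent.S44.helper1420
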