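/-
S44, block (W) of the chain of record (captain's ruling #1, R2): the W-side at `p` of the Frey
curve, `p ∣ abc`.  This file only STATES the block export `Stmt_W` (one Prop, frozen vocabulary)
and proves the formal relations between its clauses; the proof of `Stmt_W` is assembled in
`helper1420_WSide.lean`.

For EVERY valuation subring `A` of `ℚ̄` over `p` (inertia group `I = A.inertiaSubgroupIn ℚ`,
`V = E[p]` = the frozen carrier `Submodule.torsionBy ℤ (P.freyCurve⁄ℚ̄).Point P.p`):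

* `MuLineAt P A`  ((W1) + (W2), verbatim the body of the frozen Prelude Prop
  `FreyPackage.MuLineCyclotomicAtP` at the given `A`): a point `z ≠ 0` of `V` on which `I` acts
  through the mod `p` cyclotomic character, with `σ • y - y ∈ ⟨z⟩` for all `σ ∈ I`, `y ∈ V`.
* `PeuAt P A`  ((W3), "peu ramifiée", K₀-form unit): there are `c w : ℚ̄`, `c` fixed by `I`,
  `c = 0` (and then `w = 1`: the tame case) or `c` a unit of `A` (the wild case),
  `w ^ p = 1 + p * c`, such that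
  (a) every `σ ∈ I` fixing `μ_p` and `w` fixes `V` pointwise
      [`V` is rational over `L' = K₀(ζ_p, w)`, `K₀ = ℚ̄ ^ I`], and
  (b) some `x ∈ V` outside the cyclotomic line is fixed by every `σ ∈ I` with `σ w = w`
      [`x` is rational over `L = K₀(w)`].
-/
import Fermat.Prelude.Def_FreyPackage_DetCyclotomic

set_option autoImplicit false

open WeierstrassCurve WeierstrassCurve.Affine WeierstrassCurve.Affine.Point
open scoped WeierstrassCurve.Affine

namespace Fermat.Agent.S44.helper1420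

/-- `ℚ̄` -/
abbrev Qb : Type := AlgebraicClosure ℚ

/-- `Gal(ℚ̄/ℚ)` -/
abbrev GQ : Type := Qb ≃ₐ[ℚ] Qb

/-- `E[p]` for the Frey curve of `P` (the frozen carrier of `FreyPackage.MuLineCyclotomicAtP`). -/
abbrev Ep (P : FreyPackage) : Type :=
  Submodule.torsionBy ℤ (P.freyCurve⁄Qb).Point P.p

/-- The value of the mod `p` cyclotomic character at `σ`, verbatim the scalar of the frozen
Prelude definition `FreyPackage.MuLineCyclotomicAtP`. -/
noncomputable def chiAt (P : FreyPackage) (σ : GQ) : ZMod P.p :=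
  haveI : NeZero P.p := ⟨P.pp.ne_zero⟩
  ((modularCyclotomicCharacter Qb P.card_rootsOfUnity_algebraicClosure
      (σ : Qb ≃+* Qb) : (ZMod P.p)ˣ) : ZMod P.p)

/-- (W1) + (W2) at `A`: the `μ_p`-line. -/
def MuLineAt (P : FreyPackage) (A : ValuationSubring Qb) : Prop :=
  ∃ z : Ep P, z ≠ 0 ∧ ∀ σ : GQ, σ ∈ A.inertiaSubgroupIn ℚ →
    σ • z = chiAt P σ • z ∧ ∀ y : Ep P, σ • y - y ∈ Submodule.span (ZMod P.p) {z}

/-- (W3) at `A`: peu ramifiée, with the radicand `1 + p * c`, `c ∈ O_{K₀}`, `c = 0` or a unit.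
In the case `c = 0` the root is `w = 1`, so clause (b) says that `x` is fixed by all of `I`
(`x` is `K₀`-rational) and clause (a) that `E[p]` is rational over `K₀(ζ_p)`. -/
def PeuAt (P : FreyPackage) (A : ValuationSubring Qb) : Prop :=
  ∃ c w : Qb, (c = 0 ∨ A.valuation c = 1) ∧ (c = 0 → w = 1) ∧
    (∀ σ : GQ, σ ∈ A.inertiaSubgroupIn ℚ → σ c = c) ∧
    w ^ P.p = 1 + (P.p : Qb) * c ∧
    (∀ σ : GQ, σ ∈ A.inertiaSubgroupIn ℚ → (∀ ζ : Qb, ζ ^ P.p = 1 → σ ζ = ζ) → σ w = w →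
      ∀ y : Ep P, σ • y = y) ∧
    ∃ x : Ep P, (∃ σ : GQ, σ ∈ A.inertiaSubgroupIn ℚ ∧ σ • x ≠ chiAt P σ • x) ∧
      ∀ σ : GQ, σ ∈ A.inertiaSubgroupIn ℚ → σ w = w → σ • x = x

/-- **Block (W)**: the W-side at `p` of the Frey curve, for every `A` over `p`. -/
def Stmt_W : Prop :=
  ∀ P : FreyPackage, (P.p : ℤ) ∣ P.a * P.b * P.c →
    ∀ A : ValuationSubring Qb, A.LiesOverPrime P.p → MuLineAt P A ∧ PeuAt P A

/-- `MuLineAt` at one `A` over `p` is the frozen `FreyPackage.MuLineCyclotomicAtP`. -/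
theorem muLineCyclotomicAtP_of_muLineAt (P : FreyPackage) (A : ValuationSubring Qb)
    (hA : A.LiesOverPrime P.p) (h : MuLineAt P A) : P.MuLineCyclotomicAtP := by
  obtain ⟨z, hz, hσ⟩ := h
  exact ⟨A, hA, z, hz, hσ⟩

/-- The point `x` of `PeuAt` is outside the line of `MuLineAt`. -/
theorem notMem_span_of_ne_chi {P : FreyPackage} {A : ValuationSubring Qb} {z x : Ep P}
    (hz : ∀ σ : GQ, σ ∈ A.inertiaSubgroupIn ℚ → σ • z = chiAt P σ • z)
    (hx : ∃ σ : GQ, σ ∈ A.inertiaSubgroupIn ℚ ∧ σ • x ≠ chiAt P σ • x) :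
    x ∉ Submodule.span (ZMod P.p) {z} := by
  obtain ⟨σ, hσ, hne⟩ := hx
  intro hmem
  obtain ⟨c, rfl⟩ := Submodule.mem_span_singleton.mp hmem
  apply hne
  rw [smul_comm σ c z, hz σ hσ, smul_comm]

/-- **Tame / wild dichotomy** of `PeuAt` (the two cases of the (PL) block): either some `x`
outside the cyclotomic line is fixed by ALL of the inertia group (`x` is `K₀`-rational), or the
radicand `1 + p * c` has `c` a unit of `A` (`K₀(w)/K₀` is Eisenstein of degree `p`). -/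
theorem peu_tame_or_wild {P : FreyPackage} {A : ValuationSubring Qb} (h : PeuAt P A) :
    (∃ x : Ep P, (∃ σ : GQ, σ ∈ A.inertiaSubgroupIn ℚ ∧ σ • x ≠ chiAt P σ • x) ∧
        ∀ σ : GQ, σ ∈ A.inertiaSubgroupIn ℚ → σ • x = x) ∨
    (∃ c w : Qb, A.valuation c = 1 ∧ (∀ σ : GQ, σ ∈ A.inertiaSubgroupIn ℚ → σ c = c) ∧
        w ^ P.p = 1 + (P.p : Qb) * c ∧
        (∀ σ : GQ, σ ∈ A.inertiaSubgroupIn ℚ → (∀ ζ : Qb, ζ ^ P.p = 1 → σ ζ = ζ) → σ w = w →
          ∀ y : Ep P, σ • y = y) ∧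
        ∃ x : Ep P, (∃ σ : GQ, σ ∈ A.inertiaSubgroupIn ℚ ∧ σ • x ≠ chiAt P σ • x) ∧
          ∀ σ : GQ, σ ∈ A.inertiaSubgroupIn ℚ → σ w = w → σ • x = x) := by
  obtain ⟨c, w, hc, hw1, hcI, hw, ha, x, hx, hb⟩ := h
  rcases hc with hc0 | hc
  · left
    have hw' := hw1 hc0
    exact ⟨x, hx, fun σ hσ => hb σ hσ (by rw [hw', _root_.map_one])⟩
  · right
    exact ⟨c, w, hc, hcI, hw, ha, x, hx, hb⟩

end Fermat.Agent.S44.helper1420
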