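/-
S44, block (W): the ASSEMBLY of `PeuAt` (hypothesis-passing in its three suppliers).

`peuAt_of_parts` : at a valuation subring `A` of `ℚ̄` over `p = P.p`,

  `MuLineAt P A`        (S1: the `μ_p`-line; (W1) + (W2))
  `PeuPointAt P A`      (S2: per point `x` an inertia-fixed unit `u` with
                         "`σ ∈ I` fixes `μ_p` and one `p`-th root of `u` ⟹ `σ x = x`")
  `UnitNormalForm p A`  (S3: an inertia-fixed unit is `t ^ p * (1 + p c)` with `t`, `c`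
                         inertia-fixed, `c = 0` or `c` a unit)

give `PeuAt P A`.  Landed inputs: `# E[p] = p ^ 2` (`Lib.helper1397.frey_card_torsion`) and
"inertia at `p` moves `ζ_p`" (`S33.helper6050.exists_inertia_apply_ne`).
-/
import Fermat.Agent.S44.helper1420_WSpec
import Fermat.Agent.S44.helper1420_WAbs
import Fermat.Agent.Lib.helper1397_TorsionCard
import Fermat.Agent.S33.helper6050_CycInertia

set_option autoImplicit false

open WeierstrassCurve WeierstrassCurve.Affine WeierstrassCurve.Affine.Point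
open scoped WeierstrassCurve.Affine

namespace Fermat.Agent.S44.helper1420

/-- (S2) per-point "peu ramifiée" at `A` (the shape of `helper2301.frey_peu_torsion`). -/
def PeuPointAt (P : FreyPackage) (A : ValuationSubring Qb) : Prop :=
  ∀ x : Ep P, ∃ u : Qb, A.valuation u = 1 ∧ (∀ σ ∈ A.inertiaSubgroupIn ℚ, σ u = u) ∧
    ∀ σ ∈ A.inertiaSubgroupIn ℚ, (∀ ζ : Qb, ζ ^ P.p = 1 → σ ζ = ζ) →
      ∀ y : Qb, y ^ P.p = u → σ y = y → σ • x = x

/-- (S3) normal form of the inertia-fixed units of `A`: `u = t ^ p * (1 + p c)` with `t`, `c`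
inertia-fixed, `t` a unit, and `c = 0` or `c` a unit. -/
def UnitNormalForm (p : ℕ) (A : ValuationSubring Qb) : Prop :=
  ∀ u : Qb, A.valuation u = 1 → (∀ σ ∈ A.inertiaSubgroupIn ℚ, σ u = u) →
    ∃ t c : Qb, (∀ σ ∈ A.inertiaSubgroupIn ℚ, σ t = t) ∧
      (∀ σ ∈ A.inertiaSubgroupIn ℚ, σ c = c) ∧ A.valuation t = 1 ∧
      (c = 0 ∨ A.valuation c = 1) ∧ u = t ^ p * (1 + (p : Qb) * c)

section Chi

variable (P : FreyPackage)

theorem chiAt_mul (σ τ : GQ) : chiAt P (σ * τ) = chiAt P σ * chiAt P τ := by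
  have : NeZero P.p := ⟨P.pp.ne_zero⟩
  have h : ((σ * τ : GQ) : Qb ≃+* Qb) = (σ : Qb ≃+* Qb) * (τ : Qb ≃+* Qb) := rfl
  unfold chiAt
  rw [h, map_mul, Units.val_mul]

theorem chiAt_ne_zero (σ : GQ) : chiAt P σ ≠ 0 := by
  have : NeZero P.p := ⟨P.pp.ne_zero⟩
  have : Fact P.p.Prime := ⟨P.pp⟩
  unfold chiAt
  exact Units.ne_zero _

/-- `σ ζ = ζ ^ (χ σ)` on the `p`-th roots of unity. -/
theorem chiAt_spec (σ : GQ) {ζ : Qb} (hζ : ζ ^ P.p = 1) : σ ζ = ζ ^ (chiAt P σ).val := by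
  have : NeZero P.p := ⟨P.pp.ne_zero⟩
  have hζ0 : ζ ≠ 0 := by
    rintro rfl
    rw [zero_pow P.pp.ne_zero] at hζ
    exact zero_ne_one hζ
  have hmem : Units.mk0 ζ hζ0 ∈ rootsOfUnity P.p Qb := by
    rw [mem_rootsOfUnity]
    ext
    simpa using hζ
  have h := modularCyclotomicCharacter.spec Qb P.card_rootsOfUnity_algebraicClosure
    (σ : Qb ≃+* Qb) hmem
  simpa [chiAt] using h

theorem chiAt_eq_one_of_fix (σ : GQ) (h : ∀ ζ : Qb, ζ ^ P.p = 1 → σ ζ = ζ) : chiAt P σ = 1 := by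
  have : NeZero P.p := ⟨P.pp.ne_zero⟩
  have : Fact P.p.Prime := ⟨P.pp⟩
  have h1 : (1 : ZMod P.p) = modularCyclotomicCharacter Qb P.card_rootsOfUnity_algebraicClosure
      (σ : Qb ≃+* Qb) := by
    refine modularCyclotomicCharacter.unique Qb P.card_rootsOfUnity_algebraicClosure
      (σ : Qb ≃+* Qb) (c := 1) (fun t ht => ?_)
    have ht' : (t : Qb) ^ P.p = 1 := by
      have := (mem_rootsOfUnity _ _).mp ht
      rw [← Units.val_pow_eq_pow_val, this, Units.val_one]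
    have := h (t : Qb) ht'
    rw [ZMod.val_one, pow_one]
    exact this
  unfold chiAt
  exact h1.symm

theorem fix_of_chiAt_eq_one (σ : GQ) (h : chiAt P σ = 1) {ζ : Qb} (hζ : ζ ^ P.p = 1) :
    σ ζ = ζ := by
  have : Fact P.p.Prime := ⟨P.pp⟩
  rw [chiAt_spec P σ hζ, h, ZMod.val_one, pow_one]

/-- Inertia at `p` does not act trivially on `μ_p`. -/
theorem exists_chiAt_ne_one (A : ValuationSubring Qb) (hA : A.LiesOverPrime P.p) :
    ∃ σ : GQ, σ ∈ A.inertiaSubgroupIn ℚ ∧ chiAt P σ ≠ 1 := by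
  have hp2 : P.p ≠ 2 := by have := P.hp5; omega
  have : NeZero ((P.p : ℕ) : ℚ) := ⟨by exact_mod_cast P.pp.ne_zero⟩
  obtain ⟨ζ, hζ⟩ := HasEnoughRootsOfUnity.exists_primitiveRoot Qb P.p
  obtain ⟨t, ht, hne⟩ := Fermat.Agent.S33.helper6050.exists_inertia_apply_ne P.pp hp2 A hA hζ
  exact ⟨t, ht, fun h => hne (fix_of_chiAt_eq_one P t h hζ.pow_eq_one)⟩

end Chi

/-- **Assembly of (W3).** -/
theorem peuAt_of_parts (P : FreyPackage) (A : ValuationSubring Qb) (hA : A.LiesOverPrime P.p)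
    (hM : MuLineAt P A) (hpt : PeuPointAt P A) (hnf : UnitNormalForm P.p A) : PeuAt P A := by
  classical
  have : Fact P.p.Prime := ⟨P.pp⟩
  obtain ⟨z, hz, hzσ⟩ := hM
  have hcard : Nat.card (Ep P) = P.p ^ 2 := Fermat.Agent.Lib.helper1397.frey_card_torsion P
  obtain ⟨x₀, hx₀⟩ := exists_notMem_span hcard z
  obtain ⟨u, hu1, huI, hux⟩ := hpt x₀
  obtain ⟨t, c, htI, hcI, -, hc, hu⟩ := hnf u hu1 huI
  obtain ⟨w, hw, hw1⟩ : ∃ w : Qb, w ^ P.p = 1 + (P.p : Qb) * c ∧ (c = 0 → w = 1) := by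
    by_cases h0 : c = 0
    · exact ⟨1, by rw [h0, mul_zero, add_zero, one_pow], fun _ => rfl⟩
    · obtain ⟨w, hw⟩ := IsAlgClosed.exists_pow_nat_eq (1 + (P.p : Qb) * c) (n := P.p) P.pp.pos
      exact ⟨w, hw, fun h => absurd h h0⟩
  -- (a) for `x₀`
  have hax₀ : ∀ σ ∈ A.inertiaSubgroupIn ℚ, (∀ ζ : Qb, ζ ^ P.p = 1 → σ ζ = ζ) → σ w = w →
      σ • x₀ = x₀ := fun σ hσ hζ hσw =>
    hux σ hσ hζ (t * w) (by rw [mul_pow, hw, hu]) (by rw [map_mul, htI σ hσ, hσw])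
  refine ⟨c, w, hc, hw1, hcI, hw, ?_, ?_⟩
  · intro σ hσ hζ hσw y
    obtain ⟨a, b, rfl⟩ := exists_eq_smul_add_smul hcard hz hx₀ y
    rw [smul_add, smul_comm σ a z, smul_comm σ b x₀, (hzσ σ hσ).1,
      chiAt_eq_one_of_fix P σ hζ, one_smul, hax₀ σ hσ hζ hσw]
  · obtain ⟨x, -, hxne, hxfix⟩ := exists_fixed_outside_span (A.inertiaSubgroupIn ℚ)
      (MulAction.stabilizer GQ w) (chiAt P) (chiAt_mul P) (chiAt_ne_zero P) hz
      (fun σ hσ => (hzσ σ hσ).1) (fun σ hσ => (hzσ σ hσ).2 x₀) hx₀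
      (fun σ hσ hS h1 => hax₀ σ hσ (fun ζ hζ => fix_of_chiAt_eq_one P σ h1 hζ)
        (MulAction.mem_stabilizer_iff.mp hS))
      (exists_chiAt_ne_one P A hA)
    obtain ⟨σ, hσ, hne⟩ := hxne
    exact ⟨x, ⟨σ, hσ, hne⟩, fun σ hσ hσw => hxfix σ hσ (MulAction.mem_stabilizer_iff.mpr hσw)⟩

/-- **Block (W) from its suppliers.** -/
theorem stmt_W_of_parts
    (h1 : ∀ P : FreyPackage, (P.p : ℤ) ∣ P.a * P.b * P.c →
      ∀ A : ValuationSubring Qb, A.LiesOverPrime P.p → MuLineAt P A)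
    (h2 : ∀ P : FreyPackage, (P.p : ℤ) ∣ P.a * P.b * P.c →
      ∀ A : ValuationSubring Qb, A.LiesOverPrime P.p → PeuPointAt P A)
    (h3 : ∀ p : ℕ, p.Prime → p ≠ 2 →
      ∀ A : ValuationSubring Qb, A.LiesOverPrime p → UnitNormalForm p A) : Stmt_W := by
  intro P hdvd A hA
  have hp2 : P.p ≠ 2 := by have := P.hp5; omega
  exact ⟨h1 P hdvd A hA,
    peuAt_of_parts P A hA (h1 P hdvd A hA) (h2 P hdvd A hA) (h3 P.p P.pp hp2 A hA)⟩

end Fermat.Agent.S44.helper1420
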