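import Fermat.Agent.S19.helper1821_BaseRing

set_option autoImplicit false

/-!
# S44, module L9 (W-side at `p`): two base-field facts (helper2301)

`Qb := AlgebraicClosure ℚ`, `A` a valuation subring of `Qb` over an odd prime `p`,
`I := A.inertiaSubgroupIn ℚ`, `R0 A = A^I` (landed `S19/helper1821_BaseRing`).

* `exists_inertia_apply_ne` : **(D1)** the cyclotomic character is nontrivial on inertia at `p`:
  some `σ ∈ I` moves a given primitive `p`-th root of unity.
* `exists_pow_mul_one_add`  : **(D2)** every unit `u` of `R0 A` is `t ^ p * (1 + p * c)` with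
  `t` a unit of `R0 A` and `c ∈ R0 A`.
* `exists_root_of_root_one_add` : hence an automorphism fixing `R0 A` pointwise and one `p`-th
  root of `1 + p * c` fixes a `p`-th root of `u`.
-/

namespace Fermat.Agent.S44.helper2301

open Fermat.Agent.S19.helper1821 Finset

local notation "Qb" => AlgebraicClosure ℚ

section Basic

variable (A : ValuationSubring Qb)

/-- An element of `ℚ̄` with a power of valuation `1` has valuation `1`. -/
theorem valuation_eq_one_of_pow {z : Qb} {n : ℕ} (hn : n ≠ 0)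
    (hz : A.valuation z ^ n = 1) : A.valuation z = 1 := by
  rcases lt_trichotomy (A.valuation z) 1 with h | h | h
  · exact absurd hz (ne_of_lt (pow_lt_one₀ zero_le h hn))
  · exact h
  · exact absurd hz (ne_of_gt (one_lt_pow₀ h hn))

/-- A root of unity is a unit of `A`. -/
theorem valuation_eq_one_of_pow_eq_one {z : Qb} {n : ℕ} (hn : n ≠ 0) (hz : z ^ n = 1) :
    A.valuation z = 1 :=
  valuation_eq_one_of_pow A hn (by rw [← map_pow, hz, map_one])

/-- `(1 + p y) ^ i = 1 + i (p y) + p² s` with `s ∈ A`. -/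
theorem exists_one_add_pow (p : ℕ) {y : Qb} (hy : y ∈ A) (i : ℕ) :
    ∃ s ∈ A, (1 + (p : Qb) * y) ^ i = 1 + (i : Qb) * ((p : Qb) * y) + (p : Qb) ^ 2 * s := by
  induction i with
  | zero => exact ⟨0, A.zero_mem, by simp⟩
  | succ i ih =>
    obtain ⟨s, hs, h⟩ := ih
    refine ⟨(i : Qb) * y ^ 2 + s + (p : Qb) * s * y, ?_, ?_⟩
    · exact A.add_mem _ _ (A.add_mem _ _ (A.mul_mem _ _ (natCast_mem A i) (A.pow_mem hy 2)) hs)
        (A.mul_mem _ _ (A.mul_mem _ _ (natCast_mem A p) hs) hy)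
    · rw [pow_succ, h]
      push_cast
      ring

end Basic

section D1

variable (A : ValuationSubring Qb)

/-- A primitive `p`-th root of unity is congruent to `1` modulo the maximal ideal of a valuation
subring over `p`. -/
theorem primitiveRoot_sub_one_mem_nonunits {p : ℕ} (hp : p.Prime) (hp2 : p ≠ 2)
    (hA : A.LiesOverPrime p) {ζ : Qb} (hζ : ζ ^ p = 1) : ζ - 1 ∈ A.nonunits := by
  have hvp : A.valuation (p : Qb) < 1 := (A.mem_nonunits_iff).mp hA
  have hζ1 : A.valuation ζ = 1 := valuation_eq_one_of_pow_eq_one A hp.ne_zero hζ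
  have hζA : ζ ∈ A := (A.valuation_le_one_iff _).mp hζ1.le
  have hodd : Odd p := hp.odd_of_ne_two hp2
  obtain ⟨r, hr⟩ := exists_add_pow_prime_eq hp (⟨ζ, hζA⟩ : A) (-1)
  have h1 : (ζ - 1) ^ p = (p : Qb) * (-(ζ * (r : Qb))) := by
    have h := congrArg (fun z : A => (z : Qb)) hr
    push_cast at h
    have e : (ζ + -1 : Qb) = ζ - 1 := by ring
    rw [e, hζ, hodd.neg_one_pow] at h
    rw [h]
    ring
  rw [A.mem_nonunits_iff]
  by_contra hge
  have hle : A.valuation (ζ - 1) ≤ 1 :=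
    (A.valuation_le_one_iff _).mpr (sub_mem hζA A.one_mem)
  have h2 : A.valuation (ζ - 1) = 1 := le_antisymm hle (not_lt.mp hge)
  have h3 : A.valuation ((ζ - 1) ^ p) = 1 := by rw [map_pow, h2, one_pow]
  rw [h1, map_mul] at h3
  have hr' : A.valuation (-(ζ * (r : Qb))) ≤ 1 :=
    (A.valuation_le_one_iff _).mpr (A.neg_mem _ (A.mul_mem _ _ hζA r.2))
  have h4 : A.valuation (p : Qb) * A.valuation (-(ζ * (r : Qb))) < 1 :=
    lt_of_le_of_lt (mul_le_of_le_one_right' hr') hvp
  exact absurd h3 (ne_of_lt h4)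

/-- **(D1) The cyclotomic character is nontrivial on inertia at `p`**: for an odd prime `p`, a
valuation subring `A` of `ℚ̄` over `p` and a primitive `p`-th root of unity `ζ`, some element of
the inertia group of `A` moves `ζ`. -/
theorem exists_inertia_apply_ne {p : ℕ} (hp : p.Prime) (hp2 : p ≠ 2)
    (hA : A.LiesOverPrime p) {ζ : Qb} (hζ : IsPrimitiveRoot ζ p) :
    ∃ σ ∈ A.inertiaSubgroupIn ℚ, σ ζ ≠ ζ := by
  by_contra hcon
  push Not at hcon
  have hp0 : (p : Qb) ≠ 0 := by exact_mod_cast hp.ne_zero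
  have hvp : A.valuation (p : Qb) < 1 := (A.mem_nonunits_iff).mp hA
  have hζ1 : A.valuation ζ = 1 := valuation_eq_one_of_pow_eq_one A hp.ne_zero hζ.pow_eq_one
  have hζA : ζ ∈ A := (A.valuation_le_one_iff _).mp hζ1.le
  have hπ : ζ - 1 ∈ A.nonunits := primitiveRoot_sub_one_mem_nonunits A hp hp2 hA hζ.pow_eq_one
  have hR0 : ζ - 1 ∈ R0 A :=
    ⟨sub_mem hζA A.one_mem, fun σ hσ => by rw [map_sub, hcon σ hσ, map_one]⟩
  obtain ⟨y, hy, hπy⟩ := natCast_dvd_of_mem_nonunits hp hA hR0 hπ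
  have hζy : ζ = 1 + (p : Qb) * y := by linear_combination hπy
  have hsum := hζ.geom_sum_eq_zero hp.one_lt
  choose s hs hpow using fun i => exists_one_add_pow A p hy.1 i
  obtain ⟨m, hm⟩ := hp.odd_of_ne_two hp2
  have hgauss : (∑ i ∈ range p, (i : Qb)) = (p : Qb) * (m : Qb) := by
    have h2 : (∑ i ∈ range p, i) * 2 = p * m * 2 := by
      rw [Finset.sum_range_id_mul_two, hm]
      simp only [Nat.add_sub_cancel]
      ring
    have h3 : ∑ i ∈ range p, i = p * m := Nat.eq_of_mul_eq_mul_right (by norm_num) h2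
    rw [← Nat.cast_sum, h3]
    push_cast
    ring
  have hSA : ∑ i ∈ range p, s i ∈ A := sum_mem fun i _ => hs i
  have h4 : ∑ i ∈ range p, ζ ^ i
      = (p : Qb) * (1 + (p : Qb) * (y * (m : Qb) + ∑ i ∈ range p, s i)) := by
    rw [hζy]
    simp_rw [hpow]
    rw [Finset.sum_add_distrib, Finset.sum_add_distrib, ← Finset.sum_mul, ← Finset.mul_sum,
      hgauss]
    simp only [Finset.sum_const, Finset.card_range, nsmul_eq_mul, mul_one]
    ring
  rw [hsum] at h4
  have h5 : 1 + (p : Qb) * (y * (m : Qb) + ∑ i ∈ range p, s i) = 0 :=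
    (mul_eq_zero.mp h4.symm).resolve_left hp0
  have hw : y * (m : Qb) + ∑ i ∈ range p, s i ∈ A :=
    A.add_mem _ _ (A.mul_mem _ _ hy.1 (natCast_mem A m)) hSA
  have h6 : A.valuation ((p : Qb) * (y * (m : Qb) + ∑ i ∈ range p, s i)) < 1 := by
    rw [map_mul]
    exact lt_of_le_of_lt (mul_le_of_le_one_right' ((A.valuation_le_one_iff _).mpr hw)) hvp
  have h7 : (p : Qb) * (y * (m : Qb) + ∑ i ∈ range p, s i) = -1 := by linear_combination h5
  rw [h7, Valuation.map_neg, map_one] at h6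
  exact lt_irrefl _ h6

end D1

section D2

variable (A : ValuationSubring Qb)

/-- **(D2) Normal form of a unit of the inertia field**: a unit `u` of `R0 A = A^I` is
`t ^ p * (1 + p * c)` with `t` a unit of `R0 A` and `c ∈ R0 A`. -/
theorem exists_pow_mul_one_add {p : ℕ} (hp : p.Prime) (hA : A.LiesOverPrime p) {u : Qb}
    (hu : u ∈ R0 A) (hu1 : A.valuation u = 1) :
    ∃ t c : Qb, t ∈ R0 A ∧ A.valuation t = 1 ∧ c ∈ R0 A ∧ u = t ^ p * (1 + (p : Qb) * c) := by
  obtain ⟨t₀, ht₀⟩ := IsAlgClosed.exists_pow_nat_eq u (n := p) hp.pos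
  have ht₀1 : A.valuation t₀ = 1 :=
    valuation_eq_one_of_pow A hp.ne_zero (by rw [← map_pow, ht₀, hu1])
  have ht₀A : t₀ ∈ A := (A.valuation_le_one_iff _).mp ht₀1.le
  obtain ⟨t, ht, htt⟩ := exists_sub_mem_nonunits hp hA ht₀A
  have htt' : A.valuation (t₀ - t) < 1 := (A.mem_nonunits_iff).mp htt
  have ht1 : A.valuation t = 1 := by
    have h : t = t₀ - (t₀ - t) := by ring
    rw [h, Valuation.map_sub_eq_of_lt_left _ (by rw [ht₀1]; exact htt'), ht₀1]
  -- `u - t ^ p` is a nonunit of `R0 A`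
  have hdiff : u - t ^ p ∈ A.nonunits := by
    obtain ⟨q, hq⟩ := sub_dvd_pow_sub_pow (⟨t₀, ht₀A⟩ : A) ⟨t, ht.1⟩ p
    have h := congrArg (fun z : A => (z : Qb)) hq
    push_cast at h
    rw [← ht₀, A.mem_nonunits_iff, h, map_mul]
    exact lt_of_le_of_lt (mul_le_of_le_one_right' ((A.valuation_le_one_iff _).mpr q.2)) htt'
  have hR : u - t ^ p ∈ R0 A := (R0 A).sub_mem hu ((R0 A).pow_mem ht p)
  obtain ⟨y, hy, hyu⟩ := natCast_dvd_of_mem_nonunits hp hA hR hdiff
  have htp : t ^ p ∈ R0 A := (R0 A).pow_mem ht p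
  have htpu : t ^ p ∉ A.nonunits := by
    rw [A.mem_nonunits_iff, map_pow, ht1, one_pow]
    exact lt_irrefl _
  have htinv : (t ^ p)⁻¹ ∈ R0 A := inv_mem_R0 htp htpu
  have ht0 : t ≠ 0 := by
    rintro rfl
    rw [map_zero] at ht1
    exact zero_ne_one ht1
  refine ⟨t, y * (t ^ p)⁻¹, ht, ht1, (R0 A).mul_mem hy htinv, ?_⟩
  have htp0 : t ^ p ≠ 0 := pow_ne_zero p ht0
  field_simp
  linear_combination hyu

/-- Consequence of (D2): if `σ` fixes `R0 A` pointwise and a `p`-th root of `1 + p c` (for the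
`c` of the normal form of `u`), then it fixes a `p`-th root of `u`. Packaged existentially:
for every inertia-fixed unit `u` there is `c ∈ R0 A` such that every ring endomorphism `σ`
fixing `R0 A` pointwise and some `w` with `w ^ p = 1 + p c` fixes some `w'` with
`w' ^ p = u`. -/
theorem exists_root_of_root_one_add {p : ℕ} (hp : p.Prime) (hA : A.LiesOverPrime p) {u : Qb}
    (hu : u ∈ R0 A) (hu1 : A.valuation u = 1) :
    ∃ c : Qb, c ∈ R0 A ∧ ∀ σ : Qb →+* Qb, (∀ x ∈ R0 A, σ x = x) →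
      ∀ w : Qb, w ^ p = 1 + (p : Qb) * c → σ w = w → ∃ w' : Qb, w' ^ p = u ∧ σ w' = w' := by
  obtain ⟨t, c, ht, -, hc, hutc⟩ := exists_pow_mul_one_add A hp hA hu hu1
  refine ⟨c, hc, fun σ hσ w hw hσw => ⟨t * w, ?_, ?_⟩⟩
  · rw [mul_pow, hw, hutc]
  · rw [map_mul, hσ t ht, hσw]

end D2

end Fermat.Agent.S44.helper2301
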