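import Fermat.Agent.S13.helper1633_LocalAbs

set_option autoImplicit false

/-!
# S44, module L9 (W-side at `p`), abstract core (helper2442)

On a group with Legendre coordinates (`helper245.IsLegCoord`, curve `Y² = X³ + a X² + b X`)
over a valued field with `v a = 1`, `v 2 = 1`, `v b < 1` and `β² = a`, the *multiplicative
coordinate* `U = (Y - β X) / (Y + β X)` is a homomorphism modulo `b` on `E₀ = {v(X) ≥ 1}`
(exact triple identity from Vieta's relations).  From this we deduce the "peu ramifié" statement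
`peu_point`: for every point `x` of odd prime order `p` (no assumption that `p` is a unit; only
`v b ^ 2 < v p ^ p`) there is a unit `u`, fixed by all inertia pairs, such that every inertia
pair fixing a primitive `p`-th root of unity and one `p`-th root of `u` fixes `x`.
-/

namespace Fermat.Agent.S44.helper2442

open Fermat.Agent.S05.helper245 Fermat.Agent.S13.helper1633

section Abstract

variable {K : Type*} [Field K] {Γ₀ : Type*} [LinearOrderedCommGroupWithZero Γ₀]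
  (v : Valuation K Γ₀) {G : Type*} [AddCommGroup G] {a b : K} {X Y : G → K}

open Classical in
/-- The multiplicative coordinate `U = (Y - β X) / (Y + β X)`, with `U 0 = 1`. -/
noncomputable def mulCoord (X Y : G → K) (β : K) (P : G) : K :=
  if P = 0 then 1 else (Y P - β * X P) / (Y P + β * X P)

omit [AddCommGroup G] in
theorem mulCoord_zero [AddCommGroup G] (β : K) : mulCoord X Y β (0 : G) = 1 := by
  unfold mulCoord; rw [if_pos rfl]

theorem mulCoord_of_ne {β : K} {P : G} (hP : P ≠ 0) :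
    mulCoord X Y β P = (Y P - β * X P) / (Y P + β * X P) := by
  unfold mulCoord; rw [if_neg hP]

theorem mulCoord_neg (hL : IsLegCoord a b X Y) (β : K) (P : G) :
    mulCoord X Y β (-P) = (mulCoord X Y β P)⁻¹ := by
  by_cases hP : P = 0
  · rw [hP, neg_zero, mulCoord_zero, inv_one]
  · rw [mulCoord_of_ne (neg_ne_zero.mpr hP), mulCoord_of_ne hP, hL.negX P hP, hL.negY P hP,
      inv_div]
    have h1 : -Y P - β * X P = -(Y P + β * X P) := by ring
    have h2 : -Y P + β * X P = -(Y P - β * X P) := by ring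
    rw [h1, h2, neg_div_neg_eq]

/-- On `E₀`, the two linear forms `Y ∓ β X` have the same nonzero valuation. -/
theorem val_forms_of_E0 (hL : IsLegCoord a b X Y) (ha : v a = 1) (hb : v b < 1) (h2 : v 2 = 1)
    {β : K} (hβ : β ^ 2 = a) {P : G} (hP : P ≠ 0) (hx : 1 ≤ v (X P)) :
    v (Y P - β * X P) = v (Y P + β * X P) ∧ v (Y P + β * X P) ≠ 0 := by
  have hβ1 : v β = 1 := val_beta_eq_one v ha hβ
  have hx0 : (0 : Γ₀) < v (X P) := lt_of_lt_of_le zero_lt_one hx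
  have hprod : (Y P - β * X P) * (Y P + β * X P) = X P * (X P ^ 2 + b) := by
    linear_combination hL.eqn P hP - X P ^ 2 * hβ
  have hX2b : v (X P ^ 2 + b) = v (X P) ^ 2 := by
    have : v b < v (X P ^ 2) := by
      rw [v.map_pow]
      exact lt_of_lt_of_le hb (one_le_pow₀ hx)
    rw [v.map_add_eq_of_lt_left this, v.map_pow]
  have hvprod : v (Y P - β * X P) * v (Y P + β * X P) = v (X P) * v (X P) ^ 2 := by
    rw [← v.map_mul, hprod, v.map_mul, hX2b]
  have hdiff : v ((Y P + β * X P) - (Y P - β * X P)) = v (X P) := by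
    have : (Y P + β * X P) - (Y P - β * X P) = 2 * β * X P := by ring
    rw [this, v.map_mul, v.map_mul, h2, hβ1, one_mul, one_mul]
  have hXle : v (X P) ≤ v (X P) ^ 2 := by
    calc v (X P) = v (X P) * 1 := (mul_one _).symm
      _ ≤ v (X P) * v (X P) := by gcongr
      _ = v (X P) ^ 2 := (sq _).symm
  have heq : v (Y P - β * X P) = v (Y P + β * X P) := by
    rcases lt_trichotomy (v (Y P - β * X P)) (v (Y P + β * X P)) with h | h | h
    · exfalso
      rw [v.map_sub_eq_of_lt_left h] at hdiff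
      rw [hdiff, mul_comm] at hvprod
      have hA : v (Y P - β * X P) = v (X P) ^ 2 := mul_left_cancel₀ hx0.ne' hvprod
      rw [hdiff, hA] at h
      exact absurd hXle (not_le.mpr h)
    · exact h
    · exfalso
      rw [v.map_sub_eq_of_lt_right h] at hdiff
      rw [hdiff] at hvprod
      have hB : v (Y P + β * X P) = v (X P) ^ 2 := mul_left_cancel₀ hx0.ne' hvprod
      rw [hdiff, hB] at h
      exact absurd hXle (not_le.mpr h)
  refine ⟨heq, ?_⟩
  intro h0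
  rw [h0, mul_zero] at hvprod
  exact absurd hvprod.symm (mul_pos hx0 (pow_pos hx0 2)).ne'

/-- `U` is a unit on `E₀`. -/
theorem val_mulCoord_of_E0 (hL : IsLegCoord a b X Y) (ha : v a = 1) (hb : v b < 1)
    (h2 : v 2 = 1) {β : K} (hβ : β ^ 2 = a) {P : G} (hP : P = 0 ∨ 1 ≤ v (X P)) :
    v (mulCoord X Y β P) = 1 := by
  by_cases hP0 : P = 0
  · rw [hP0, mulCoord_zero, v.map_one]
  · obtain ⟨h1, h3⟩ := val_forms_of_E0 v hL ha hb h2 hβ hP0 (hP.resolve_left hP0)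
    rw [mulCoord_of_ne hP0, v.map_div, h1, div_self h3]

/-- **Exact triple identity** and its consequence on `E₀`: `U₁ U₂ U₃ ≡ 1` modulo `b`. -/
theorem mulCoord_triple (hL : IsLegCoord a b X Y) (ha : v a = 1) (hb : v b < 1) (h2 : v 2 = 1)
    {β : K} (hβ : β ^ 2 = a) {P₁ P₂ P₃ : G} (h₁ : P₁ ≠ 0) (h₂ : P₂ ≠ 0) (h₃ : P₃ ≠ 0)
    (hs : P₁ + P₂ + P₃ = 0) (hx₁ : 1 ≤ v (X P₁)) (hx₂ : 1 ≤ v (X P₂)) (hx₃ : 1 ≤ v (X P₃)) :
    v (mulCoord X Y β P₁ * mulCoord X Y β P₂ * mulCoord X Y β P₃ - 1) ≤ v b := by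
  obtain ⟨l, m, hy₁, hy₂, hy₃, e₁, e₂, e₃⟩ := hL.vieta P₁ P₂ P₃ h₁ h₂ h₃ hs
  have hβ1 : v β = 1 := val_beta_eq_one v ha hβ
  have hN : (Y P₁ - β * X P₁) * (Y P₂ - β * X P₂) * (Y P₃ - β * X P₃) =
      m * (m ^ 2 + (l - β) ^ 2 * b) := by
    rw [hy₁, hy₂, hy₃]
    linear_combination (l - β) ^ 3 * e₃ + (l - β) ^ 2 * m * e₂ + (l - β) * m ^ 2 * e₁ +
      m ^ 2 * (l - β) * hβ
  have hD : (Y P₁ + β * X P₁) * (Y P₂ + β * X P₂) * (Y P₃ + β * X P₃) =
      m * (m ^ 2 + (l + β) ^ 2 * b) := by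
    rw [hy₁, hy₂, hy₃]
    linear_combination (l + β) ^ 3 * e₃ + (l + β) ^ 2 * m * e₂ + (l + β) * m ^ 2 * e₁ +
      m ^ 2 * (l + β) * hβ
  have hx₁0 : (0 : Γ₀) < v (X P₁) := lt_of_lt_of_le zero_lt_one hx₁
  have hx₂0 : (0 : Γ₀) < v (X P₂) := lt_of_lt_of_le zero_lt_one hx₂
  have hx₃0 : (0 : Γ₀) < v (X P₃) := lt_of_lt_of_le zero_lt_one hx₃
  have hm2 : v m ^ 2 = v (X P₁) * v (X P₂) * v (X P₃) := by
    rw [← v.map_pow, ← e₃, v.map_mul, v.map_mul]
  have hp1 : v (X P₁) ≤ v (X P₁) * v (X P₂) * v (X P₃) := by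
    calc v (X P₁) = v (X P₁) * 1 * 1 := by rw [mul_one, mul_one]
      _ ≤ v (X P₁) * v (X P₂) * v (X P₃) := by gcongr
  have hp2 : v (X P₂) ≤ v (X P₁) * v (X P₂) * v (X P₃) := by
    calc v (X P₂) = 1 * v (X P₂) * 1 := by rw [mul_one, one_mul]
      _ ≤ v (X P₁) * v (X P₂) * v (X P₃) := by gcongr
  have hp3 : v (X P₃) ≤ v (X P₁) * v (X P₂) * v (X P₃) := by
    calc v (X P₃) = 1 * 1 * v (X P₃) := by rw [one_mul, one_mul]
      _ ≤ v (X P₁) * v (X P₂) * v (X P₃) := by gcongr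
  have hm1 : 1 ≤ v m := by
    apply le_of_sq_le_sq'
    rw [one_pow, hm2]
    exact le_trans hx₁ hp1
  have hm0 : (0 : Γ₀) < v m := lt_of_lt_of_le zero_lt_one hm1
  have hm0' : m ≠ 0 := (v.pos_iff).mp hm0
  have hlm : v l ≤ v m := by
    apply le_of_sq_le_sq'
    rw [hm2, ← v.map_pow]
    have hl2 : l ^ 2 = X P₁ + X P₂ + X P₃ + a := by rw [e₁]; ring
    rw [hl2]
    have hpa : v a ≤ v (X P₁) * v (X P₂) * v (X P₃) := by
      rw [ha]; exact le_trans hx₁ hp1
    exact v.map_add_le (v.map_add_le (v.map_add_le hp1 hp2) hp3) hpa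
  have hlβ : v (l + β) ≤ v m := v.map_add_le hlm (by rw [hβ1]; exact hm1)
  have hsmall : v ((l + β) ^ 2 * b) < v (m ^ 2) := by
    rw [v.map_mul, v.map_pow, v.map_pow]
    calc v (l + β) ^ 2 * v b ≤ v m ^ 2 * v b := by gcongr
      _ < v m ^ 2 * 1 := mul_lt_mul_of_pos_left hb (pow_pos hm0 2)
      _ = v m ^ 2 := mul_one _
  have hDv : v (m ^ 2 + (l + β) ^ 2 * b) = v m ^ 2 := by
    rw [v.map_add_eq_of_lt_left hsmall, v.map_pow]
  have hD0 : m ^ 2 + (l + β) ^ 2 * b ≠ 0 := by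
    rw [← v.ne_zero_iff, hDv]; exact (pow_pos hm0 2).ne'
  have hden₁ := (val_forms_of_E0 v hL ha hb h2 hβ h₁ hx₁).2
  have hden₂ := (val_forms_of_E0 v hL ha hb h2 hβ h₂ hx₂).2
  have hden₃ := (val_forms_of_E0 v hL ha hb h2 hβ h₃ hx₃).2
  rw [v.ne_zero_iff] at hden₁ hden₂ hden₃
  have key : mulCoord X Y β P₁ * mulCoord X Y β P₂ * mulCoord X Y β P₃ - 1 =
      -(4 * l * β * b) / (m ^ 2 + (l + β) ^ 2 * b) := by
    rw [mulCoord_of_ne h₁, mulCoord_of_ne h₂, mulCoord_of_ne h₃, div_mul_div_comm,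
      div_mul_div_comm, hN, hD, mul_div_mul_left _ _ hm0', div_sub_one hD0]
    congr 1
    ring
  rw [key, v.map_div, hDv, v.map_neg, v.map_mul, v.map_mul, v.map_mul, hβ1, mul_one]
  rw [div_le_iff₀ (pow_pos hm0 2)]
  calc v 4 * v l * v b ≤ 1 * v m * v b := by
        gcongr
        exact val_four_le_one v
    _ = v b * v m := by rw [one_mul, mul_comm]
    _ ≤ v b * v m ^ 2 := by
        gcongr
        calc v m = v m * 1 := (mul_one _).symm
          _ ≤ v m * v m := by gcongr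
          _ = v m ^ 2 := (sq _).symm

/-- `U` is additive modulo `b` on `E₀`. -/
theorem mulCoord_add (hL : IsLegCoord a b X Y) (ha : v a = 1) (hb : v b < 1) (h2 : v 2 = 1)
    {β : K} (hβ : β ^ 2 = a) {P R : G} (hP : P = 0 ∨ 1 ≤ v (X P)) (hR : R = 0 ∨ 1 ≤ v (X R)) :
    v (mulCoord X Y β (P + R) - mulCoord X Y β P * mulCoord X Y β R) ≤ v b := by
  by_cases hP0 : P = 0
  · rw [hP0, zero_add, mulCoord_zero, one_mul, sub_self, v.map_zero]; exact zero_le
  by_cases hR0 : R = 0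
  · rw [hR0, add_zero, mulCoord_zero, mul_one, sub_self, v.map_zero]; exact zero_le
  have hxP : 1 ≤ v (X P) := hP.resolve_left hP0
  have hxR : 1 ≤ v (X R) := hR.resolve_left hR0
  have huP : v (mulCoord X Y β P) = 1 := val_mulCoord_of_E0 v hL ha hb h2 hβ hP
  by_cases hPR : P + R = 0
  · have hRP : R = -P := eq_neg_of_add_eq_zero_right hPR
    have hne : mulCoord X Y β P ≠ 0 := by
      rw [← v.ne_zero_iff, huP]; exact one_ne_zero
    rw [hPR, mulCoord_zero, hRP, mulCoord_neg hL, mul_inv_cancel₀ hne, sub_self, v.map_zero]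
    exact zero_le
  have hS0 : -(P + R) ≠ 0 := neg_ne_zero.mpr hPR
  have hS' : 1 ≤ v (X (-(P + R))) :=
    E0_triple v hL ha.le hb h2 hP0 hR0 hS0 (by abel) hxP hxR
  have hS : 1 ≤ v (X (P + R)) := by rwa [hL.negX _ hPR] at hS'
  have tri := mulCoord_triple v hL ha hb h2 hβ hP0 hR0 hS0 (by abel) hxP hxR hS'
  rw [mulCoord_neg hL] at tri
  have hu : v (mulCoord X Y β (P + R)) = 1 :=
    val_mulCoord_of_E0 v hL ha hb h2 hβ (Or.inr hS)
  have hne : mulCoord X Y β (P + R) ≠ 0 := by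
    rw [← v.ne_zero_iff, hu]; exact one_ne_zero
  have e : mulCoord X Y β (P + R) - mulCoord X Y β P * mulCoord X Y β R =
      -(mulCoord X Y β (P + R) *
        (mulCoord X Y β P * mulCoord X Y β R * (mulCoord X Y β (P + R))⁻¹ - 1)) := by
    field_simp
    ring
  rw [e, v.map_neg, v.map_mul, hu, one_mul]
  exact tri

theorem mem_E0_nsmul (hL : IsLegCoord a b X Y) (ha : v a = 1) (hb : v b < 1) (h2 : v 2 = 1)
    {P : G} (hP : P = 0 ∨ 1 ≤ v (X P)) (n : ℕ) : n • P = 0 ∨ 1 ≤ v (X (n • P)) :=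
  (E0 v hL ha.le hb h2).nsmul_mem hP n

/-- `U (n • P) ≡ U P ^ n` modulo `b` on `E₀`. -/
theorem mulCoord_nsmul (hL : IsLegCoord a b X Y) (ha : v a = 1) (hb : v b < 1) (h2 : v 2 = 1)
    {β : K} (hβ : β ^ 2 = a) {P : G} (hP : P = 0 ∨ 1 ≤ v (X P)) (n : ℕ) :
    v (mulCoord X Y β (n • P) - mulCoord X Y β P ^ n) ≤ v b := by
  induction n with
  | zero => rw [zero_nsmul, mulCoord_zero, pow_zero, sub_self, v.map_zero]; exact zero_le
  | succ n ih =>
    have hnP := mem_E0_nsmul v hL ha hb h2 hP n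
    have h1 := mulCoord_add v hL ha hb h2 hβ hnP hP
    have hu : v (mulCoord X Y β P) = 1 := val_mulCoord_of_E0 v hL ha hb h2 hβ hP
    have e : mulCoord X Y β ((n + 1) • P) - mulCoord X Y β P ^ (n + 1) =
        (mulCoord X Y β (n • P + P) - mulCoord X Y β (n • P) * mulCoord X Y β P) +
          (mulCoord X Y β (n • P) - mulCoord X Y β P ^ n) * mulCoord X Y β P := by
      rw [succ_nsmul]; ring
    rw [e]
    apply v.map_add_le h1
    rw [v.map_mul, hu, mul_one]; exact ih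

/-- On the kernel of reduction, `U - 1` has the valuation of the parameter `z = X / Y`. -/
theorem val_mulCoord_sub_one_of_E1 (hL : IsLegCoord a b X Y) (ha : v a = 1) (hb : v b < 1)
    (h2 : v 2 = 1) {β : K} (hβ : β ^ 2 = a) {y : G} (hy : y ≠ 0) (hx : 1 < v (X y)) :
    v (mulCoord X Y β y - 1) = v (X y / Y y) := by
  have hY0 := Y_ne_zero_of_E1 v hL ha.le hb.le hy hx
  have hz1 := val_z_lt_one_of_E1 v hL ha.le hb.le hy hx
  have hβ1 := val_beta_eq_one v ha hβ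
  have hden : v (1 + β * (X y / Y y)) = 1 := by
    have : v (β * (X y / Y y)) < v (1 : K) := by
      rw [v.map_mul, hβ1, one_mul, v.map_one]; exact hz1
    rw [v.map_add_eq_of_lt_left this, v.map_one]
  have hden0 : 1 + β * (X y / Y y) ≠ 0 := by
    rw [← v.ne_zero_iff, hden]; exact one_ne_zero
  have hden0' : Y y + β * X y ≠ 0 := by
    intro h
    apply hden0
    have : 1 + β * (X y / Y y) = (Y y + β * X y) / Y y := by field_simp
    rw [this, h, zero_div]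
  have e : mulCoord X Y β y - 1 = -(2 * β * (X y / Y y)) / (1 + β * (X y / Y y)) := by
    rw [mulCoord_of_ne hy]
    field_simp
    ring
  rw [e, v.map_div, hden, div_one, v.map_neg, v.map_mul, v.map_mul, h2, hβ1, one_mul, one_mul]

/-- Multiples of a point of the kernel of reduction: the parameter does not grow. -/
theorem val_z_nsmul_le (hL : IsLegCoord a b X Y) (ha : v a ≤ 1) (hb : v b ≤ 1) {P : G}
    (hP : P ≠ 0) (hx : 1 < v (X P)) {n : ℕ} (hn : n • P ≠ 0) :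
    1 < v (X (n • P)) ∧ v (X (n • P) / Y (n • P)) ≤ v (X P / Y P) := by
  rcases E1_multiples v hL ha hb hP hx n with ⟨h0, -⟩ | ⟨-, h1, h2⟩
  · exact absurd h0 hn
  · refine ⟨h1, ?_⟩
    have : X (n • P) / Y (n • P) =
        (X (n • P) / Y (n • P) - (n : K) * (X P / Y P)) + (n : K) * (X P / Y P) := by ring
    rw [this]
    apply v.map_add_le h2.le
    rw [v.map_mul]
    calc v (n : K) * v (X P / Y P) ≤ 1 * v (X P / Y P) := by
          gcongr; exact val_natCast_le_one v n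
      _ = v (X P / Y P) := one_mul _

/-- The cubic estimate `z (n P) = n z (P) + O (z (P) ^ 3)` on the kernel of reduction. -/
theorem E1_cubic (hL : IsLegCoord a b X Y) (ha : v a ≤ 1) (hb : v b ≤ 1) {P : G}
    (hP : P ≠ 0) (hx : 1 < v (X P)) (n : ℕ) :
    (n • P = 0 ∧ v ((n : K) * (X P / Y P)) ≤ v (X P / Y P) ^ 3) ∨
      (n • P ≠ 0 ∧
        v (X (n • P) / Y (n • P) - (n : K) * (X P / Y P)) ≤ v (X P / Y P) ^ 3) := by
  induction n with
  | zero =>
    left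
    exact ⟨zero_nsmul P, by rw [Nat.cast_zero, zero_mul, v.map_zero]; exact zero_le⟩
  | succ n ih =>
    rcases ih with ⟨hn0, hnv⟩ | ⟨hn0, hnv⟩
    · right
      have hP' : (n + 1) • P = P := by rw [succ_nsmul, hn0, zero_add]
      rw [hP']
      refine ⟨hP, ?_⟩
      have : X P / Y P - ((n + 1 : ℕ) : K) * (X P / Y P) = -((n : K) * (X P / Y P)) := by
        push_cast; ring
      rw [this, v.map_neg]; exact hnv
    · by_cases hR : (n + 1) • P = 0
      · left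
        refine ⟨hR, ?_⟩
        have hQ : n • P = -P := by
          rw [succ_nsmul] at hR; exact eq_neg_of_add_eq_zero_left hR
        rw [hQ, hL.negX P hP, hL.negY P hP] at hnv
        have : ((n + 1 : ℕ) : K) * (X P / Y P) = -(X P / -Y P - (n : K) * (X P / Y P)) := by
          push_cast; rw [div_neg]; ring
        rw [this, v.map_neg]; exact hnv
      · right
        refine ⟨hR, ?_⟩
        obtain ⟨hnx, hzn⟩ := val_z_nsmul_le v hL ha hb hP hx hn0
        obtain ⟨hRx, hzR⟩ := val_z_nsmul_le v hL ha hb hP hx hR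
        have hR' : -((n + 1) • P) ≠ 0 := neg_ne_zero.mpr hR
        have hsum : n • P + P + -((n + 1) • P) = 0 := by rw [succ_nsmul]; abel
        obtain ⟨-, hest⟩ := E1_triple v hL ha hb hn0 hP hR' hsum hnx hx
        rw [hL.negX _ hR, hL.negY _ hR, div_neg, v.map_neg] at hest
        have hest' : v (X (n • P) / Y (n • P) + X P / Y P +
            -(X ((n + 1) • P) / Y ((n + 1) • P))) ≤ v (X P / Y P) ^ 3 := by
          refine le_trans hest ?_
          calc v (X (n • P) / Y (n • P)) * v (X P / Y P) *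
                v (X ((n + 1) • P) / Y ((n + 1) • P))
              ≤ v (X P / Y P) * v (X P / Y P) * v (X P / Y P) := by gcongr
            _ = v (X P / Y P) ^ 3 := by rw [pow_succ, sq]
        have : X ((n + 1) • P) / Y ((n + 1) • P) - ((n + 1 : ℕ) : K) * (X P / Y P) =
            (X (n • P) / Y (n • P) - (n : K) * (X P / Y P)) -
              (X (n • P) / Y (n • P) + X P / Y P +
                -(X ((n + 1) • P) / Y ((n + 1) • P))) := by
          push_cast; ring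
        rw [this]
        exact v.map_sub_le hnv hest'

/-- A nonzero `p`-torsion point of the kernel of reduction has `v p ≤ v (z) ^ 2`. -/
theorem val_natCast_le_sq_of_E1_torsion (hL : IsLegCoord a b X Y) (ha : v a ≤ 1) (hb : v b ≤ 1)
    {p : ℕ} {y : G} (hy : y ≠ 0) (hx : 1 < v (X y)) (hpy : p • y = 0) :
    v (p : K) ≤ v (X y / Y y) ^ 2 := by
  have hY0 := Y_ne_zero_of_E1 v hL ha hb hy hx
  have hx0 : X y ≠ 0 := by
    intro h; rw [h, v.map_zero] at hx; exact absurd hx (not_lt.mpr zero_le)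
  have hk0 : (0 : Γ₀) < v (X y / Y y) := by
    rw [v.pos_iff]; exact div_ne_zero hx0 hY0
  rcases E1_cubic v hL ha hb hy hx p with ⟨-, h⟩ | ⟨h, -⟩
  · rw [v.map_mul, pow_succ] at h
    exact le_of_mul_le_mul_right h hk0
  · exact absurd hpy h

/-- `(τ, s)` behaves like an inertia element acting compatibly on points and on the field. -/
structure IsInertPair (v : Valuation K Γ₀) (a b d : K) (X Y : G → K) (τ : G →+ G)
    (s : K →+* K) : Prop where
  ne_zero : ∀ P, P ≠ 0 → τ P ≠ 0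
  mapX : ∀ P, P ≠ 0 → X (τ P) = s (X P)
  mapY : ∀ P, P ≠ 0 → Y (τ P) = s (Y P)
  close : ∀ u, v u ≤ 1 → v (s u - u) < 1
  val : ∀ u, v (s u) = v u
  fix_a : s a = a
  fix_b : s b = b
  fix_d : s d = d

/-- An element whose square is fixed and whose valuation is that of a fixed element is fixed. -/
theorem inert_fix_of_sq (h2 : v 2 = 1) {s : K →+* K} (hs : ∀ u, v u ≤ 1 → v (s u - u) < 1)
    {c ϖ : K} (hϖ : s ϖ = ϖ) (hc : v c = v ϖ) (hc0 : c ≠ 0) (hsq : s c ^ 2 = c ^ 2) :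
    s c = c := by
  rcases sq_eq_sq_iff_eq_or_eq_neg.mp hsq with h | h
  · exact h
  · exfalso
    have hϖ0' : v ϖ ≠ 0 := by rw [← hc]; exact (v.ne_zero_iff).mpr hc0
    have hu : v (c / ϖ) = 1 := by rw [v.map_div, hc, div_self hϖ0']
    have h1 := hs (c / ϖ) hu.le
    have e : s (c / ϖ) - c / ϖ = -(2 * (c / ϖ)) := by
      rw [map_div₀, hϖ, h]; ring
    rw [e, v.map_neg, v.map_mul, h2, one_mul, hu] at h1
    exact lt_irrefl _ h1

theorem inertPair_fix_beta (ha : v a = 1) (h2 : v 2 = 1) {β : K} (hβ : β ^ 2 = a) {d : K}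
    {τ : G →+ G} {s : K →+* K} (hτs : IsInertPair v a b d X Y τ s) : s β = β := by
  have hβ1 : v β = 1 := val_beta_eq_one v ha hβ
  have hβ0 : β ≠ 0 := by rw [← v.ne_zero_iff, hβ1]; exact one_ne_zero
  apply inert_fix_of_sq v h2 hτs.close (map_one s) (by rw [hβ1, v.map_one]) hβ0
  rw [← map_pow, hβ, hτs.fix_a]

/-- Equivariance of the multiplicative coordinate. -/
theorem mulCoord_map (ha : v a = 1) (h2 : v 2 = 1) {β : K} (hβ : β ^ 2 = a) {d : K}
    {τ : G →+ G} {s : K →+* K} (hτs : IsInertPair v a b d X Y τ s) (P : G) :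
    mulCoord X Y β (τ P) = s (mulCoord X Y β P) := by
  have hsβ : s β = β := inertPair_fix_beta v ha h2 hβ hτs
  by_cases hP : P = 0
  · rw [hP, map_zero, mulCoord_zero, map_one]
  · rw [mulCoord_of_ne (hτs.ne_zero P hP), mulCoord_of_ne hP, hτs.mapX P hP, hτs.mapY P hP,
      map_div₀, map_sub, map_add, map_mul, hsβ]

/-- In the node region `v (Y) = v (X)`. -/
theorem val_Y_eq_val_X_of_node (hL : IsLegCoord a b X Y) (ha : v a = 1) {P : G} (hP : P ≠ 0)
    (hPb : v b < v (X P)) (hlt : v (X P) < 1) : v (Y P) = v (X P) := by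
  have hx0 : (0 : Γ₀) < v (X P) := lt_of_le_of_lt zero_le hPb
  apply eq_of_sq_eq_sq'
  rw [← v.map_pow, hL.eqn P hP]
  have e : X P ^ 3 + a * X P ^ 2 + b * X P = a * X P ^ 2 + (X P ^ 3 + b * X P) := by ring
  have hdom : v (a * X P ^ 2) = v (X P) ^ 2 := by rw [v.map_mul, ha, one_mul, v.map_pow]
  have hsmall : v (X P ^ 3 + b * X P) < v (a * X P ^ 2) := by
    rw [hdom, sq]
    apply v.map_add_lt
    · rw [v.map_pow, pow_succ, sq]
      calc v (X P) * v (X P) * v (X P) < v (X P) * v (X P) * 1 :=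
            mul_lt_mul_of_pos_left hlt (mul_pos hx0 hx0)
        _ = v (X P) * v (X P) := mul_one _
    · rw [v.map_mul]
      exact mul_lt_mul_of_pos_right hPb hx0
  rw [e, v.map_add_eq_of_lt_left hsmall, hdom]

/-- A point of the node region whose `X`-coordinate is fixed is fixed. -/
theorem inertPair_fix_of_X (hL : IsLegCoord a b X Y) (ha : v a = 1) (h2 : v 2 = 1) {d : K}
    {τ : G →+ G} {s : K →+* K} (hτs : IsInertPair v a b d X Y τ s) {Q : G} (hQ : Q ≠ 0)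
    (hQb : v b < v (X Q)) (hQ1 : v (X Q) < 1) (hsX : s (X Q) = X Q) : τ Q = Q := by
  have hYX := val_Y_eq_val_X_of_node v hL ha hQ hQb hQ1
  have hx0 : (0 : Γ₀) < v (X Q) := lt_of_le_of_lt zero_le hQb
  have hY0 : Y Q ≠ 0 := by rw [← v.ne_zero_iff, hYX]; exact hx0.ne'
  have hsY : s (Y Q) = Y Q := by
    apply inert_fix_of_sq v h2 hτs.close hsX hYX hY0
    rw [← map_pow, hL.eqn Q hQ, map_add, map_add, map_mul, map_mul, map_pow, map_pow, hsX,
      hτs.fix_a, hτs.fix_b]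
  apply hL.inj _ _ (hτs.ne_zero Q hQ) hQ
  · rw [hτs.mapX Q hQ, hsX]
  · rw [hτs.mapY Q hQ, hsY]

theorem inertPair_fix_T (hL : IsLegCoord a b X Y) {d : K} {τ : G →+ G} {s : K →+* K}
    (hτs : IsInertPair v a b d X Y τ s) {T : G} (hT : T ≠ 0) (hTX : X T = 0) (hTY : Y T = 0) :
    τ T = T := by
  apply hL.inj _ _ (hτs.ne_zero T hT) hT
  · rw [hτs.mapX T hT, hTX, map_zero]
  · rw [hτs.mapY T hT, hTY, map_zero]

omit [AddCommGroup G] in
theorem cc_eq_or (β : K) (P : G) :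
    cc v b X Y β P = v (X P) ∨ cc v b X Y β P = v b ^ 2 / v (X P) := by
  unfold cc
  split_ifs
  · left; rfl
  · right; rfl

/-- The component of a `p`-torsion point of the node region is an even power of `v d`. -/
theorem cc_eq_pow (hL : IsLegCoord a b X Y) (ha : v a = 1) (hb : v b < 1) (hb0 : b ≠ 0)
    (h2 : v 2 = 1) {β : K} (hβ : β ^ 2 = a) {T : G} (hT : T ≠ 0) (hTX : X T = 0)
    (hTY : Y T = 0) {p : ℕ} (hpp : p.Prime) (hp2 : p ≠ 2) {d : K} (hbd : v b = v d ^ p)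
    {P : G} (hpP : p • P = 0) (hP : P ≠ 0) (hlt : v (X P) < 1) :
    v b < v (X P) ∧ ∃ j : ℕ, j + 1 < p ∧ cc v b X Y β P = v d ^ (2 * (j + 1)) := by
  have hp3 : 3 ≤ p := by
    have := hpp.two_le
    omega
  have h1p : ¬ p ∣ 1 := Nat.not_dvd_of_pos_of_lt one_pos hpp.one_lt
  have hPb : v b < v (X P) := by
    have := node_region_of_multiple v hL ha.le hb hb0 h2 hT hTX hTY hpp hp2 hpP hP hlt h1p
    rw [one_nsmul] at this; exact this.2.1
  refine ⟨hPb, ?_⟩
  obtain ⟨j, hj⟩ := cc_multiples v hL ha hb hb0 h2 hβ hT hTX hTY hpp hp2 hpP hP hlt (p - 1)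
    (by omega) (by omega)
  have hneg : (p - 1) • P = -P := by
    have : (p - 1) • P + P = 0 := by
      rw [← succ_nsmul, Nat.sub_add_cancel hpp.one_le]; exact hpP
    exact eq_neg_of_add_eq_zero_left this
  rw [hneg] at hj
  have kneg := cc_neg_mul v hL ha h2 hβ hP hPb hlt
  have hc : cc v b X Y β P ^ p = (v d ^ (2 * (j + 1))) ^ p := by
    calc cc v b X Y β P ^ p = cc v b X Y β P ^ (p - 1) * cc v b X Y β P := by
          rw [← pow_succ, Nat.sub_add_cancel hpp.one_le]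
      _ = cc v b X Y β (-P) * v b ^ (2 * j) * cc v b X Y β P := by rw [hj]
      _ = (cc v b X Y β (-P) * cc v b X Y β P) * v b ^ (2 * j) := by ac_rfl
      _ = v b ^ 2 * v b ^ (2 * j) := by rw [kneg]
      _ = v b ^ (2 * (j + 1)) := by rw [← pow_add]; congr 1; ring
      _ = (v d ^ (2 * (j + 1))) ^ p := by rw [hbd, ← pow_mul, ← pow_mul, mul_comm]
  have hc' : cc v b X Y β P = v d ^ (2 * (j + 1)) :=
    (pow_left_inj₀ zero_le zero_le hpp.ne_zero).mp hc
  refine ⟨j, ?_, hc'⟩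
  by_contra hjp
  have hjp' : p ≤ j + 1 := le_of_not_gt hjp
  have hb0' : v b ≠ 0 := (v.ne_zero_iff).mpr hb0
  have hbpos : (0 : Γ₀) < v b := lt_of_le_of_ne zero_le hb0'.symm
  have hd1 : v d ≤ 1 := by
    by_contra h
    have h1 : (1 : Γ₀) < v d := lt_of_not_ge h
    rw [hbd] at hb
    exact absurd (one_le_pow₀ h1.le) (not_le.mpr hb)
  have hle : cc v b X Y β P ≤ v b ^ 2 := by
    rw [hc', hbd, ← pow_mul, mul_comm p 2]
    exact pow_le_pow_of_le_one zero_le hd1 (by omega)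
  have hx0 : (0 : Γ₀) < v (X P) := lt_of_le_of_lt zero_le hPb
  have hb2 : v b ^ 2 ≤ v b := by
    calc v b ^ 2 = v b * v b := sq _
      _ ≤ v b * 1 := by gcongr
      _ = v b := mul_one _
  have hgt : v b ^ 2 < cc v b X Y β P := by
    rcases cc_eq_or v β P (b := b) (X := X) (Y := Y) with h | h
    · rw [h]; exact lt_of_le_of_lt hb2 hPb
    · rw [h, lt_div_iff₀ hx0]
      calc v b ^ 2 * v (X P) < v b ^ 2 * 1 := mul_lt_mul_of_pos_left hlt (pow_pos hbpos 2)
        _ = v b ^ 2 := mul_one _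
  exact absurd hle (not_le.mpr hgt)

/-- The inertia-fixed scale of a `p`-torsion point of the node region. -/
theorem exists_scale (hL : IsLegCoord a b X Y) (ha : v a = 1) (hb : v b < 1) (hb0 : b ≠ 0)
    (h2 : v 2 = 1) {β : K} (hβ : β ^ 2 = a) {T : G} (hT : T ≠ 0) (hTX : X T = 0)
    (hTY : Y T = 0) {p : ℕ} (hpp : p.Prime) (hp2 : p ≠ 2) {d : K} (hbd : v b = v d ^ p)
    {P : G} (hpP : p • P = 0) (hP : P ≠ 0) (hlt : v (X P) < 1) :
    v b < v (X P) ∧ ∃ n m : ℕ, v (X P) = v (d ^ n / d ^ m) := by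
  obtain ⟨hPb, j, -, hc'⟩ :=
    cc_eq_pow v hL ha hb hb0 h2 hβ hT hTX hTY hpp hp2 hbd hpP hP hlt
  refine ⟨hPb, ?_⟩
  rcases val_X_eq_cc_or v hb0 (β := β) (Y := Y) hPb with h | h
  · exact ⟨2 * (j + 1), 0, by rw [h, hc', pow_zero, div_one, v.map_pow]⟩
  · refine ⟨2 * p, 2 * (j + 1), ?_⟩
    rw [h, hc', v.map_div, v.map_pow, v.map_pow, hbd, ← pow_mul, mul_comm p 2]

/-- Two distinct points of the node region with the same component have a difference outside
the node region. -/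
theorem not_node_of_cc_eq (hL : IsLegCoord a b X Y) (ha : v a = 1) (hb : v b < 1) (hb0 : b ≠ 0)
    (h2 : v 2 = 1) {β : K} (hβ : β ^ 2 = a) {x Q : G} (hx0 : x ≠ 0) (hQ0 : Q ≠ 0)
    (hxQ : x ≠ Q) (hxb : v b < v (X x)) (hx1 : v (X x) < 1) (hQb : v b < v (X Q))
    (hQ1 : v (X Q) < 1) (hcc : cc v b X Y β Q = cc v b X Y β x) :
    ¬ (v b < v (X (Q - x)) ∧ v (X (Q - x)) < 1) := by
  rintro ⟨hRb, hR1⟩
  have hb0' : v b ≠ 0 := (v.ne_zero_iff).mpr hb0
  have hbpos : (0 : Γ₀) < v b := lt_of_le_of_ne zero_le hb0'.symm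
  have hR0 : Q - x ≠ 0 := sub_ne_zero.mpr (Ne.symm hxQ)
  have hnQ : -Q ≠ 0 := neg_ne_zero.mpr hQ0
  have hsum : x + -Q + (Q - x) = 0 := by abel
  have hnQb : v b < v (X (-Q)) := by rw [hL.negX Q hQ0]; exact hQb
  have hnQ1 : v (X (-Q)) < 1 := by rw [hL.negX Q hQ0]; exact hQ1
  have tri := node_triple v hL ha hb0 h2 hβ hx0 hnQ hR0 hsum hxb hx1 hnQb hnQ1 hRb hR1
  have kneg := cc_neg_mul v hL ha h2 hβ hQ0 hQb hQ1
  have e : cc v b X Y β x * cc v b X Y β (-Q) = v b ^ 2 := by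
    rw [← hcc, mul_comm]; exact kneg
  rw [e] at tri
  have hxR0 : v (X (Q - x)) ≠ 0 := (lt_of_le_of_lt zero_le hRb).ne'
  have hb2 : v b ^ 2 < v (X (Q - x)) := by
    calc v b ^ 2 = v b * v b := sq _
      _ ≤ v b * 1 := by gcongr
      _ = v b := mul_one _
      _ < v (X (Q - x)) := hRb
  have hccR : cc v b X Y β (Q - x) = 1 ∨ cc v b X Y β (Q - x) = v b ^ 2 := by
    rcases tri with t | t
    · left
      have : v b ^ 2 * cc v b X Y β (Q - x) = v b ^ 2 * 1 := by rw [t, mul_one]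
      exact mul_left_cancel₀ (pow_ne_zero 2 hb0') this
    · right
      have : v b ^ 2 * cc v b X Y β (Q - x) = v b ^ 2 * v b ^ 2 := by
        rw [t, ← pow_add]
      exact mul_left_cancel₀ (pow_ne_zero 2 hb0') this
  rcases cc_eq_or v β (Q - x) (b := b) (X := X) (Y := Y) with h | h
  · rcases hccR with h' | h'
    · rw [h] at h'; rw [h'] at hR1; exact lt_irrefl _ hR1
    · rw [h] at h'; rw [h'] at hb2; exact lt_irrefl _ hb2
  · rcases hccR with h' | h'
    · rw [h, div_eq_one_iff_eq hxR0] at h'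
      rw [h'] at hb2; exact lt_irrefl _ hb2
    · rw [h, div_eq_iff hxR0] at h'
      have : v b ^ 2 * 1 = v b ^ 2 * v (X (Q - x)) := by rw [mul_one]; exact h'
      have h1 : (1 : Γ₀) = v (X (Q - x)) := mul_left_cancel₀ (pow_ne_zero 2 hb0') this
      rw [← h1] at hR1; exact lt_irrefl _ hR1

/-- **Inertia-fixed approximation**: every `p`-torsion point differs from a point fixed by all
inertia pairs by an element of `E₀`. -/
theorem exists_fixed_close (hL : IsLegCoord a b X Y) (ha : v a = 1) (hb : v b < 1)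
    (hb0 : b ≠ 0) (h2 : v 2 = 1) {β : K} (hβ : β ^ 2 = a) {T : G} (hT : T ≠ 0) (hTX : X T = 0)
    (hTY : Y T = 0) {p : ℕ} (hpp : p.Prime) (hp2 : p ≠ 2) {d : K} (hbd : v b = v d ^ p)
    (hsq : ∀ c : K, ∃ r, r ^ 2 = c)
    (hpt : ∀ ξ η : K, η ^ 2 = ξ ^ 3 + a * ξ ^ 2 + b * ξ → ∃ Q : G, Q ≠ 0 ∧ X Q = ξ ∧ Y Q = η)
    (I : (G →+ G) → (K →+* K) → Prop) (hI : ∀ τ s, I τ s → IsInertPair v a b d X Y τ s)
    {x : G} (hx : p • x = 0) :
    ∃ Q : G, (∀ τ s, I τ s → τ Q = Q) ∧ (x - Q = 0 ∨ 1 ≤ v (X (x - Q))) := by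
  by_cases hxE : x = 0 ∨ 1 ≤ v (X x)
  · exact ⟨0, fun τ s _ => map_zero τ, by rw [sub_zero]; exact hxE⟩
  have hx0 : x ≠ 0 := fun h => hxE (Or.inl h)
  have hx1 : v (X x) < 1 := lt_of_not_ge (fun h => hxE (Or.inr h))
  have hb0' : v b ≠ 0 := (v.ne_zero_iff).mpr hb0
  obtain ⟨hxb, n, m, hnm⟩ :=
    exists_scale v hL ha hb hb0 h2 hβ hT hTX hTY hpp hp2 hbd hx hx0 hx1
  obtain ⟨η, hη⟩ := hsq ((d ^ n / d ^ m) ^ 3 + a * (d ^ n / d ^ m) ^ 2 + b * (d ^ n / d ^ m))
  obtain ⟨Q₀, hQ₀, hXQ₀, hYQ₀⟩ := hpt (d ^ n / d ^ m) η hη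
  have hvQ₀ : v (X Q₀) = v (X x) := by rw [hXQ₀, hnm]
  have hQ₀b : v b < v (X Q₀) := by rw [hvQ₀]; exact hxb
  have hQ₀1 : v (X Q₀) < 1 := by rw [hvQ₀]; exact hx1
  have hfix₀ : ∀ τ s, I τ s → τ Q₀ = Q₀ := by
    intro τ s hτs
    have hip := hI τ s hτs
    apply inertPair_fix_of_X v hL ha h2 hip hQ₀ hQ₀b hQ₀1
    rw [hXQ₀, map_div₀, map_pow, map_pow, hip.fix_d]
  -- choose the point on the branch of `x`
  obtain ⟨Q, hQ, hfix, hvQ, hcc⟩ : ∃ Q : G, Q ≠ 0 ∧ (∀ τ s, I τ s → τ Q = Q) ∧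
      v (X Q) = v (X x) ∧ cc v b X Y β Q = cc v b X Y β x := by
    by_cases hc : cc v b X Y β Q₀ = cc v b X Y β x
    · exact ⟨Q₀, hQ₀, hfix₀, hvQ₀, hc⟩
    · refine ⟨-Q₀, neg_ne_zero.mpr hQ₀, ?_, by rw [hL.negX Q₀ hQ₀]; exact hvQ₀, ?_⟩
      · intro τ s hτs
        rw [map_neg, hfix₀ τ s hτs]
      · have kneg := cc_neg_mul v hL ha h2 hβ hQ₀ hQ₀b hQ₀1
        have hx0' : v (X x) ≠ 0 := (lt_of_le_of_lt zero_le hxb).ne'
        rcases cc_eq_or v β Q₀ (b := b) (X := X) (Y := Y) with h | h <;>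
          rcases cc_eq_or v β x (b := b) (X := X) (Y := Y) with h' | h'
        · exact absurd (by rw [h, h', hvQ₀]) hc
        · rw [h, hvQ₀] at kneg
          rw [h']
          exact eq_div_of_mul_eq hx0' kneg
        · rw [h, hvQ₀] at kneg
          rw [h']
          have : cc v b X Y β (-Q₀) * (v b ^ 2 / v (X x)) = v (X x) * (v b ^ 2 / v (X x)) := by
            rw [kneg, mul_div_cancel₀ _ hx0']
          exact mul_right_cancel₀ (div_ne_zero (pow_ne_zero 2 hb0') hx0') this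
        · exact absurd (by rw [h, h', hvQ₀]) hc
  have hQb : v b < v (X Q) := by rw [hvQ]; exact hxb
  have hQ1 : v (X Q) < 1 := by rw [hvQ]; exact hx1
  by_cases hxQ : x = Q
  · exact ⟨Q, hfix, Or.inl (sub_eq_zero.mpr hxQ)⟩
  have hR0 : Q - x ≠ 0 := sub_ne_zero.mpr (Ne.symm hxQ)
  have hnn := not_node_of_cc_eq v hL ha hb hb0 h2 hβ hx0 hQ hxQ hxb hx1 hQb hQ1 hcc
  have hXneg : X (x - Q) = X (Q - x) := by
    rw [← neg_sub Q x, hL.negX _ hR0]
  by_cases hge : 1 ≤ v (X (Q - x))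
  · exact ⟨Q, hfix, Or.inr (by rw [hXneg]; exact hge)⟩
  have hle : v (X (Q - x)) ≤ v b := by
    by_contra hlt
    exact hnn ⟨lt_of_not_ge hlt, lt_of_not_ge hge⟩
  refine ⟨Q + T, ?_, ?_⟩
  · intro τ s hτs
    rw [map_add, hfix τ s hτs, inertPair_fix_T v hL (hI τ s hτs) hT hTX hTY]
  · by_cases hRT : Q - x + T = 0
    · left
      have : x - (Q + T) = -(Q - x + T) := by abel
      rw [this, hRT, neg_zero]
    · right
      have hmul := X_add_T_mul hL hT hTX hTY hR0 hRT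
      have e : x - (Q + T) = -(Q - x + T) := by abel
      rw [e, hL.negX _ hRT]
      have hvmul : v (X (Q - x + T)) * v (X (Q - x)) = v b := by
        rw [← v.map_mul, hmul]
      have hXR0 : (0 : Γ₀) < v (X (Q - x)) := by
        rw [v.pos_iff]; intro h0; rw [h0, mul_zero] at hmul; exact hb0 hmul.symm
      by_contra hlt
      have hlt' : v (X (Q - x + T)) < 1 := lt_of_not_ge hlt
      have : v b < v (X (Q - x)) := by
        rw [← hvmul]
        calc v (X (Q - x + T)) * v (X (Q - x)) < 1 * v (X (Q - x)) :=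
              mul_lt_mul_of_pos_right hlt' hXR0
          _ = v (X (Q - x)) := one_mul _
      exact absurd this (not_lt.mpr hle)

/-- `v b ^ 2 < v p ^ p` follows from `v b = v d ^ p`, `v d ≤ v p`. -/
theorem val_b_sq_lt (hb : v b < 1) (hb0 : b ≠ 0) {p : ℕ} (hpp : p.Prime) {d : K}
    (hbd : v b = v d ^ p) (hdp : v d ≤ v (p : K)) : v b ^ 2 < v (p : K) ^ p := by
  have hb0' : v b ≠ 0 := (v.ne_zero_iff).mpr hb0
  have hd0 : v d ≠ 0 := by
    intro h; rw [h, zero_pow hpp.ne_zero] at hbd; exact hb0' hbd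
  have hp0 : v (p : K) ≠ 0 := by
    intro h; rw [h] at hdp; exact hd0 (le_antisymm hdp zero_le)
  have hp0' : (0 : Γ₀) < v (p : K) := lt_of_le_of_ne zero_le hp0.symm
  have hple : v (p : K) ≤ 1 := val_natCast_le_one v p
  calc v b ^ 2 = v b * v b := sq _
    _ < 1 * v b := mul_lt_mul_of_pos_right hb (lt_of_le_of_ne zero_le hb0'.symm)
    _ = v d ^ p := by rw [one_mul, hbd]
    _ ≤ v (p : K) ^ p := pow_le_pow_left₀ zero_le hdp p

theorem val_d_lt_one (hb : v b < 1) {p : ℕ} {d : K} (hbd : v b = v d ^ p) : v d < 1 := by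
  by_contra h
  have h1 : (1 : Γ₀) ≤ v d := le_of_not_gt h
  rw [hbd] at hb
  exact absurd (one_le_pow₀ h1) (not_le.mpr hb)

/-- Facts about `δ = U (τ x - x) - 1` when the inertia pair `(τ, s)` moves the `p`-torsion
point `x`. -/
theorem delta_facts (hL : IsLegCoord a b X Y) (ha : v a = 1) (hb : v b < 1) (hb0 : b ≠ 0)
    (h2 : v 2 = 1) {β : K} (hβ : β ^ 2 = a) {T : G} (hT : T ≠ 0) (hTX : X T = 0)
    (hTY : Y T = 0) {p : ℕ} (hpp : p.Prime) (hp2 : p ≠ 2) {d : K} (hbd : v b = v d ^ p)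
    {τ : G →+ G} {s : K →+* K} (hip : IsInertPair v a b d X Y τ s) {x : G} (hx : p • x = 0)
    (hne : τ x ≠ x) :
    1 < v (X (τ x - x)) ∧ v (p : K) ≤ v (mulCoord X Y β (τ x - x) - 1) ^ 2 ∧
      v (mulCoord X Y β (τ x - x) - 1) < 1 := by
  have hy0 : τ x - x ≠ 0 := sub_ne_zero.mpr hne
  have hyE1 : InE1 v X (τ x - x) :=
    node_sub_mem v hL ha hb hb0 h2 hβ hT hTX hTY hpp hp2 τ hip.ne_zero s hip.mapX hip.mapY
      hip.close hip.val hip.fix_d hbd hx
  have hyx : 1 < v (X (τ x - x)) := hyE1.resolve_left hy0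
  have hpy : p • (τ x - x) = 0 := by rw [smul_sub, ← map_nsmul, hx, map_zero, sub_zero]
  have hδ := val_mulCoord_sub_one_of_E1 v hL ha hb h2 hβ hy0 hyx
  refine ⟨hyx, ?_, ?_⟩
  · rw [hδ]; exact val_natCast_le_sq_of_E1_torsion v hL ha.le hb.le hy0 hyx hpy
  · rw [hδ]; exact val_z_lt_one_of_E1 v hL ha.le hb.le hy0 hyx

/-- **Key estimate.** If the inertia pair `(τ, s)` moves the `p`-torsion point `x`, `Q` is a
`τ`-fixed point with `x - Q ∈ E₀`, and `w` (of valuation `1`), `z` are `s`-fixed, then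
`U (x - Q) / w` is at least as far from `z` as `U (τ x - x)` is from `1`. -/
theorem val_delta_le (hL : IsLegCoord a b X Y) (ha : v a = 1) (hb : v b < 1) (hb0 : b ≠ 0)
    (h2 : v 2 = 1) {β : K} (hβ : β ^ 2 = a) {T : G} (hT : T ≠ 0) (hTX : X T = 0)
    (hTY : Y T = 0) {p : ℕ} (hpp : p.Prime) (hp2 : p ≠ 2) (hbp : v b ^ 2 < v (p : K) ^ p)
    {d : K} (hbd : v b = v d ^ p) {τ : G →+ G} {s : K →+* K}
    (hip : IsInertPair v a b d X Y τ s) {x Q : G} (hx : p • x = 0) (hQ : τ Q = Q)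
    (hPE : x - Q = 0 ∨ 1 ≤ v (X (x - Q))) {w z : K} (hwv : v w = 1) (hsw : s w = w)
    (hsz : s z = z) (hne : τ x ≠ x) :
    v (mulCoord X Y β (τ x - x) - 1) ≤ v (mulCoord X Y β (x - Q) / w - z) := by
  obtain ⟨hyx, hpδ, hδ1⟩ :=
    delta_facts v hL ha hb hb0 h2 hβ hT hTX hTY hpp hp2 hbd hip hx hne
  have hτP : τ (x - Q) = (x - Q) + (τ x - x) := by
    rw [map_sub, hQ]; abel
  have hbδp : v b < v (mulCoord X Y β (τ x - x) - 1) ^ p := by
    apply lt_of_sq_lt_sq'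
    calc v b ^ 2 < v (p : K) ^ p := hbp
      _ ≤ (v (mulCoord X Y β (τ x - x) - 1) ^ 2) ^ p := pow_le_pow_left₀ zero_le hpδ p
      _ = (v (mulCoord X Y β (τ x - x) - 1) ^ p) ^ 2 := by rw [← pow_mul, ← pow_mul, mul_comm]
  have hbδ : v b < v (mulCoord X Y β (τ x - x) - 1) :=
    lt_of_lt_of_le hbδp (pow_le_of_le_one zero_le hδ1.le hpp.ne_zero)
  have hadd := mulCoord_add v hL ha hb h2 hβ hPE (Or.inr hyx.le : τ x - x = 0 ∨ _)
  have hUP : v (mulCoord X Y β (x - Q)) = 1 := val_mulCoord_of_E0 v hL ha hb h2 hβ hPE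
  have hw0 : w ≠ 0 := by rw [← v.ne_zero_iff, hwv]; exact one_ne_zero
  have key1 : v (s (mulCoord X Y β (x - Q) / w) - mulCoord X Y β (x - Q) / w) =
      v (mulCoord X Y β (τ x - x) - 1) := by
    have e : s (mulCoord X Y β (x - Q) / w) - mulCoord X Y β (x - Q) / w =
        ((mulCoord X Y β (x - Q + (τ x - x)) -
            mulCoord X Y β (x - Q) * mulCoord X Y β (τ x - x)) +
          mulCoord X Y β (x - Q) * (mulCoord X Y β (τ x - x) - 1)) / w := by
      rw [map_div₀, hsw, ← mulCoord_map v ha h2 hβ hip, hτP]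
      field_simp
      ring
    have hmain : v (mulCoord X Y β (x - Q) * (mulCoord X Y β (τ x - x) - 1)) =
        v (mulCoord X Y β (τ x - x) - 1) := by rw [v.map_mul, hUP, one_mul]
    rw [e, v.map_div, hwv, div_one]
    rw [v.map_add_eq_of_lt_right (by rw [hmain]; exact lt_of_le_of_lt hadd hbδ), hmain]
  have e2 : s (mulCoord X Y β (x - Q) / w) - mulCoord X Y β (x - Q) / w =
      s (mulCoord X Y β (x - Q) / w - z) - (mulCoord X Y β (x - Q) / w - z) := by
    rw [map_sub, hsz]; ring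
  rw [e2] at key1
  rw [← key1]
  exact v.map_sub_le (hip.val _).le le_rfl

/-- The unit attached to a `τ`-fixed approximation `Q` of `x` satisfies `(U (x - Q) / w) ^ p ≡ 1`
modulo `b` for every `p`-th root `w` of `U (p • (x - Q))`. -/
theorem val_pow_sub_one_le (hL : IsLegCoord a b X Y) (ha : v a = 1) (hb : v b < 1)
    (h2 : v 2 = 1) {β : K} (hβ : β ^ 2 = a) {p : ℕ} (hpp : p.Prime) {P : G}
    (hPE : P = 0 ∨ 1 ≤ v (X P)) {w : K} (hw : w ^ p = mulCoord X Y β (p • P)) :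
    v w = 1 ∧ v ((mulCoord X Y β P / w) ^ p - 1) ≤ v b := by
  have hpPE := mem_E0_nsmul v hL ha hb h2 hPE p
  have hu1 : v (mulCoord X Y β (p • P)) = 1 := val_mulCoord_of_E0 v hL ha hb h2 hβ hpPE
  have hwv : v w = 1 := by
    apply (pow_left_inj₀ zero_le zero_le hpp.ne_zero).mp
    rw [one_pow, ← v.map_pow, hw]; exact hu1
  have hu0 : mulCoord X Y β (p • P) ≠ 0 := by
    rw [← v.ne_zero_iff, hu1]; exact one_ne_zero
  refine ⟨hwv, ?_⟩
  have e : (mulCoord X Y β P / w) ^ p - 1 =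
      -((mulCoord X Y β (p • P) - mulCoord X Y β P ^ p) / mulCoord X Y β (p • P)) := by
    rw [div_pow, hw]
    field_simp
    ring
  rw [e, v.map_neg, v.map_div, hu1, div_one]
  exact mulCoord_nsmul v hL ha hb h2 hβ hPE p

/-- **Peu ramifié, abstract form.** For every `p`-torsion point `x` there is a unit `u`, fixed
by all inertia pairs, such that every inertia pair `(τ, s)` with `s` fixing a primitive `p`-th
root of unity and one `p`-th root of `u` satisfies `τ x = x`. -/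
theorem peu_point (hL : IsLegCoord a b X Y) (ha : v a = 1) (hb : v b < 1) (hb0 : b ≠ 0)
    (h2 : v 2 = 1) {β : K} (hβ : β ^ 2 = a) {T : G} (hT : T ≠ 0) (hTX : X T = 0)
    (hTY : Y T = 0) {p : ℕ} (hpp : p.Prime) (hp2 : p ≠ 2) (hbp : v b ^ 2 < v (p : K) ^ p)
    {d : K} (hbd : v b = v d ^ p) {ζ : K} (hζ : IsPrimitiveRoot ζ p)
    (hsq : ∀ c : K, ∃ r, r ^ 2 = c)
    (hpt : ∀ ξ η : K, η ^ 2 = ξ ^ 3 + a * ξ ^ 2 + b * ξ → ∃ Q : G, Q ≠ 0 ∧ X Q = ξ ∧ Y Q = η)
    (I : (G →+ G) → (K →+* K) → Prop) (hI : ∀ τ s, I τ s → IsInertPair v a b d X Y τ s)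
    {x : G} (hx : p • x = 0) :
    ∃ u : K, v u = 1 ∧ (∀ τ s, I τ s → s u = u) ∧
      ∀ τ s, I τ s → s ζ = ζ → ∀ w : K, w ^ p = u → s w = w → τ x = x := by
  obtain ⟨Q, hQfix, hPE⟩ :=
    exists_fixed_close v hL ha hb hb0 h2 hβ hT hTX hTY hpp hp2 hbd hsq hpt I hI hx
  have hpPE := mem_E0_nsmul v hL ha hb h2 hPE p
  have hu1 : v (mulCoord X Y β (p • (x - Q))) = 1 := val_mulCoord_of_E0 v hL ha hb h2 hβ hpPE
  have e1 : p • (x - Q) = -(p • Q) := by rw [smul_sub, hx, zero_sub]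
  refine ⟨mulCoord X Y β (p • (x - Q)), hu1, ?_, ?_⟩
  · intro τ s hτs
    have hip := hI τ s hτs
    rw [← mulCoord_map v ha h2 hβ hip]
    congr 1
    rw [e1, map_neg, map_nsmul, hQfix τ s hτs]
  · intro τ s hτs hsζ w hw hsw
    have hip := hI τ s hτs
    by_contra hne
    obtain ⟨hyx, hpδ, hδ1⟩ :=
      delta_facts v hL ha hb hb0 h2 hβ hT hTX hTY hpp hp2 hbd hip hx hne
    have hbδp : v b < v (mulCoord X Y β (τ x - x) - 1) ^ p := by
      apply lt_of_sq_lt_sq'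
      calc v b ^ 2 < v (p : K) ^ p := hbp
        _ ≤ (v (mulCoord X Y β (τ x - x) - 1) ^ 2) ^ p := pow_le_pow_left₀ zero_le hpδ p
        _ = (v (mulCoord X Y β (τ x - x) - 1) ^ p) ^ 2 := by rw [← pow_mul, ← pow_mul, mul_comm]
    obtain ⟨hwv, hg⟩ := val_pow_sub_one_le v hL ha hb h2 hβ hpp hPE hw
    obtain ⟨z, hz, hzlt⟩ : ∃ z ∈ Polynomial.nthRootsFinset p (1 : K),
        v (mulCoord X Y β (x - Q) / w - z) < v (mulCoord X Y β (τ x - x) - 1) := by
      by_contra hall'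
      have hall : ∀ z ∈ Polynomial.nthRootsFinset p (1 : K),
          v (mulCoord X Y β (τ x - x) - 1) ≤ v (mulCoord X Y β (x - Q) / w - z) :=
        fun z hz => le_of_not_gt (fun h => hall' ⟨z, hz, h⟩)
      have hprod := hζ.pow_sub_pow_eq_prod_sub_mul (mulCoord X Y β (x - Q) / w) 1 hpp.pos
      rw [one_pow] at hprod
      rw [hprod, map_prod] at hg
      have hcard := Finset.pow_card_le_prod (Polynomial.nthRootsFinset p (1 : K))
        (fun z => v (mulCoord X Y β (x - Q) / w - z * 1))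
        (v (mulCoord X Y β (τ x - x) - 1)) (fun z hz => by rw [mul_one]; exact hall z hz)
      rw [hζ.card_nthRootsFinset] at hcard
      exact absurd (le_trans hcard hg) (not_le.mpr hbδp)
    have hsz : s z = z := by
      have hzp : z ^ p = 1 := (Polynomial.mem_nthRootsFinset hpp.pos 1).mp hz
      have : NeZero p := ⟨hpp.ne_zero⟩
      obtain ⟨i, -, hi⟩ := hζ.eq_pow_of_pow_eq_one hzp
      rw [← hi, map_pow, hsζ]
    have hle := val_delta_le v hL ha hb hb0 h2 hβ hT hTX hTY hpp hp2 hbp hbd hip hx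
      (hQfix τ s hτs) hPE hwv hsw hsz hne
    exact absurd hzlt (not_lt.mpr hle)

/-! ### Roots of unity -/

omit [AddCommGroup G] in
/-- A `p`-th root of unity has valuation `1`. -/
theorem val_root_eq_one {p : ℕ} (hp0 : p ≠ 0) {z : K} (hz : z ^ p = 1) : v z = 1 := by
  apply (pow_left_inj₀ zero_le zero_le hp0).mp
  rw [one_pow, ← v.map_pow, hz, v.map_one]

omit [AddCommGroup G] in
/-- Distinct `p`-th roots of unity are further apart than `v d`, when `v d < 1`, `v d ≤ v p`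
and `p` is an odd prime. -/
theorem val_lt_val_sub_of_roots {p : ℕ} (hpp : p.Prime) (hp2 : p ≠ 2) {d : K} (hd1 : v d < 1)
    (hdp : v d ≤ v (p : K)) {z z' : K} (hz : z ^ p = 1) (hz' : z' ^ p = 1) (hne : z ≠ z') :
    v d < v (z - z') := by
  have hp3 : 3 ≤ p := by
    have := hpp.two_le
    omega
  have hvz : v z = 1 := val_root_eq_one v hpp.ne_zero hz
  have hz0 : z ≠ 0 := by rw [← v.ne_zero_iff, hvz]; exact one_ne_zero
  have hμp : (z' / z) ^ p = 1 := by rw [div_pow, hz, hz', div_one]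
  have hμ1 : z' / z ≠ 1 := by
    intro h; rw [div_eq_one_iff_eq hz0] at h; exact hne h.symm
  have hfact : Fact p.Prime := ⟨hpp⟩
  have hμ : IsPrimitiveRoot (z' / z) p := by
    have h := IsPrimitiveRoot.orderOf (z' / z)
    rwa [orderOf_eq_prime hμp hμ1] at h
  have hvμ : v (z' / z) = 1 := val_root_eq_one v hpp.ne_zero hμp
  have e : z - z' = z * (1 - z' / z) := by field_simp
  rw [e, v.map_mul, hvz, one_mul]
  have hρ1 : v (1 - z' / z) ≤ 1 := v.map_sub_le (le_of_eq v.map_one) hvμ.le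
  have hρ0 : v (1 - z' / z) ≠ 0 := by
    rw [v.ne_zero_iff]; intro h; exact hμ1 (sub_eq_zero.mp h).symm
  -- `v p ≤ ρ ^ (p - 1)`
  have hprod : (p : K) = ∏ ν ∈ primitiveRoots p K, (1 - ν) := by
    have h1 := Polynomial.eval_one_cyclotomic_prime (R := K) (p := p)
    rw [Polynomial.cyclotomic_eq_prod_X_sub_primitiveRoots hμ, Polynomial.eval_prod] at h1
    rw [← h1]
    apply Finset.prod_congr rfl
    intro ν _
    simp
  have hle : v (p : K) ≤ v (1 - z' / z) ^ (p - 1) := by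
    rw [hprod, map_prod]
    have hcard : (primitiveRoots p K).card = p - 1 := by
      rw [hμ.card_primitiveRoots, Nat.totient_prime hpp]
    rw [← hcard]
    apply Finset.prod_le_pow_card
    intro ν hν
    have hνp : ν ^ p = 1 := ((mem_primitiveRoots hpp.pos).mp hν).pow_eq_one
    have : NeZero p := ⟨hpp.ne_zero⟩
    obtain ⟨m, -, hm⟩ := hμ.eq_pow_of_pow_eq_one hνp
    rw [← hm, ← mul_neg_geom_sum, v.map_mul]
    calc v (1 - z' / z) * v (∑ i ∈ Finset.range m, (z' / z) ^ i)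
        ≤ v (1 - z' / z) * 1 := by
          gcongr
          apply v.map_sum_le
          intro i _
          rw [v.map_pow, hvμ, one_pow]
      _ = v (1 - z' / z) := mul_one _
  rcases hρ1.lt_or_eq with hlt | heq
  · have hpow : v (1 - z' / z) ^ (p - 1) < v (1 - z' / z) := by
      have h2 : p - 1 = (p - 2) + 1 := by omega
      rw [h2, pow_succ]
      calc v (1 - z' / z) ^ (p - 2) * v (1 - z' / z) < 1 * v (1 - z' / z) := by
            apply mul_lt_mul_of_pos_right _ (lt_of_le_of_ne zero_le hρ0.symm)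
            exact pow_lt_one₀ zero_le hlt (by omega)
        _ = v (1 - z' / z) := one_mul _
    exact lt_of_le_of_lt (le_trans hdp hle) hpow
  · rw [heq]; exact hd1

omit [AddCommGroup G] in
/-- If `g ^ p ≡ 1` modulo `d ^ p`, then `g` is within `v d` of a `p`-th root of unity. -/
theorem exists_root_near_of_pow {p : ℕ} (hpp : p.Prime) {ζ : K} (hζ : IsPrimitiveRoot ζ p)
    {d g : K} (hg : v (g ^ p - 1) ≤ v d ^ p) : ∃ z : K, z ^ p = 1 ∧ v (g - z) ≤ v d := by
  have hne : (Polynomial.nthRootsFinset p (1 : K)).Nonempty :=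
    ⟨1, (Polynomial.mem_nthRootsFinset hpp.pos 1).mpr (one_pow p)⟩
  obtain ⟨z₀, hz₀, hmin⟩ :=
    Finset.exists_min_image (Polynomial.nthRootsFinset p (1 : K)) (fun z => v (g - z)) hne
  refine ⟨z₀, (Polynomial.mem_nthRootsFinset hpp.pos 1).mp hz₀, ?_⟩
  by_contra hlt
  have hlt' : v d < v (g - z₀) := lt_of_not_ge hlt
  have hprod := hζ.pow_sub_pow_eq_prod_sub_mul g 1 hpp.pos
  rw [one_pow] at hprod
  rw [hprod, map_prod] at hg
  have hcard := Finset.pow_card_le_prod (Polynomial.nthRootsFinset p (1 : K))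
    (fun z => v (g - z * 1)) (v (g - z₀)) (fun z hz => by rw [mul_one]; exact hmin z hz)
  rw [hζ.card_nthRootsFinset] at hcard
  have h1 : v d ^ p < v (g - z₀) ^ p := pow_lt_pow_left₀ hlt' zero_le hpp.ne_zero
  exact absurd (le_trans hcard hg) (not_le.mpr h1)

/-! ### The root of unity attached to a `p`-torsion point of `E₀` -/

/-- `z` is a `p`-th root of unity within `v d` of `U T`. -/
def Near (v : Valuation K Γ₀) (X Y : G → K) (β d : K) (p : ℕ) (T : G) (z : K) : Prop :=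
  z ^ p = 1 ∧ v (mulCoord X Y β T - z) ≤ v d

theorem near_zero (β d : K) (p : ℕ) : Near v X Y β d p (0 : G) 1 := by
  refine ⟨one_pow p, ?_⟩
  rw [mulCoord_zero, sub_self, v.map_zero]; exact zero_le

theorem exists_near (hL : IsLegCoord a b X Y) (ha : v a = 1) (hb : v b < 1) (h2 : v 2 = 1)
    {β : K} (hβ : β ^ 2 = a) {p : ℕ} (hpp : p.Prime) {d : K} (hbd : v b = v d ^ p) {ζ : K}
    (hζ : IsPrimitiveRoot ζ p) {T : G} (hTE : T = 0 ∨ 1 ≤ v (X T)) (hpT : p • T = 0) :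
    ∃ z, Near v X Y β d p T z := by
  have h := mulCoord_nsmul v hL ha hb h2 hβ hTE p
  rw [hpT, mulCoord_zero, v.map_sub_swap, hbd] at h
  exact exists_root_near_of_pow v hpp hζ h

theorem near_add (hL : IsLegCoord a b X Y) (ha : v a = 1) (hb : v b < 1) (h2 : v 2 = 1)
    {β : K} (hβ : β ^ 2 = a) {p : ℕ} (hpp : p.Prime) {d : K} (hbd : v b = v d ^ p)
    {T T' : G} (hTE : T = 0 ∨ 1 ≤ v (X T)) (hTE' : T' = 0 ∨ 1 ≤ v (X T')) {z z' : K}
    (h : Near v X Y β d p T z) (h' : Near v X Y β d p T' z') :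
    Near v X Y β d p (T + T') (z * z') := by
  refine ⟨by rw [mul_pow, h.1, h'.1, one_mul], ?_⟩
  have hd1 : v d < 1 := val_d_lt_one v hb hbd
  have hbd' : v b ≤ v d := by rw [hbd]; exact pow_le_of_le_one zero_le hd1.le hpp.ne_zero
  have hadd := mulCoord_add v hL ha hb h2 hβ hTE hTE'
  have hu : v (mulCoord X Y β T) = 1 := val_mulCoord_of_E0 v hL ha hb h2 hβ hTE
  have hz' : v z' = 1 := val_root_eq_one v hpp.ne_zero h'.1
  have e : mulCoord X Y β (T + T') - z * z' =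
      (mulCoord X Y β (T + T') - mulCoord X Y β T * mulCoord X Y β T') +
        (mulCoord X Y β T * (mulCoord X Y β T' - z') + z' * (mulCoord X Y β T - z)) := by ring
  rw [e]
  apply v.map_add_le (le_trans hadd hbd')
  apply v.map_add_le
  · rw [v.map_mul, hu, one_mul]; exact h'.2
  · rw [v.map_mul, hz', one_mul]; exact h.2

theorem near_neg (hL : IsLegCoord a b X Y) (ha : v a = 1) (hb : v b < 1) (h2 : v 2 = 1)
    {β : K} (hβ : β ^ 2 = a) {p : ℕ} (hpp : p.Prime) {d : K}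
    {T : G} (hTE : T = 0 ∨ 1 ≤ v (X T)) {z : K} (h : Near v X Y β d p T z) :
    Near v X Y β d p (-T) z⁻¹ := by
  refine ⟨by rw [inv_pow, h.1, inv_one], ?_⟩
  have hu : v (mulCoord X Y β T) = 1 := val_mulCoord_of_E0 v hL ha hb h2 hβ hTE
  have hz : v z = 1 := val_root_eq_one v hpp.ne_zero h.1
  have hu0 : mulCoord X Y β T ≠ 0 := by rw [← v.ne_zero_iff, hu]; exact one_ne_zero
  have hz0 : z ≠ 0 := by rw [← v.ne_zero_iff, hz]; exact one_ne_zero
  rw [mulCoord_neg hL]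
  have e : (mulCoord X Y β T)⁻¹ - z⁻¹ =
      -((mulCoord X Y β T - z) / (mulCoord X Y β T * z)) := by
    field_simp
    ring
  rw [e, v.map_neg, v.map_div, v.map_mul, hu, hz, one_mul, div_one]; exact h.2

theorem near_nsmul (hL : IsLegCoord a b X Y) (ha : v a = 1) (hb : v b < 1) (h2 : v 2 = 1)
    {β : K} (hβ : β ^ 2 = a) {p : ℕ} (hpp : p.Prime) {d : K} (hbd : v b = v d ^ p)
    {T : G} (hTE : T = 0 ∨ 1 ≤ v (X T)) {z : K} (h : Near v X Y β d p T z) (k : ℕ) :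
    Near v X Y β d p (k • T) (z ^ k) := by
  induction k with
  | zero => rw [zero_nsmul, pow_zero]; exact near_zero v β d p
  | succ k ih =>
    rw [succ_nsmul, pow_succ]
    exact near_add v hL ha hb h2 hβ hpp hbd (mem_E0_nsmul v hL ha hb h2 hTE k) hTE ih h

theorem near_unique (hb : v b < 1) {p : ℕ} (hpp : p.Prime) (hp2 : p ≠ 2) {d : K}
    (hbd : v b = v d ^ p) (hdp : v d ≤ v (p : K)) {β : K} {T : G} {z z' : K}
    (h : Near v X Y β d p T z) (h' : Near v X Y β d p T z') : z = z' := by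
  by_contra hne
  have hd1 := val_d_lt_one v hb hbd
  have hlt := val_lt_val_sub_of_roots v hpp hp2 hd1 hdp h.1 h'.1 hne
  have e : z - z' = (mulCoord X Y β T - z') - (mulCoord X Y β T - z) := by ring
  rw [e] at hlt
  exact absurd (v.map_sub_le h'.2 h.2) (not_le.mpr hlt)

/-- At a point with unit `X`-coordinate, `U - 1` is a unit. -/
theorem val_mulCoord_sub_one_of_unit (hL : IsLegCoord a b X Y) (ha : v a = 1) (hb : v b < 1)
    (h2 : v 2 = 1) {β : K} (hβ : β ^ 2 = a) {T : G} (hT : T ≠ 0) (hx : v (X T) = 1) :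
    v (mulCoord X Y β T - 1) = 1 := by
  obtain ⟨heq, hne0⟩ := val_forms_of_E0 v hL ha hb h2 hβ hT hx.ge
  have hβ1 := val_beta_eq_one v ha hβ
  have hprod : (Y T - β * X T) * (Y T + β * X T) = X T * (X T ^ 2 + b) := by
    linear_combination hL.eqn T hT - X T ^ 2 * hβ
  have hX2b : v (X T ^ 2 + b) = 1 := by
    have : v b < v (X T ^ 2) := by rw [v.map_pow, hx, one_pow]; exact hb
    rw [v.map_add_eq_of_lt_left this, v.map_pow, hx, one_pow]
  have hden : v (Y T + β * X T) = 1 := by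
    apply eq_of_sq_eq_sq'
    rw [one_pow, sq]
    nth_rewrite 1 [← heq]
    rw [← v.map_mul, hprod, v.map_mul, hx, hX2b, one_mul]
  have hden0 : Y T + β * X T ≠ 0 := (v.ne_zero_iff).mp hne0
  have e : mulCoord X Y β T - 1 = -(2 * β * X T) / (Y T + β * X T) := by
    rw [mulCoord_of_ne hT, div_sub_one hden0]; congr 1; ring
  rw [e, v.map_div, hden, div_one, v.map_neg, v.map_mul, v.map_mul, h2, hβ1, hx, one_mul,
    one_mul]

omit [AddCommGroup G] in
theorem val_natCast_ne_zero (hb0 : b ≠ 0) {p : ℕ} (hpp : p.Prime) {d : K}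
    (hbd : v b = v d ^ p) (hdp : v d ≤ v (p : K)) : v (p : K) ≠ 0 := by
  have hb0' : v b ≠ 0 := (v.ne_zero_iff).mpr hb0
  have hd0 : v d ≠ 0 := by
    intro h; rw [h, zero_pow hpp.ne_zero] at hbd; exact hb0' hbd
  intro h; rw [h] at hdp; exact hd0 (le_antisymm hdp zero_le)

/-- A `p`-torsion point of `E₀` whose root of unity is `1` vanishes. -/
theorem eq_zero_of_near_one (hL : IsLegCoord a b X Y) (ha : v a = 1) (hb : v b < 1)
    (hb0 : b ≠ 0) (h2 : v 2 = 1) {β : K} (hβ : β ^ 2 = a) {p : ℕ} (hpp : p.Prime) {d : K}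
    (hbd : v b = v d ^ p) (hdp : v d ≤ v (p : K)) {T : G} (hTE : T = 0 ∨ 1 ≤ v (X T))
    (hpT : p • T = 0) (h : Near v X Y β d p T 1) : T = 0 := by
  by_contra hT
  have hd1 := val_d_lt_one v hb hbd
  have hx : 1 ≤ v (X T) := hTE.resolve_left hT
  rcases hx.lt_or_eq with hlt | heq
  · have hδ := val_mulCoord_sub_one_of_E1 v hL ha hb h2 hβ hT hlt
    have hp := val_natCast_le_sq_of_E1_torsion v hL ha.le hb.le hT hlt hpT
    rw [← hδ] at hp
    have hp0 : v (p : K) ≠ 0 := val_natCast_ne_zero v hb0 hpp hbd hdp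
    have h1 : (1 : Γ₀) * v (p : K) ≤ v d * v (p : K) := by
      calc (1 : Γ₀) * v (p : K) = v (p : K) := one_mul _
        _ ≤ v (mulCoord X Y β T - 1) ^ 2 := hp
        _ = v (mulCoord X Y β T - 1) * v (mulCoord X Y β T - 1) := sq _
        _ ≤ v d * v (p : K) := mul_le_mul' h.2 (le_trans h.2 hdp)
    have h3 := le_of_mul_le_mul_right h1 (lt_of_le_of_ne zero_le hp0.symm)
    exact absurd h3 (not_le.mpr hd1)
  · have h3 := val_mulCoord_sub_one_of_unit v hL ha hb h2 hβ hT heq.symm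
    have h' := h.2
    rw [h3] at h'
    exact absurd h' (not_le.mpr hd1)

theorem near_map (ha : v a = 1) (h2 : v 2 = 1) {β : K} (hβ : β ^ 2 = a) {p : ℕ} {d : K}
    {τ : G →+ G} {s : K →+* K} (hip : IsInertPair v a b d X Y τ s) {T : G} {z : K}
    (h : Near v X Y β d p T z) : Near v X Y β d p (τ T) (s z) := by
  refine ⟨by rw [← map_pow, h.1, map_one], ?_⟩
  rw [mulCoord_map v ha h2 hβ hip, ← map_sub, hip.val]; exact h.2

theorem inertPair_mem_E0 {d : K} {τ : G →+ G} {s : K →+* K}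
    (hip : IsInertPair v a b d X Y τ s) {T : G} (hTE : T = 0 ∨ 1 ≤ v (X T)) :
    τ T = 0 ∨ 1 ≤ v (X (τ T)) := by
  by_cases hT : T = 0
  · left; rw [hT, map_zero]
  · right; rw [hip.mapX T hT, hip.val]; exact hTE.resolve_left hT

/-- Two `p`-torsion points of `E₀` with the same root of unity are equal. -/
theorem eq_of_near (hL : IsLegCoord a b X Y) (ha : v a = 1) (hb : v b < 1)
    (hb0 : b ≠ 0) (h2 : v 2 = 1) {β : K} (hβ : β ^ 2 = a) {p : ℕ} (hpp : p.Prime) {d : K}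
    (hbd : v b = v d ^ p) (hdp : v d ≤ v (p : K)) {T T' : G} (hTE : T = 0 ∨ 1 ≤ v (X T))
    (hTE' : T' = 0 ∨ 1 ≤ v (X T')) (hpT : p • T = 0) (hpT' : p • T' = 0) {z : K}
    (h : Near v X Y β d p T z) (h' : Near v X Y β d p T' z) : T = T' := by
  have hneg := near_neg v hL ha hb h2 hβ hpp hTE' h'
  have hnegE : -T' = 0 ∨ 1 ≤ v (X (-T')) := (E0 v hL ha.le hb h2).neg_mem hTE'
  have hsum := near_add v hL ha hb h2 hβ hpp hbd hTE hnegE h hneg
  have hz0 : z ≠ 0 := by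
    rw [← v.ne_zero_iff, val_root_eq_one v hpp.ne_zero h.1]; exact one_ne_zero
  rw [mul_inv_cancel₀ hz0] at hsum
  have hE : T + -T' = 0 ∨ 1 ≤ v (X (T + -T')) := (E0 v hL ha.le hb h2).add_mem hTE hnegE
  have hp : p • (T + -T') = 0 := by rw [smul_add, smul_neg, hpT, hpT', neg_zero, add_zero]
  have h0 := eq_zero_of_near_one v hL ha hb hb0 h2 hβ hpp hbd hdp hE hp hsum
  have h3 := eq_neg_of_add_eq_zero_left h0
  rwa [neg_neg] at h3

/-- The `p`-torsion of `E₀` is generated by any of its nonzero elements. -/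
theorem exists_nsmul_eq (hL : IsLegCoord a b X Y) (ha : v a = 1) (hb : v b < 1)
    (hb0 : b ≠ 0) (h2 : v 2 = 1) {β : K} (hβ : β ^ 2 = a) {p : ℕ} (hpp : p.Prime) {d : K}
    (hbd : v b = v d ^ p) (hdp : v d ≤ v (p : K)) {ζ : K} (hζ : IsPrimitiveRoot ζ p)
    {v₁ T : G} (hv₁E : v₁ = 0 ∨ 1 ≤ v (X v₁)) (hpv₁ : p • v₁ = 0) (hv₁ : v₁ ≠ 0)
    (hTE : T = 0 ∨ 1 ≤ v (X T)) (hpT : p • T = 0) : ∃ k < p, T = k • v₁ := by
  obtain ⟨z₁, h₁⟩ := exists_near v hL ha hb h2 hβ hpp hbd hζ hv₁E hpv₁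
  obtain ⟨zT, hT⟩ := exists_near v hL ha hb h2 hβ hpp hbd hζ hTE hpT
  have hz₁ : z₁ ≠ 1 := by
    intro h
    rw [h] at h₁
    exact hv₁ (eq_zero_of_near_one v hL ha hb hb0 h2 hβ hpp hbd hdp hv₁E hpv₁ h₁)
  have hfact : Fact p.Prime := ⟨hpp⟩
  have hprim : IsPrimitiveRoot z₁ p := by
    have h := IsPrimitiveRoot.orderOf z₁
    rwa [orderOf_eq_prime h₁.1 hz₁] at h
  have : NeZero p := ⟨hpp.ne_zero⟩
  obtain ⟨k, hk, hkz⟩ := hprim.eq_pow_of_pow_eq_one hT.1
  refine ⟨k, hk, ?_⟩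
  have hk₁ := near_nsmul v hL ha hb h2 hβ hpp hbd hv₁E h₁ k
  rw [hkz] at hk₁
  exact eq_of_near v hL ha hb hb0 h2 hβ hpp hbd hdp hTE (mem_E0_nsmul v hL ha hb h2 hv₁E k)
    hpT (by rw [smul_comm, hpv₁, smul_zero]) hT hk₁

/-- **Cyclotomic action**: an inertia pair with `s ζ = ζ ^ k` multiplies the `p`-torsion of `E₀`
by `k`. -/
theorem map_eq_nsmul (hL : IsLegCoord a b X Y) (ha : v a = 1) (hb : v b < 1)
    (hb0 : b ≠ 0) (h2 : v 2 = 1) {β : K} (hβ : β ^ 2 = a) {p : ℕ} (hpp : p.Prime) {d : K}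
    (hbd : v b = v d ^ p) (hdp : v d ≤ v (p : K)) {ζ : K} (hζ : IsPrimitiveRoot ζ p)
    {τ : G →+ G} {s : K →+* K} (hip : IsInertPair v a b d X Y τ s)
    {v₁ : G} (hv₁E : v₁ = 0 ∨ 1 ≤ v (X v₁)) (hpv₁ : p • v₁ = 0) {k : ℕ} (hk : s ζ = ζ ^ k) :
    τ v₁ = k • v₁ := by
  obtain ⟨z₁, h₁⟩ := exists_near v hL ha hb h2 hβ hpp hbd hζ hv₁E hpv₁
  have : NeZero p := ⟨hpp.ne_zero⟩
  obtain ⟨m, -, hm⟩ := hζ.eq_pow_of_pow_eq_one h₁.1
  have hsz : s z₁ = z₁ ^ k := by
    rw [← hm, map_pow, hk, ← pow_mul, ← pow_mul, mul_comm]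
  have hτ := near_map v ha h2 hβ hip h₁
  rw [hsz] at hτ
  have hk₁ := near_nsmul v hL ha hb h2 hβ hpp hbd hv₁E h₁ k
  exact eq_of_near v hL ha hb hb0 h2 hβ hpp hbd hdp (inertPair_mem_E0 v hip hv₁E)
    (mem_E0_nsmul v hL ha hb h2 hv₁E k) (by rw [← map_nsmul, hpv₁, map_zero])
    (by rw [smul_comm, hpv₁, smul_zero]) hτ hk₁

/-! ### Counting: the component invariant -/

open Classical in
/-- The component invariant of a point: `1` on `E₀`, the component function `cc` elsewhere. -/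
noncomputable def compVal (v : Valuation K Γ₀) (b : K) (X Y : G → K) (β : K) (x : G) : Γ₀ :=
  if x = 0 ∨ 1 ≤ v (X x) then 1 else cc v b X Y β x

theorem compVal_mem (hL : IsLegCoord a b X Y) (ha : v a = 1) (hb : v b < 1) (hb0 : b ≠ 0)
    (h2 : v 2 = 1) {β : K} (hβ : β ^ 2 = a) {T : G} (hT : T ≠ 0) (hTX : X T = 0)
    (hTY : Y T = 0) {p : ℕ} (hpp : p.Prime) (hp2 : p ≠ 2) {d : K} (hbd : v b = v d ^ p)
    {x : G} (hx : p • x = 0) :
    compVal v b X Y β x ∈ (Finset.range p).image (fun j => v d ^ (2 * j)) := by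
  rw [Finset.mem_image]
  by_cases hxE : x = 0 ∨ 1 ≤ v (X x)
  · exact ⟨0, Finset.mem_range.mpr hpp.pos, by unfold compVal; rw [if_pos hxE, mul_zero, pow_zero]⟩
  · have hx0 : x ≠ 0 := fun h => hxE (Or.inl h)
    have hx1 : v (X x) < 1 := lt_of_not_ge (fun h => hxE (Or.inr h))
    obtain ⟨-, j, hj, hcc⟩ := cc_eq_pow v hL ha hb hb0 h2 hβ hT hTX hTY hpp hp2 hbd hx hx0 hx1
    exact ⟨j + 1, Finset.mem_range.mpr hj, by unfold compVal; rw [if_neg hxE, hcc]⟩

theorem compVal_lt_one (hL : IsLegCoord a b X Y) (ha : v a = 1) (hb : v b < 1) (hb0 : b ≠ 0)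
    (h2 : v 2 = 1) {β : K} (hβ : β ^ 2 = a) {T : G} (hT : T ≠ 0) (hTX : X T = 0)
    (hTY : Y T = 0) {p : ℕ} (hpp : p.Prime) (hp2 : p ≠ 2) {d : K} (hbd : v b = v d ^ p)
    {x : G} (hx : p • x = 0) (hxE : ¬ (x = 0 ∨ 1 ≤ v (X x))) : compVal v b X Y β x < 1 := by
  have hx0 : x ≠ 0 := fun h => hxE (Or.inl h)
  have hx1 : v (X x) < 1 := lt_of_not_ge (fun h => hxE (Or.inr h))
  obtain ⟨-, j, -, hcc⟩ := cc_eq_pow v hL ha hb hb0 h2 hβ hT hTX hTY hpp hp2 hbd hx hx0 hx1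
  unfold compVal
  rw [if_neg hxE, hcc]
  exact pow_lt_one₀ zero_le (val_d_lt_one v hb hbd) (by omega)

/-- Two `p`-torsion points with the same component invariant differ by an element of `E₀`. -/
theorem sub_mem_E0_of_compVal_eq (hL : IsLegCoord a b X Y) (ha : v a = 1) (hb : v b < 1)
    (hb0 : b ≠ 0) (h2 : v 2 = 1) {β : K} (hβ : β ^ 2 = a) {T : G} (hT : T ≠ 0)
    (hTX : X T = 0) (hTY : Y T = 0) {p : ℕ} (hpp : p.Prime) (hp2 : p ≠ 2) {d : K}
    (hbd : v b = v d ^ p) {x x' : G} (hx : p • x = 0) (hx' : p • x' = 0)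
    (h : compVal v b X Y β x = compVal v b X Y β x') :
    x - x' = 0 ∨ 1 ≤ v (X (x - x')) := by
  by_cases hxE : x = 0 ∨ 1 ≤ v (X x) <;> by_cases hxE' : x' = 0 ∨ 1 ≤ v (X x')
  · exact (E0 v hL ha.le hb h2).sub_mem hxE hxE'
  · exfalso
    have h1 := compVal_lt_one v hL ha hb hb0 h2 hβ hT hTX hTY hpp hp2 hbd hx' hxE'
    rw [← h] at h1
    unfold compVal at h1
    rw [if_pos hxE] at h1
    exact lt_irrefl _ h1
  · exfalso
    have h1 := compVal_lt_one v hL ha hb hb0 h2 hβ hT hTX hTY hpp hp2 hbd hx hxE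
    rw [h] at h1
    unfold compVal at h1
    rw [if_pos hxE'] at h1
    exact lt_irrefl _ h1
  · by_cases hxx : x = x'
    · left; exact sub_eq_zero.mpr hxx
    have hx0 : x ≠ 0 := fun h => hxE (Or.inl h)
    have hx1 : v (X x) < 1 := lt_of_not_ge (fun h => hxE (Or.inr h))
    have hx0' : x' ≠ 0 := fun h => hxE' (Or.inl h)
    have hx1' : v (X x') < 1 := lt_of_not_ge (fun h => hxE' (Or.inr h))
    have hxb := (cc_eq_pow v hL ha hb hb0 h2 hβ hT hTX hTY hpp hp2 hbd hx hx0 hx1).1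
    have hxb' := (cc_eq_pow v hL ha hb hb0 h2 hβ hT hTX hTY hpp hp2 hbd hx' hx0' hx1').1
    unfold compVal at h
    rw [if_neg hxE, if_neg hxE'] at h
    have hnn := not_node_of_cc_eq v hL ha hb hb0 h2 hβ hx0' hx0 (Ne.symm hxx) hxb' hx1' hxb hx1 h
    by_contra hnE
    have hD0 : x - x' ≠ 0 := fun h0 => hnE (Or.inl h0)
    have hD1 : v (X (x - x')) < 1 := lt_of_not_ge (fun h1 => hnE (Or.inr h1))
    have hpD : p • (x - x') = 0 := by rw [smul_sub, hx, hx', sub_zero]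
    have hDb := (cc_eq_pow v hL ha hb hb0 h2 hβ hT hTX hTY hpp hp2 hbd hpD hD0 hD1).1
    exact hnn ⟨hDb, hD1⟩

/-- **The W-side, abstract form.** If the `p`-torsion of `G` has `p ^ 2` elements, then:
* the `p`-torsion of `E₀` is a line `⟨v₁⟩` on which inertia pairs act through the cyclotomic
  character (`s ζ = ζ ^ k → τ v₁ = k • v₁`);
* `τ x - x ∈ ⟨v₁⟩` for every `p`-torsion point `x` and every inertia pair;
* the `p`-torsion is generated by `v₁` and a point `c₂ ∉ ⟨v₁⟩`;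
* there is a unit `u`, fixed by all inertia pairs, and a `p`-th root `w` of `u` such that every
  inertia pair fixing `w` fixes `c₂`, and every inertia pair fixing `w` and `ζ` fixes the whole
  `p`-torsion. -/
theorem w_side (hL : IsLegCoord a b X Y) (ha : v a = 1) (hb : v b < 1) (hb0 : b ≠ 0)
    (h2 : v 2 = 1) {β : K} (hβ : β ^ 2 = a) {T : G} (hT : T ≠ 0) (hTX : X T = 0)
    (hTY : Y T = 0) {p : ℕ} (hpp : p.Prime) (hp2 : p ≠ 2)
    {d : K} (hbd : v b = v d ^ p) (hdp : v d ≤ v (p : K)) {ζ : K} (hζ : IsPrimitiveRoot ζ p)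
    (hsq : ∀ c : K, ∃ r, r ^ 2 = c) (hroot : ∀ c : K, ∃ r, r ^ p = c)
    (hpt : ∀ ξ η : K, η ^ 2 = ξ ^ 3 + a * ξ ^ 2 + b * ξ → ∃ Q : G, Q ≠ 0 ∧ X Q = ξ ∧ Y Q = η)
    (I : (G →+ G) → (K →+* K) → Prop) (hI : ∀ τ s, I τ s → IsInertPair v a b d X Y τ s)
    (hcard : {x : G | p • x = 0}.ncard = p ^ 2) :
    ∃ v₁ : G, v₁ ≠ 0 ∧ p • v₁ = 0 ∧
      (∀ τ s, I τ s → ∀ k : ℕ, s ζ = ζ ^ k → τ v₁ = k • v₁) ∧
      (∀ τ s, I τ s → ∀ x, p • x = 0 → ∃ k : ℕ, τ x - x = k • v₁) ∧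
      ∃ c₂ : G, p • c₂ = 0 ∧ (∀ k : ℕ, c₂ ≠ k • v₁) ∧
        (∀ x, p • x = 0 → ∃ k m : ℕ, x = k • c₂ + m • v₁) ∧
        ∃ u w : K, v u = 1 ∧ w ^ p = u ∧ (∀ τ s, I τ s → s u = u) ∧
          (∀ τ s, I τ s → s w = w → τ c₂ = c₂) ∧
          (∀ τ s, I τ s → s ζ = ζ → s w = w → ∀ x, p • x = 0 → τ x = x) := by
  classical
  have hp2le : 2 ≤ p := hpp.two_le
  have hbp := val_b_sq_lt v hb hb0 hpp hbd hdp
  have hRcard : ((Finset.range p).image (fun j => v d ^ (2 * j))).card ≤ p := by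
    calc ((Finset.range p).image (fun j => v d ^ (2 * j))).card ≤ (Finset.range p).card :=
          Finset.card_image_le
      _ = p := Finset.card_range p
  have hmemR : ∀ x : G, p • x = 0 →
      compVal v b X Y β x ∈ (Finset.range p).image (fun j => v d ^ (2 * j)) := fun x hx =>
    compVal_mem v hL ha hb hb0 h2 hβ hT hTX hTY hpp hp2 hbd hx
  have hpp2 : p < p ^ 2 := by nlinarith
  -- Step 1: a nonzero `p`-torsion point of `E₀`
  obtain ⟨v₁, hv₁, hpv₁, hv₁E⟩ : ∃ v₁ : G, v₁ ≠ 0 ∧ p • v₁ = 0 ∧ (v₁ = 0 ∨ 1 ≤ v (X v₁)) := by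
    by_contra hcon
    have hinj : Set.InjOn (compVal v b X Y β) {x : G | p • x = 0} := by
      intro x hx x' hx' h
      have h1 := sub_mem_E0_of_compVal_eq v hL ha hb hb0 h2 hβ hT hTX hTY hpp hp2 hbd hx hx' h
      by_contra hne
      exact hcon ⟨x - x', sub_ne_zero.mpr hne, by rw [smul_sub, hx, hx', sub_zero], h1⟩
    have hle : {x : G | p • x = 0}.ncard ≤
        (((Finset.range p).image (fun j => v d ^ (2 * j)) : Finset Γ₀) : Set Γ₀).ncard :=
      Set.ncard_le_ncard_of_injOn (compVal v b X Y β) (fun x hx => hmemR x hx) hinj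
        (Finset.finite_toSet _)
    rw [hcard, Set.ncard_coe_finset] at hle
    omega
  refine ⟨v₁, hv₁, hpv₁, ?_, ?_, ?_⟩
  · intro τ s hτs k hk
    exact map_eq_nsmul v hL ha hb hb0 h2 hβ hpp hbd hdp hζ (hI τ s hτs) hv₁E hpv₁ hk
  · intro τ s hτs x hx
    have hip := hI τ s hτs
    have hyE1 : InE1 v X (τ x - x) :=
      node_sub_mem v hL ha hb hb0 h2 hβ hT hTX hTY hpp hp2 τ hip.ne_zero s hip.mapX hip.mapY
        hip.close hip.val hip.fix_d hbd hx
    have hyE : τ x - x = 0 ∨ 1 ≤ v (X (τ x - x)) := hyE1.imp id le_of_lt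
    have hpy : p • (τ x - x) = 0 := by rw [smul_sub, ← map_nsmul, hx, map_zero, sub_zero]
    obtain ⟨k, -, hk⟩ :=
      exists_nsmul_eq v hL ha hb hb0 h2 hβ hpp hbd hdp hζ hv₁E hpv₁ hv₁ hyE hpy
    exact ⟨k, hk⟩
  -- Step 3: a `p`-torsion point outside `E₀`
  obtain ⟨c₂, hpc₂, hc₂E⟩ : ∃ c₂ : G, p • c₂ = 0 ∧ ¬ (c₂ = 0 ∨ 1 ≤ v (X c₂)) := by
    by_contra hcon
    have hsub : {x : G | p • x = 0} ⊆ ((Finset.range p).image (fun k => k • v₁) : Set G) := by
      intro x hx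
      have hxE : x = 0 ∨ 1 ≤ v (X x) := by
        by_contra hxE; exact hcon ⟨x, hx, hxE⟩
      obtain ⟨k, hk, hkx⟩ :=
        exists_nsmul_eq v hL ha hb hb0 h2 hβ hpp hbd hdp hζ hv₁E hpv₁ hv₁ hxE hx
      exact Finset.mem_coe.mpr (Finset.mem_image.mpr ⟨k, Finset.mem_range.mpr hk, hkx.symm⟩)
    have hle : {x : G | p • x = 0}.ncard ≤
        (((Finset.range p).image (fun k => k • v₁) : Finset G) : Set G).ncard :=
      Set.ncard_le_ncard hsub (Finset.finite_toSet _)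
    rw [hcard, Set.ncard_coe_finset] at hle
    have h3 := Finset.card_image_le (s := Finset.range p) (f := fun k => k • v₁)
    rw [Finset.card_range] at h3
    omega
  have hc₂ne : ∀ k : ℕ, c₂ ≠ k • v₁ := by
    intro k hk
    apply hc₂E
    rw [hk]
    exact mem_E0_nsmul v hL ha hb h2 hv₁E k
  -- Step 4: the `p`-torsion is generated by `c₂` and `v₁`
  have hspan : ∀ x, p • x = 0 → ∃ k m : ℕ, x = k • c₂ + m • v₁ := by
    intro x hx
    have key : ∀ k k' : ℕ, k < p → k' < k →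
        compVal v b X Y β (k • c₂) = compVal v b X Y β (k' • c₂) → False := by
      intro k k' hk hk' h
      have hpk : p • (k • c₂) = 0 := by rw [smul_comm, hpc₂, smul_zero]
      have hpk' : p • (k' • c₂) = 0 := by rw [smul_comm, hpc₂, smul_zero]
      have h1 := sub_mem_E0_of_compVal_eq v hL ha hb hb0 h2 hβ hT hTX hTY hpp hp2 hbd hpk hpk' h
      have e : k • c₂ - k' • c₂ = (k - k') • c₂ := by
        rw [sub_eq_iff_eq_add, ← add_nsmul, Nat.sub_add_cancel hk'.le]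
      rw [e] at h1
      have hnd : ¬ p ∣ (k - k') := Nat.not_dvd_of_pos_of_lt (by omega) (by omega)
      exact hc₂E ((mem_E0_iff v hL ha.le hb h2).mp
        (mem_of_nsmul_mem hpp hnd hpc₂ ((mem_E0_iff v hL ha.le hb h2).mpr h1)))
    have hinj : Set.InjOn (fun k : ℕ => compVal v b X Y β (k • c₂))
        (Finset.range p : Set ℕ) := by
      intro k hk k' hk' h
      have hk1 : k < p := Finset.mem_range.mp (Finset.mem_coe.mp hk)
      have hk1' : k' < p := Finset.mem_range.mp (Finset.mem_coe.mp hk')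
      rcases lt_trichotomy k k' with hlt | heq | hgt
      · exact (key k' k hk1' hlt h.symm).elim
      · exact heq
      · exact (key k k' hk1 hgt h).elim
    have himg : (Finset.range p).image (fun k : ℕ => compVal v b X Y β (k • c₂)) =
        (Finset.range p).image (fun j => v d ^ (2 * j)) := by
      apply Finset.eq_of_subset_of_card_le
      · intro y hy
        obtain ⟨k, -, rfl⟩ := Finset.mem_image.mp hy
        exact hmemR _ (by rw [smul_comm, hpc₂, smul_zero])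
      · rw [Finset.card_image_of_injOn hinj, Finset.card_range]; exact hRcard
    have hxR := hmemR x hx
    rw [← himg] at hxR
    obtain ⟨k, -, hk⟩ := Finset.mem_image.mp hxR
    have hpk : p • (k • c₂) = 0 := by rw [smul_comm, hpc₂, smul_zero]
    have h1 := sub_mem_E0_of_compVal_eq v hL ha hb hb0 h2 hβ hT hTX hTY hpp hp2 hbd hx hpk hk.symm
    have hp1 : p • (x - k • c₂) = 0 := by rw [smul_sub, hx, hpk, sub_zero]
    obtain ⟨m, -, hm⟩ :=
      exists_nsmul_eq v hL ha hb hb0 h2 hβ hpp hbd hdp hζ hv₁E hpv₁ hv₁ h1 hp1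
    exact ⟨k, m, by rw [← hm]; abel⟩
  refine ⟨c₂, hpc₂, hc₂ne, hspan, ?_⟩
  -- Step 5: the unit and its root
  obtain ⟨Q, hQfix, hPE⟩ :=
    exists_fixed_close v hL ha hb hb0 h2 hβ hT hTX hTY hpp hp2 hbd hsq hpt I hI hpc₂
  obtain ⟨w₀, hw₀⟩ := hroot (mulCoord X Y β (p • (c₂ - Q)))
  obtain ⟨hw₀v, hg⟩ := val_pow_sub_one_le v hL ha hb h2 hβ hpp hPE hw₀
  rw [hbd] at hg
  obtain ⟨z, hz, hzle⟩ := exists_root_near_of_pow v hpp hζ hg
  have hzv : v z = 1 := val_root_eq_one v hpp.ne_zero hz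
  have hz0 : z ≠ 0 := by rw [← v.ne_zero_iff, hzv]; exact one_ne_zero
  have hpPE := mem_E0_nsmul v hL ha hb h2 hPE p
  have hu1 : v (mulCoord X Y β (p • (c₂ - Q))) = 1 := val_mulCoord_of_E0 v hL ha hb h2 hβ hpPE
  have e1 : p • (c₂ - Q) = -(p • Q) := by rw [smul_sub, hpc₂, zero_sub]
  have hwv : v (w₀ * z) = 1 := by rw [v.map_mul, hw₀v, hzv, one_mul]
  have hnear : v (mulCoord X Y β (c₂ - Q) / (w₀ * z) - 1) ≤ v d := by
    have hw₀0 : w₀ ≠ 0 := by rw [← v.ne_zero_iff, hw₀v]; exact one_ne_zero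
    have e : mulCoord X Y β (c₂ - Q) / (w₀ * z) - 1 =
        (mulCoord X Y β (c₂ - Q) / w₀ - z) / z := by
      field_simp
    rw [e, v.map_div, hzv, div_one]; exact hzle
  have hK0 : ∀ τ s, I τ s → s (w₀ * z) = w₀ * z → τ c₂ = c₂ := by
    intro τ s hτs hsw
    have hip := hI τ s hτs
    by_contra hne
    obtain ⟨-, hpδ, hδ1⟩ :=
      delta_facts v hL ha hb hb0 h2 hβ hT hTX hTY hpp hp2 hbd hip hpc₂ hne
    have hle := val_delta_le v hL ha hb hb0 h2 hβ hT hTX hTY hpp hp2 hbp hbd hip hpc₂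
      (hQfix τ s hτs) hPE hwv hsw (map_one s) hne
    have hδd := le_trans hle hnear
    have hp0 := val_natCast_ne_zero v hb0 hpp hbd hdp
    have h1 : (1 : Γ₀) * v (p : K) ≤ v (mulCoord X Y β (τ c₂ - c₂) - 1) * v (p : K) := by
      calc (1 : Γ₀) * v (p : K) = v (p : K) := one_mul _
        _ ≤ v (mulCoord X Y β (τ c₂ - c₂) - 1) ^ 2 := hpδ
        _ = v (mulCoord X Y β (τ c₂ - c₂) - 1) * v (mulCoord X Y β (τ c₂ - c₂) - 1) := sq _
        _ ≤ v (mulCoord X Y β (τ c₂ - c₂) - 1) * v (p : K) :=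
            mul_le_mul' le_rfl (le_trans hδd hdp)
    have h3 := le_of_mul_le_mul_right h1 (lt_of_le_of_ne zero_le hp0.symm)
    exact absurd h3 (not_le.mpr hδ1)
  refine ⟨mulCoord X Y β (p • (c₂ - Q)), w₀ * z, hu1, by rw [mul_pow, hw₀, hz, mul_one], ?_,
    hK0, ?_⟩
  · intro τ s hτs
    have hip := hI τ s hτs
    rw [← mulCoord_map v ha h2 hβ hip]
    congr 1
    rw [e1, map_neg, map_nsmul, hQfix τ s hτs]
  · intro τ s hτs hsζ hsw x hx
    obtain ⟨k, m, rfl⟩ := hspan x hx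
    have h1 : τ c₂ = c₂ := hK0 τ s hτs hsw
    have h3 : τ v₁ = 1 • v₁ :=
      map_eq_nsmul v hL ha hb hb0 h2 hβ hpp hbd hdp hζ (hI τ s hτs) hv₁E hpv₁
        (by rw [pow_one]; exact hsζ)
    rw [one_nsmul] at h3
    rw [map_add, map_nsmul, map_nsmul, h1, h3]

end Abstract

end Fermat.Agent.S44.helper2442
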