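import Fermat.Agent.S13.helper1633_LocalAtP
import Fermat.Agent.S44.helper2442_LegUnit

set_option autoImplicit false

/-!
# S44, module L9 (W-side at `p`), the Frey instance (helper2301)

Split of the L9 work (team chat, helper2442): the abstract "peu ramifie" core on
`helper245.IsLegCoord` groups is helper2442's `peu_point` (`S44/helper2442_LegUnit`); this file
is the FREY INSTANCE.

* `LocalPeu` : the local theorem for Legendre models `Y² = X³ + a₂ X² + a₄ X` over `ℚ` at a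
  valuation subring `A` of `ℚ̄` over an odd prime `p` with `v a₂ = 1`, `v a₄ = v d ^ p`,
  `v d ≤ v p`: for every `p`-torsion point `x` there is an inertia-fixed unit `u` of `A` such that
  every inertia element fixing the `p`-th roots of unity and one `p`-th root of `u` fixes `x`.
* `localPeu : LocalPeu` (instance of `helper2442.peu_point`).
* `frey_peu_point` : the same statement for the Frey curve of a Frey package with `p ∣ a b c`,
  at every `A` over `p` (frozen vocabulary), and `frey_peu_torsion` (subtype form).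
-/

namespace Fermat.Agent.S44.helper2301

open WeierstrassCurve WeierstrassCurve.Affine WeierstrassCurve.Affine.Point
open Fermat.Agent.S05.helper245 Fermat.Agent.S05.helper725 Fermat.Agent.S05.helper1445
open Fermat.Agent.S13.helper1633

local notation "Qbar" => AlgebraicClosure ℚ

/-- The local "peu ramifie" theorem for Legendre models over `ℚ` at the residue
characteristic. -/
def LocalPeu : Prop :=
  ∀ (A : ValuationSubring Qbar) (W : WeierstrassCurve ℚ),
    W.a₁ = 0 → W.a₃ = 0 → W.a₆ = 0 → W.a₄ ≠ 0 →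
    A.valuation (algebraMap ℚ Qbar W.a₂) = 1 →
    A.valuation (algebraMap ℚ Qbar W.a₄) < 1 →
    A.valuation (2 : Qbar) = 1 →
    ∀ p : ℕ, p.Prime → p ≠ 2 →
    ∀ d : ℚ, A.valuation (algebraMap ℚ Qbar W.a₄) = A.valuation (algebraMap ℚ Qbar d) ^ p →
    A.valuation (algebraMap ℚ Qbar d) ≤ A.valuation (p : Qbar) →
    A.valuation (p : Qbar) < 1 →
    ∀ x : (W⁄Qbar).Point, p • x = 0 →
    ∃ u : Qbar, A.valuation u = 1 ∧ (∀ σ ∈ A.inertiaSubgroupIn ℚ, σ u = u) ∧
      ∀ σ ∈ A.inertiaSubgroupIn ℚ, (∀ z : Qbar, z ^ p = 1 → σ z = z) →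
        ∀ w : Qbar, w ^ p = u → σ w = w → σ • x = x

section Val

/-- An integer divisible by `p` has valuation at most that of `p`. -/
theorem valuation_intCast_le_of_dvd (A : ValuationSubring Qbar) {p : ℕ} {n : ℤ}
    (h : (p : ℤ) ∣ n) : A.valuation (n : Qbar) ≤ A.valuation (p : Qbar) := by
  obtain ⟨k, rfl⟩ := h
  have hk : A.valuation ((k : ℤ) : Qbar) ≤ 1 := (A.valuation_le_one_iff _).mpr (intCast_mem' A k)
  have e : (((p : ℤ) * k : ℤ) : Qbar) = (p : Qbar) * (k : Qbar) := by push_cast; ring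
  rw [e, map_mul]
  exact mul_le_of_le_one_right' hk

end Val

section Core

/-- Every affine solution of `Y² = X³ + a X² + b X` is a nonsingular point as soon as
`b ≠ 0` and `a² ≠ 4 b` (characteristic zero). -/
theorem nonsingular_of_eqn {W : Affine Qbar} (e₁ : W.a₁ = 0) (e₃ : W.a₃ = 0) (e₆ : W.a₆ = 0)
    (hb0 : W.a₄ ≠ 0) (hdisc : W.a₂ ^ 2 ≠ 4 * W.a₄) {ξ η : Qbar}
    (h : η ^ 2 = ξ ^ 3 + W.a₂ * ξ ^ 2 + W.a₄ * ξ) : W.Nonsingular ξ η := by
  rw [nonsingular_iff]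
  refine ⟨?_, ?_⟩
  · rw [equation_iff, e₁, e₃, e₆]
    linear_combination h
  · rw [e₁, e₃]
    by_contra hcon
    push Not at hcon
    obtain ⟨h1, h2⟩ := hcon
    have hη : η = 0 := by
      have : (2 : Qbar) * η = 0 := by linear_combination h2
      rcases mul_eq_zero.mp this with h' | h'
      · exact absurd h' two_ne_zero
      · exact h'
    rw [hη] at h
    have h3 : ξ * (ξ ^ 2 + W.a₂ * ξ + W.a₄) = 0 := by linear_combination -h
    rcases mul_eq_zero.mp h3 with hξ | hq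
    · rw [hξ] at h1
      apply hb0
      linear_combination -h1
    · -- `ξ² + aξ + b = 0` and `3ξ² + 2aξ + b = 0`
      have h4 : ξ * (2 * ξ + W.a₂) = 0 := by linear_combination -h1 - hq
      rcases mul_eq_zero.mp h4 with hξ | hξ
      · rw [hξ] at hq
        apply hb0
        linear_combination hq
      · apply hdisc
        have hξ' : ξ = -W.a₂ / 2 := by
          field_simp
          linear_combination hξ
        rw [hξ'] at hq
        field_simp at hq
        linear_combination -hq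

/-- **The local theorem** for Legendre models over `ℚ` (instance of the abstract core
`helper2442.peu_point`). -/
theorem localPeu : LocalPeu := by
  intro A W h₁ h₃ h₆ h₄ hva hvb h2 p hp hp2 d hbd hdp hvp x hx
  have e₁ : (W⁄Qbar).a₁ = 0 := by simp [WeierstrassCurve.baseChange, h₁]
  have e₃ : (W⁄Qbar).a₃ = 0 := by simp [WeierstrassCurve.baseChange, h₃]
  have e₆ : (W⁄Qbar).a₆ = 0 := by simp [WeierstrassCurve.baseChange, h₆]
  have e₂ : (W⁄Qbar).a₂ = algebraMap ℚ Qbar W.a₂ := by simp [WeierstrassCurve.baseChange]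
  have e₄ : (W⁄Qbar).a₄ = algebraMap ℚ Qbar W.a₄ := by simp [WeierstrassCurve.baseChange]
  have hLc := isLegCoord_of_short (W := (W⁄Qbar)) e₁ e₃ e₆
  rw [e₂, e₄] at hLc
  have hb0 : algebraMap ℚ Qbar W.a₄ ≠ 0 := by
    rw [Ne, map_eq_zero]; exact h₄
  obtain ⟨β, hβ⟩ := IsAlgClosed.exists_pow_nat_eq (algebraMap ℚ Qbar W.a₂) (n := 2)
    (by norm_num)
  have hT : (W⁄Qbar).Nonsingular 0 0 := by
    rw [nonsingular_zero]
    exact ⟨e₆, Or.inr (by rw [e₄]; exact hb0)⟩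
  have hT0 : Point.some 0 0 hT ≠ 0 := Point.some_ne_zero _
  -- a primitive `p`-th root of unity
  have : NeZero ((p : ℕ) : ℚ) := ⟨by exact_mod_cast hp.ne_zero⟩
  obtain ⟨ζ, hζ⟩ := HasEnoughRootsOfUnity.exists_primitiveRoot Qbar p
  -- `v b ^ 2 < v p ^ p`
  have hp0 : (p : Qbar) ≠ 0 := by exact_mod_cast hp.ne_zero
  have hvp0 : 0 < A.valuation (p : Qbar) := by
    rw [Valuation.pos_iff]; exact hp0
  have hpp0 : 0 < A.valuation (p : Qbar) ^ p := pow_pos hvp0 p
  have hpp1 : A.valuation (p : Qbar) ^ p < 1 := pow_lt_one₀ zero_le hvp hp.ne_zero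
  have hbp : A.valuation (algebraMap ℚ Qbar W.a₄) ^ 2 < A.valuation (p : Qbar) ^ p := by
    rw [hbd]
    calc (A.valuation (algebraMap ℚ Qbar d) ^ p) ^ 2
        ≤ (A.valuation (p : Qbar) ^ p) ^ 2 :=
          pow_le_pow_left₀ zero_le (pow_le_pow_left₀ zero_le hdp p) 2
      _ = A.valuation (p : Qbar) ^ p * A.valuation (p : Qbar) ^ p := sq _
      _ < A.valuation (p : Qbar) ^ p := mul_lt_of_lt_one_right hpp0 hpp1
  have hsq : ∀ c : Qbar, ∃ r : Qbar, r ^ 2 = c := fun c =>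
    IsAlgClosed.exists_pow_nat_eq c (n := 2) (by norm_num)
  -- `a² ≠ 4 b`
  have hdisc : (W⁄Qbar).a₂ ^ 2 ≠ 4 * (W⁄Qbar).a₄ := by
    rw [e₂, e₄]
    intro h
    have h1 : A.valuation ((algebraMap ℚ Qbar W.a₂) ^ 2) = 1 := by rw [map_pow, hva, one_pow]
    have h4 : A.valuation (4 * algebraMap ℚ Qbar W.a₄) < 1 := by
      rw [map_mul]
      calc A.valuation 4 * A.valuation (algebraMap ℚ Qbar W.a₄)
          ≤ 1 * A.valuation (algebraMap ℚ Qbar W.a₄) := by
            gcongr; exact val_four_le_one _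
        _ = A.valuation (algebraMap ℚ Qbar W.a₄) := one_mul _
        _ < 1 := hvb
    rw [h] at h1
    exact absurd h1 (ne_of_lt h4)
  have hpt : ∀ ξ η : Qbar, η ^ 2 = ξ ^ 3 + algebraMap ℚ Qbar W.a₂ * ξ ^ 2
      + algebraMap ℚ Qbar W.a₄ * ξ →
      ∃ Q : (W⁄Qbar).Point, Q ≠ 0 ∧ ptX Q = ξ ∧ ptY Q = η := by
    intro ξ η h
    have hns : (W⁄Qbar).Nonsingular ξ η :=
      nonsingular_of_eqn e₁ e₃ e₆ (by rw [e₄]; exact hb0) hdisc (by rw [e₂, e₄]; exact h)
    exact ⟨Point.some ξ η hns, Point.some_ne_zero _, rfl, rfl⟩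
  -- the inertia pairs
  let I : ((W⁄Qbar).Point →+ (W⁄Qbar).Point) → (Qbar →+* Qbar) → Prop := fun τ s =>
    ∃ σ : Qbar ≃ₐ[ℚ] Qbar, σ ∈ A.inertiaSubgroupIn ℚ ∧
      τ = Point.map (W' := W) σ.toAlgHom ∧ s = (σ : Qbar →+* Qbar)
  have hI : ∀ τ s, I τ s → Fermat.Agent.S44.helper2442.IsInertPair A.valuation
      (algebraMap ℚ Qbar W.a₂) (algebraMap ℚ Qbar W.a₄) (algebraMap ℚ Qbar d)
      (ptX (W := (W⁄Qbar))) (ptY (W := (W⁄Qbar))) τ s := by
    rintro τ s ⟨σ, hσ, rfl, rfl⟩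
    obtain ⟨-, hσ2⟩ := inertia_facts hσ
    refine ⟨?_, ?_, ?_, ?_, ?_, σ.commutes _, σ.commutes _, σ.commutes _⟩
    · intro Q hQ
      cases Q with
      | zero => exact absurd rfl hQ
      | some x y h => rw [Point.map_some]; exact Point.some_ne_zero _
    · intro Q hQ
      cases Q with
      | zero => exact absurd rfl hQ
      | some x y h => rw [Point.map_some]; rfl
    · intro Q hQ
      cases Q with
      | zero => exact absurd rfl hQ
      | some x y h => rw [Point.map_some]; rfl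
    · intro u hu
      exact (A.mem_nonunits_iff).mp (hσ2 u ((A.valuation_le_one_iff u).mp hu))
    · intro u
      exact Fermat.Agent.S05.helper2200.valuation_apply A hσ u
  obtain ⟨u, hu1, hu2, hu3⟩ := Fermat.Agent.S44.helper2442.peu_point A.valuation hLc hva hvb
    hb0 h2 hβ hT0 rfl rfl hp hp2 hbp hbd hζ hsq hpt I hI hx
  refine ⟨u, hu1, fun σ hσ => hu2 _ _ ⟨σ, hσ, rfl, rfl⟩, fun σ hσ hz w hw hσw => ?_⟩
  rw [algEquiv_smul_def]
  exact hu3 _ _ ⟨σ, hσ, rfl, rfl⟩ (hz ζ hζ.pow_eq_one) w hw hσw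

end Core

section Legendre

/-- The local theorem for the Legendre model `Y² = X³ + a₂ X² + e w^p X` with integer data
`p ∤ a₂`, `p ∣ w`, at a valuation subring over the odd prime `p`. -/
theorem legendre_peu {p : ℕ} (hp : p.Prime) (hp2 : p ≠ 2)
    (a₂ w : ℤ) (hw : w ≠ 0) (e : ℤ) (he : e = 1 ∨ e = -1) (ha₂ : ¬ (p : ℤ) ∣ a₂)
    (hpw : (p : ℤ) ∣ w) (A : ValuationSubring Qbar) (hA : A.LiesOverPrime p)
    (Q : ((legendreModel (a₂ : ℚ) ((e : ℚ) * (w : ℚ) ^ p))⁄Qbar).Point) (hQ : p • Q = 0) :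
    ∃ u : Qbar, A.valuation u = 1 ∧ (∀ σ ∈ A.inertiaSubgroupIn ℚ, σ u = u) ∧
      ∀ σ ∈ A.inertiaSubgroupIn ℚ, (∀ z : Qbar, z ^ p = 1 → σ z = z) →
        ∀ y : Qbar, y ^ p = u → σ y = y → σ • Q = Q := by
  have hA' : (p : Qbar) ∈ A.nonunits := hA
  have he0 : (e : ℚ) ≠ 0 := by
    rcases he with rfl | rfl <;> norm_num
  have hve : A.valuation ((e : ℤ) : Qbar) = 1 := by
    rcases he with rfl | rfl <;> simp
  have hvp : A.valuation (p : Qbar) < 1 := (A.mem_nonunits_iff).mp hA'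
  have hvw : A.valuation ((w : ℤ) : Qbar) ≤ A.valuation (p : Qbar) :=
    valuation_intCast_le_of_dvd A hpw
  refine localPeu A (legendreModel (a₂ : ℚ) ((e : ℚ) * (w : ℚ) ^ p)) rfl rfl rfl ?_ ?_ ?_
    (valuation_two_eq_one A hp hA' hp2) p hp hp2 (w : ℚ) ?_ ?_ hvp Q hQ
  · simp only [legendreModel_a₄]
    exact mul_ne_zero he0 (pow_ne_zero _ (by exact_mod_cast hw))
  · simp only [legendreModel_a₂, map_intCast]
    exact valuation_intCast_eq_one A hp hA' ha₂
  · simp only [legendreModel_a₄, map_mul, map_pow, map_intCast]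
    rw [hve, one_mul]
    calc A.valuation ((w : ℤ) : Qbar) ^ p ≤ A.valuation (p : Qbar) ^ p :=
          pow_le_pow_left₀ zero_le hvw p
      _ < 1 := pow_lt_one₀ zero_le hvp hp.ne_zero
  · simp only [legendreModel_a₄, map_mul, map_pow, map_intCast]
    rw [hve, one_mul]
  · simpa using hvw

end Legendre

section Frey

/-- **Frey instance of the "peu ramifie" point theorem** (frozen vocabulary): for a Frey package
with `p ∣ a b c`, a valuation subring `A` of `ℚ̄` over `p` and a `p`-torsion point `x` of the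
Frey curve there is an inertia-fixed unit `u` of `A` such that every `σ ∈ I_A` fixing `μ_p` and
one `p`-th root of `u` fixes `x`. -/
theorem frey_peu_point (P : FreyPackage)
    (hdvd : (P.p : ℤ) ∣ P.a * P.b * P.c)
    (A : ValuationSubring Qbar) (hA : A.LiesOverPrime P.p)
    (x : (P.freyCurve⁄Qbar).Point) (hx : P.p • x = 0) :
    ∃ u : Qbar, A.valuation u = 1 ∧ (∀ σ ∈ A.inertiaSubgroupIn ℚ, σ u = u) ∧
      ∀ σ ∈ A.inertiaSubgroupIn ℚ, (∀ z : Qbar, z ^ P.p = 1 → σ z = z) →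
        ∀ y : Qbar, y ^ P.p = u → σ y = y → σ • x = x := by
  have hp2 : P.p ≠ 2 := by have := P.hp5; omega
  have hpZ : Prime (P.p : ℤ) := Nat.prime_iff_prime_int.mp P.pp
  by_cases hc : (P.p : ℤ) ∣ P.c
  · -- `p ∣ c`: shifted model `Y² = X (X + a^p) (X + c^p)`
    have ha : ¬ (P.p : ℤ) ∣ P.a :=
      not_dvd_of_gcd_eq_one P.pp (by rw [gcd_comm]; exact P.hgcdac) hc
    have ha₂ : ¬ (P.p : ℤ) ∣ P.a ^ P.p + P.c ^ P.p := by
      intro h
      have h1 : (P.p : ℤ) ∣ P.c ^ P.p := dvd_pow hc P.hp0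
      have h2 : (P.p : ℤ) ∣ P.a ^ P.p := (dvd_add_left h1).mp h
      exact ha (hpZ.dvd_of_dvd_pow h2)
    have hx' : P.p • vcHom (varChangeC P) x = 0 := by rw [← map_nsmul, hx, _root_.map_zero]
    have e1 : (((P.a ^ P.p + P.c ^ P.p : ℤ) : ℚ)) = (P.a : ℚ) ^ P.p + (P.c : ℚ) ^ P.p := by
      push_cast; ring
    have e2 : ((1 : ℤ) : ℚ) * ((P.a * P.c : ℤ) : ℚ) ^ P.p
        = (P.a : ℚ) ^ P.p * (P.c : ℚ) ^ P.p := by
      push_cast; ring
    have key := legendre_peu P.pp hp2 (P.a ^ P.p + P.c ^ P.p) (P.a * P.c)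
      (mul_ne_zero P.ha0 P.hc0) 1 (Or.inl rfl) ha₂ (Dvd.dvd.mul_left hc _) A hA
    rw [e1, e2] at key
    obtain ⟨u, hu1, hu2, hu3⟩ := key _ hx'
    refine ⟨u, hu1, hu2, fun σ hσ hz y hy hσy => ?_⟩
    apply vcHom_injective (varChangeC P)
    rw [vcHom_smul (varChangeC P) σ x]
    exact hu3 σ hσ hz y hy hσy
  · -- `p ∤ c`: model `Y² = X (X - a^p) (X + b^p)`, and `p ∣ a b`
    have hab : (P.p : ℤ) ∣ P.a * P.b := (hpZ.dvd_or_dvd hdvd).resolve_right hc
    have ha₂ : ¬ (P.p : ℤ) ∣ P.b ^ P.p - P.a ^ P.p := by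
      intro h
      rcases hpZ.dvd_or_dvd hab with ha | hb
      · have hb : ¬ (P.p : ℤ) ∣ P.b := not_dvd_of_gcd_eq_one P.pp P.hgcdab ha
        have h1 : (P.p : ℤ) ∣ P.a ^ P.p := dvd_pow ha P.hp0
        have h2 : (P.p : ℤ) ∣ P.b ^ P.p := by
          have := dvd_add h h1
          rwa [sub_add_cancel] at this
        exact hb (hpZ.dvd_of_dvd_pow h2)
      · have ha : ¬ (P.p : ℤ) ∣ P.a :=
          not_dvd_of_gcd_eq_one P.pp (by rw [gcd_comm]; exact P.hgcdab) hb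
        have h1 : (P.p : ℤ) ∣ P.b ^ P.p := dvd_pow hb P.hp0
        have h2 : (P.p : ℤ) ∣ P.a ^ P.p := by
          have := dvd_sub h1 h
          rwa [sub_sub_cancel] at this
        exact ha (hpZ.dvd_of_dvd_pow h2)
    have hx' : P.p • vcHom (varChangeA P) x = 0 := by rw [← map_nsmul, hx, _root_.map_zero]
    have e1 : (((P.b ^ P.p - P.a ^ P.p : ℤ) : ℚ)) = (P.b : ℚ) ^ P.p - (P.a : ℚ) ^ P.p := by
      push_cast; ring
    have e2 : ((-1 : ℤ) : ℚ) * ((P.a * P.b : ℤ) : ℚ) ^ P.p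
        = -((P.a : ℚ) ^ P.p * (P.b : ℚ) ^ P.p) := by
      push_cast; ring
    have key := legendre_peu P.pp hp2 (P.b ^ P.p - P.a ^ P.p) (P.a * P.b)
      (mul_ne_zero P.ha0 P.hb0) (-1) (Or.inr rfl) ha₂ hab A hA
    rw [e1, e2] at key
    obtain ⟨u, hu1, hu2, hu3⟩ := key _ hx'
    refine ⟨u, hu1, hu2, fun σ hσ hz y hy hσy => ?_⟩
    apply vcHom_injective (varChangeA P)
    rw [vcHom_smul (varChangeA P) σ x]
    exact hu3 σ hσ hz y hy hσy

/-- The same statement for elements of `E[p] = torsionBy ℤ E(ℚ̄) p`. -/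
theorem frey_peu_torsion (P : FreyPackage)
    (hdvd : (P.p : ℤ) ∣ P.a * P.b * P.c)
    (A : ValuationSubring Qbar) (hA : A.LiesOverPrime P.p)
    (x : Submodule.torsionBy ℤ (P.freyCurve⁄Qbar).Point P.p) :
    ∃ u : Qbar, A.valuation u = 1 ∧ (∀ σ ∈ A.inertiaSubgroupIn ℚ, σ u = u) ∧
      ∀ σ ∈ A.inertiaSubgroupIn ℚ, (∀ z : Qbar, z ^ P.p = 1 → σ z = z) →
        ∀ y : Qbar, y ^ P.p = u → σ y = y →
          σ • (x : (P.freyCurve⁄Qbar).Point) = (x : (P.freyCurve⁄Qbar).Point) := by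
  have hx : P.p • (x : (P.freyCurve⁄Qbar).Point) = 0 := by
    have := (Submodule.mem_torsionBy_iff _ _).1 x.2
    rwa [natCast_zsmul] at this
  exact frey_peu_point P hdvd A hA _ hx

end Frey

end Fermat.Agent.S44.helper2301
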