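import Fermat.Agent.S44.helper2884_TateParam
import Fermat.Agent.S13.helper613_DivPoly
import Fermat.Agent.Lib.helper1397_TorsionCard
import Fermat.Agent.Lib.helper54_Frobenius
import Fermat.Prelude.Def_FreyPackage_DetCyclotomic

set_option autoImplicit false

/-!
# S44, Frey side at `p` (helper2884): the `μ_p`-line of the Frey curve at a place over `p ∣ abc`

For a Frey package `P` with `p ∣ a b c` and EVERY valuation subring `A` of `ℚ̄` over `p = P.p`:

* `muLine_points` : there is a nonzero `p`-torsion point `T` in the kernel of reduction at `A`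
  such that every `p`-torsion point in the kernel of reduction is a multiple of `T`, and every
  `σ ∈ I_A` with `σ ζ = ζ ^ c` (`ζ` a primitive `p`-th root of unity) satisfies `σ T = c • T`;
* `muLine` : the statement of the Prelude's `FreyPackage.MuLineCyclotomicAtP` at `A`: a nonzero
  `z ∈ E[p]` with `σ z = χ(σ) z` (`χ` the mod `p` cyclotomic character) and
  `σ y - y ∈ span {z}` for all `y ∈ E[p]`, `σ ∈ I_A`;
* `muLineCyclotomicAtP` : `P.MuLineCyclotomicAtP` itself.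

Proof: the abstract theorems of `helper2884_TateParam` on the Legendre models of the Frey curve
(`S13.helper1633.legA / legC`), the division bound `S13.helper613.frey_divPolyStmt`, the count
`Lib.helper1397.frey_card_torsion`, and `S13.helper1633.inertia_sub_inKer`.
-/

namespace Fermat.Agent.S44.helper2884

open WeierstrassCurve WeierstrassCurve.Affine WeierstrassCurve.Affine.Point
open Fermat.Agent.S05.helper245 Fermat.Agent.S05.helper725 Fermat.Agent.S05.helper1445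
open Fermat.Agent.S13.helper1633

local notation "Qbar" => AlgebraicClosure ℚ

section VarChange

variable {K : Type*} [Field K] [DecidableEq K] {W₁ W₂ : WeierstrassCurve K} {u r s t : K}

/-- The change-of-variables map on points is surjective. -/
theorem vcHom_surjective (h : IsVarChange W₁ W₂ u r s t) : Function.Surjective (vcHom h) := by
  have hu := h.hu
  rintro (_ | ⟨x', y', h'⟩)
  · exact ⟨0, rfl⟩
  · have e1 : u ^ 2 * ((x' - r) / u ^ 2) + r = x' := by field_simp; ring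
    have e2 : u ^ 3 * ((y' - u ^ 2 * s * ((x' - r) / u ^ 2) - t) / u ^ 3) +
        u ^ 2 * s * ((x' - r) / u ^ 2) + t = y' := by field_simp; ring
    have hxy : W₁.toAffine.Nonsingular ((x' - r) / u ^ 2)
        ((y' - u ^ 2 * s * ((x' - r) / u ^ 2) - t) / u ^ 3) := by
      rw [← h.nonsingular_iff, e1, e2]; exact h'
    refine ⟨Point.some _ _ hxy, ?_⟩
    rw [vcHom_some, Point.some.injEq]
    exact ⟨e1, e2⟩

omit [DecidableEq K] in
/-- Legendre coordinates pull back along an injective additive map. -/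
theorem isLegCoord_comp {G G' : Type*} [AddCommGroup G] [AddCommGroup G'] {a b : K}
    {X Y : G' → K} (hL : IsLegCoord a b X Y) (φ : G →+ G') (hφ : Function.Injective φ) :
    IsLegCoord a b (fun Q => X (φ Q)) (fun Q => Y (φ Q)) := by
  have hne : ∀ P : G, P ≠ 0 → φ P ≠ 0 :=
    fun P hP h => hP (hφ (h.trans (_root_.map_zero φ).symm))
  refine ⟨fun P hP => hL.eqn (φ P) (hne P hP), ?_, ?_, ?_, ?_⟩
  · intro P Q hP hQ hx hy
    exact hφ (hL.inj (φ P) (φ Q) (hne P hP) (hne Q hQ) hx hy)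
  · intro P hP
    show X (φ (-P)) = X (φ P)
    rw [_root_.map_neg]; exact hL.negX (φ P) (hne P hP)
  · intro P hP
    show Y (φ (-P)) = -Y (φ P)
    rw [_root_.map_neg]; exact hL.negY (φ P) (hne P hP)
  · intro P₁ P₂ P₃ h₁ h₂ h₃ hs
    exact hL.vieta (φ P₁) (φ P₂) (φ P₃) (hne P₁ h₁) (hne P₂ h₂) (hne P₃ h₃)
      (by rw [← _root_.map_add, ← _root_.map_add, hs, _root_.map_zero])

end VarChange

section Frey

/-- Two independent `p`-torsion points on the Frey curve. -/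
theorem exists_indep (P : FreyPackage) :
    ∃ P₁ P₂ : (P.freyCurve⁄Qbar).Point, P₁ ≠ 0 ∧ P.p • P₁ = 0 ∧ P.p • P₂ = 0 ∧
      ∀ n : ℕ, P₂ ≠ n • P₁ := by
  classical
  have hcard := Fermat.Agent.Lib.helper1397.frey_card_torsion P
  have hp := P.pp
  have hfin : Finite (Submodule.torsionBy ℤ (P.freyCurve⁄Qbar).Point P.p) :=
    Nat.finite_of_card_ne_zero (by rw [hcard]; exact pow_ne_zero _ hp.ne_zero)
  have hnt : Nontrivial (Submodule.torsionBy ℤ (P.freyCurve⁄Qbar).Point P.p) :=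
    Finite.one_lt_card_iff_nontrivial.mp
      (by rw [hcard]; exact Nat.one_lt_pow (by norm_num) hp.one_lt)
  obtain ⟨v₁, hv₁⟩ := exists_ne (0 : Submodule.torsionBy ℤ (P.freyCurve⁄Qbar).Point P.p)
  have htors : ∀ v : Submodule.torsionBy ℤ (P.freyCurve⁄Qbar).Point P.p,
      P.p • (v : (P.freyCurve⁄Qbar).Point) = 0 := by
    intro v
    have := v.2
    rw [Submodule.mem_torsionBy_iff, natCast_zsmul] at this
    exact this
  by_contra hcon
  push Not at hcon
  have hsurj : Function.Surjective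
      (fun i : Fin P.p => ((i : ℕ) • v₁ : Submodule.torsionBy ℤ (P.freyCurve⁄Qbar).Point P.p)) := by
    intro v₂
    obtain ⟨n, hn⟩ := hcon (v₁ : (P.freyCurve⁄Qbar).Point) (v₂ : (P.freyCurve⁄Qbar).Point)
      (fun h => hv₁ (Subtype.ext h)) (htors v₁) (htors v₂)
    refine ⟨⟨n % P.p, Nat.mod_lt _ hp.pos⟩, ?_⟩
    apply Subtype.ext
    show (((n % P.p) • v₁ : Submodule.torsionBy ℤ (P.freyCurve⁄Qbar).Point P.p) :
      (P.freyCurve⁄Qbar).Point) = v₂
    rw [AddSubmonoidClass.coe_nsmul, ← nsmul_eq_mod_nsmul n (htors v₁), hn]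
  have h1 := Nat.card_le_card_of_surjective _ hsurj
  rw [hcard, Nat.card_fin] at h1
  have h2 : P.p * P.p ≤ P.p * 1 := by rw [← sq, mul_one]; exact h1
  have h3 := Nat.le_of_mul_le_mul_left h2 hp.pos
  have h4 := hp.one_lt
  omega

/-- The `μ_p`-line at a place over `p`, on a Legendre model of the Frey curve with a node. -/
theorem muLine_aux (P : FreyPackage) (A : ValuationSubring Qbar) (hA : A.LiesOverPrime P.p)
    (a₂ w d : ℤ) (hw : w ≠ 0) (e : ℤ) (he : e = 1 ∨ e = -1) (hd : ¬ (P.p : ℤ) ∣ d)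
    (hpw : (P.p : ℤ) ∣ w) (hdisc : a₂ ^ 2 - 4 * (e * w ^ P.p) = d ^ 2)
    {u r s t : ℚ} (hu : A.valuation (algebraMap ℚ Qbar u) = 1)
    (hr : A.valuation (algebraMap ℚ Qbar r) ≤ 1)
    (hvc : IsVarChange (P.freyCurve⁄Qbar)
      ((legendreModel (a₂ : ℚ) ((e : ℚ) * (w : ℚ) ^ P.p))⁄Qbar)
      (algebraMap ℚ Qbar u) (algebraMap ℚ Qbar r) (algebraMap ℚ Qbar s) (algebraMap ℚ Qbar t)) :
    ∃ T : (P.freyCurve⁄Qbar).Point, T ≠ 0 ∧ P.p • T = 0 ∧ InKer P A T ∧
      (∀ T' : (P.freyCurve⁄Qbar).Point, P.p • T' = 0 → InKer P A T' → ∃ n : ℕ, T' = n • T) ∧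
      (∀ σ : Qbar ≃ₐ[ℚ] Qbar, σ ∈ A.inertiaSubgroupIn ℚ → ∀ (ζ : Qbar) (c : ℕ),
        IsPrimitiveRoot ζ P.p → σ ζ = ζ ^ c → σ • T = c • T) := by
  classical
  have hpp := P.pp
  have hp2 : P.p ≠ 2 := by have := P.hp5; omega
  have hA' : (P.p : Qbar) ∈ A.nonunits := hA
  have e₁ : ((legendreModel (a₂ : ℚ) ((e : ℚ) * (w : ℚ) ^ P.p))⁄Qbar).a₁ = 0 := by
    simp [WeierstrassCurve.baseChange]
  have e₃ : ((legendreModel (a₂ : ℚ) ((e : ℚ) * (w : ℚ) ^ P.p))⁄Qbar).a₃ = 0 := by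
    simp [WeierstrassCurve.baseChange]
  have e₆ : ((legendreModel (a₂ : ℚ) ((e : ℚ) * (w : ℚ) ^ P.p))⁄Qbar).a₆ = 0 := by
    simp [WeierstrassCurve.baseChange]
  have e₂ : ((legendreModel (a₂ : ℚ) ((e : ℚ) * (w : ℚ) ^ P.p))⁄Qbar).a₂ = ((a₂ : ℤ) : Qbar) := by
    simp [WeierstrassCurve.baseChange]
  have e₄ : ((legendreModel (a₂ : ℚ) ((e : ℚ) * (w : ℚ) ^ P.p))⁄Qbar).a₄ =
      ((e : ℤ) : Qbar) * ((w : ℤ) : Qbar) ^ P.p := by
    simp [WeierstrassCurve.baseChange]
  have hL' := isLegCoord_of_short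
    (W := ((legendreModel (a₂ : ℚ) ((e : ℚ) * (w : ℚ) ^ P.p))⁄Qbar)) e₁ e₃ e₆
  rw [e₂, e₄] at hL'
  have hφinj : Function.Injective (vcHom hvc) := vcHom_injective hvc
  have hL := isLegCoord_comp hL' (vcHom hvc) hφinj
  have hInKer : ∀ Q : (P.freyCurve⁄Qbar).Point,
      InKer P A Q ↔ InE1 A.valuation (fun Q => ptX (vcHom hvc Q)) Q := by
    intro Q
    have h1 := inE1_vcHom_iff A.valuation hvc hu hr Q
    unfold InKer
    rw [← h1]
    constructor
    · rintro (h | h)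
      · exact Or.inl (hφinj (h.trans (_root_.map_zero (vcHom hvc)).symm))
      · exact Or.inr h
    · rintro (h | h)
      · exact Or.inl (by rw [h]; exact _root_.map_zero (vcHom hvc))
      · exact Or.inr h
  have h2 : A.valuation (2 : Qbar) = 1 := valuation_two_eq_one A hpp hA' hp2
  have hve : A.valuation ((e : ℤ) : Qbar) = 1 := by
    rcases he with rfl | rfl <;> simp
  have hna₂ : ¬ (P.p : ℤ) ∣ a₂ := by
    intro h
    apply hd
    have hpd : (P.p : ℤ) ∣ d ^ 2 := by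
      rw [← hdisc]
      exact dvd_sub (dvd_pow h two_ne_zero)
        (dvd_mul_of_dvd_right (dvd_mul_of_dvd_right (dvd_pow hpw hpp.ne_zero) _) _)
    exact (Nat.prime_iff_prime_int.mp hpp).dvd_of_dvd_pow hpd
  have hva : A.valuation ((a₂ : ℤ) : Qbar) = 1 := valuation_intCast_eq_one A hpp hA' hna₂
  have hvp : A.valuation (P.p : Qbar) < 1 := (A.mem_nonunits_iff).mp hA'
  have hvw : A.valuation ((w : ℤ) : Qbar) ≤ A.valuation (P.p : Qbar) := by
    obtain ⟨k, rfl⟩ := hpw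
    push_cast
    rw [map_mul]
    calc A.valuation (P.p : Qbar) * A.valuation ((k : ℤ) : Qbar)
        ≤ A.valuation (P.p : Qbar) * 1 := by
          gcongr
          exact (A.valuation_le_one_iff _).mpr (intCast_mem' A k)
      _ = A.valuation (P.p : Qbar) := mul_one _
  have hvb_eq : A.valuation (((e : ℤ) : Qbar) * ((w : ℤ) : Qbar) ^ P.p) =
      A.valuation ((w : ℤ) : Qbar) ^ P.p := by
    rw [map_mul, map_pow, hve, one_mul]
  have hbp : A.valuation (((e : ℤ) : Qbar) * ((w : ℤ) : Qbar) ^ P.p) ≤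
      A.valuation (P.p : Qbar) ^ P.p := by
    rw [hvb_eq]; exact pow_le_pow_left₀ zero_le hvw _
  have hvb : A.valuation (((e : ℤ) : Qbar) * ((w : ℤ) : Qbar) ^ P.p) < 1 :=
    lt_of_le_of_lt hbp (pow_lt_one₀ zero_le hvp hpp.ne_zero)
  have hb0 : ((e : ℤ) : Qbar) * ((w : ℤ) : Qbar) ^ P.p ≠ 0 := by
    refine mul_ne_zero ?_ (pow_ne_zero _ (by exact_mod_cast hw))
    rcases he with rfl | rfl <;> simp
  obtain ⟨β, hβ⟩ := IsAlgClosed.exists_pow_nat_eq ((a₂ : ℤ) : Qbar) (n := 2) (by norm_num)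
  have : NeZero P.p := ⟨hpp.ne_zero⟩
  obtain ⟨ζ₀, hζ₀⟩ := HasEnoughRootsOfUnity.exists_primitiveRoot Qbar P.p
  have hDB := Fermat.Agent.S13.helper3073.divBound_of_divPoly
    (Fermat.Agent.S13.helper613.frey_divPolyStmt P) A hA
  have hdiv : ∀ T : (P.freyCurve⁄Qbar).Point, T ≠ 0 → P.p • T = 0 →
      1 < A.valuation (ptX (vcHom hvc T)) →
      A.valuation (P.p : Qbar) * A.valuation (ptX (vcHom hvc T)) ≤ 1 := by
    intro T hT hpT hxT
    cases T with
    | zero => exact absurd rfl hT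
    | some x y hxy =>
      have hXT : ptX (vcHom hvc (Point.some x y hxy)) =
          algebraMap ℚ Qbar u ^ 2 * x + algebraMap ℚ Qbar r := rfl
      rw [hXT] at hxT ⊢
      have hvx : 1 < A.valuation x := by
        by_contra hcon
        have hle : A.valuation x ≤ 1 := le_of_not_gt hcon
        have : A.valuation (algebraMap ℚ Qbar u ^ 2 * x + algebraMap ℚ Qbar r) ≤ 1 := by
          apply (A.valuation).map_add_le _ hr
          rw [map_mul, map_pow, hu, one_pow, one_mul]; exact hle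
        exact absurd hxT (not_lt.mpr this)
      have hxA : x ∉ A := by
        rw [← ValuationSubring.valuation_le_one_iff, not_le]; exact hvx
      have hmem := hDB {x} (by
        intro ξ hξ
        rw [Finset.mem_singleton] at hξ
        subst hξ
        refine ⟨hxA, ⟨⟨Point.some ξ y hxy, ?_⟩, ?_, rfl⟩⟩
        · rw [Submodule.mem_torsionBy_iff, natCast_zsmul]; exact hpT
        · intro h; exact hT (congrArg Subtype.val h))
      rw [Finset.prod_singleton, ← ValuationSubring.valuation_le_one_iff, map_mul] at hmem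
      have hle : A.valuation (algebraMap ℚ Qbar u ^ 2 * x + algebraMap ℚ Qbar r) ≤
          A.valuation x := by
        apply (A.valuation).map_add_le
        · rw [map_mul, map_pow, hu, one_pow, one_mul]
        · exact hr.trans hvx.le
      calc A.valuation (P.p : Qbar) *
            A.valuation (algebraMap ℚ Qbar u ^ 2 * x + algebraMap ℚ Qbar r)
          ≤ A.valuation (P.p : Qbar) * A.valuation x := by gcongr
        _ ≤ 1 := hmem
  have D : NodeData A.valuation ((a₂ : ℤ) : Qbar) (((e : ℤ) : Qbar) * ((w : ℤ) : Qbar) ^ P.p)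
      (fun Q : (P.freyCurve⁄Qbar).Point => ptX (vcHom hvc Q))
      (fun Q : (P.freyCurve⁄Qbar).Point => ptY (vcHom hvc Q)) β P.p :=
    ⟨hL, hva, hvb, h2, hβ, hpp, hp2, hvp, hbp, ⟨ζ₀, hζ₀⟩, hdiv⟩
  -- the `2`-torsion point at the node
  have hT' : ((legendreModel (a₂ : ℚ) ((e : ℚ) * (w : ℚ) ^ P.p))⁄Qbar).Nonsingular 0 0 := by
    rw [nonsingular_zero]
    exact ⟨e₆, Or.inr (by rw [e₄]; exact hb0)⟩
  obtain ⟨T₀, hT₀⟩ := vcHom_surjective hvc (Point.some 0 0 hT')
  have hT₀ne : T₀ ≠ 0 := by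
    rintro rfl
    rw [_root_.map_zero] at hT₀
    exact Point.some_ne_zero _ hT₀.symm
  have hTX : ptX (vcHom hvc T₀) = 0 := by rw [hT₀]; rfl
  have hTY : ptY (vcHom hvc T₀) = 0 := by rw [hT₀]; rfl
  obtain ⟨P₁, P₂, h₁, hp₁, hp₂, hind⟩ := exists_indep P
  obtain ⟨T, hT0, hpT, hxT⟩ := D.exists_E1_torsion hb0 hT₀ne hTX hTY h₁ hp₁ hp₂ hind
  refine ⟨T, hT0, hpT, (hInKer T).mpr (Or.inr hxT), ?_, ?_⟩
  · intro T₁ hpT₁ hT₁
    exact D.cyclic hT0 hpT hxT hpT₁ ((hInKer T₁).mp hT₁)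
  · intro σ hσ ζ c hζ hσζ
    have hτ0 : ∀ Q : (P.freyCurve⁄Qbar).Point, Q ≠ 0 →
        Point.map (W' := P.freyCurve) σ.toAlgHom Q ≠ 0 := by
      intro Q hQ
      cases Q with
      | zero => exact absurd rfl hQ
      | some x y h => rw [Point.map_some]; exact Point.some_ne_zero _
    have hcomm : ∀ Q : (P.freyCurve⁄Qbar).Point,
        vcHom hvc (Point.map (W' := P.freyCurve) σ.toAlgHom Q) =
          Point.map (W' := legendreModel (a₂ : ℚ) ((e : ℚ) * (w : ℚ) ^ P.p)) σ.toAlgHom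
            (vcHom hvc Q) := fun Q => vcHom_smul hvc σ Q
    have hτX : ∀ Q : (P.freyCurve⁄Qbar).Point, Q ≠ 0 →
        ptX (vcHom hvc (Point.map (W' := P.freyCurve) σ.toAlgHom Q)) =
          (σ : Qbar →+* Qbar) (ptX (vcHom hvc Q)) := by
      intro Q hQ
      rw [hcomm Q]
      have hφQ : vcHom hvc Q ≠ 0 :=
        fun h => hQ (hφinj (h.trans (_root_.map_zero (vcHom hvc)).symm))
      generalize vcHom hvc Q = R at hφQ ⊢
      cases R with
      | zero => exact absurd rfl hφQ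
      | some x y h => rw [Point.map_some]; rfl
    have hτY : ∀ Q : (P.freyCurve⁄Qbar).Point, Q ≠ 0 →
        ptY (vcHom hvc (Point.map (W' := P.freyCurve) σ.toAlgHom Q)) =
          (σ : Qbar →+* Qbar) (ptY (vcHom hvc Q)) := by
      intro Q hQ
      rw [hcomm Q]
      have hφQ : vcHom hvc Q ≠ 0 :=
        fun h => hQ (hφinj (h.trans (_root_.map_zero (vcHom hvc)).symm))
      generalize vcHom hvc Q = R at hφQ ⊢
      cases R with
      | zero => exact absurd rfl hφQ
      | some x y h => rw [Point.map_some]; rfl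
    have hsv : ∀ x : Qbar, A.valuation ((σ : Qbar →+* Qbar) x) = A.valuation x :=
      fun x => Fermat.Agent.S05.helper2200.valuation_apply A hσ x
    have hsβ : (σ : Qbar →+* Qbar) β = β :=
      Fermat.Agent.S05.helper4205.apply_eq_self_of_sq_fixed hσ D.vβ h2
        (by rw [hβ]; exact map_intCast σ a₂)
    have key := D.galois (Point.map (W' := P.freyCurve) σ.toAlgHom) hτ0 (σ : Qbar →+* Qbar)
      hτX hτY hsv hsβ hζ hσζ hpT (Or.inr hxT)
    rw [algEquiv_smul_def]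
    exact key

/-- **The `μ_p`-line of the Frey curve at a place over `p ∣ abc`, at the level of points**:
a nonzero `p`-torsion point `T` in the kernel of reduction at `A` which generates the
`p`-torsion of the kernel of reduction, and on which an inertia element acting on `p`-th roots
of unity by `ζ ↦ ζ ^ c` acts by `c`. -/
theorem muLine_points (P : FreyPackage) (hp : (P.p : ℤ) ∣ P.a * P.b * P.c)
    (A : ValuationSubring Qbar) (hA : A.LiesOverPrime P.p) :
    ∃ T : (P.freyCurve⁄Qbar).Point, T ≠ 0 ∧ P.p • T = 0 ∧ InKer P A T ∧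
      (∀ T' : (P.freyCurve⁄Qbar).Point, P.p • T' = 0 → InKer P A T' → ∃ n : ℕ, T' = n • T) ∧
      (∀ σ : Qbar ≃ₐ[ℚ] Qbar, σ ∈ A.inertiaSubgroupIn ℚ → ∀ (ζ : Qbar) (c : ℕ),
        IsPrimitiveRoot ζ P.p → σ ζ = ζ ^ c → σ • T = c • T) := by
  have hpp := P.pp
  have hp2 : P.p ≠ 2 := by have := P.hp5; omega
  have h2 : A.valuation (2 : Qbar) = 1 := two_unit hpp hp2 hA
  have hFLT := P.hFLT
  have hu : A.valuation (algebraMap ℚ Qbar 2) = 1 := by rw [map_ofNat]; exact h2
  by_cases hc : (P.p : ℤ) ∣ P.c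
  · -- `p ∣ c`: shifted model `Y² = X (X + a^p) (X + c^p)`
    have hb : ¬ (P.p : ℤ) ∣ P.b :=
      not_dvd_of_gcd_eq_one hpp (by rw [gcd_comm]; exact P.hgcdbc) hc
    have e1 : (((P.a ^ P.p + P.c ^ P.p : ℤ) : ℚ)) = (P.a : ℚ) ^ P.p + (P.c : ℚ) ^ P.p := by
      push_cast; ring
    have e2 : ((1 : ℤ) : ℚ) * ((P.a * P.c : ℤ) : ℚ) ^ P.p
        = (P.a : ℚ) ^ P.p * (P.c : ℚ) ^ P.p := by
      push_cast; ring
    have hr : A.valuation (algebraMap ℚ Qbar (-((P.a : ℚ) ^ P.p))) ≤ 1 := by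
      have : algebraMap ℚ Qbar (-((P.a : ℚ) ^ P.p)) = ((-(P.a ^ P.p) : ℤ) : Qbar) := by
        push_cast; simp
      rw [this]
      exact (A.valuation_le_one_iff _).mpr (intCast_mem' A _)
    have hvc : IsVarChange (P.freyCurve⁄Qbar)
        ((legendreModel (((P.a ^ P.p + P.c ^ P.p : ℤ)) : ℚ)
          (((1 : ℤ) : ℚ) * ((P.a * P.c : ℤ) : ℚ) ^ P.p))⁄Qbar)
        (algebraMap ℚ Qbar 2) (algebraMap ℚ Qbar (-((P.a : ℚ) ^ P.p))) (algebraMap ℚ Qbar 1)
        (algebraMap ℚ Qbar 0) := by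
      rw [e1, e2]; exact varChangeC P
    exact muLine_aux P A hA (P.a ^ P.p + P.c ^ P.p) (P.a * P.c) (P.b ^ P.p)
      (mul_ne_zero P.ha0 P.hc0) 1 (Or.inl rfl)
      (fun h => hb ((Nat.prime_iff_prime_int.mp hpp).dvd_of_dvd_pow h))
      (dvd_mul_of_dvd_right hc _) (by rw [mul_pow, ← hFLT]; ring) hu hr hvc
  · -- `p ∤ c`, hence `p ∣ a b`: model `Y² = X (X - a^p) (X + b^p)`
    have hab : (P.p : ℤ) ∣ P.a * P.b :=
      ((Nat.prime_iff_prime_int.mp hpp).dvd_or_dvd hp).resolve_right hc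
    have e1 : (((P.b ^ P.p - P.a ^ P.p : ℤ) : ℚ)) = (P.b : ℚ) ^ P.p - (P.a : ℚ) ^ P.p := by
      push_cast; ring
    have e2 : ((-1 : ℤ) : ℚ) * ((P.a * P.b : ℤ) : ℚ) ^ P.p
        = -((P.a : ℚ) ^ P.p * (P.b : ℚ) ^ P.p) := by
      push_cast; ring
    have hr : A.valuation (algebraMap ℚ Qbar 0) ≤ 1 := by
      rw [_root_.map_zero, _root_.map_zero]; exact zero_le_one
    have hvc : IsVarChange (P.freyCurve⁄Qbar)
        ((legendreModel (((P.b ^ P.p - P.a ^ P.p : ℤ)) : ℚ)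
          (((-1 : ℤ) : ℚ) * ((P.a * P.b : ℤ) : ℚ) ^ P.p))⁄Qbar)
        (algebraMap ℚ Qbar 2) (algebraMap ℚ Qbar 0) (algebraMap ℚ Qbar 1)
        (algebraMap ℚ Qbar 0) := by
      rw [e1, e2]; exact varChangeA P
    exact muLine_aux P A hA (P.b ^ P.p - P.a ^ P.p) (P.a * P.b) (P.c ^ P.p)
      (mul_ne_zero P.ha0 P.hb0) (-1) (Or.inr rfl)
      (fun h => hc ((Nat.prime_iff_prime_int.mp hpp).dvd_of_dvd_pow h))
      hab (by rw [mul_pow, ← hFLT]; ring) hu hr hvc

/-- **The `μ_p`-line of the Frey curve at EVERY place over `p ∣ abc`**, in the shape of the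
Prelude's `FreyPackage.MuLineCyclotomicAtP`: a nonzero `z ∈ E[p]` on which the inertia group of
`A` acts through the mod `p` cyclotomic character, and such that inertia acts trivially on
`E[p] / ⟨z⟩`. -/
theorem muLine (P : FreyPackage) (hp : (P.p : ℤ) ∣ P.a * P.b * P.c)
    (A : ValuationSubring Qbar) (hA : A.LiesOverPrime P.p) :
    haveI : NeZero P.p := ⟨P.pp.ne_zero⟩
    ∃ z : Submodule.torsionBy ℤ (P.freyCurve⁄Qbar).Point P.p, z ≠ 0 ∧
      ∀ σ : Qbar ≃ₐ[ℚ] Qbar, σ ∈ A.inertiaSubgroupIn ℚ →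
        (σ • z = ((modularCyclotomicCharacter Qbar P.card_rootsOfUnity_algebraicClosure
            (σ : Qbar ≃+* Qbar) : (ZMod P.p)ˣ) : ZMod P.p) • z) ∧
        ∀ y : Submodule.torsionBy ℤ (P.freyCurve⁄Qbar).Point P.p,
          σ • y - y ∈ Submodule.span (ZMod P.p) {z} := by
  have : NeZero P.p := ⟨P.pp.ne_zero⟩
  have hp2 : P.p ≠ 2 := by have := P.hp5; omega
  obtain ⟨T, hT0, hpT, -, hcyc, hgal⟩ := muLine_points P hp A hA
  have hTmem : T ∈ Submodule.torsionBy ℤ (P.freyCurve⁄Qbar).Point P.p := by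
    rw [Submodule.mem_torsionBy_iff, natCast_zsmul]; exact hpT
  refine ⟨⟨T, hTmem⟩, fun h => hT0 (congrArg Subtype.val h), ?_⟩
  intro σ hσ
  obtain ⟨ζ, hζ⟩ := HasEnoughRootsOfUnity.exists_primitiveRoot Qbar P.p
  constructor
  · have hspec : σ ζ = ζ ^ ((modularCyclotomicCharacter Qbar
        P.card_rootsOfUnity_algebraicClosure (σ : Qbar ≃+* Qbar) : (ZMod P.p)ˣ) : ZMod P.p).val := by
      have h := modularCyclotomicCharacter.spec Qbar P.card_rootsOfUnity_algebraicClosure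
        (σ : Qbar ≃+* Qbar) (rootsOfUnity.mkOfPowEq ζ hζ.pow_eq_one).2
      simpa using h
    have h1 := hgal σ hσ ζ _ hζ hspec
    apply Subtype.ext
    rw [Fermat.Agent.S13.helper3073.zmod_smul_eq_nsmul, AddSubmonoidClass.coe_nsmul]
    exact h1
  · intro y
    have hy : P.p • (y : (P.freyCurve⁄Qbar).Point) = 0 := by
      have := y.2
      rw [Submodule.mem_torsionBy_iff, natCast_zsmul] at this
      exact this
    have hker := inertia_sub_inKer P A P.pp hp2 hA σ hσ (y : (P.freyCurve⁄Qbar).Point) hy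
    have hpy : P.p • (σ • (y : (P.freyCurve⁄Qbar).Point) - y) = 0 := by
      have := (σ • y - y).2
      rw [Submodule.mem_torsionBy_iff, natCast_zsmul] at this
      exact this
    obtain ⟨n, hn⟩ := hcyc _ hpy hker
    have h3 : σ • y - y = (n : ZMod P.p) •
        (⟨T, hTmem⟩ : Submodule.torsionBy ℤ (P.freyCurve⁄Qbar).Point P.p) := by
      rw [Nat.cast_smul_eq_nsmul]
      apply Subtype.ext
      rw [AddSubmonoidClass.coe_nsmul]
      exact hn
    rw [h3]
    exact Submodule.smul_mem _ _ (Submodule.mem_span_singleton_self _)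

/-- The Prelude statement `FreyPackage.MuLineCyclotomicAtP`, when `p ∣ abc`. -/
theorem muLineCyclotomicAtP (P : FreyPackage) (hp : (P.p : ℤ) ∣ P.a * P.b * P.c) :
    P.MuLineCyclotomicAtP := by
  obtain ⟨A, hA⟩ := Fermat.Agent.Lib.helper54.exists_liesOverPrime P.pp
  exact ⟨A, hA, muLine P hp A hA⟩

end Frey

end Fermat.Agent.S44.helper2884
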