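/-
S44, block (W), supplier (S1) of `helper1420_WSide`: the Frey instance of `MuLineAt P A` for
EVERY valuation subring `A` of `ℚ̄` over `p`, `p ∣ abc` — a one-line adapter from
`helper2884.muLine` (file `helper2884_FreyMuLine.lean`) to the (W) Prop of record
(`helper1420_WSpec.lean`).
-/
import Fermat.Agent.S44.helper2884_FreyMuLine
import Fermat.Agent.S44.helper1420_WSpec

set_option autoImplicit false

namespace Fermat.Agent.S44.helper2884

/-- (S1): `MuLineAt P A` for every `A` over `p`, `p ∣ abc`. -/
theorem muLineAt (P : FreyPackage) (hp : (P.p : ℤ) ∣ P.a * P.b * P.c)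
    (A : ValuationSubring (AlgebraicClosure ℚ)) (hA : A.LiesOverPrime P.p) :
    Fermat.Agent.S44.helper1420.MuLineAt P A :=
  muLine P hp A hA

end Fermat.Agent.S44.helper2884
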