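/-
S44, block (W): **`stmt_W : Stmt_W`**, the W-side at `p` of the Frey curve (`p ∣ abc`), for every
valuation subring `A` of `ℚ̄` over `p`.

Suppliers (see `helper1420_WAsm.stmt_W_of_parts`):
* (S1) `MuLineAt P A`        : `helper2884.muLineAt`            (`helper2884_MuLineAt`);
* (S2) `PeuPointAt P A`      : `helper2301.frey_peu_torsion`    (`helper2301_FreyLeg`, on
                               `helper2442.peu_point`);
* (S3) `UnitNormalForm p A`  : `helper2301.exists_pow_mul_one_add` (`helper2301_BaseUnit`)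
                               + the closest `p`-th root (`helper1420_UnitRoot`) for the
                               case "`c` a non-unit".
-/
import Fermat.Agent.S44.helper1420_WAsm
import Fermat.Agent.S44.helper1420_UnitRoot
import Fermat.Agent.S44.helper2884_MuLineAt
import Fermat.Agent.S44.helper2301_FreyLeg
import Fermat.Agent.S44.helper2301_BaseUnit
import Fermat.Agent.S05.helper2200_Inertia

set_option autoImplicit false

open WeierstrassCurve WeierstrassCurve.Affine WeierstrassCurve.Affine.Point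
open scoped WeierstrassCurve.Affine

namespace Fermat.Agent.S44.helper1420

open Fermat.Agent.S19.helper1821

/-- (S3), the case of a non-unit `c`: `1 + p c` has an inertia-fixed `p`-th root. -/
theorem exists_fixed_root_of_nonunit {p : ℕ} (hp : p.Prime) (hp2 : p ≠ 2)
    (A : ValuationSubring Qb) (hA : A.LiesOverPrime p) {c : Qb} (hc : c ∈ R0 A)
    (hc1 : A.valuation c < 1) :
    ∃ y : Qb, (∀ σ ∈ A.inertiaSubgroupIn ℚ, σ y = y) ∧ A.valuation y = 1 ∧
      y ^ p = 1 + (p : Qb) * c := by
  obtain ⟨c', hc', rfl⟩ := natCast_dvd_of_mem_nonunits hp hA hc ((A.mem_nonunits_iff).mpr hc1)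
  have hvp : A.valuation (p : Qb) < 1 := (A.mem_nonunits_iff).mp hA
  have hp0 : (p : Qb) ≠ 0 := by exact_mod_cast hp.ne_zero
  have : NeZero ((p : ℕ) : ℚ) := ⟨by exact_mod_cast hp.ne_zero⟩
  obtain ⟨ζ, hζ⟩ := HasEnoughRootsOfUnity.exists_primitiveRoot Qb p
  set s : Qb := 1 + (p : Qb) * ((p : Qb) * c') with hs
  have hs1 : A.valuation (s - 1) ≤ A.valuation (p : Qb) ^ 2 := by
    have e : s - 1 = (p : Qb) ^ 2 * c' := by rw [hs]; ring
    rw [e, map_mul, map_pow]
    exact mul_le_of_le_one_right' ((A.valuation_le_one_iff _).mpr hc'.1)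
  obtain ⟨w, hw⟩ := IsAlgClosed.exists_pow_nat_eq s (n := p) hp.pos
  obtain ⟨y, hy, hyclose⟩ := exists_pth_root_close A.valuation hp hp2 hζ hvp hp0 hs1 hw
  have hvs : A.valuation s = 1 := by
    rw [hs]
    refine Valuation.map_one_add_of_lt _ ?_
    rw [map_mul]
    calc A.valuation (p : Qb) * A.valuation ((p : Qb) * c')
        ≤ A.valuation (p : Qb) * 1 := by
          have h1 : A.valuation ((p : Qb) * c') ≤ 1 :=
            (A.valuation_le_one_iff _).mpr (A.mul_mem _ _ (natCast_mem A p) hc'.1)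
          exact mul_le_mul_right h1 _
      _ = A.valuation (p : Qb) := mul_one _
      _ < 1 := hvp
  have hy0 : y ≠ 0 := by
    rintro rfl
    rw [zero_pow hp.ne_zero] at hy
    rw [← hy, _root_.map_zero] at hvs
    exact zero_ne_one hvs
  have hvy : A.valuation y = 1 := by
    have h1 : A.valuation y ^ p = 1 ^ p := by rw [← map_pow, hy, hvs, one_pow]
    exact (pow_left_inj₀ zero_le zero_le hp.ne_zero).mp h1
  refine ⟨y, fun σ hσ => ?_, hvy, hy⟩
  have hσs : σ s = s := by
    rw [hs, map_add, map_one, map_mul, map_mul, map_natCast, hc'.2 σ hσ]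
  refine pth_root_close_unique A.valuation hp hζ hy0 ?_ hyclose ?_
  · rw [← map_pow, hy, hσs]
  · have e : σ y - 1 = σ (y - 1) := by rw [map_sub, map_one]
    rw [e, Fermat.Agent.S05.helper2200.valuation_apply A hσ]
    exact hyclose

/-- **(S3) Normal form of the inertia-fixed units** at an odd prime. -/
theorem unitNormalForm {p : ℕ} (hp : p.Prime) (hp2 : p ≠ 2) (A : ValuationSubring Qb)
    (hA : A.LiesOverPrime p) : UnitNormalForm p A := by
  intro u hu1 huI
  have huR : u ∈ R0 A := ⟨(A.valuation_le_one_iff _).mp hu1.le, huI⟩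
  obtain ⟨t, c, ht, ht1, hc, hutc⟩ :=
    Fermat.Agent.S44.helper2301.exists_pow_mul_one_add A hp hA huR hu1
  by_cases hc1 : A.valuation c = 1
  · exact ⟨t, c, ht.2, hc.2, ht1, Or.inr hc1, hutc⟩
  · have hclt : A.valuation c < 1 := lt_of_le_of_ne ((A.valuation_le_one_iff _).mpr hc.1) hc1
    obtain ⟨y, hyI, hy1, hyp⟩ := exists_fixed_root_of_nonunit hp hp2 A hA hc hclt
    refine ⟨t * y, 0, fun σ hσ => by rw [map_mul, ht.2 σ hσ, hyI σ hσ], fun σ _ => _root_.map_zero σ,
      by rw [map_mul, ht1, hy1, one_mul], Or.inl rfl, ?_⟩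
    rw [mul_zero, add_zero, mul_one, mul_pow, hyp, hutc]

/-- **(S2)** per-point peu ramifiée, from `helper2301.frey_peu_torsion`. -/
theorem peuPointAt (P : FreyPackage) (hdvd : (P.p : ℤ) ∣ P.a * P.b * P.c)
    (A : ValuationSubring Qb) (hA : A.LiesOverPrime P.p) : PeuPointAt P A := by
  intro x
  obtain ⟨u, hu1, hu2, hu3⟩ := Fermat.Agent.S44.helper2301.frey_peu_torsion P hdvd A hA x
  exact ⟨u, hu1, hu2, fun σ hσ hζ y hy hσy => Subtype.ext (hu3 σ hσ hζ y hy hσy)⟩

/-- **Block (W)**: the W-side at `p` of the Frey curve, for every `A` over `p`. -/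
theorem stmt_W : Stmt_W :=
  stmt_W_of_parts (fun P hdvd A hA => Fermat.Agent.S44.helper2884.muLineAt P hdvd A hA)
    peuPointAt (fun _ hp hp2 A hA => unitNormalForm hp hp2 A hA)

end Fermat.Agent.S44.helper1420
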