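/-
S44, seam (T4) of the top Spec (`helper3130_Spec`, captain's ruling #2): the W-side at `p`.

* `seam_T4   : helper3130.Stmt_WInertia` — inertia at `p` acts trivially on `E[p]` modulo a
  proper subgroup (the `μ_p`-line);
* `seam_WPeu : helper3130.Stmt_WPeu` — peu ramifiée: a radicand `u = 1 + p c`, `c ∈ A`, fixed by
  inertia, such that `E[p]` is fixed pointwise by the inertia elements fixing `μ_p` and the
  `p`-th roots of `u`.

Both are corollaries of `helper1420.stmt_W : Stmt_W` (`helper1420_WSide`).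
-/
import Fermat.Agent.S44.helper3130_Spec
import Fermat.Agent.S44.helper1420_WSide

set_option autoImplicit false

open WeierstrassCurve WeierstrassCurve.Affine WeierstrassCurve.Affine.Point
open scoped WeierstrassCurve.Affine

namespace Fermat.Agent.S44.helper1420

/-- **Seam (T4)**: `Stmt_WInertia` of the top Spec. -/
theorem seam_T4 : Fermat.Agent.S44.helper3130.Stmt_WInertia := by
  intro P hdvd A hA
  obtain ⟨⟨z, -, hzσ⟩, hpeu⟩ := stmt_W P hdvd A hA
  refine ⟨(Submodule.span (ZMod P.p) {z}).toAddSubgroup, ?_, fun σ hσ x => (hzσ σ hσ).2 x⟩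
  obtain ⟨c, w, -, -, -, -, -, x, hx, -⟩ := hpeu
  intro htop
  have hxmem : x ∈ (Submodule.span (ZMod P.p) {z}).toAddSubgroup := by
    rw [htop]; exact AddSubgroup.mem_top x
  exact notMem_span_of_ne_chi (fun σ hσ => (hzσ σ hσ).1) hx hxmem

/-- **Seam (T6-W)**: `Stmt_WPeu` of the top Spec. -/
theorem seam_WPeu : Fermat.Agent.S44.helper3130.Stmt_WPeu := by
  intro P hdvd A hA
  obtain ⟨-, c, w, hc, -, hcI, hw, ha, -⟩ := stmt_W P hdvd A hA
  refine ⟨1 + (P.p : Qb) * c, ⟨c, ?_, rfl⟩,
    fun σ hσ => by rw [map_add, _root_.map_one, map_mul, map_natCast, hcI σ hσ],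
    fun σ hσ hζ hy x => ha σ hσ hζ (hy w hw) x⟩
  rcases hc with rfl | hc
  · exact A.zero_mem
  · exact (A.valuation_le_one_iff _).mp hc.le

end Fermat.Agent.S44.helper1420
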