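import Fermat.Agent.S37.helper9793_KroneckerFF
import Fermat.Agent.S35.helper1073_AtkinLehnerSwap
import Fermat.Agent.S29.helper36_KummerCorr
import Fermat.Agent.S35.helper2106_UqBridge

/-!
# The two norms `F_{Nℓ} → F_N` of an arbitrary function, `ℓ ∤ N`  (helper1687)

For `ℓ` prime, `ℓ ∤ N`, `α = heckeAlphaBar ℚ̄ N ℓ` (inclusion), `β = heckeBetaBar ℚ̄ N ℓ`
(`t ↦ t^ℓ`), `W = W_ℓ` the Atkin–Lehner involution of `F_{Nℓ}`
(`S35.helper1073.atkinLehnerBar`) and EVERY `x : F_{Nℓ}`, as `t`-expansions: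

* `coe_normAlong_heckeBetaBar_of_not_dvd` : `N_β x = kronNorm ζ ℓ x * W x`;
* `coe_normAlong_heckeAlphaBar_of_not_dvd` : `N_α x = x * kronNorm ζ ℓ (W x)`.

(`kronNorm ζ ℓ y` is the series `g` with `g(t^ℓ) = ∏_{b<ℓ} y(ζ^b t)`.)

Inside `F_{Nℓ}` (no series), with `U := S35.helper2106.uNorm (N * ℓ) ℓ : F_{Nℓ} →* F_{Nℓ}` the landed
multiplicative `U_ℓ` (`= S35.helper1687.uFun` by `rfl`; `t`-expansion `kronNorm ζ ℓ`):

* `heckeAlphaBar_normAlong_heckeBetaBar` : `α (N_β x) = U x * W x`   [`α^* β_* = U_ℓ + W_ℓ`];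
* `heckeAlphaBar_normAlong_heckeAlphaBar` : `α (N_α x) = x * U (W x)`  [`α^* α_* = 1 + U_ℓ W_ℓ`];
* `mul_uNorm_alpha_normBeta` : `x * U (α (N_β x)) = α (N_α x) * U (U x)`  (the fixed-point
  relation: if both norms are constants times `n`-th powers, `x` is `U (U x)` up to a constant
  times an `n`-th power).  These are the
"`N_α(h) = h_∞ · N_φ(h_0)`, `N_β(h) = N_φ(h_∞) · h_0`" identities; for `x = α u` resp. `x = β u`
they specialise to the landed Hecke-norm formulas of `S37.helper9793`.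

Design: nothing new is proved about embeddings.  The landed `S37.helper9793_KroneckerFF`
already computes the norm of every `x` along `α` and `β` as the product over the `ℓ + 1`
embeddings (`norm_charpoly_along_alpha/_beta`), with the swap embedding
`x ↦ (swap x)(t^ℓ)`; this file identifies `helper9793.swapBar` with the canonical
`helper1073.atkinLehnerBar` (uniqueness on the generators `j(t^d)`) and rewrites the product of
the rotations as `kronNorm`.
-/

set_option autoImplicit false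

open ModularCurve AlgebraicCurve

namespace Fermat.Agent.S44.helper1687

noncomputable section

open Fermat.Agent.S24 Fermat.Agent.S24.helper24 Fermat.Agent.S24.helper3176
open Fermat.Agent.S37.helper5666 Fermat.Agent.S37.helper9793

section Swap

/-- The two index involutions agree. -/
theorem swapIdx_eq_wIdx (l e : ℕ) :
    swapIdx l e = Fermat.Agent.S35.helper1073.wIdx l e := by
  unfold swapIdx Fermat.Agent.S35.helper1073.wIdx
  split_ifs
  · rfl
  · exact mul_comm l e

variable (N l : ℕ) [NeZero N] [NeZero l] (hl : l.Prime) (hlN : ¬ l ∣ N)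

/-- **The swap of `S37.helper9793` is the canonical Atkin–Lehner involution `W_ℓ`** of
`S35.helper1073` on the function field of level `N ℓ`, `ℓ ∤ N`. -/
theorem swapBar_eq_atkinLehnerBar (x : FN (N * l)) :
    swapBar N l hl hlN x
      = Fermat.Agent.S35.helper1073.atkinLehnerBar (N * l) l hl (dvd_mul_left l N)
          (Fermat.Agent.S35.helper1073.not_sq_dvd_mul N l hl hlN) x := by
  refine Fermat.Agent.S35.helper1073.eq_atkinLehnerBar (N * l) l hl (dvd_mul_left l N)
    (Fermat.Agent.S35.helper1073.not_sq_dvd_mul N l hl hlN)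
    (swapBar N l hl hlN : FN (N * l) →ₐ[Kbar] FN (N * l)) (fun e => ?_) x
  have := e.neZero
  have h1 : Fermat.Agent.S24.helper137.genF (N * l) e = jGen (N * l) ⟨e.1, e.2⟩ :=
    (jGen_eq_jBarD (N * l) e.1 e.2).symm
  show swapBar N l hl hlN (Fermat.Agent.S24.helper137.genF (N * l) e) = _
  rw [h1, swapBar_apply, swapHom_jGen]
  apply Subtype.ext
  have : NeZero (Fermat.Agent.S35.helper1073.wIdx l e.1) :=
    ⟨Fermat.Agent.S35.helper1073.wIdx_ne_zero hl (NeZero.ne e.1)⟩
  show jSer Kbar (swapIdx l e.1) = jSeries (Fermat.Agent.S35.helper1073.wIdx l e.1)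
  rw [swapIdx_eq_wIdx, jSer_eq_jSeries]

end Swap

section Norm

variable (N l : ℕ) [NeZero N] [NeZero l] (hl : l.Prime) (hlN : ¬ l ∣ N)

/-- The product over the `ℓ + 1` embeddings over `β(F_N)`, in closed form. -/
theorem prod_betaEmb (ζ : Kbarˣ) (hζ : IsPrimitiveRoot ζ l) (x : FN (N * l)) :
    ∏ o, betaEmb N l hl hlN ζ o x
      = qExpand Kbar l (kronNorm ζ l (x : LaurentSeries Kbar)
          * ((swapBar N l hl hlN x : FN (N * l)) : LaurentSeries Kbar)) := by
  rw [Fintype.prod_option, betaEmb_none, swapEmb_apply, map_mul,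
    qExpand_kronNorm ζ l hζ.pow_eq_one (hreg_of_isPrimitiveRoot l ζ hζ), kronProd,
    ← Fin.prod_univ_eq_prod_range (fun b => rot (ζ ^ b) (x : LaurentSeries Kbar)) l, mul_comm]
  rfl

/-- **(G-β), swap form.** -/
theorem coe_normAlong_heckeBetaBar_swap (ζ : Kbarˣ) (hζ : IsPrimitiveRoot ζ l)
    (x : FN (N * l)) :
    ((Fermat.Agent.S29.helper36.normAlong (heckeBetaBar Kbar N l) x : FN N) : LaurentSeries Kbar)
      = kronNorm ζ l (x : LaurentSeries Kbar)
        * ((swapBar N l hl hlN x : FN (N * l)) : LaurentSeries Kbar) := by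
  apply qExpand_injective (R := Kbar) l
  rw [← prod_betaEmb N l hl hlN ζ hζ x]
  exact (norm_charpoly_along_beta N l hl hlN ζ hζ x).1

/-- **(G-α), swap form.** -/
theorem coe_normAlong_heckeAlphaBar_swap (ζ : Kbarˣ) (hζ : IsPrimitiveRoot ζ l)
    (x : FN (N * l)) :
    ((Fermat.Agent.S29.helper36.normAlong (heckeAlphaBar Kbar N l) x : FN N) : LaurentSeries Kbar)
      = (x : LaurentSeries Kbar)
        * kronNorm ζ l ((swapBar N l hl hlN x : FN (N * l)) : LaurentSeries Kbar) := by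
  apply qExpand_injective (R := Kbar) l
  have h1 := (norm_charpoly_along_alpha N l hl hlN ζ hζ x).1
  have h2 : ∏ o, alphaEmb N l hl hlN ζ o x
      = ∏ o, betaEmb N l hl hlN ζ o (swapBar N l hl hlN x) :=
    Finset.prod_congr rfl fun o _ => alphaEmb_apply N l hl hlN ζ o x
  rw [h2, prod_betaEmb N l hl hlN ζ hζ (swapBar N l hl hlN x), swapBar_swapBar] at h1
  rw [mul_comm (x : LaurentSeries Kbar)]
  exact h1

/-- **(G-β).**  For `ℓ` prime, `ℓ ∤ N`, `ζ` a primitive `ℓ`-th root of unity and EVERY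
`x : F_{Nℓ}`: the `t`-expansion of the norm of `x` along `β` is `kronNorm ζ ℓ x * W_ℓ x`. -/
theorem coe_normAlong_heckeBetaBar_of_not_dvd (ζ : Kbarˣ) (hζ : IsPrimitiveRoot ζ l)
    (x : FN (N * l)) :
    ((Fermat.Agent.S29.helper36.normAlong (heckeBetaBar Kbar N l) x : FN N) : LaurentSeries Kbar)
      = kronNorm ζ l (x : LaurentSeries Kbar)
        * ((Fermat.Agent.S35.helper1073.atkinLehnerBar (N * l) l hl (dvd_mul_left l N)
            (Fermat.Agent.S35.helper1073.not_sq_dvd_mul N l hl hlN) x : FN (N * l)) :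
            LaurentSeries Kbar) := by
  rw [← swapBar_eq_atkinLehnerBar N l hl hlN x]
  exact coe_normAlong_heckeBetaBar_swap N l hl hlN ζ hζ x

/-- **(G-α).**  For `ℓ` prime, `ℓ ∤ N`, `ζ` a primitive `ℓ`-th root of unity and EVERY
`x : F_{Nℓ}`: the `t`-expansion of the norm of `x` along `α` is `x * kronNorm ζ ℓ (W_ℓ x)`. -/
theorem coe_normAlong_heckeAlphaBar_of_not_dvd (ζ : Kbarˣ) (hζ : IsPrimitiveRoot ζ l)
    (x : FN (N * l)) :
    ((Fermat.Agent.S29.helper36.normAlong (heckeAlphaBar Kbar N l) x : FN N) : LaurentSeries Kbar)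
      = (x : LaurentSeries Kbar)
        * kronNorm ζ l
          ((Fermat.Agent.S35.helper1073.atkinLehnerBar (N * l) l hl (dvd_mul_left l N)
            (Fermat.Agent.S35.helper1073.not_sq_dvd_mul N l hl hlN) x : FN (N * l)) :
            LaurentSeries Kbar) := by
  rw [← swapBar_eq_atkinLehnerBar N l hl hlN x]
  exact coe_normAlong_heckeAlphaBar_swap N l hl hlN ζ hζ x

/-- The two norms are exchanged by `W_ℓ`: `N_α x = N_β (W_ℓ x)`. -/
theorem normAlong_heckeAlphaBar_eq_beta_atkinLehner (x : FN (N * l)) :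
    Fermat.Agent.S29.helper36.normAlong (heckeAlphaBar Kbar N l) x
      = Fermat.Agent.S29.helper36.normAlong (heckeBetaBar Kbar N l)
          (Fermat.Agent.S35.helper1073.atkinLehnerBar (N * l) l hl (dvd_mul_left l N)
            (Fermat.Agent.S35.helper1073.not_sq_dvd_mul N l hl hlN) x) := by
  obtain ⟨ζ, hζ⟩ := exists_primitiveRoot_unit l
  apply Subtype.ext
  rw [coe_normAlong_heckeAlphaBar_of_not_dvd N l hl hlN ζ hζ x,
    coe_normAlong_heckeBetaBar_of_not_dvd N l hl hlN ζ hζ,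
    Fermat.Agent.S35.helper1073.atkinLehnerBar_atkinLehnerBar, mul_comm]

end Norm

/-! ## The same identities inside `F_{Nℓ}`: `α^* β_* = U_ℓ + W_ℓ`, `α^* α_* = 1 + U_ℓ W_ℓ` -/

section QNew

open Fermat.Agent.S35.helper2106 (uNorm)

variable (N l : ℕ) [NeZero N] [NeZero l] (hl : l.Prime) (hlN : ¬ l ∣ N)

/-- **`α^* β_* = U_ℓ + W_ℓ` on functions** (multiplicatively): `α (N_β x) = U_ℓ x * W_ℓ x` in
`F_{Nℓ}`, for every `x`. -/
theorem heckeAlphaBar_normAlong_heckeBetaBar (x : FN (N * l)) :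
    heckeAlphaBar Kbar N l (Fermat.Agent.S29.helper36.normAlong (heckeBetaBar Kbar N l) x)
      = uNorm (N * l) l x
        * Fermat.Agent.S35.helper1073.atkinLehnerBar (N * l) l hl (dvd_mul_left l N)
            (Fermat.Agent.S35.helper1073.not_sq_dvd_mul N l hl hlN) x := by
  obtain ⟨ζ, hζ⟩ := exists_primitiveRoot_unit l
  apply Subtype.ext
  rw [coe_heckeAlphaBar, coe_normAlong_heckeBetaBar_of_not_dvd N l hl hlN ζ hζ x]
  show _ = ((uNorm (N * l) l x : FN (N * l)) : LaurentSeries Kbar) * _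
  rw [Fermat.Agent.S35.helper2106.coe_uNorm (N * l) l hl (dvd_mul_left l N) ζ hζ x]

/-- **`α^* α_* = 1 + U_ℓ W_ℓ` on functions** (multiplicatively): `α (N_α x) = x * U_ℓ (W_ℓ x)` in
`F_{Nℓ}`, for every `x`. -/
theorem heckeAlphaBar_normAlong_heckeAlphaBar (x : FN (N * l)) :
    heckeAlphaBar Kbar N l (Fermat.Agent.S29.helper36.normAlong (heckeAlphaBar Kbar N l) x)
      = x * uNorm (N * l) l
          (Fermat.Agent.S35.helper1073.atkinLehnerBar (N * l) l hl (dvd_mul_left l N)
            (Fermat.Agent.S35.helper1073.not_sq_dvd_mul N l hl hlN) x) := by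
  obtain ⟨ζ, hζ⟩ := exists_primitiveRoot_unit l
  apply Subtype.ext
  rw [coe_heckeAlphaBar, coe_normAlong_heckeAlphaBar_of_not_dvd N l hl hlN ζ hζ x]
  show _ = (x : LaurentSeries Kbar) * ((uNorm (N * l) l _ : FN (N * l)) : LaurentSeries Kbar)
  rw [Fermat.Agent.S35.helper2106.coe_uNorm (N * l) l hl (dvd_mul_left l N) ζ hζ]

/-- **The fixed-point relation.**  For every `x : F_{Nℓ}`:
`x * U (α (N_β x)) = α (N_α x) * U (U x)`, `U = U_ℓ`.  No hypothesis on `x`. -/
theorem mul_uNorm_alpha_normBeta (hl : l.Prime) (hlN : ¬ l ∣ N) (x : FN (N * l)) :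
    x * uNorm (N * l) l
        (heckeAlphaBar Kbar N l (Fermat.Agent.S29.helper36.normAlong (heckeBetaBar Kbar N l) x))
      = heckeAlphaBar Kbar N l
          (Fermat.Agent.S29.helper36.normAlong (heckeAlphaBar Kbar N l) x)
        * uNorm (N * l) l (uNorm (N * l) l x) := by
  rw [heckeAlphaBar_normAlong_heckeBetaBar N l hl hlN x,
    heckeAlphaBar_normAlong_heckeAlphaBar N l hl hlN x, map_mul]
  ring

end QNew

end

end Fermat.Agent.S44.helper1687
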