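/-
S44-L7-ANN (helper2117): "the annihilator of the functions regular off the cusp `∞` is the
reduction of `S₂(Γ₀(N); ℤ)`" — the modular instance, on the landed S18 track-C library.

Setting: `N` any level, `ℓ` a prime not dividing `N`, `A` a valuation subring of `ℚ̄` over `ℓ`,
`κ` its residue field, `D` an integral basis of `S₂(Γ₀(N))` (`helper5819.IntBasis N 2`).
`R` := the reductions `coeffMap (residue A) x` of the `A`-integral series `x` that are functions
of `X₀(N)` over `ℚ̄` regular away from the cusp `∞` (`helper99.RegAwayInf`).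

* `ct_j`        : every element of `R` lies in `helper2707.Bsub κ N j̄` (integral over `κ[j̄]` and
                  regular at the conjugate embeddings over `j̄ = ∞` other than the given one);
* `const_j`     : an element of `R` without polar part is a constant;
* `exists_indep_red` : for every `n` there are `n + 1 - dim S₂` elements of `R` with pole order
                  `≤ n` and `κ`-linearly independent;
* `ann_le_span` : a series `G ∈ q κ[[q]]` with `[q⁰](y · G) = 0` for all `y ∈ R` lies in the
                  `κ`-span of the reductions of the integral basis, GIVEN the characteristic-zero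
                  residue statement `ResQ N A D` (`[q⁰](x · f_i) = 0` for the integral functions
                  regular off `∞` and the integral basis forms `f_i`).

No Hauptmodul line, no auxiliary level, no lifting from the special fibre.
-/
import Mathlib
import Fermat.Agent.S18.helper1446_CtLine
import Fermat.Agent.S18.helper3574_NormC
import Fermat.Agent.S18.helper2707_Bbar
import Fermat.Agent.S18.helper20_StmtR
import Fermat.Agent.S18.helper4387_BoundedDen
import Fermat.Agent.S18.helper508_TrackCGauss
import Fermat.Agent.S18.helper1040_PlaceFacts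
import Fermat.Agent.S18.helper4801_GapAlg
import Fermat.Agent.S18.helper5819_S2Red
import Fermat.Agent.S18.helper36_FunctionFieldK
import Fermat.Agent.S18.helper4307_PlacesFullC

set_option autoImplicit false
set_option synthInstance.maxHeartbeats 400000

noncomputable section

namespace Fermat.Agent.S44.helper2117

open Polynomial IntermediateField ModularCurve AlgebraicCurve
open Fermat.Agent.S18

local notation "Qb" => AlgebraicClosure ℚ

section CT

variable (N : ℕ) [NeZero N] {ℓ : ℕ} (hℓ : ℓ.Prime) (hℓN : ¬ ℓ ∣ N)
  (A : ValuationSubring Qb) (hA : A.LiesOverPrime ℓ)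

include hℓ hℓN hA in
/-- **`ct` on the `j`-line, every level.**  The reduction of an `A`-integral function of `X₀(N)`
regular away from the cusp `∞` lies in `helper2707.Bsub κ N j̄`. -/
theorem ct_j : ∀ (x : LaurentSeries A) (hx : coeffMap A.subtype x ∈ modularFunctionFieldBar N),
    helper99.RegAwayInf N ⟨coeffMap A.subtype x, hx⟩ →
      coeffMap (IsLocalRing.residue A) x ∈
        helper2707.Bsub (IsLocalRing.ResidueField A) N
          (helper9392.jbarC (IsLocalRing.ResidueField A) N) := by
  intro x hx hreg
  have hF : Fact ℓ.Prime := ⟨hℓ⟩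
  have hA' : (ℓ : Qb) ∈ A.nonunits := hA
  have hxb : coeffMap (IsLocalRing.residue A) x ∈
      modularFunctionFieldFullC (IsLocalRing.ResidueField A) N :=
    helper508.stmt_Gauss N ℓ hℓ hℓN A hA x hx
  have hAC : IsAlgClosed (IsLocalRing.ResidueField A) :=
    Fermat.Agent.Lib.helper6879.isAlgClosed_residueField A
  have hCP : CharP (IsLocalRing.ResidueField A) ℓ := helper508.charP_residueField ℓ A hA'
  have hNk := helper4307.natCast_ne_zero_residue N hℓ hℓN A hA
  -- the two lines
  have hfin0 : FiniteDimensional Qb⟮Fermat.Agent.S29.helper36.jL Qb N⟯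
      ↥(modularFunctionFieldBar N) := Fermat.Agent.S29.helper36.finiteDimensional_jL Qb N
  have hfink : FiniteDimensional
      (IsLocalRing.ResidueField A)⟮helper9392.jbarC (IsLocalRing.ResidueField A) N⟯
      ↥(modularFunctionFieldFullC (IsLocalRing.ResidueField A) N) :=
    helper36.finiteDimensional_jK (IsLocalRing.ResidueField A) N hNk
  have hsep : Algebra.IsSeparable
      (IsLocalRing.ResidueField A)⟮helper9392.jbarC (IsLocalRing.ResidueField A) N⟯
      ↥(modularFunctionFieldFullC (IsLocalRing.ResidueField A) N) :=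
    helper9392.isSeparable_modularFunctionFieldFullC_of_isAlgClosed
      (IsLocalRing.ResidueField A) ℓ N
  have hord : ((Fermat.Agent.S29.helper36.jL Qb N : ↥(modularFunctionFieldBar N)) :
      LaurentSeries Qb).order = -1 := helper9392.order_jqModC Qb
  have hordb : ((helper9392.jbarC (IsLocalRing.ResidueField A) N :
      ↥(modularFunctionFieldFullC (IsLocalRing.ResidueField A) N)) :
      LaurentSeries (IsLocalRing.ResidueField A)).order = -1 :=
    helper9392.order_jqModC (IsLocalRing.ResidueField A)
  have htr : Transcendental Qb (Fermat.Agent.S29.helper36.jL Qb N) :=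
    Fermat.Agent.S29.helper36.transcendental_jL Qb N
  have htrb : Transcendental (IsLocalRing.ResidueField A)
      (helper9392.jbarC (IsLocalRing.ResidueField A) N) :=
    helper36.transcendental_jK (IsLocalRing.ResidueField A) N
  have ht : ((Fermat.Agent.S29.helper36.jL Qb N : ↥(modularFunctionFieldBar N)) :
      LaurentSeries Qb) = coeffMap A.subtype (jqModC A) := (coeffMap_jqModC _).symm
  have htb : ((helper9392.jbarC (IsLocalRing.ResidueField A) N :
      ↥(modularFunctionFieldFullC (IsLocalRing.ResidueField A) N)) :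
      LaurentSeries (IsLocalRing.ResidueField A)) = coeffMap (IsLocalRing.residue A) (jqModC A) :=
    (coeffMap_jqModC _).symm
  -- the charpoly reduction on the `j`-line
  have hy : coeffMap A.subtype (jqModC A) ∈ laurentBaseChange Qb (modularFunctionFieldFull N) := by
    rw [coeffMap_jqModC]
    exact (Fermat.Agent.S29.helper36.jL Qb N).2
  have htrS : Transcendental (IsLocalRing.ResidueField A)
      (coeffMap (IsLocalRing.residue A) (jqModC A)) := by
    rw [coeffMap_jqModC]
    exact (transcendental_iff_injective).mpr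
      (Fermat.Agent.S28.helper3292.aeval_jqModC_injective (IsLocalRing.ResidueField A))
  have hgen : (⟨coeffMap A.subtype (jqModC A), hy⟩ :
      ↥(laurentBaseChange Qb (modularFunctionFieldFull N))) = helper1733.gaussJ Qb N :=
    Subtype.ext (coeffMap_jqModC _)
  have hj : helper1733.gaussJ Qb N ∈
      Qb⟮(⟨coeffMap A.subtype (jqModC A), hy⟩ :
        ↥(laurentBaseChange Qb (modularFunctionFieldFull N)))⟯ := by
    rw [hgen]
    exact mem_adjoin_simple_self Qb _
  have hCPR : helper7261.LineCharpolyRed N A (jqModC A) :=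
    helper1446.lineCharpolyRed N ℓ hℓN A hA' (jqModC A) hy htrS hj
  have hint := helper8589.isIntegral_adjoin_of_regAwayInf N hord hreg
  obtain ⟨Q₀, -, hQ₀⟩ := helper8589.exists_cofactor_of_regAwayInf N hord hreg
  have key := helper7261.ct_abstract A (IsLocalRing.residue A) (modularFunctionFieldBar N).val
    (modularFunctionFieldFullC (IsLocalRing.ResidueField A) N).val
    (fun a ha => (IsLocalRing.residue_eq_zero_iff a).mpr ha)
    (jqModC A) (Fermat.Agent.S29.helper36.jL Qb N)
    (helper9392.jbarC (IsLocalRing.ResidueField A) N) ht htb htr htrb hordb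
    x ⟨coeffMap A.subtype x, hx⟩ ⟨coeffMap (IsLocalRing.residue A) x, hxb⟩ rfl rfl
    (hCPR (Fermat.Agent.S29.helper36.jL Qb N) (helper9392.jbarC (IsLocalRing.ResidueField A) N)
      ht htb x ⟨coeffMap A.subtype x, hx⟩ ⟨coeffMap (IsLocalRing.residue A) x, hxb⟩ rfl rfl)
    hint ⟨Q₀, hQ₀⟩
  exact helper2707.mem_Bsub_iff.mpr ⟨hxb, key.1, key.2⟩

include hℓ hℓN hA in
/-- **`const`**: the reduction of an `A`-integral function regular away from `∞`, if it has no
polar part, is a constant. -/
theorem const_j (x : LaurentSeries A) (hx : coeffMap A.subtype x ∈ modularFunctionFieldBar N)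
    (hreg : helper99.RegAwayInf N ⟨coeffMap A.subtype x, hx⟩)
    (hpol : ∀ i : ℤ, i < 0 → (coeffMap (IsLocalRing.residue A) x).coeff i = 0) :
    ∃ c : IsLocalRing.ResidueField A, coeffMap (IsLocalRing.residue A) x = HahnSeries.C c := by
  have hF : Fact ℓ.Prime := ⟨hℓ⟩
  have hA' : (ℓ : Qb) ∈ A.nonunits := hA
  have hAC : IsAlgClosed (IsLocalRing.ResidueField A) :=
    Fermat.Agent.Lib.helper6879.isAlgClosed_residueField A
  have hCP : CharP (IsLocalRing.ResidueField A) ℓ := helper508.charP_residueField ℓ A hA'
  have hNk := helper4307.natCast_ne_zero_residue N hℓ hℓN A hA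
  have hfink : FiniteDimensional
      (IsLocalRing.ResidueField A)⟮helper9392.jbarC (IsLocalRing.ResidueField A) N⟯
      ↥(modularFunctionFieldFullC (IsLocalRing.ResidueField A) N) :=
    helper36.finiteDimensional_jK (IsLocalRing.ResidueField A) N hNk
  have hsep : Algebra.IsSeparable
      (IsLocalRing.ResidueField A)⟮helper9392.jbarC (IsLocalRing.ResidueField A) N⟯
      ↥(modularFunctionFieldFullC (IsLocalRing.ResidueField A) N) :=
    helper9392.isSeparable_modularFunctionFieldFullC_of_isAlgClosed
      (IsLocalRing.ResidueField A) ℓ N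
  have hordb : ((helper9392.jbarC (IsLocalRing.ResidueField A) N :
      ↥(modularFunctionFieldFullC (IsLocalRing.ResidueField A) N)) :
      LaurentSeries (IsLocalRing.ResidueField A)).order = -1 :=
    helper9392.order_jqModC (IsLocalRing.ResidueField A)
  exact helper2707.Bsub_const (helper9392.jbarC (IsLocalRing.ResidueField A) N) hordb _
    (ct_j N hℓ hℓN A hA x hx hreg) hpol

end CT

/-! ## The reductions of the integral functions of `L(n · ∞)` -/

section RedRR

variable (N : ℕ) (A : ValuationSubring Qb)

/-- An element of `L(n · ∞)` is regular away from the cusp `∞`. -/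
theorem regAwayInf_of_mem_rr {n : ℕ} {e : modularFunctionFieldBar N}
    (he : e ∈ riemannRochSpace (n • Finsupp.single (helper1040.cuspInf N) (1 : ℤ))) :
    helper99.RegAwayInf N e := by
  intro P hP
  rw [mem_riemannRochSpace_iff] at he
  rcases he P with h0 | h
  · rw [h0, Place.ord_zero]
  · have hne : P ≠ helper1040.cuspInf N := fun h' => hP (h' ▸ helper1040.isCuspInf_cuspInf N)
    rw [Finsupp.smul_apply, Finsupp.single_eq_of_ne hne, smul_zero, neg_zero] at h
    exact h

/-- The `q`-expansion of an element of `L(n · ∞)` has no coefficient below `-n`. -/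
theorem coeff_eq_zero_of_mem_rr {n : ℕ} {e : modularFunctionFieldBar N}
    (he : e ∈ riemannRochSpace (n • Finsupp.single (helper1040.cuspInf N) (1 : ℤ)))
    {j : ℤ} (hj : j < -(n : ℤ)) : (e : LaurentSeries Qb).coeff j = 0 := by
  rcases eq_or_ne e 0 with rfl | he0
  · rfl
  rw [mem_riemannRochSpace_iff] at he
  have h := (he (helper1040.cuspInf N)).resolve_left he0
  rw [Finsupp.smul_apply, Finsupp.single_eq_same, nsmul_eq_mul, mul_one,
    helper1040.isCuspInf_cuspInf N e he0] at h
  exact HahnSeries.coeff_eq_zero_of_lt_order (lt_of_lt_of_le hj h)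

/-- `R_n`: the reductions of the `A`-integral `q`-expansions of the functions in `L(n · ∞)`. -/
def redRR (n : ℕ) : Submodule (IsLocalRing.ResidueField A)
    (LaurentSeries (IsLocalRing.ResidueField A)) where
  carrier := {xb | ∃ (x : LaurentSeries A) (e : modularFunctionFieldBar N),
    e ∈ riemannRochSpace (n • Finsupp.single (helper1040.cuspInf N) (1 : ℤ)) ∧
    coeffMap A.subtype x = (e : LaurentSeries Qb) ∧ coeffMap (IsLocalRing.residue A) x = xb}
  add_mem' := by
    rintro _ _ ⟨x, e, he, hxe, rfl⟩ ⟨x', e', he', hxe', rfl⟩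
    exact ⟨x + x', e + e', Submodule.add_mem _ he he', by rw [map_add, hxe, hxe']; rfl,
      by rw [map_add]⟩
  zero_mem' := ⟨0, 0, Submodule.zero_mem _, by rw [map_zero]; rfl, by rw [map_zero]⟩
  smul_mem' := by
    rintro cbar _ ⟨x, e, he, hxe, rfl⟩
    obtain ⟨c, rfl⟩ := IsLocalRing.residue_surjective cbar
    refine ⟨HahnSeries.C c * x, (c : Qb) • e, Submodule.smul_mem _ _ he, ?_, ?_⟩
    · rw [map_mul, hxe, helper3574.coe_smul_eq_C_mul]
      congr 1
      rw [HahnSeries.C_apply, coeffMap_single]
      rfl
    · rw [map_mul, ← HahnSeries.C_mul_eq_smul]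
      congr 1
      rw [HahnSeries.C_apply, coeffMap_single]
      rfl

theorem mem_redRR {n : ℕ} {xb : LaurentSeries (IsLocalRing.ResidueField A)} :
    xb ∈ redRR N A n ↔ ∃ (x : LaurentSeries A) (e : modularFunctionFieldBar N),
      e ∈ riemannRochSpace (n • Finsupp.single (helper1040.cuspInf N) (1 : ℤ)) ∧
      coeffMap A.subtype x = (e : LaurentSeries Qb) ∧
      coeffMap (IsLocalRing.residue A) x = xb := Iff.rfl

/-- Every element of `R_n` is the reduction of an integral function regular away from `∞`. -/
theorem exists_regAwayInf_of_mem_redRR {n : ℕ} {xb : LaurentSeries (IsLocalRing.ResidueField A)}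
    (h : xb ∈ redRR N A n) :
    ∃ (x : LaurentSeries A) (hx : coeffMap A.subtype x ∈ modularFunctionFieldBar N),
      helper99.RegAwayInf N ⟨coeffMap A.subtype x, hx⟩ ∧
      coeffMap (IsLocalRing.residue A) x = xb := by
  obtain ⟨x, e, he, hxe, rfl⟩ := h
  have hx : coeffMap A.subtype x ∈ modularFunctionFieldBar N := hxe ▸ e.2
  have hsub : (⟨coeffMap A.subtype x, hx⟩ : modularFunctionFieldBar N) = e := Subtype.ext hxe
  exact ⟨x, hx, hsub ▸ regAwayInf_of_mem_rr N he, rfl⟩

/-- The elements of `R_n` have pole order at most `n`. -/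
theorem coeff_eq_zero_of_mem_redRR {n : ℕ} {xb : LaurentSeries (IsLocalRing.ResidueField A)}
    (h : xb ∈ redRR N A n) {j : ℤ} (hj : j < -(n : ℤ)) : xb.coeff j = 0 := by
  obtain ⟨x, e, he, hxe, rfl⟩ := h
  have h1 : (coeffMap A.subtype x).coeff j = 0 := by
    rw [hxe]
    exact coeff_eq_zero_of_mem_rr N he hj
  rw [coeffMap_coeff] at h1 ⊢
  have h2 : x.coeff j = 0 := Subtype.ext h1
  rw [h2, map_zero]

end RedRR

/-! ## Dimension of `R_n` (Riemann at the cusp + bounded denominators + lattice count) -/

section Dim

variable (N : ℕ) [NeZero N] {ℓ : ℕ} (hℓ : ℓ.Prime)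
  (A : ValuationSubring Qb) (hA : A.LiesOverPrime ℓ)

include hℓ hA in
/-- **(HR)** `R_n` contains `d` linearly independent elements with
`n + 1 ≤ d + dim S₂(Γ₀(N))`. -/
theorem exists_indep_redRR (n : ℕ) :
    ∃ (d : ℕ) (v : Fin d → LaurentSeries (IsLocalRing.ResidueField A)),
      n + 1 ≤ d + Module.finrank ℂ (CuspForm (CongruenceSubgroup.Gamma0 N) 2) ∧
      (∀ i, v i ∈ redRR N A n) ∧ LinearIndependent (IsLocalRing.ResidueField A) v := by
  classical
  have hPF := helper1040.placeFacts N
  have := hPF.principal
  have hdeg := hPF.deg_one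
  have hBD := helper4387.stmt_BD N ℓ hℓ A hA
  set Pinf := helper1040.cuspInf N with hPinf
  have hcusp := helper1040.isCuspInf_cuspInf N
  set V : Submodule Qb (modularFunctionFieldBar N) :=
    riemannRochSpace (n • Finsupp.single Pinf (1 : ℤ)) with hV
  have hR := helper20.stmt_R N Pinf hcusp n
  have hfin : Module.Finite Qb V :=
    helper981.finite_riemannRochSpace hdeg Pinf (n • Finsupp.single Pinf (1 : ℤ))
  -- the expansion map on `V`
  obtain ⟨Φ, hΦ⟩ : ∃ Φ : ↥V →ₗ[Qb] LaurentSeries Qb,
      ∀ e : ↥V, Φ e = ((e : modularFunctionFieldBar N) : LaurentSeries Qb) := by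
    refine ⟨{ toFun := fun e => ((e : modularFunctionFieldBar N) : LaurentSeries Qb)
              map_add' := fun e₁ e₂ => rfl
              map_smul' := fun c e => ?_ }, fun e => rfl⟩
    show (((c • e : ↥V) : modularFunctionFieldBar N) : LaurentSeries Qb) =
      c • ((e : modularFunctionFieldBar N) : LaurentSeries Qb)
    rw [Submodule.coe_smul, helper3574.coe_smul_eq_C_mul, HahnSeries.C_mul_eq_smul]
  have hP : ∀ e : ↥V, e ≠ 0 → ∃ (c : Qb) (y : LaurentSeries A),
      coeffMap (IsLocalRing.residue A) y ≠ 0 ∧ coeffMap A.subtype y = Φ (c • e) := by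
    intro e he
    have he0 : (e : modularFunctionFieldBar N) ≠ 0 := fun h => he (Subtype.ext h)
    obtain ⟨c', y, -, hy, hyx⟩ := helper3574.exists_primitive_of_regAway hBD _ he0
      (regAwayInf_of_mem_rr N e.2)
    refine ⟨c', y, hy, ?_⟩
    rw [hyx, hΦ, Submodule.coe_smul, helper3574.coe_smul_eq_C_mul]
  obtain ⟨y, hy, hyind⟩ := helper3574.lattice_count A (Module.finrank Qb V) ↥V Φ hP le_rfl
  refine ⟨Module.finrank Qb V, fun i => coeffMap (IsLocalRing.residue A) (y i), ?_, ?_, hyind⟩
  · have h1 : (n : ℤ) + 1 ≤ (Module.finrank Qb V : ℤ) +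
        (Module.finrank ℂ (CuspForm (CongruenceSubgroup.Gamma0 N) 2) : ℤ) := by linarith
    exact_mod_cast h1
  · intro i
    obtain ⟨e, he⟩ := hy i
    exact ⟨y i, (e : modularFunctionFieldBar N), e.2, by rw [he, hΦ], rfl⟩

end Dim

/-! ## The residue pairing and the annihilator theorem -/

section Ann

variable (N : ℕ) [NeZero N]

/-- **The characteristic-zero residue statement** (function-field form of the classical residue
theorem for `f · g dq/q`, `f` regular away from the cusp `∞`, `g` a weight-2 cusp form): the
constant term of `f · g_i` vanishes for every function `f` of `X₀(N)` regular away from `∞` and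
every member `g_i` of the integral basis `D`. -/
def ResQ (D : helper5819.IntBasis N 2) : Prop :=
  ∀ f : modularFunctionFieldBar N, helper99.RegAwayInf N f → ∀ i : Fin D.r,
    ((f : LaurentSeries Qb) * D.laurent Qb i).coeff 0 = 0

variable {N}
variable {ℓ : ℕ} (hℓ : ℓ.Prime) (hℓN : ¬ ℓ ∣ N) (A : ValuationSubring Qb) (hA : A.LiesOverPrime ℓ)

omit [NeZero N] in
/-- **`kl`**: the residue statement reduces: the reductions of the integral functions regular
away from `∞` pair to zero with the reductions of the integral basis. -/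
theorem coeff_zero_mul_laurent_of_resQ (D : helper5819.IntBasis N 2) (hres : ResQ N D)
    (x : LaurentSeries A) (hx : coeffMap A.subtype x ∈ modularFunctionFieldBar N)
    (hreg : helper99.RegAwayInf N ⟨coeffMap A.subtype x, hx⟩) (i : Fin D.r) :
    (coeffMap (IsLocalRing.residue A) x * D.laurent (IsLocalRing.ResidueField A) i).coeff 0
      = 0 := by
  have h1 := hres ⟨coeffMap A.subtype x, hx⟩ hreg i
  have h2 : (coeffMap A.subtype (x * D.laurent A i)).coeff 0 = 0 := by
    rw [map_mul, D.coeffMap_laurent]
    exact h1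
  rw [coeffMap_coeff] at h2
  have h3 : (x * D.laurent A i).coeff 0 = 0 := Subtype.ext h2
  rw [← D.coeffMap_laurent (IsLocalRing.residue A) i, ← map_mul, coeffMap_coeff, h3, map_zero]

include hℓ hℓN hA in
/-- **The annihilator theorem.**  Let `G ∈ q κ[[q]]` pair to zero (constant term of the product)
with the reduction of every `A`-integral function of `X₀(N)` regular away from the cusp `∞`.
Then, given the characteristic-zero residue statement, `G` lies in the `κ`-span of the
reductions of the integral basis of `S₂(Γ₀(N))`. -/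
theorem ann_le_span (D : helper5819.IntBasis N 2) (hres : ResQ N D)
    (G : LaurentSeries (IsLocalRing.ResidueField A)) (hG0 : ∀ i : ℤ, i ≤ 0 → G.coeff i = 0)
    (hG : ∀ (x : LaurentSeries A) (hx : coeffMap A.subtype x ∈ modularFunctionFieldBar N),
      helper99.RegAwayInf N ⟨coeffMap A.subtype x, hx⟩ →
        (coeffMap (IsLocalRing.residue A) x * G).coeff 0 = 0) :
    G ∈ Submodule.span (IsLocalRing.ResidueField A)
      (Set.range (D.laurent (IsLocalRing.ResidueField A))) := by
  classical
  by_contra hGn
  have hF : Fact ℓ.Prime := ⟨hℓ⟩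
  have hA' : (ℓ : Qb) ∈ A.nonunits := hA
  have hCP : CharP (IsLocalRing.ResidueField A) ℓ := helper508.charP_residueField ℓ A hA'
  have hlin : LinearIndependent (IsLocalRing.ResidueField A)
      (D.laurent (IsLocalRing.ResidueField A)) :=
    D.laurent_linearIndependent_charP ℓ (IsLocalRing.ResidueField A)
  -- the enlarged family `G, f̄_1, …, f̄_r`
  have hlin' : LinearIndependent (IsLocalRing.ResidueField A)
      (Fin.cons G (D.laurent (IsLocalRing.ResidueField A)) :
        Fin (D.r + 1) → LaurentSeries (IsLocalRing.ResidueField A)) :=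
    linearIndependent_finCons.mpr ⟨hlin, hGn⟩
  have hf0 : ∀ (r : Fin (D.r + 1)) (i : ℤ), i ≤ 0 →
      ((Fin.cons G (D.laurent (IsLocalRing.ResidueField A)) :
        Fin (D.r + 1) → LaurentSeries (IsLocalRing.ResidueField A)) r).coeff i = 0 := by
    intro r
    refine Fin.cases ?_ (fun r' => ?_) r
    · intro i hi
      rw [Fin.cons_zero]
      exact hG0 i hi
    · intro i hi
      rw [Fin.cons_succ]
      exact D.laurent_coeff_of_nonpos (IsLocalRing.ResidueField A) r' hi
  obtain ⟨n₁, hn₁⟩ := helper4801.exists_gap_bound _ hf0 hlin'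
  obtain ⟨d, v, hd, hv, hvind⟩ := exists_indep_redRR N hℓ A hA n₁
  obtain ⟨hfin, hle⟩ := hn₁ n₁ le_rfl (redRR N A n₁)
    (fun x hx i hi => coeff_eq_zero_of_mem_redRR N A hx hi)
    (fun x hx hpol => by
      obtain ⟨x₀, hx₀, hreg, rfl⟩ := exists_regAwayInf_of_mem_redRR N A hx
      exact const_j N hℓ hℓN A hA x₀ hx₀ hreg hpol)
    (fun x hx r => by
      obtain ⟨x₀, hx₀, hreg, rfl⟩ := exists_regAwayInf_of_mem_redRR N A hx
      refine Fin.cases ?_ (fun r' => ?_) r
      · rw [Fin.cons_zero]
        exact hG x₀ hx₀ hreg
      · rw [Fin.cons_succ]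
        exact coeff_zero_mul_laurent_of_resQ A D hres x₀ hx₀ hreg r')
  have hcard : d ≤ Module.finrank (IsLocalRing.ResidueField A) (redRR N A n₁) := by
    have hind' : LinearIndependent (IsLocalRing.ResidueField A)
        (fun i => (⟨v i, hv i⟩ : ↥(redRR N A n₁))) := by
      apply LinearIndependent.of_comp (redRR N A n₁).subtype
      exact hvind
    simpa using hind'.fintype_card_le_finrank
  have hr := D.r_eq
  omega

end Ann

end Fermat.Agent.S44.helper2117
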