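/-
S44-L7-ANN (helper2117), consumer forms of `ann_le_span` for the exit chain (block (HOL)).

Seams (hypothesis-passing, one `Prop` each):
* `ResQ N D`     : the characteristic-zero residue statement (CUSPRES (C2));
* `Stmt_Reg N A` : the reduction of an `A`-integral function regular off the cusp `∞` is regular
                   off the `q`-place of the special fibre (the easy half of reduction);
* the residue theorem on the special fibre (RT), passed as an explicit hypothesis.

Results:
* `mem_span_of_orthogonal_laurent` / `mem_span_of_orthogonal` : a series orthogonal to all the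
  functions of the special fibre regular off the `q`-place lies in the span of the reductions of
  the integral basis of `S₂(Γ₀(N))`  (no genus of the special fibre, no lifting);
* `dlog_mem_span_of_rt` : `θ(ψ)/ψ` for `ψ` with `ℓ ∣ ord` off the `q`-place lies in that span.
-/
import Mathlib
import Fermat.Agent.S44.helper2117_CuspAnn
import Fermat.Agent.Lib.helper9242_LaurentTheta

set_option autoImplicit false
set_option synthInstance.maxHeartbeats 400000

noncomputable section

namespace Fermat.Agent.S44.helper2117

open Polynomial IntermediateField ModularCurve AlgebraicCurve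
open Fermat.Agent.S18

local notation "Qb" => AlgebraicClosure ℚ

section Exit

variable (N : ℕ) [NeZero N]

/-- **(REG)**: the reduction of an `A`-integral function of `X₀(N)` regular away from the cusp
`∞` is a function of the special fibre regular away from the `q`-place. -/
def Stmt_Reg (A : ValuationSubring Qb) : Prop :=
  ∀ (x : LaurentSeries A) (hx : coeffMap A.subtype x ∈ modularFunctionFieldBar N),
    helper99.RegAwayInf N ⟨coeffMap A.subtype x, hx⟩ →
    ∃ h : coeffMap (IsLocalRing.residue A) x ∈
        modularFunctionFieldFullC (IsLocalRing.ResidueField A) N,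
      ∀ w : Place (IsLocalRing.ResidueField A)
          (modularFunctionFieldFullC (IsLocalRing.ResidueField A) N),
        w ≠ helper36.qPlaceK (IsLocalRing.ResidueField A) N →
          0 ≤ w.ord (⟨coeffMap (IsLocalRing.residue A) x, h⟩ :
            modularFunctionFieldFullC (IsLocalRing.ResidueField A) N)

variable {N}
variable {ℓ : ℕ} (hℓ : ℓ.Prime) (hℓN : ¬ ℓ ∣ N) (A : ValuationSubring Qb) (hA : A.LiesOverPrime ℓ)

include hℓ hℓN hA in
/-- **Annihilator theorem, special-fibre form (Laurent carrier).**  A Laurent series without
polar part which pairs to zero with every function of the special fibre regular away from the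
`q`-place lies in the span of the reductions of the integral basis of `S₂(Γ₀(N))`. -/
theorem mem_span_of_orthogonal_laurent (D : helper5819.IntBasis N 2) (hres : ResQ N D)
    (hreg : Stmt_Reg N A) (G : LaurentSeries (IsLocalRing.ResidueField A))
    (hG0 : ∀ i : ℤ, i < 0 → G.coeff i = 0)
    (hG : ∀ f : modularFunctionFieldFullC (IsLocalRing.ResidueField A) N,
      (∀ w : Place (IsLocalRing.ResidueField A)
          (modularFunctionFieldFullC (IsLocalRing.ResidueField A) N),
        w ≠ helper36.qPlaceK (IsLocalRing.ResidueField A) N → 0 ≤ w.ord f) →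
      ((f : LaurentSeries (IsLocalRing.ResidueField A)) * G).coeff 0 = 0) :
    G ∈ Submodule.span (IsLocalRing.ResidueField A)
      (Set.range (D.laurent (IsLocalRing.ResidueField A))) := by
  refine ann_le_span hℓ hℓN A hA D hres G ?_ ?_
  · intro i hi
    rcases hi.lt_or_eq with h | rfl
    · exact hG0 i h
    · have h1 := hG 1 (fun w _ => by rw [w.ord_one])
      have h2 : (((1 : modularFunctionFieldFullC (IsLocalRing.ResidueField A) N)) :
          LaurentSeries (IsLocalRing.ResidueField A)) = 1 := rfl
      rwa [h2, one_mul] at h1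
  · intro x hx hr
    obtain ⟨h, hw⟩ := hreg x hx hr
    exact hG ⟨_, h⟩ hw

include hℓ hℓN hA in
/-- **Annihilator theorem, special-fibre form (power series carrier).** -/
theorem mem_span_of_orthogonal (D : helper5819.IntBasis N 2) (hres : ResQ N D)
    (hreg : Stmt_Reg N A) {G : PowerSeries (IsLocalRing.ResidueField A)}
    (hG : ∀ f : modularFunctionFieldFullC (IsLocalRing.ResidueField A) N,
      (∀ w : Place (IsLocalRing.ResidueField A)
          (modularFunctionFieldFullC (IsLocalRing.ResidueField A) N),
        w ≠ helper36.qPlaceK (IsLocalRing.ResidueField A) N → 0 ≤ w.ord f) →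
      ((f : LaurentSeries (IsLocalRing.ResidueField A)) *
        HahnSeries.ofPowerSeries ℤ (IsLocalRing.ResidueField A) G).coeff 0 = 0) :
    G ∈ Submodule.span (IsLocalRing.ResidueField A)
      (Set.range fun i => (D.B i).map (Int.castRingHom (IsLocalRing.ResidueField A))) := by
  have h1 := mem_span_of_orthogonal_laurent hℓ hℓN A hA D hres hreg
    (HahnSeries.ofPowerSeries ℤ (IsLocalRing.ResidueField A) G) (fun i hi => by
      rw [HahnSeries.ofPowerSeries_apply]
      refine HahnSeries.embDomain_of_notMem_range ?_
      rintro ⟨m, rfl⟩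
      exact absurd hi (not_lt.mpr (Int.natCast_nonneg m))) hG
  have h2 : Set.range (D.laurent (IsLocalRing.ResidueField A)) =
      (helper5819.ofPowerSeriesLin (IsLocalRing.ResidueField A)) ''
        (Set.range fun i => (D.B i).map (Int.castRingHom (IsLocalRing.ResidueField A))) := by
    rw [← Set.range_comp]
    rfl
  rw [h2, ← Submodule.map_span] at h1
  obtain ⟨G', hG', hGG'⟩ := h1
  have h3 : G' = G := HahnSeries.ofPowerSeries_injective hGG'
  rwa [← h3]

/-- `θ(ψ)/ψ` has no polar part. -/
theorem thetaFun_div_coeff_of_neg {k : Type*} [Field k] (ψ : LaurentSeries k) {i : ℤ}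
    (hi : i < 0) : (Fermat.Agent.Lib.helper9242.thetaFun k ψ / ψ).coeff i = 0 := by
  rcases eq_or_ne (Fermat.Agent.Lib.helper9242.thetaFun k ψ / ψ) 0 with h | h
  · rw [h]
    rfl
  have hψ : ψ ≠ 0 := by
    rintro rfl
    exact h (div_zero _)
  have hθ : Fermat.Agent.Lib.helper9242.thetaFun k ψ ≠ 0 := by
    intro h0
    rw [h0, zero_div] at h
    exact h rfl
  have e : Fermat.Agent.Lib.helper9242.thetaFun k ψ / ψ * ψ =
      Fermat.Agent.Lib.helper9242.thetaFun k ψ := div_mul_cancel₀ _ hψ
  have ho : (Fermat.Agent.Lib.helper9242.thetaFun k ψ).order =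
      (Fermat.Agent.Lib.helper9242.thetaFun k ψ / ψ).order + ψ.order := by
    rw [← HahnSeries.order_mul h hψ, e]
  have hle : ψ.order ≤ (Fermat.Agent.Lib.helper9242.thetaFun k ψ).order := by
    apply HahnSeries.order_le_of_coeff_ne_zero
    have h1 : (Fermat.Agent.Lib.helper9242.thetaFun k ψ).coeff
        (Fermat.Agent.Lib.helper9242.thetaFun k ψ).order ≠ 0 :=
      fun h0 => hθ (HahnSeries.coeff_order_eq_zero.mp h0)
    exact Fermat.Agent.Lib.helper9242.thetaFun_support_subset k ψ h1
  exact HahnSeries.coeff_eq_zero_of_lt_order (by omega)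

include hℓ hℓN hA in
/-- **(HOL) from its seams, span form.**  If `ψ` is a function of the special fibre such that
`θ(ψ)/ψ` pairs to zero with every function regular away from the `q`-place (the residue theorem
(RT) for `f · dlog ψ` when `ℓ ∣ ord_Q ψ` at every `Q ≠ ∞`), then `θ(ψ)/ψ` lies in the span of the
reductions of the integral basis of `S₂(Γ₀(N))`. -/
theorem dlog_mem_span_of_rt (D : helper5819.IntBasis N 2) (hres : ResQ N D)
    (hreg : Stmt_Reg N A) (ψ : LaurentSeries (IsLocalRing.ResidueField A))
    (hRT : ∀ f : modularFunctionFieldFullC (IsLocalRing.ResidueField A) N,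
      (∀ w : Place (IsLocalRing.ResidueField A)
          (modularFunctionFieldFullC (IsLocalRing.ResidueField A) N),
        w ≠ helper36.qPlaceK (IsLocalRing.ResidueField A) N → 0 ≤ w.ord f) →
      ((f : LaurentSeries (IsLocalRing.ResidueField A)) *
        (Fermat.Agent.Lib.helper9242.thetaFun (IsLocalRing.ResidueField A) ψ / ψ)).coeff 0 = 0) :
    Fermat.Agent.Lib.helper9242.thetaFun (IsLocalRing.ResidueField A) ψ / ψ ∈
      Submodule.span (IsLocalRing.ResidueField A)
        (Set.range (D.laurent (IsLocalRing.ResidueField A))) :=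
  mem_span_of_orthogonal_laurent hℓ hℓN A hA D hres hreg _
    (fun _ hi => thetaFun_div_coeff_of_neg ψ hi) hRT

omit [NeZero N] in
/-- Coefficient form of membership in the span of the reductions of the integral basis: an
explicit finite combination of reductions of integral cusp forms (the right-hand side of
`helper6368.mem_modCusp_iff`). -/
theorem exists_int_combination_of_mem_span {k : Type*} [Field k] (D : helper5819.IntBasis N 2)
    {G : LaurentSeries k} (hG : G ∈ Submodule.span k (Set.range (D.laurent k))) :
    ∃ (r : ℕ) (c : Fin r → k) (g : Fin r → CuspForm (CongruenceSubgroup.Gamma0 N) 2)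
      (a : Fin r → ℕ → ℤ), (∀ i n, ((a i n : ℤ) : ℂ) = ModularFormClass.qCoeff ⇑(g i) n) ∧
        ∀ n : ℕ, G.coeff (n : ℤ) = ∑ i, c i * ((a i n : ℤ) : k) := by
  obtain ⟨c, hc⟩ := (Submodule.mem_span_range_iff_exists_fun k).mp hG
  refine ⟨D.r, c, fun i => D.b i, fun i n => PowerSeries.coeff n (D.B i),
    fun i n => (D.qCoeff_eq i n).symm, fun n => ?_⟩
  rw [← hc, HahnSeries.coeff_sum]
  refine Finset.sum_congr rfl fun i _ => ?_
  rw [HahnSeries.coeff_smul, D.laurent_coeff_natCast, smul_eq_mul]

end Exit

end Fermat.Agent.S44.helper2117
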