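/-
S44-L7-ANN (helper2117): **(REG)** — the reduction of an `A`-integral function of `X₀(N)` regular
away from the cusp `∞` is regular away from the `q`-place of the special fibre.  Every level `N`,
every prime `ℓ ∤ N`; no lattice hypothesis, no lifting.

Generic part (any field `k` algebraically closed, `F/k` a function field with principal divisors
and places of degree one, `ι : F → k((q))` an expansion, `t` with a simple pole, `F` finite
separable over `k(t)`, `Q` the place of the expansion):

* `order_le_order_norm` : for `u` regular at the conjugate embeddings other than `ι`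
  (`helper2707.RegAway`), `ord_q ι(u) ≤ ord_q ι(N_{F/k(1/t)} u)`;
* `ord_nonneg_of_regAway` : `IsIntOver k t y` and `RegAway ι t y` imply `0 ≤ w.ord y` at every
  place `w ≠ Q`  (norm-order formula over the line `k(1/t)` at `1/t = 0` + a generic constant).

Modular instance: `stmt_Reg`.
-/
import Mathlib
import Fermat.Agent.S18.helper2707_Constants
import Fermat.Agent.S24.helper204_Places
import Fermat.Agent.S37.helper815_LineNorm
import Fermat.Agent.S37.helper1187_RelFunctionField
import Fermat.Agent.S44.helper2117_CuspAnnExit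

set_option autoImplicit false
set_option synthInstance.maxHeartbeats 400000

noncomputable section

namespace Fermat.Agent.S44.helper2117

open Polynomial IntermediateField AlgebraicCurve
open Fermat.Agent.S18.helper2707
open scoped IntermediateField.algebraAdjoinAdjoin

section Generic

variable {k : Type*} [Field k] {F : Type*} [Field F] [Algebra k F]
variable {t : F} {ι : F →ₐ[k] LaurentSeries k}

/-- **Norm inequality.**  If every conjugate embedding of `F` over `k(t)` other than the given
expansion sends `u` to an element integral over `k[[q]]`, then the `q`-order of the norm of `u`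
to the line is at least the `q`-order of `u`. -/
theorem order_le_order_norm [FiniteDimensional k⟮t⁻¹⟯ F] [Algebra.IsSeparable k⟮t⁻¹⟯ F]
    {u : F} (hu0 : u ≠ 0) (hu : RegAway ι t u) :
    (ι u).order ≤ (ι (algebraMap k⟮t⁻¹⟯ F (Algebra.norm k⟮t⁻¹⟯ u))).order := by
  classical
  let _ := algOm t⁻¹ ι
  have hprod := Algebra.norm_eq_prod_embeddings (K := k⟮t⁻¹⟯) (L := F) (E := Om k) (x := u)
  rw [← Finset.mul_prod_erase Finset.univ _ (Finset.mem_univ (inc0 t⁻¹ ι))] at hprod
  have hconj : ∀ σ : F →ₐ[k⟮t⁻¹⟯] Om k, IsConj ι t (σ : F →+* Om k) := by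
    intro σ c
    have hc : (c : F) ∈ k⟮t⁻¹⟯ := by
      rw [Fermat.Agent.S24.helper204.adjoin_inv_eq]
      exact c.2
    exact σ.commutes ⟨(c : F), hc⟩
  have hint : IsIntegral (PowerSeries k)
      (∏ σ ∈ (Finset.univ.erase (inc0 t⁻¹ ι) : Finset (F →ₐ[k⟮t⁻¹⟯] Om k)), σ u) := by
    refine IsIntegral.prod _ fun σ hσ => ?_
    have hne : σ ≠ inc0 t⁻¹ ι := Finset.ne_of_mem_erase hσ
    refine hu _ (hconj σ) fun h => hne ?_
    ext x
    exact congrArg (fun f : F →+* Om k => f x) h
  have hιu : ι u ≠ 0 := (_root_.map_ne_zero _).mpr hu0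
  have hN0 : Algebra.norm k⟮t⁻¹⟯ u ≠ 0 := Algebra.norm_ne_zero_iff.mpr hu0
  have hιN : ι (algebraMap k⟮t⁻¹⟯ F (Algebra.norm k⟮t⁻¹⟯ u)) ≠ 0 :=
    (_root_.map_ne_zero _).mpr ((_root_.map_ne_zero _).mpr hN0)
  set S₀ : LaurentSeries k := ι (algebraMap k⟮t⁻¹⟯ F (Algebra.norm k⟮t⁻¹⟯ u)) / ι u with hS₀
  have hS : algebraMap (LaurentSeries k) (Om k) S₀ =
      ∏ σ ∈ (Finset.univ.erase (inc0 t⁻¹ ι) : Finset (F →ₐ[k⟮t⁻¹⟯] Om k)), σ u := by
    have h1 : algebraMap k⟮t⁻¹⟯ (Om k) (Algebra.norm k⟮t⁻¹⟯ u)
        = algebraMap (LaurentSeries k) (Om k)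
            (ι (algebraMap k⟮t⁻¹⟯ F (Algebra.norm k⟮t⁻¹⟯ u))) := rfl
    rw [h1, inc0_apply, inc_apply] at hprod
    rw [hS₀, map_div₀, hprod]
    exact mul_div_cancel_left₀ _ ((_root_.map_ne_zero _).mpr hιu)
  have hVB : VB 0 S₀ := vb_zero_of_isIntegral (by rw [hS]; exact hint)
  have hS0 : S₀ ≠ 0 := div_ne_zero hιN hιu
  have h1 : (0 : ℤ) ≤ S₀.order := le_order_of_vb hS0 hVB
  have h2 : ι (algebraMap k⟮t⁻¹⟯ F (Algebra.norm k⟮t⁻¹⟯ u)) = S₀ * ι u := by
    rw [hS₀, div_mul_cancel₀ _ hιu]
  rw [h2, HahnSeries.order_mul hS0 hιu]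
  omega

/-- **Regularity away from the expansion place.**  Let `F/k` (`k` algebraically closed) have
principal divisors and places of degree one, `ι : F → k((q))` an expansion whose order function
is the order at the place `Q`, `t` with a simple pole at `Q`, `F` finite separable over `k(t)`.
If `y` is integral over `k[t]` and regular at every conjugate embedding over `k(t)` other than
`ι`, then `y` is regular at every place other than `Q`. -/
theorem ord_nonneg_of_regAway [IsAlgClosed k] [HasPrincipalDivisors k F]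
    (hdeg : ∀ v : Place k F, v.deg = 1)
    [FiniteDimensional k⟮t⟯ F] [Algebra.IsSeparable k⟮t⟯ F]
    (ht : (ι t).order = -1) (Q : Place k F) (hQ : ∀ x : F, x ≠ 0 → Q.ord x = (ι x).order)
    {y : F} (hint : IsIntOver k t y) (hy : RegAway ι t y) (w : Place k F) (hw : w ≠ Q) :
    0 ≤ w.ord y := by
  classical
  by_contra hneg
  rw [not_le] at hneg
  have htr : Transcendental k t := transcendental_of_order ht
  have hx : Transcendental k t⁻¹ := Fermat.Agent.S24.helper204.transcendental_inv htr
  have e : k⟮t⁻¹⟯ = k⟮t⟯ := Fermat.Agent.S24.helper204.adjoin_inv_eq t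
  have hfin' : FiniteDimensional k⟮t⁻¹⟯ F :=
    Fermat.Agent.S24.helper204.finiteDimensional_adjoin_inv
  have hsep' : Algebra.IsSeparable k⟮t⁻¹⟯ F := by
    rw [e]
    infer_instance
  have ht0 : t ≠ 0 := by
    rintro rfl
    rw [map_zero, HahnSeries.order_zero] at ht
    omega
  -- `w` is a pole of `t`
  have hwt : w.ord t < 0 := by
    by_contra h
    rw [not_lt] at h
    have hmem : y ∈ w.toValuationSubring := by
      exact Fermat.Agent.S24.helper204.mem_of_isIntegral_of_le w.toValuationSubring
        (Algebra.adjoin k {t})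
        (Fermat.Agent.S24.helper204.adjoin_le_of_mem w
          (Fermat.Agent.S24.helper204.mem_of_ord_nonneg w h))
        (isIntOver_iff_isIntegral_adjoin.mp hint)
    exact absurd (Fermat.Agent.S24.helper204.ord_nonneg_of_mem w hmem) (not_le.mpr hneg)
  -- the norm-order formula over the line `k(1/t)` and the fibre of `1/t = 0`
  have hN : Fermat.Agent.S37.helper815.NormOrderFormula k t⁻¹ :=
    Fermat.Agent.S37.helper815.normOrderFormula_of_pushforward
      (Fermat.Agent.S37.helper1187.pushforwardNormFormula_of_deg_eq_one hdeg)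
      (fun w' => Fermat.Agent.S37.helper1187.inertiaDeg_eq_one_of_deg_eq_one w' (hdeg w'))
  set v0 : Place k k⟮t⁻¹⟯ := Fermat.Agent.S37.helper815.linePlace hx 0 with hv0def
  have hfib : ∀ w' : Place k F, w' ∈ v0.fiber F ↔ w'.ord t < 0 := by
    intro w'
    rw [hv0def, Fermat.Agent.S37.helper815.mem_fiber_linePlace_iff hx w' 0, map_zero, sub_zero,
      Place.ord_inv]
    omega
  have hQt : Q.ord t = -1 := by rw [hQ t ht0, ht]
  have hQfib : Q ∈ v0.fiber F := (hfib Q).mpr (by omega)
  -- the order at `1/t = 0` of an element of the line is its `q`-order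
  have hv0 : ∀ c : k⟮t⁻¹⟯, c ≠ 0 → v0.ord c = (ι (algebraMap k⟮t⁻¹⟯ F c)).order := by
    intro c hc
    have h1 := Q.ord_restrict (F := k⟮t⁻¹⟯) c
    have h2 : Q.restrict k⟮t⁻¹⟯ = v0 := Place.mem_fiber.mp hQfib
    have hpos : 0 < Q.ord (t⁻¹ - algebraMap k F 0) := by
      rw [map_zero, sub_zero, Place.ord_inv, hQt]
      norm_num
    have h3 : (Q.ramificationIndex k⟮t⁻¹⟯ : ℤ) = 1 := by
      rw [Fermat.Agent.S37.helper815.ramificationIndex_eq_ord hx Q hpos, map_zero, sub_zero,
        Place.ord_inv, hQt]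
      norm_num
    rw [h2, h3, one_mul] at h1
    rw [← h1, hQ _ ((_root_.map_ne_zero _).mpr hc)]
  -- the sum over the other places of the fibre is nonnegative
  have hstar : ∀ u : F, u ≠ 0 → RegAway ι t u →
      0 ≤ ∑ w' ∈ (v0.fiber F).erase Q, w'.ord u := by
    intro u hu0 hu
    have h1 := hN v0 u hu0
    rw [hv0 _ (Algebra.norm_ne_zero_iff.mpr hu0), ← Finset.add_sum_erase _ _ hQfib,
      hQ u hu0] at h1
    have h2 := order_le_order_norm (ι := ι) hu0 hu
    omega
  -- a generic constant
  have hbad : (⋃ w' ∈ (v0.fiber F : Set (Place k F)),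
      {c : k | 0 < w'.ord (y - algebraMap k F c)}).Finite := by
    refine Set.Finite.biUnion (Finset.finite_toSet _) fun w' _ => Set.Subsingleton.finite ?_
    intro c₁ h₁ c₂ h₂
    by_contra hne
    have h3 := Fermat.Agent.S37.helper815.ord_sub_algebraMap_eq_zero w' h₁ (Ne.symm hne)
    have h₂' : 0 < w'.ord (y - algebraMap k F c₂) := h₂
    rw [h3] at h₂'
    exact lt_irrefl _ h₂'
  obtain ⟨c, hc⟩ := hbad.exists_notMem
  have hc' : ∀ w' ∈ v0.fiber F, w'.ord (y - algebraMap k F c) ≤ 0 := by
    intro w' hw'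
    by_contra h
    rw [not_le] at h
    exact hc (Set.mem_biUnion (Finset.mem_coe.mpr hw') h)
  have hwu : w.ord (y - algebraMap k F c) = w.ord y :=
    Fermat.Agent.S37.helper815.ord_sub_algebraMap_of_neg w hneg c
  have hu0 : y - algebraMap k F c ≠ 0 := by
    intro h
    rw [h, Place.ord_zero] at hwu
    omega
  have hu : RegAway ι t (y - algebraMap k F c) := by
    have h1 : y - algebraMap k F c = y + algebraMap k F (-c) := by
      rw [map_neg]
      ring
    rw [h1]
    exact hy.add (regAway_algebraMap (-c))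
  have h1 := hstar _ hu0 hu
  have h2 : ∑ w' ∈ (v0.fiber F).erase Q, w'.ord (y - algebraMap k F c) <
      ∑ w' ∈ (v0.fiber F).erase Q, (0 : ℤ) :=
    Finset.sum_lt_sum (fun w' hw' => hc' w' (Finset.mem_of_mem_erase hw'))
      ⟨w, Finset.mem_erase.mpr ⟨hw, (hfib w).mpr hwt⟩, by omega⟩
  rw [Finset.sum_const_zero] at h2
  omega

end Generic

/-! ## The modular instance -/

section Modular

open ModularCurve
open Fermat.Agent.S18

local notation "Qb" => AlgebraicClosure ℚ

variable (N : ℕ) [NeZero N] {ℓ : ℕ} (hℓ : ℓ.Prime) (hℓN : ¬ ℓ ∣ N)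
  (A : ValuationSubring Qb) (hA : A.LiesOverPrime ℓ)

include hℓ hℓN hA in
/-- **(REG), every level `N` and every prime `ℓ ∤ N`.**  The reduction of an `A`-integral
function of `X₀(N)` regular away from the cusp `∞` is a function of the special fibre regular
away from the `q`-place. -/
theorem stmt_Reg : Stmt_Reg N A := by
  intro x hx hreg
  have hF : Fact ℓ.Prime := ⟨hℓ⟩
  have hA' : (ℓ : Qb) ∈ A.nonunits := hA
  have hAC : IsAlgClosed (IsLocalRing.ResidueField A) :=
    Fermat.Agent.Lib.helper6879.isAlgClosed_residueField A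
  have hCP : CharP (IsLocalRing.ResidueField A) ℓ := helper508.charP_residueField ℓ A hA'
  have hNk := helper4307.natCast_ne_zero_residue N hℓ hℓN A hA
  have hPD : HasPrincipalDivisors (IsLocalRing.ResidueField A)
      (modularFunctionFieldFullC (IsLocalRing.ResidueField A) N) :=
    helper4307.hasPrincipalDivisors_residue N hℓ hℓN A hA
  have hfink : FiniteDimensional
      (IsLocalRing.ResidueField A)⟮helper9392.jbarC (IsLocalRing.ResidueField A) N⟯
      ↥(modularFunctionFieldFullC (IsLocalRing.ResidueField A) N) :=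
    helper36.finiteDimensional_jK (IsLocalRing.ResidueField A) N hNk
  have hsep : Algebra.IsSeparable
      (IsLocalRing.ResidueField A)⟮helper9392.jbarC (IsLocalRing.ResidueField A) N⟯
      ↥(modularFunctionFieldFullC (IsLocalRing.ResidueField A) N) :=
    helper9392.isSeparable_modularFunctionFieldFullC_of_isAlgClosed
      (IsLocalRing.ResidueField A) ℓ N
  have hordb : ((helper9392.jbarC (IsLocalRing.ResidueField A) N :
      ↥(modularFunctionFieldFullC (IsLocalRing.ResidueField A) N)) :
      LaurentSeries (IsLocalRing.ResidueField A)).order = -1 :=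
    helper9392.order_jqModC (IsLocalRing.ResidueField A)
  obtain ⟨hxb, h1, h2⟩ := helper2707.mem_Bsub_iff.mp (ct_j N hℓ hℓN A hA x hx hreg)
  refine ⟨hxb, fun w hw => ?_⟩
  exact ord_nonneg_of_regAway (ι := helper2707.incF (IsLocalRing.ResidueField A) N)
    (t := helper9392.jbarC (IsLocalRing.ResidueField A) N)
    (helper4307.place_deg_eq_one_residue N hℓ hℓN A hA) hordb
    (helper36.qPlaceK (IsLocalRing.ResidueField A) N)
    (fun f hf => helper36.qPlaceK_ord (IsLocalRing.ResidueField A) N hf) h1 h2 w hw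

end Modular

end Fermat.Agent.S44.helper2117
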