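import Fermat.Agent.S44.helper3130_Spec
import Fermat.Agent.S44.helper2301_BaseUnit

set_option autoImplicit false

/-!
# S44, seam (T5) `Stmt_CycloRam` of the captain's Spec (helper2301)

The mod `p` cyclotomic character is nontrivial on the inertia group of every valuation subring of
`ℚ̄` over an odd prime `p`: from (D1) `exists_inertia_apply_ne` (`helper2301_BaseUnit`, on the
landed `S19/helper1821_BaseRing`).
-/

namespace Fermat.Agent.S44.helper2301

local notation "Qb" => AlgebraicClosure ℚ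

/-- Every automorphism acts on `μ_p` by a power map with a natural exponent. -/
theorem exists_isCycloExp {p : ℕ} (hp : p.Prime) (σ : Qb ≃ₐ[ℚ] Qb) :
    ∃ k : ℕ, Fermat.Agent.S44.helper3130.IsCycloExp p σ (k : ℤ) := by
  have : NeZero ((p : ℕ) : ℚ) := ⟨by exact_mod_cast hp.ne_zero⟩
  have : NeZero p := ⟨hp.ne_zero⟩
  obtain ⟨ζ, hζ⟩ := HasEnoughRootsOfUnity.exists_primitiveRoot Qb p
  have hσζ : (σ ζ) ^ p = 1 := by rw [← map_pow, hζ.pow_eq_one, map_one]
  obtain ⟨k, -, hkζ⟩ := hζ.eq_pow_of_pow_eq_one hσζ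
  refine ⟨k, fun η hη => ?_⟩
  obtain ⟨j, -, rfl⟩ := hζ.eq_pow_of_pow_eq_one hη
  rw [map_pow, ← hkζ, zpow_natCast, ← pow_mul, ← pow_mul, mul_comm]

/-- **Seam (T5)**: the mod `p` cyclotomic character is nontrivial on inertia at `p`. -/
theorem seam_T5 : Fermat.Agent.S44.helper3130.Stmt_CycloRam := by
  intro p hp hp5 A hA
  have hp2 : p ≠ 2 := by omega
  have : NeZero ((p : ℕ) : ℚ) := ⟨by exact_mod_cast hp.ne_zero⟩
  have : NeZero p := ⟨hp.ne_zero⟩
  obtain ⟨ζ, hζ⟩ := HasEnoughRootsOfUnity.exists_primitiveRoot Qb p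
  obtain ⟨σ, hσ, hne⟩ := exists_inertia_apply_ne A hp hp2 hA hζ
  obtain ⟨k, hk⟩ := exists_isCycloExp hp σ
  refine ⟨σ, hσ, (k : ℤ), hk, fun hdvd => hne ?_⟩
  obtain ⟨d, hd⟩ := hdvd
  have hk' : (k : ℤ) = 1 + (p : ℤ) * d := by linarith
  rw [hk ζ hζ.pow_eq_one, hk', zpow_add₀ (hζ.ne_zero hp.ne_zero), zpow_one, zpow_mul,
    zpow_natCast, hζ.pow_eq_one, one_zpow, mul_one]

end Fermat.Agent.S44.helper2301
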