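import Mathlib
import Fermat.Agent.Lib.helper9242_LaurentTheta
import Fermat.Agent.S37.helper5666_KroneckerVal
import Fermat.Agent.S18.helper8991_GaussInst

/-!
# S44 (SYM): the two residual logarithmic derivatives of a `p`-new class determine each other

Registry row `L3-SYM` of `s44_leaves` (helper2359); chat #95 / #112 of `team_s44_chat`.

Mathematical content.  Let `h` be a `p`-Kummer function of a class `c` of `J₀(N₀ p)` with
`α_* c = 0`.  Then `Norm_α h = κ w ^ p`, and by the `t`-expansion of the norm (NORMQ, (G-alpha))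
`h_∞ * N_φ(h_0) = κ w ^ p` with `N_φ = kronNorm ζ p`, `h_∞` the expansion of `h` and `h_0` the
expansion of `W_p h`.  Modulo the maximal ideal `N_φ` is the coefficientwise Frobenius twist
`Fr`, and `θ = q d/dq` commutes with `Fr` and kills constants and `p`-th powers.  Hence

  `θ-log (red h_∞) + Fr (θ-log (red h_0)) = 0`,

so the two components of the residual logarithmic derivative vanish together.

This file is the carrier-free part, on the landed surfaces only:

* Layer 1 (a commutative ring / a field of characteristic `p`):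
  `theta_mul_frob_add`, `dlog_add_frob_dlog`, `dlog_frob_add_dlog`,
  `thetaFun_eq_zero_iff_of_mul_frob`, `dlog_eq_frob_frob_dlog`.
* Layer 2 (Gauss normal forms `f * ι Y = C c * ι X` of `S18.helper8991` over a valuation subring
  `A` of a field `L`, any ring homomorphism `π : A →+* k`):
  `kronNorm_mem_gaussRing`, `gaussRho_kronNorm` (the Kronecker norm of a Gauss-integral series is
  Gauss-integral with reduction the Frobenius twist),
  `sym_of_normal_forms`, `sym_gaussRho`, `sym_gaussRho_beta`, `sym_gaussRho_iff`.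
-/

set_option autoImplicit false

open ModularCurve HahnSeries

namespace Fermat.Agent.S44.helper2359

noncomputable section

open Fermat.Agent.Lib.helper9242 (thetaFun thetaFun_coeff thetaFun_mul thetaFun_C_mul
  thetaFun_qExpand)
open Fermat.Agent.S37.helper5666 (kronNorm kronProd)
open Fermat.Agent.S18.helper8991 (inc red gaussRing gaussRho IsNormalizable)

/-! ### Layer 1: characteristic `p` -/

section Core

variable {R S : Type*} [CommRing R] [CommRing S]

/-- `θ` commutes with coefficientwise ring homomorphisms (`coeffMap` form). -/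
theorem thetaFun_coeffMap (φ : R →+* S) (f : LaurentSeries R) :
    thetaFun S (coeffMap φ f) = coeffMap φ (thetaFun R f) := by
  ext n
  rw [thetaFun_coeff, coeffMap_coeff, coeffMap_coeff, thetaFun_coeff, map_mul, map_intCast]

theorem coeffMap_C (φ : R →+* S) (r : R) :
    coeffMap φ (HahnSeries.C r : LaurentSeries R) = HahnSeries.C (φ r) := by
  rw [HahnSeries.C_apply, coeffMap_single, HahnSeries.C_apply]

theorem coeffMap_injective (φ : R →+* S) (hφ : Function.Injective φ) :
    Function.Injective (coeffMap φ) := by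
  intro x y h
  ext n
  apply hφ
  have h1 := congrArg (fun z : LaurentSeries S => z.coeff n) h
  simpa only [coeffMap_coeff] using h1

variable {k : Type*} [CommRing k]

/-- In characteristic `p`, `θ` kills `p`-th powers. -/
theorem thetaFun_pow_expChar (p : ℕ) [NeZero p] [ExpChar k p] (hp : (p : k) = 0)
    (w : LaurentSeries k) : thetaFun k (w ^ p) = 0 := by
  rw [Fermat.Agent.S37.helper5666.pow_expChar_eq_qExpand, thetaFun_qExpand, hp, map_zero,
    zero_mul]

/-- **Ring form of (SYM).**  If `a * Fr b = κ * w ^ p` in characteristic `p`, then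
`θ a * Fr b + a * Fr (θ b) = 0`. -/
theorem theta_mul_frob_add (p : ℕ) [NeZero p] [ExpChar k p] (hp : (p : k) = 0)
    (a b w : LaurentSeries k) (κ : k)
    (h : a * coeffMap (frobenius k p) b = HahnSeries.C κ * w ^ p) :
    thetaFun k a * coeffMap (frobenius k p) b
      + a * coeffMap (frobenius k p) (thetaFun k b) = 0 := by
  have h1 := congrArg (thetaFun k) h
  rw [thetaFun_mul, thetaFun_C_mul, thetaFun_pow_expChar p hp, mul_zero, thetaFun_coeffMap] at h1
  rw [← h1]
  ring

end Core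

section Field

variable {k : Type*} [Field k]

theorem coeffMap_frobenius_injective (p : ℕ) [ExpChar k p] :
    Function.Injective (coeffMap (frobenius k p)) :=
  coeffMap_injective _ (frobenius_inj k p)

theorem coeffMap_frobenius_ne_zero (p : ℕ) [ExpChar k p] {b : LaurentSeries k} (hb : b ≠ 0) :
    coeffMap (frobenius k p) b ≠ 0 := fun h0 =>
  hb (coeffMap_frobenius_injective p (h0.trans (map_zero _).symm))

/-- **Field form of (SYM), α-side.**  If `a * Fr b = κ * w ^ p` with `a, b ≠ 0` in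
characteristic `p`, then `θ a / a + Fr (θ b / b) = 0`. -/
theorem dlog_add_frob_dlog (p : ℕ) [NeZero p] [ExpChar k p] (hp : (p : k) = 0)
    (a b w : LaurentSeries k) (κ : k) (ha : a ≠ 0) (hb : b ≠ 0)
    (h : a * coeffMap (frobenius k p) b = HahnSeries.C κ * w ^ p) :
    thetaFun k a / a + coeffMap (frobenius k p) (thetaFun k b / b) = 0 := by
  have hFb := coeffMap_frobenius_ne_zero p hb
  have h1 := theta_mul_frob_add p hp a b w κ h
  rw [map_div₀, div_add_div _ _ ha hFb, h1, zero_div]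

/-- **Field form of (SYM), β-side.**  If `Fr a * b = κ * w ^ p` with `a, b ≠ 0` in
characteristic `p`, then `Fr (θ a / a) + θ b / b = 0`. -/
theorem dlog_frob_add_dlog (p : ℕ) [NeZero p] [ExpChar k p] (hp : (p : k) = 0)
    (a b w : LaurentSeries k) (κ : k) (ha : a ≠ 0) (hb : b ≠ 0)
    (h : coeffMap (frobenius k p) a * b = HahnSeries.C κ * w ^ p) :
    coeffMap (frobenius k p) (thetaFun k a / a) + thetaFun k b / b = 0 := by
  rw [add_comm]
  exact dlog_add_frob_dlog p hp b a w κ hb ha (by rw [mul_comm]; exact h)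

/-- Under `a * Fr b = κ * w ^ p`, `θ a = 0` if and only if `θ b = 0`. -/
theorem thetaFun_eq_zero_iff_of_mul_frob (p : ℕ) [NeZero p] [ExpChar k p] (hp : (p : k) = 0)
    (a b w : LaurentSeries k) (κ : k) (ha : a ≠ 0) (hb : b ≠ 0)
    (h : a * coeffMap (frobenius k p) b = HahnSeries.C κ * w ^ p) :
    thetaFun k a = 0 ↔ thetaFun k b = 0 := by
  have hFb := coeffMap_frobenius_ne_zero p hb
  have h1 := theta_mul_frob_add p hp a b w κ h
  constructor
  · intro h0
    rw [h0, zero_mul, zero_add] at h1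
    rcases mul_eq_zero.mp h1 with h2 | h2
    · exact absurd h2 ha
    · exact coeffMap_frobenius_injective p (h2.trans (map_zero _).symm)
  · intro h0
    rw [h0, map_zero, mul_zero, add_zero] at h1
    rcases mul_eq_zero.mp h1 with h2 | h2
    · exact h2
    · exact absurd h2 hFb

/-- Both norm relations together: the logarithmic derivative is fixed by `Fr²`
(its coefficients lie in `𝔽_{p²}`). -/
theorem dlog_eq_frob_frob_dlog (p : ℕ) [NeZero p] [ExpChar k p] (hp : (p : k) = 0)
    (a b w w' : LaurentSeries k) (κ κ' : k) (ha : a ≠ 0) (hb : b ≠ 0)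
    (h : a * coeffMap (frobenius k p) b = HahnSeries.C κ * w ^ p)
    (h' : coeffMap (frobenius k p) a * b = HahnSeries.C κ' * w' ^ p) :
    thetaFun k a / a
      = coeffMap (frobenius k p) (coeffMap (frobenius k p) (thetaFun k a / a)) := by
  have h1 := dlog_add_frob_dlog p hp a b w κ ha hb h
  have h2 := dlog_frob_add_dlog p hp a b w' κ' ha hb h'
  have h3 : thetaFun k b / b = -coeffMap (frobenius k p) (thetaFun k a / a) :=
    eq_neg_of_add_eq_zero_right h2
  rw [h3, map_neg] at h1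
  exact sub_eq_zero.mp (by rw [sub_eq_add_neg]; exact h1)

end Field

/-! ### The Kronecker norm is multiplicative -/

section KronMul

variable {R : Type*} [CommRing R]

theorem kronProd_mul (ζ : Rˣ) (l : ℕ) (x y : LaurentSeries R) :
    kronProd ζ l (x * y) = kronProd ζ l x * kronProd ζ l y := by
  unfold Fermat.Agent.S37.helper5666.kronProd
  simp only [map_mul]
  exact Finset.prod_mul_distrib

theorem kronProd_C (ζ : Rˣ) (l : ℕ) (c : R) :
    kronProd ζ l (HahnSeries.C c) = HahnSeries.C (c ^ l) := by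
  unfold Fermat.Agent.S37.helper5666.kronProd
  have h : ∀ b ∈ Finset.range l,
      Fermat.Agent.S37.helper5666.rot (ζ ^ b) (HahnSeries.C c : LaurentSeries R) =
        HahnSeries.C c := by
    intro b _
    rw [HahnSeries.C_apply, Fermat.Agent.S37.helper5666.rot_single]
    simp
  rw [Finset.prod_congr rfl h, Finset.prod_const, Finset.card_range, ← map_pow]

variable [IsDomain R]

theorem qExpand_kronNorm' (ζ : Rˣ) (l : ℕ) [NeZero l] (hζ : IsPrimitiveRoot ζ l)
    (x : LaurentSeries R) : qExpand R l (kronNorm ζ l x) = kronProd ζ l x :=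
  Fermat.Agent.S37.helper5666.qExpand_kronNorm ζ l hζ.pow_eq_one
    (Fermat.Agent.S37.helper5666.hreg_of_isPrimitiveRoot l ζ hζ) x

theorem kronNorm_mul (ζ : Rˣ) (l : ℕ) [NeZero l] (hζ : IsPrimitiveRoot ζ l)
    (x y : LaurentSeries R) : kronNorm ζ l (x * y) = kronNorm ζ l x * kronNorm ζ l y := by
  apply qExpand_injective (R := R) (N := l)
  rw [map_mul, qExpand_kronNorm' ζ l hζ, qExpand_kronNorm' ζ l hζ, qExpand_kronNorm' ζ l hζ,
    kronProd_mul]

theorem kronNorm_C (ζ : Rˣ) (l : ℕ) [NeZero l] (hζ : IsPrimitiveRoot ζ l) (c : R) :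
    kronNorm ζ l (HahnSeries.C c : LaurentSeries R) = HahnSeries.C (c ^ l) := by
  apply qExpand_injective (R := R) (N := l)
  rw [qExpand_kronNorm' ζ l hζ, kronProd_C, qExpand_C]

end KronMul

/-! ### Layer 2: Gauss normal forms -/

section Gauss

variable {L : Type*} [Field L] (A : ValuationSubring L) {k : Type*} [Field k] (π : A →+* k)

/-- Two integral series that are proportional over `L` have proportional reductions. -/
theorem exists_red_eq_C_mul {P Q : LaurentSeries A} {d : L}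
    (h : inc A P = HahnSeries.C d * inc A Q) (hQ : red A π Q ≠ 0) :
    ∃ δ : k, red A π P = HahnSeries.C δ * red A π Q := by
  have hex : ∃ m : ℤ, π (Q.coeff m) ≠ 0 := by
    by_contra hcon
    apply hQ
    ext n
    rw [Fermat.Agent.S18.helper8991.red_coeff, not_not.mp (fun h => hcon ⟨n, h⟩)]
    rfl
  obtain ⟨m, hm⟩ := hex
  have hcoef : ∀ n : ℤ, (P.coeff n : L) = d * (Q.coeff n : L) := by
    intro n
    have h1 := congrArg (fun z : LaurentSeries L => z.coeff n) h
    simpa only [Fermat.Agent.S18.helper8991.inc_coeff,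
      Fermat.Agent.S18.helper8991.coeff_C_mul] using h1
  have hcross : ∀ n : ℤ, P.coeff n * Q.coeff m = P.coeff m * Q.coeff n := by
    intro n
    apply Subtype.ext
    show (P.coeff n : L) * (Q.coeff m : L) = (P.coeff m : L) * (Q.coeff n : L)
    rw [hcoef n, hcoef m]
    ring
  refine ⟨π (P.coeff m) / π (Q.coeff m), ?_⟩
  ext n
  rw [Fermat.Agent.S18.helper8991.red_coeff, HahnSeries.C_mul_eq_smul, HahnSeries.coeff_smul,
    Fermat.Agent.S18.helper8991.red_coeff, smul_eq_mul, div_mul_eq_mul_div,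
    eq_div_iff hm, ← map_mul, ← map_mul, hcross n]

variable (p : ℕ) [NeZero p] [ExpChar k p] (ζ : Lˣ) (hζ : IsPrimitiveRoot ζ p)

include hζ in
/-- A `p`-th root of unity of `L` comes from a unit of `A` reducing to `1`. -/
theorem exists_unit_red_eq_one :
    ∃ u : Aˣ, Units.map ((A.subtype : A →+* L) : A →* L) u = ζ ∧ π (u : A) = 1 := by
  obtain ⟨u, hu⟩ := Fermat.Agent.S37.helper5666.exists_unit_of_pow_eq_one A ζ p (NeZero.ne p)
    hζ.pow_eq_one
  have hu' : Units.map ((A.subtype : A →+* L) : A →* L) u = ζ := hu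
  have hu1 : u ^ p = 1 := by
    have h1 : Units.map ((A.subtype : A →+* L) : A →* L) (u ^ p) =
        Units.map ((A.subtype : A →+* L) : A →* L) 1 := by
      rw [map_pow, hu', hζ.pow_eq_one, map_one]
    exact Units.map_injective (f := ((A.subtype : A →+* L) : A →* L))
      Subtype.val_injective h1
  exact ⟨u, hu', Fermat.Agent.S37.helper5666.map_unit_eq_one_of_pow_eq_one π p u hu1⟩

include hζ in
/-- **Kronecker congruence on normal forms.**  If `g * ι Y = C c * ι X`, then
`N_φ g * ι Y' = C (c ^ p) * ι X'` with `red X' = Fr (red X)` and `red Y' = Fr (red Y)`. -/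
theorem exists_kronNorm_normal_form {g : LaurentSeries L} {c : L} {X Y : LaurentSeries A}
    (hg : g * inc A Y = HahnSeries.C c * inc A X) :
    ∃ X' Y' : LaurentSeries A,
      red A π X' = coeffMap (frobenius k p) (red A π X) ∧
      red A π Y' = coeffMap (frobenius k p) (red A π Y) ∧
      kronNorm ζ p g * inc A Y' = HahnSeries.C (c ^ p) * inc A X' := by
  obtain ⟨u, hu, hu1⟩ := exists_unit_red_eq_one A π p ζ hζ
  refine ⟨kronNorm u p X, kronNorm u p Y,
    Fermat.Agent.S37.helper5666.coeffMap_kronNorm π u hu1 p X,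
    Fermat.Agent.S37.helper5666.coeffMap_kronNorm π u hu1 p Y, ?_⟩
  have h1 := congrArg (kronNorm ζ p) hg
  rw [kronNorm_mul ζ p hζ, kronNorm_mul ζ p hζ, kronNorm_C ζ p hζ] at h1
  show kronNorm ζ p g * coeffMap A.subtype (kronNorm u p Y)
    = HahnSeries.C (c ^ p) * coeffMap A.subtype (kronNorm u p X)
  rw [Fermat.Agent.S37.helper5666.coeffMap_kronNorm_map,
    Fermat.Agent.S37.helper5666.coeffMap_kronNorm_map, hu]
  exact h1

include hζ in
/-- The Kronecker norm of a Gauss-integral series is Gauss-integral. -/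
theorem kronNorm_mem_gaussRing {f : LaurentSeries L} (hf : f ∈ gaussRing A π) :
    kronNorm ζ p f ∈ gaussRing A π := by
  obtain ⟨X, Y, hY, h⟩ := hf
  have h' : f * inc A Y = HahnSeries.C (1 : L) * inc A X := by rw [map_one, one_mul]; exact h
  obtain ⟨X', Y', -, hY', e⟩ := exists_kronNorm_normal_form A π p ζ hζ h'
  refine ⟨X', Y', ?_, ?_⟩
  · rw [hY']
    exact coeffMap_frobenius_ne_zero p hY
  · rw [e, one_pow, map_one, one_mul]

include hζ in
/-- **The Kronecker norm reduces to the Frobenius twist** on the Gauss ring: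
`ρ (N_φ f) = Fr (ρ f)` (membership: `kronNorm_mem_gaussRing`). -/
theorem gaussRho_kronNorm (f : ↥(gaussRing A π))
    (hmem : kronNorm ζ p (f : LaurentSeries L) ∈ gaussRing A π) :
    gaussRho A π ⟨kronNorm ζ p (f : LaurentSeries L), hmem⟩
      = coeffMap (frobenius k p) (gaussRho A π f) := by
  obtain ⟨X, Y, hY, h⟩ := f.2
  have h' : (f : LaurentSeries L) * inc A Y = HahnSeries.C (1 : L) * inc A X := by
    rw [map_one, one_mul]; exact h
  obtain ⟨X', Y', hX', hY', e⟩ := exists_kronNorm_normal_form A π p ζ hζ h'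
  have hY'0 : red A π Y' ≠ 0 := by
    rw [hY']
    exact coeffMap_frobenius_ne_zero p hY
  have e' : kronNorm ζ p (f : LaurentSeries L) * inc A Y' = inc A X' := by
    rw [e, one_pow, map_one, one_mul]
  rw [Fermat.Agent.S18.helper8991.gaussRho_eq A π
      ⟨kronNorm ζ p (f : LaurentSeries L), hmem⟩ hY'0 e',
    Fermat.Agent.S18.helper8991.gaussRho_eq A π f hY h, hX', hY', map_div₀]

include hζ in
/-- **(SYM) on Gauss normal forms, α-side.**  Let `f * N_φ g = κ * w ^ p` in `L((q))`, with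
normal forms `f * ι Y₁ = C c₁ * ι X₁`, `g * ι Y₂ = C c₂ * ι X₂`, `w * ι Y₃ = C c₃ * ι X₃`
(all reductions nonzero).  Then, with `a = red X₁ / red Y₁` and `b = red X₂ / red Y₂`,
`θ a / a + Fr (θ b / b) = 0`. -/
theorem sym_of_normal_forms (hp : (p : k) = 0) {f g w : LaurentSeries L} {κ : L}
    (hrel : f * kronNorm ζ p g = HahnSeries.C κ * w ^ p)
    {c₁ c₂ c₃ : L} {X₁ Y₁ X₂ Y₂ X₃ Y₃ : LaurentSeries A}
    (hc₁ : c₁ ≠ 0) (hc₂ : c₂ ≠ 0)
    (hX₁ : red A π X₁ ≠ 0) (hY₁ : red A π Y₁ ≠ 0)
    (hX₂ : red A π X₂ ≠ 0) (hY₂ : red A π Y₂ ≠ 0)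
    (hX₃ : red A π X₃ ≠ 0) (hY₃ : red A π Y₃ ≠ 0)
    (hf : f * inc A Y₁ = HahnSeries.C c₁ * inc A X₁)
    (hg : g * inc A Y₂ = HahnSeries.C c₂ * inc A X₂)
    (hw : w * inc A Y₃ = HahnSeries.C c₃ * inc A X₃) :
    thetaFun k (red A π X₁ / red A π Y₁) / (red A π X₁ / red A π Y₁)
      + coeffMap (frobenius k p)
          (thetaFun k (red A π X₂ / red A π Y₂) / (red A π X₂ / red A π Y₂)) = 0 := by
  obtain ⟨X₂', Y₂', hX₂', hY₂', e⟩ := exists_kronNorm_normal_form A π p ζ hζ hg
  -- the integral relation `ι P = C d * ι Q`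
  have hd0 : c₁ * c₂ ^ p ≠ 0 := mul_ne_zero hc₁ (pow_ne_zero p hc₂)
  have hPQ : inc A (X₁ * X₂' * Y₃ ^ p)
      = HahnSeries.C (κ * c₃ ^ p / (c₁ * c₂ ^ p)) * inc A (X₃ ^ p * Y₁ * Y₂') := by
    have h1 : HahnSeries.C (c₁ * c₂ ^ p) * inc A (X₁ * X₂' * Y₃ ^ p)
        = HahnSeries.C (κ * c₃ ^ p) * inc A (X₃ ^ p * Y₁ * Y₂') := by
      have h2 : HahnSeries.C (c₁ * c₂ ^ p) * inc A (X₁ * X₂' * Y₃ ^ p)
          = (f * inc A Y₁) * (kronNorm ζ p g * inc A Y₂') * (inc A Y₃) ^ p := by
        rw [hf, e]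
        simp only [map_mul, map_pow]
        ring
      have h3 : HahnSeries.C (κ * c₃ ^ p) * inc A (X₃ ^ p * Y₁ * Y₂')
          = (HahnSeries.C κ * (w * inc A Y₃) ^ p) * inc A Y₁ * inc A Y₂' := by
        rw [hw]
        simp only [map_mul, map_pow]
        ring
      rw [h2, h3, mul_pow, ← mul_assoc (HahnSeries.C κ), ← hrel]
      ring
    have h4 : HahnSeries.C (c₁ * c₂ ^ p)⁻¹
          * (HahnSeries.C (c₁ * c₂ ^ p) * inc A (X₁ * X₂' * Y₃ ^ p))
        = HahnSeries.C (c₁ * c₂ ^ p)⁻¹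
          * (HahnSeries.C (κ * c₃ ^ p) * inc A (X₃ ^ p * Y₁ * Y₂')) := by rw [h1]
    rw [Fermat.Agent.S18.helper8991.C_inv_mul_C_mul hd0, ← mul_assoc, ← map_mul] at h4
    rw [h4]
    congr 2
    field_simp
  have hQ : red A π (X₃ ^ p * Y₁ * Y₂') ≠ 0 := by
    rw [map_mul, map_mul, map_pow, hY₂']
    exact mul_ne_zero (mul_ne_zero (pow_ne_zero p hX₃) hY₁) (coeffMap_frobenius_ne_zero p hY₂)
  obtain ⟨δ, hδ⟩ := exists_red_eq_C_mul A π hPQ hQ
  rw [map_mul, map_mul, map_pow, map_mul, map_mul, map_pow, hX₂', hY₂'] at hδ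
  -- the relation in `k((q))`
  have hFY₂ := coeffMap_frobenius_ne_zero p hY₂
  have hk : (red A π X₁ / red A π Y₁) * coeffMap (frobenius k p) (red A π X₂ / red A π Y₂)
      = HahnSeries.C δ * (red A π X₃ / red A π Y₃) ^ p := by
    rw [map_div₀, div_mul_div_comm, div_pow, eq_comm, mul_div_assoc', eq_comm,
      div_eq_div_iff (mul_ne_zero hY₁ hFY₂) (pow_ne_zero p hY₃), hδ]
    ring
  exact dlog_add_frob_dlog p hp _ _ _ δ (div_ne_zero hX₁ hY₁) (div_ne_zero hX₂ hY₂) hk

include hζ in
/-- **(SYM) on the Gauss ring, α-side.**  `F, G` Gauss units (nonzero reductions), `w`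
normalisable, and `(c₁ F) * N_φ (c₂ G) = κ * w ^ p`.  Then
`θ (ρ F) / ρ F + Fr (θ (ρ G) / ρ G) = 0`. -/
theorem sym_gaussRho (hp : (p : k) = 0) (F G : ↥(gaussRing A π))
    (hF : gaussRho A π F ≠ 0) (hG : gaussRho A π G ≠ 0)
    {w : LaurentSeries L} (hw : IsNormalizable A π w) {κ c₁ c₂ : L} (hc₁ : c₁ ≠ 0) (hc₂ : c₂ ≠ 0)
    (hrel : (HahnSeries.C c₁ * (F : LaurentSeries L))
      * kronNorm ζ p (HahnSeries.C c₂ * (G : LaurentSeries L)) = HahnSeries.C κ * w ^ p) :
    thetaFun k (gaussRho A π F) / gaussRho A π F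
      + coeffMap (frobenius k p) (thetaFun k (gaussRho A π G) / gaussRho A π G) = 0 := by
  obtain ⟨X₁, Y₁, hY₁, h₁⟩ := F.2
  obtain ⟨X₂, Y₂, hY₂, h₂⟩ := G.2
  obtain ⟨c₃, X₃, Y₃, -, hX₃, hY₃, h₃⟩ := hw
  have eF := Fermat.Agent.S18.helper8991.gaussRho_eq A π F hY₁ h₁
  have eG := Fermat.Agent.S18.helper8991.gaussRho_eq A π G hY₂ h₂
  have hX₁ : red A π X₁ ≠ 0 := by
    intro h0
    exact hF (by rw [eF, h0, zero_div])
  have hX₂ : red A π X₂ ≠ 0 := by
    intro h0
    exact hG (by rw [eG, h0, zero_div])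
  rw [eF, eG]
  exact sym_of_normal_forms A π p ζ hζ hp hrel hc₁ hc₂ hX₁ hY₁ hX₂ hY₂ hX₃ hY₃
    (by rw [mul_assoc, h₁]) (by rw [mul_assoc, h₂]) h₃

include hζ in
/-- **(SYM) on the Gauss ring, β-side.**  `N_φ (c₁ F) * (c₂ G) = κ * w ^ p` gives
`Fr (θ (ρ F) / ρ F) + θ (ρ G) / ρ G = 0`. -/
theorem sym_gaussRho_beta (hp : (p : k) = 0) (F G : ↥(gaussRing A π))
    (hF : gaussRho A π F ≠ 0) (hG : gaussRho A π G ≠ 0)
    {w : LaurentSeries L} (hw : IsNormalizable A π w) {κ c₁ c₂ : L} (hc₁ : c₁ ≠ 0) (hc₂ : c₂ ≠ 0)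
    (hrel : kronNorm ζ p (HahnSeries.C c₁ * (F : LaurentSeries L))
      * (HahnSeries.C c₂ * (G : LaurentSeries L)) = HahnSeries.C κ * w ^ p) :
    coeffMap (frobenius k p) (thetaFun k (gaussRho A π F) / gaussRho A π F)
      + thetaFun k (gaussRho A π G) / gaussRho A π G = 0 := by
  rw [add_comm]
  exact sym_gaussRho A π p ζ hζ hp G F hG hF hw hc₂ hc₁ (by rw [mul_comm]; exact hrel)

include hζ in
/-- Under the α-relation the two reductions have vanishing `θ` together. -/
theorem sym_gaussRho_iff (hp : (p : k) = 0) (F G : ↥(gaussRing A π))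
    (hF : gaussRho A π F ≠ 0) (hG : gaussRho A π G ≠ 0)
    {w : LaurentSeries L} (hw : IsNormalizable A π w) {κ c₁ c₂ : L} (hc₁ : c₁ ≠ 0) (hc₂ : c₂ ≠ 0)
    (hrel : (HahnSeries.C c₁ * (F : LaurentSeries L))
      * kronNorm ζ p (HahnSeries.C c₂ * (G : LaurentSeries L)) = HahnSeries.C κ * w ^ p) :
    thetaFun k (gaussRho A π F) = 0 ↔ thetaFun k (gaussRho A π G) = 0 := by
  have h := sym_gaussRho A π p ζ hζ hp F G hF hG hw hc₁ hc₂ hrel
  constructor
  · intro h0
    rw [h0, zero_div, zero_add] at h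
    have h1 := coeffMap_frobenius_injective p (h.trans (map_zero _).symm)
    rcases div_eq_zero_iff.mp h1 with h2 | h2
    · exact h2
    · exact absurd h2 hG
  · intro h0
    rw [h0, zero_div, map_zero, add_zero] at h
    rcases div_eq_zero_iff.mp h with h2 | h2
    · exact h2
    · exact absurd h2 hF

end Gauss

end

end Fermat.Agent.S44.helper2359
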