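/-
S44-OMEGA (helper3511): the residual logarithmic derivative of blueprint #3246, step (1), as a
map on `J₀(N)`.

For a valuation subring `A` of `ℚ̄` (in practice `A ∣ p`), every nonzero function `f` of
`ℚ̄(X₀(N))` is a constant times a unit `u` of the Gauss ring `gaussF A (residue A) N`
(landed S18/helper8991); the `q`-series

  `dlogRed A N f := θ(ū) / ū`,   `ū` the reduction of `u`,  `θ = q d/dq`,

does not depend on the decomposition.  It is additive in `f`, kills constants, kills `p`-th
powers when `A` lies over `p`, kills the functions `≡ 1`, and is invariant under the inertia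
group of `A`.  Hence it descends to the `p`-Kummer classes:

* `omegaAt A N W p x` (`W` an automorphism of the function field, e.g. `1` or the Atkin–Lehner
  involution): `dlogRed (W h)` for any `p`-Kummer function `h` of class `x`;
* `omegaAt_kummerClass`, `omegaAt_add`, `omegaAt_neg`, `omegaAt_inertia`,
  `omegaAt_eq_zero_of_mem_kBoth` (the classes of S33/helper3511_FreeHalf have `Ω = 0`).

This is `(Ω_∞, Ω_0)` of the blueprint, as `q`-expansions.
-/
import Fermat.Agent.S33.helper3511_FreeHalf
import Fermat.Agent.Lib.helper9242_LaurentTheta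
import Fermat.Agent.S29.helper36_FunctionFieldL

set_option autoImplicit false

namespace Fermat.Agent.S44.helper3511

open AlgebraicCurve ModularCurve
open Fermat.Agent.S29.helper8217
open Fermat.Agent.S34.helper584
open Fermat.Agent.S18
open Fermat.Agent.Lib.helper9242

noncomputable section

/-! ### The logarithmic derivative of the reduction -/

section Dlog

variable {L : Type*} [Field L] [Algebra ℚ L] (A : ValuationSubring L) (N : ℕ)

/-- The logarithmic derivative `θ(ū)/ū` of the reduction of an element of the Gauss ring. -/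
def dlogU (u : ↥(helper8991.gaussF A (IsLocalRing.residue A) N)) :
    LaurentSeries (IsLocalRing.ResidueField A) :=
  thetaFun (IsLocalRing.ResidueField A)
      (helper8991.gaussFRed A (IsLocalRing.residue A) N u) /
    helper8991.gaussFRed A (IsLocalRing.residue A) N u

theorem dlogU_mul_red (u : ↥(helper8991.gaussF A (IsLocalRing.residue A) N))
    (hu : helper8991.gaussFRed A (IsLocalRing.residue A) N u ≠ 0) :
    dlogU A N u * helper8991.gaussFRed A (IsLocalRing.residue A) N u =
      thetaFun (IsLocalRing.ResidueField A)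
        (helper8991.gaussFRed A (IsLocalRing.residue A) N u) := by
  unfold dlogU
  exact div_mul_cancel₀ _ hu

theorem dlogU_mul (u v : ↥(helper8991.gaussF A (IsLocalRing.residue A) N))
    (hu : helper8991.gaussFRed A (IsLocalRing.residue A) N u ≠ 0)
    (hv : helper8991.gaussFRed A (IsLocalRing.residue A) N v ≠ 0) :
    dlogU A N (u * v) = dlogU A N u + dlogU A N v := by
  unfold dlogU
  rw [map_mul, thetaFun_mul]
  field_simp
  ring

theorem dlogU_one : dlogU A N 1 = 0 := by
  unfold dlogU
  rw [map_one, thetaFun_one, zero_div]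

theorem dlogU_eq_zero_of_red_eq_one (u : ↥(helper8991.gaussF A (IsLocalRing.residue A) N))
    (hu : helper8991.gaussFRed A (IsLocalRing.residue A) N u = 1) : dlogU A N u = 0 := by
  unfold dlogU
  rw [hu, thetaFun_one, zero_div]

/-- The reduction of a constant of `A`, seen in the Gauss ring. -/
theorem gaussFRed_const {c : L} (hc : c ∈ A)
    (hmem : algebraMap L ↥(laurentBaseChange L (modularFunctionFieldFull N)) c ∈
      helper8991.gaussF A (IsLocalRing.residue A) N) :
    helper8991.gaussFRed A (IsLocalRing.residue A) N ⟨_, hmem⟩ =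
      HahnSeries.C (IsLocalRing.residue A ⟨c, hc⟩) :=
  helper8991.gaussRed_algebraMap A (IsLocalRing.residue A) _ _ hc

theorem algebraMap_mem_gaussF_iff' (c : L) :
    algebraMap L ↥(laurentBaseChange L (modularFunctionFieldFull N)) c ∈
      helper8991.gaussF A (IsLocalRing.residue A) N ↔ c ∈ A :=
  helper8991.algebraMap_mem_gaussF_iff A (IsLocalRing.residue A) N
    (fun a ha => (IsLocalRing.residue_eq_zero_iff a).mpr ha) c

/-- Multiplying a Gauss unit by a unit constant does not change `dlogU`. -/
theorem dlogU_const_mul {c : L} (hc : c ∈ A)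
    (hmem : algebraMap L ↥(laurentBaseChange L (modularFunctionFieldFull N)) c ∈
      helper8991.gaussF A (IsLocalRing.residue A) N)
    (hc0 : IsLocalRing.residue A ⟨c, hc⟩ ≠ 0)
    (u : ↥(helper8991.gaussF A (IsLocalRing.residue A) N)) :
    dlogU A N (⟨_, hmem⟩ * u) = dlogU A N u := by
  unfold dlogU
  rw [map_mul, gaussFRed_const A N hc hmem, thetaFun_C_mul]
  have hC : (HahnSeries.C (IsLocalRing.residue A ⟨c, hc⟩) :
      LaurentSeries (IsLocalRing.ResidueField A)) ≠ 0 := by
    intro h0
    exact hc0 (HahnSeries.C_injective (by rw [h0, map_zero]))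
  exact mul_div_mul_left _ _ hC

open Classical in
/-- **The residual logarithmic derivative** of a function: `θ(ū)/ū` for `f = c · u`, `c` a
constant and `u` a unit of the Gauss ring; `0` at `f = 0`. -/
def dlogRed (f : ↥(laurentBaseChange L (modularFunctionFieldFull N))) :
    LaurentSeries (IsLocalRing.ResidueField A) :=
  if hf : f = 0 then 0
  else dlogU A N (Classical.choose (Classical.choose_spec
    (helper8991.exists_const_mul_unit_F A (IsLocalRing.residue A) N f hf)))

@[simp]
theorem dlogRed_zero : dlogRed A N 0 = 0 := dif_pos rfl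

/-- `dlogRed` can be computed from ANY decomposition `f = c · u`. -/
theorem dlogRed_eq {f : ↥(laurentBaseChange L (modularFunctionFieldFull N))} {c : L}
    {u : ↥(helper8991.gaussF A (IsLocalRing.residue A) N)} (hc : c ≠ 0)
    (hu : helper8991.gaussFRed A (IsLocalRing.residue A) N u ≠ 0)
    (hf : f = algebraMap L ↥(laurentBaseChange L (modularFunctionFieldFull N)) c *
      (u : ↥(laurentBaseChange L (modularFunctionFieldFull N)))) :
    dlogRed A N f = dlogU A N u := by
  have hcF : algebraMap L ↥(laurentBaseChange L (modularFunctionFieldFull N)) c ≠ 0 :=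
    (map_ne_zero _).mpr hc
  have huU : IsUnit u := (helper8991.isUnit_iff_gaussFRed_ne_zero A _ N u).mpr hu
  have hu0 : (u : ↥(laurentBaseChange L (modularFunctionFieldFull N))) ≠ 0 := by
    intro h0
    apply hu
    have : u = 0 := Subtype.ext h0
    rw [this, map_zero]
  have hf0 : f ≠ 0 := by
    rw [hf]
    exact mul_ne_zero hcF hu0
  unfold dlogRed
  rw [dif_neg hf0]
  obtain ⟨hc', hu', hf'⟩ := Classical.choose_spec (Classical.choose_spec
    (helper8991.exists_const_mul_unit_F A (IsLocalRing.residue A) N f hf0))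
  set c' := Classical.choose
    (helper8991.exists_const_mul_unit_F A (IsLocalRing.residue A) N f hf0) with hc'def
  set u' := Classical.choose (Classical.choose_spec
    (helper8991.exists_const_mul_unit_F A (IsLocalRing.residue A) N f hf0)) with hu'def
  have hc'F : algebraMap L ↥(laurentBaseChange L (modularFunctionFieldFull N)) c' ≠ 0 :=
    (map_ne_zero _).mpr hc'
  -- `u' = (c / c') · u`
  have hrel : (u' : ↥(laurentBaseChange L (modularFunctionFieldFull N))) =
      algebraMap L ↥(laurentBaseChange L (modularFunctionFieldFull N)) (c / c') *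
        (u : ↥(laurentBaseChange L (modularFunctionFieldFull N))) := by
    have h1 : algebraMap L ↥(laurentBaseChange L (modularFunctionFieldFull N)) c' *
        (u' : ↥(laurentBaseChange L (modularFunctionFieldFull N))) =
        algebraMap L ↥(laurentBaseChange L (modularFunctionFieldFull N)) c *
          (u : ↥(laurentBaseChange L (modularFunctionFieldFull N))) := by
      rw [← hf', ← hf]
    rw [map_div₀, div_mul_eq_mul_div, ← h1, mul_div_cancel_left₀ _ hc'F]
  obtain ⟨w, hw⟩ := huU.exists_right_inv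
  have hmem : algebraMap L ↥(laurentBaseChange L (modularFunctionFieldFull N)) (c / c') ∈
      helper8991.gaussF A (IsLocalRing.residue A) N := by
    have h2 : algebraMap L ↥(laurentBaseChange L (modularFunctionFieldFull N)) (c / c') =
        ((u' * w : ↥(helper8991.gaussF A (IsLocalRing.residue A) N)) :
          ↥(laurentBaseChange L (modularFunctionFieldFull N))) := by
      have hw' : (u : ↥(laurentBaseChange L (modularFunctionFieldFull N))) *
          (w : ↥(laurentBaseChange L (modularFunctionFieldFull N))) = 1 := by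
        have := congrArg (fun z : ↥(helper8991.gaussF A (IsLocalRing.residue A) N) =>
          (z : ↥(laurentBaseChange L (modularFunctionFieldFull N)))) hw
        simpa using this
      rw [MulMemClass.coe_mul, hrel, mul_assoc, hw', mul_one]
    rw [h2]
    exact (u' * w).2
  have hd : c / c' ∈ A := (algebraMap_mem_gaussF_iff' A N _).mp hmem
  have hprod : u' = ⟨_, hmem⟩ * u := Subtype.ext hrel
  have hd0 : IsLocalRing.residue A ⟨c / c', hd⟩ ≠ 0 := by
    intro h0
    apply hu'
    rw [hprod, map_mul, gaussFRed_const A N hd hmem, h0, map_zero, zero_mul]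
  rw [hprod]
  exact dlogU_const_mul A N hd hmem hd0 u

/-- On units of the Gauss ring, `dlogRed` is `θ(ū)/ū`. -/
theorem dlogRed_coe (u : ↥(helper8991.gaussF A (IsLocalRing.residue A) N))
    (hu : helper8991.gaussFRed A (IsLocalRing.residue A) N u ≠ 0) :
    dlogRed A N (u : ↥(laurentBaseChange L (modularFunctionFieldFull N))) = dlogU A N u :=
  dlogRed_eq A N one_ne_zero hu (by rw [map_one, one_mul])

theorem dlogRed_mul {f g : ↥(laurentBaseChange L (modularFunctionFieldFull N))} (hf : f ≠ 0)
    (hg : g ≠ 0) : dlogRed A N (f * g) = dlogRed A N f + dlogRed A N g := by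
  obtain ⟨c, u, hc, hu, rfl⟩ :=
    helper8991.exists_const_mul_unit_F A (IsLocalRing.residue A) N f hf
  obtain ⟨d, v, hd, hv, rfl⟩ :=
    helper8991.exists_const_mul_unit_F A (IsLocalRing.residue A) N g hg
  have huv : helper8991.gaussFRed A (IsLocalRing.residue A) N (u * v) ≠ 0 := by
    rw [map_mul]
    exact mul_ne_zero hu hv
  rw [dlogRed_eq A N hc hu rfl, dlogRed_eq A N hd hv rfl,
    dlogRed_eq A N (mul_ne_zero hc hd) huv (by rw [MulMemClass.coe_mul, map_mul]; ring),
    dlogU_mul A N u v hu hv]

/-- Constants have `dlogRed = 0`. -/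
theorem dlogRed_algebraMap (c : L) :
    dlogRed A N (algebraMap L ↥(laurentBaseChange L (modularFunctionFieldFull N)) c) = 0 := by
  rcases eq_or_ne c 0 with rfl | hc
  · rw [map_zero, dlogRed_zero]
  · have h1 : helper8991.gaussFRed A (IsLocalRing.residue A) N 1 ≠ 0 := by
      rw [map_one]
      exact one_ne_zero
    rw [dlogRed_eq A N hc h1 (by push_cast; rw [mul_one]), dlogU_one]

@[simp]
theorem dlogRed_one : dlogRed A N 1 = 0 := by
  have h := dlogRed_algebraMap A N (1 : L)
  rwa [map_one] at h

theorem dlogRed_inv (f : ↥(laurentBaseChange L (modularFunctionFieldFull N))) :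
    dlogRed A N f⁻¹ = -dlogRed A N f := by
  rcases eq_or_ne f 0 with rfl | hf
  · rw [inv_zero, dlogRed_zero, neg_zero]
  · have h := dlogRed_mul A N hf (inv_ne_zero hf)
    rw [mul_inv_cancel₀ hf, dlogRed_one] at h
    exact eq_neg_of_add_eq_zero_right h.symm

theorem dlogRed_div {f g : ↥(laurentBaseChange L (modularFunctionFieldFull N))} (hf : f ≠ 0)
    (hg : g ≠ 0) : dlogRed A N (f / g) = dlogRed A N f - dlogRed A N g := by
  rw [div_eq_mul_inv, dlogRed_mul A N hf (inv_ne_zero hg), dlogRed_inv, sub_eq_add_neg]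

theorem dlogRed_pow (f : ↥(laurentBaseChange L (modularFunctionFieldFull N))) (n : ℕ) :
    dlogRed A N (f ^ n) = n • dlogRed A N f := by
  rcases eq_or_ne f 0 with rfl | hf
  · rcases Nat.eq_zero_or_pos n with rfl | hn
    · rw [pow_zero, dlogRed_one, zero_smul]
    · rw [zero_pow hn.ne', dlogRed_zero, smul_zero]
  · induction n with
    | zero => rw [pow_zero, dlogRed_one, zero_smul]
    | succ n ih => rw [pow_succ, dlogRed_mul A N (pow_ne_zero n hf) hf, ih, succ_nsmul]

/-- When `A` lies over `p`, `p`-th powers have `dlogRed = 0`. -/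
theorem dlogRed_pow_char {p : ℕ} (hp : p.Prime) (hA : A.LiesOverPrime p)
    (f : ↥(laurentBaseChange L (modularFunctionFieldFull N))) : dlogRed A N (f ^ p) = 0 := by
  have hchar := charP_residueField hp A hA
  have h0 : ((p : ℕ) : LaurentSeries (IsLocalRing.ResidueField A)) = 0 := by
    rw [← map_natCast (HahnSeries.C : IsLocalRing.ResidueField A →+*
      LaurentSeries (IsLocalRing.ResidueField A)) p, CharP.cast_eq_zero, map_zero]
  rw [dlogRed_pow, nsmul_eq_mul, h0, zero_mul]

/-- Functions `≡ 1` at the Gauss valuation have `dlogRed = 0`. -/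
theorem dlogRed_of_sub_one_lt {h : ↥(laurentBaseChange L (modularFunctionFieldFull N))}
    (hh : (helper8991.gaussF A (IsLocalRing.residue A) N).valuation (h - 1) < 1) :
    dlogRed A N h = 0 := by
  have hm : h - 1 ∈ helper8991.gaussF A (IsLocalRing.residue A) N :=
    (ValuationSubring.valuation_le_one_iff _ _).mp hh.le
  have hmem : h ∈ helper8991.gaussF A (IsLocalRing.residue A) N := by
    have := add_mem hm (one_mem _)
    rwa [sub_add_cancel] at this
  have hmax : (⟨h - 1, hm⟩ : ↥(helper8991.gaussF A (IsLocalRing.residue A) N)) ∈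
      IsLocalRing.maximalIdeal ↥(helper8991.gaussF A (IsLocalRing.residue A) N) :=
    (ValuationSubring.valuation_lt_one_iff _ _).mpr hh
  have hred0 := (helper8991.gaussFRed_eq_zero_iff A (IsLocalRing.residue A) N _).mpr hmax
  have hsub : (⟨h - 1, hm⟩ : ↥(helper8991.gaussF A (IsLocalRing.residue A) N)) =
      ⟨h, hmem⟩ - 1 := rfl
  rw [hsub, map_sub, map_one, sub_eq_zero] at hred0
  have hne : helper8991.gaussFRed A (IsLocalRing.residue A) N ⟨h, hmem⟩ ≠ 0 := by
    rw [hred0]
    exact one_ne_zero
  have := dlogRed_coe A N ⟨h, hmem⟩ hne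
  rw [show ((⟨h, hmem⟩ : ↥(helper8991.gaussF A (IsLocalRing.residue A) N)) :
    ↥(laurentBaseChange L (modularFunctionFieldFull N))) = h from rfl] at this
  rw [this]
  exact dlogU_eq_zero_of_red_eq_one A N _ hred0

/-- **Inertia invariance**: for `τ` in the inertia group of `A`, `dlogRed (τ f) = dlogRed f`. -/
theorem dlogRed_inertia {τ : L ≃ₐ[ℚ] L} (hτ : τ ∈ A.inertiaSubgroupIn ℚ)
    (f : ↥(laurentBaseChange L (modularFunctionFieldFull N))) :
    dlogRed A N (arithmeticGalois (modularFunctionFieldFull N) τ • f) = dlogRed A N f := by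
  rcases eq_or_ne f 0 with rfl | hf
  · rw [smul_zero]
  obtain ⟨c, u, hc, hu, rfl⟩ :=
    helper8991.exists_const_mul_unit_F A (IsLocalRing.residue A) N f hf
  obtain ⟨hmem, hred⟩ := gaussF_inertia A N hτ u u.2
  have hu' : helper8991.gaussFRed A (IsLocalRing.residue A) N ⟨_, hmem⟩ ≠ 0 := by
    rw [hred]
    exact hu
  have e : arithmeticGalois (modularFunctionFieldFull N) τ •
      (algebraMap L ↥(laurentBaseChange L (modularFunctionFieldFull N)) c *
        (u : ↥(laurentBaseChange L (modularFunctionFieldFull N)))) =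
      algebraMap L ↥(laurentBaseChange L (modularFunctionFieldFull N)) (τ c) *
        ((⟨_, hmem⟩ : ↥(helper8991.gaussF A (IsLocalRing.residue A) N)) :
          ↥(laurentBaseChange L (modularFunctionFieldFull N))) := by
    rw [smul_mul', SemilinearAut.smul_algebraMap]
    rfl
  rw [e, dlogRed_eq A N ((map_ne_zero τ).mpr hc) hu' rfl, dlogRed_eq A N hc hu rfl]
  unfold dlogU
  rw [hred]

/-- The defining relation on Gauss units: `dlogRed u · ū = θ(ū)`. -/
theorem dlogRed_mul_red (u : ↥(helper8991.gaussF A (IsLocalRing.residue A) N))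
    (hu : helper8991.gaussFRed A (IsLocalRing.residue A) N u ≠ 0) :
    dlogRed A N (u : ↥(laurentBaseChange L (modularFunctionFieldFull N))) *
        helper8991.gaussFRed A (IsLocalRing.residue A) N u =
      thetaFun (IsLocalRing.ResidueField A)
        (helper8991.gaussFRed A (IsLocalRing.residue A) N u) := by
  rw [dlogRed_coe A N u hu]
  exact dlogU_mul_red A N u hu

/-- On Gauss units, `dlogRed u = 0` iff `θ(ū) = 0`. -/
theorem dlogRed_coe_eq_zero_iff (u : ↥(helper8991.gaussF A (IsLocalRing.residue A) N))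
    (hu : helper8991.gaussFRed A (IsLocalRing.residue A) N u ≠ 0) :
    dlogRed A N (u : ↥(laurentBaseChange L (modularFunctionFieldFull N))) = 0 ↔
      thetaFun (IsLocalRing.ResidueField A)
        (helper8991.gaussFRed A (IsLocalRing.residue A) N u) = 0 := by
  rw [dlogRed_coe A N u hu]
  unfold dlogU
  rw [div_eq_zero_iff]
  exact ⟨fun h => h.resolve_right hu, Or.inl⟩

/-- `dlogRed f = 0` iff, for one (any) decomposition `f = c · u`, `θ(ū) = 0`. -/
theorem dlogRed_eq_zero_iff {f : ↥(laurentBaseChange L (modularFunctionFieldFull N))} {c : L}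
    {u : ↥(helper8991.gaussF A (IsLocalRing.residue A) N)} (hc : c ≠ 0)
    (hu : helper8991.gaussFRed A (IsLocalRing.residue A) N u ≠ 0)
    (hf : f = algebraMap L ↥(laurentBaseChange L (modularFunctionFieldFull N)) c *
      (u : ↥(laurentBaseChange L (modularFunctionFieldFull N)))) :
    dlogRed A N f = 0 ↔
      thetaFun (IsLocalRing.ResidueField A)
        (helper8991.gaussFRed A (IsLocalRing.residue A) N u) = 0 := by
  rw [dlogRed_eq A N hc hu hf]
  unfold dlogU
  rw [div_eq_zero_iff]
  exact ⟨fun h => h.resolve_right hu, Or.inl⟩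

end Dlog

/-! ### `Ω` on `J₀(N)` -/

section Omega

local notation "Qb" => AlgebraicClosure ℚ

variable (A : ValuationSubring Qb) (N : ℕ)
  [HasPrincipalDivisors Qb (modularFunctionFieldBar N)]

open Classical in
/-- **`Ω_W`**: the residual logarithmic derivative of `W h` for a `p`-Kummer function `h` of the
class `x` (`0` when `x` is not a `p`-Kummer class).  `W = AlgEquiv.refl` gives `Ω_∞`, `W` the
Atkin–Lehner involution gives `Ω_0`. -/
def omegaAt (W : modularFunctionFieldBar N ≃ₐ[Qb] modularFunctionFieldBar N) (p : ℕ)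
    (x : JZero N) : LaurentSeries (IsLocalRing.ResidueField A) :=
  if hx : ∃ h : modularFunctionFieldBar N, IsKummer Qb p h ∧ kummerClass Qb p h = x then
    dlogRed A N (W (Classical.choose hx))
  else 0

/-- `Ω_∞`, the component at the Gauss valuation itself. -/
abbrev omega (p : ℕ) (x : JZero N) : LaurentSeries (IsLocalRing.ResidueField A) :=
  omegaAt A N AlgEquiv.refl p x

variable {A N}

/-- **`Ω_W` on Kummer classes**: any `p`-Kummer function of the class computes it. -/
theorem omegaAt_kummerClass [NeZero N] {p : ℕ} (hp : p.Prime) (hA : A.LiesOverPrime p)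
    (W : modularFunctionFieldBar N ≃ₐ[Qb] modularFunctionFieldBar N)
    {h : modularFunctionFieldBar N} (hk : IsKummer Qb p h) :
    omegaAt A N W p (kummerClass Qb p h) = dlogRed A N (W h) := by
  have hx : ∃ h' : modularFunctionFieldBar N, IsKummer Qb p h' ∧
      kummerClass Qb p h' = kummerClass Qb p h := ⟨h, hk, rfl⟩
  unfold omegaAt
  rw [dif_pos hx]
  obtain ⟨hk', he⟩ := Classical.choose_spec hx
  obtain ⟨w, c, hw, hc, hcv, e⟩ := (kummerClass_eq_iff hp.ne_zero hk' hk).mp he
  obtain ⟨a, rfl⟩ := Fermat.Agent.S29.helper36.exists_algebraMap_eq_of_ord_eq_zero Qb N hcv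
  have hWh : W h ≠ 0 := (map_ne_zero W).mpr hk.ne_zero
  have hWw : W w ^ p ≠ 0 := pow_ne_zero p ((map_ne_zero W).mpr hw)
  have hWc : algebraMap Qb (modularFunctionFieldBar N) a ≠ 0 := hc
  rw [e, map_mul, map_mul, map_pow, W.commutes, dlogRed_mul A N hWh (mul_ne_zero hWc hWw),
    dlogRed_mul A N hWc hWw, dlogRed_algebraMap, dlogRed_pow_char A N hp hA, add_zero, add_zero]

theorem omega_kummerClass [NeZero N] {p : ℕ} (hp : p.Prime) (hA : A.LiesOverPrime p)
    {h : modularFunctionFieldBar N} (hk : IsKummer Qb p h) :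
    omega A N p (kummerClass Qb p h) = dlogRed A N h :=
  omegaAt_kummerClass hp hA AlgEquiv.refl hk

theorem omegaAt_zero [NeZero N] {p : ℕ} (hp : p.Prime) (hA : A.LiesOverPrime p)
    (W : modularFunctionFieldBar N ≃ₐ[Qb] modularFunctionFieldBar N) :
    omegaAt A N W p 0 = 0 := by
  rw [← kummerClass_one (K := Qb) (F := modularFunctionFieldBar N) p,
    omegaAt_kummerClass hp hA W (isKummer_one p), map_one, dlogRed_one]

/-- `Ω_W` is additive on `J₀(N)[p]`. -/
theorem omegaAt_add [NeZero N] {p : ℕ} (hp : p.Prime) (hA : A.LiesOverPrime p)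
    (W : modularFunctionFieldBar N ≃ₐ[Qb] modularFunctionFieldBar N) {x y : JZero N}
    (hx : (p : ℤ) • x = 0) (hy : (p : ℤ) • y = 0) :
    omegaAt A N W p (x + y) = omegaAt A N W p x + omegaAt A N W p y := by
  obtain ⟨u, hu, rfl⟩ := exists_kummerClass_eq hp.ne_zero (Pic0.mem_torsion.mpr hx)
  obtain ⟨v, hv, rfl⟩ := exists_kummerClass_eq hp.ne_zero (Pic0.mem_torsion.mpr hy)
  rw [← kummerClass_mul hu hv, omegaAt_kummerClass hp hA W (hu.mul hv),
    omegaAt_kummerClass hp hA W hu, omegaAt_kummerClass hp hA W hv, map_mul,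
    dlogRed_mul A N ((map_ne_zero W).mpr hu.ne_zero) ((map_ne_zero W).mpr hv.ne_zero)]

theorem omegaAt_neg [NeZero N] {p : ℕ} (hp : p.Prime) (hA : A.LiesOverPrime p)
    (W : modularFunctionFieldBar N ≃ₐ[Qb] modularFunctionFieldBar N) {x : JZero N}
    (hx : (p : ℤ) • x = 0) : omegaAt A N W p (-x) = -omegaAt A N W p x := by
  obtain ⟨u, hu, rfl⟩ := exists_kummerClass_eq hp.ne_zero (Pic0.mem_torsion.mpr hx)
  rw [← kummerClass_inv hu, omegaAt_kummerClass hp hA W hu.inv,
    omegaAt_kummerClass hp hA W hu, map_inv₀, dlogRed_inv]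

theorem omegaAt_sub [NeZero N] {p : ℕ} (hp : p.Prime) (hA : A.LiesOverPrime p)
    (W : modularFunctionFieldBar N ≃ₐ[Qb] modularFunctionFieldBar N) {x y : JZero N}
    (hx : (p : ℤ) • x = 0) (hy : (p : ℤ) • y = 0) :
    omegaAt A N W p (x - y) = omegaAt A N W p x - omegaAt A N W p y := by
  have hy' : (p : ℤ) • (-y) = 0 := by
    have h1 : (p : ℤ) • (-y) = -((p : ℤ) • y) := zsmul_neg _ _
    rw [h1, hy, neg_zero]
  rw [sub_eq_add_neg, omegaAt_add hp hA W hx hy', omegaAt_neg hp hA W hy, sub_eq_add_neg]

/-- `Ω_W` as an additive map on `J₀(N)[p]`. -/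
def omegaAtHom [NeZero N] {p : ℕ} (hp : p.Prime) (hA : A.LiesOverPrime p)
    (W : modularFunctionFieldBar N ≃ₐ[Qb] modularFunctionFieldBar N) :
    ↥(Pic0.torsion Qb (modularFunctionFieldBar N) p) →+
      LaurentSeries (IsLocalRing.ResidueField A) where
  toFun x := omegaAt A N W p (x : JZero N)
  map_zero' := omegaAt_zero hp hA W
  map_add' x y := omegaAt_add hp hA W (Pic0.mem_torsion.mp x.2) (Pic0.mem_torsion.mp y.2)

@[simp]
theorem omegaAtHom_apply [NeZero N] {p : ℕ} (hp : p.Prime) (hA : A.LiesOverPrime p)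
    (W : modularFunctionFieldBar N ≃ₐ[Qb] modularFunctionFieldBar N)
    (x : ↥(Pic0.torsion Qb (modularFunctionFieldBar N) p)) :
    omegaAtHom hp hA W x = omegaAt A N W p (x : JZero N) := rfl

/-- **`Ω_W` is invariant under the inertia group of `A`** (for `W` commuting with the
coefficientwise Galois action, e.g. `W = 1` or the Atkin–Lehner involution). -/
theorem omegaAt_inertia [NeZero N] {p : ℕ} (hp : p.Prime) (hA : A.LiesOverPrime p)
    (W : modularFunctionFieldBar N ≃ₐ[Qb] modularFunctionFieldBar N)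
    {τ : Qb ≃ₐ[ℚ] Qb} (hτ : τ ∈ A.inertiaSubgroupIn ℚ)
    (hWτ : ∀ x : modularFunctionFieldBar N,
      W (arithmeticGalois (modularFunctionFieldFull N) τ • x) =
        arithmeticGalois (modularFunctionFieldFull N) τ • W x)
    {x : JZero N} (hx : (p : ℤ) • x = 0) :
    omegaAt A N W p (τ • x) = omegaAt A N W p x := by
  obtain ⟨u, hu, rfl⟩ := exists_kummerClass_eq hp.ne_zero (Pic0.mem_torsion.mpr hx)
  rw [galois_smul_kummerClass, omegaAt_kummerClass hp hA W ((isKummer_smul_iff _).mpr hu),
    omegaAt_kummerClass hp hA W hu, hWτ, dlogRed_inertia A N hτ]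

theorem omega_inertia [NeZero N] {p : ℕ} (hp : p.Prime) (hA : A.LiesOverPrime p)
    {τ : Qb ≃ₐ[ℚ] Qb} (hτ : τ ∈ A.inertiaSubgroupIn ℚ) {x : JZero N} (hx : (p : ℤ) • x = 0) :
    omega A N p (τ • x) = omega A N p x :=
  omegaAt_inertia hp hA AlgEquiv.refl hτ (fun _ => rfl) hx

/-- `(τ - 1) x ∈ ker Ω_W` for `τ` in the inertia group. -/
theorem omegaAt_inertia_sub [NeZero N] {p : ℕ} (hp : p.Prime) (hA : A.LiesOverPrime p)
    (W : modularFunctionFieldBar N ≃ₐ[Qb] modularFunctionFieldBar N)
    {τ : Qb ≃ₐ[ℚ] Qb} (hτ : τ ∈ A.inertiaSubgroupIn ℚ)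
    (hWτ : ∀ x : modularFunctionFieldBar N,
      W (arithmeticGalois (modularFunctionFieldFull N) τ • x) =
        arithmeticGalois (modularFunctionFieldFull N) τ • W x)
    {x : JZero N} (hx : (p : ℤ) • x = 0) :
    omegaAt A N W p (τ • x - x) = 0 := by
  have hτx : (p : ℤ) • (τ • x) = 0 := by
    have h1 : τ • ((p : ℤ) • x) = (p : ℤ) • (τ • x) :=
      map_zsmul (DistribSMul.toAddMonoidHom (JZero N) τ) (p : ℤ) x
    rw [← h1, hx]
    exact smul_zero (A := JZero N) τ
  rw [omegaAt_sub hp hA W hτx hx, omegaAt_inertia hp hA W hτ hWτ hx, sub_self]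

/-- The classes of `kBoth A N p W` (one representative `≡ 1` at the Gauss valuation and at its
`W`-twin; landed S33/helper3511_FreeHalf) are killed by `Ω_∞` and by `Ω_W`. -/
theorem omega_eq_zero_of_mem_kBoth [NeZero N] {p : ℕ} (hp : p.Prime) (hA : A.LiesOverPrime p)
    {W : modularFunctionFieldBar N ≃ₐ[Qb] modularFunctionFieldBar N} {x : JZero N}
    (hx : x ∈ Fermat.Agent.S33.helper3511.kBoth A N p W) :
    omega A N p x = 0 ∧ omegaAt A N W p x = 0 := by
  obtain ⟨h, hk, h1, h2, rfl⟩ := Fermat.Agent.S33.helper3511.mem_kBoth_iff.mp hx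
  refine ⟨?_, ?_⟩
  · rw [omega_kummerClass hp hA hk]
    exact dlogRed_of_sub_one_lt A N h1
  · rw [omegaAt_kummerClass hp hA W hk]
    exact dlogRed_of_sub_one_lt A N h2

end Omega

end

end Fermat.Agent.S44.helper3511
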