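/-
S44-L3-NORMQ (helper7545): THE TWO NORMS `F_{N l} → F_N` IN `t`-EXPANSIONS, FOR EVERY FUNCTION.

`Kbar = ℚ̄`, `FN M = modularFunctionFieldBar M ⊆ ℚ̄((t))`, `l` prime, `l ∤ N`,
`α = heckeAlphaBar Kbar N l` (the inclusion `F_N ⊆ F_{N l}`), `β = heckeBetaBar Kbar N l`
(`t ↦ t^l`), `W` the Atkin–Lehner involution at `l` of `F_{N l}` (ANY `ℚ̄`-algebra map with
`W ∘ α = β` and `W ∘ β = α`; all the landed versions are instances), `ζ` a primitive `l`-th root
of unity and `kronNorm ζ l f` the series `g` with `g(t^l) = ∏_{b<l} f(ζ^b t)` (landed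
`S37/helper5666_KroneckerSeries`).  For EVERY `x ∈ F_{N l}`:

* `coe_normAlong_heckeAlphaBar_of_swap` :  `N_α x = x · kronNorm ζ l (W x)`;
* `coe_normAlong_heckeBetaBar_of_swap`  :  `N_β x = kronNorm ζ l x · W x`;

as `t`-expansions of elements of `F_N`.  In the notation of blueprint step (3) (TOR-1) of S44:
with `h_∞ = x` and `h_0 = W x` the expansions of `h` at the two cusps and `N_φ = kronNorm ζ l`
the norm of the Frobenius lift `t ↦ t^l`, the two norms to level `N` are `h_∞ · N_φ(h_0)` and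
`N_φ(h_∞) · h_0`.

Instances: `helper9793.swapBar` (`…_swapBar`), `helper1073.atkinLehnerBar` (`coe_normAlong_heckeAlphaBar`,
`coe_normAlong_heckeBetaBar_of_not_dvd`); product forms (`qExpand_…`), the membership statements
`mul_kronNorm_mem`, and `normAlong_heckeAlphaBar_swap : N_α (W x) = N_β x`.

Proof: the landed `S37/helper9793_KroneckerFF` computes both norms of every `x` as products over
the `l + 1` embeddings of `F_{N l}` into `ℚ̄((s))`, `t = s^l`; the products are evaluated here.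
The twin statement for `l ∣ N` is the landed `S36.helper2106.coe_normAlong_heckeBetaBar`.
-/
import Fermat.Agent.S37.helper9793_KroneckerFF
import Fermat.Agent.S35.helper1073_AtkinLehnerSwap
import Fermat.Agent.S35.helper1219_AtkinLehnerFF
import Fermat.Agent.S29.helper36_KummerCorr

set_option autoImplicit false
set_option linter.style.haveILetI false
set_option linter.unusedSectionVars false

namespace Fermat.Agent.S44.helper7545

open ModularCurve AlgebraicCurve
open Fermat.Agent.S24.helper24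
open Fermat.Agent.S37.helper5666 (rot kronProd kronNorm qExpand_kronNorm hreg_of_isPrimitiveRoot)
open Fermat.Agent.S37.helper9793 (swapBar swapBar_swapBar swapBar_heckeAlphaBar
  swapBar_heckeBetaBar)
open Fermat.Agent.S29.helper36 (normAlong)

noncomputable section

variable (N l : ℕ) [NeZero N] [NeZero l]

/-! ## Generation of `F_{N l}` by `α(F_N)` and `β(F_N)` -/

/-- Two `ℚ̄`-algebra maps out of `F_{N l}` (`l` prime) which agree on `α(F_N)` and on `β(F_N)`
are equal. -/
theorem algHom_ext_alpha_beta (hl : l.Prime) {Ω : Type*} [Field Ω] [Algebra Kbar Ω]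
    {Φ Ψ : FN (N * l) →ₐ[Kbar] Ω}
    (hα : ∀ y : FN N, Φ (heckeAlphaBar Kbar N l y) = Ψ (heckeAlphaBar Kbar N l y))
    (hβ : ∀ y : FN N, Φ (heckeBetaBar Kbar N l y) = Ψ (heckeBetaBar Kbar N l y)) : Φ = Ψ := by
  have key : (Φ : FN (N * l) →+* Ω) = (Ψ : FN (N * l) →+* Ω) := by
    refine Fermat.Agent.S24.helper3176.ringHom_ext_of_gen (N := N * l) (fun c => ?_)
      (fun d _ hd => ?_)
    · show Φ (algebraMap Kbar (FN (N * l)) c) = Ψ (algebraMap Kbar (FN (N * l)) c)
      rw [AlgHom.commutes, AlgHom.commutes]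
    · show Φ (jBarD (N * l) d hd) = Ψ (jBarD (N * l) d hd)
      by_cases hld : l ∣ d
      · obtain ⟨d', rfl⟩ := hld
        have hd' : d' ∣ N := by
          rw [mul_comm N l] at hd
          exact Nat.dvd_of_mul_dvd_mul_left hl.pos hd
        haveI : NeZero d' := ⟨ne_zero_of_dvd_ne_zero (NeZero.ne N) hd'⟩
        have e1 : heckeBetaBar Kbar N l (jBarD N d' hd') = jBarD (N * l) (l * d') hd := by
          apply Subtype.ext
          show qExpand Kbar l (coeffEmb Kbar (qExpand ℚ d' jq))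
            = coeffEmb Kbar (qExpand ℚ (l * d') jq)
          rw [coeffEmb, ← coeffMap_qExpand, qExpand_qExpand]
        rw [← e1]
        exact hβ _
      · have hd' : d ∣ N := Fermat.Agent.S37.helper9793.dvd_of_dvd_mul_prime hl hd hld
        have e1 : heckeAlphaBar Kbar N l (jBarD N d hd') = jBarD (N * l) d hd :=
          Subtype.ext (coe_heckeAlphaBar N l _)
        rw [← e1]
        exact hα _
  exact AlgHom.ext fun z => congrArg (fun f : FN (N * l) →+* Ω => f z) key

/-- Uniqueness of the Atkin–Lehner swap: a `ℚ̄`-algebra endomorphism `W` of `F_{N l}` with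
`W ∘ α = β` and `W ∘ β = α` is `helper9793.swapBar`. -/
theorem eq_swapBar (hl : l.Prime) (hlN : ¬ l ∣ N) (W : FN (N * l) →ₐ[Kbar] FN (N * l))
    (hWα : ∀ y : FN N, W (heckeAlphaBar Kbar N l y) = heckeBetaBar Kbar N l y)
    (hWβ : ∀ y : FN N, W (heckeBetaBar Kbar N l y) = heckeAlphaBar Kbar N l y)
    (z : FN (N * l)) : W z = swapBar N l hl hlN z := by
  have h : W = (swapBar N l hl hlN : FN (N * l) →ₐ[Kbar] FN (N * l)) :=
    algHom_ext_alpha_beta N l hl
      (fun y => (hWα y).trans (swapBar_heckeAlphaBar N l hl hlN y).symm)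
      (fun y => (hWβ y).trans (swapBar_heckeBetaBar N l hl hlN y).symm)
  rw [h]
  rfl

/-! ## The two norms, for `swapBar` -/

/-- The product over the `l + 1` embeddings of `F_{N l}` over `β(F_N)`, for every `x`. -/
theorem prod_betaEmb (hl : l.Prime) (hlN : ¬ l ∣ N) (ζ : Kbarˣ) (x : FN (N * l)) :
    ∏ o, Fermat.Agent.S37.helper9793.betaEmb N l hl hlN ζ o x
      = qExpand Kbar l ((swapBar N l hl hlN x : FN (N * l)) : LaurentSeries Kbar)
        * kronProd ζ l (x : LaurentSeries Kbar) := by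
  rw [Fintype.prod_option, kronProd,
    ← Fin.prod_univ_eq_prod_range (fun b => rot (ζ ^ b) (x : LaurentSeries Kbar)) l]
  rfl

/-- **(G-beta), `swapBar` form.**  `N_β x = W x · kronNorm ζ l x` for every `x ∈ F_{N l}`. -/
theorem coe_normAlong_heckeBetaBar_swapBar (hl : l.Prime) (hlN : ¬ l ∣ N) (ζ : Kbarˣ)
    (hζ : IsPrimitiveRoot ζ l) (x : FN (N * l)) :
    ((normAlong (heckeBetaBar Kbar N l) x : FN N) : LaurentSeries Kbar)
      = kronNorm ζ l (x : LaurentSeries Kbar)
        * ((swapBar N l hl hlN x : FN (N * l)) : LaurentSeries Kbar) := by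
  have h1 : qExpand Kbar l ((normAlong (heckeBetaBar Kbar N l) x : FN N) : LaurentSeries Kbar)
      = ∏ o, Fermat.Agent.S37.helper9793.betaEmb N l hl hlN ζ o x :=
    (Fermat.Agent.S37.helper9793.norm_charpoly_along_beta N l hl hlN ζ hζ x).1
  rw [prod_betaEmb N l hl hlN ζ x,
    ← qExpand_kronNorm ζ l hζ.pow_eq_one (hreg_of_isPrimitiveRoot l ζ hζ), ← map_mul] at h1
  exact (qExpand_injective (R := Kbar) l h1).trans (mul_comm _ _)

/-- **(G-alpha), `swapBar` form.**  `N_α x = x · kronNorm ζ l (W x)` for every `x ∈ F_{N l}`. -/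
theorem coe_normAlong_heckeAlphaBar_swapBar (hl : l.Prime) (hlN : ¬ l ∣ N) (ζ : Kbarˣ)
    (hζ : IsPrimitiveRoot ζ l) (x : FN (N * l)) :
    ((normAlong (heckeAlphaBar Kbar N l) x : FN N) : LaurentSeries Kbar)
      = (x : LaurentSeries Kbar)
        * kronNorm ζ l ((swapBar N l hl hlN x : FN (N * l)) : LaurentSeries Kbar) := by
  have h1 : qExpand Kbar l ((normAlong (heckeAlphaBar Kbar N l) x : FN N) : LaurentSeries Kbar)
      = ∏ o, Fermat.Agent.S37.helper9793.betaEmb N l hl hlN ζ o (swapBar N l hl hlN x) :=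
    (Fermat.Agent.S37.helper9793.norm_charpoly_along_alpha N l hl hlN ζ hζ x).1
  rw [prod_betaEmb N l hl hlN ζ (swapBar N l hl hlN x), swapBar_swapBar,
    ← qExpand_kronNorm ζ l hζ.pow_eq_one (hreg_of_isPrimitiveRoot l ζ hζ), ← map_mul] at h1
  exact qExpand_injective (R := Kbar) l h1

/-! ## The two norms, for any swap `W` -/

section Generic

variable (hl : l.Prime) (hlN : ¬ l ∣ N) (W : FN (N * l) →ₐ[Kbar] FN (N * l))
  (hWα : ∀ y : FN N, W (heckeAlphaBar Kbar N l y) = heckeBetaBar Kbar N l y)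
  (hWβ : ∀ y : FN N, W (heckeBetaBar Kbar N l y) = heckeAlphaBar Kbar N l y)
  (ζ : Kbarˣ) (hζ : IsPrimitiveRoot ζ l)

include hl hlN hWα hWβ hζ

/-- **(G-alpha).**  For a prime `l ∤ N`, any swap `W` (`W ∘ α = β`, `W ∘ β = α`) and EVERY
`x ∈ F_{N l}`, the `t`-expansion of the norm of `x` down to `F_N` along the inclusion `α` is
`x · kronNorm ζ l (W x)`, i.e. `(N_α x)(t^l) = x(t^l) · ∏_{b<l} (W x)(ζ^b t)`. -/
theorem coe_normAlong_heckeAlphaBar_of_swap (x : FN (N * l)) :
    ((normAlong (heckeAlphaBar Kbar N l) x : FN N) : LaurentSeries Kbar)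
      = (x : LaurentSeries Kbar) * kronNorm ζ l ((W x : FN (N * l)) : LaurentSeries Kbar) := by
  rw [eq_swapBar N l hl hlN W hWα hWβ x]
  exact coe_normAlong_heckeAlphaBar_swapBar N l hl hlN ζ hζ x

/-- **(G-beta).**  For a prime `l ∤ N`, any swap `W` and EVERY `x ∈ F_{N l}`, the `t`-expansion
of the norm of `x` down to `F_N` along `β : t ↦ t^l` is `kronNorm ζ l x · W x`, i.e.
`(N_β x)(t^l) = ∏_{b<l} x(ζ^b t) · (W x)(t^l)`. -/
theorem coe_normAlong_heckeBetaBar_of_swap (x : FN (N * l)) :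
    ((normAlong (heckeBetaBar Kbar N l) x : FN N) : LaurentSeries Kbar)
      = kronNorm ζ l (x : LaurentSeries Kbar) * ((W x : FN (N * l)) : LaurentSeries Kbar) := by
  rw [eq_swapBar N l hl hlN W hWα hWβ x]
  exact coe_normAlong_heckeBetaBar_swapBar N l hl hlN ζ hζ x

/-- Product form of (G-alpha): `(N_α x)(t^l) = x(t^l) · ∏_{b<l} (W x)(ζ^b t)`. -/
theorem qExpand_coe_normAlong_heckeAlphaBar_of_swap (x : FN (N * l)) :
    qExpand Kbar l ((normAlong (heckeAlphaBar Kbar N l) x : FN N) : LaurentSeries Kbar)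
      = qExpand Kbar l (x : LaurentSeries Kbar)
        * kronProd ζ l ((W x : FN (N * l)) : LaurentSeries Kbar) := by
  rw [coe_normAlong_heckeAlphaBar_of_swap N l hl hlN W hWα hWβ ζ hζ x, map_mul,
    qExpand_kronNorm ζ l hζ.pow_eq_one (hreg_of_isPrimitiveRoot l ζ hζ)]

/-- Product form of (G-beta): `(N_β x)(t^l) = ∏_{b<l} x(ζ^b t) · (W x)(t^l)`. -/
theorem qExpand_coe_normAlong_heckeBetaBar_of_swap (x : FN (N * l)) :
    qExpand Kbar l ((normAlong (heckeBetaBar Kbar N l) x : FN N) : LaurentSeries Kbar)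
      = kronProd ζ l (x : LaurentSeries Kbar)
        * qExpand Kbar l ((W x : FN (N * l)) : LaurentSeries Kbar) := by
  rw [coe_normAlong_heckeBetaBar_of_swap N l hl hlN W hWα hWβ ζ hζ x, map_mul,
    qExpand_kronNorm ζ l hζ.pow_eq_one (hreg_of_isPrimitiveRoot l ζ hζ)]

/-- `x · kronNorm ζ l (W x)` is the expansion of a function of level `N`. -/
theorem mul_kronNorm_swap_mem (x : FN (N * l)) :
    (x : LaurentSeries Kbar) * kronNorm ζ l ((W x : FN (N * l)) : LaurentSeries Kbar)
      ∈ modularFunctionFieldBar N := by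
  rw [← coe_normAlong_heckeAlphaBar_of_swap N l hl hlN W hWα hWβ ζ hζ x]
  exact (normAlong (heckeAlphaBar Kbar N l) x).2

/-- `kronNorm ζ l x · W x` is the expansion of a function of level `N`. -/
theorem kronNorm_mul_swap_mem (x : FN (N * l)) :
    kronNorm ζ l (x : LaurentSeries Kbar) * ((W x : FN (N * l)) : LaurentSeries Kbar)
      ∈ modularFunctionFieldBar N := by
  rw [← coe_normAlong_heckeBetaBar_of_swap N l hl hlN W hWα hWβ ζ hζ x]
  exact (normAlong (heckeBetaBar Kbar N l) x).2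

omit hζ in
/-- The swap exchanges the two norms: `N_α (W x) = N_β x`. -/
theorem normAlong_heckeAlphaBar_swap (x : FN (N * l)) :
    normAlong (heckeAlphaBar Kbar N l) (W x) = normAlong (heckeBetaBar Kbar N l) x := by
  obtain ⟨ζ', hζ'⟩ := Fermat.Agent.S37.helper9793.exists_primitiveRoot_unit l
  apply Subtype.ext
  rw [coe_normAlong_heckeAlphaBar_of_swap N l hl hlN W hWα hWβ ζ' hζ' (W x),
    coe_normAlong_heckeBetaBar_of_swap N l hl hlN W hWα hWβ ζ' hζ' x,
    eq_swapBar N l hl hlN W hWα hWβ (W x), eq_swapBar N l hl hlN W hWα hWβ x, swapBar_swapBar,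
    mul_comm]

omit hζ in
/-- The swap exchanges the two norms: `N_β (W x) = N_α x`. -/
theorem normAlong_heckeBetaBar_swap (x : FN (N * l)) :
    normAlong (heckeBetaBar Kbar N l) (W x) = normAlong (heckeAlphaBar Kbar N l) x := by
  have hWW : W (W x) = x := by
    rw [eq_swapBar N l hl hlN W hWα hWβ (W x), eq_swapBar N l hl hlN W hWα hWβ x,
      swapBar_swapBar]
  rw [← normAlong_heckeAlphaBar_swap N l hl hlN W hWα hWβ (W x), hWW]

end Generic

/-! ## Instances: the landed Atkin–Lehner involutions -/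

/-- **(G-alpha)** for the landed `S35.helper1073.atkinLehnerBar` at level `N l`. -/
theorem coe_normAlong_heckeAlphaBar (hl : l.Prime) (hlN : ¬ l ∣ N) (ζ : Kbarˣ)
    (hζ : IsPrimitiveRoot ζ l) (x : FN (N * l)) :
    ((normAlong (heckeAlphaBar Kbar N l) x : FN N) : LaurentSeries Kbar)
      = (x : LaurentSeries Kbar) * kronNorm ζ l
          ((Fermat.Agent.S35.helper1073.atkinLehnerBar (N * l) l hl (dvd_mul_left l N)
            (Fermat.Agent.S35.helper1073.not_sq_dvd_mul N l hl hlN) x : FN (N * l)) :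
            LaurentSeries Kbar) :=
  coe_normAlong_heckeAlphaBar_of_swap N l hl hlN
    (Fermat.Agent.S35.helper1073.atkinLehnerBar (N * l) l hl (dvd_mul_left l N)
      (Fermat.Agent.S35.helper1073.not_sq_dvd_mul N l hl hlN)).toAlgHom
    (Fermat.Agent.S35.helper1073.atkinLehnerBar_heckeAlphaBar N l hl hlN)
    (Fermat.Agent.S35.helper1073.atkinLehnerBar_heckeBetaBar N l hl hlN) ζ hζ x

/-- **(G-beta)** for the landed `S35.helper1073.atkinLehnerBar` at level `N l`, `l ∤ N`
(the case `l ∣ N` is `S36.helper2106.coe_normAlong_heckeBetaBar`). -/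
theorem coe_normAlong_heckeBetaBar_of_not_dvd (hl : l.Prime) (hlN : ¬ l ∣ N) (ζ : Kbarˣ)
    (hζ : IsPrimitiveRoot ζ l) (x : FN (N * l)) :
    ((normAlong (heckeBetaBar Kbar N l) x : FN N) : LaurentSeries Kbar)
      = kronNorm ζ l (x : LaurentSeries Kbar)
        * ((Fermat.Agent.S35.helper1073.atkinLehnerBar (N * l) l hl (dvd_mul_left l N)
            (Fermat.Agent.S35.helper1073.not_sq_dvd_mul N l hl hlN) x : FN (N * l)) :
            LaurentSeries Kbar) :=
  coe_normAlong_heckeBetaBar_of_swap N l hl hlN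
    (Fermat.Agent.S35.helper1073.atkinLehnerBar (N * l) l hl (dvd_mul_left l N)
      (Fermat.Agent.S35.helper1073.not_sq_dvd_mul N l hl hlN)).toAlgHom
    (Fermat.Agent.S35.helper1073.atkinLehnerBar_heckeAlphaBar N l hl hlN)
    (Fermat.Agent.S35.helper1073.atkinLehnerBar_heckeBetaBar N l hl hlN) ζ hζ x

/-- **(G-alpha)** for the landed `S35.helper1219.atkinLehnerBarR` at level `N l`. -/
theorem coe_normAlong_heckeAlphaBar_atkinLehnerBarR (hl : l.Prime) (hlN : ¬ l ∣ N)
    (h : Nat.Coprime l N) (ζ : Kbarˣ) (hζ : IsPrimitiveRoot ζ l) (x : FN (N * l)) :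
    ((normAlong (heckeAlphaBar Kbar N l) x : FN N) : LaurentSeries Kbar)
      = (x : LaurentSeries Kbar) * kronNorm ζ l
          ((Fermat.Agent.S35.helper1219.atkinLehnerBarR N l h x : FN (N * l)) :
            LaurentSeries Kbar) :=
  coe_normAlong_heckeAlphaBar_of_swap N l hl hlN
    (Fermat.Agent.S35.helper1219.atkinLehnerBarR N l h).toAlgHom
    (Fermat.Agent.S35.helper1219.atkinLehnerBarR_heckeAlphaBar N l h)
    (Fermat.Agent.S35.helper1219.atkinLehnerBarR_heckeBetaBar N l h) ζ hζ x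

/-- **(G-beta)** for the landed `S35.helper1219.atkinLehnerBarR` at level `N l`. -/
theorem coe_normAlong_heckeBetaBar_atkinLehnerBarR (hl : l.Prime) (hlN : ¬ l ∣ N)
    (h : Nat.Coprime l N) (ζ : Kbarˣ) (hζ : IsPrimitiveRoot ζ l) (x : FN (N * l)) :
    ((normAlong (heckeBetaBar Kbar N l) x : FN N) : LaurentSeries Kbar)
      = kronNorm ζ l (x : LaurentSeries Kbar)
        * ((Fermat.Agent.S35.helper1219.atkinLehnerBarR N l h x : FN (N * l)) :
            LaurentSeries Kbar) :=
  coe_normAlong_heckeBetaBar_of_swap N l hl hlN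
    (Fermat.Agent.S35.helper1219.atkinLehnerBarR N l h).toAlgHom
    (Fermat.Agent.S35.helper1219.atkinLehnerBarR_heckeAlphaBar N l h)
    (Fermat.Agent.S35.helper1219.atkinLehnerBarR_heckeBetaBar N l h) ζ hζ x

/-! ## The level written `l * N` (the convention of `S35.helper1219.atkinLehnerBar l N h`,
`S33.helper3511.kBoth`): transport along `castFN` -/

open Fermat.Agent.S35.helper1219 (castFN coe_castFN)

/-- **(G-alpha)** at level `l * N`: for `x ∈ F_{l N}`, the norm along `α` of `x` (transported to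
the Prelude level `N * l`) is `x · kronNorm ζ l (W_l x)`, `W_l = helper1219.atkinLehnerBar l N h`. -/
theorem coe_normAlong_heckeAlphaBar_castFN (hl : l.Prime) (hlN : ¬ l ∣ N)
    (h : Nat.Coprime l N) (ζ : Kbarˣ) (hζ : IsPrimitiveRoot ζ l) (x : FN (l * N)) :
    ((normAlong (heckeAlphaBar Kbar N l) (castFN (mul_comm l N) x) : FN N) : LaurentSeries Kbar)
      = (x : LaurentSeries Kbar) * kronNorm ζ l
          ((Fermat.Agent.S35.helper1219.atkinLehnerBar l N h x : FN (l * N)) :
            LaurentSeries Kbar) := by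
  rw [coe_normAlong_heckeAlphaBar_atkinLehnerBarR N l hl hlN h ζ hζ,
    Fermat.Agent.S35.helper1219.atkinLehnerBarR_apply, coe_castFN, coe_castFN,
    Fermat.Agent.S35.helper1219.castFN_castFN]

/-- **(G-beta)** at level `l * N`: for `x ∈ F_{l N}`, the norm along `β` of `x` (transported to
the Prelude level `N * l`) is `kronNorm ζ l x · W_l x`. -/
theorem coe_normAlong_heckeBetaBar_castFN (hl : l.Prime) (hlN : ¬ l ∣ N)
    (h : Nat.Coprime l N) (ζ : Kbarˣ) (hζ : IsPrimitiveRoot ζ l) (x : FN (l * N)) :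
    ((normAlong (heckeBetaBar Kbar N l) (castFN (mul_comm l N) x) : FN N) : LaurentSeries Kbar)
      = kronNorm ζ l (x : LaurentSeries Kbar)
        * ((Fermat.Agent.S35.helper1219.atkinLehnerBar l N h x : FN (l * N)) :
            LaurentSeries Kbar) := by
  rw [coe_normAlong_heckeBetaBar_atkinLehnerBarR N l hl hlN h ζ hζ,
    Fermat.Agent.S35.helper1219.atkinLehnerBarR_apply, coe_castFN, coe_castFN,
    Fermat.Agent.S35.helper1219.castFN_castFN]

/-! ## The Kronecker norm as an operator on `F_{N l}`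

For a prime `l ∤ N` the series operator `kronNorm ζ l` (the norm `N_φ` of the Frobenius lift
`t ↦ t^l`) preserves the function field of level `N l`: by (G-beta), `kronNorm ζ l x` is the
expansion of `α(N_β x) / W x`.  `kronFN` is the resulting multiplicative map of `F_{N l}`; in terms
of it (G-alpha) and (G-beta) are identities INSIDE `F_{N l}`. -/

theorem kronNorm_zero (ζ : Kbarˣ) : kronNorm ζ l (0 : LaurentSeries Kbar) = 0 := by
  have h0 : kronProd ζ l (0 : LaurentSeries Kbar) = 0 := by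
    unfold Fermat.Agent.S37.helper5666.kronProd
    simp only [map_zero]
    rw [Finset.prod_const, Finset.card_range, zero_pow (NeZero.ne l)]
  show Fermat.Agent.S37.helper5666.descend l (kronProd ζ l (0 : LaurentSeries Kbar)) = 0
  rw [h0, Fermat.Agent.S37.helper5666.descend_zero]

theorem kronNorm_one (ζ : Kbarˣ) (hζ : IsPrimitiveRoot ζ l) :
    kronNorm ζ l (1 : LaurentSeries Kbar) = 1 := by
  apply qExpand_injective (R := Kbar) l
  rw [qExpand_kronNorm ζ l hζ.pow_eq_one (hreg_of_isPrimitiveRoot l ζ hζ), map_one]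
  unfold Fermat.Agent.S37.helper5666.kronProd
  simp only [map_one]
  exact Finset.prod_const_one

theorem kronNorm_mul (ζ : Kbarˣ) (hζ : IsPrimitiveRoot ζ l) (f g : LaurentSeries Kbar) :
    kronNorm ζ l (f * g) = kronNorm ζ l f * kronNorm ζ l g := by
  apply qExpand_injective (R := Kbar) l
  rw [map_mul, qExpand_kronNorm ζ l hζ.pow_eq_one (hreg_of_isPrimitiveRoot l ζ hζ),
    qExpand_kronNorm ζ l hζ.pow_eq_one (hreg_of_isPrimitiveRoot l ζ hζ),
    qExpand_kronNorm ζ l hζ.pow_eq_one (hreg_of_isPrimitiveRoot l ζ hζ)]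
  unfold Fermat.Agent.S37.helper5666.kronProd
  simp only [map_mul]
  exact Finset.prod_mul_distrib

theorem kronNorm_algebraMap (ζ : Kbarˣ) (hζ : IsPrimitiveRoot ζ l) (c : Kbar) :
    kronNorm ζ l (algebraMap Kbar (LaurentSeries Kbar) c)
      = algebraMap Kbar (LaurentSeries Kbar) (c ^ l) := by
  apply qExpand_injective (R := Kbar) l
  rw [qExpand_kronNorm ζ l hζ.pow_eq_one (hreg_of_isPrimitiveRoot l ζ hζ)]
  have hq : ∀ a : Kbar, qExpand Kbar l (algebraMap Kbar (LaurentSeries Kbar) a)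
      = algebraMap Kbar (LaurentSeries Kbar) a := fun a => by
    rw [algebraMap_laurentSeries_eq_single, qExpand_single, mul_zero]
  have hr : ∀ b ∈ Finset.range l, rot (ζ ^ b) (algebraMap Kbar (LaurentSeries Kbar) c)
      = algebraMap Kbar (LaurentSeries Kbar) c := fun b _ => by
    rw [algebraMap_laurentSeries_eq_single, Fermat.Agent.S37.helper5666.rot_single, zpow_zero,
      Units.val_one, one_mul]
  unfold Fermat.Agent.S37.helper5666.kronProd
  rw [Finset.prod_congr rfl hr, Finset.prod_const, Finset.card_range, hq, map_pow]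

section KronFN

variable (hl : l.Prime) (hlN : ¬ l ∣ N) (ζ : Kbarˣ) (hζ : IsPrimitiveRoot ζ l)

include hl hlN hζ in
/-- For a prime `l ∤ N`, the Kronecker norm maps the function field of level `N l` into itself
(for `l ∣ M` it maps level `M l` to level `M`: `S36.helper2106.kronNorm_mem_of_mem`). -/
theorem kronNorm_mem_of_mem_of_not_dvd {f : LaurentSeries Kbar}
    (hf : f ∈ modularFunctionFieldBar (N * l)) :
    kronNorm ζ l f ∈ modularFunctionFieldBar (N * l) := by
  by_cases h0 : f = 0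
  · subst h0
    rw [kronNorm_zero]
    exact zero_mem _
  · have hW : ((swapBar N l hl hlN ⟨f, hf⟩ : FN (N * l)) : LaurentSeries Kbar) ≠ 0 := by
      intro h
      have h1 : swapBar N l hl hlN ⟨f, hf⟩ = 0 := Subtype.ext h
      rw [map_eq_zero_iff _ (swapBar N l hl hlN).injective] at h1
      exact h0 (congrArg Subtype.val h1)
    have h1 := coe_normAlong_heckeBetaBar_swapBar N l hl hlN ζ hζ ⟨f, hf⟩
    have h2 : kronNorm ζ l f
        = ((heckeAlphaBar Kbar N l (normAlong (heckeBetaBar Kbar N l) ⟨f, hf⟩)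
            / swapBar N l hl hlN ⟨f, hf⟩ : FN (N * l)) : LaurentSeries Kbar) := by
      rw [IntermediateField.coe_div, coe_heckeAlphaBar, h1]
      exact (mul_div_cancel_right₀ _ hW).symm
    rw [h2]
    exact Subtype.property _

/-- The Kronecker norm `N_φ` as a multiplicative map of the function field of level `N l`
(`l` prime, `l ∤ N`): `(kronFN x)(t^l) = ∏_{b<l} x(ζ^b t)`. -/
def kronFN : FN (N * l) →* FN (N * l) where
  toFun x := ⟨kronNorm ζ l (x : LaurentSeries Kbar),
    kronNorm_mem_of_mem_of_not_dvd N l hl hlN ζ hζ x.2⟩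
  map_one' := Subtype.ext (kronNorm_one l ζ hζ)
  map_mul' _ _ := Subtype.ext (kronNorm_mul l ζ hζ _ _)

@[simp] theorem coe_kronFN (x : FN (N * l)) :
    ((kronFN N l hl hlN ζ hζ x : FN (N * l)) : LaurentSeries Kbar)
      = kronNorm ζ l (x : LaurentSeries Kbar) := rfl

theorem kronFN_zero : kronFN N l hl hlN ζ hζ 0 = 0 :=
  Subtype.ext (kronNorm_zero l ζ)

/-- `N_φ` of a constant `c` is `c^l`. -/
theorem kronFN_algebraMap (c : Kbar) :
    kronFN N l hl hlN ζ hζ (algebraMap Kbar (FN (N * l)) c)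
      = algebraMap Kbar (FN (N * l)) (c ^ l) :=
  Subtype.ext (kronNorm_algebraMap l ζ hζ c)

variable (W : FN (N * l) →ₐ[Kbar] FN (N * l))
  (hWα : ∀ y : FN N, W (heckeAlphaBar Kbar N l y) = heckeBetaBar Kbar N l y)
  (hWβ : ∀ y : FN N, W (heckeBetaBar Kbar N l y) = heckeAlphaBar Kbar N l y)

include hWα hWβ in
/-- (G-alpha) inside `F_{N l}`: `α(N_α x) = x · N_φ(W x)`. -/
theorem heckeAlphaBar_normAlong_heckeAlphaBar (x : FN (N * l)) :
    heckeAlphaBar Kbar N l (normAlong (heckeAlphaBar Kbar N l) x)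
      = x * kronFN N l hl hlN ζ hζ (W x) :=
  Subtype.ext (by
    rw [coe_heckeAlphaBar, coe_normAlong_heckeAlphaBar_of_swap N l hl hlN W hWα hWβ ζ hζ x]
    rfl)

include hWα hWβ in
/-- (G-beta) inside `F_{N l}`: `α(N_β x) = N_φ(x) · W x`. -/
theorem heckeAlphaBar_normAlong_heckeBetaBar (x : FN (N * l)) :
    heckeAlphaBar Kbar N l (normAlong (heckeBetaBar Kbar N l) x)
      = kronFN N l hl hlN ζ hζ x * W x :=
  Subtype.ext (by
    rw [coe_heckeAlphaBar, coe_normAlong_heckeBetaBar_of_swap N l hl hlN W hWα hWβ ζ hζ x]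
    rfl)

end KronFN

end

end Fermat.Agent.S44.helper7545
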