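import Fermat.Agent.S44.helper2359_FrobDlog
import Fermat.Agent.S44.helper3511_Omega
import Fermat.Agent.S44.helper7545_NormQ
import Fermat.Agent.S36.helper4856_DegOps

/-!
# S44 (SYM), instance: `Ω_∞ c + Fr (Ω_0 c) = 0` on classes killed by `α_*`

Registry row `L3-SYM` of `s44_leaves` (helper2359).  The instance of
`helper2359_FrobDlog.sym_gaussRho` on

* `helper3511.dlogRed` / `omega` / `omegaAt` (the residual logarithmic derivative, OMEGA),
* `helper7545.coe_normAlong_heckeAlphaBar_of_swap` / `…heckeBetaBar_of_swap` (NORMQ),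
* the landed degeneracy push-forwards `S36.helper4856.aPush`, `bPush : J₀(N p) → J₀(N)`.

Function level (any coefficient field `L`, any three levels):

* `dlogRed_add_frob_dlogRed` : `x * N_φ y = κ * w ^ p` in `L((q))` gives
  `dlogRed x + Fr (dlogRed y) = 0`;
* `dlogRed_eq_zero_iff_of_rel` : in particular `dlogRed x = 0 ↔ dlogRed y = 0`.

Class level (`ℚ̄`, level `N * p`, `p ∤ N`, `A` over `p`, `W` any swap of `α` and `β`):

* `omega_add_frob_omegaAt` : `p • c = 0`, `α_* c = 0` give `Ω_∞ c + Fr (Ω_W c) = 0`;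
* `frob_omega_add_omegaAt` : `p • c = 0`, `β_* c = 0` give `Fr (Ω_∞ c) + Ω_W c = 0`;
* `omega_eq_zero_iff_of_aPush`, `omega_eq_zero_iff_of_bPush` : hence `Ω_∞ c = 0 ↔ Ω_W c = 0`
  as soon as ONE of the two push-forwards of `c` vanishes (no Frobenius in the statement);
* `omega_eq_frob_frob` : on `p`-new classes `Ω_∞ c = Fr (Fr (Ω_∞ c))`;
* `dlogRed_eq_zero_iff_of_normAlong_alpha` / `_beta`, `omega_eq_zero_iff_of_kummer_alpha` /
  `_beta` : the same iff with the hypothesis in the function form `Norm_α h = a * w ^ p` of the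
  landed `S36` KILL-FF vocabulary (one half of "`h` is `p`-new").
-/

set_option autoImplicit false

open ModularCurve AlgebraicCurve HahnSeries

namespace Fermat.Agent.S44.helper2359

noncomputable section

open Fermat.Agent.Lib.helper9242 (thetaFun)
open Fermat.Agent.S37.helper5666 (kronNorm)
open Fermat.Agent.S18 (helper8991.gaussF helper8991.gaussFRed)
open Fermat.Agent.S44.helper3511 (dlogRed dlogU omega omegaAt)

/-! ### Function level -/

section FunLevel

variable {L : Type*} [Field L] [Algebra ℚ L] (A : ValuationSubring L)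

theorem coe_const_mul {N : ℕ} (c : L)
    (u : ↥(laurentBaseChange L (modularFunctionFieldFull N))) :
    ((algebraMap L ↥(laurentBaseChange L (modularFunctionFieldFull N)) c * u :
      ↥(laurentBaseChange L (modularFunctionFieldFull N))) : LaurentSeries L)
      = HahnSeries.C c * (u : LaurentSeries L) := by
  rw [Fermat.Agent.S18.helper8991.C_eq_algebraMap]
  rfl

/-- **(SYM), function level, α-shape.**  If `x * N_φ y = κ * w ^ p` as `q`-expansions
(`x, y, w` nonzero modular functions of any levels), then `dlogRed x + Fr (dlogRed y) = 0`. -/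
theorem dlogRed_add_frob_dlogRed (p : ℕ) [NeZero p] [ExpChar (IsLocalRing.ResidueField A) p]
    (hp : (p : IsLocalRing.ResidueField A) = 0) (ζ : Lˣ) (hζ : IsPrimitiveRoot ζ p)
    {N₁ N₂ N₃ : ℕ}
    {x : ↥(laurentBaseChange L (modularFunctionFieldFull N₁))}
    {y : ↥(laurentBaseChange L (modularFunctionFieldFull N₂))}
    {w : ↥(laurentBaseChange L (modularFunctionFieldFull N₃))}
    (hx : x ≠ 0) (hy : y ≠ 0) (hw : w ≠ 0) {κ : L}
    (hrel : (x : LaurentSeries L) * kronNorm ζ p (y : LaurentSeries L)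
      = HahnSeries.C κ * (w : LaurentSeries L) ^ p) :
    dlogRed A N₁ x
      + coeffMap (frobenius (IsLocalRing.ResidueField A) p) (dlogRed A N₂ y) = 0 := by
  obtain ⟨c₁, u₁, hc₁, hu₁, e₁⟩ :=
    Fermat.Agent.S18.helper8991.exists_const_mul_unit_F A (IsLocalRing.residue A) N₁ x hx
  obtain ⟨c₂, u₂, hc₂, hu₂, e₂⟩ :=
    Fermat.Agent.S18.helper8991.exists_const_mul_unit_F A (IsLocalRing.residue A) N₂ y hy
  have hw' : Fermat.Agent.S18.helper8991.IsNormalizable A (IsLocalRing.residue A)
      (w : LaurentSeries L) :=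
    Fermat.Agent.S18.helper8991.isNormalizable_of_mem_full A (IsLocalRing.residue A) N₃ w.2
      (fun h0 => hw (Subtype.ext h0))
  have hx' : (x : LaurentSeries L) = HahnSeries.C c₁ *
      ((u₁ : ↥(laurentBaseChange L (modularFunctionFieldFull N₁))) : LaurentSeries L) := by
    rw [e₁]
    exact coe_const_mul c₁ _
  have hy' : (y : LaurentSeries L) = HahnSeries.C c₂ *
      ((u₂ : ↥(laurentBaseChange L (modularFunctionFieldFull N₂))) : LaurentSeries L) := by
    rw [e₂]
    exact coe_const_mul c₂ _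
  rw [Fermat.Agent.S44.helper3511.dlogRed_eq A N₁ hc₁ hu₁ e₁,
    Fermat.Agent.S44.helper3511.dlogRed_eq A N₂ hc₂ hu₂ e₂]
  rw [hx', hy'] at hrel
  exact sym_gaussRho A (IsLocalRing.residue A) p ζ hζ hp
    ⟨((u₁ : ↥(laurentBaseChange L (modularFunctionFieldFull N₁))) : LaurentSeries L), u₁.2⟩
    ⟨((u₂ : ↥(laurentBaseChange L (modularFunctionFieldFull N₂))) : LaurentSeries L), u₂.2⟩
    hu₁ hu₂ hw' hc₁ hc₂ hrel

/-- **(SYM), function level, iff form** (no Frobenius in the statement). -/
theorem dlogRed_eq_zero_iff_of_rel {p : ℕ} [NeZero p] (hp : p.Prime) (hA : A.LiesOverPrime p)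
    (ζ : Lˣ)
    (hζ : IsPrimitiveRoot ζ p) {N₁ N₂ N₃ : ℕ}
    {x : ↥(laurentBaseChange L (modularFunctionFieldFull N₁))}
    {y : ↥(laurentBaseChange L (modularFunctionFieldFull N₂))}
    {w : ↥(laurentBaseChange L (modularFunctionFieldFull N₃))}
    (hx : x ≠ 0) (hy : y ≠ 0) (hw : w ≠ 0) {κ : L}
    (hrel : (x : LaurentSeries L) * kronNorm ζ p (y : LaurentSeries L)
      = HahnSeries.C κ * (w : LaurentSeries L) ^ p) :
    dlogRed A N₁ x = 0 ↔ dlogRed A N₂ y = 0 := by
  have : CharP (IsLocalRing.ResidueField A) p :=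
    Fermat.Agent.S34.helper584.charP_residueField hp A hA
  have : ExpChar (IsLocalRing.ResidueField A) p := ExpChar.prime hp
  have h := dlogRed_add_frob_dlogRed A p (CharP.cast_eq_zero _ p) ζ hζ hx hy hw hrel
  constructor
  · intro h0
    rw [h0, zero_add] at h
    exact coeffMap_frobenius_injective p (h.trans (map_zero _).symm)
  · intro h0
    rw [h0, map_zero, add_zero] at h
    exact h

end FunLevel

/-! ### Class level -/

section ClassLevel

local notation "Qb" => AlgebraicClosure ℚ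

open Fermat.Agent.S29.helper8217 (IsKummer kummerClass)
open Fermat.Agent.S36.helper4856 (aPush bPush)

variable {A : ValuationSubring Qb} {N p : ℕ} [NeZero N] [NeZero p]

omit [NeZero N] [NeZero p] in
/-- The expansion of `κ * w ^ p`. -/
theorem coe_const_mul_pow (κ : Qb) (w : modularFunctionFieldBar N) :
    ((algebraMap Qb (modularFunctionFieldBar N) κ * w ^ p : modularFunctionFieldBar N) :
      LaurentSeries Qb) = HahnSeries.C κ * (w : LaurentSeries Qb) ^ p := by
  rw [Fermat.Agent.S18.helper8991.C_eq_algebraMap]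
  rfl

/-- A Kummer function whose class is killed by a push-forward has norm `κ * w ^ p`. -/
theorem exists_norm_eq_of_kummerClass_eq_zero {n : ℕ} (hn : n ≠ 0)
    {v : modularFunctionFieldBar N} (hv : IsKummer Qb n v) (h0 : kummerClass Qb n v = 0) :
    ∃ (κ : Qb) (w : modularFunctionFieldBar N), w ≠ 0 ∧
      v = algebraMap Qb (modularFunctionFieldBar N) κ * w ^ n := by
  obtain ⟨w, c₀, hw, -, hcv, e⟩ :=
    (Fermat.Agent.S29.helper8217.kummerClass_eq_zero_iff hn hv).mp h0
  obtain ⟨κ, rfl⟩ := Fermat.Agent.S29.helper36.exists_algebraMap_eq_of_ord_eq_zero Qb N hcv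
  exact ⟨κ, w, hw, e⟩

variable (hp : p.Prime) (hpN : ¬ p ∣ N) (hA : A.LiesOverPrime p)
  (W : modularFunctionFieldBar (N * p) ≃ₐ[Qb] modularFunctionFieldBar (N * p))
  (hWα : ∀ y : modularFunctionFieldBar N,
    W (heckeAlphaBar Qb N p y) = heckeBetaBar Qb N p y)
  (hWβ : ∀ y : modularFunctionFieldBar N,
    W (heckeBetaBar Qb N p y) = heckeAlphaBar Qb N p y)

include hp hpN hA hWα hWβ

omit hA in
/-- The series relation of (SYM), α-side, from a norm hypothesis in the function form of the
landed `S36` KILL-FF vocabulary: `Norm_α h = a * w ^ p`. -/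
theorem exists_series_rel_alpha {h : modularFunctionFieldBar (N * p)} (hh : h ≠ 0)
    (hnorm : ∃ (a : Qb) (w : modularFunctionFieldBar N),
      Fermat.Agent.S29.helper8217.normAlong (heckeAlphaBar Qb N p) h
        = algebraMap Qb (modularFunctionFieldBar N) a * w ^ p)
    (ζ : Qbˣ) (hζ : IsPrimitiveRoot ζ p) :
    ∃ (κ : Qb) (w : modularFunctionFieldBar N), w ≠ 0 ∧
      (h : LaurentSeries Qb) * kronNorm ζ p ((W h : modularFunctionFieldBar (N * p)) :
        LaurentSeries Qb) = HahnSeries.C κ * (w : LaurentSeries Qb) ^ p := by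
  obtain ⟨κ, w, e⟩ := hnorm
  have hne : Fermat.Agent.S29.helper36.normAlong (heckeAlphaBar Qb N p) h ≠ 0 :=
    Fermat.Agent.S29.helper36.normAlong_ne_zero _
      (Fermat.Agent.S37.helper5162.finiteAlong_heckeAlphaBar N p) hh
  have hw : w ≠ 0 := by
    rintro rfl
    apply hne
    have e' : Fermat.Agent.S29.helper36.normAlong (heckeAlphaBar Qb N p) h
        = algebraMap Qb (modularFunctionFieldBar N) κ * (0 : modularFunctionFieldBar N) ^ p := e
    rw [e', zero_pow hp.ne_zero, mul_zero]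
  refine ⟨κ, w, hw, ?_⟩
  have h1 := Fermat.Agent.S44.helper7545.coe_normAlong_heckeAlphaBar_of_swap N p hp hpN
    W.toAlgHom hWα hWβ ζ hζ h
  rw [← coe_const_mul_pow κ w, ← e]
  exact h1.symm

omit hA in
/-- The series relation of (SYM), β-side: `Norm_β h = a * w ^ p`. -/
theorem exists_series_rel_beta {h : modularFunctionFieldBar (N * p)} (hh : h ≠ 0)
    (hnorm : ∃ (a : Qb) (w : modularFunctionFieldBar N),
      Fermat.Agent.S29.helper8217.normAlong (heckeBetaBar Qb N p) h
        = algebraMap Qb (modularFunctionFieldBar N) a * w ^ p)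
    (ζ : Qbˣ) (hζ : IsPrimitiveRoot ζ p) :
    ∃ (κ : Qb) (w : modularFunctionFieldBar N), w ≠ 0 ∧
      ((W h : modularFunctionFieldBar (N * p)) : LaurentSeries Qb)
        * kronNorm ζ p (h : LaurentSeries Qb) = HahnSeries.C κ * (w : LaurentSeries Qb) ^ p := by
  obtain ⟨κ, w, e⟩ := hnorm
  have hne : Fermat.Agent.S29.helper36.normAlong (heckeBetaBar Qb N p) h ≠ 0 :=
    Fermat.Agent.S29.helper36.normAlong_ne_zero _
      (Fermat.Agent.S37.helper5162.finiteAlong_heckeBetaBar N p) hh
  have hw : w ≠ 0 := by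
    rintro rfl
    apply hne
    have e' : Fermat.Agent.S29.helper36.normAlong (heckeBetaBar Qb N p) h
        = algebraMap Qb (modularFunctionFieldBar N) κ * (0 : modularFunctionFieldBar N) ^ p := e
    rw [e', zero_pow hp.ne_zero, mul_zero]
  refine ⟨κ, w, hw, ?_⟩
  have h1 := Fermat.Agent.S44.helper7545.coe_normAlong_heckeBetaBar_of_swap N p hp hpN
    W.toAlgHom hWα hWβ ζ hζ h
  rw [← coe_const_mul_pow κ w, ← e, mul_comm]
  exact h1.symm

/-- **(SYM), function form, α-side** (hypothesis = the α-half of "`h` is `p`-new" in the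
function vocabulary `Norm_α h = a * w ^ p`): `dlogRed h = 0 ↔ dlogRed (W h) = 0`. -/
theorem dlogRed_eq_zero_iff_of_normAlong_alpha {h : modularFunctionFieldBar (N * p)}
    (hh : h ≠ 0)
    (hnorm : ∃ (a : Qb) (w : modularFunctionFieldBar N),
      Fermat.Agent.S29.helper8217.normAlong (heckeAlphaBar Qb N p) h
        = algebraMap Qb (modularFunctionFieldBar N) a * w ^ p) :
    dlogRed A (N * p) h = 0 ↔ dlogRed A (N * p) (W h) = 0 := by
  obtain ⟨ζ, hζ⟩ := Fermat.Agent.S37.helper9793.exists_primitiveRoot_unit p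
  obtain ⟨κ, w, hw, hrel⟩ := exists_series_rel_alpha hp hpN W hWα hWβ hh hnorm ζ hζ
  exact dlogRed_eq_zero_iff_of_rel A hp hA ζ hζ hh ((map_ne_zero W).mpr hh) hw hrel

/-- **(SYM), function form, β-side**: `Norm_β h = a * w ^ p` gives
`dlogRed h = 0 ↔ dlogRed (W h) = 0`. -/
theorem dlogRed_eq_zero_iff_of_normAlong_beta {h : modularFunctionFieldBar (N * p)}
    (hh : h ≠ 0)
    (hnorm : ∃ (a : Qb) (w : modularFunctionFieldBar N),
      Fermat.Agent.S29.helper8217.normAlong (heckeBetaBar Qb N p) h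
        = algebraMap Qb (modularFunctionFieldBar N) a * w ^ p) :
    dlogRed A (N * p) h = 0 ↔ dlogRed A (N * p) (W h) = 0 := by
  obtain ⟨ζ, hζ⟩ := Fermat.Agent.S37.helper9793.exists_primitiveRoot_unit p
  obtain ⟨κ, w, hw, hrel⟩ := exists_series_rel_beta hp hpN W hWα hWβ hh hnorm ζ hζ
  exact (dlogRed_eq_zero_iff_of_rel A hp hA ζ hζ ((map_ne_zero W).mpr hh) hh hw hrel).symm

/-- **(SYM), Kummer-class form, α-side**: for a `p`-Kummer function `h` with
`Norm_α h = a * w ^ p`,  `Ω_∞ [h] = 0 ↔ Ω_W [h] = 0`. -/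
theorem omega_eq_zero_iff_of_kummer_alpha {h : modularFunctionFieldBar (N * p)}
    (hk : IsKummer Qb p h)
    (hnorm : ∃ (a : Qb) (w : modularFunctionFieldBar N),
      Fermat.Agent.S29.helper8217.normAlong (heckeAlphaBar Qb N p) h
        = algebraMap Qb (modularFunctionFieldBar N) a * w ^ p) :
    omega A (N * p) p (kummerClass Qb p h) = 0
      ↔ omegaAt A (N * p) W p (kummerClass Qb p h) = 0 := by
  rw [Fermat.Agent.S44.helper3511.omega_kummerClass hp hA hk,
    Fermat.Agent.S44.helper3511.omegaAt_kummerClass hp hA W hk]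
  exact dlogRed_eq_zero_iff_of_normAlong_alpha hp hpN hA W hWα hWβ hk.ne_zero hnorm

/-- **(SYM), Kummer-class form, β-side**. -/
theorem omega_eq_zero_iff_of_kummer_beta {h : modularFunctionFieldBar (N * p)}
    (hk : IsKummer Qb p h)
    (hnorm : ∃ (a : Qb) (w : modularFunctionFieldBar N),
      Fermat.Agent.S29.helper8217.normAlong (heckeBetaBar Qb N p) h
        = algebraMap Qb (modularFunctionFieldBar N) a * w ^ p) :
    omega A (N * p) p (kummerClass Qb p h) = 0
      ↔ omegaAt A (N * p) W p (kummerClass Qb p h) = 0 := by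
  rw [Fermat.Agent.S44.helper3511.omega_kummerClass hp hA hk,
    Fermat.Agent.S44.helper3511.omegaAt_kummerClass hp hA W hk]
  exact dlogRed_eq_zero_iff_of_normAlong_beta hp hpN hA W hWα hWβ hk.ne_zero hnorm

/-- **(SYM), α-side.**  For `c ∈ J₀(N p)[p]` with `α_* c = 0`:  `Ω_∞ c + Fr (Ω_W c) = 0`. -/
theorem omega_add_frob_omegaAt [ExpChar (IsLocalRing.ResidueField A) p]
    {c : JZero (N * p)} (hc : c ∈ Pic0.torsion Qb (modularFunctionFieldBar (N * p)) p)
    (ha : aPush N p c = 0) :
    omega A (N * p) p c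
      + coeffMap (frobenius (IsLocalRing.ResidueField A) p) (omegaAt A (N * p) W p c) = 0 := by
  have : CharP (IsLocalRing.ResidueField A) p :=
    Fermat.Agent.S34.helper584.charP_residueField hp A hA
  obtain ⟨h, hk, rfl⟩ := Fermat.Agent.S29.helper8217.exists_kummerClass_eq hp.ne_zero hc
  obtain ⟨hk2, e2⟩ := Fermat.Agent.S36.helper4856.aPush_kummerClass hp.ne_zero hk
  rw [e2] at ha
  obtain ⟨κ, w, hw, e⟩ := exists_norm_eq_of_kummerClass_eq_zero hp.ne_zero hk2 ha
  obtain ⟨ζ, hζ⟩ := Fermat.Agent.S37.helper9793.exists_primitiveRoot_unit p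
  have hrel : (h : LaurentSeries Qb) * kronNorm ζ p ((W h : modularFunctionFieldBar (N * p)) :
      LaurentSeries Qb) = HahnSeries.C κ * (w : LaurentSeries Qb) ^ p := by
    have h1 := Fermat.Agent.S44.helper7545.coe_normAlong_heckeAlphaBar_of_swap N p hp hpN
      W.toAlgHom hWα hWβ ζ hζ h
    rw [← coe_const_mul_pow κ w, ← e]
    exact h1.symm
  rw [Fermat.Agent.S44.helper3511.omega_kummerClass hp hA hk,
    Fermat.Agent.S44.helper3511.omegaAt_kummerClass hp hA W hk]
  exact dlogRed_add_frob_dlogRed A p (CharP.cast_eq_zero _ p) ζ hζ hk.ne_zero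
    ((map_ne_zero W).mpr hk.ne_zero) hw hrel

/-- **(SYM), β-side.**  For `c ∈ J₀(N p)[p]` with `β_* c = 0`:  `Fr (Ω_∞ c) + Ω_W c = 0`. -/
theorem frob_omega_add_omegaAt [ExpChar (IsLocalRing.ResidueField A) p]
    {c : JZero (N * p)} (hc : c ∈ Pic0.torsion Qb (modularFunctionFieldBar (N * p)) p)
    (hb : bPush N p c = 0) :
    coeffMap (frobenius (IsLocalRing.ResidueField A) p) (omega A (N * p) p c)
      + omegaAt A (N * p) W p c = 0 := by
  have : CharP (IsLocalRing.ResidueField A) p :=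
    Fermat.Agent.S34.helper584.charP_residueField hp A hA
  obtain ⟨h, hk, rfl⟩ := Fermat.Agent.S29.helper8217.exists_kummerClass_eq hp.ne_zero hc
  obtain ⟨hk2, e2⟩ := Fermat.Agent.S36.helper4856.bPush_kummerClass hp.ne_zero hk
  rw [e2] at hb
  obtain ⟨κ, w, hw, e⟩ := exists_norm_eq_of_kummerClass_eq_zero hp.ne_zero hk2 hb
  obtain ⟨ζ, hζ⟩ := Fermat.Agent.S37.helper9793.exists_primitiveRoot_unit p
  have hrel : ((W h : modularFunctionFieldBar (N * p)) : LaurentSeries Qb)
      * kronNorm ζ p (h : LaurentSeries Qb) = HahnSeries.C κ * (w : LaurentSeries Qb) ^ p := by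
    have h1 := Fermat.Agent.S44.helper7545.coe_normAlong_heckeBetaBar_of_swap N p hp hpN
      W.toAlgHom hWα hWβ ζ hζ h
    rw [← coe_const_mul_pow κ w, ← e, mul_comm]
    exact h1.symm
  rw [Fermat.Agent.S44.helper3511.omega_kummerClass hp hA hk,
    Fermat.Agent.S44.helper3511.omegaAt_kummerClass hp hA W hk, add_comm]
  exact dlogRed_add_frob_dlogRed A p (CharP.cast_eq_zero _ p) ζ hζ
    ((map_ne_zero W).mpr hk.ne_zero) hk.ne_zero hw hrel

/-- **(SYM), iff form, α-side**: for `c ∈ J₀(N p)[p]` with `α_* c = 0`,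
`Ω_∞ c = 0 ↔ Ω_W c = 0`. -/
theorem omega_eq_zero_iff_of_aPush
    {c : JZero (N * p)} (hc : c ∈ Pic0.torsion Qb (modularFunctionFieldBar (N * p)) p)
    (ha : aPush N p c = 0) :
    omega A (N * p) p c = 0 ↔ omegaAt A (N * p) W p c = 0 := by
  have : CharP (IsLocalRing.ResidueField A) p :=
    Fermat.Agent.S34.helper584.charP_residueField hp A hA
  have : ExpChar (IsLocalRing.ResidueField A) p := ExpChar.prime hp
  have h := omega_add_frob_omegaAt hp hpN hA W hWα hWβ hc ha
  constructor
  · intro h0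
    rw [h0, zero_add] at h
    exact coeffMap_frobenius_injective p (h.trans (map_zero _).symm)
  · intro h0
    rw [h0, map_zero, add_zero] at h
    exact h

/-- **(SYM), iff form, β-side**: for `c ∈ J₀(N p)[p]` with `β_* c = 0`,
`Ω_∞ c = 0 ↔ Ω_W c = 0`. -/
theorem omega_eq_zero_iff_of_bPush
    {c : JZero (N * p)} (hc : c ∈ Pic0.torsion Qb (modularFunctionFieldBar (N * p)) p)
    (hb : bPush N p c = 0) :
    omega A (N * p) p c = 0 ↔ omegaAt A (N * p) W p c = 0 := by
  have : CharP (IsLocalRing.ResidueField A) p :=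
    Fermat.Agent.S34.helper584.charP_residueField hp A hA
  have : ExpChar (IsLocalRing.ResidueField A) p := ExpChar.prime hp
  have h := frob_omega_add_omegaAt hp hpN hA W hWα hWβ hc hb
  constructor
  · intro h0
    rw [h0, map_zero, zero_add] at h
    exact h
  · intro h0
    rw [h0, add_zero] at h
    exact coeffMap_frobenius_injective p (h.trans (map_zero _).symm)

/-- On `p`-new classes (`α_* c = β_* c = 0`) the series `Ω_∞ c` is fixed by `Fr²`. -/
theorem omega_eq_frob_frob [ExpChar (IsLocalRing.ResidueField A) p]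
    {c : JZero (N * p)} (hc : c ∈ Pic0.torsion Qb (modularFunctionFieldBar (N * p)) p)
    (ha : aPush N p c = 0) (hb : bPush N p c = 0) :
    omega A (N * p) p c
      = coeffMap (frobenius (IsLocalRing.ResidueField A) p)
          (coeffMap (frobenius (IsLocalRing.ResidueField A) p) (omega A (N * p) p c)) := by
  have h1 := omega_add_frob_omegaAt hp hpN hA W hWα hWβ hc ha
  have h2 := frob_omega_add_omegaAt hp hpN hA W hWα hWβ hc hb
  have h3 : omegaAt A (N * p) W p c
      = -coeffMap (frobenius (IsLocalRing.ResidueField A) p) (omega A (N * p) p c) :=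
    eq_neg_of_add_eq_zero_right h2
  rw [h3, map_neg] at h1
  exact sub_eq_zero.mp (by rw [sub_eq_add_neg]; exact h1)

end ClassLevel

end

end Fermat.Agent.S44.helper2359
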