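/-
S44 (row 38), block (TOR) of the captain's chain of record (ruling #1, R2) = step (2) of the
blueprint #3246.  Architect: helper560.  THE EXPORT OF THE BLOCK AS ONE `Prop`, in the landed
vocabulary of `S33/helper3511_FreeHalf` (`gaussV A N`, `kummerClass`, `IsKummer`) at the level
`p * M` with `W = S35.helper1219.atkinLehnerBar p M h` (the same objects as `kBoth`,
`S33.helper2784.Stmt_NoFixJ` and `S34.helper2423.Stmt_ChartNodes`).

* `kDeep A N n W` ("T"): the classes of the `n`-Kummer functions `h` which are approximable to
  EVERY depth by `n`-th powers of FUNCTIONS, at the Gauss valuation of `A` and at its `W`-twin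
  (= "`h` is an `n`-th power in both completions"; no completion is used).  This is the
  conclusion of (TOR1) (shape `tor1_fun`) and the hypothesis of (TOR).
* `Stmt_TOR p M h`: the inertia group of every `P` over `p` acts on `kDeep P (p * M) p W_p`
  through the mod `p` cyclotomic character.
* `kDeep_subset_kBoth`-type glue and the use in (NZ) are in `helper560_TorUse` (not needed to
  state the Prop).
-/
import Fermat.Agent.S33.helper3511_FreeHalf

set_option autoImplicit false

namespace Fermat.Agent.S44.helper560

open AlgebraicCurve ModularCurve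
open Fermat.Agent.S29.helper8217
open Fermat.Agent.S34.helper584
open Fermat.Agent.S33.helper3511
open Fermat.Agent.S35.helper1219

local notation "Qb" => AlgebraicClosure ℚ

section Carrier

variable (A : ValuationSubring Qb) (N n : ℕ)
  [HasPrincipalDivisors Qb (modularFunctionFieldBar N)]

/-- **`T`**: the classes in `J₀(N)` of the `n`-Kummer functions `h` such that `h` and `W h` are
approximable to every depth by `n`-th powers of functions at the Gauss valuation of `A`. -/
def kDeep (W : modularFunctionFieldBar N ≃ₐ[Qb] modularFunctionFieldBar N) : Set (JZero N) :=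
  {x | ∃ h : modularFunctionFieldBar N, IsKummer Qb n h ∧ kummerClass Qb n h = x ∧
    ∀ ε : (gaussV A N).ValueGroup, ε ≠ 0 →
      (∃ g : modularFunctionFieldBar N, (gaussV A N).valuation (h - g ^ n) ≤ ε) ∧
      (∃ g : modularFunctionFieldBar N, (gaussV A N).valuation (W h - g ^ n) ≤ ε)}

variable {A N n}

theorem mem_kDeep_iff {W : modularFunctionFieldBar N ≃ₐ[Qb] modularFunctionFieldBar N}
    {x : JZero N} :
    x ∈ kDeep A N n W ↔ ∃ h : modularFunctionFieldBar N, IsKummer Qb n h ∧
      kummerClass Qb n h = x ∧
      ∀ ε : (gaussV A N).ValueGroup, ε ≠ 0 →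
        (∃ g : modularFunctionFieldBar N, (gaussV A N).valuation (h - g ^ n) ≤ ε) ∧
        (∃ g : modularFunctionFieldBar N, (gaussV A N).valuation (W h - g ^ n) ≤ ε) :=
  Iff.rfl

end Carrier

section Stmt

variable (p M : ℕ) [NeZero p] [NeZero M] (h : Nat.Coprime p M)
  [HasPrincipalDivisors Qb (modularFunctionFieldBar (p * M))]

/-- **(TOR)** For every valuation subring `P` of `ℚ̄` over `p`, the inertia group of `P` acts on
`T = kDeep P (p * M) p W_p` through the mod `p` cyclotomic character: if `s ζ = ζ ^ n` for a
primitive `p`-th root of unity `ζ`, then `s • c = n • c` for every `c ∈ T`. -/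
def Stmt_TOR : Prop :=
  ∀ P : ValuationSubring Qb, P.LiesOverPrime p →
    ∀ c ∈ kDeep P (p * M) p (atkinLehnerBar p M h),
      ∀ s ∈ P.inertiaSubgroupIn ℚ, ∀ (ζ : Qb) (n : ℕ), IsPrimitiveRoot ζ p → s ζ = ζ ^ n →
        s • c = n • c

end Stmt

end Fermat.Agent.S44.helper560
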