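/-
S44, BLOCK (TOR1) — SPEC (architect helper7545; captain's ruling #1, R2/R3).

Vocabulary of the chain of record (the same objects as `S33.helper3511.kBoth`,
`S44.helper560.Stmt_TOR`, `S44.helper3511.omega`): level `p * M` (`p` prime, `p`, `M` coprime),
`A` a valuation subring of `ℚ̄` over `p`, `W_p = S35.helper1219.atkinLehnerBar p M h`,
`v = (gaussV A (p * M)).valuation` (Gauss valuation at `∞`; `v ∘ W_p` is the one at `0`).
The two degeneracy maps of the Prelude are `α = heckeAlphaBar Kbar M p`,
`β = heckeBetaBar Kbar M p : F_M → F_{M * p}`; functions of level `p * M` are transported to the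
Prelude level `M * p` by `helper1219.castFN (mul_comm p M)` (same `t`-expansion).

EXPORT OF THE BLOCK (one Prop, class form):

`Stmt_Tor1` : a `p`-new class `c ∈ J₀(p M)` (a `p`-Kummer class whose two norms to level `M`
are constants times `p`-th powers: `IsPNewClass`) with `Ω_∞ c = 0` and `Ω_0 c = 0`
(`helper3511.omega`, `helper3511.omegaAt … W_p`) lies in `helper560.kDeep A (p * M) p W_p`
(the hypothesis of `helper560.Stmt_TOR`).

It is reduced here (`stmt_Tor1_of_fun`) to the function form `Stmt_Tor1Fun`, the target of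
L3-INST: a `p`-Kummer function `x` with both norms `const · w^p`, `dlogRed x = 0` and
`dlogRed (W_p x) = 0` is approximable to every depth by `p`-th powers of functions, at `v` and
at `v ∘ W_p`.
-/
import Fermat.Agent.S44.helper7545_NormQ
import Fermat.Agent.S44.helper3511_Omega
import Fermat.Agent.S44.helper560_TorSpec

set_option autoImplicit false
set_option linter.style.haveILetI false
set_option linter.unusedSectionVars false

namespace Fermat.Agent.S44.helper7545

open ModularCurve AlgebraicCurve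
open Fermat.Agent.S24.helper24
open Fermat.Agent.S29.helper8217 (IsKummer kummerClass)
open Fermat.Agent.S34.helper584 (gaussV)
open Fermat.Agent.S35.helper1219 (castFN atkinLehnerBar)
open Fermat.Agent.S44.helper3511 (dlogRed omega omegaAt)

noncomputable section

/-- **`p`-new, function form** (the two norm hypotheses of the landed S36 `KillFFAt`, at exponent
`p`): both norms of `x ∈ F_{p M}` down to level `M` are constants times `p`-th powers. -/
def IsPNewFun (p M : ℕ) [NeZero p] [NeZero M] (x : FN (p * M)) : Prop :=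
  (∃ (a : Kbar) (w : FN M),
      Fermat.Agent.S29.helper8217.normAlong (heckeAlphaBar Kbar M p) (castFN (mul_comm p M) x)
        = algebraMap Kbar (FN M) a * w ^ p) ∧
    (∃ (a : Kbar) (w : FN M),
      Fermat.Agent.S29.helper8217.normAlong (heckeBetaBar Kbar M p) (castFN (mul_comm p M) x)
        = algebraMap Kbar (FN M) a * w ^ p)

/-- **`p`-new, class form**: `c` is the class of a `p`-Kummer function whose two norms to level
`M` are constants times `p`-th powers (i.e. `p c = 0`, `α_* c = 0`, `β_* c = 0`). -/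
def IsPNewClass (p M : ℕ) [NeZero p] [NeZero M] (c : JZero (p * M)) : Prop :=
  ∃ x : FN (p * M), IsKummer Kbar p x ∧ kummerClass Kbar p x = c ∧ IsPNewFun p M x

/-- **(TOR1) at `(p, M, A)`, function form.** -/
def Tor1FunAt (p M : ℕ) [NeZero p] [NeZero M] (h : Nat.Coprime p M)
    (A : ValuationSubring Kbar) : Prop :=
  ∀ x : FN (p * M), IsKummer Kbar p x → IsPNewFun p M x →
    dlogRed A (p * M) x = 0 → dlogRed A (p * M) (atkinLehnerBar p M h x) = 0 →
    ∀ ε : (gaussV A (p * M)).ValueGroup, ε ≠ 0 →
      (∃ g : FN (p * M), (gaussV A (p * M)).valuation (x - g ^ p) ≤ ε) ∧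
      (∃ g : FN (p * M), (gaussV A (p * M)).valuation (atkinLehnerBar p M h x - g ^ p) ≤ ε)

/-- **(TOR1), function form** — the target of L3-INST. -/
def Stmt_Tor1Fun : Prop :=
  ∀ (p M : ℕ) [NeZero p] [NeZero M], p.Prime → ∀ h : Nat.Coprime p M,
    ∀ A : ValuationSubring Kbar, A.LiesOverPrime p → Tor1FunAt p M h A

/-- **(TOR1), class form — THE EXPORT OF THE BLOCK.** -/
def Stmt_Tor1 : Prop :=
  ∀ (p M : ℕ) [NeZero p] [NeZero M], p.Prime → ∀ h : Nat.Coprime p M,
    ∀ A : ValuationSubring Kbar, A.LiesOverPrime p →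
      ∀ c : JZero (p * M), IsPNewClass p M c →
        omega A (p * M) p c = 0 → omegaAt A (p * M) (atkinLehnerBar p M h) p c = 0 →
          c ∈ Fermat.Agent.S44.helper560.kDeep A (p * M) p (atkinLehnerBar p M h)

/-- The class form follows from the function form. -/
theorem stmt_Tor1_of_fun (hfun : Stmt_Tor1Fun) : Stmt_Tor1 := by
  intro p M _ _ hp h A hA c hc hom homW
  obtain ⟨x, hk, rfl, hnew⟩ := hc
  rw [Fermat.Agent.S44.helper3511.omega_kummerClass hp hA hk] at hom
  rw [Fermat.Agent.S44.helper3511.omegaAt_kummerClass hp hA (atkinLehnerBar p M h) hk] at homW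
  exact Fermat.Agent.S44.helper560.mem_kDeep_iff.mpr
    ⟨x, hk, rfl, hfun p M hp h A hA x hk hnew hom homW⟩

/-! ## The norm relations of a `p`-new function, on `t`-expansions (from NORMQ)

What L3-INST consumes from NORMQ + `IsPNewFun`, at level `p * M`: with `N_φ = kronNorm ζ p`,
`x · N_φ(W_p x) = a · w^p` and `N_φ(x) · W_p x = a' · w'^p` as Laurent series, `w, w' ∈ F_M`. -/

open Fermat.Agent.S37.helper5666 (kronNorm)

theorem IsPNewFun.mul_kronNorm {p M : ℕ} [NeZero p] [NeZero M] (hp : p.Prime)
    (h : Nat.Coprime p M) (ζ : Kbarˣ) (hζ : IsPrimitiveRoot ζ p) {x : FN (p * M)}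
    (hx : IsPNewFun p M x) :
    ∃ (a : Kbar) (w : FN M),
      (x : LaurentSeries Kbar)
          * kronNorm ζ p ((atkinLehnerBar p M h x : FN (p * M)) : LaurentSeries Kbar)
        = algebraMap Kbar (LaurentSeries Kbar) a * (w : LaurentSeries Kbar) ^ p := by
  obtain ⟨⟨a, w, haw⟩, -⟩ := hx
  have hpM : ¬ p ∣ M := (Nat.Prime.coprime_iff_not_dvd hp).mp h
  refine ⟨a, w, ?_⟩
  rw [← coe_normAlong_heckeAlphaBar_castFN M p hp hpM h ζ hζ x]
  exact congrArg (fun y : FN M => (y : LaurentSeries Kbar)) haw

theorem IsPNewFun.kronNorm_mul {p M : ℕ} [NeZero p] [NeZero M] (hp : p.Prime)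
    (h : Nat.Coprime p M) (ζ : Kbarˣ) (hζ : IsPrimitiveRoot ζ p) {x : FN (p * M)}
    (hx : IsPNewFun p M x) :
    ∃ (a : Kbar) (w : FN M),
      kronNorm ζ p (x : LaurentSeries Kbar)
          * ((atkinLehnerBar p M h x : FN (p * M)) : LaurentSeries Kbar)
        = algebraMap Kbar (LaurentSeries Kbar) a * (w : LaurentSeries Kbar) ^ p := by
  obtain ⟨-, ⟨a, w, haw⟩⟩ := hx
  have hpM : ¬ p ∣ M := (Nat.Prime.coprime_iff_not_dvd hp).mp h
  refine ⟨a, w, ?_⟩
  rw [← coe_normAlong_heckeBetaBar_castFN M p hp hpM h ζ hζ x]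
  exact congrArg (fun y : FN M => (y : LaurentSeries Kbar)) haw

end

end Fermat.Agent.S44.helper7545
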