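import Fermat.Agent.S44.helper2359_SymInst
import Fermat.Agent.S44.helper7545_Tor1Spec

/-!
# S44 (SYM) in the vocabulary of BLOCK (TOR1) (`helper7545_Tor1Spec`)

Level `p * M`, `W_p = S35.helper1219.atkinLehnerBar p M h`, `IsPNewFun` / `IsPNewClass` of
`helper7545`.  On a `p`-new function / class the two components of the residual logarithmic
derivative vanish together, so the hypothesis `Ω_0 = 0` of `Stmt_Tor1` / `Tor1FunAt` is
redundant:

* `dlogRed_eq_zero_iff_of_isPNewFun` : `dlogRed x = 0 ↔ dlogRed (W_p x) = 0`;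
* `omega_eq_zero_iff_of_isPNewClass` : `Ω_∞ c = 0 ↔ Ω_{W_p} c = 0`;
* `Stmt_Tor1Omega`, `stmt_Tor1Omega_of_tor1` : (TOR1) with the single hypothesis `Ω_∞ c = 0`;
* `tor1FunAt_omega_only` : the same for the function form.

Only the `α`-half of `IsPNewFun` is used.
-/

set_option autoImplicit false

open ModularCurve AlgebraicCurve HahnSeries

namespace Fermat.Agent.S44.helper2359

noncomputable section

local notation "Qb" => AlgebraicClosure ℚ

open Fermat.Agent.S37.helper5666 (kronNorm)
open Fermat.Agent.S29.helper8217 (IsKummer kummerClass)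
open Fermat.Agent.S34.helper584 (gaussV)
open Fermat.Agent.S35.helper1219 (castFN atkinLehnerBar)
open Fermat.Agent.S44.helper3511 (dlogRed omega omegaAt)
open Fermat.Agent.S44.helper7545 (IsPNewFun IsPNewClass Stmt_Tor1 Tor1FunAt)

variable {p M : ℕ} [NeZero p] [NeZero M]

/-- **(SYM), function form, (TOR1) vocabulary.** -/
theorem dlogRed_eq_zero_iff_of_isPNewFun (hp : p.Prime) (h : Nat.Coprime p M)
    {A : ValuationSubring Qb} (hA : A.LiesOverPrime p)
    {x : modularFunctionFieldBar (p * M)} (hx0 : x ≠ 0) (hx : IsPNewFun p M x) :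
    dlogRed A (p * M) x = 0 ↔ dlogRed A (p * M) (atkinLehnerBar p M h x) = 0 := by
  obtain ⟨ζ, hζ⟩ := Fermat.Agent.S37.helper9793.exists_primitiveRoot_unit p
  obtain ⟨⟨a, w, haw⟩, -⟩ := hx
  have hpM : ¬ p ∣ M := (Nat.Prime.coprime_iff_not_dvd hp).mp h
  have hne : Fermat.Agent.S29.helper36.normAlong (heckeAlphaBar Qb M p)
      (castFN (mul_comm p M) x) ≠ 0 :=
    Fermat.Agent.S29.helper36.normAlong_ne_zero _
      (Fermat.Agent.S37.helper5162.finiteAlong_heckeAlphaBar M p)
      ((map_ne_zero (castFN (mul_comm p M))).mpr hx0)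
  have hw : w ≠ 0 := by
    rintro rfl
    apply hne
    have e' : Fermat.Agent.S29.helper36.normAlong (heckeAlphaBar Qb M p)
        (castFN (mul_comm p M) x)
        = algebraMap Qb (modularFunctionFieldBar M) a * (0 : modularFunctionFieldBar M) ^ p :=
      haw
    rw [e', zero_pow hp.ne_zero, mul_zero]
  have hrel : (x : LaurentSeries Qb)
      * kronNorm ζ p ((atkinLehnerBar p M h x : modularFunctionFieldBar (p * M)) :
        LaurentSeries Qb) = HahnSeries.C a * (w : LaurentSeries Qb) ^ p := by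
    have h1 := Fermat.Agent.S44.helper7545.coe_normAlong_heckeAlphaBar_castFN M p hp hpM h ζ hζ x
    have e' : Fermat.Agent.S29.helper36.normAlong (heckeAlphaBar Qb M p)
        (castFN (mul_comm p M) x)
        = algebraMap Qb (modularFunctionFieldBar M) a * w ^ p := haw
    rw [← coe_const_mul_pow a w, ← e']
    exact h1.symm
  exact dlogRed_eq_zero_iff_of_rel A hp hA ζ hζ hx0
    ((map_ne_zero (atkinLehnerBar p M h)).mpr hx0) hw hrel

/-- **(SYM), class form, (TOR1) vocabulary**: on a `p`-new class `Ω_∞ c = 0 ↔ Ω_{W_p} c = 0`. -/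
theorem omega_eq_zero_iff_of_isPNewClass (hp : p.Prime) (h : Nat.Coprime p M)
    {A : ValuationSubring Qb} (hA : A.LiesOverPrime p) {c : JZero (p * M)}
    (hc : IsPNewClass p M c) :
    omega A (p * M) p c = 0 ↔ omegaAt A (p * M) (atkinLehnerBar p M h) p c = 0 := by
  obtain ⟨x, hk, rfl, hnew⟩ := hc
  rw [Fermat.Agent.S44.helper3511.omega_kummerClass hp hA hk,
    Fermat.Agent.S44.helper3511.omegaAt_kummerClass hp hA (atkinLehnerBar p M h) hk]
  exact dlogRed_eq_zero_iff_of_isPNewFun hp h hA hk.ne_zero hnew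

/-- **(TOR1) with the single hypothesis `Ω_∞ c = 0`.** -/
def Stmt_Tor1Omega : Prop :=
  ∀ (p M : ℕ) [NeZero p] [NeZero M], p.Prime → ∀ h : Nat.Coprime p M,
    ∀ A : ValuationSubring Qb, A.LiesOverPrime p →
      ∀ c : JZero (p * M), IsPNewClass p M c →
        omega A (p * M) p c = 0 →
          c ∈ Fermat.Agent.S44.helper560.kDeep A (p * M) p (atkinLehnerBar p M h)

/-- `Stmt_Tor1` implies its one-hypothesis form. -/
theorem stmt_Tor1Omega_of_tor1 (hT : Stmt_Tor1) : Stmt_Tor1Omega := by
  intro p M _ _ hp h A hA c hc hom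
  exact hT p M hp h A hA c hc hom ((omega_eq_zero_iff_of_isPNewClass hp h hA hc).mp hom)

/-- The function form of (TOR1) with the single hypothesis `dlogRed x = 0`. -/
theorem tor1FunAt_omega_only (hp : p.Prime) (h : Nat.Coprime p M)
    {A : ValuationSubring Qb} (hA : A.LiesOverPrime p) (hT : Tor1FunAt p M h A)
    (x : modularFunctionFieldBar (p * M)) (hk : IsKummer Qb p x) (hnew : IsPNewFun p M x)
    (hx : dlogRed A (p * M) x = 0) :
    ∀ ε : (gaussV A (p * M)).ValueGroup, ε ≠ 0 →
      (∃ g : modularFunctionFieldBar (p * M),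
        (gaussV A (p * M)).valuation (x - g ^ p) ≤ ε) ∧
      (∃ g : modularFunctionFieldBar (p * M),
        (gaussV A (p * M)).valuation (atkinLehnerBar p M h x - g ^ p) ≤ ε) :=
  hT x hk hnew hx ((dlogRed_eq_zero_iff_of_isPNewFun hp h hA hk.ne_zero hnew).mp hx)

end

end Fermat.Agent.S44.helper2359
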