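import Mathlib
import Fermat.Agent.S19.helper1821_BaseRing
import Fermat.Agent.S05.helper4205_Inertia

/-!
# The base fields of the Mazur-Ribet argument at `p` (helper2530, block (BASE) of S44)

Frozen vocabulary: `Qb := AlgebraicClosure ℚ`, `A` a valuation subring of `Qb` lying over a
prime `p`, `I := A.inertiaSubgroupIn ℚ`, `v := A.valuation`.  Completion-free.

**Layers.**  For a point `t` of any `G_ℚ`-set `X` (`t = ζ : Qb`, `t = y : Qb`, `t = (ζ, y)`):
`layerGroup A t := I ⊓ stabilizer t`, `layerRing A t := A ∩ Qb ^ (layerGroup A t)`, the ring of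
integers of the layer field `K0(t)`, `K0 := Qb ^ I` (`R0 A` of `S19/helper1821`).

* unconditionally `layerRing A t` is a Henselian local ring (`exists_root_mem_layerRing`,
  instances) whose residue field is that of `A` (`exists_sub_mem_nonunits_layer`,
  `residueField_map_bijective`, `isAlgClosed_residueField_layerRing`);
* `IsLayerUnif A t ϖ`: `ϖ` is a uniformiser of the layer (fixed, `v ϖ < 1`, every nonzero
  element of the layer field has valuation in `v(ϖ)^ℤ`); then `layerRing A t` is a discrete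
  valuation ring with uniformiser `ϖ` (`IsLayerUnif.isDiscreteValuationRing`, `.irreducible`,
  `.maximalIdeal_eq`, `.dvd_of_mem_nonunits`, `.exists_eq_pow_mul`, `.exists_eq_add_mul`,
  `.natCast_eq_unit_mul_pow`);
* `isLayerUnif_of_card`: **discreteness by the orbit norm**: if the inertia orbit of `t` has at
  most `e` elements and `ϖ` in the layer has `v(ϖ)^e = v(p)`, then `ϖ` is a uniformiser (and the
  orbits of `t` and `ϖ` have exactly `e` elements).

**The layer `K = K0(ζ_p)`** (`cycInertia A ζ`, `R1 A ζ`, `π := ζ - 1`):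

* `one_add_pow_sub_one`, `cycU`, `cycW` : `(1+π)^p - 1 = π (π^(p-1) + p U(π))`, `U = 1 + π W`;
* `valuation_pi_pow`, `natCast_eq_eps0_mul`, `eps0_eq`    : **(B1)** `p = ε₀ π^(p-1)`,
      `ε₀ ≡ -1 mod π`, `v p = v π ^ (p-1)`;
* `exists_zpow_valuation_eq`, `isLayerUnif_pi`            : **(B2)** `π` is a uniformiser of `K`;
* `chi`, `apply_pi`, `exists_apply_pi_eq`                 : **(B4)** `σ ζ = ζ ^ χ(σ)`,
      `σ π = π (χ(σ) + π c)`;
* `isDiscreteValuationRing_R1`, `irreducible_piR1`, `natCast_eq_unit_mul_piR1_pow`.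
-/

set_option autoImplicit false

namespace Fermat.Agent.S44.helper2530

open Polynomial IsLocalRing

local notation "Qb" => AlgebraicClosure ℚ
local notation "GQ" => (AlgebraicClosure ℚ ≃ₐ[ℚ] AlgebraicClosure ℚ)

/-! ## Part 0: the binomial identity `(1+π)^p - 1 = π (π^(p-1) + p U(π))` -/

section binomial

variable {R : Type*} [CommRing R]

/-- `U(π) = ∑_{k < p-1} (C(p,k+1)/p) π^k`, so that `(1+π)^p - 1 = π^p + p π U(π)`. -/
def cycU (p : ℕ) (π : R) : R :=
  ∑ k ∈ Finset.range (p - 1), ((p.choose (k + 1) / p : ℕ) : R) * π ^ k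

/-- `W(π) = ∑_{k < p-2} (C(p,k+2)/p) π^k`, so that `U(π) = 1 + π W(π)`. -/
def cycW (p : ℕ) (π : R) : R :=
  ∑ k ∈ Finset.range (p - 2), ((p.choose (k + 2) / p : ℕ) : R) * π ^ k

theorem one_add_pow_sub_one {p : ℕ} (hp : p.Prime) (π : R) :
    (1 + π) ^ p - 1 = π * (π ^ (p - 1) + (p : R) * cycU p π) := by
  obtain ⟨n, rfl⟩ : ∃ n, p = n + 1 := ⟨p - 1, by have := hp.pos; omega⟩
  have hmid : ∀ k ∈ Finset.range n,
      π ^ (k + 1) * 1 ^ (n + 1 - (k + 1)) * (((n + 1).choose (k + 1) : ℕ) : R)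
        = π * (((n + 1 : ℕ) : R) * ((((n + 1).choose (k + 1) / (n + 1) : ℕ) : R) * π ^ k)) := by
    intro k hk
    have hk' : k < n := Finset.mem_range.mp hk
    have hdvd : (n + 1) ∣ (n + 1).choose (k + 1) :=
      hp.dvd_choose_self (Nat.succ_ne_zero k) (by omega)
    have hc : (((n + 1).choose (k + 1) : ℕ) : R)
        = ((n + 1 : ℕ) : R) * (((n + 1).choose (k + 1) / (n + 1) : ℕ) : R) := by
      rw [← Nat.cast_mul, Nat.mul_div_cancel' hdvd]
    rw [hc, one_pow, mul_one, pow_succ]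
    ring
  rw [add_comm 1 π, add_pow, Finset.sum_range_succ, Finset.sum_range_succ',
    Finset.sum_congr rfl hmid, ← Finset.mul_sum, ← Finset.mul_sum]
  simp only [cycU, Nat.add_sub_cancel]
  simp only [pow_zero, one_pow, mul_one, Nat.choose_zero_right, Nat.cast_one, Nat.choose_self,
    Nat.sub_self]
  rw [pow_succ]
  ring

theorem cycU_eq {p : ℕ} (hp : p.Prime) (π : R) : cycU p π = 1 + π * cycW p π := by
  obtain ⟨n, rfl⟩ : ∃ n, p = n + 2 := ⟨p - 2, by have := hp.two_le; omega⟩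
  have h1 : n + 2 - 1 = n + 1 := by omega
  have h2 : n + 2 - 2 = n := by omega
  rw [cycU, cycW, h1, h2, Finset.sum_range_succ', Finset.mul_sum]
  have h3 : (n + 2).choose (0 + 1) / (n + 2) = 1 := by
    rw [zero_add, Nat.choose_one_right]
    exact Nat.div_self (by omega)
  rw [h3, Nat.cast_one, pow_zero, mul_one, add_comm]
  congr 1
  apply Finset.sum_congr rfl
  intro k _
  rw [pow_succ]
  ring

theorem cycW_mem {S : Type*} [SetLike S R] [SubringClass S R] (s : S) (p : ℕ) {π : R}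
    (hπ : π ∈ s) : cycW p π ∈ s :=
  sum_mem (fun k _ => mul_mem (natCast_mem s _) (pow_mem hπ k))

theorem cycU_mem {S : Type*} [SetLike S R] [SubringClass S R] (s : S) (p : ℕ) {π : R}
    (hπ : π ∈ s) : cycU p π ∈ s :=
  sum_mem (fun k _ => mul_mem (natCast_mem s _) (pow_mem hπ k))

theorem map_cycU {S : Type*} [CommRing S] (f : R →+* S) (p : ℕ) (π : R) :
    f (cycU p π) = cycU p (f π) := by
  simp [cycU, map_sum]

theorem map_cycW {S : Type*} [CommRing S] (f : R →+* S) (p : ℕ) (π : R) :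
    f (cycW p π) = cycW p (f π) := by
  simp [cycW, map_sum]

end binomial

open Fermat.Agent.S19.helper1821 (R0 mem_R0 sub_mem_nonunits add_mem_nonunits neg_mem_nonunits
  mul_mem_nonunits mem_of_mem_nonunits)

/-! ## Part 1: (B1) `p = ε₀ π^(p-1)` -/

section cyc

variable {p : ℕ} {A : ValuationSubring Qb} {ζ : Qb}

theorem zeta_ne_one (hp : p.Prime) (hζ : IsPrimitiveRoot ζ p) : ζ ≠ 1 := hζ.ne_one hp.one_lt

theorem pi_ne_zero (hp : p.Prime) (hζ : IsPrimitiveRoot ζ p) : ζ - 1 ≠ 0 :=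
  sub_ne_zero.mpr (zeta_ne_one hp hζ)

theorem valuation_zeta (hp : p.Prime) (hζ : IsPrimitiveRoot ζ p) (A : ValuationSubring Qb) :
    A.valuation ζ = 1 := by
  have h : A.valuation ζ ^ p = 1 := by rw [← map_pow, hζ.pow_eq_one, map_one]
  exact (pow_eq_one_iff.mp h).resolve_right hp.ne_zero

theorem zeta_mem (hp : p.Prime) (hζ : IsPrimitiveRoot ζ p) (A : ValuationSubring Qb) : ζ ∈ A :=
  (A.valuation_le_one_iff _).mp (valuation_zeta hp hζ A).le

theorem pi_mem (hp : p.Prime) (hζ : IsPrimitiveRoot ζ p) (A : ValuationSubring Qb) :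
    ζ - 1 ∈ A :=
  sub_mem (zeta_mem hp hζ A) A.one_mem

/-- `π^(p-1) = -(p U(π))`. -/
theorem pi_pow_eq (hp : p.Prime) (hζ : IsPrimitiveRoot ζ p) :
    (ζ - 1) ^ (p - 1) = -((p : Qb) * cycU p (ζ - 1)) := by
  have h := one_add_pow_sub_one (R := Qb) hp (ζ - 1)
  rw [add_sub_cancel, hζ.pow_eq_one, sub_self] at h
  rcases mul_eq_zero.mp h.symm with h0 | h0
  · exact absurd h0 (pi_ne_zero hp hζ)
  · exact eq_neg_of_add_eq_zero_left h0

theorem valuation_pi_lt_one (hp : p.Prime) (hA : A.LiesOverPrime p) (hζ : IsPrimitiveRoot ζ p) :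
    A.valuation (ζ - 1) < 1 := by
  by_contra hcon
  have h1 : A.valuation (ζ - 1) = 1 :=
    le_antisymm ((A.valuation_le_one_iff _).mpr (pi_mem hp hζ A)) (not_lt.mp hcon)
  have h2 : A.valuation ((ζ - 1) ^ (p - 1)) = 1 := by rw [map_pow, h1, one_pow]
  rw [pi_pow_eq hp hζ, Valuation.map_neg, map_mul] at h2
  have h3 : A.valuation (p : Qb) * A.valuation (cycU p (ζ - 1)) < 1 :=
    calc A.valuation (p : Qb) * A.valuation (cycU p (ζ - 1))
        ≤ A.valuation (p : Qb) * 1 :=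
          mul_le_mul' le_rfl ((A.valuation_le_one_iff _).mpr (cycU_mem A p (pi_mem hp hζ A)))
      _ = A.valuation (p : Qb) := mul_one _
      _ < 1 := A.mem_nonunits_iff.mp hA
  rw [h2] at h3
  exact lt_irrefl _ h3

theorem pi_mem_nonunits (hp : p.Prime) (hA : A.LiesOverPrime p) (hζ : IsPrimitiveRoot ζ p) :
    ζ - 1 ∈ A.nonunits :=
  A.mem_nonunits_iff.mpr (valuation_pi_lt_one hp hA hζ)

theorem valuation_pi_pos (hp : p.Prime) (hζ : IsPrimitiveRoot ζ p) (A : ValuationSubring Qb) :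
    0 < A.valuation (ζ - 1) :=
  zero_lt_iff.mpr ((Valuation.ne_zero_iff _).mpr (pi_ne_zero hp hζ))

theorem valuation_cycU (hp : p.Prime) (hA : A.LiesOverPrime p) (hζ : IsPrimitiveRoot ζ p) :
    A.valuation (cycU p (ζ - 1)) = 1 := by
  rw [cycU_eq hp]
  apply Valuation.map_one_add_of_lt
  exact A.mem_nonunits_iff.mp
    (mul_mem_nonunits (pi_mem_nonunits hp hA hζ) (cycW_mem A p (pi_mem hp hζ A)))

theorem cycU_ne_zero (hp : p.Prime) (hA : A.LiesOverPrime p) (hζ : IsPrimitiveRoot ζ p) :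
    cycU p (ζ - 1) ≠ 0 := by
  intro h
  have h1 := valuation_cycU hp hA hζ
  rw [h, map_zero] at h1
  exact zero_ne_one h1

/-- **(B1)** `v(π)^(p-1) = v(p)`. -/
theorem valuation_pi_pow (hp : p.Prime) (hA : A.LiesOverPrime p) (hζ : IsPrimitiveRoot ζ p) :
    A.valuation (ζ - 1) ^ (p - 1) = A.valuation (p : Qb) := by
  rw [← map_pow, pi_pow_eq hp hζ, Valuation.map_neg, map_mul, valuation_cycU hp hA hζ, mul_one]

/-- The unit `ε₀ = -U(π)⁻¹` with `p = ε₀ π^(p-1)`. -/
noncomputable def eps0 (p : ℕ) (ζ : Qb) : Qb := -(cycU p (ζ - 1))⁻¹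

/-- The element `e₁ = W(π) U(π)⁻¹` with `ε₀ = -1 + π e₁`. -/
noncomputable def eps1 (p : ℕ) (ζ : Qb) : Qb := cycW p (ζ - 1) * (cycU p (ζ - 1))⁻¹

/-- **(B1)** `p = ε₀ π^(p-1)`. -/
theorem natCast_eq_eps0_mul (hp : p.Prime) (hA : A.LiesOverPrime p) (hζ : IsPrimitiveRoot ζ p) :
    (p : Qb) = eps0 p ζ * (ζ - 1) ^ (p - 1) := by
  have h0 := cycU_ne_zero hp hA hζ
  rw [eps0, pi_pow_eq hp hζ]
  field_simp

/-- **(B1)** `ε₀ = -1 + π e₁`. -/
theorem eps0_eq (hp : p.Prime) (hA : A.LiesOverPrime p) (hζ : IsPrimitiveRoot ζ p) :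
    eps0 p ζ = -1 + (ζ - 1) * eps1 p ζ := by
  have h0 := cycU_ne_zero hp hA hζ
  have h1 := cycU_eq hp (ζ - 1)
  rw [eps0, eps1]
  field_simp
  rw [h1]
  ring

theorem valuation_eps0 (hp : p.Prime) (hA : A.LiesOverPrime p) (hζ : IsPrimitiveRoot ζ p) :
    A.valuation (eps0 p ζ) = 1 := by
  rw [eps0, Valuation.map_neg, map_inv₀, valuation_cycU hp hA hζ, inv_one]

theorem eps1_mem (hp : p.Prime) (hA : A.LiesOverPrime p) (hζ : IsPrimitiveRoot ζ p) :
    eps1 p ζ ∈ A := by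
  rw [eps1, ← A.valuation_le_one_iff, map_mul, map_inv₀, valuation_cycU hp hA hζ, inv_one,
    mul_one, A.valuation_le_one_iff]
  exact cycW_mem A p (pi_mem hp hζ A)

theorem eps0_mem (hp : p.Prime) (hA : A.LiesOverPrime p) (hζ : IsPrimitiveRoot ζ p) :
    eps0 p ζ ∈ A :=
  (A.valuation_le_one_iff _).mp (valuation_eps0 hp hA hζ).le

end cyc

/-! ## Part 2: layers — the group, the ring and the field -/

section layer

variable {X : Type*} [MulAction GQ X]

/-- The inertia group of the layer `K0(t)`: the elements of the inertia group of `A` fixing the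
point `t` of a `G_ℚ`-set. -/
noncomputable def layerGroup (A : ValuationSubring Qb) (t : X) : Subgroup GQ :=
  A.inertiaSubgroupIn ℚ ⊓ MulAction.stabilizer GQ t

variable {p : ℕ} {A : ValuationSubring Qb} {t : X}

theorem mem_layerGroup {σ : GQ} :
    σ ∈ layerGroup A t ↔ σ ∈ A.inertiaSubgroupIn ℚ ∧ σ • t = t := by
  rw [layerGroup, Subgroup.mem_inf, MulAction.mem_stabilizer_iff]

theorem layerGroup_le (A : ValuationSubring Qb) (t : X) :
    layerGroup A t ≤ A.inertiaSubgroupIn ℚ := inf_le_left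

/-- The ring of integers `A ∩ K0(t)` of the layer of `t`. -/
def layerRing (A : ValuationSubring Qb) (t : X) : Subring Qb where
  carrier := {x | x ∈ A ∧ ∀ σ ∈ layerGroup A t, σ x = x}
  mul_mem' := fun ⟨ha, ha'⟩ ⟨hb, hb'⟩ =>
    ⟨A.mul_mem _ _ ha hb, fun σ hσ => by rw [map_mul, ha' σ hσ, hb' σ hσ]⟩
  one_mem' := ⟨A.one_mem, fun σ _ => map_one σ⟩
  add_mem' := fun ⟨ha, ha'⟩ ⟨hb, hb'⟩ =>
    ⟨A.add_mem _ _ ha hb, fun σ hσ => by rw [map_add, ha' σ hσ, hb' σ hσ]⟩
  zero_mem' := ⟨A.zero_mem, fun σ _ => map_zero σ⟩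
  neg_mem' := fun ⟨ha, ha'⟩ => ⟨A.neg_mem _ ha, fun σ hσ => by rw [map_neg, ha' σ hσ]⟩

theorem mem_layerRing {x : Qb} :
    x ∈ layerRing A t ↔ x ∈ A ∧ ∀ σ ∈ layerGroup A t, σ x = x := Iff.rfl

theorem layerRing_le (A : ValuationSubring Qb) (t : X) {x : Qb} (hx : x ∈ layerRing A t) :
    x ∈ A := hx.1

/-- The inertia-fixed ring `R0 = A^I` of `S19/helper1821` is contained in every layer ring. -/
theorem R0_le_layerRing (A : ValuationSubring Qb) (t : X) : R0 A ≤ layerRing A t :=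
  fun _ hx => ⟨hx.1, fun σ hσ => hx.2 σ (layerGroup_le A t hσ)⟩

/-- The layer field `K0(t) = Qb ^ (layerGroup A t)`. -/
noncomputable abbrev layerField (A : ValuationSubring Qb) (t : X) : IntermediateField ℚ Qb :=
  IntermediateField.fixedField (layerGroup A t)

theorem mem_layerField {x : Qb} : x ∈ layerField A t ↔ ∀ σ ∈ layerGroup A t, σ x = x :=
  ⟨fun h σ hσ => h ⟨σ, hσ⟩, fun h σ => h σ.1 σ.2⟩

theorem mem_layerRing_iff {x : Qb} : x ∈ layerRing A t ↔ x ∈ A ∧ x ∈ layerField A t := by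
  rw [mem_layerRing, mem_layerField]

/-- An element of a layer ring that is a unit of `A` has its inverse in the layer ring. -/
theorem inv_mem_layerRing {x : Qb} (hx : x ∈ layerRing A t) (hu : x ∉ A.nonunits) :
    x⁻¹ ∈ layerRing A t := by
  refine ⟨?_, fun σ hσ => by rw [map_inv₀, hx.2 σ hσ]⟩
  have h1 : A.valuation x = 1 :=
    le_antisymm ((A.valuation_le_one_iff _).mpr hx.1)
      (not_lt.mp (fun h => hu (A.mem_nonunits_iff.mpr h)))
  exact (A.valuation_le_one_iff _).mp (by rw [map_inv₀, h1, inv_one])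

/-- The layer group acts trivially on the residue field. -/
theorem apply_sub_mem_nonunits_layer {σ : GQ} (hσ : σ ∈ layerGroup A t) {x : Qb} (hx : x ∈ A) :
    σ x - x ∈ A.nonunits :=
  Fermat.Agent.S05.helper4205.apply_sub_mem_nonunits (layerGroup_le A t hσ) hx

/-- The inertia group preserves the valuation. -/
theorem valuation_apply {σ : GQ} (hσ : σ ∈ A.inertiaSubgroupIn ℚ) (x : Qb) :
    A.valuation (σ x) = A.valuation x :=
  haveI : Algebra.IsAlgebraic ℚ Qb := AlgebraicClosure.isAlgebraic ℚ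
  Fermat.Agent.S05.helper4205.valuation_apply_of_mem_decomposition
    (Fermat.Agent.S05.helper4205.mem_decomposition_of_mem_inertiaSubgroupIn hσ) x

/-- Every residue class of `A` meets every layer ring (indeed `R0 = A^I`): the residue field of a
layer ring is the residue field of `A`. -/
theorem exists_sub_mem_nonunits_layer (hp : p.Prime) (hA : A.LiesOverPrime p) (t : X) {a : Qb}
    (ha : a ∈ A) : ∃ r ∈ layerRing A t, a - r ∈ A.nonunits := by
  obtain ⟨r, hr, hra⟩ := Fermat.Agent.S19.helper1821.exists_sub_mem_nonunits hp hA ha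
  exact ⟨r, R0_le_layerRing A t hr, hra⟩

/-- The layer of a set `S ⊆ Qb` is the layer of the point `Subtype.val : S → Qb` of the `G_ℚ`-set
`S → Qb`. -/
theorem mem_layerGroup_set {S : Set Qb} {σ : GQ} :
    σ ∈ layerGroup A (fun s : S => (s : Qb)) ↔
      σ ∈ A.inertiaSubgroupIn ℚ ∧ ∀ s ∈ S, σ s = s := by
  rw [mem_layerGroup]
  refine and_congr_right (fun _ => ⟨fun h s hs => ?_, fun h => ?_⟩)
  · exact congrFun h ⟨s, hs⟩
  · funext s
    exact h s.1 s.2

/-- "Fixed by the layer group of `S`" in the unbundled form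
`∀ σ ∈ I, (∀ s ∈ S, σ s = s) → σ x = x`. -/
theorem forall_layerGroup_set_iff {S : Set Qb} {x : Qb} :
    (∀ σ ∈ layerGroup A (fun s : S => (s : Qb)), σ x = x) ↔
      ∀ σ ∈ A.inertiaSubgroupIn ℚ, (∀ s ∈ S, σ s = s) → σ x = x :=
  ⟨fun h σ hσ hS => h σ (mem_layerGroup_set.mpr ⟨hσ, hS⟩),
    fun h σ hσ => h σ (mem_layerGroup_set.mp hσ).1 (mem_layerGroup_set.mp hσ).2⟩

/-- The layer of a point `y : Qb`, unbundled. -/
theorem forall_layerGroup_iff {y x : Qb} :
    (∀ σ ∈ layerGroup A y, σ x = x) ↔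
      ∀ σ ∈ A.inertiaSubgroupIn ℚ, (∀ s ∈ ({y} : Set Qb), σ s = s) → σ x = x := by
  constructor
  · intro h σ hσ hS
    exact h σ (mem_layerGroup.mpr ⟨hσ, hS y rfl⟩)
  · intro h σ hσ
    obtain ⟨h1, h2⟩ := mem_layerGroup.mp hσ
    refine h σ h1 (fun s hs => ?_)
    rw [Set.mem_singleton_iff.mp hs]
    exact h2

/-- The layer of a pair `(ζ, y) : Qb × Qb`, unbundled. -/
theorem forall_layerGroup_pair_iff {ζ y x : Qb} :
    (∀ σ ∈ layerGroup A (ζ, y), σ x = x) ↔
      ∀ σ ∈ A.inertiaSubgroupIn ℚ, (∀ s ∈ ({ζ, y} : Set Qb), σ s = s) → σ x = x := by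
  constructor
  · intro h σ hσ hS
    refine h σ (mem_layerGroup.mpr ⟨hσ, ?_⟩)
    rw [Prod.smul_mk]
    exact Prod.ext (hS ζ (Set.mem_insert _ _)) (hS y (Set.mem_insert_of_mem _ rfl))
  · intro h σ hσ
    obtain ⟨h1, h2⟩ := mem_layerGroup.mp hσ
    rw [Prod.smul_mk, Prod.mk.injEq] at h2
    refine h σ h1 (fun s hs => ?_)
    rcases hs with rfl | hs
    · exact h2.1
    · rw [Set.mem_singleton_iff.mp hs]
      exact h2.2

end layer

/-! ## Part 3: Hensel for layer rings; they are Henselian local rings with algebraically closed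
residue field -/

section hensel

variable {X : Type*} [MulAction GQ X] {p : ℕ} {A : ValuationSubring Qb} {t : X}

/-- A root of a monic polynomial over a layer ring that is simple modulo the maximal ideal of `A`
lies in the layer ring. -/
theorem root_mem_layerRing {P : Qb[X]} (hP : P.Monic) (hcoeff : ∀ i, P.coeff i ∈ layerRing A t)
    {a : Qb} (ha : a ∈ A) (h1 : P.derivative.eval a ∉ A.nonunits) {b : Qb} (hb : P.IsRoot b)
    (hba : b - a ∈ A.nonunits) : b ∈ layerRing A t := by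
  have hcoeffA : ∀ i, P.coeff i ∈ A := fun i => (hcoeff i).1
  have hbA : b ∈ A := by
    have h : b = (b - a) + a := by ring
    rw [h]
    exact add_mem (mem_of_mem_nonunits hba) ha
  have h0 : P.eval a ∈ A.nonunits := by
    have h2 : a - b ∈ A.nonunits := by
      have h := neg_mem_nonunits hba
      rwa [neg_sub] at h
    have h3 := Fermat.Agent.S19.helper1821.eval_sub_eval_mem_nonunits hcoeffA ha hbA h2
    have hb0 : P.eval b = 0 := hb
    rwa [hb0, sub_zero] at h3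
  obtain ⟨r, -, hr⟩ := Fermat.Agent.S19.helper1821.existsUnique_root hP hcoeffA ha h0 h1
  refine ⟨hbA, fun σ hσ => ?_⟩
  have hPσ : P.map (σ : Qb →+* Qb) = P := by
    ext i
    rw [coeff_map]
    exact (hcoeff i).2 σ hσ
  have hσb : P.IsRoot (σ b) := by
    have h2 : (P.map (σ : Qb →+* Qb)).eval ((σ : Qb →+* Qb) b) = (σ : Qb →+* Qb) (P.eval b) := by
      rw [eval_map]
      exact eval₂_at_apply (σ : Qb →+* Qb) b
    rw [hPσ] at h2
    have hb0 : P.eval b = 0 := hb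
    rw [hb0, map_zero] at h2
    exact h2
  have hσba : σ b - a ∈ A.nonunits := by
    have h2 := apply_sub_mem_nonunits_layer hσ hbA
    have h3 : σ b - a = (σ b - b) + (b - a) := by ring
    rw [h3]
    exact add_mem_nonunits h2 hba
  rw [hr (σ b) ⟨hσb, hσba⟩, hr b ⟨hb, hba⟩]

/-- **Hensel for a layer ring**: a monic polynomial over it with a simple root modulo the maximal
ideal of `A` at `a ∈ A` has exactly one root congruent to `a`, and that root lies in the layer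
ring. -/
theorem exists_root_mem_layerRing {P : Qb[X]} (hP : P.Monic)
    (hcoeff : ∀ i, P.coeff i ∈ layerRing A t) {a : Qb}
    (ha : a ∈ A) (h0 : P.eval a ∈ A.nonunits) (h1 : P.derivative.eval a ∉ A.nonunits) :
    ∃ b ∈ layerRing A t, P.IsRoot b ∧ b - a ∈ A.nonunits ∧
      ∀ b', P.IsRoot b' → b' - a ∈ A.nonunits → b' = b := by
  obtain ⟨b, ⟨hb, hba⟩, huniq⟩ :=
    Fermat.Agent.S19.helper1821.existsUnique_root hP (fun i => (hcoeff i).1) ha h0 h1
  exact ⟨b, root_mem_layerRing hP hcoeff ha h1 hb hba, hb, hba, fun b' h h' => huniq b' ⟨h, h'⟩⟩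

/-- A root in `ℚ̄` of a monic polynomial with coefficients in `A` lies in `A`. -/
theorem root_mem_of_monic {P : Qb[X]} (hP : P.Monic) (hcoeff : ∀ i, P.coeff i ∈ A) {b : Qb}
    (hb : P.IsRoot b) : b ∈ A := by
  obtain ⟨PA, rfl⟩ := Fermat.Agent.S19.helper1821.exists_lift hcoeff
  apply Fermat.Agent.Lib.helper3858.mem_of_isIntegral A
  refine ⟨PA, ?_, ?_⟩
  · exact Polynomial.monic_of_injective (f := A.subtype) Subtype.val_injective hP
  · have h : (PA.map A.subtype).eval b = 0 := hb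
    rw [eval_map] at h
    exact h

/-- The units of a layer ring are its elements that are units of `A`. -/
theorem isUnit_iff_layerRing {x : layerRing A t} : IsUnit x ↔ (x : Qb) ∉ A.nonunits := by
  constructor
  · rintro hu hmem
    obtain ⟨y, hy⟩ := hu.exists_right_inv
    have h1 : (x : Qb) * (y : Qb) = 1 := by
      have h2 := congrArg (fun z : layerRing A t => (z : Qb)) hy
      simpa using h2
    have h3 := mul_mem_nonunits hmem y.2.1
    rw [h1, A.mem_nonunits_iff, map_one] at h3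
    exact lt_irrefl _ h3
  · intro hx
    have hinv := inv_mem_layerRing x.2 hx
    have hx0 : (x : Qb) ≠ 0 := by
      intro h0
      apply hx
      rw [h0, A.mem_nonunits_iff, map_zero]
      exact zero_lt_one
    refine IsUnit.of_mul_eq_one (⟨(x : Qb)⁻¹, hinv⟩ : layerRing A t) ?_
    apply Subtype.ext
    change (x : Qb) * (x : Qb)⁻¹ = 1
    exact mul_inv_cancel₀ hx0

/-- The units of a layer ring are its elements of valuation `1`. -/
theorem isUnit_iff_valuation_eq_one {x : layerRing A t} :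
    IsUnit x ↔ A.valuation (x : Qb) = 1 := by
  rw [isUnit_iff_layerRing, A.mem_nonunits_iff, not_lt]
  exact ⟨fun h => le_antisymm ((A.valuation_le_one_iff _).mpr x.2.1) h, fun h => h.ge⟩

/-- Divisibility in a layer ring is comparison of valuations (a layer ring is a valuation
ring). -/
theorem dvd_iff_valuation_le {a b : layerRing A t} (ha : a ≠ 0) :
    a ∣ b ↔ A.valuation (b : Qb) ≤ A.valuation (a : Qb) := by
  have ha0 : (a : Qb) ≠ 0 := fun h => ha (Subtype.ext h)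
  have hva : 0 < A.valuation (a : Qb) := zero_lt_iff.mpr ((Valuation.ne_zero_iff _).mpr ha0)
  constructor
  · rintro ⟨c, rfl⟩
    change A.valuation ((a : Qb) * (c : Qb)) ≤ A.valuation (a : Qb)
    rw [map_mul]
    calc A.valuation (a : Qb) * A.valuation (c : Qb) ≤ A.valuation (a : Qb) * 1 :=
          mul_le_mul' le_rfl ((A.valuation_le_one_iff _).mpr c.2.1)
      _ = A.valuation (a : Qb) := mul_one _
  · intro h
    refine ⟨⟨(b : Qb) / (a : Qb), ?_, fun σ hσ => ?_⟩, Subtype.ext (mul_div_cancel₀ _ ha0).symm⟩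
    · rw [← A.valuation_le_one_iff, map_div₀]
      exact (div_le_one₀ hva).mpr h
    · rw [map_div₀, b.2.2 σ hσ, a.2.2 σ hσ]

/-- A layer ring is a local ring. -/
instance isLocalRing_layerRing (A : ValuationSubring Qb) (t : X) :
    IsLocalRing (layerRing A t) := by
  refine IsLocalRing.of_nonunits_add (fun a b ha hb => ?_)
  rw [mem_nonunits_iff, isUnit_iff_layerRing, not_not] at ha hb ⊢
  exact add_mem_nonunits ha hb

theorem mem_maximalIdeal_layerRing_iff {x : layerRing A t} :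
    x ∈ maximalIdeal (layerRing A t) ↔ (x : Qb) ∈ A.nonunits := by
  rw [mem_maximalIdeal, mem_nonunits_iff, isUnit_iff_layerRing, not_not]

/-- The inclusion of a layer ring in `A`. -/
def toA (A : ValuationSubring Qb) (t : X) : layerRing A t →+* A where
  toFun x := ⟨x, x.2.1⟩
  map_one' := rfl
  map_mul' _ _ := rfl
  map_zero' := rfl
  map_add' _ _ := rfl

@[simp] theorem coe_toA (x : layerRing A t) : ((toA A t x : A) : Qb) = (x : Qb) := rfl

theorem toA_injective : Function.Injective (toA A t) := by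
  intro x y h
  apply Subtype.ext
  exact congrArg (fun z : A => (z : Qb)) h

/-- The inclusion of a layer ring in `A` is a local homomorphism. -/
instance isLocalHom_toA (A : ValuationSubring Qb) (t : X) : IsLocalHom (toA A t) where
  map_nonunit x hx := by
    rw [isUnit_iff_layerRing]
    intro hmem
    have h1 : toA A t x ∈ IsLocalRing.maximalIdeal A :=
      (ValuationSubring.coe_mem_nonunits_iff (A := A)).mp hmem
    exact (IsLocalRing.mem_maximalIdeal _).mp h1 hx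

theorem eval_map_subtype_layerRing (f : (layerRing A t)[X]) (a : layerRing A t) :
    (f.map (layerRing A t).subtype).eval (a : Qb) = ((f.eval a : layerRing A t) : Qb) := by
  rw [eval_map]
  exact eval₂_at_apply (layerRing A t).subtype a

/-- A layer ring is a Henselian local ring. -/
instance henselianLocalRing_layerRing (A : ValuationSubring Qb) (t : X) :
    HenselianLocalRing (layerRing A t) where
  is_henselian := by
    intro f hf a₀ h0 h1
    have hP : (f.map (layerRing A t).subtype).Monic := hf.map _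
    have hcoeff : ∀ i, (f.map (layerRing A t).subtype).coeff i ∈ layerRing A t := fun i => by
      rw [coeff_map]
      exact (f.coeff i).2
    have h0' : (f.map (layerRing A t).subtype).eval (a₀ : Qb) ∈ A.nonunits := by
      rw [eval_map_subtype_layerRing]
      exact mem_maximalIdeal_layerRing_iff.mp h0
    have h1' : (f.map (layerRing A t).subtype).derivative.eval (a₀ : Qb) ∉ A.nonunits := by
      rw [derivative_map, eval_map_subtype_layerRing]
      exact isUnit_iff_layerRing.mp h1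
    obtain ⟨b, hbR, hb, hba, -⟩ := exists_root_mem_layerRing hP hcoeff a₀.2.1 h0' h1'
    refine ⟨⟨b, hbR⟩, ?_, mem_maximalIdeal_layerRing_iff.mpr hba⟩
    apply Subtype.ext
    have h2 := eval_map_subtype_layerRing f ⟨b, hbR⟩
    have hb0 : (f.map (layerRing A t).subtype).eval b = 0 := hb
    rw [← h2]
    exact hb0

/-- Every element of `A` is congruent modulo the maximal ideal of `A` to an element of the layer
ring. -/
theorem exists_toA_sub_mem_maximalIdeal (hp : p.Prime) (hA : A.LiesOverPrime p) (t : X)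
    (a : A) : ∃ r : layerRing A t, a - toA A t r ∈ IsLocalRing.maximalIdeal A := by
  obtain ⟨r, hr, hra⟩ := exists_sub_mem_nonunits_layer hp hA t a.2
  refine ⟨⟨r, hr⟩, ?_⟩
  exact (ValuationSubring.coe_mem_nonunits_iff (A := A)).mp hra

/-- The residue field of a layer ring maps isomorphically onto the residue field of `A`. -/
theorem residueField_map_bijective (hp : p.Prime) (hA : A.LiesOverPrime p) (t : X) :
    Function.Bijective (ResidueField.map (toA A t)) := by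
  refine ⟨RingHom.injective _, fun x => ?_⟩
  obtain ⟨a, rfl⟩ := residue_surjective x
  obtain ⟨r, hr⟩ := exists_toA_sub_mem_maximalIdeal hp hA t a
  refine ⟨residue (layerRing A t) r, ?_⟩
  rw [ResidueField.map_residue]
  symm
  rw [← sub_eq_zero, ← map_sub, residue_eq_zero_iff]
  exact hr

/-- The residue field of a layer ring is algebraically closed. -/
theorem isAlgClosed_residueField_layerRing (hp : p.Prime) (hA : A.LiesOverPrime p) (t : X) :
    IsAlgClosed (ResidueField (layerRing A t)) := by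
  have : IsAlgClosed (ResidueField A) := Fermat.Agent.Lib.helper3858.isAlgClosed_residueField A
  exact IsAlgClosed.of_ringEquiv (ResidueField A) (ResidueField (layerRing A t))
    (RingEquiv.ofBijective _ (residueField_map_bijective hp hA t)).symm

end hensel

/-! ## Part 4: uniformisers of a layer; the layer ring is a discrete valuation ring -/

section unif

variable {X : Type*} [MulAction GQ X]

/-- `ϖ` is a uniformiser of the layer of `t`: it lies in the layer field, `0 < v ϖ < 1`, and every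
nonzero element of the layer field has valuation an integral power of `v ϖ`. -/
structure IsLayerUnif (A : ValuationSubring Qb) (t : X) (ϖ : Qb) : Prop where
  fixed : ∀ σ ∈ layerGroup A t, σ ϖ = ϖ
  lt_one : A.valuation ϖ < 1
  ne_zero : ϖ ≠ 0
  discrete : ∀ y : Qb, (∀ σ ∈ layerGroup A t, σ y = y) → y ≠ 0 →
    ∃ n : ℤ, A.valuation y = A.valuation ϖ ^ n

namespace IsLayerUnif

variable {p : ℕ} {A : ValuationSubring Qb} {t : X} {ϖ : Qb}

theorem mem (h : IsLayerUnif A t ϖ) : ϖ ∈ layerRing A t :=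
  ⟨(A.valuation_le_one_iff _).mp h.lt_one.le, h.fixed⟩

theorem mem_nonunits (h : IsLayerUnif A t ϖ) : ϖ ∈ A.nonunits :=
  A.mem_nonunits_iff.mpr h.lt_one

theorem valuation_pos (h : IsLayerUnif A t ϖ) : 0 < A.valuation ϖ :=
  zero_lt_iff.mpr ((Valuation.ne_zero_iff _).mpr h.ne_zero)

theorem zpow_injective (h : IsLayerUnif A t ϖ) :
    Function.Injective (fun n : ℤ => A.valuation ϖ ^ n) :=
  zpow_right_injective₀ h.valuation_pos h.lt_one.ne

/-- `v(ϖ)^n ≤ 1 ↔ 0 ≤ n`. -/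
theorem zpow_le_one_iff (h : IsLayerUnif A t ϖ) (n : ℤ) : A.valuation ϖ ^ n ≤ 1 ↔ 0 ≤ n := by
  have h' := (zpow_right_strictAnti₀ h.valuation_pos h.lt_one).le_iff_ge (a := n) (b := 0)
  simpa using h'

/-- `v(ϖ)^n < 1 ↔ 0 < n`. -/
theorem zpow_lt_one_iff (h : IsLayerUnif A t ϖ) (n : ℤ) : A.valuation ϖ ^ n < 1 ↔ 0 < n := by
  have h' := (zpow_right_strictAnti₀ h.valuation_pos h.lt_one).lt_iff_gt (a := n) (b := 0)
  simpa using h'

/-- An element of the layer field of positive valuation is divisible by `ϖ`: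
`v y < 1 ⟹ v y ≤ v ϖ`. -/
theorem valuation_le (h : IsLayerUnif A t ϖ) {y : Qb} (hy : ∀ σ ∈ layerGroup A t, σ y = y)
    (hlt : A.valuation y < 1) : A.valuation y ≤ A.valuation ϖ := by
  by_cases hy0 : y = 0
  · rw [hy0, map_zero]
    exact zero_le
  obtain ⟨n, hn⟩ := h.discrete y hy hy0
  rw [hn] at hlt ⊢
  have h1 : 1 ≤ n := (h.zpow_lt_one_iff n).mp hlt
  have h2 := zpow_le_zpow_right_of_le_one₀ h.valuation_pos h.lt_one.le h1
  rwa [zpow_one] at h2

/-- An element of the layer ring in the maximal ideal of `A` is `ϖ` times an element of the layer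
ring. -/
theorem dvd_of_mem_nonunits (h : IsLayerUnif A t ϖ) {x : Qb} (hx : x ∈ layerRing A t)
    (hx' : x ∈ A.nonunits) : ∃ y ∈ layerRing A t, x = ϖ * y := by
  refine ⟨x / ϖ, ⟨?_, fun σ hσ => ?_⟩, (mul_div_cancel₀ x h.ne_zero).symm⟩
  · rw [← A.valuation_le_one_iff, map_div₀]
    exact (div_le_one₀ h.valuation_pos).mpr (h.valuation_le hx.2 (A.mem_nonunits_iff.mp hx'))
  · rw [map_div₀, hx.2 σ hσ, h.fixed σ hσ]

/-- Every nonzero element of the layer ring is a power of `ϖ` times a unit of the layer ring. -/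
theorem exists_eq_pow_mul (h : IsLayerUnif A t ϖ) {x : Qb} (hx : x ∈ layerRing A t)
    (hx0 : x ≠ 0) :
    ∃ (n : ℕ) (u : Qb), u ∈ layerRing A t ∧ u⁻¹ ∈ layerRing A t ∧ x = ϖ ^ n * u := by
  obtain ⟨n, hn⟩ := h.discrete x hx.2 hx0
  have hn0 : 0 ≤ n := by
    rw [← h.zpow_le_one_iff n, ← hn]
    exact (A.valuation_le_one_iff _).mpr hx.1
  obtain ⟨k, rfl⟩ := Int.eq_ofNat_of_zero_le hn0
  rw [zpow_natCast] at hn
  have hv : A.valuation (x / ϖ ^ k) = 1 := by
    rw [map_div₀, map_pow, hn]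
    exact div_self (pow_ne_zero k h.valuation_pos.ne')
  have hu : x / ϖ ^ k ∈ layerRing A t := by
    refine ⟨(A.valuation_le_one_iff _).mp hv.le, fun σ hσ => ?_⟩
    rw [map_div₀, map_pow, hx.2 σ hσ, h.fixed σ hσ]
  refine ⟨k, x / ϖ ^ k, hu, inv_mem_layerRing hu ?_, ?_⟩
  · rw [A.mem_nonunits_iff, hv]
    exact lt_irrefl _
  · rw [mul_div_cancel₀ x (pow_ne_zero k h.ne_zero)]

/-- Discreteness in membership form: every nonzero element of the layer field is `ϖ^n` times a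
unit of `A`. -/
theorem exists_zpow_div_mem (h : IsLayerUnif A t ϖ) {y : Qb} (hy : ∀ σ ∈ layerGroup A t, σ y = y)
    (hy0 : y ≠ 0) : ∃ n : ℤ, y / ϖ ^ n ∈ A ∧ ϖ ^ n / y ∈ A := by
  obtain ⟨n, hn⟩ := h.discrete y hy hy0
  have hv0 : A.valuation ϖ ^ n ≠ 0 := zpow_ne_zero n h.valuation_pos.ne'
  refine ⟨n, ?_, ?_⟩
  · rw [← A.valuation_le_one_iff, map_div₀, map_zpow₀, hn, div_self hv0]
  · rw [← A.valuation_le_one_iff, map_div₀, map_zpow₀, hn, div_self hv0]

/-- **(RES)** Every element of the layer ring is an inertia-fixed element plus a multiple of `ϖ`: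
`x = g + ϖ x'`, `g ∈ R0 A = A^I`, `x'` in the layer ring. -/
theorem exists_eq_add_mul (h : IsLayerUnif A t ϖ) (hp : p.Prime) (hA : A.LiesOverPrime p)
    {x : Qb} (hx : x ∈ layerRing A t) :
    ∃ g ∈ R0 A, ∃ x' ∈ layerRing A t, x = g + ϖ * x' := by
  obtain ⟨g, hg, hxg⟩ := Fermat.Agent.S19.helper1821.exists_sub_mem_nonunits hp hA hx.1
  obtain ⟨x', hx', he⟩ := h.dvd_of_mem_nonunits (sub_mem hx (R0_le_layerRing A t hg)) hxg
  exact ⟨g, hg, x', hx', by rw [← he]; ring⟩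

/-- The uniformiser as an element of the layer ring. -/
noncomputable def unif (h : IsLayerUnif A t ϖ) : layerRing A t := ⟨ϖ, h.mem⟩

@[simp] theorem coe_unif (h : IsLayerUnif A t ϖ) : ((h.unif : layerRing A t) : Qb) = ϖ := rfl

theorem unif_not_isUnit (h : IsLayerUnif A t ϖ) : ¬ IsUnit h.unif := by
  rw [isUnit_iff_layerRing, not_not]
  exact h.mem_nonunits

/-- `ϖ` is irreducible in the layer ring. -/
theorem irreducible (h : IsLayerUnif A t ϖ) : Irreducible h.unif := by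
  refine ⟨h.unif_not_isUnit, fun a b hab => ?_⟩
  by_contra hcon
  rw [not_or] at hcon
  obtain ⟨ha, hb⟩ := hcon
  rw [isUnit_iff_layerRing, not_not] at ha hb
  obtain ⟨a', ha', hae⟩ := h.dvd_of_mem_nonunits a.2 ha
  obtain ⟨b', hb', hbe⟩ := h.dvd_of_mem_nonunits b.2 hb
  have h1 : ϖ = (a : Qb) * (b : Qb) := by
    have h2 := congrArg (fun z : layerRing A t => (z : Qb)) hab
    simpa using h2
  have h3 : (1 : Qb) = ϖ * (a' * b') := by
    have h4 : ϖ * 1 = ϖ * (ϖ * (a' * b')) := by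
      rw [mul_one]
      conv_lhs => rw [h1, hae, hbe]
      ring
    exact mul_left_cancel₀ h.ne_zero h4
  have h5 : (1 : Qb) ∈ A.nonunits := by
    rw [h3]
    exact mul_mem_nonunits h.mem_nonunits (mul_mem ha'.1 hb'.1)
  rw [A.mem_nonunits_iff, map_one] at h5
  exact lt_irrefl _ h5

/-- Every nonzero element of the layer ring is associated to a power of `ϖ`. -/
theorem associated_pow (h : IsLayerUnif A t ϖ) {x : layerRing A t} (hx : x ≠ 0) :
    ∃ n : ℕ, Associated (h.unif ^ n) x := by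
  have hx0 : (x : Qb) ≠ 0 := fun h' => hx (Subtype.ext h')
  obtain ⟨n, u, hu, hu', hxu⟩ := h.exists_eq_pow_mul x.2 hx0
  have hu0 : u ≠ 0 := by
    rintro rfl
    rw [mul_zero] at hxu
    exact hx0 hxu
  refine ⟨n, ⟨⟨⟨u, hu⟩, ⟨u⁻¹, hu'⟩, ?_, ?_⟩, ?_⟩⟩
  · apply Subtype.ext
    change u * u⁻¹ = 1
    exact mul_inv_cancel₀ hu0
  · apply Subtype.ext
    change u⁻¹ * u = 1
    exact inv_mul_cancel₀ hu0
  · apply Subtype.ext
    change (((h.unif ^ n : layerRing A t) : Qb)) * u = (x : Qb)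
    rw [hxu]
    simp

/-- The layer ring is a discrete valuation ring (with uniformiser `ϖ`). -/
theorem isDiscreteValuationRing (h : IsLayerUnif A t ϖ) :
    IsDiscreteValuationRing (layerRing A t) :=
  IsDiscreteValuationRing.ofHasUnitMulPowIrreducibleFactorization
    ⟨h.unif, h.irreducible, fun hx => h.associated_pow hx⟩

/-- An element of the layer ring lies in the maximal ideal iff it is divisible by `ϖ`. -/
theorem mem_maximalIdeal_iff_dvd (h : IsLayerUnif A t ϖ) (x : layerRing A t) :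
    x ∈ maximalIdeal (layerRing A t) ↔ h.unif ∣ x := by
  rw [mem_maximalIdeal_layerRing_iff]
  constructor
  · intro h'
    obtain ⟨y, hy, hxy⟩ := h.dvd_of_mem_nonunits x.2 h'
    exact ⟨⟨y, hy⟩, Subtype.ext hxy⟩
  · rintro ⟨y, rfl⟩
    exact mul_mem_nonunits h.mem_nonunits y.2.1

/-- `maximalIdeal (layerRing A t) = (ϖ)`. -/
theorem maximalIdeal_eq (h : IsLayerUnif A t ϖ) :
    maximalIdeal (layerRing A t) = Ideal.span {h.unif} := by
  ext x
  rw [h.mem_maximalIdeal_iff_dvd, Ideal.mem_span_singleton]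

/-- `p = ε ϖ^e` with `ε` a unit of the layer ring, as soon as `v(ϖ)^e = v(p)`. -/
theorem natCast_eq_unit_mul_pow (h : IsLayerUnif A t ϖ) {e : ℕ}
    (hval : A.valuation ϖ ^ e = A.valuation (p : Qb)) :
    ∃ ε : (layerRing A t)ˣ, ((p : ℕ) : layerRing A t) = ε * h.unif ^ e := by
  have hϖe : ϖ ^ e ≠ 0 := pow_ne_zero e h.ne_zero
  have hv : A.valuation ((p : Qb) / ϖ ^ e) = 1 := by
    rw [map_div₀, map_pow, hval]
    exact div_self (by rw [← hval]; exact pow_ne_zero e h.valuation_pos.ne')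
  have hu : (p : Qb) / ϖ ^ e ∈ layerRing A t := by
    refine ⟨(A.valuation_le_one_iff _).mp hv.le, fun σ hσ => ?_⟩
    rw [map_div₀, map_pow, map_natCast, h.fixed σ hσ]
  have hu0 : (p : Qb) / ϖ ^ e ≠ 0 := by
    intro h0
    rw [h0, map_zero] at hv
    exact zero_ne_one hv
  have hu' : ((p : Qb) / ϖ ^ e)⁻¹ ∈ layerRing A t := by
    apply inv_mem_layerRing hu
    rw [A.mem_nonunits_iff, hv]
    exact lt_irrefl _
  refine ⟨⟨⟨_, hu⟩, ⟨_, hu'⟩, Subtype.ext (mul_inv_cancel₀ hu0),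
    Subtype.ext (inv_mul_cancel₀ hu0)⟩, ?_⟩
  apply Subtype.ext
  have h1 : (p : Qb) = (p : Qb) / ϖ ^ e * ϖ ^ e := (div_mul_cancel₀ _ hϖe).symm
  simpa using h1

end IsLayerUnif

end unif

/-! ## Part 5: discreteness by the orbit norm -/

section orbit

variable {X : Type*} [MulAction GQ X] {p : ℕ} {A : ValuationSubring Qb}

/-- The inertia orbit of an element of `ℚ̄` is finite. -/
theorem orbit_finite (A : ValuationSubring Qb) (z : Qb) :
    (MulAction.orbit ↥(A.inertiaSubgroupIn ℚ) z).Finite := by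
  have halg : IsAlgebraic ℚ z := (AlgebraicClosure.isAlgebraic ℚ).isAlgebraic z
  refine ((minpoly ℚ z).rootSet_finite Qb).subset ?_
  rintro _ ⟨σ, rfl⟩
  rw [Polynomial.mem_rootSet]
  refine ⟨minpoly.ne_zero halg.isIntegral, ?_⟩
  change Polynomial.aeval ((σ : GQ) z) (minpoly ℚ z) = 0
  rw [Polynomial.aeval_algHom_apply, minpoly.aeval, map_zero]

theorem ncard_orbit_ne_zero (A : ValuationSubring Qb) (z : Qb) :
    (MulAction.orbit ↥(A.inertiaSubgroupIn ℚ) z).ncard ≠ 0 :=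
  Set.ncard_ne_zero_of_mem (MulAction.mem_orbit_self z) (orbit_finite A z)

/-- **Orbit norm.** For `z ≠ 0` with `d` inertia conjugates, `v(z)^d ∈ v(p)^ℤ`. -/
theorem exists_zpow_valuation_orbit (hp : p.Prime) (hA : A.LiesOverPrime p) {z : Qb}
    (hz0 : z ≠ 0) :
    ∃ n : ℤ, A.valuation z ^ (MulAction.orbit ↥(A.inertiaSubgroupIn ℚ) z).ncard
      = A.valuation (p : Qb) ^ n := by
  classical
  have hfin := orbit_finite A z
  have hmem : ∀ w, w ∈ hfin.toFinset ↔ ∃ σ : ↥(A.inertiaSubgroupIn ℚ), (σ : GQ) z = w := by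
    intro w
    rw [Set.Finite.mem_toFinset]
    exact Iff.rfl
  have hNfix : ∀ τ ∈ A.inertiaSubgroupIn ℚ,
      τ (∏ w ∈ hfin.toFinset, w) = ∏ w ∈ hfin.toFinset, w := by
    intro τ hτ
    rw [map_prod]
    refine Finset.prod_bij (fun w _ => τ w) ?_ ?_ ?_ ?_
    · intro w hw
      obtain ⟨σ, rfl⟩ := (hmem w).mp hw
      exact (hmem _).mpr ⟨⟨τ * (σ : GQ), mul_mem hτ σ.2⟩, AlgEquiv.mul_apply τ (σ : GQ) z⟩
    · intro w₁ _ w₂ _ h
      exact τ.injective h
    · intro w hw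
      obtain ⟨σ, rfl⟩ := (hmem w).mp hw
      refine ⟨(τ⁻¹ * (σ : GQ)) z,
        (hmem _).mpr ⟨⟨τ⁻¹ * (σ : GQ), mul_mem (inv_mem hτ) σ.2⟩, rfl⟩, ?_⟩
      rw [← AlgEquiv.mul_apply, mul_inv_cancel_left]
    · intro w _
      rfl
  have hN0 : ∏ w ∈ hfin.toFinset, w ≠ 0 := by
    refine Finset.prod_ne_zero_iff.mpr (fun w hw => ?_)
    obtain ⟨σ, rfl⟩ := (hmem w).mp hw
    exact (_root_.map_ne_zero _).mpr hz0
  have hvN : A.valuation (∏ w ∈ hfin.toFinset, w)
      = A.valuation z ^ (MulAction.orbit ↥(A.inertiaSubgroupIn ℚ) z).ncard := by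
    have hc : ∀ w ∈ hfin.toFinset, A.valuation w = A.valuation z := by
      intro w hw
      obtain ⟨σ, rfl⟩ := (hmem w).mp hw
      exact valuation_apply σ.2 z
    rw [map_prod, Finset.prod_congr rfl hc, Finset.prod_const,
      Set.ncard_eq_toFinset_card _ hfin]
  obtain ⟨n, hn⟩ := Fermat.Agent.S58.helper6024.exists_zpow_valuation_eq A hp hA _ hNfix hN0
  exact ⟨n, by rw [← hvN, hn]⟩

/-- If `z` lies in the layer field of `t`, the number of inertia conjugates of `z` divides the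
number of inertia conjugates of `t`. -/
theorem ncard_orbit_dvd (A : ValuationSubring Qb) (t : X) {z : Qb}
    (hz : ∀ σ ∈ layerGroup A t, σ z = z) :
    (MulAction.orbit ↥(A.inertiaSubgroupIn ℚ) z).ncard
      ∣ (MulAction.orbit ↥(A.inertiaSubgroupIn ℚ) t).ncard := by
  rw [← MulAction.index_stabilizer, ← MulAction.index_stabilizer]
  apply Subgroup.index_dvd_of_le
  intro σ hσ
  rw [MulAction.mem_stabilizer_iff] at hσ ⊢
  exact hz σ.1 (mem_layerGroup.mpr ⟨σ.2, hσ⟩)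

/-- **Discreteness by the orbit norm (D) + (U1).** If `t` has at most `e` inertia conjugates and
`ϖ` in the layer field of `t` satisfies `v(ϖ)^e = v(p)`, then `ϖ` is a uniformiser of the layer:
every nonzero element of the layer field has valuation in `v(ϖ)^ℤ`.  Moreover `t` and `ϖ` have
exactly `e` inertia conjugates (the layer is totally ramified of degree `e` over `K0`, generated
by `ϖ`). -/
theorem isLayerUnif_of_card (hp : p.Prime) (hA : A.LiesOverPrime p) {t : X} (T : Finset X)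
    (hT : ∀ σ ∈ A.inertiaSubgroupIn ℚ, σ • t ∈ T) {e : ℕ} (hcard : T.card ≤ e) {ϖ : Qb}
    (hϖ : ∀ σ ∈ layerGroup A t, σ ϖ = ϖ) (hval : A.valuation ϖ ^ e = A.valuation (p : Qb)) :
    IsLayerUnif A t ϖ ∧ (MulAction.orbit ↥(A.inertiaSubgroupIn ℚ) ϖ).ncard = e ∧
      (MulAction.orbit ↥(A.inertiaSubgroupIn ℚ) t).ncard = e := by
  have hvp1 : A.valuation (p : Qb) < 1 := A.mem_nonunits_iff.mp hA
  have hvp0 : A.valuation (p : Qb) ≠ 0 :=
    (Valuation.ne_zero_iff _).mpr (Nat.cast_ne_zero.mpr hp.ne_zero)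
  have he0 : e ≠ 0 := by
    rintro rfl
    rw [pow_zero] at hval
    exact absurd hval.symm hvp1.ne
  have hϖ0 : ϖ ≠ 0 := by
    rintro rfl
    rw [map_zero, zero_pow he0] at hval
    exact hvp0 hval.symm
  have hpos : 0 < A.valuation ϖ := zero_lt_iff.mpr ((Valuation.ne_zero_iff _).mpr hϖ0)
  have hlt : A.valuation ϖ < 1 := by
    by_contra hcon
    rw [not_lt] at hcon
    have h1 : 1 ≤ A.valuation ϖ ^ e := one_le_pow₀ hcon
    rw [hval] at h1
    exact absurd hvp1 (not_lt.mpr h1)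
  have hinj := zpow_right_injective₀ hpos hlt.ne
  -- the orbit of `t`
  have htsub : MulAction.orbit ↥(A.inertiaSubgroupIn ℚ) t ⊆ (T : Set X) := by
    rintro _ ⟨σ, rfl⟩
    exact hT σ.1 σ.2
  have htfin : (MulAction.orbit ↥(A.inertiaSubgroupIn ℚ) t).Finite := T.finite_toSet.subset htsub
  have htcard : (MulAction.orbit ↥(A.inertiaSubgroupIn ℚ) t).ncard ≤ e := by
    have h1 := Set.ncard_le_ncard htsub T.finite_toSet
    rw [Set.ncard_coe_finset] at h1
    exact h1.trans hcard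
  have htpos : 0 < (MulAction.orbit ↥(A.inertiaSubgroupIn ℚ) t).ncard :=
    Nat.pos_of_ne_zero (Set.ncard_ne_zero_of_mem (MulAction.mem_orbit_self t) htfin)
  -- the orbit of `ϖ`
  have hdϖ := ncard_orbit_dvd A t hϖ
  obtain ⟨n', hn'⟩ := exists_zpow_valuation_orbit hp hA hϖ0
  have hmϖ : ((MulAction.orbit ↥(A.inertiaSubgroupIn ℚ) ϖ).ncard : ℤ) = (e : ℤ) * n' := by
    apply hinj
    change A.valuation ϖ ^ ((MulAction.orbit ↥(A.inertiaSubgroupIn ℚ) ϖ).ncard : ℤ)
      = A.valuation ϖ ^ ((e : ℤ) * n')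
    rw [zpow_natCast, hn', ← hval, zpow_mul, zpow_natCast]
  have hm0 := ncard_orbit_ne_zero A ϖ
  have hem : e ∣ (MulAction.orbit ↥(A.inertiaSubgroupIn ℚ) ϖ).ncard :=
    Int.natCast_dvd_natCast.mp ⟨n', hmϖ⟩
  have hme : (MulAction.orbit ↥(A.inertiaSubgroupIn ℚ) ϖ).ncard = e :=
    le_antisymm ((Nat.le_of_dvd htpos hdϖ).trans htcard)
      (Nat.le_of_dvd (Nat.pos_of_ne_zero hm0) hem)
  have hte : (MulAction.orbit ↥(A.inertiaSubgroupIn ℚ) t).ncard = e :=
    le_antisymm htcard (hme ▸ Nat.le_of_dvd htpos hdϖ)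
  refine ⟨⟨hϖ, hlt, hϖ0, fun y hy hy0 => ?_⟩, hme, hte⟩
  have hdy := ncard_orbit_dvd A t hy
  rw [hte] at hdy
  obtain ⟨d', hd'⟩ := hdy
  obtain ⟨n, hn⟩ := exists_zpow_valuation_orbit hp hA hy0
  refine ⟨d' * n, ?_⟩
  apply (pow_left_inj₀ zero_le zero_le (ncard_orbit_ne_zero A y)).mp
  rw [hn, ← hval]
  conv_lhs => rw [hd']
  rw [← zpow_natCast, ← zpow_natCast, ← zpow_mul, ← zpow_mul]
  congr 1
  push_cast
  ring

/-- **Transitivity (U1').** Under the hypotheses of `isLayerUnif_of_card`, the inertia group acts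
transitively on `T`: every candidate conjugate of `t` is a conjugate. -/
theorem exists_inertia_smul_eq_of_card (hp : p.Prime) (hA : A.LiesOverPrime p) {t : X}
    (T : Finset X) (hT : ∀ σ ∈ A.inertiaSubgroupIn ℚ, σ • t ∈ T) {e : ℕ} (hcard : T.card ≤ e)
    {ϖ : Qb} (hϖ : ∀ σ ∈ layerGroup A t, σ ϖ = ϖ)
    (hval : A.valuation ϖ ^ e = A.valuation (p : Qb)) {t' : X} (ht' : t' ∈ T) :
    ∃ σ ∈ A.inertiaSubgroupIn ℚ, σ • t = t' := by
  obtain ⟨-, -, hte⟩ := isLayerUnif_of_card hp hA T hT hcard hϖ hval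
  have htsub : MulAction.orbit ↥(A.inertiaSubgroupIn ℚ) t ⊆ (T : Set X) := by
    rintro _ ⟨σ, rfl⟩
    exact hT σ.1 σ.2
  have heq : MulAction.orbit ↥(A.inertiaSubgroupIn ℚ) t = (T : Set X) :=
    Set.eq_of_subset_of_ncard_le htsub (by rw [Set.ncard_coe_finset, hte]; exact hcard)
      T.finite_toSet
  have hmem : t' ∈ MulAction.orbit ↥(A.inertiaSubgroupIn ℚ) t := by
    rw [heq]
    exact ht'
  obtain ⟨σ, hσ⟩ := hmem
  exact ⟨σ.1, σ.2, hσ⟩

end orbit

/-! ## Part 6: the layer `K = K0(ζ_p)`: the group `H`, the ring `R1 = A ∩ K` -/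

section base

/-- `H = {σ ∈ I | σ ζ = ζ}`: the inertia group of `A` over `ℚ(ζ)`. -/
noncomputable abbrev cycInertia (A : ValuationSubring Qb) (ζ : Qb) : Subgroup GQ :=
  layerGroup A ζ

variable {p : ℕ} {A : ValuationSubring Qb} {ζ : Qb}

theorem mem_cycInertia {σ : GQ} :
    σ ∈ cycInertia A ζ ↔ σ ∈ A.inertiaSubgroupIn ℚ ∧ σ ζ = ζ := by
  rw [mem_layerGroup, AlgEquiv.smul_def]

theorem cycInertia_le (A : ValuationSubring Qb) (ζ : Qb) :
    cycInertia A ζ ≤ A.inertiaSubgroupIn ℚ := layerGroup_le A ζ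

/-- The ring of integers `R1 = A ∩ K` of `K = K0(ζ)`. -/
noncomputable abbrev R1 (A : ValuationSubring Qb) (ζ : Qb) : Subring Qb := layerRing A ζ

theorem mem_R1 {x : Qb} :
    x ∈ R1 A ζ ↔ x ∈ A ∧ ∀ σ ∈ cycInertia A ζ, σ x = x := Iff.rfl

theorem R1_le (A : ValuationSubring Qb) (ζ : Qb) {x : Qb} (hx : x ∈ R1 A ζ) : x ∈ A := hx.1

/-- The inertia-fixed ring `R0 = A^I` of `S19/helper1821` is contained in `R1`. -/
theorem R0_le_R1 (A : ValuationSubring Qb) (ζ : Qb) : R0 A ≤ R1 A ζ := R0_le_layerRing A ζ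

/-- The field `K = K0(ζ) = Qb ^ H`. -/
noncomputable abbrev cycField (A : ValuationSubring Qb) (ζ : Qb) : IntermediateField ℚ Qb :=
  layerField A ζ

theorem mem_cycField {x : Qb} : x ∈ cycField A ζ ↔ ∀ σ ∈ cycInertia A ζ, σ x = x :=
  mem_layerField

theorem R1_le_cycField {x : Qb} (hx : x ∈ R1 A ζ) : x ∈ cycField A ζ := mem_cycField.mpr hx.2

theorem mem_R1_iff {x : Qb} : x ∈ R1 A ζ ↔ x ∈ A ∧ x ∈ cycField A ζ := mem_layerRing_iff

theorem zeta_mem_R1 (hp : p.Prime) (hζ : IsPrimitiveRoot ζ p) (A : ValuationSubring Qb) :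
    ζ ∈ R1 A ζ :=
  ⟨zeta_mem hp hζ A, fun _ hσ => (mem_cycInertia.mp hσ).2⟩

theorem pi_mem_R1 (hp : p.Prime) (hζ : IsPrimitiveRoot ζ p) (A : ValuationSubring Qb) :
    ζ - 1 ∈ R1 A ζ :=
  sub_mem (zeta_mem_R1 hp hζ A) (R1 A ζ).one_mem

/-- An element of `R1` that is a unit of `A` has its inverse in `R1`. -/
theorem inv_mem_R1 {x : Qb} (hx : x ∈ R1 A ζ) (hu : x ∉ A.nonunits) : x⁻¹ ∈ R1 A ζ :=
  inv_mem_layerRing hx hu

theorem cycU_mem_R1 (hp : p.Prime) (hζ : IsPrimitiveRoot ζ p) (A : ValuationSubring Qb) :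
    cycU p (ζ - 1) ∈ R1 A ζ := cycU_mem (R1 A ζ) p (pi_mem_R1 hp hζ A)

theorem cycW_mem_R1 (hp : p.Prime) (hζ : IsPrimitiveRoot ζ p) (A : ValuationSubring Qb) :
    cycW p (ζ - 1) ∈ R1 A ζ := cycW_mem (R1 A ζ) p (pi_mem_R1 hp hζ A)

theorem cycU_inv_mem_R1 (hp : p.Prime) (hA : A.LiesOverPrime p) (hζ : IsPrimitiveRoot ζ p) :
    (cycU p (ζ - 1))⁻¹ ∈ R1 A ζ := by
  apply inv_mem_R1 (cycU_mem_R1 hp hζ A)
  rw [A.mem_nonunits_iff, valuation_cycU hp hA hζ]
  exact lt_irrefl _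

theorem eps0_mem_R1 (hp : p.Prime) (hA : A.LiesOverPrime p) (hζ : IsPrimitiveRoot ζ p) :
    eps0 p ζ ∈ R1 A ζ :=
  neg_mem (cycU_inv_mem_R1 hp hA hζ)

theorem eps1_mem_R1 (hp : p.Prime) (hA : A.LiesOverPrime p) (hζ : IsPrimitiveRoot ζ p) :
    eps1 p ζ ∈ R1 A ζ :=
  mul_mem (cycW_mem_R1 hp hζ A) (cycU_inv_mem_R1 hp hA hζ)

theorem eps0_inv_mem_R1 (hp : p.Prime) (hζ : IsPrimitiveRoot ζ p) (A : ValuationSubring Qb) :
    (eps0 p ζ)⁻¹ ∈ R1 A ζ := by
  rw [eps0, inv_neg, inv_inv]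
  exact neg_mem (cycU_mem_R1 hp hζ A)

/-- **(B3)** `H` acts trivially on the residue field. -/
theorem apply_sub_mem_nonunits {σ : GQ} (hσ : σ ∈ cycInertia A ζ) {x : Qb} (hx : x ∈ A) :
    σ x - x ∈ A.nonunits :=
  apply_sub_mem_nonunits_layer hσ hx

/-- **(B3)** Every residue class of `A` meets `R1` (indeed `R0 = A^I`): the residue field of
`R1` is the residue field of `A`. -/
theorem exists_sub_mem_nonunits_R1 (hp : p.Prime) (hA : A.LiesOverPrime p) (ζ : Qb) {a : Qb}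
    (ha : a ∈ A) : ∃ r ∈ R1 A ζ, a - r ∈ A.nonunits :=
  exists_sub_mem_nonunits_layer hp hA ζ ha

/-- **(B6)** Hensel for `R1`. -/
theorem exists_root_mem_R1 {P : Qb[X]} (hP : P.Monic) (hcoeff : ∀ i, P.coeff i ∈ R1 A ζ) {a : Qb}
    (ha : a ∈ A) (h0 : P.eval a ∈ A.nonunits) (h1 : P.derivative.eval a ∉ A.nonunits) :
    ∃ b ∈ R1 A ζ, P.IsRoot b ∧ b - a ∈ A.nonunits ∧
      ∀ b', P.IsRoot b' → b' - a ∈ A.nonunits → b' = b :=
  exists_root_mem_layerRing hP hcoeff ha h0 h1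

/-- The units of `R1` are its elements that are units of `A`. -/
theorem isUnit_iff_R1 {x : R1 A ζ} : IsUnit x ↔ (x : Qb) ∉ A.nonunits := isUnit_iff_layerRing

theorem mem_maximalIdeal_R1_iff {x : R1 A ζ} :
    x ∈ maximalIdeal (R1 A ζ) ↔ (x : Qb) ∈ A.nonunits := mem_maximalIdeal_layerRing_iff

/-- **(B3)** The residue field of `R1` is algebraically closed. -/
theorem isAlgClosed_residueField_R1 (hp : p.Prime) (hA : A.LiesOverPrime p) (ζ : Qb) :
    IsAlgClosed (ResidueField (R1 A ζ)) :=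
  isAlgClosed_residueField_layerRing hp hA ζ

end base

/-! ## Part 7: (B4) the cyclotomic character -/

section character

variable {p : ℕ} [NeZero p] {A : ValuationSubring Qb} {ζ : Qb}

/-- The mod `p` cyclotomic character `χ : G_ℚ → (ℤ/p)ˣ`, `σ ζ = ζ ^ χ(σ)`. -/
noncomputable def chi (hζ : IsPrimitiveRoot ζ p) : GQ →* (ZMod p)ˣ := hζ.autToPow ℚ

theorem chi_spec (hζ : IsPrimitiveRoot ζ p) (σ : GQ) :
    σ ζ = ζ ^ (chi hζ σ : ZMod p).val :=
  (hζ.autToPow_spec ℚ σ).symm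

theorem chi_eq_one_iff (hp : p.Prime) (hζ : IsPrimitiveRoot ζ p) (σ : GQ) :
    chi hζ σ = 1 ↔ σ ζ = ζ := by
  have : Fact (1 < p) := ⟨hp.one_lt⟩
  constructor
  · intro h
    rw [chi_spec hζ σ, h, Units.val_one, ZMod.val_one, pow_one]
  · intro h
    have h1 : ζ ^ (chi hζ σ : ZMod p).val = ζ ^ 1 := by rw [← chi_spec hζ σ, h, pow_one]
    have h2 : (chi hζ σ : ZMod p).val = 1 :=
      hζ.pow_inj (ZMod.val_lt _) hp.one_lt h1
    apply Units.ext
    rw [Units.val_one, ← ZMod.natCast_zmod_val (chi hζ σ : ZMod p), h2, Nat.cast_one]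

/-- `H` is the kernel of `χ` on the inertia group. -/
theorem mem_cycInertia_iff_chi (hp : p.Prime) (hζ : IsPrimitiveRoot ζ p) {σ : GQ} :
    σ ∈ cycInertia A ζ ↔ σ ∈ A.inertiaSubgroupIn ℚ ∧ chi hζ σ = 1 := by
  rw [mem_cycInertia, chi_eq_one_iff hp hζ]

/-- `∑_{i<k} ζ^i - k = π ∑_{i<k} ∑_{j<i} ζ^j`. -/
theorem geom_sum_sub_natCast (ζ : Qb) (k : ℕ) :
    ∑ i ∈ Finset.range k, ζ ^ i - (k : Qb)
      = (ζ - 1) * ∑ i ∈ Finset.range k, ∑ j ∈ Finset.range i, ζ ^ j := by
  rw [Finset.mul_sum]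
  have h : ∀ i ∈ Finset.range k, (ζ - 1) * ∑ j ∈ Finset.range i, ζ ^ j = ζ ^ i - 1 :=
    fun i _ => mul_geom_sum ζ i
  rw [Finset.sum_congr rfl h, Finset.sum_sub_distrib]
  simp

/-- **(B4)** `σ π = π (χ(σ) + π c)` with `c ∈ ℤ[ζ]`: the Galois group acts on the uniformiser
through the cyclotomic character modulo `π`. -/
theorem apply_pi (hζ : IsPrimitiveRoot ζ p) (σ : GQ) :
    σ (ζ - 1) = (ζ - 1) * (((chi hζ σ : ZMod p).val : Qb)
      + (ζ - 1) * ∑ i ∈ Finset.range (chi hζ σ : ZMod p).val, ∑ j ∈ Finset.range i, ζ ^ j) := by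
  rw [← geom_sum_sub_natCast, add_sub_cancel, mul_geom_sum, map_sub, map_one, chi_spec hζ σ]

omit [NeZero p] in
theorem geom_double_sum_mem_R1 (hp : p.Prime) (hζ : IsPrimitiveRoot ζ p)
    (A : ValuationSubring Qb) (k : ℕ) :
    ∑ i ∈ Finset.range k, ∑ j ∈ Finset.range i, ζ ^ j ∈ R1 A ζ :=
  sum_mem (fun _ _ => sum_mem (fun j _ => pow_mem (zeta_mem_R1 hp hζ A) j))

/-- **(B4)**, existential form: `σ π = π (k + π c)`, `c ∈ R1`, `k = χ(σ)` in `ℤ/p`. -/
theorem exists_apply_pi_eq (hp : p.Prime) (hζ : IsPrimitiveRoot ζ p) (A : ValuationSubring Qb)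
    (σ : GQ) : ∃ (k : ℕ) (c : Qb), (k : ZMod p) = (chi hζ σ : ZMod p) ∧ c ∈ R1 A ζ ∧
      σ ζ = ζ ^ k ∧ σ (ζ - 1) = (ζ - 1) * ((k : Qb) + (ζ - 1) * c) :=
  ⟨(chi hζ σ : ZMod p).val, _, ZMod.natCast_zmod_val _, geom_double_sum_mem_R1 hp hζ A _,
    chi_spec hζ σ, apply_pi hζ σ⟩

end character

/-! ## Part 8: (B2) `π` is a uniformiser of `K`; `R1` is a discrete valuation ring -/

section discrete

variable {p : ℕ} {A : ValuationSubring Qb} {ζ : Qb}

/-- **(B2)** Every nonzero element of `K = Qb ^ H` has valuation an integral power of `v(π)`: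
`K` is discretely valued with uniformiser `π = ζ - 1` (so `e(K/ℚ_p) = p - 1`). -/
theorem exists_zpow_valuation_eq (hp : p.Prime) (hA : A.LiesOverPrime p)
    (hζ : IsPrimitiveRoot ζ p) {y : Qb} (hy : ∀ σ ∈ cycInertia A ζ, σ y = y) (hy0 : y ≠ 0) :
    ∃ n : ℤ, A.valuation y = A.valuation (ζ - 1) ^ n := by
  have : NeZero p := ⟨hp.ne_zero⟩
  classical
  let S : Subgroup (ZMod p)ˣ := (A.inertiaSubgroupIn ℚ).map (chi hζ)
  have hrep : ∀ a : S, ∃ σ : GQ, σ ∈ A.inertiaSubgroupIn ℚ ∧ chi hζ σ = (a : (ZMod p)ˣ) :=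
    fun a => Subgroup.mem_map.mp a.2
  choose rep hrepI hrepχ using hrep
  have hχS : ∀ τ ∈ A.inertiaSubgroupIn ℚ, chi hζ τ ∈ S :=
    fun τ hτ => Subgroup.mem_map_of_mem (chi hζ) hτ
  -- `τ ∈ I` permutes the conjugates `rep a y`
  have hkey : ∀ (τ : GQ) (hτ : τ ∈ A.inertiaSubgroupIn ℚ) (a : S),
      τ (rep a y) = rep (⟨chi hζ τ, hχS τ hτ⟩ * a) y := by
    intro τ hτ a
    have hmem : (rep (⟨chi hζ τ, hχS τ hτ⟩ * a))⁻¹ * τ * rep a ∈ cycInertia A ζ := by
      rw [mem_cycInertia_iff_chi hp hζ]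
      refine ⟨mul_mem (mul_mem (inv_mem (hrepI _)) hτ) (hrepI a), ?_⟩
      rw [map_mul, map_mul, map_inv, hrepχ, hrepχ]
      simp
    have h := hy _ hmem
    rw [AlgEquiv.mul_apply, AlgEquiv.mul_apply] at h
    have h2 := congrArg (rep (⟨chi hζ τ, hχS τ hτ⟩ * a)) h
    rw [← AlgEquiv.mul_apply, mul_inv_cancel, AlgEquiv.one_apply] at h2
    exact h2
  have hNfix : ∀ τ ∈ A.inertiaSubgroupIn ℚ, τ (∏ a : S, rep a y) = ∏ a : S, rep a y := by
    intro τ hτ
    rw [map_prod]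
    exact Fintype.prod_equiv (Equiv.mulLeft (⟨chi hζ τ, hχS τ hτ⟩ : S))
      (fun a => τ (rep a y)) (fun a => rep a y) (fun a => hkey τ hτ a)
  have hN0 : (∏ a : S, rep a y) ≠ 0 :=
    Finset.prod_ne_zero_iff.mpr (fun a _ => (_root_.map_ne_zero _).mpr hy0)
  have hvN : A.valuation (∏ a : S, rep a y) = A.valuation y ^ Fintype.card S := by
    rw [map_prod, Finset.prod_congr rfl (fun a _ => valuation_apply (hrepI a) y),
      Finset.prod_const, Finset.card_univ]
  obtain ⟨n, hn⟩ := Fermat.Agent.S58.helper6024.exists_zpow_valuation_eq A hp hA _ hNfix hN0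
  have hdvd : Fintype.card S ∣ p - 1 := by
    have h1 := Subgroup.card_subgroup_dvd_card S
    rw [Nat.card_eq_fintype_card, Nat.card_eq_fintype_card, ZMod.card_units_eq_totient,
      Nat.totient_prime hp] at h1
    exact h1
  obtain ⟨d, hd⟩ := hdvd
  refine ⟨d * n, ?_⟩
  have hm0 : Fintype.card S ≠ 0 := Fintype.card_ne_zero
  apply (pow_left_inj₀ zero_le zero_le hm0).mp
  rw [← hvN, hn, ← valuation_pi_pow hp hA hζ, hd, ← zpow_natCast, ← zpow_natCast, ← zpow_mul,
    ← zpow_mul]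
  congr 1
  push_cast
  ring

/-- **(B2)** `π = ζ - 1` is a uniformiser of the layer `K = K0(ζ)`. -/
theorem isLayerUnif_pi (hp : p.Prime) (hA : A.LiesOverPrime p) (hζ : IsPrimitiveRoot ζ p) :
    IsLayerUnif A ζ (ζ - 1) :=
  ⟨(pi_mem_R1 hp hζ A).2, valuation_pi_lt_one hp hA hζ, pi_ne_zero hp hζ,
    fun _ hy hy0 => exists_zpow_valuation_eq hp hA hζ hy hy0⟩

/-- **(B2)** An element of `K` of positive valuation is divisible by `π`:
`v y < 1 ⟹ v y ≤ v π`. -/
theorem valuation_le_pi (hp : p.Prime) (hA : A.LiesOverPrime p) (hζ : IsPrimitiveRoot ζ p)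
    {y : Qb} (hy : ∀ σ ∈ cycInertia A ζ, σ y = y) (hlt : A.valuation y < 1) :
    A.valuation y ≤ A.valuation (ζ - 1) :=
  (isLayerUnif_pi hp hA hζ).valuation_le hy hlt

/-- **(B2)** `π` is a uniformiser of `R1`: an element of `R1` in the maximal ideal of `A` is
`π` times an element of `R1`. -/
theorem pi_dvd_of_mem_nonunits (hp : p.Prime) (hA : A.LiesOverPrime p)
    (hζ : IsPrimitiveRoot ζ p) {x : Qb} (hx : x ∈ R1 A ζ) (hx' : x ∈ A.nonunits) :
    ∃ y ∈ R1 A ζ, x = (ζ - 1) * y :=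
  (isLayerUnif_pi hp hA hζ).dvd_of_mem_nonunits hx hx'

/-- Every nonzero element of `R1` is a power of `π` times a unit of `R1`. -/
theorem exists_eq_pi_pow_mul (hp : p.Prime) (hA : A.LiesOverPrime p) (hζ : IsPrimitiveRoot ζ p)
    {x : Qb} (hx : x ∈ R1 A ζ) (hx0 : x ≠ 0) :
    ∃ (n : ℕ) (u : Qb), u ∈ R1 A ζ ∧ u⁻¹ ∈ R1 A ζ ∧ x = (ζ - 1) ^ n * u :=
  (isLayerUnif_pi hp hA hζ).exists_eq_pow_mul hx hx0

/-- The uniformiser `π = ζ - 1` as an element of `R1`. -/
noncomputable def piR1 (hp : p.Prime) (hζ : IsPrimitiveRoot ζ p) (A : ValuationSubring Qb) :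
    R1 A ζ :=
  ⟨ζ - 1, pi_mem_R1 hp hζ A⟩

@[simp] theorem coe_piR1 (hp : p.Prime) (hζ : IsPrimitiveRoot ζ p) (A : ValuationSubring Qb) :
    ((piR1 hp hζ A : R1 A ζ) : Qb) = ζ - 1 := rfl

theorem piR1_eq_unif (hp : p.Prime) (hA : A.LiesOverPrime p) (hζ : IsPrimitiveRoot ζ p) :
    piR1 hp hζ A = (isLayerUnif_pi hp hA hζ).unif := rfl

/-- `π` is irreducible in `R1`. -/
theorem irreducible_piR1 (hp : p.Prime) (hA : A.LiesOverPrime p) (hζ : IsPrimitiveRoot ζ p) :
    Irreducible (piR1 hp hζ A) :=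
  (isLayerUnif_pi hp hA hζ).irreducible

/-- `R1` is a discrete valuation ring (with uniformiser `π`). -/
theorem isDiscreteValuationRing_R1 (hp : p.Prime) (hA : A.LiesOverPrime p)
    (hζ : IsPrimitiveRoot ζ p) : IsDiscreteValuationRing (R1 A ζ) :=
  (isLayerUnif_pi hp hA hζ).isDiscreteValuationRing

/-- An element of `R1` lies in the maximal ideal iff it is divisible by `π` in `R1`. -/
theorem mem_maximalIdeal_R1_iff_dvd (hp : p.Prime) (hA : A.LiesOverPrime p)
    (hζ : IsPrimitiveRoot ζ p) (x : R1 A ζ) :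
    x ∈ maximalIdeal (R1 A ζ) ↔ piR1 hp hζ A ∣ x :=
  (isLayerUnif_pi hp hA hζ).mem_maximalIdeal_iff_dvd x

/-- `maximalIdeal R1 = (π)`. -/
theorem maximalIdeal_R1_eq (hp : p.Prime) (hA : A.LiesOverPrime p) (hζ : IsPrimitiveRoot ζ p) :
    maximalIdeal (R1 A ζ) = Ideal.span {piR1 hp hζ A} :=
  (isLayerUnif_pi hp hA hζ).maximalIdeal_eq

/-- **(B1)** in `R1`: `p = ε₀ π^(p-1)` with `ε₀` a unit of `R1`, `ε₀ ≡ -1` modulo `π`. -/
theorem natCast_eq_unit_mul_piR1_pow (hp : p.Prime) (hA : A.LiesOverPrime p)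
    (hζ : IsPrimitiveRoot ζ p) :
    ∃ ε : (R1 A ζ)ˣ, ((p : ℕ) : R1 A ζ) = ε * piR1 hp hζ A ^ (p - 1) ∧
      (ε : R1 A ζ) + 1 ∈ maximalIdeal (R1 A ζ) := by
  have hU0 := cycU_ne_zero hp hA hζ
  have he0 : eps0 p ζ ≠ 0 := neg_ne_zero.mpr (inv_ne_zero hU0)
  refine ⟨⟨⟨eps0 p ζ, eps0_mem_R1 hp hA hζ⟩, ⟨(eps0 p ζ)⁻¹, eps0_inv_mem_R1 hp hζ A⟩,
    Subtype.ext (mul_inv_cancel₀ he0), Subtype.ext (inv_mul_cancel₀ he0)⟩, ?_, ?_⟩
  · apply Subtype.ext
    have h := natCast_eq_eps0_mul hp hA hζ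
    simpa using h
  · rw [mem_maximalIdeal_R1_iff]
    change eps0 p ζ + 1 ∈ A.nonunits
    rw [eps0_eq hp hA hζ, neg_add_cancel_comm]
    exact mul_mem_nonunits (pi_mem_nonunits hp hA hζ) (eps1_mem hp hA hζ)

/-- **(B4)** The inertia group acts transitively on the primitive `p`-th roots of unity
(`χ` is surjective on inertia: `K/K0` is totally ramified of degree `p - 1`). -/
theorem exists_inertia_apply_zeta_eq (hp : p.Prime) (hA : A.LiesOverPrime p)
    (hζ : IsPrimitiveRoot ζ p) {ξ : Qb} (hξ : IsPrimitiveRoot ξ p) :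
    ∃ σ ∈ A.inertiaSubgroupIn ℚ, σ ζ = ξ := by
  have h := exists_inertia_smul_eq_of_card hp hA (t := ζ) (primitiveRoots p Qb)
    (fun σ _ => by
      rw [mem_primitiveRoots hp.pos, AlgEquiv.smul_def]
      exact hζ.map_of_injective σ.injective)
    (e := p - 1) (by rw [hζ.card_primitiveRoots, Nat.totient_prime hp])
    (ϖ := ζ - 1) (pi_mem_R1 hp hζ A).2 (valuation_pi_pow hp hA hζ)
    ((mem_primitiveRoots hp.pos).mpr hξ)
  simpa [AlgEquiv.smul_def] using h

/-- `ζ` has exactly `p - 1` inertia conjugates. -/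
theorem ncard_orbit_zeta (hp : p.Prime) (hA : A.LiesOverPrime p) (hζ : IsPrimitiveRoot ζ p) :
    (MulAction.orbit ↥(A.inertiaSubgroupIn ℚ) ζ).ncard = p - 1 :=
  (isLayerUnif_of_card hp hA (t := ζ) (primitiveRoots p Qb)
    (fun σ _ => by
      rw [mem_primitiveRoots hp.pos, AlgEquiv.smul_def]
      exact hζ.map_of_injective σ.injective)
    (e := p - 1) (by rw [hζ.card_primitiveRoots, Nat.totient_prime hp])
    (ϖ := ζ - 1) (pi_mem_R1 hp hζ A).2 (valuation_pi_pow hp hA hζ)).2.2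

end discrete

/-! ## Part 9: the wild layers `L = K0(y)` and `L' = K0(ζ, y)`, `y^p = 1 + p c` -/

section wild

variable {p : ℕ} {A : ValuationSubring Qb} {c y ζ : Qb}

/-- A `p`-th root of a `1`-unit is a unit. -/
theorem valuation_root (hp : p.Prime) (hA : A.LiesOverPrime p) (hc : c ∈ A)
    (hy : y ^ p = 1 + (p : Qb) * c) : A.valuation y = 1 := by
  have h1 : A.valuation ((p : Qb) * c) < 1 := A.mem_nonunits_iff.mp (mul_mem_nonunits hA hc)
  have h : A.valuation y ^ p = 1 := by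
    rw [← map_pow, hy]
    exact Valuation.map_one_add_of_lt _ h1
  exact (pow_eq_one_iff.mp h).resolve_right hp.ne_zero

/-- **Eisenstein identity** for `x = y - 1`, `y^p = 1 + p c`: `x^p = p (c - x U(x))`,
`U(x) = 1 + x W(x)`. -/
theorem root_sub_one_pow_eq (hp : p.Prime) (hy : y ^ p = 1 + (p : Qb) * c) :
    (y - 1) ^ p = (p : Qb) * (c - (y - 1) * cycU p (y - 1)) := by
  have h := one_add_pow_sub_one (R := Qb) hp (y - 1)
  rw [add_sub_cancel, hy, add_sub_cancel_left] at h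
  obtain ⟨n, rfl⟩ : ∃ n, p = n + 1 := ⟨p - 1, by have := hp.pos; omega⟩
  rw [Nat.add_sub_cancel] at h
  rw [pow_succ]
  linear_combination -h

theorem valuation_root_sub_one_lt_one (hp : p.Prime) (hA : A.LiesOverPrime p) (hc : c ∈ A)
    (hy : y ^ p = 1 + (p : Qb) * c) : A.valuation (y - 1) < 1 := by
  have hyA : y ∈ A := (A.valuation_le_one_iff _).mp (valuation_root hp hA hc hy).le
  have hxA : y - 1 ∈ A := sub_mem hyA A.one_mem
  by_contra hcon
  have h1 : A.valuation (y - 1) = 1 :=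
    le_antisymm ((A.valuation_le_one_iff _).mpr hxA) (not_lt.mp hcon)
  have h2 : A.valuation ((y - 1) ^ p) = 1 := by rw [map_pow, h1, one_pow]
  rw [root_sub_one_pow_eq hp hy] at h2
  have h3 : (p : Qb) * (c - (y - 1) * cycU p (y - 1)) ∈ A.nonunits :=
    mul_mem_nonunits hA (sub_mem hc (mul_mem hxA (cycU_mem A p hxA)))
  rw [A.mem_nonunits_iff, h2] at h3
  exact lt_irrefl _ h3

/-- **(I1), valuation**: for `y^p = 1 + p c`, `c` a unit, `x = y - 1` has `v(x)^p = v(p)`. -/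
theorem valuation_root_sub_one_pow (hp : p.Prime) (hA : A.LiesOverPrime p)
    (hvc : A.valuation c = 1) (hy : y ^ p = 1 + (p : Qb) * c) :
    A.valuation (y - 1) ^ p = A.valuation (p : Qb) := by
  have hc : c ∈ A := (A.valuation_le_one_iff _).mp hvc.le
  have hyA : y ∈ A := (A.valuation_le_one_iff _).mp (valuation_root hp hA hc hy).le
  have hxA : y - 1 ∈ A := sub_mem hyA A.one_mem
  have hx1 : y - 1 ∈ A.nonunits :=
    A.mem_nonunits_iff.mpr (valuation_root_sub_one_lt_one hp hA hc hy)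
  have h1 : A.valuation ((y - 1) * cycU p (y - 1)) < A.valuation c := by
    rw [hvc]
    exact A.mem_nonunits_iff.mp (mul_mem_nonunits hx1 (cycU_mem A p hxA))
  rw [← map_pow, root_sub_one_pow_eq hp hy, map_mul, Valuation.map_sub_eq_of_lt_left _ h1, hvc,
    mul_one]

/-- **(I1)** The layer `L = K0(y)`, `y^p = 1 + p c` with `c` an inertia-fixed unit: `ϖ = y - 1`
is a uniformiser, `v(ϖ)^p = v(p)`, and `y` has exactly `p` inertia conjugates
(`L/K0` is totally ramified of degree `p`). -/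
theorem isLayerUnif_root_sub_one (hp : p.Prime) (hA : A.LiesOverPrime p)
    (hcI : ∀ σ ∈ A.inertiaSubgroupIn ℚ, σ c = c) (hvc : A.valuation c = 1)
    (hy : y ^ p = 1 + (p : Qb) * c) :
    IsLayerUnif A y (y - 1) ∧ (MulAction.orbit ↥(A.inertiaSubgroupIn ℚ) (y - 1)).ncard = p ∧
      (MulAction.orbit ↥(A.inertiaSubgroupIn ℚ) y).ncard = p := by
  classical
  refine isLayerUnif_of_card hp hA (nthRoots p (1 + (p : Qb) * c)).toFinset ?_
    ((Multiset.toFinset_card_le _).trans (card_nthRoots p _)) ?_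
    (valuation_root_sub_one_pow hp hA hvc hy)
  · intro σ hσ
    rw [Multiset.mem_toFinset, mem_nthRoots hp.pos, AlgEquiv.smul_def, ← map_pow, hy, map_add,
      map_one, map_mul, map_natCast, hcI σ hσ]
  · intro σ hσ
    have h := (mem_layerGroup.mp hσ).2
    rw [AlgEquiv.smul_def] at h
    rw [map_sub, map_one, h]

theorem mem_layerGroup_pair {σ : GQ} :
    σ ∈ layerGroup A (ζ, y) ↔ σ ∈ A.inertiaSubgroupIn ℚ ∧ σ ζ = ζ ∧ σ y = y := by
  rw [mem_layerGroup, Prod.smul_mk, Prod.mk.injEq, AlgEquiv.smul_def, AlgEquiv.smul_def]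

/-- **(I2), valuation**: `ϖ = (ζ - 1)/(y - 1)` has `v(ϖ)^p = v(ζ - 1)` and
`v(ϖ)^(p(p-1)) = v(p)`. -/
theorem valuation_wild_unif_pow (hp : p.Prime) (hA : A.LiesOverPrime p)
    (hζ : IsPrimitiveRoot ζ p) (hvc : A.valuation c = 1) (hy : y ^ p = 1 + (p : Qb) * c) :
    A.valuation ((ζ - 1) / (y - 1)) ^ p = A.valuation (ζ - 1) ∧
      A.valuation ((ζ - 1) / (y - 1)) ^ (p * (p - 1)) = A.valuation (p : Qb) := by
  have hx := valuation_root_sub_one_pow hp hA hvc hy
  have hπ := valuation_pi_pow hp hA hζ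
  have hπ0 : A.valuation (ζ - 1) ≠ 0 := (valuation_pi_pos hp hζ A).ne'
  have h1 : A.valuation ((ζ - 1) / (y - 1)) ^ p = A.valuation (ζ - 1) := by
    rw [map_div₀, div_pow, hx, ← hπ]
    obtain ⟨n, rfl⟩ : ∃ n, p = n + 1 := ⟨p - 1, by have := hp.pos; omega⟩
    rw [Nat.add_sub_cancel, pow_succ, mul_div_assoc, mul_comm,
      div_mul_cancel₀ _ (pow_ne_zero n hπ0)]
  exact ⟨h1, by rw [pow_mul, h1, hπ]⟩

/-- **(I2)** The layer `L' = K0(ζ, y)`, `ζ` a primitive `p`-th root of unity, `y^p = 1 + p c`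
with `c` an inertia-fixed unit: `ϖ = (ζ - 1)/(y - 1)` is a uniformiser, `v(ϖ)^(p(p-1)) = v(p)`,
and `(ζ, y)` has exactly `p(p-1)` inertia conjugates (`L'/K0` is totally ramified of degree
`p(p-1)`). -/
theorem isLayerUnif_wild (hp : p.Prime) (hA : A.LiesOverPrime p) (hζ : IsPrimitiveRoot ζ p)
    (hcI : ∀ σ ∈ A.inertiaSubgroupIn ℚ, σ c = c) (hvc : A.valuation c = 1)
    (hy : y ^ p = 1 + (p : Qb) * c) :
    IsLayerUnif A (ζ, y) ((ζ - 1) / (y - 1)) ∧
      (MulAction.orbit ↥(A.inertiaSubgroupIn ℚ) ((ζ - 1) / (y - 1))).ncard = p * (p - 1) ∧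
      (MulAction.orbit ↥(A.inertiaSubgroupIn ℚ) (ζ, y)).ncard = p * (p - 1) := by
  classical
  refine isLayerUnif_of_card hp hA
    (primitiveRoots p Qb ×ˢ (nthRoots p (1 + (p : Qb) * c)).toFinset) ?_ ?_ ?_
    (valuation_wild_unif_pow hp hA hζ hvc hy).2
  · intro σ hσ
    rw [Prod.smul_mk, Finset.mem_product, mem_primitiveRoots hp.pos, Multiset.mem_toFinset,
      mem_nthRoots hp.pos, AlgEquiv.smul_def, AlgEquiv.smul_def, ← map_pow, hy, map_add,
      map_one, map_mul, map_natCast, hcI σ hσ]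
    exact ⟨hζ.map_of_injective σ.injective, rfl⟩
  · rw [Finset.card_product, hζ.card_primitiveRoots, Nat.totient_prime hp, mul_comm]
    exact Nat.mul_le_mul ((Multiset.toFinset_card_le _).trans (card_nthRoots p _)) le_rfl
  · intro σ hσ
    obtain ⟨-, h1, h2⟩ := mem_layerGroup_pair.mp hσ
    rw [map_div₀, map_sub, map_sub, map_one, h1, h2]

/-- **(I1), transitivity**: every `p`-th root of `1 + p c` is an inertia conjugate of `y`. -/
theorem exists_inertia_apply_root_eq (hp : p.Prime) (hA : A.LiesOverPrime p)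
    (hcI : ∀ σ ∈ A.inertiaSubgroupIn ℚ, σ c = c) (hvc : A.valuation c = 1)
    (hy : y ^ p = 1 + (p : Qb) * c) {w : Qb} (hw : w ^ p = 1 + (p : Qb) * c) :
    ∃ σ ∈ A.inertiaSubgroupIn ℚ, σ y = w := by
  classical
  have h := exists_inertia_smul_eq_of_card hp hA (t := y)
    (nthRoots p (1 + (p : Qb) * c)).toFinset
    (fun σ hσ => by
      rw [Multiset.mem_toFinset, mem_nthRoots hp.pos, AlgEquiv.smul_def, ← map_pow, hy, map_add,
        map_one, map_mul, map_natCast, hcI σ hσ])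
    ((Multiset.toFinset_card_le _).trans (card_nthRoots p _))
    (ϖ := y - 1)
    (fun σ hσ => by
      have h := (mem_layerGroup.mp hσ).2
      rw [AlgEquiv.smul_def] at h
      rw [map_sub, map_one, h])
    (valuation_root_sub_one_pow hp hA hvc hy)
    (t' := w) (by rw [Multiset.mem_toFinset, mem_nthRoots hp.pos]; exact hw)
  simpa [AlgEquiv.smul_def] using h

/-- **(I2), transitivity**: the inertia group acts transitively on the pairs (primitive `p`-th
root of unity, `p`-th root of `1 + p c`). -/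
theorem exists_inertia_apply_pair_eq (hp : p.Prime) (hA : A.LiesOverPrime p)
    (hζ : IsPrimitiveRoot ζ p) (hcI : ∀ σ ∈ A.inertiaSubgroupIn ℚ, σ c = c)
    (hvc : A.valuation c = 1) (hy : y ^ p = 1 + (p : Qb) * c) {ξ w : Qb}
    (hξ : IsPrimitiveRoot ξ p) (hw : w ^ p = 1 + (p : Qb) * c) :
    ∃ σ ∈ A.inertiaSubgroupIn ℚ, σ ζ = ξ ∧ σ y = w := by
  classical
  have h := exists_inertia_smul_eq_of_card hp hA (t := (ζ, y))
    (primitiveRoots p Qb ×ˢ (nthRoots p (1 + (p : Qb) * c)).toFinset)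
    (fun σ hσ => by
      rw [Prod.smul_mk, Finset.mem_product, mem_primitiveRoots hp.pos, Multiset.mem_toFinset,
        mem_nthRoots hp.pos, AlgEquiv.smul_def, AlgEquiv.smul_def, ← map_pow, hy, map_add,
        map_one, map_mul, map_natCast, hcI σ hσ]
      exact ⟨hζ.map_of_injective σ.injective, rfl⟩)
    (e := p * (p - 1))
    (by
      rw [Finset.card_product, hζ.card_primitiveRoots, Nat.totient_prime hp, mul_comm]
      exact Nat.mul_le_mul ((Multiset.toFinset_card_le _).trans (card_nthRoots p _)) le_rfl)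
    (ϖ := (ζ - 1) / (y - 1))
    (fun σ hσ => by
      obtain ⟨-, h1, h2⟩ := mem_layerGroup_pair.mp hσ
      rw [map_div₀, map_sub, map_sub, map_one, h1, h2])
    (valuation_wild_unif_pow hp hA hζ hvc hy).2
    (t' := (ξ, w))
    (by
      rw [Finset.mem_product, mem_primitiveRoots hp.pos, Multiset.mem_toFinset,
        mem_nthRoots hp.pos]
      exact ⟨hξ, hw⟩)
  obtain ⟨σ, hσ, h1⟩ := h
  rw [Prod.smul_mk, Prod.mk.injEq, AlgEquiv.smul_def, AlgEquiv.smul_def] at h1
  exact ⟨σ, hσ, h1⟩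

/-- **The wild generator**: there is `σ` in the inertia group of `K = K0(ζ)` with `σ y = ζ y`
(a generator of `Gal(L'/K)`, `L' = K(y)`). -/
theorem exists_wild_generator (hp : p.Prime) (hA : A.LiesOverPrime p)
    (hζ : IsPrimitiveRoot ζ p) (hcI : ∀ σ ∈ A.inertiaSubgroupIn ℚ, σ c = c)
    (hvc : A.valuation c = 1) (hy : y ^ p = 1 + (p : Qb) * c) :
    ∃ σ ∈ cycInertia A ζ, σ y = ζ * y := by
  obtain ⟨σ, hσ, h1, h2⟩ := exists_inertia_apply_pair_eq hp hA hζ hcI hvc hy hζ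
    (w := ζ * y) (by rw [mul_pow, hζ.pow_eq_one, one_mul, hy])
  exact ⟨σ, mem_cycInertia.mpr ⟨hσ, h1⟩, h2⟩

/-- **The tame generators**: for every primitive `p`-th root of unity `ξ` there is `σ` in the
inertia group fixing `y` with `σ ζ = ξ` (`Gal(L'/L)`, `L = K0(y)`, is all of `(ℤ/p)ˣ`). -/
theorem exists_tame_generator (hp : p.Prime) (hA : A.LiesOverPrime p)
    (hζ : IsPrimitiveRoot ζ p) (hcI : ∀ σ ∈ A.inertiaSubgroupIn ℚ, σ c = c)
    (hvc : A.valuation c = 1) (hy : y ^ p = 1 + (p : Qb) * c) {ξ : Qb}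
    (hξ : IsPrimitiveRoot ξ p) :
    ∃ σ ∈ layerGroup A y, σ ζ = ξ := by
  obtain ⟨σ, hσ, h1, h2⟩ := exists_inertia_apply_pair_eq hp hA hζ hcI hvc hy hξ hy
  exact ⟨σ, mem_layerGroup.mpr ⟨hσ, by rw [AlgEquiv.smul_def]; exact h2⟩, h1⟩

end wild

end Fermat.Agent.S44.helper2530
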