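import Fermat.Agent.S44.helper3130_Spec
import Fermat.Agent.S44.helper2530_BaseField

/-!
# Seam (T5) of the S44 Spec: the mod `p` cyclotomic character is nontrivial on inertia at `p`

`seam_T5 : Fermat.Agent.S44.helper3130.Stmt_CycloRam`.  Proof: the inertia group of a valuation
subring `A` of `ℚ̄` over `p` acts transitively on the primitive `p`-th roots of unity
(`exists_inertia_apply_zeta_eq` of the (BASE) block: `ℚ̄^I(ζ_p)` is totally ramified of degree
`p - 1` over `ℚ̄^I`), so some `σ ∈ I` has `σ ζ = ζ ^ 2`, i.e. `χ(σ) = 2 ≠ 1`.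
-/

set_option autoImplicit false

namespace Fermat.Agent.S44.helper2530

local notation "Qb" => AlgebraicClosure ℚ
local notation "GQ" => (AlgebraicClosure ℚ ≃ₐ[ℚ] AlgebraicClosure ℚ)

/-- For every integer `k` prime to `p` some inertia element acts on the `p`-th roots of unity by
`ζ ↦ ζ ^ k`: the mod `p` cyclotomic character is surjective on the inertia group at `p`. -/
theorem exists_inertia_isCycloExp {p : ℕ} (hp : p.Prime) {A : ValuationSubring Qb}
    (hA : A.LiesOverPrime p) {k : ℕ} (hk : k.Coprime p) :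
    ∃ σ ∈ A.inertiaSubgroupIn ℚ, Fermat.Agent.S44.helper3130.IsCycloExp p σ (k : ℤ) := by
  have : NeZero p := ⟨hp.ne_zero⟩
  have : NeZero ((p : ℕ) : ℚ) := ⟨Nat.cast_ne_zero.mpr hp.ne_zero⟩
  obtain ⟨ζ, hζ⟩ := HasEnoughRootsOfUnity.exists_primitiveRoot Qb p
  obtain ⟨σ, hσ, hσζ⟩ := exists_inertia_apply_zeta_eq hp hA hζ (hζ.pow_of_coprime k hk)
  refine ⟨σ, hσ, fun ω hω => ?_⟩
  obtain ⟨i, -, rfl⟩ := hζ.eq_pow_of_pow_eq_one hω
  rw [map_pow, hσζ, zpow_natCast, ← pow_mul, ← pow_mul, mul_comm]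

/-- **Seam (T5).** -/
theorem seam_T5 : Fermat.Agent.S44.helper3130.Stmt_CycloRam := by
  intro p hp hp5 A hA
  have hk : (2 : ℕ).Coprime p := by
    rw [Nat.coprime_comm]
    exact (Nat.coprime_primes hp Nat.prime_two).mpr (by omega)
  obtain ⟨σ, hσ, h⟩ := exists_inertia_isCycloExp hp hA hk
  refine ⟨σ, hσ, 2, h, ?_⟩
  intro hdvd
  have h1 : (p : ℤ) ≤ 1 := Int.le_of_dvd one_pos (by simpa using hdvd)
  omega

end Fermat.Agent.S44.helper2530
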