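/-
S44 (row 38), leaf L8-OCCDOWN (seat helper259): "occurrence downwards".

A nonzero `p`-torsion class of `J₀(M)` which is an eigenvector of the Hecke operators `T_l`
(`l ∤ M`, `l` in a set `good` of primes) with integer eigenvalues `a l` forces the ideal of the
FULL Hecke algebra of `S₂(Γ₀(M))` generated by `p` and the `T_l - a l` to be proper.  This is the
input of the Deligne–Serre lifting at the exit of S44 (p-old exit): a proper ideal of the Hecke
algebra containing `p` and the `T_l - a l` gives a normalised eigenform of level `M` whose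
eigenvalues are congruent to the `a l`.

Proof, from landed material only:
* `S31.helper2756.exists_k5` (modulus `p`): `ι : Λ →+ J₀(M)`, `p • ι = 0`, `ker ι = p Λ`,
  Hecke-equivariant, where `Λ = Lam M` is the lattice of integral parabolic homs;
* counting: `rank Λ ≥ dim_ℂ Hom_par(Γ₀(M), ℂ) = 2 dim S₂` (S31 `span_range_jLam`, S21),
  `#J₀(M)[p] = p ^ (2 genus)` (landed S27) and `genus = dim S₂` (S29 `helper659`), hence `ι` is
  ONTO the `p`-torsion;
* `Λ` is a module over the full Hecke algebra (`S31.helper6356.heckeLatticeHom`), and the class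
  of a preimage of the eigenclass in `Λ / p Λ` is a nonzero vector killed by the generators.
-/
import Fermat.Agent.S31.helper2756_MultMer
import Fermat.Agent.S31.helper6356_LatticeHom
import Fermat.Agent.S37.helper8426_HeckeInputs
import Fermat.Agent.S29.helper659_GenusEq
import Fermat.Agent.S29.helper9921_SurjCountGamma0
import Fermat.Agent.S17.helper1362_TorsionFinite
import Fermat.Agent.S27

set_option autoImplicit false

open ModularCurve AlgebraicCurve CongruenceSubgroup
open scoped MatrixGroups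

namespace Fermat.Agent.S44.helper259

noncomputable section

/-! ### Abstract counting lemma -/

/-- If `ι : Λ →+ J` has kernel `p Λ` on a finite free `ℤ`-module `Λ` and the `p`-torsion of `J`
has at most `p ^ rank Λ` elements, then `ι` is onto the `p`-torsion of `J`. -/
theorem exists_preimage_of_card_le
    {Λ J : Type*} [AddCommGroup Λ] [Module.Finite ℤ Λ] [Module.Free ℤ Λ] [AddCommGroup J]
    {p : ℕ} (ι : Λ →+ J) (hιp : ∀ ψ, p • ι ψ = 0)
    (hker : ∀ ψ, ι ψ = 0 → ∃ φ : Λ, ψ = p • φ)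
    (hfin : Set.Finite {y : J | p • y = 0})
    (hcard : Nat.card {y : J | p • y = 0} ≤ p ^ Module.finrank ℤ Λ) :
    ∀ y : J, p • y = 0 → ∃ ψ : Λ, ι ψ = y := by
  classical
  let I := Module.Free.ChooseBasisIndex ℤ Λ
  let b : Module.Basis I ℤ Λ := Module.Free.chooseBasis ℤ Λ
  have : Finite {y : J | p • y = 0} := hfin
  let f : (I → Fin p) → {y : J | p • y = 0} := fun c =>
    ⟨ι (∑ i, ((c i : ℕ) : ℤ) • b i), hιp _⟩
  have hinj : Function.Injective f := by
    intro c c' h
    have h1 : ι (∑ i, ((c i : ℕ) : ℤ) • b i) = ι (∑ i, ((c' i : ℕ) : ℤ) • b i) :=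
      congrArg Subtype.val h
    have h2 : ι (∑ i, ((c i : ℕ) : ℤ) • b i - ∑ i, ((c' i : ℕ) : ℤ) • b i) = 0 := by
      rw [map_sub, h1, sub_self]
    obtain ⟨φ, hφ⟩ := hker _ h2
    funext i
    have h3 := congrArg (fun v => b.repr v i) hφ
    simp only [map_sub, map_sum, map_smul, Module.Basis.repr_self, Finsupp.coe_sub,
      Finsupp.coe_finsetSum, Pi.sub_apply, Finset.sum_apply, map_nsmul] at h3
    have h4 : ∀ c'' : I → Fin p,
        (∑ j, (((c'' j : ℕ) : ℤ) • (Finsupp.single j (1 : ℤ) : I →₀ ℤ)) i) =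
          ((c'' i : ℕ) : ℤ) := by
      intro c''
      rw [Finset.sum_eq_single i]
      · simp
      · intro j _ hj
        simp [hj]
      · intro hi
        exact absurd (Finset.mem_univ i) hi
    simp only [Finsupp.smul_apply, smul_eq_mul] at h3 h4
    rw [h4 c, h4 c'] at h3
    have h5 : (p : ℤ) ∣ ((c i : ℕ) : ℤ) - ((c' i : ℕ) : ℤ) := ⟨b.repr φ i, by rw [h3]; simp⟩
    have h6 : ((c i : ℕ) : ℤ) = ((c' i : ℕ) : ℤ) := by
      have hc : ((c i : ℕ) : ℤ) < p := by exact_mod_cast (c i).2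
      have hc' : ((c' i : ℕ) : ℤ) < p := by exact_mod_cast (c' i).2
      have hc0 : (0 : ℤ) ≤ ((c i : ℕ) : ℤ) := Int.natCast_nonneg _
      have hc0' : (0 : ℤ) ≤ ((c' i : ℕ) : ℤ) := Int.natCast_nonneg _
      have h7 := Int.eq_zero_of_abs_lt_dvd h5 (by rw [abs_lt]; constructor <;> linarith)
      linarith
    exact Fin.ext (by exact_mod_cast h6)
  have hcard' : Nat.card {y : J | p • y = 0} ≤ Nat.card (I → Fin p) := by
    have e : Nat.card (I → Fin p) = p ^ Module.finrank ℤ Λ := by
      rw [Nat.card_fun, Nat.card_fin, Nat.card_eq_fintype_card,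
        Module.finrank_eq_card_chooseBasisIndex]
    rw [e]
    exact hcard
  have hbij := hinj.bijective_of_nat_card_le hcard'
  intro y hy
  obtain ⟨c, hc⟩ := hbij.2 ⟨y, hy⟩
  exact ⟨_, congrArg Subtype.val hc⟩

/-! ### The counting inputs at level `M` -/

section Count

variable (M : ℕ) [NeZero M]

open Fermat.Agent.S31.helper6356

/-- `dim_ℂ Hom_par(Γ₀(M), ℂ) ≤ rank_ℤ Λ`: the integral parabolic homs span the complex ones. -/
theorem finrank_Wpar_le_finrank_Lam :
    Module.finrank ℂ (Wpar M) ≤ Module.finrank ℤ (Lam M) := by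
  classical
  let I := Module.Free.ChooseBasisIndex ℤ (Lam M)
  let b : Module.Basis I ℤ (Lam M) := Module.Free.chooseBasis ℤ (Lam M)
  have hspan : Submodule.span ℂ (Set.range fun i => jLam M (b i)) = ⊤ := by
    rw [eq_top_iff, ← span_range_jLam M, Submodule.span_le]
    rintro _ ⟨ψ, rfl⟩
    have hψ : ψ = ∑ i, b.repr ψ i • b i := (b.sum_repr ψ).symm
    rw [hψ, map_sum]
    refine Submodule.sum_mem _ fun i _ => ?_
    rw [map_zsmul]
    have : (b.repr ψ i) • jLam M (b i) = ((b.repr ψ i : ℤ) : ℂ) • jLam M (b i) :=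
      (Int.cast_smul_eq_zsmul ℂ _ _).symm
    rw [this]
    exact Submodule.smul_mem _ _ (Submodule.subset_span ⟨i, rfl⟩)
  calc Module.finrank ℂ (Wpar M)
      = Module.finrank ℂ (⊤ : Submodule ℂ (Wpar M)) := (finrank_top ℂ (Wpar M)).symm
    _ = (Set.range fun i => jLam M (b i)).finrank ℂ := by rw [Set.finrank, hspan]
    _ ≤ Fintype.card I := finrank_range_le_card _
    _ = Module.finrank ℤ (Lam M) := (Module.finrank_eq_card_chooseBasisIndex ℤ (Lam M)).symm

/-- The `p`-torsion of `J₀(M)` has at most `p ^ rank Λ` elements. -/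
theorem card_torsion_JZero_le {p : ℕ} (hp : p.Prime) :
    Nat.card {y : JZero M | p • y = 0} ≤ p ^ Module.finrank ℤ (Lam M) := by
  have : Fact p.Prime := ⟨hp⟩
  have := Fermat.Agent.S17.helper1362.isCurveOver_modular M
  have := Fermat.Agent.S17.helper1362.essFiniteType_modular M
  have hS27 := Fermat.Agent.S27.result (AlgebraicClosure ℚ) (modularFunctionFieldBar M) p 1
  rw [pow_one, mul_one] at hS27
  have hset : {y : JZero M | p • y = 0} =
      ((Pic0.torsion (AlgebraicClosure ℚ) (modularFunctionFieldBar M) p : AddSubgroup _) :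
        Set (JZero M)) := by
    ext y
    show p • y = 0 ↔ y ∈ Pic0.torsion (AlgebraicClosure ℚ) (modularFunctionFieldBar M) p
    rw [Pic0.mem_torsion, natCast_zsmul]
  have hcard : Nat.card {y : JZero M | p • y = 0} =
      p ^ (2 * genusFF (AlgebraicClosure ℚ) (modularFunctionFieldBar M)) := by
    rw [← hS27, hset]
    rfl
  rw [hcard, Fermat.Agent.S29.helper659.genusFF_modularFunctionFieldBar M,
    ← Fermat.Agent.S29.helper9921.finrank_parabolicHoms_Gamma0 M]
  exact Nat.pow_le_pow_right hp.pos (finrank_Wpar_le_finrank_Lam M)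

end Count

/-! ### The main statement -/

section Main

variable (M : ℕ) [NeZero M]

open Fermat.Agent.S31.helper6356 Fermat.Agent.S31.helper2756

/-- The generators of the congruence ideal: `p` and the `T_l - a l`, `l ∤ M` prime, `good l`. -/
def eigenGens (p : ℕ) (good : ℕ → Prop) (a : ℕ → ℤ) :
    Set (CuspForm.heckeAlgebra M 2 (∅ : Set ℕ)) :=
  {(p : CuspForm.heckeAlgebra M 2 (∅ : Set ℕ))} ∪
    {t | ∃ (l : ℕ) (hl : l.Prime) (hlM : ¬ l ∣ M), good l ∧
      t = CuspForm.heckeAlgebra.T hl hlM (Set.notMem_empty l) -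
        (a l : CuspForm.heckeAlgebra M 2 (∅ : Set ℕ))}

/-- **Surjectivity of the Kummer lattice map onto the `p`-torsion of `J₀(M)`**: there is an
additive map `ι : Λ → J₀(M)` from the lattice of integral parabolic homs with `p • ι = 0`,
kernel `p Λ`, image ALL of `J₀(M)[p]`, and intertwining the Hecke algebra action
(`heckeLatticeHom`) at `T_l` with `heckeOperatorBar M l` for every prime `l ∤ M`. -/
theorem exists_iota_onto {p : ℕ} (hp : p.Prime) :
    ∃ ι : Lam M →+ JZero M,
      (∀ ψ, p • ι ψ = 0) ∧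
      (∀ ψ, ι ψ = 0 ↔ ∃ φ : Lam M, ψ = p • φ) ∧
      (∀ y : JZero M, p • y = 0 → ∃ ψ : Lam M, ι ψ = y) ∧
      (∀ (l : ℕ) (hl : l.Prime) (hlM : ¬ l ∣ M) (ψ : Lam M),
        ι (heckeLatticeHom M (∅ : Set ℕ)
            (CuspForm.heckeAlgebra.T hl hlM (Set.notMem_empty l)) ψ) =
          heckeOperatorBar M ⟨l, hl⟩ (ι ψ)) := by
  have := Fermat.Agent.S37.helper1478.hasPrincipalDivisors_level M
  obtain ⟨Mult, hMult⟩ := exists_multSpec_of_desc (N := M) (n := p) hp.ne_zero
    (Fermat.Agent.S29.helper288.ratioInFC M) (Fermat.Agent.S29.helper3932.descC M p)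
  obtain ⟨ι, hιp, hιker, hιT⟩ := exists_k5 (N := M) (n := p) hp.ne_zero hMult
  refine ⟨ι, hιp, hιker, ?_, ?_⟩
  · exact exists_preimage_of_card_le ι hιp (fun ψ h => (hιker ψ).1 h)
      (Fermat.Agent.S29.helper288.finite_torsion_JZero M hp.ne_zero)
      (card_torsion_JZero_le M hp)
  · intro l hl hlM ψ
    have : NeZero l := ⟨hl.ne_zero⟩
    exact hιT l hl hlM (Fermat.Agent.S37.helper8426.heckeInputsAlong M l) ψ _
      (coe_heckeLatticeHom_T M (∅ : Set ℕ) hl hlM (Set.notMem_empty l) ψ)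

/-- **(OCC-DOWN).** A nonzero `p`-torsion class of `J₀(M)` which is an eigenvector of the
`T_l` (`l ∤ M` prime, `good l`) with eigenvalues `a l` makes the ideal of the full Hecke algebra
of `S₂(Γ₀(M))` generated by `p` and the `T_l - a l` proper. -/
theorem span_ne_top_of_torsion_eigen {p : ℕ} (hp : p.Prime)
    (good : ℕ → Prop) (a : ℕ → ℤ) (x : JZero M) (hx0 : x ≠ 0) (hpx : p • x = 0)
    (hx : ∀ (l : ℕ) (hl : l.Prime), ¬ l ∣ M → good l →
      heckeOperatorBar M ⟨l, hl⟩ x = a l • x) :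
    Ideal.span (eigenGens M p good a) ≠ ⊤ := by
  classical
  obtain ⟨ι, hιp, hιker, hsurj, hιT⟩ := exists_iota_onto M hp
  obtain ⟨ψ, rfl⟩ := hsurj x hpx
  have hψ : ¬ ∃ φ : Lam M, ψ = p • φ := fun h => hx0 ((hιker ψ).2 h)
  let Jd : Ideal (CuspForm.heckeAlgebra M 2 (∅ : Set ℕ)) :=
    { carrier := {t | ∃ φ : Lam M, heckeLatticeHom M (∅ : Set ℕ) t ψ = p • φ}
      zero_mem' := ⟨0, by rw [map_zero, LinearMap.zero_apply, smul_zero]⟩
      add_mem' := by
        rintro s t ⟨φ, hφ⟩ ⟨φ', hφ'⟩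
        exact ⟨φ + φ', by rw [map_add, LinearMap.add_apply, hφ, hφ', smul_add]⟩
      smul_mem' := by
        rintro c t ⟨φ, hφ⟩
        refine ⟨heckeLatticeHom M (∅ : Set ℕ) c φ, ?_⟩
        rw [smul_eq_mul, map_mul, Module.End.mul_apply, hφ, map_nsmul] }
  intro htop
  have hle : Ideal.span (eigenGens M p good a) ≤ Jd := by
    rw [Ideal.span_le]
    rintro t (ht | ⟨l, hl, hlM, hgl, rfl⟩)
    · rw [Set.mem_singleton_iff] at ht
      subst ht
      refine ⟨ψ, ?_⟩
      rw [map_natCast]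
      rfl
    · have h1 : ι (heckeLatticeHom M (∅ : Set ℕ)
          (CuspForm.heckeAlgebra.T hl hlM (Set.notMem_empty l)) ψ - a l • ψ) = 0 := by
        rw [map_sub, hιT l hl hlM ψ, hx l hl hlM hgl, map_zsmul, sub_self]
      obtain ⟨φ, hφ⟩ := (hιker _).1 h1
      refine ⟨φ, ?_⟩
      rw [map_sub, map_intCast, LinearMap.sub_apply, ← hφ]
      rfl
  have h1 : (1 : CuspForm.heckeAlgebra M 2 (∅ : Set ℕ)) ∈ Jd := hle (htop ▸ Submodule.mem_top)
  obtain ⟨φ, hφ⟩ := h1
  exact hψ ⟨φ, by rw [← hφ, map_one]; rfl⟩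

end Main

end

end Fermat.Agent.S44.helper259
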