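/-
S44 (row 38), leaf L8-OCCDOWN, exit form (seat helper259).

`modularRepOfLevel_of_torsion_eigen`: a nonzero `p`-torsion class of `J₀(M)` on which the Hecke
operators `T_l` (`l ∤ M` prime, good for the integral model `W` of the Frey curve, `l ≠ p`) act
by `a_l(W)` makes the Frey package modular of level `M` in the residual sense of the Prelude
(`FreyPackage.ModularRepOfLevel`).  This is the "p-old exit" of S44 in one call:

  `helper259.span_ne_top_of_torsion_eigen` (OCC-DOWN, `helper259_OccDown`)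
    + `helper6368.modularRepOfLevel_of_ideal'` (EXITLIFT, Deligne–Serre lifting).
-/
import Fermat.Agent.S44.helper259_OccDown
import Fermat.Agent.S44.helper6368_ExitLiftFinal

set_option autoImplicit false

open ModularCurve AlgebraicCurve CongruenceSubgroup

namespace Fermat.Agent.S44.helper259

/-- **P-old exit, Jacobian form.**  A nonzero `p`-torsion Hecke eigenclass of `J₀(M)` with the
eigenvalues `a_l(W)` of an integral model `W` of the Frey curve at the good primes `l ∤ M`,
`l ≠ p`, gives `P.ModularRepOfLevel M`. -/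
theorem modularRepOfLevel_of_torsion_eigen (P : FreyPackage) (M : ℕ) [NeZero M]
    (W : WeierstrassCurve ℤ) (hW : W.IsIntegralModelOf P.freyCurve)
    (x : JZero M) (hx0 : x ≠ 0) (hpx : P.p • x = 0)
    (hx : ∀ (l : ℕ) (hl : l.Prime), ¬ l ∣ M → W.IsGoodPrimeFor l → l ≠ P.p →
      heckeOperatorBar M ⟨l, hl⟩ x = W.apOfModel l • x) :
    P.ModularRepOfLevel M :=
  Fermat.Agent.S44.helper6368.modularRepOfLevel_of_ideal' P W hW
    (Ideal.span (eigenGens M P.p (fun l => W.IsGoodPrimeFor l ∧ l ≠ P.p) (fun l => W.apOfModel l)))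
    (span_ne_top_of_torsion_eigen M P.pp _ _ x hx0 hpx
      (fun l hl hlM hg => hx l hl hlM hg.1 hg.2))
    (Ideal.subset_span (Or.inl rfl))
    (fun ℓ hℓ hℓM hg hℓp => Ideal.subset_span (Or.inr ⟨ℓ, hℓ, hℓM, ⟨hg, hℓp⟩, rfl⟩))

/-- The same for an arbitrary integral Weierstrass curve and prime, in the vocabulary of the
general statements (`WeierstrassCurve.IsResiduallyModularOfLevel`), when the exit lifting is
available in that vocabulary. -/
theorem span_ne_top_of_torsion_eigen_model (W : WeierstrassCurve ℤ) (M : ℕ) [NeZero M]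
    {p : ℕ} (hp : p.Prime) (x : JZero M) (hx0 : x ≠ 0) (hpx : p • x = 0)
    (hx : ∀ (l : ℕ) (hl : l.Prime), ¬ l ∣ M → W.IsGoodPrimeFor l → l ≠ p →
      heckeOperatorBar M ⟨l, hl⟩ x = W.apOfModel l • x) :
    Ideal.span (eigenGens M p (fun l => W.IsGoodPrimeFor l ∧ l ≠ p) (fun l => W.apOfModel l))
      ≠ ⊤ :=
  span_ne_top_of_torsion_eigen M hp _ _ x hx0 hpx (fun l hl hlM hg => hx l hl hlM hg.1 hg.2)

end Fermat.Agent.S44.helper259
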