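import Fermat.Agent.S19.helper7154_ChartInt
import Fermat.Agent.S19.helper2258_Points
import Fermat.Agent.S37.helper126_TorsionGlue
import Fermat.Agent.S37.helper5413_LatticeModular
import Fermat.Agent.S37.helper5162_HeckeInputsModular
import Fermat.Agent.S29.helper36_FunctionFieldL
import Fermat.Agent.S18.helper36_FunctionFieldK
import Fermat.Agent.S18.helper1733_GaussOrtho
import Fermat.Agent.S18.helper508_GaussMod
import Fermat.Agent.S18.helper99_SpecC
import Fermat.Agent.S37.helper3441_GenusInstance
import Fermat.Agent.S37.helper5413_LatticeUncond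

/-!
# S44 (exit, module L7): the cusp `∞` reduces to the `q`-place of the special fibre

For the Gauss pair `(O, red)` of `ℚ̄(X₀(N))` at a place `A` of `ℚ̄` over `ℓ ∤ N` and any lattice
bundle `H : S37.helper5413.LatHyp O red g c E₀ E₀k` anchored at `j` (`E₀`, `E₀k` the pole
divisors of `j`, `j̄`: the output of `helper5413.latHyp_gauss_of_genusLe` /
`helper3441.latHyp_gauss_j`):

* `coeff_mem_of_regular` (★): a Gauss-integral function that is regular off the cusps has all
  its `q`-coefficients in `A` (landed S19 `helper7154.stmt_ChartInt_of_PT0` + `helper2258` PT0);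
* `placeRed_cusp` (INFTY): `H.placeRed (cusp ∞) = q-place of F_k`;
* `gaussResidue_mem_rr_cusp` (REG): a Gauss-integral function with poles only at the cusp `∞`
  (order `≤ n`) reduces to a function with poles only at the `q`-place (order `≤ n`);
* `coeff_mem_of_mem_rr_cusp`, `coeff_gaussResidue_of_mem_rr_cusp` (COEFF): such a function has
  `A`-integral `q`-expansion and its reduction is computed coefficientwise;
* `exists_lift_rr_cusp`, `exists_series_lift_cusp` (LIFT): for `n ≥ max c thr` every element of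
  `L_k(n • q-place)` is such a reduction.

The proof of (INFTY) is the `rho`-calculus of `helper5413`: `rho (m • E₀) = m • E₀k`, so if
`Q := placeRed (cusp ∞)` were not the `q`-place `Q∞`, then `rho (m • E₀ - cusp ∞) Q∞ = m`
would be attained by a Gauss-integral `f ∈ L(m • E₀ - cusp ∞)`; but `f` is regular off the
cusps, so by (★) its reduction is computed coefficientwise and has `q`-order `≥ -(m - 1)`.
-/

set_option autoImplicit false

noncomputable section

namespace Fermat.Agent.S44.helper2705

open AlgebraicCurve ModularCurve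
open Fermat.Agent.S37 Fermat.Agent.S37.helper5413

/-! ### Abstract part: the `rho`-calculus at the anchor -/

section Abstract

variable {L F k Fk : Type*} [Field L] [Field F] [Algebra L F] [Field k] [Field Fk] [Algebra k Fk]
variable {O : ValuationSubring F} {red : O →+* Fk} {g c : ℤ}
  {E₀ : Divisor L F} {E₀k : Divisor k Fk}

/-- At the anchor the reduction of divisors is exact: `rho (m • E₀) = m • E₀k`. -/
theorem rho_nsmul_E₀_eq (H : LatHyp O red g c E₀ E₀k) {m : ℕ}
    (hm : LatHyp.thr g c ≤ Divisor.degree (m • E₀)) :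
    rho k O red (m • E₀) = m • E₀k := by
  have hle := H.rho_nsmul_E₀_le (LatHyp.g_le_thr.trans hm)
  refine eq_of_le_of_degree_eq H.degk hle ?_
  have h1 := H.degree_rho hm
  have h2 := degree_mono hle
  rw [h1] at h2 ⊢
  rw [map_nsmul, map_nsmul, nsmul_eq_mul, nsmul_eq_mul] at h2 ⊢
  have h3 : (m : ℤ) * Divisor.degree E₀k ≤ (m : ℤ) * Divisor.degree E₀ :=
    mul_le_mul_of_nonneg_left H.E₀k_le (Int.natCast_nonneg m)
  linarith

/-- `rho (m • E₀ - P) = m • E₀k - placeRed P` in large degree. -/
theorem rho_nsmul_E₀_sub_single (H : LatHyp O red g c E₀ E₀k) {m : ℕ}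
    (hm : LatHyp.thr g c + 1 ≤ Divisor.degree (m • E₀)) (P : Place L F) :
    rho k O red (m • E₀ - Finsupp.single P 1) = m • E₀k - Finsupp.single (H.placeRed P) 1 := by
  have hdegP : Divisor.degree (Finsupp.single P (1 : ℤ)) = 1 := by
    rw [Divisor.degree_single, H.degL]; simp
  have hT : LatHyp.thr g c ≤ Divisor.degree (m • E₀ - Finsupp.single P 1) := by
    rw [map_sub, hdegP]; linarith
  have h := H.rho_add_single hT P
  rw [sub_add_cancel, rho_nsmul_E₀_eq H (by linarith)] at h
  rw [h, add_sub_cancel_right]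

/-- **Criterion for the reduction of a place.**  If the reductions of the Gauss-integral
elements of `L(m • E₀ - P)` all have pole order `< m • E₀k` at `Q₀`, then `placeRed P = Q₀`. -/
theorem placeRed_eq_of_bound (H : LatHyp O red g c E₀ E₀k) (P : Place L F) (Q₀ : Place k Fk)
    (hkey : ∀ (m : ℕ) (f : O), (f : F) ∈ riemannRochSpace (m • E₀ - Finsupp.single P 1) →
      red f ≠ 0 → -Q₀.ord (red f) ≤ (m • E₀k) Q₀ - 1) :
    H.placeRed P = Q₀ := by
  classical
  by_contra hne
  set m : ℕ := (LatHyp.thr g c + 1).toNat with hm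
  have hm1 : LatHyp.thr g c + 1 ≤ Divisor.degree (m • E₀) :=
    (Int.self_le_toNat _).trans (H.degree_nsmul_E₀_ge m)
  have hdegP : Divisor.degree (Finsupp.single P (1 : ℤ)) = 1 := by
    rw [Divisor.degree_single, H.degL]; simp
  have hT : LatHyp.thr g c ≤ Divisor.degree (m • E₀ - Finsupp.single P 1) := by
    rw [map_sub, hdegP]; linarith
  obtain ⟨f, hf, hfne, e⟩ := H.exists_rho_eq (LatHyp.g_le_thr.trans hT) Q₀
  have h1 := hkey m f hf hfne
  rw [rho_nsmul_E₀_sub_single H hm1 P] at e
  rw [Finsupp.sub_apply, Finsupp.single_apply, if_neg hne, sub_zero] at e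
  rw [← e] at h1
  linarith

end Abstract

/-! ### The modular instance -/

section Modular

open Fermat.Agent.S19.helper9190 Fermat.Agent.S18

local notation "Qb" => AlgebraicClosure ℚ

variable (N : ℕ) [NeZero N]

/-- The cusp `∞` of `ℚ̄(X₀(N))`. -/
abbrev cuspPlace : Place Qb (FK N) := Fermat.Agent.S29.helper36.qPlaceL Qb N

/-- The `j` of the Spec `helper9190_SpecC` is the `j` of the Gauss pair. -/
theorem jK_eq_gaussJ : jK N = helper1733.gaussJ Qb N :=
  Subtype.ext (Fermat.Agent.S19.helper7154.coe_jK N)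

omit [NeZero N] in
theorem cuspPlace_ord_gaussJ : (cuspPlace N).ord (helper1733.gaussJ Qb N) = -1 :=
  Fermat.Agent.S29.helper36.qPlaceL_ord_jL Qb N

/-- The cusp `∞` is not on the generic chart `0`. -/
theorem ne_cuspPlace_of_chartReg {P : Place Qb (FK N)} (hP : chartReg N 0 P) :
    P ≠ cuspPlace N := by
  rintro rfl
  have h1 : jK N ∈ (cuspPlace N).toValuationSubring := by simpa [chartReg] using hP
  have h2 := helper126.ord_nonneg_of_mem _ h1
  rw [jK_eq_gaussJ, cuspPlace_ord_gaussJ] at h2
  omega

variable (ℓ : ℕ) [Fact ℓ.Prime] (hℓN : ¬ ℓ ∣ N) (A : ValuationSubring Qb)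
  (hA : A.LiesOverPrime ℓ)

/-- The `q`-place (the cusp `∞`) of the special fibre. -/
abbrev cuspPlaceK : Place (IsLocalRing.ResidueField A)
    ↥(modularFunctionFieldFullC (IsLocalRing.ResidueField A) N) :=
  Fermat.Agent.S18.helper36.qPlaceK (IsLocalRing.ResidueField A) N

include hℓN hA in
/-- **CHARTINT** of `helper9190_SpecC` (landed S19 bricks `helper7154` + `helper2258`). -/
theorem stmt_ChartInt : Stmt_ChartInt N ℓ A :=
  Fermat.Agent.S19.helper7154.stmt_ChartInt_of_PT0 N ℓ A hℓN hA
    (fun i f hf => Fermat.Agent.S19.helper2258.exists_coe_eq_sum_of_regular N ℓ i f hf)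

/-- The Gauss valuation ring of `helper508` is contained in the `gaussRing` of the Spec. -/
theorem mem_gaussRing_of_mem {f : FK N}
    (hf : f ∈ helper508.gaussValuationSubring N ℓ hℓN A hA) : f ∈ gaussRing N A := by
  obtain ⟨Q, y, hQ, h⟩ := (helper508.mem_gaussValuationSubring_iff N ℓ hℓN A hA f).mp hf
  refine ⟨Q.map A.subtype, fun n => ?_, ?_, fun n => ?_⟩
  · rw [Polynomial.coeff_map]
    exact (Q.coeff n).2
  · have hne : ∃ n, (Q.map (IsLocalRing.residue A)).coeff n ≠ 0 := by
      by_contra hall
      push Not at hall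
      exact hQ (Polynomial.ext fun n => by rw [hall n, Polynomial.coeff_zero])
    obtain ⟨n, hn⟩ := hne
    refine ⟨n, fun hmem => hn ?_⟩
    rw [Polynomial.coeff_map] at hmem ⊢
    obtain ⟨ha, hm⟩ := A.mem_nonunits_iff_exists_mem_maximalIdeal.mp hmem
    rw [IsLocalRing.residue_eq_zero_iff]
    exact hm
  · have e : ((Polynomial.aeval (jK N) (Q.map A.subtype) * f : FK N) : LaurentSeries Qb)
        = Polynomial.aeval (jqModC Qb) (Q.map A.subtype) * (f : LaurentSeries Qb) := by
      have h1 : ((Polynomial.aeval (jK N) (Q.map A.subtype) : FK N) : LaurentSeries Qb)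
          = Polynomial.aeval (jqModC Qb) (Q.map A.subtype) := by
        rw [← Fermat.Agent.S19.helper7154.coe_jK N]
        exact (Polynomial.aeval_algHom_apply (modularFunctionFieldBar N).val (jK N) _).symm
      rw [← h1]
      rfl
    rw [e, h, coeffMap_coeff]
    exact (y.coeff n).2

/-- **(★)**  A Gauss-integral function that is regular off the cusps has all its
`q`-coefficients in `A`. -/
theorem coeff_mem_of_regular {f : FK N}
    (hf : f ∈ helper508.gaussValuationSubring N ℓ hℓN A hA)
    (hreg : ∀ P : Place Qb (FK N), chartReg N 0 P → 0 ≤ P.ord f) (i : ℤ) :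
    (f : LaurentSeries Qb).coeff i ∈ A := by
  have hL : f ∈ Lsec N A 0 0 := by
    refine ⟨mem_gaussRing_of_mem N ℓ hℓN A hA hf, fun _ P hP => ?_⟩
    have h := hreg P hP
    have h0 : (0 : Divisor Qb (FK N)) P = 0 := rfl
    rw [h0, neg_zero]
    exact h
  have hc := ((stmt_ChartInt N ℓ hℓN A hA).1 0 f).mp hL
  exact Fermat.Agent.S19.helper7154.coeff_mem_of_mem_chartRing N ℓ A hA 0 hc i

/-- The `A`-integral `q`-series of a Gauss-integral function regular off the cusps. -/
theorem exists_series_of_regular {f : FK N}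
    (hf : f ∈ helper508.gaussValuationSubring N ℓ hℓN A hA)
    (hreg : ∀ P : Place Qb (FK N), chartReg N 0 P → 0 ≤ P.ord f) :
    ∃ y : LaurentSeries A, coeffMap A.subtype y = (f : LaurentSeries Qb) := by
  have h1 : ∀ n, (f : LaurentSeries Qb).coeff n / 1 ∈ A := fun n => by
    rw [div_one]; exact coeff_mem_of_regular N ℓ hℓN A hA hf hreg n
  refine ⟨helper8991.liftDiv A _ 1 h1, ?_⟩
  have hZ := helper8991.C_mul_inc_liftDiv A _ 1 one_ne_zero h1
  rwa [map_one, one_mul] at hZ

/-- The reduction of a Gauss-integral function with `A`-integral `q`-series is the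
coefficientwise reduction. -/
theorem coe_gaussResidue_of_series {f : FK N}
    (hf : f ∈ helper508.gaussValuationSubring N ℓ hℓN A hA) (y : LaurentSeries A)
    (hy : coeffMap A.subtype y = (f : LaurentSeries Qb)) :
    ((helper508.gaussResidue N ℓ hℓN A hA ⟨f, hf⟩ :
        ↥(modularFunctionFieldFullC (IsLocalRing.ResidueField A) N)) :
      LaurentSeries (IsLocalRing.ResidueField A)) = coeffMap (IsLocalRing.residue A) y := by
  have hy' : coeffMap A.subtype y ∈ laurentBaseChange Qb (modularFunctionFieldFull N) := by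
    rw [hy]; exact f.2
  have h := helper508.gaussResidue_coeffMap N ℓ hℓN A hA y hy'
  have e : (⟨f, hf⟩ : ↥(helper508.gaussValuationSubring N ℓ hℓN A hA)) =
      ⟨⟨coeffMap A.subtype y, hy'⟩,
        helper508.coeffMap_mem_gaussValuationSubring N ℓ hℓN A hA y hy'⟩ :=
    Subtype.ext (Subtype.ext hy.symm)
  rw [e]
  exact h

/-- **Orders at the cusp do not drop under reduction**, for Gauss-integral functions regular off
the cusps. -/
theorem le_ord_gaussResidue (f : ↥(helper508.gaussValuationSubring N ℓ hℓN A hA))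
    (hreg : ∀ P : Place Qb (FK N), chartReg N 0 P → 0 ≤ P.ord (f : FK N))
    (hfne : helper508.gaussResidue N ℓ hℓN A hA f ≠ 0) (b : ℤ)
    (hb : b ≤ (cuspPlace N).ord (f : FK N)) :
    b ≤ (cuspPlaceK N A).ord (helper508.gaussResidue N ℓ hℓN A hA f) := by
  have hf0 : (f : FK N) ≠ 0 := fun h => hfne (by
    have : f = 0 := Subtype.ext h
    rw [this, map_zero])
  obtain ⟨y, hy⟩ := exists_series_of_regular N ℓ hℓN A hA f.2 hreg
  have hred := coe_gaussResidue_of_series N ℓ hℓN A hA f.2 y hy
  rw [Fermat.Agent.S29.helper36.qPlaceL_ord Qb N hf0] at hb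
  have hy0 : ∀ i : ℤ, i < b → y.coeff i = 0 := by
    intro i hi
    have h1 : (f : LaurentSeries Qb).coeff i = 0 :=
      HahnSeries.coeff_eq_zero_of_lt_order (lt_of_lt_of_le hi hb)
    rw [← hy, coeffMap_coeff] at h1
    exact Subtype.ext h1
  have hne' : coeffMap (IsLocalRing.residue A) y ≠ 0 := by
    rw [← hred]
    intro h
    exact hfne (Subtype.ext h)
  rw [Fermat.Agent.S18.helper36.qPlaceK_ord (IsLocalRing.ResidueField A) N hfne, hred]
  by_contra hlt
  push Not at hlt
  apply hne'
  apply HahnSeries.coeff_order_eq_zero.mp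
  rw [coeffMap_coeff, hy0 _ hlt, map_zero]

variable {g c : ℤ} {E₀ : Divisor Qb (FK N)}
  {E₀k : Divisor (IsLocalRing.ResidueField A)
    ↥(modularFunctionFieldFullC (IsLocalRing.ResidueField A) N)}

/-- The key bound: reductions of Gauss-integral elements of `L(m • E₀ - ∞)` have pole order
`≤ m - 1` at the `q`-place. -/
theorem cusp_bound
    (hE₀ : helper6292.IsPoleDivisor (helper1733.gaussJ Qb N) E₀)
    (hE₀k : helper6292.IsPoleDivisor (helper9392.jbarC (IsLocalRing.ResidueField A) N) E₀k)
    (m : ℕ) (f : ↥(helper508.gaussValuationSubring N ℓ hℓN A hA))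
    (hf : (f : FK N) ∈ riemannRochSpace (m • E₀ - Finsupp.single (cuspPlace N) 1))
    (hfne : helper508.gaussResidue N ℓ hℓN A hA f ≠ 0) :
    -(cuspPlaceK N A).ord (helper508.gaussResidue N ℓ hℓN A hA f) ≤
      (m • E₀k) (cuspPlaceK N A) - 1 := by
  classical
  have hf0 : (f : FK N) ≠ 0 := fun h => hfne (by
    have : f = 0 := Subtype.ext h
    rw [this, map_zero])
  have hord : ∀ P : Place Qb (FK N),
      -((m • E₀ - Finsupp.single (cuspPlace N) 1 : Divisor Qb (FK N)) P) ≤ P.ord (f : FK N) := by
    rcases mem_rr_iff.mp hf with h | h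
    · exact absurd h hf0
    · exact h
  have hE₀cusp : E₀ (cuspPlace N) = 1 := by
    rw [hE₀ (cuspPlace N), cuspPlace_ord_gaussJ]; norm_num
  have hE₀kcusp : E₀k (cuspPlaceK N A) = 1 := by
    rw [hE₀k (cuspPlaceK N A)]
    have h : (cuspPlaceK N A).ord (helper9392.jbarC (IsLocalRing.ResidueField A) N) = -1 :=
      Fermat.Agent.S18.helper36.qPlaceK_ord_jK (IsLocalRing.ResidueField A) N
    rw [h]; norm_num
  have hreg : ∀ P : Place Qb (FK N), chartReg N 0 P → 0 ≤ P.ord (f : FK N) := by
    intro P hP
    have h1 : jK N ∈ P.toValuationSubring := by simpa [chartReg] using hP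
    have h2 : 0 ≤ P.ord (helper1733.gaussJ Qb N) := by
      rw [← jK_eq_gaussJ]; exact helper126.ord_nonneg_of_mem _ h1
    have hE0P : E₀ P = 0 := by rw [hE₀ P]; exact max_eq_left (by omega)
    have hPne : cuspPlace N ≠ P := (ne_cuspPlace_of_chartReg N hP).symm
    have h3 := hord P
    rw [Finsupp.sub_apply, Finsupp.smul_apply, hE0P, Finsupp.single_apply, if_neg hPne,
      smul_zero, sub_zero, neg_zero] at h3
    exact h3
  have h4 := hord (cuspPlace N)
  rw [Finsupp.sub_apply, Finsupp.smul_apply, hE₀cusp, Finsupp.single_apply, if_pos rfl,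
    nsmul_eq_mul, mul_one] at h4
  have h5 := le_ord_gaussResidue N ℓ hℓN A hA f hreg hfne _ h4
  rw [Finsupp.smul_apply, hE₀kcusp, nsmul_eq_mul, mul_one]
  linarith

/-- **(INFTY)**  The lattice place reduction sends the cusp `∞` of `ℚ̄(X₀(N))` to the `q`-place
of the special fibre. -/
theorem placeRed_cusp
    (H : LatHyp (helper508.gaussValuationSubring N ℓ hℓN A hA)
      (helper508.gaussResidue N ℓ hℓN A hA) g c E₀ E₀k)
    (hE₀ : helper6292.IsPoleDivisor (helper1733.gaussJ Qb N) E₀)
    (hE₀k : helper6292.IsPoleDivisor (helper9392.jbarC (IsLocalRing.ResidueField A) N) E₀k) :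
    H.placeRed (cuspPlace N) = cuspPlaceK N A :=
  placeRed_eq_of_bound H _ _
    (fun m f hf hfne => cusp_bound N ℓ hℓN A hA hE₀ hE₀k m f hf hfne)


/-! ### Consequences: (REG), (COEFF), (LIFT) -/

/-- A function with poles only at the cusp `∞` is regular off the cusps. -/
theorem regular_of_mem_rr_cusp {f : FK N} {n : ℤ}
    (hf : f ∈ riemannRochSpace (Finsupp.single (cuspPlace N) n)) :
    ∀ P : Place Qb (FK N), chartReg N 0 P → 0 ≤ P.ord f := by
  classical
  intro P hP
  rcases mem_rr_iff.mp hf with h | h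
  · rw [h, Place.ord_zero]
  · have h3 := h P
    rw [Finsupp.single_apply, if_neg (ne_cuspPlace_of_chartReg N hP).symm, neg_zero] at h3
    exact h3

/-- **(COEFF)**  A Gauss-integral function with poles only at the cusp `∞` has all its
`q`-coefficients in `A`. -/
theorem coeff_mem_of_mem_rr_cusp (f : ↥(helper508.gaussValuationSubring N ℓ hℓN A hA)) (n : ℤ)
    (hf : (f : FK N) ∈ riemannRochSpace (Finsupp.single (cuspPlace N) n)) (i : ℤ) :
    ((f : FK N) : LaurentSeries Qb).coeff i ∈ A :=
  coeff_mem_of_regular N ℓ hℓN A hA f.2 (regular_of_mem_rr_cusp N hf) i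

/-- **(COEFF)**  ... and its reduction is computed coefficientwise. -/
theorem coeff_gaussResidue_of_mem_rr_cusp
    (f : ↥(helper508.gaussValuationSubring N ℓ hℓN A hA)) (n : ℤ)
    (hf : (f : FK N) ∈ riemannRochSpace (Finsupp.single (cuspPlace N) n)) (i : ℤ) :
    ((helper508.gaussResidue N ℓ hℓN A hA f :
        ↥(modularFunctionFieldFullC (IsLocalRing.ResidueField A) N)) :
      LaurentSeries (IsLocalRing.ResidueField A)).coeff i =
      IsLocalRing.residue A ⟨_, coeff_mem_of_mem_rr_cusp N ℓ hℓN A hA f n hf i⟩ := by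
  obtain ⟨y, hy⟩ := exists_series_of_regular N ℓ hℓN A hA f.2 (regular_of_mem_rr_cusp N hf)
  rw [coe_gaussResidue_of_series N ℓ hℓN A hA f.2 y hy, coeffMap_coeff]
  congr 1
  apply Subtype.ext
  show (y.coeff i : Qb) = ((f : FK N) : LaurentSeries Qb).coeff i
  rw [← hy, coeffMap_coeff]
  rfl

/-- The constants of `k` lift to constants of the Gauss valuation ring. -/
theorem gauss_const_lift (b : IsLocalRing.ResidueField A) :
    ∃ (a : Qb) (h : algebraMap Qb (FK N) a ∈ helper508.gaussValuationSubring N ℓ hℓN A hA),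
      helper508.gaussResidue N ℓ hℓN A hA ⟨algebraMap Qb (FK N) a, h⟩
        = algebraMap (IsLocalRing.ResidueField A)
            ↥(modularFunctionFieldFullC (IsLocalRing.ResidueField A) N) b := by
  obtain ⟨a, rfl⟩ := IsLocalRing.residue_surjective b
  have h : algebraMap Qb (FK N) (a : Qb) ∈ helper508.gaussValuationSubring N ℓ hℓN A hA :=
    (helper508.algebraMap_mem_gaussValuationSubring_iff N ℓ hℓN A hA a).mpr a.2
  exact ⟨a, h, helper1733.gaussResidue_algebraMap N ℓ hℓN A hA (a : Qb) h⟩

/-- **(REG)**  A Gauss-integral function with poles only at the cusp `∞`, of order `≤ n`,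
reduces to a function of the special fibre with poles only at the `q`-place, of order `≤ n`. -/
theorem gaussResidue_mem_rr_cusp
    (H : LatHyp (helper508.gaussValuationSubring N ℓ hℓN A hA)
      (helper508.gaussResidue N ℓ hℓN A hA) g c E₀ E₀k)
    (hE₀ : helper6292.IsPoleDivisor (helper1733.gaussJ Qb N) E₀)
    (hE₀k : helper6292.IsPoleDivisor (helper9392.jbarC (IsLocalRing.ResidueField A) N) E₀k)
    (f : ↥(helper508.gaussValuationSubring N ℓ hℓN A hA)) (n : ℤ)
    (hf : (f : FK N) ∈ riemannRochSpace (Finsupp.single (cuspPlace N) n)) :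
    helper508.gaussResidue N ℓ hℓN A hA f ∈
      riemannRochSpace (Finsupp.single (cuspPlaceK N A) n) := by
  classical
  by_cases hfne : helper508.gaussResidue N ℓ hℓN A hA f = 0
  · rw [hfne]; exact Submodule.zero_mem _
  have hf0 : (f : FK N) ≠ 0 := fun h => hfne (by
    have : f = 0 := Subtype.ext h
    rw [this, map_zero])
  set n' : ℤ := max n (LatHyp.thr g c) with hn'
  have hle : (Finsupp.single (cuspPlace N) n : Divisor Qb (FK N)) ≤
      Finsupp.single (cuspPlace N) n' := by
    intro v
    rw [Finsupp.single_apply, Finsupp.single_apply]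
    split_ifs
    · exact le_max_left _ _
    · exact le_rfl
  have hf' : (f : FK N) ∈ riemannRochSpace (Finsupp.single (cuspPlace N) n') := rr_mono hle hf
  have hthr : LatHyp.thr g c ≤
      Divisor.degree (Finsupp.single (cuspPlace N) n' : Divisor Qb (FK N)) := by
    rw [helper126.degree_single H.degL]; exact le_max_right _ _
  have h1 := H.red_mem_rr_rho (LatHyp.g_le_thr.trans hthr) hf' hfne
  rw [H.rho_eq_mapDomain hthr, Finsupp.mapDomain_single,
    placeRed_cusp N ℓ hℓN A hA H hE₀ hE₀k, mem_rr_iff] at h1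
  rw [mem_rr_iff]
  right
  intro Q
  rcases h1 with h1 | h1
  · exact absurd h1 hfne
  by_cases hQ : cuspPlaceK N A = Q
  · rw [← hQ, Finsupp.single_apply, if_pos rfl]
    have hb : -n ≤ (cuspPlace N).ord (f : FK N) := by
      rcases mem_rr_iff.mp hf with h | h
      · exact absurd h hf0
      · have := h (cuspPlace N)
        rwa [Finsupp.single_apply, if_pos rfl] at this
    exact le_ord_gaussResidue N ℓ hℓN A hA f (regular_of_mem_rr_cusp N hf) hfne _ hb
  · have h2 := h1 Q
    rw [Finsupp.single_apply, if_neg hQ, neg_zero] at h2 ⊢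
    exact h2

/-- **(LIFT)**  For `n ≥ max c thr`, every function of the special fibre with poles only at the
`q`-place, of order `≤ n`, is the reduction of a Gauss-integral function with poles only at the
cusp `∞`, of order `≤ n`. -/
theorem exists_lift_rr_cusp
    (H : LatHyp (helper508.gaussValuationSubring N ℓ hℓN A hA)
      (helper508.gaussResidue N ℓ hℓN A hA) g c E₀ E₀k)
    (hE₀ : helper6292.IsPoleDivisor (helper1733.gaussJ Qb N) E₀)
    (hE₀k : helper6292.IsPoleDivisor (helper9392.jbarC (IsLocalRing.ResidueField A) N) E₀k)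
    (n : ℤ) (hn : max c (LatHyp.thr g c) ≤ n)
    {y : ↥(modularFunctionFieldFullC (IsLocalRing.ResidueField A) N)}
    (hy : y ∈ riemannRochSpace (Finsupp.single (cuspPlaceK N A) n)) :
    ∃ f : ↥(helper508.gaussValuationSubring N ℓ hℓN A hA),
      (f : FK N) ∈ riemannRochSpace (Finsupp.single (cuspPlace N) n) ∧
      helper508.gaussResidue N ℓ hℓN A hA f = y := by
  classical
  have : HasPrincipalDivisors Qb (FK N) := helper5162.hasPrincipalDivisors_FN N
  have hdeg : max c (LatHyp.thr g c) ≤
      Divisor.degree (Finsupp.single (cuspPlace N) n : Divisor Qb (FK N)) := by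
    rw [helper126.degree_single H.degL]; exact hn
  exact helper126.LatHypGlue.exists_lift_rr H (helper508.gaussResidue_surjective N ℓ hℓN A hA)
    (gauss_const_lift N ℓ hℓN A hA) (Finsupp.single (cuspPlace N) n) hdeg
    (by rw [Finsupp.mapDomain_single, placeRed_cusp N ℓ hℓN A hA H hE₀ hE₀k]; exact hy)

/-- **(LIFT), series form.**  The lift as an `A`-integral `q`-series whose coefficientwise
reduction is the given function. -/
theorem exists_series_lift_cusp
    (H : LatHyp (helper508.gaussValuationSubring N ℓ hℓN A hA)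
      (helper508.gaussResidue N ℓ hℓN A hA) g c E₀ E₀k)
    (hE₀ : helper6292.IsPoleDivisor (helper1733.gaussJ Qb N) E₀)
    (hE₀k : helper6292.IsPoleDivisor (helper9392.jbarC (IsLocalRing.ResidueField A) N) E₀k)
    (n : ℤ) (hn : max c (LatHyp.thr g c) ≤ n)
    {y : ↥(modularFunctionFieldFullC (IsLocalRing.ResidueField A) N)}
    (hy : y ∈ riemannRochSpace (Finsupp.single (cuspPlaceK N A) n)) :
    ∃ (x : LaurentSeries A) (hx : coeffMap A.subtype x ∈ modularFunctionFieldBar N),
      (⟨coeffMap A.subtype x, hx⟩ : FK N) ∈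
        riemannRochSpace (Finsupp.single (cuspPlace N) n) ∧
      coeffMap (IsLocalRing.residue A) x = (y : LaurentSeries (IsLocalRing.ResidueField A)) := by
  obtain ⟨f, hf, hfy⟩ := exists_lift_rr_cusp N ℓ hℓN A hA H hE₀ hE₀k n hn hy
  obtain ⟨x, hx⟩ := exists_series_of_regular N ℓ hℓN A hA f.2 (regular_of_mem_rr_cusp N hf)
  have hx' : coeffMap A.subtype x ∈ modularFunctionFieldBar N := by rw [hx]; exact f.1.2
  have e : (⟨coeffMap A.subtype x, hx'⟩ : FK N) = (f : FK N) := Subtype.ext hx
  refine ⟨x, hx', by rw [e]; exact hf, ?_⟩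
  rw [← coe_gaussResidue_of_series N ℓ hℓN A hA f.2 x hx, ← hfy]

/-- **(REG), series form.**  An `A`-integral `q`-series of `ℚ̄(X₀(N))` with poles only at the
cusp `∞` (order `≤ n`) reduces coefficientwise to a function of the special fibre with poles
only at the `q`-place (order `≤ n`). -/
theorem coeffMap_residue_mem_rr_cusp
    (H : LatHyp (helper508.gaussValuationSubring N ℓ hℓN A hA)
      (helper508.gaussResidue N ℓ hℓN A hA) g c E₀ E₀k)
    (hE₀ : helper6292.IsPoleDivisor (helper1733.gaussJ Qb N) E₀)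
    (hE₀k : helper6292.IsPoleDivisor (helper9392.jbarC (IsLocalRing.ResidueField A) N) E₀k)
    (x : LaurentSeries A) (hx : coeffMap A.subtype x ∈ modularFunctionFieldBar N) (n : ℤ)
    (hreg : (⟨coeffMap A.subtype x, hx⟩ : FK N) ∈
      riemannRochSpace (Finsupp.single (cuspPlace N) n)) :
    ∃ hxk : coeffMap (IsLocalRing.residue A) x ∈
        modularFunctionFieldFullC (IsLocalRing.ResidueField A) N,
      (⟨coeffMap (IsLocalRing.residue A) x, hxk⟩ :
        ↥(modularFunctionFieldFullC (IsLocalRing.ResidueField A) N)) ∈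
        riemannRochSpace (Finsupp.single (cuspPlaceK N A) n) := by
  have hmem := helper508.coeffMap_mem_gaussValuationSubring N ℓ hℓN A hA x hx
  have hred := helper508.gaussResidue_coeffMap N ℓ hℓN A hA x hx
  have h1 := gaussResidue_mem_rr_cusp N ℓ hℓN A hA H hE₀ hE₀k ⟨_, hmem⟩ n hreg
  have hxk : coeffMap (IsLocalRing.residue A) x ∈
      modularFunctionFieldFullC (IsLocalRing.ResidueField A) N := by
    rw [← hred]; exact Subtype.property _
  refine ⟨hxk, ?_⟩
  have e : (⟨coeffMap (IsLocalRing.residue A) x, hxk⟩ :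
      ↥(modularFunctionFieldFullC (IsLocalRing.ResidueField A) N)) =
      helper508.gaussResidue N ℓ hℓN A hA ⟨_, hmem⟩ := Subtype.ext hred.symm
  rw [e]
  exact h1


/-! ### The vocabulary of the S18 track C (`helper99.IsCuspInf`, `helper99.RegAwayInf`) -/

omit [NeZero N] in
theorem isCuspInf_cuspPlace : helper99.IsCuspInf N (cuspPlace N) :=
  fun _ hf => Fermat.Agent.S29.helper36.qPlaceL_ord Qb N hf

omit [NeZero N] in
/-- The cusp `∞` is the only place whose order function is the `q`-order. -/
theorem eq_cuspPlace_of_isCuspInf {P : Place Qb (FK N)} (hP : helper99.IsCuspInf N P) :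
    P = cuspPlace N := by
  have hord : ∀ f : FK N, P.ord f = (cuspPlace N).ord f := by
    intro f
    by_cases hf : f = 0
    · rw [hf, Place.ord_zero, Place.ord_zero]
    · rw [hP f hf, isCuspInf_cuspPlace N f hf]
  have hval : P.toValuationSubring = (cuspPlace N).toValuationSubring := by
    ext f
    constructor
    · intro hf
      exact helper126.mem_of_ord_nonneg _ (by rw [← hord]; exact helper126.ord_nonneg_of_mem _ hf)
    · intro hf
      exact helper126.mem_of_ord_nonneg _ (by rw [hord]; exact helper126.ord_nonneg_of_mem _ hf)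
  cases P
  cases hq : cuspPlace N
  rw [hq] at hval
  cases hval
  rfl

omit [NeZero N] in
theorem regAwayInf_iff (f : FK N) :
    helper99.RegAwayInf N f ↔ ∀ P : Place Qb (FK N), P ≠ cuspPlace N → 0 ≤ P.ord f :=
  ⟨fun h P hP => h P (fun hc => hP (eq_cuspPlace_of_isCuspInf N hc)),
    fun h P hP => h P (fun hc => hP (hc ▸ isCuspInf_cuspPlace N))⟩

omit [NeZero N] in
theorem mem_rr_cusp_of_regAwayInf {f : FK N} (hf : helper99.RegAwayInf N f) (n : ℤ)
    (hn : -n ≤ (cuspPlace N).ord f) :
    f ∈ riemannRochSpace (Finsupp.single (cuspPlace N) n) := by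
  classical
  rw [mem_rr_iff]
  right
  intro v
  by_cases hv : cuspPlace N = v
  · rw [← hv, Finsupp.single_apply, if_pos rfl]; exact hn
  · rw [Finsupp.single_apply, if_neg hv, neg_zero]
    exact (regAwayInf_iff N f).mp hf v (Ne.symm hv)

omit [NeZero N] in
theorem regAwayInf_of_mem_rr_cusp {f : FK N} {n : ℤ}
    (hf : f ∈ riemannRochSpace (Finsupp.single (cuspPlace N) n)) : helper99.RegAwayInf N f := by
  classical
  rw [regAwayInf_iff]
  intro P hP
  rcases mem_rr_iff.mp hf with h | h
  · rw [h, Place.ord_zero]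
  · have h3 := h P
    rw [Finsupp.single_apply, if_neg (Ne.symm hP), neg_zero] at h3
    exact h3

/-- **The cusp package** (consumer form, series vocabulary):

* (REG) an `A`-integral `q`-series of `ℚ̄(X₀(N))` that is regular away from the cusp `∞` reduces
  coefficientwise to a function of the special fibre that is regular away from the `q`-place;
* (LIFT) there is `n₀` such that for `n ≥ n₀` every function of the special fibre that is
  regular away from the `q`-place with pole order `≤ n` there is the coefficientwise reduction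
  of an `A`-integral `q`-series of `ℚ̄(X₀(N))`, regular away from the cusp `∞`, with pole order
  `≤ n`. -/
def CuspPackage : Prop :=
  (∀ (x : LaurentSeries A) (hx : coeffMap A.subtype x ∈ modularFunctionFieldBar N),
      helper99.RegAwayInf N ⟨coeffMap A.subtype x, hx⟩ →
      ∃ hxk : coeffMap (IsLocalRing.residue A) x ∈
          modularFunctionFieldFullC (IsLocalRing.ResidueField A) N,
        ∀ Q : Place (IsLocalRing.ResidueField A)
            ↥(modularFunctionFieldFullC (IsLocalRing.ResidueField A) N),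
          Q ≠ cuspPlaceK N A →
          0 ≤ Q.ord (⟨coeffMap (IsLocalRing.residue A) x, hxk⟩ :
            ↥(modularFunctionFieldFullC (IsLocalRing.ResidueField A) N))) ∧
  ∃ n₀ : ℤ, ∀ n : ℤ, n₀ ≤ n →
    ∀ y : ↥(modularFunctionFieldFullC (IsLocalRing.ResidueField A) N),
      (∀ Q : Place (IsLocalRing.ResidueField A)
          ↥(modularFunctionFieldFullC (IsLocalRing.ResidueField A) N),
        Q ≠ cuspPlaceK N A → 0 ≤ Q.ord y) →
      -n ≤ (cuspPlaceK N A).ord y →
      ∃ (x : LaurentSeries A) (hx : coeffMap A.subtype x ∈ modularFunctionFieldBar N),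
        helper99.RegAwayInf N ⟨coeffMap A.subtype x, hx⟩ ∧
        (∀ i : ℤ, i < -n → x.coeff i = 0) ∧
        coeffMap (IsLocalRing.residue A) x = (y : LaurentSeries (IsLocalRing.ResidueField A))

/-- The cusp package from any lattice bundle at the Gauss pair anchored at `j`. -/
theorem cuspPackage_of_latHyp
    (H : LatHyp (helper508.gaussValuationSubring N ℓ hℓN A hA)
      (helper508.gaussResidue N ℓ hℓN A hA) g c E₀ E₀k)
    (hE₀ : helper6292.IsPoleDivisor (helper1733.gaussJ Qb N) E₀)
    (hE₀k : helper6292.IsPoleDivisor (helper9392.jbarC (IsLocalRing.ResidueField A) N) E₀k) :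
    CuspPackage N A := by
  classical
  refine ⟨fun x hx hreg => ?_, max c (LatHyp.thr g c), fun n hn y hy hyn => ?_⟩
  · -- (REG)
    set f : FK N := ⟨coeffMap A.subtype x, hx⟩ with hf
    obtain ⟨hxk, hmem⟩ := coeffMap_residue_mem_rr_cusp N ℓ hℓN A hA H hE₀ hE₀k x hx
      (-(cuspPlace N).ord f) (mem_rr_cusp_of_regAwayInf N hreg _ (by rw [neg_neg]))
    refine ⟨hxk, fun Q hQ => ?_⟩
    rcases mem_rr_iff.mp hmem with h | h
    · rw [h, Place.ord_zero]
    · have h3 := h Q
      rw [Finsupp.single_apply, if_neg (Ne.symm hQ), neg_zero] at h3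
      exact h3
  · -- (LIFT)
    have hyrr : y ∈ riemannRochSpace (Finsupp.single (cuspPlaceK N A) n) := by
      rw [mem_rr_iff]
      right
      intro Q
      by_cases hQ : cuspPlaceK N A = Q
      · rw [← hQ, Finsupp.single_apply, if_pos rfl]; exact hyn
      · rw [Finsupp.single_apply, if_neg hQ, neg_zero]; exact hy Q (Ne.symm hQ)
    obtain ⟨x, hx, hmem, hxy⟩ := exists_series_lift_cusp N ℓ hℓN A hA H hE₀ hE₀k n hn hyrr
    refine ⟨x, hx, regAwayInf_of_mem_rr_cusp N hmem, fun i hi => ?_, hxy⟩
    have hcoe : (coeffMap A.subtype x).coeff i = 0 := by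
      by_cases h0 : (⟨coeffMap A.subtype x, hx⟩ : FK N) = 0
      · have : coeffMap A.subtype x = 0 := congrArg Subtype.val h0
        rw [this]; rfl
      · rcases mem_rr_iff.mp hmem with h | h
        · exact absurd h h0
        · have h3 := h (cuspPlace N)
          rw [Finsupp.single_apply, if_pos rfl,
            Fermat.Agent.S29.helper36.qPlaceL_ord Qb N h0] at h3
          exact HahnSeries.coeff_eq_zero_of_lt_order (lt_of_lt_of_le hi h3)
    rw [coeffMap_coeff] at hcoe
    exact Subtype.ext hcoe

include hℓN hA in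
/-- **The cusp package, unconditionally for `ℓ ≥ 5`** (`ℓ ∤ N`, every level). -/
theorem cuspPackage_of_five_le (h5 : 5 ≤ ℓ) : CuspPackage N A := by
  obtain ⟨g, c, E₀, E₀k, hE₀, hE₀k, H⟩ := helper3441.latHyp_gauss_j N ℓ hℓN A hA h5
  exact cuspPackage_of_latHyp N ℓ hℓN A hA H hE₀ hE₀k

include hℓN hA in
/-- The cusp package from the genus inequality of S18 (track A): in particular at every level
divisible by `2` or `3`. -/
theorem cuspPackage_of_genusLe (Hg : helper1466.Stmt_GenusLe N ℓ) : CuspPackage N A := by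
  obtain ⟨c, E₀, E₀k, hE₀, hE₀k, H⟩ := latHyp_gauss_of_genusLe N ℓ hℓN A hA Hg
  exact cuspPackage_of_latHyp N ℓ hℓN A hA H hE₀ hE₀k

/-- **(INFTY), unconditionally for `ℓ ≥ 5`**: some lattice place reduction (conservation of
number, degree preserving) sends the cusp `∞` to the `q`-place; in the landed existential form
of `helper3441.latHyp_gauss_j`. -/
theorem exists_latHyp_placeRed_cusp_of_five_le (h5 : 5 ≤ ℓ) :
    ∃ (g c : ℤ) (E₀ : Divisor Qb (FK N))
      (E₀k : Divisor (IsLocalRing.ResidueField A)
        ↥(modularFunctionFieldFullC (IsLocalRing.ResidueField A) N))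
      (H : LatHyp (helper508.gaussValuationSubring N ℓ hℓN A hA)
        (helper508.gaussResidue N ℓ hℓN A hA) g c E₀ E₀k),
      H.placeRed (cuspPlace N) = cuspPlaceK N A := by
  obtain ⟨g, c, E₀, E₀k, hE₀, hE₀k, H⟩ := helper3441.latHyp_gauss_j N ℓ hℓN A hA h5
  exact ⟨g, c, E₀, E₀k, H, placeRed_cusp N ℓ hℓN A hA H hE₀ hE₀k⟩

end Modular

end Fermat.Agent.S44.helper2705
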