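import Fermat.Agent.S13.helper1633_LocalAbs

set_option autoImplicit false

/-!
# S44, Frey side at `p` (helper2884): the approximate Tate parameter

Abstract part, on the Legendre-coordinatised groups of `S05.helper245` (`IsLegCoord a b X Y`,
the curve `Y² = X³ + a X² + b X` over a valued field, node case `v a = 1`, `v b < 1`).

For a square root `β` of `a` put `tp P = (Y P - β X P) / (Y P + β X P)` (an approximation of the
Tate parameter).  On a collinear triple `Y = l X + m` Vieta gives the EXACT identities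

  `∏ (Y Pᵢ ∓ β X Pᵢ) = m (m² + b (l ∓ β)²)`,

so `tp P₁ * tp P₂ * tp P₃ - 1 = -4 b β l / (m² + b (l + β)²)`, which has valuation `≤ v b` as soon
as the three points lie in `E₀ = {v X ≥ 1}` (`tp_triple`).  Consequences, for a prime `p ≥ 3`
with `v p < 1` and `v b ≤ v p ^ p`:

* `tp_pow_p` : `v (tp P ^ p - 1) ≤ v b` for `P ∈ E₀[p]`;
* `near` : such a `tp P` is within `v p` of a (unique) `p`-th root of unity;
* `E0_torsion_in_E1` : `E₀[p] ⊆ E₁`;
* `rigid`, `cyclic` : given the one-root division bound `v p * v (X T) ≤ 1` on `E₁[p]`, the map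
  "nearest root of unity" is injective on `E₁[p]`, which is therefore cyclic;
* `galois` : an automorphism acting on `p`-th roots of unity by `ζ ↦ ζ ^ c` acts on `E₁[p]` by
  multiplication by `c`;
* `exists_E1_torsion` : `E₁[p] ≠ 0` as soon as `G[p]` is not cyclic (tropical argument).
-/

namespace Fermat.Agent.S44.helper2884

open Fermat.Agent.S05.helper245 Fermat.Agent.S13.helper1633

section Algebra

variable {K : Type*} [Field K]

/-- Vieta consequence: the product of the three values of `Y - c X` on a collinear triple. -/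
theorem prod_line_sub {a b c l m x₁ x₂ x₃ : K} (hc : c ^ 2 = a)
    (e₁ : x₁ + x₂ + x₃ = l ^ 2 - a)
    (e₂ : x₁ * x₂ + x₁ * x₃ + x₂ * x₃ = b - 2 * l * m)
    (e₃ : x₁ * x₂ * x₃ = m ^ 2) :
    (l * x₁ + m - c * x₁) * (l * x₂ + m - c * x₂) * (l * x₃ + m - c * x₃)
      = m * (m ^ 2 + b * (l - c) ^ 2) := by
  linear_combination (l - c) ^ 3 * e₃ + (l - c) ^ 2 * m * e₂ + (l - c) * m ^ 2 * e₁
    + (l - c) * m ^ 2 * hc

/-- Vieta consequence: the product of the three values of `Y + c X` on a collinear triple. -/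
theorem prod_line_add {a b c l m x₁ x₂ x₃ : K} (hc : c ^ 2 = a)
    (e₁ : x₁ + x₂ + x₃ = l ^ 2 - a)
    (e₂ : x₁ * x₂ + x₁ * x₃ + x₂ * x₃ = b - 2 * l * m)
    (e₃ : x₁ * x₂ * x₃ = m ^ 2) :
    (l * x₁ + m + c * x₁) * (l * x₂ + m + c * x₂) * (l * x₃ + m + c * x₃)
      = m * (m ^ 2 + b * (l + c) ^ 2) := by
  linear_combination (l + c) ^ 3 * e₃ + (l + c) ^ 2 * m * e₂ + (l + c) * m ^ 2 * e₁
    + (l + c) * m ^ 2 * hc

end Algebra

section ValueGroup

variable {Γ₀ : Type*} [LinearOrderedCommGroupWithZero Γ₀]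

/-- If a nonempty product is `≤ c ^ card`, some factor is `≤ c`. -/
theorem exists_le_of_prod_le_pow {ι : Type*} (S : Finset ι) (f : ι → Γ₀) (c : Γ₀)
    (hS : S.Nonempty) (h : ∏ i ∈ S, f i ≤ c ^ S.card) : ∃ i ∈ S, f i ≤ c := by
  by_contra hcon
  push Not at hcon
  have key : ∀ T : Finset ι, T.Nonempty → (∀ i ∈ T, c < f i) → c ^ T.card < ∏ i ∈ T, f i := by
    intro T hT
    induction hT using Finset.Nonempty.cons_induction with
    | singleton i =>
      intro hi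
      simpa using hi i (Finset.mem_singleton_self i)
    | cons i s his hs ih =>
      intro hi
      have h1 : c ^ s.card < ∏ j ∈ s, f j := ih (fun j hj => hi j (Finset.mem_cons_of_mem hj))
      have h2 : c < f i := hi i (Finset.mem_cons_self i s)
      have hpos : (0 : Γ₀) < ∏ j ∈ s, f j := lt_of_le_of_lt zero_le h1
      rw [Finset.card_cons, Finset.prod_cons, pow_succ]
      calc c ^ s.card * c ≤ (∏ j ∈ s, f j) * c := mul_le_mul_left h1.le c
        _ < (∏ j ∈ s, f j) * f i := mul_lt_mul_of_pos_left h2 hpos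
        _ = f i * ∏ j ∈ s, f j := mul_comm _ _
  exact absurd h (not_le.mpr (key S hS hcon))

end ValueGroup

section Roots

variable {K : Type*} [Field K] {Γ₀ : Type*} [LinearOrderedCommGroupWithZero Γ₀]
  (v : Valuation K Γ₀)

theorem val_eq_one_of_pow_eq_one {x : K} {n : ℕ} (hn : n ≠ 0) (hx : x ^ n = 1) : v x = 1 := by
  have h : v x ^ n = 1 ^ n := by rw [← v.map_pow, hx, v.map_one, one_pow]
  exact (pow_left_inj₀ zero_le zero_le hn).mp h

theorem val_one_sub_pow_le {x : K} (hx : v x ≤ 1) (n : ℕ) : v (1 - x ^ n) ≤ v (1 - x) := by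
  rw [← mul_neg_geom_sum x n, v.map_mul]
  have h1 : v (∑ i ∈ Finset.range n, x ^ i) ≤ 1 := by
    apply v.map_sum_le
    intro i _
    rw [v.map_pow]
    exact pow_le_one' hx i
  calc v (1 - x) * v (∑ i ∈ Finset.range n, x ^ i) ≤ v (1 - x) * 1 := by gcongr
    _ = v (1 - x) := mul_one _

theorem val_pow_sub_pow_le {x y : K} (hx : v x ≤ 1) (hy : v y ≤ 1) (n : ℕ) :
    v (x ^ n - y ^ n) ≤ v (x - y) := by
  rw [← geom_sum₂_mul x y n, v.map_mul]
  have h1 : v (∑ i ∈ Finset.range n, x ^ i * y ^ (n - 1 - i)) ≤ 1 := by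
    apply v.map_sum_le
    intro i _
    rw [v.map_mul, v.map_pow, v.map_pow]
    calc v x ^ i * v y ^ (n - 1 - i) ≤ 1 * 1 :=
          mul_le_mul' (pow_le_one' hx i) (pow_le_one' hy _)
      _ = 1 := one_mul 1
  calc v (∑ i ∈ Finset.range n, x ^ i * y ^ (n - 1 - i)) * v (x - y) ≤ 1 * v (x - y) := by gcongr
    _ = v (x - y) := one_mul _

/-- A nontrivial `p`-th root of unity is at distance `> v p` (and `< 1`) from `1`, when `p ≥ 3`
is the residue characteristic. -/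
theorem val_one_sub_root {p : ℕ} (hpp : p.Prime) (hp2 : p ≠ 2) (hvp : v (p : K) < 1) {ω : K}
    (hω : ω ^ p = 1) (hω1 : ω ≠ 1) : v (p : K) < v (1 - ω) ∧ v (1 - ω) < 1 := by
  classical
  have : Fact p.Prime := ⟨hpp⟩
  have : NeZero p := ⟨hpp.ne_zero⟩
  have hprim : IsPrimitiveRoot ω p := by
    have h := IsPrimitiveRoot.orderOf ω
    rwa [orderOf_eq_prime hω hω1] at h
  have hprod : (p : K) = ∏ μ ∈ primitiveRoots p K, (1 - μ) := by
    have h1 := Polynomial.cyclotomic_eq_prod_X_sub_primitiveRoots hprim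
    have h2 := Polynomial.eval_one_cyclotomic_prime (R := K) (p := p)
    rw [h1, Polynomial.eval_prod] at h2
    simpa using h2.symm
  have hω_le : v ω ≤ 1 := (val_eq_one_of_pow_eq_one v hpp.ne_zero hω).le
  have hval : ∀ μ ∈ primitiveRoots p K, v (1 - μ) = v (1 - ω) := by
    intro μ hμ
    have hμ' : IsPrimitiveRoot μ p := (mem_primitiveRoots hpp.pos).mp hμ
    have hμ_le : v μ ≤ 1 := (val_eq_one_of_pow_eq_one v hpp.ne_zero hμ'.pow_eq_one).le
    obtain ⟨i, -, hi⟩ := hprim.eq_pow_of_pow_eq_one hμ'.pow_eq_one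
    obtain ⟨j, -, hj⟩ := hμ'.eq_pow_of_pow_eq_one hprim.pow_eq_one
    apply le_antisymm
    · rw [← hi]; exact val_one_sub_pow_le v hω_le i
    · rw [← hj]; exact val_one_sub_pow_le v hμ_le j
  have hcard : (primitiveRoots p K).card = p - 1 := by
    rw [hprim.card_primitiveRoots, Nat.totient_prime hpp]
  have hvp' : v (p : K) = v (1 - ω) ^ (p - 1) := by
    rw [hprod, map_prod, Finset.prod_congr rfl hval, Finset.prod_const, hcard]
  have hle1 : v (1 - ω) ≤ 1 := v.map_sub_le (le_of_eq v.map_one) hω_le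
  have hlt1 : v (1 - ω) < 1 := by
    by_contra h
    have h1 : v (1 - ω) = 1 := le_antisymm hle1 (le_of_not_gt h)
    rw [hvp', h1, one_pow] at hvp
    exact lt_irrefl _ hvp
  have hpos : 0 < v (1 - ω) := v.pos_iff.mpr (sub_ne_zero.mpr (Ne.symm hω1))
  refine ⟨?_, hlt1⟩
  rw [hvp']
  have hp3 : 2 ≤ p - 1 := by
    have := hpp.two_le
    omega
  calc v (1 - ω) ^ (p - 1) ≤ v (1 - ω) ^ 2 := pow_le_pow_right_of_le_one' hle1 hp3
    _ = v (1 - ω) * v (1 - ω) := sq _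
    _ < 1 * v (1 - ω) := mul_lt_mul_of_pos_right hlt1 hpos
    _ = v (1 - ω) := one_mul _

/-- Two distinct `p`-th roots of unity are at distance `> v p`. -/
theorem val_root_sub_root {p : ℕ} (hpp : p.Prime) (hp2 : p ≠ 2) (hvp : v (p : K) < 1) {μ μ' : K}
    (hμ : μ ^ p = 1) (hμ' : μ' ^ p = 1) (hne : μ ≠ μ') : v (p : K) < v (μ - μ') := by
  have hμ0 : μ ≠ 0 := by
    intro h
    rw [h, zero_pow hpp.ne_zero] at hμ
    exact zero_ne_one hμ
  have h1 : (μ' / μ) ^ p = 1 := by rw [div_pow, hμ, hμ', div_one]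
  have h2 : μ' / μ ≠ 1 := by
    intro h
    exact hne ((div_eq_one_iff_eq hμ0).mp h).symm
  have h3 := (val_one_sub_root v hpp hp2 hvp h1 h2).1
  have h4 : μ - μ' = μ * (1 - μ' / μ) := by field_simp
  rw [h4, v.map_mul, val_eq_one_of_pow_eq_one v hpp.ne_zero hμ, one_mul]
  exact h3

/-- An element whose `p`-th power is `1` modulo `p ^ p` is within `v p` of a `p`-th root of
unity. -/
theorem exists_root_near {p : ℕ} (hpp : p.Prime) {ζ : K} (hζ : IsPrimitiveRoot ζ p) {u : K}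
    (hu : v (u ^ p - 1) ≤ v (p : K) ^ p) : ∃ μ : K, μ ^ p = 1 ∧ v (u - μ) ≤ v (p : K) := by
  classical
  have h := hζ.pow_sub_pow_eq_prod_sub_mul (x := u) (y := 1) hpp.pos
  rw [one_pow] at h
  have hcard : (Polynomial.nthRootsFinset p (1 : K)).card = p := hζ.card_nthRootsFinset
  have hne : (Polynomial.nthRootsFinset p (1 : K)).Nonempty := by
    rw [← Finset.card_pos, hcard]; exact hpp.pos
  have h' : ∏ μ ∈ Polynomial.nthRootsFinset p (1 : K), v (u - μ * 1) ≤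
      v (p : K) ^ (Polynomial.nthRootsFinset p (1 : K)).card := by
    rw [hcard, ← map_prod, ← h]; exact hu
  obtain ⟨μ, hμ, hle⟩ := exists_le_of_prod_le_pow _ _ _ hne h'
  refine ⟨μ, ?_, ?_⟩
  · exact (Polynomial.mem_nthRootsFinset hpp.pos 1).mp hμ
  · rwa [mul_one] at hle

end Roots

section Param

variable {K : Type*} [Field K] {Γ₀ : Type*} [LinearOrderedCommGroupWithZero Γ₀]
  (v : Valuation K Γ₀) {G : Type*} [AddCommGroup G] {a b : K} {X Y : G → K}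

/-- The approximate Tate parameter `(Y - β X) / (Y + β X)`. -/
def tp (X Y : G → K) (β : K) (P : G) : K := (Y P - β * X P) / (Y P + β * X P)

theorem tp_neg (hL : IsLegCoord a b X Y) (β : K) {P : G} (hP : P ≠ 0) :
    tp X Y β (-P) = (tp X Y β P)⁻¹ := by
  unfold tp
  rw [hL.negX P hP, hL.negY P hP, inv_div]
  have h1 : -Y P - β * X P = -(Y P + β * X P) := by ring
  have h2 : -Y P + β * X P = -(Y P - β * X P) := by ring
  rw [h1, h2, neg_div_neg_eq]

/-- On `E₀` the numerator and the denominator of `tp` have the same valuation `v X ^ (3/2)`. -/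
theorem val_num_den (hL : IsLegCoord a b X Y) (hb : v b < 1) (h2 : v 2 = 1) {β : K}
    (hβ : β ^ 2 = a) (hβ1 : v β = 1) {P : G} (hP : P ≠ 0) (hx : 1 ≤ v (X P)) :
    v (Y P - β * X P) = v (Y P + β * X P) ∧ v (Y P + β * X P) ^ 2 = v (X P) ^ 3 := by
  have hx0 : 0 < v (X P) := lt_of_lt_of_le zero_lt_one hx
  have hprod : (Y P - β * X P) * (Y P + β * X P) = X P * (X P ^ 2 + b) := by
    have := hL.eqn P hP
    linear_combination this - X P ^ 2 * hβ
  have hv2 : v (X P ^ 2 + b) = v (X P) ^ 2 := by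
    rw [← v.map_pow]
    apply v.map_add_eq_of_lt_left
    rw [v.map_pow]
    exact lt_of_lt_of_le hb (one_le_pow₀ hx)
  have hvprod : v (Y P - β * X P) * v (Y P + β * X P) = v (X P) ^ 3 := by
    rw [← v.map_mul, hprod, v.map_mul, hv2, ← pow_succ']
  have hdiff : v ((Y P + β * X P) - (Y P - β * X P)) = v (X P) := by
    have : (Y P + β * X P) - (Y P - β * X P) = 2 * β * X P := by ring
    rw [this, v.map_mul, v.map_mul, h2, hβ1, one_mul, one_mul]
  have hxsq : v (X P) ≤ v (X P) ^ 2 := by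
    calc v (X P) = v (X P) * 1 := (mul_one _).symm
      _ ≤ v (X P) * v (X P) := by gcongr
      _ = v (X P) ^ 2 := (sq _).symm
  have heq : v (Y P - β * X P) = v (Y P + β * X P) := by
    by_contra hne
    rcases lt_or_gt_of_ne hne with hlt | hlt
    · have h1 : v ((Y P + β * X P) - (Y P - β * X P)) = v (Y P + β * X P) :=
        v.map_sub_eq_of_lt_left hlt
      rw [hdiff] at h1
      rw [← h1] at hvprod hlt
      have h3 : v (Y P - β * X P) * v (X P) = v (X P) ^ 2 * v (X P) := by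
        rw [hvprod, ← pow_succ]
      have h4 : v (Y P - β * X P) = v (X P) ^ 2 := mul_right_cancel₀ hx0.ne' h3
      rw [h4] at hlt
      exact absurd hlt (not_lt.mpr hxsq)
    · have h1 : v ((Y P + β * X P) - (Y P - β * X P)) = v (Y P - β * X P) :=
        v.map_sub_eq_of_lt_right hlt
      rw [hdiff] at h1
      rw [← h1] at hvprod hlt
      have h3 : v (X P) * v (Y P + β * X P) = v (X P) * v (X P) ^ 2 := by
        rw [hvprod, ← pow_succ']
      have h4 : v (Y P + β * X P) = v (X P) ^ 2 := mul_left_cancel₀ hx0.ne' h3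
      rw [h4] at hlt
      exact absurd hlt (not_lt.mpr hxsq)
  refine ⟨heq, ?_⟩
  rw [sq, ← hvprod, heq]

/-- On `E₀`: `tp` is a unit and `v (tp - 1) ^ 2 * v X = 1`. -/
theorem tp_facts (hL : IsLegCoord a b X Y) (hb : v b < 1) (h2 : v 2 = 1) {β : K}
    (hβ : β ^ 2 = a) (hβ1 : v β = 1) {P : G} (hP : P ≠ 0) (hx : 1 ≤ v (X P)) :
    v (tp X Y β P) = 1 ∧ v (tp X Y β P - 1) ^ 2 * v (X P) = 1 := by
  obtain ⟨heq, hsq⟩ := val_num_den v hL hb h2 hβ hβ1 hP hx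
  have hx0 : 0 < v (X P) := lt_of_lt_of_le zero_lt_one hx
  have hd0 : v (Y P + β * X P) ≠ 0 := by
    intro h
    rw [h, zero_pow (by norm_num)] at hsq
    exact (pow_pos hx0 3).ne' hsq.symm
  have hd0' : Y P + β * X P ≠ 0 := (v.ne_zero_iff).mp hd0
  constructor
  · unfold tp
    rw [v.map_div, heq, div_self hd0]
  · have h1 : tp X Y β P - 1 = -(2 * β * X P) / (Y P + β * X P) := by
      unfold tp
      field_simp
      ring
    rw [h1, v.map_div, v.map_neg, v.map_mul, v.map_mul, h2, hβ1, one_mul, one_mul, div_pow, hsq]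
    field_simp

/-- **The approximate Tate parameter is multiplicative on `E₀` modulo `b`.** -/
theorem tp_triple (hL : IsLegCoord a b X Y) (ha : v a = 1) (hb : v b < 1) {β : K}
    (hβ : β ^ 2 = a) {P₁ P₂ P₃ : G} (h₁ : P₁ ≠ 0) (h₂ : P₂ ≠ 0) (h₃ : P₃ ≠ 0)
    (hs : P₁ + P₂ + P₃ = 0) (hx₁ : 1 ≤ v (X P₁)) (hx₂ : 1 ≤ v (X P₂)) (hx₃ : 1 ≤ v (X P₃)) :
    v (tp X Y β P₁ * tp X Y β P₂ * tp X Y β P₃ - 1) ≤ v b := by
  obtain ⟨l, m, hy₁, hy₂, hy₃, e₁, e₂, e₃⟩ := hL.vieta P₁ P₂ P₃ h₁ h₂ h₃ hs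
  have hβ1 : v β = 1 := val_beta_eq_one v ha hβ
  have hN : (Y P₁ - β * X P₁) * (Y P₂ - β * X P₂) * (Y P₃ - β * X P₃) =
      m * (m ^ 2 + b * (l - β) ^ 2) := by
    rw [hy₁, hy₂, hy₃]; exact prod_line_sub hβ e₁ e₂ e₃
  have hD : (Y P₁ + β * X P₁) * (Y P₂ + β * X P₂) * (Y P₃ + β * X P₃) =
      m * (m ^ 2 + b * (l + β) ^ 2) := by
    rw [hy₁, hy₂, hy₃]; exact prod_line_add hβ e₁ e₂ e₃
  have hm2 : v m ^ 2 = v (X P₁) * v (X P₂) * v (X P₃) := by
    rw [← v.map_pow, ← e₃, v.map_mul, v.map_mul]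
  have hprod1 : (1 : Γ₀) ≤ v (X P₁) * v (X P₂) * v (X P₃) := by
    calc (1 : Γ₀) = 1 * 1 * 1 := by rw [one_mul, one_mul]
      _ ≤ v (X P₁) * v (X P₂) * v (X P₃) := by gcongr
  have hm1 : 1 ≤ v m := by
    apply le_of_sq_le_sq'
    rw [one_pow, hm2]; exact hprod1
  have hm0 : 0 < v m := lt_of_lt_of_le zero_lt_one hm1
  have hl : v l ≤ v m := by
    apply le_of_sq_le_sq'
    rw [hm2, ← v.map_pow]
    have hl2 : l ^ 2 = X P₁ + X P₂ + X P₃ + a := by rw [e₁]; ring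
    rw [hl2]
    have hp1 : v (X P₁) ≤ v (X P₁) * v (X P₂) * v (X P₃) := by
      calc v (X P₁) = v (X P₁) * 1 * 1 := by rw [mul_one, mul_one]
        _ ≤ v (X P₁) * v (X P₂) * v (X P₃) := by gcongr
    have hp2 : v (X P₂) ≤ v (X P₁) * v (X P₂) * v (X P₃) := by
      calc v (X P₂) = 1 * v (X P₂) * 1 := by rw [mul_one, one_mul]
        _ ≤ v (X P₁) * v (X P₂) * v (X P₃) := by gcongr
    have hp3 : v (X P₃) ≤ v (X P₁) * v (X P₂) * v (X P₃) := by
      calc v (X P₃) = 1 * 1 * v (X P₃) := by rw [one_mul, one_mul]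
        _ ≤ v (X P₁) * v (X P₂) * v (X P₃) := by gcongr
    exact v.map_add_le (v.map_add_le (v.map_add_le hp1 hp2) hp3) (ha.le.trans hprod1)
  have hlβ : v (l + β) ≤ v m := v.map_add_le hl (hβ1.le.trans hm1)
  have hden : v (m ^ 2 + b * (l + β) ^ 2) = v m ^ 2 := by
    rw [← v.map_pow]
    apply v.map_add_eq_of_lt_left
    rw [v.map_mul, v.map_pow, v.map_pow]
    calc v b * v (l + β) ^ 2 ≤ v b * v m ^ 2 := by gcongr
      _ < 1 * v m ^ 2 := mul_lt_mul_of_pos_right hb (pow_pos hm0 2)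
      _ = v m ^ 2 := one_mul _
  have hvD : v ((Y P₁ + β * X P₁) * (Y P₂ + β * X P₂) * (Y P₃ + β * X P₃)) = v m * v m ^ 2 := by
    rw [hD, v.map_mul, hden]
  have hD0 : (Y P₁ + β * X P₁) * (Y P₂ + β * X P₂) * (Y P₃ + β * X P₃) ≠ 0 := by
    rw [← v.ne_zero_iff, hvD]
    exact (mul_pos hm0 (pow_pos hm0 2)).ne'
  have hd₁ : Y P₁ + β * X P₁ ≠ 0 := fun h => hD0 (by rw [h, zero_mul, zero_mul])
  have hd₂ : Y P₂ + β * X P₂ ≠ 0 := fun h => hD0 (by rw [h, mul_zero, zero_mul])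
  have hd₃ : Y P₃ + β * X P₃ ≠ 0 := fun h => hD0 (by rw [h, mul_zero])
  have hkey : tp X Y β P₁ * tp X Y β P₂ * tp X Y β P₃ - 1 =
      -(4 * m * b * β * l) /
        ((Y P₁ + β * X P₁) * (Y P₂ + β * X P₂) * (Y P₃ + β * X P₃)) := by
    unfold tp
    rw [div_mul_div_comm, div_mul_div_comm, div_sub_one hD0, hN, hD]
    congr 1
    ring
  rw [hkey, v.map_div, hvD, v.map_neg, div_le_iff₀ (mul_pos hm0 (pow_pos hm0 2))]
  rw [v.map_mul, v.map_mul, v.map_mul, v.map_mul, hβ1, mul_one]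
  calc v 4 * v m * v b * v l ≤ 1 * v m * v b * v m := by
        gcongr
        exact val_four_le_one v
    _ = v b * v m ^ 2 := by rw [one_mul, mul_comm (v m) (v b), mul_assoc, ← sq]
    _ ≤ v b * (v m * v m ^ 2) := by
        gcongr
        calc v m ^ 2 = 1 * v m ^ 2 := (one_mul _).symm
          _ ≤ v m * v m ^ 2 := by gcongr

/-- Multiples of a `p`-torsion point of `E₀`: `tp (k • P) ≡ tp P ^ k` modulo `b`. -/
theorem tp_multiples (hL : IsLegCoord a b X Y) (ha : v a = 1) (hb : v b < 1) (h2 : v 2 = 1)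
    {β : K} (hβ : β ^ 2 = a) {p : ℕ} (hpp : p.Prime) {P : G} (hP : P ≠ 0)
    (hx : 1 ≤ v (X P)) (hpP : p • P = 0) (k : ℕ) (hk1 : 1 ≤ k) :
    k < p → k • P ≠ 0 ∧ 1 ≤ v (X (k • P)) ∧
      v (tp X Y β (k • P) - tp X Y β P ^ k) ≤ v b := by
  have hβ1 : v β = 1 := val_beta_eq_one v ha hβ
  have hne : ∀ j : ℕ, 1 ≤ j → j < p → j • P ≠ 0 := by
    intro j hj1 hjp hj0
    have hjd : ¬ p ∣ j := Nat.not_dvd_of_pos_of_lt (by omega) hjp
    have : P ∈ (⊥ : AddSubgroup G) :=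
      mem_of_nsmul_mem hpp hjd hpP (by rw [hj0]; exact zero_mem _)
    exact hP ((AddSubgroup.mem_bot).mp this)
  have hE0 : ∀ j : ℕ, 1 ≤ j → j < p → 1 ≤ v (X (j • P)) := by
    intro j hj1 hjp
    have hmem : j • P ∈ E0 v hL ha.le hb h2 := nsmul_mem (Or.inr hx) j
    exact hmem.resolve_left (hne j hj1 hjp)
  induction k, hk1 using Nat.le_induction with
  | base =>
    intro _
    refine ⟨by rwa [one_nsmul], by rwa [one_nsmul], ?_⟩
    rw [one_nsmul, pow_one, sub_self, v.map_zero]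
    exact zero_le
  | succ k hk1 ih =>
    intro hk
    obtain ⟨hQ0, hQx, hQv⟩ := ih (by omega)
    have hR0 : (k + 1) • P ≠ 0 := hne (k + 1) (by omega) hk
    have hRx : 1 ≤ v (X ((k + 1) • P)) := hE0 (k + 1) (by omega) hk
    refine ⟨hR0, hRx, ?_⟩
    have hR0' : -((k + 1) • P) ≠ 0 := neg_ne_zero.mpr hR0
    have hsum : k • P + P + -((k + 1) • P) = 0 := by rw [succ_nsmul]; abel
    have hRx' : 1 ≤ v (X (-((k + 1) • P))) := by rw [hL.negX _ hR0]; exact hRx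
    have tri := tp_triple v hL ha hb hβ hQ0 hP hR0' hsum hQx hx hRx'
    rw [tp_neg hL β hR0] at tri
    obtain ⟨hw1, -⟩ := tp_facts v hL hb h2 hβ hβ1 hR0 hRx
    obtain ⟨hu1, -⟩ := tp_facts v hL hb h2 hβ hβ1 hP hx
    have hw0 : tp X Y β ((k + 1) • P) ≠ 0 := by
      rw [← v.ne_zero_iff, hw1]; exact one_ne_zero
    have h3 : v (tp X Y β (k • P) * tp X Y β P - tp X Y β ((k + 1) • P)) ≤ v b := by
      have e : tp X Y β (k • P) * tp X Y β P - tp X Y β ((k + 1) • P) =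
          (tp X Y β (k • P) * tp X Y β P * (tp X Y β ((k + 1) • P))⁻¹ - 1) *
            tp X Y β ((k + 1) • P) := by
        field_simp
      rw [e, v.map_mul, hw1, mul_one]
      exact tri
    have e2 : tp X Y β ((k + 1) • P) - tp X Y β P ^ (k + 1) =
        (tp X Y β (k • P) - tp X Y β P ^ k) * tp X Y β P -
          (tp X Y β (k • P) * tp X Y β P - tp X Y β ((k + 1) • P)) := by
      ring
    rw [e2]
    apply v.map_sub_le _ h3
    rw [v.map_mul, hu1, mul_one]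
    exact hQv

/-- **`tp P ^ p ≡ 1` modulo `b`** for a `p`-torsion point of `E₀`. -/
theorem tp_pow_p (hL : IsLegCoord a b X Y) (ha : v a = 1) (hb : v b < 1) (h2 : v 2 = 1)
    {β : K} (hβ : β ^ 2 = a) {p : ℕ} (hpp : p.Prime) {P : G} (hP : P ≠ 0)
    (hx : 1 ≤ v (X P)) (hpP : p • P = 0) : v (tp X Y β P ^ p - 1) ≤ v b := by
  have hβ1 : v β = 1 := val_beta_eq_one v ha hβ
  obtain ⟨-, -, h⟩ := tp_multiples v hL ha hb h2 hβ hpp hP hx hpP (p - 1)
    (by have := hpp.two_le; omega) (by have := hpp.two_le; omega)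
  have hneg : (p - 1) • P = -P := by
    have : (p - 1) • P + P = 0 := by
      rw [← succ_nsmul, Nat.sub_add_cancel hpp.one_le]; exact hpP
    exact eq_neg_of_add_eq_zero_left this
  rw [hneg, tp_neg hL β hP] at h
  obtain ⟨hu1, -⟩ := tp_facts v hL hb h2 hβ hβ1 hP hx
  have hu0 : tp X Y β P ≠ 0 := by
    rw [← v.ne_zero_iff, hu1]; exact one_ne_zero
  have e : tp X Y β P ^ p - 1 = -(((tp X Y β P)⁻¹ - tp X Y β P ^ (p - 1)) * tp X Y β P) := by
    have hp' : p = (p - 1) + 1 := (Nat.sub_add_cancel hpp.one_le).symm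
    conv_lhs => rw [hp', pow_succ]
    field_simp
    ring
  rw [e, v.map_neg, v.map_mul, hu1, mul_one]
  exact h

end Param

section Node

variable {K : Type*} [Field K] {Γ₀ : Type*} [LinearOrderedCommGroupWithZero Γ₀]
  (v : Valuation K Γ₀) {G : Type*} [AddCommGroup G] {a b : K} {X Y : G → K}

/-- Standing hypotheses: a Legendre-coordinatised group with a node (`v a = 1`, `v b < 1`),
`β ^ 2 = a`, an odd prime `p` which is the residue characteristic, `v b ≤ v p ^ p`, a primitive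
`p`-th root of unity, and the one-root division bound on the `p`-torsion of `E₁`. -/
structure NodeData (v : Valuation K Γ₀) (a b : K) (X Y : G → K) (β : K) (p : ℕ) : Prop where
  leg : IsLegCoord a b X Y
  va : v a = 1
  vb : v b < 1
  v2 : v 2 = 1
  sq : β ^ 2 = a
  pp : p.Prime
  p2 : p ≠ 2
  vp : v (p : K) < 1
  bp : v b ≤ v (p : K) ^ p
  root : ∃ ζ : K, IsPrimitiveRoot ζ p
  div : ∀ T : G, T ≠ 0 → p • T = 0 → 1 < v (X T) → v (p : K) * v (X T) ≤ 1

variable {v} {β : K} {p : ℕ}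

theorem NodeData.vβ (D : NodeData v a b X Y β p) : v β = 1 := val_beta_eq_one v D.va D.sq

theorem NodeData.b_le_p (D : NodeData v a b X Y β p) : v b ≤ v (p : K) :=
  D.bp.trans (pow_le_of_le_one zero_le D.vp.le D.pp.ne_zero)

/-- A `p`-torsion point of `E₀` has `tp` within `v p` of a `p`-th root of unity. -/
theorem NodeData.near (D : NodeData v a b X Y β p) {P : G} (hP : P ≠ 0) (hpP : p • P = 0)
    (hx : 1 ≤ v (X P)) : ∃ μ : K, μ ^ p = 1 ∧ v (tp X Y β P - μ) ≤ v (p : K) := by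
  obtain ⟨ζ, hζ⟩ := D.root
  exact exists_root_near v D.pp hζ
    ((tp_pow_p v D.leg D.va D.vb D.v2 D.sq D.pp hP hx hpP).trans D.bp)

/-- **`E₀[p] ⊆ E₁`.** -/
theorem NodeData.E0_torsion_in_E1 (D : NodeData v a b X Y β p) {P : G} (hP : P ≠ 0)
    (hpP : p • P = 0) (hx : 1 ≤ v (X P)) : 1 < v (X P) := by
  by_contra hcon
  have hx1 : v (X P) = 1 := le_antisymm (le_of_not_gt hcon) hx
  obtain ⟨-, hsq⟩ := tp_facts v D.leg D.vb D.v2 D.sq D.vβ hP hx
  rw [hx1, mul_one] at hsq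
  have h1 : v (tp X Y β P - 1) = 1 := by
    have : v (tp X Y β P - 1) ^ 2 = 1 ^ 2 := by rw [hsq, one_pow]
    exact (pow_left_inj₀ zero_le zero_le (by norm_num)).mp this
  obtain ⟨μ, hμ, hnear⟩ := D.near hP hpP hx
  have hμ1 : v (μ - 1) < 1 := by
    by_cases h : μ = 1
    · rw [h, sub_self, v.map_zero]; exact zero_lt_one
    · rw [v.map_sub_swap]; exact (val_one_sub_root v D.pp D.p2 D.vp hμ h).2
  have h2 : v (tp X Y β P - 1) < 1 := by
    have e : tp X Y β P - 1 = (tp X Y β P - μ) + (μ - 1) := by ring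
    rw [e]
    exact v.map_add_lt (lt_of_le_of_lt hnear D.vp) hμ1
  rw [h1] at h2
  exact lt_irrefl _ h2

/-- On `E₁[p]`, `tp` is farther than `v p` from `1`. -/
theorem NodeData.far (D : NodeData v a b X Y β p) {T : G} (hT : T ≠ 0) (hpT : p • T = 0)
    (hx : 1 < v (X T)) : v (p : K) < v (tp X Y β T - 1) := by
  obtain ⟨-, hsq⟩ := tp_facts v D.leg D.vb D.v2 D.sq D.vβ hT hx.le
  have hx0 : 0 < v (X T) := lt_trans zero_lt_one hx
  have hdiv := D.div T hT hpT hx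
  have h1 : v (p : K) ≤ v (tp X Y β T - 1) ^ 2 := by
    have : v (p : K) * v (X T) ≤ v (tp X Y β T - 1) ^ 2 * v (X T) := by rw [hsq]; exact hdiv
    exact le_of_mul_le_mul_right this hx0
  have hw0 : 0 < v (tp X Y β T - 1) := by
    rw [pos_iff_ne_zero]
    intro h
    rw [h, zero_pow (by norm_num), zero_mul] at hsq
    exact zero_ne_one hsq
  have hw1 : v (tp X Y β T - 1) < 1 := by
    by_contra hcon
    have hge : 1 ≤ v (tp X Y β T - 1) := le_of_not_gt hcon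
    have : (1 : Γ₀) < v (tp X Y β T - 1) ^ 2 * v (X T) := by
      calc (1 : Γ₀) = 1 * 1 := (one_mul 1).symm
        _ ≤ v (tp X Y β T - 1) ^ 2 * 1 := by gcongr; exact one_le_pow₀ hge
        _ < v (tp X Y β T - 1) ^ 2 * v (X T) :=
          mul_lt_mul_of_pos_left hx (pow_pos hw0 2)
    rw [hsq] at this
    exact lt_irrefl _ this
  calc v (p : K) ≤ v (tp X Y β T - 1) ^ 2 := h1
    _ = v (tp X Y β T - 1) * v (tp X Y β T - 1) := pow_two _
    _ < 1 * v (tp X Y β T - 1) := mul_lt_mul_of_pos_right hw1 hw0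
    _ = v (tp X Y β T - 1) := one_mul _

/-- **Rigidity**: two points of `E₁[p]` whose `tp` is near the same root of unity coincide. -/
theorem NodeData.rigid (D : NodeData v a b X Y β p) {T₁ T₂ : G} (h₁ : T₁ ≠ 0) (h₂ : T₂ ≠ 0)
    (hp₁ : p • T₁ = 0) (hp₂ : p • T₂ = 0) (hx₁ : 1 < v (X T₁)) (hx₂ : 1 < v (X T₂)) {μ : K}
    (hμ₁ : v (tp X Y β T₁ - μ) ≤ v (p : K)) (hμ₂ : v (tp X Y β T₂ - μ) ≤ v (p : K)) :
    T₁ = T₂ := by
  by_contra hne
  have hQ0 : T₁ - T₂ ≠ 0 := sub_ne_zero.mpr hne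
  have hQx : 1 < v (X (T₁ - T₂)) :=
    (inE1_sub v D.leg D.va.le D.vb.le (Or.inr hx₁) (Or.inr hx₂)).resolve_left hQ0
  have hpQ : p • (T₁ - T₂) = 0 := by rw [smul_sub, hp₁, hp₂, sub_zero]
  have hT₂' : -T₂ ≠ 0 := neg_ne_zero.mpr h₂
  have hQ0' : -(T₁ - T₂) ≠ 0 := neg_ne_zero.mpr hQ0
  have hsum : T₁ + -T₂ + -(T₁ - T₂) = 0 := by abel
  have tri := tp_triple v D.leg D.va D.vb D.sq h₁ hT₂' hQ0' hsum hx₁.le
    (by rw [D.leg.negX _ h₂]; exact hx₂.le) (by rw [D.leg.negX _ hQ0]; exact hQx.le)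
  rw [tp_neg D.leg β h₂, tp_neg D.leg β hQ0] at tri
  obtain ⟨hu₂, -⟩ := tp_facts v D.leg D.vb D.v2 D.sq D.vβ h₂ hx₂.le
  obtain ⟨hq, -⟩ := tp_facts v D.leg D.vb D.v2 D.sq D.vβ hQ0 hQx.le
  have hu₂0 : tp X Y β T₂ ≠ 0 := by rw [← v.ne_zero_iff, hu₂]; exact one_ne_zero
  have hq0 : tp X Y β (T₁ - T₂) ≠ 0 := by rw [← v.ne_zero_iff, hq]; exact one_ne_zero
  have h3 : v (tp X Y β T₁ - tp X Y β T₂ * tp X Y β (T₁ - T₂)) ≤ v b := by
    have e : tp X Y β T₁ - tp X Y β T₂ * tp X Y β (T₁ - T₂) =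
        (tp X Y β T₁ * (tp X Y β T₂)⁻¹ * (tp X Y β (T₁ - T₂))⁻¹ - 1) *
          (tp X Y β T₂ * tp X Y β (T₁ - T₂)) := by
      field_simp
    rw [e, v.map_mul, v.map_mul, hu₂, hq, mul_one, mul_one]
    exact tri
  have h4 : v (tp X Y β (T₁ - T₂) - 1) ≤ v (p : K) := by
    have e : tp X Y β (T₁ - T₂) - 1 =
        (tp X Y β T₂)⁻¹ * (-(tp X Y β T₁ - tp X Y β T₂ * tp X Y β (T₁ - T₂)) +
          (tp X Y β T₁ - μ) - (tp X Y β T₂ - μ)) := by
      field_simp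
      ring
    rw [e, v.map_mul, map_inv₀, hu₂, inv_one, one_mul]
    apply v.map_sub_le _ hμ₂
    apply v.map_add_le _ hμ₁
    rw [v.map_neg]
    exact h3.trans D.b_le_p
  exact absurd h4 (not_le.mpr (D.far hQ0 hpQ hQx))

/-- The "nearest root of unity" of a multiple. -/
theorem NodeData.near_multiple (D : NodeData v a b X Y β p) {T : G} (hT : T ≠ 0)
    (hpT : p • T = 0) (hx : 1 < v (X T)) {μ : K} (hμ : μ ^ p = 1)
    (hnear : v (tp X Y β T - μ) ≤ v (p : K)) {n : ℕ} (hn1 : 1 ≤ n) (hnp : n < p) :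
    n • T ≠ 0 ∧ 1 < v (X (n • T)) ∧ v (tp X Y β (n • T) - μ ^ n) ≤ v (p : K) := by
  obtain ⟨h0, hx', hv⟩ :=
    tp_multiples v D.leg D.va D.vb D.v2 D.sq D.pp hT hx.le hpT n hn1 hnp
  have hpn : p • (n • T) = 0 := by rw [smul_comm, hpT, smul_zero]
  refine ⟨h0, D.E0_torsion_in_E1 h0 hpn hx', ?_⟩
  obtain ⟨hu, -⟩ := tp_facts v D.leg D.vb D.v2 D.sq D.vβ hT hx.le
  have e : tp X Y β (n • T) - μ ^ n =
      (tp X Y β (n • T) - tp X Y β T ^ n) + (tp X Y β T ^ n - μ ^ n) := by ring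
  rw [e]
  apply v.map_add_le (hv.trans D.b_le_p)
  exact (val_pow_sub_pow_le v hu.le
    (val_eq_one_of_pow_eq_one v D.pp.ne_zero hμ).le n).trans hnear

/-- **`E₁[p]` is cyclic**: every point of `E₁[p]` is a multiple of any nonzero one. -/
theorem NodeData.cyclic (D : NodeData v a b X Y β p) {T T' : G} (hT : T ≠ 0) (hpT : p • T = 0)
    (hx : 1 < v (X T)) (hpT' : p • T' = 0) (hT' : InE1 v X T') : ∃ n : ℕ, T' = n • T := by
  by_cases h0 : T' = 0
  · exact ⟨0, by rw [h0, zero_nsmul]⟩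
  have hx' : 1 < v (X T') := hT'.resolve_left h0
  have : Fact p.Prime := ⟨D.pp⟩
  have : NeZero p := ⟨D.pp.ne_zero⟩
  obtain ⟨μ, hμ, hnear⟩ := D.near hT hpT hx.le
  obtain ⟨μ', hμ', hnear'⟩ := D.near h0 hpT' hx'.le
  have hμ1 : μ ≠ 1 := by
    rintro rfl
    exact absurd hnear (not_le.mpr (D.far hT hpT hx))
  have hμ'1 : μ' ≠ 1 := by
    rintro rfl
    exact absurd hnear' (not_le.mpr (D.far h0 hpT' hx'))
  have hprim : IsPrimitiveRoot μ p := by
    have h := IsPrimitiveRoot.orderOf μ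
    rwa [orderOf_eq_prime hμ hμ1] at h
  obtain ⟨n, hnp, hn⟩ := hprim.eq_pow_of_pow_eq_one hμ'
  have hn1 : 1 ≤ n := by
    rcases Nat.eq_zero_or_pos n with h | h
    · rw [h, pow_zero] at hn
      exact absurd hn.symm hμ'1
    · exact h
  obtain ⟨hn0, hnx, hnv⟩ := D.near_multiple hT hpT hx hμ hnear hn1 hnp
  rw [hn] at hnv
  have hpn : p • (n • T) = 0 := by rw [smul_comm, hpT, smul_zero]
  exact ⟨n, D.rigid h0 hn0 hpT' hpn hx' hnx hnear' hnv⟩

/-- **Galois action on `E₁[p]`**: an automorphism `(τ, s)` preserving the valuation, fixing `β`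
and acting on a primitive `p`-th root of unity by `ζ ↦ ζ ^ c` acts on `E₁[p]` by `c`. -/
theorem NodeData.galois (D : NodeData v a b X Y β p) (τ : G →+ G)
    (hτ0 : ∀ P, P ≠ 0 → τ P ≠ 0) (s : K →+* K)
    (hτX : ∀ P, P ≠ 0 → X (τ P) = s (X P)) (hτY : ∀ P, P ≠ 0 → Y (τ P) = s (Y P))
    (hsv : ∀ u, v (s u) = v u) (hsβ : s β = β) {ζ : K} (hζ : IsPrimitiveRoot ζ p) {c : ℕ}
    (hsζ : s ζ = ζ ^ c) {T : G} (hpT : p • T = 0) (hT : InE1 v X T) : τ T = c • T := by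
  by_cases h0 : T = 0
  · rw [h0, map_zero, smul_zero]
  have hx : 1 < v (X T) := hT.resolve_left h0
  have : NeZero p := ⟨D.pp.ne_zero⟩
  obtain ⟨μ, hμ, hnear⟩ := D.near h0 hpT hx.le
  have hμ1 : μ ≠ 1 := by
    rintro rfl
    exact absurd hnear (not_le.mpr (D.far h0 hpT hx))
  obtain ⟨j, -, hj⟩ := hζ.eq_pow_of_pow_eq_one hμ
  have hsμ : s μ = μ ^ c := by
    rw [← hj, map_pow, hsζ, ← pow_mul, ← pow_mul, mul_comm]
  have hτT0 : τ T ≠ 0 := hτ0 T h0
  have hτx : 1 < v (X (τ T)) := by rw [hτX T h0, hsv]; exact hx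
  have hpτ : p • τ T = 0 := by rw [← map_nsmul, hpT, map_zero]
  have htp : tp X Y β (τ T) = s (tp X Y β T) := by
    unfold tp
    rw [hτX T h0, hτY T h0, map_div₀, map_sub, map_add, map_mul, hsβ]
  have hnearτ : v (tp X Y β (τ T) - μ ^ (c % p)) ≤ v (p : K) := by
    rw [← pow_eq_pow_mod c hμ, ← hsμ, htp, ← map_sub, hsv]
    exact hnear
  have hc0 : c % p ≠ 0 := by
    intro h
    have h1 : s μ = 1 := by rw [hsμ, pow_eq_pow_mod c hμ, h, pow_zero]
    have h2 : s μ = s 1 := by rw [h1, map_one]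
    exact hμ1 (s.injective h2)
  have hcp : c % p < p := Nat.mod_lt c D.pp.pos
  obtain ⟨hn0, hnx, hnv⟩ := D.near_multiple h0 hpT hx hμ hnear (Nat.pos_of_ne_zero hc0) hcp
  have hpn : p • ((c % p) • T) = 0 := by rw [smul_comm, hpT, smul_zero]
  rw [nsmul_eq_mod_nsmul c hpT]
  exact D.rigid hτT0 hn0 hpτ hpn hτx hnx hnearτ hnv

end Node

section Exists

variable {K : Type*} [Field K] {Γ₀ : Type*} [LinearOrderedCommGroupWithZero Γ₀]
  {v : Valuation K Γ₀} {G : Type*} [AddCommGroup G] {a b : K} {X Y : G → K} {β : K} {p : ℕ}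

omit [AddCommGroup G] in
/-- In the node region the component function lies strictly between `v b ^ 2` and `1`. -/
theorem cc_bounds (hb : v b < 1) (hb0 : b ≠ 0) {P : G} (hG : v b < v (X P))
    (hG' : v (X P) < 1) : v b ^ 2 < cc v b X Y β P ∧ cc v b X Y β P < 1 := by
  have hb0' : 0 < v b := v.pos_iff.mpr hb0
  have hx0 : 0 < v (X P) := lt_trans hb0' hG
  have hbb : v b ^ 2 < v b := by
    calc v b ^ 2 = v b * v b := pow_two _
      _ < 1 * v b := mul_lt_mul_of_pos_right hb hb0'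
      _ = v b := one_mul _
  unfold cc
  split_ifs
  · exact ⟨lt_trans hbb hG, hG'⟩
  · constructor
    · rw [lt_div_iff₀ hx0]
      calc v b ^ 2 * v (X P) < v b ^ 2 * 1 := mul_lt_mul_of_pos_left hG' (pow_pos hb0' 2)
        _ = v b ^ 2 := mul_one _
    · rw [div_lt_one₀ hx0]
      exact lt_trans hbb hG

/-- The tropical index of a `p`-torsion point outside `E₀`. -/
theorem NodeData.cc_pow (D : NodeData v a b X Y β p) (hb0 : b ≠ 0) {T₀ : G} (hT₀ : T₀ ≠ 0)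
    (hTX : X T₀ = 0) (hTY : Y T₀ = 0) {P : G} (hP : P ≠ 0) (hpP : p • P = 0)
    (hx : v (X P) < 1) :
    v b < v (X P) ∧ ∃ i : ℕ, 1 ≤ i ∧ i < p ∧ cc v b X Y β P ^ p = v b ^ (2 * i) := by
  have h1p : ¬ p ∣ 1 := Nat.not_dvd_of_pos_of_lt one_pos D.pp.one_lt
  have hPb : v b < v (X P) := by
    have := node_region_of_multiple v D.leg D.va.le D.vb hb0 D.v2 hT₀ hTX hTY D.pp D.p2 hpP hP
      hx h1p
    rw [one_nsmul] at this; exact this.2.1
  refine ⟨hPb, ?_⟩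
  have hp3 : 3 ≤ p := by
    have := D.pp.two_le
    have := D.p2
    omega
  obtain ⟨j, hj⟩ := cc_multiples v D.leg D.va D.vb hb0 D.v2 D.sq hT₀ hTX hTY D.pp D.p2 hpP hP hx
    (p - 1) (by omega) (by omega)
  have hneg : (p - 1) • P = -P := by
    have : (p - 1) • P + P = 0 := by
      rw [← succ_nsmul, Nat.sub_add_cancel D.pp.one_le]; exact hpP
    exact eq_neg_of_add_eq_zero_left this
  rw [hneg] at hj
  have kneg := cc_neg_mul v D.leg D.va D.v2 D.sq hP hPb hx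
  have hc : cc v b X Y β P ^ p = v b ^ (2 * (j + 1)) := by
    calc cc v b X Y β P ^ p = cc v b X Y β P ^ (p - 1) * cc v b X Y β P := by
          rw [← pow_succ, Nat.sub_add_cancel D.pp.one_le]
      _ = cc v b X Y β (-P) * v b ^ (2 * j) * cc v b X Y β P := by rw [hj]
      _ = (cc v b X Y β (-P) * cc v b X Y β P) * v b ^ (2 * j) := by ac_rfl
      _ = v b ^ 2 * v b ^ (2 * j) := by rw [kneg]
      _ = v b ^ (2 * (j + 1)) := by rw [← pow_add]; congr 1; ring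
  obtain ⟨hlo, -⟩ := cc_bounds (β := β) (Y := Y) D.vb hb0 hPb hx
  refine ⟨j + 1, by omega, ?_, hc⟩
  by_contra hge
  have hge' : p ≤ j + 1 := le_of_not_gt hge
  have h1 : v b ^ (2 * (j + 1)) ≤ v b ^ (2 * p) :=
    pow_le_pow_right_of_le_one' D.vb.le (by omega)
  have h2 : v b ^ (2 * p) < cc v b X Y β P ^ p := by
    rw [pow_mul]; exact pow_lt_pow_left₀ hlo zero_le D.pp.ne_zero
  rw [hc] at h2
  exact absurd h1 (not_le.mpr h2)

/-- **`E₁[p] ≠ 0`** as soon as the `p`-torsion is not cyclic (tropical argument: two independent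
`p`-torsion points outside `E₀` have a nonzero combination in `E₀`, and `E₀[p] ⊆ E₁`). -/
theorem NodeData.exists_E1_torsion (D : NodeData v a b X Y β p) (hb0 : b ≠ 0) {T₀ : G}
    (hT₀ : T₀ ≠ 0) (hTX : X T₀ = 0) (hTY : Y T₀ = 0) {P₁ P₂ : G} (h₁ : P₁ ≠ 0)
    (hp₁ : p • P₁ = 0) (hp₂ : p • P₂ = 0) (hind : ∀ n : ℕ, P₂ ≠ n • P₁) :
    ∃ T : G, T ≠ 0 ∧ p • T = 0 ∧ 1 < v (X T) := by
  have h₂ : P₂ ≠ 0 := by
    have := hind 0
    rwa [zero_nsmul] at this
  by_cases hx₁ : 1 ≤ v (X P₁)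
  · exact ⟨P₁, h₁, hp₁, D.E0_torsion_in_E1 h₁ hp₁ hx₁⟩
  by_cases hx₂ : 1 ≤ v (X P₂)
  · exact ⟨P₂, h₂, hp₂, D.E0_torsion_in_E1 h₂ hp₂ hx₂⟩
  have hx₁' : v (X P₁) < 1 := lt_of_not_ge hx₁
  have hx₂' : v (X P₂) < 1 := lt_of_not_ge hx₂
  obtain ⟨hb₁, i₁, hi₁, hi₁p, hc₁⟩ := D.cc_pow hb0 hT₀ hTX hTY h₁ hp₁ hx₁'
  obtain ⟨hb₂, i₂, hi₂, hi₂p, hc₂⟩ := D.cc_pow hb0 hT₀ hTX hTY h₂ hp₂ hx₂'
  have : Fact p.Prime := ⟨D.pp⟩
  have hi₁0 : (i₁ : ZMod p) ≠ 0 := by
    rw [Ne, ZMod.natCast_eq_zero_iff]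
    exact Nat.not_dvd_of_pos_of_lt (by omega) hi₁p
  have hi₂0 : (i₂ : ZMod p) ≠ 0 := by
    rw [Ne, ZMod.natCast_eq_zero_iff]
    exact Nat.not_dvd_of_pos_of_lt (by omega) hi₂p
  obtain ⟨n, hncast, hnp⟩ : ∃ n : ℕ, (n : ZMod p) = (i₂ : ZMod p) * (i₁ : ZMod p)⁻¹ ∧ n < p :=
    ⟨((i₂ : ZMod p) * (i₁ : ZMod p)⁻¹).val, ZMod.natCast_zmod_val _, ZMod.val_lt _⟩
  have hn0 : n ≠ 0 := by
    intro h
    have h' : (n : ZMod p) = 0 := by rw [h]; simp
    rw [hncast] at h'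
    exact mul_ne_zero hi₂0 (inv_ne_zero hi₁0) h'
  have hn1 : 1 ≤ n := Nat.pos_of_ne_zero hn0
  have hnd : ¬ p ∣ n := Nat.not_dvd_of_pos_of_lt hn1 hnp
  obtain ⟨hQ0, hQb, hQ1⟩ := node_region_of_multiple v D.leg D.va.le D.vb hb0 D.v2 hT₀ hTX hTY
    D.pp D.p2 hp₁ h₁ hx₁' hnd
  have hpQ : p • (n • P₁) = 0 := by rw [smul_comm, hp₁, smul_zero]
  obtain ⟨-, i', hi', hi'p, hc'⟩ := D.cc_pow hb0 hT₀ hTX hTY hQ0 hpQ hQ1
  obtain ⟨j', hj'⟩ := cc_multiples v D.leg D.va D.vb hb0 D.v2 D.sq hT₀ hTX hTY D.pp D.p2 hp₁ h₁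
    hx₁' n hn1 hnp
  have hb0' : 0 < v b := v.pos_iff.mpr hb0
  have hexp : 2 * i' + 2 * j' * p = 2 * i₁ * n := by
    have h : v b ^ (2 * i' + 2 * j' * p) = v b ^ (2 * i₁ * n) := by
      calc v b ^ (2 * i' + 2 * j' * p) = v b ^ (2 * i') * (v b ^ (2 * j')) ^ p := by
            rw [pow_add, pow_mul (v b) (2 * j') p]
        _ = cc v b X Y β (n • P₁) ^ p * (v b ^ (2 * j')) ^ p := by rw [hc']
        _ = (cc v b X Y β (n • P₁) * v b ^ (2 * j')) ^ p := (mul_pow _ _ _).symm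
        _ = (cc v b X Y β P₁ ^ n) ^ p := by rw [hj']
        _ = (cc v b X Y β P₁ ^ p) ^ n := by rw [← pow_mul, ← pow_mul, mul_comm]
        _ = v b ^ (2 * i₁ * n) := by rw [hc₁, ← pow_mul]
    exact (pow_right_inj₀ hb0' D.vb.ne).mp h
  have hi'eq : i' = i₂ := by
    have hz : (i' : ZMod p) = (i₂ : ZMod p) := by
      have h2 : ((2 * i' + 2 * j' * p : ℕ) : ZMod p) = ((2 * i₁ * n : ℕ) : ZMod p) := by
        rw [hexp]
      push_cast at h2
      rw [ZMod.natCast_self, mul_zero, add_zero, hncast] at h2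
      have h2ne : (2 : ZMod p) ≠ 0 := by
        have h3 : ((2 : ℕ) : ZMod p) ≠ 0 := by
          rw [Ne, ZMod.natCast_eq_zero_iff]
          intro hdvd
          exact D.p2 ((Nat.prime_dvd_prime_iff_eq D.pp Nat.prime_two).mp hdvd)
        exact_mod_cast h3
      have h4 : (2 : ZMod p) * i' = 2 * i₂ := by
        rw [h2]; field_simp
      exact mul_left_cancel₀ h2ne h4
    have h5 := congrArg ZMod.val hz
    rwa [ZMod.val_natCast_of_lt hi'p, ZMod.val_natCast_of_lt hi₂p] at h5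
  have hcc : cc v b X Y β (n • P₁) = cc v b X Y β P₂ := by
    apply (pow_left_inj₀ zero_le zero_le D.pp.ne_zero).mp
    rw [hc', hc₂, hi'eq]
  have hR0 : P₂ - n • P₁ ≠ 0 := sub_ne_zero.mpr (hind n)
  have hpR : p • (P₂ - n • P₁) = 0 := by rw [smul_sub, hp₂, hpQ, sub_zero]
  by_cases hxR : 1 ≤ v (X (P₂ - n • P₁))
  · exact ⟨_, hR0, hpR, D.E0_torsion_in_E1 hR0 hpR hxR⟩
  exfalso
  have hxR' : v (X (P₂ - n • P₁)) < 1 := lt_of_not_ge hxR
  obtain ⟨hRb, -⟩ := D.cc_pow hb0 hT₀ hTX hTY hR0 hpR hxR'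
  have hP₂' : -P₂ ≠ 0 := neg_ne_zero.mpr h₂
  have hsum : n • P₁ + (P₂ - n • P₁) + -P₂ = 0 := by abel
  have tri := node_triple v D.leg D.va hb0 D.v2 D.sq hQ0 hR0 hP₂' hsum hQb hQ1 hRb hxR'
    (by rw [D.leg.negX _ h₂]; exact hb₂) (by rw [D.leg.negX _ h₂]; exact hx₂')
  have kneg := cc_neg_mul v D.leg D.va D.v2 D.sq h₂ hb₂ hx₂'
  obtain ⟨hlo, hhi⟩ := cc_bounds (β := β) (Y := Y) D.vb hb0 hRb hxR'
  have hb2 : v b ^ 2 ≠ 0 := (pow_pos hb0' 2).ne'
  have e : cc v b X Y β (n • P₁) * cc v b X Y β (P₂ - n • P₁) * cc v b X Y β (-P₂) =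
      cc v b X Y β (P₂ - n • P₁) * v b ^ 2 := by
    rw [hcc, ← kneg]; ac_rfl
  rw [e] at tri
  rcases tri with tri | tri
  · have h1 : cc v b X Y β (P₂ - n • P₁) * v b ^ 2 = 1 * v b ^ 2 := by rw [tri, one_mul]
    have h2 := mul_right_cancel₀ hb2 h1
    rw [h2] at hhi
    exact lt_irrefl _ hhi
  · have h1 : cc v b X Y β (P₂ - n • P₁) * v b ^ 2 = v b ^ 2 * v b ^ 2 := by
      rw [tri, ← pow_add]
    have h2 := mul_right_cancel₀ hb2 h1
    rw [h2] at hlo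
    exact lt_irrefl _ hlo

end Exists


end Fermat.Agent.S44.helper2884
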