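import Mathlib

/-!
# S44-L8-ODDSPAN, abstract core (helper2984)

The Burnside hypothesis `Submodule.span k (Set.range ρ) = ⊤` of the Boston–Lenstra–Ribet step for
a two-dimensional representation that is only known to be irreducible over the (small) field `k`,
from an involution with "cyclotomic value" `-1`.  No Weil pairing, no Brauer–Nesbitt, no
algebraic closure.

`V` a plane over a field `k` with `2 ≠ 0`, `ρ : G →* End_k V` irreducible,
`d : G →* k` a multiplicative function (the mod `p` cyclotomic character), such that every `g`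
has SOME `t` with `ρ g ² - t ρ g + d g = 0` (the common-quadratic shape that generator-Chebotarev
and the Frobenius relation give), and `c : G` with `c * c = 1`, `d c = -1` (complex
conjugation).  Then

* `exists_nonscalar` : some `ρ h` is not a scalar;
* `trace_det_of_nonscalar_quad` : for a non-scalar `f`, an annihilating monic quadratic is the
  characteristic polynomial;
* `det_eq_of_quad` : `det (ρ g) = d g` for every `g`;
* `involution_nonscalar` : `ρ c` is not a scalar;
* `span_range_eq_top` : `Submodule.span k (Set.range ρ) = ⊤`.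
-/

set_option autoImplicit false

namespace Fermat.Agent.S44.helper2984

open Module

section Core

variable {k : Type*} [Field k] {V : Type*} [AddCommGroup V] [Module k V]

/-- Cayley–Hamilton on a plane, explicit form. -/
theorem end_sq_sub_trace_add_det (hV : finrank k V = 2) (f : Module.End k V) :
    f * f - LinearMap.trace k V f • f + LinearMap.det f • (1 : Module.End k V) = 0 := by
  have : Module.Finite k V := Module.finite_of_finrank_pos (by omega)
  let b : Basis (Fin 2) k V := Module.finBasisOfFinrankEq k V hV
  have h1 := LinearMap.aeval_self_charpoly f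
  rw [← LinearMap.charpoly_toMatrix f b, Matrix.charpoly_fin_two,
    ← LinearMap.trace_eq_matrix_trace k b f, LinearMap.det_toMatrix b f] at h1
  simpa [pow_two, Algebra.algebraMap_eq_smul_one] using h1

/-- A plane is nontrivial. -/
theorem nontrivial_of_finrank_two (hV : finrank k V = 2) : Nontrivial V :=
  Module.nontrivial_of_finrank_pos (R := k) (by omega)

/-- Scalars of `End_k V` are determined by their value. -/
theorem smul_one_injective (hV : finrank k V = 2) {s t : k}
    (h : s • (1 : Module.End k V) = t • (1 : Module.End k V)) : s = t := by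
  have := nontrivial_of_finrank_two hV
  obtain ⟨v, hv⟩ := exists_ne (0 : V)
  have h1 := congrArg (fun f : Module.End k V => f v) h
  simp only [LinearMap.smul_apply, Module.End.one_apply] at h1
  exact smul_left_injective k hv h1

/-- For a non-scalar endomorphism of a plane, an annihilating monic quadratic is the
characteristic polynomial. -/
theorem trace_det_of_nonscalar_quad (hV : finrank k V = 2) (f : Module.End k V)
    (hf : ∀ s : k, f ≠ s • (1 : Module.End k V)) {t d : k}
    (h : f * f - t • f + d • (1 : Module.End k V) = 0) :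
    LinearMap.trace k V f = t ∧ LinearMap.det f = d := by
  have hch := end_sq_sub_trace_add_det hV f
  have key : (t - LinearMap.trace k V f) • f
      = (d - LinearMap.det f) • (1 : Module.End k V) := by
    have e : (t - LinearMap.trace k V f) • f - (d - LinearMap.det f) • (1 : Module.End k V)
        = (f * f - LinearMap.trace k V f • f + LinearMap.det f • (1 : Module.End k V))
          - (f * f - t • f + d • (1 : Module.End k V)) := by
      simp only [sub_smul]
      abel
    rw [hch, h, sub_zero] at e
    exact sub_eq_zero.mp e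
  have ht : LinearMap.trace k V f = t := by
    by_contra hne
    have hne' : t - LinearMap.trace k V f ≠ 0 := sub_ne_zero.mpr (Ne.symm hne)
    apply hf ((t - LinearMap.trace k V f)⁻¹ * (d - LinearMap.det f))
    rw [mul_smul, ← key, smul_smul, inv_mul_cancel₀ hne', one_smul]
  refine ⟨ht, ?_⟩
  rw [ht, sub_self, zero_smul] at key
  have h0 : (d - LinearMap.det f) • (1 : Module.End k V) = (0 : k) • (1 : Module.End k V) := by
    rw [← key, zero_smul]
  have h1 := smul_one_injective hV h0
  exact (sub_eq_zero.mp h1).symm

variable {G : Type*} [Group G]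

/-- The determinant of a group element is nonzero. -/
theorem det_rho_ne_zero (ρ : G →* Module.End k V) (g : G) : LinearMap.det (ρ g) ≠ 0 := by
  intro h0
  have h1 : LinearMap.det (ρ g) * LinearMap.det (ρ g⁻¹) = 1 := by
    rw [← map_mul, ← map_mul, mul_inv_cancel, map_one, map_one]
  rw [h0, zero_mul] at h1
  exact zero_ne_one h1

/-- A multiplicative function on a group has nonzero values. -/
theorem monoidHom_ne_zero (d : G →* k) (g : G) : d g ≠ 0 := by
  intro h0
  have h1 : d g * d g⁻¹ = 1 := by rw [← map_mul, mul_inv_cancel, map_one]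
  rw [h0, zero_mul] at h1
  exact zero_ne_one h1

/-- An irreducible representation on a plane has a non-scalar element. -/
theorem exists_nonscalar (hV : finrank k V = 2) (ρ : G →* Module.End k V)
    (hirr : ∀ N : Submodule k V, (∀ g : G, ∀ x ∈ N, ρ g x ∈ N) → N = ⊥ ∨ N = ⊤) :
    ∃ h : G, ∀ s : k, ρ h ≠ s • (1 : Module.End k V) := by
  by_contra hcon
  push Not at hcon
  have := nontrivial_of_finrank_two hV
  obtain ⟨v, hv⟩ := exists_ne (0 : V)
  have hst : ∀ g : G, ∀ x ∈ Submodule.span k {v}, ρ g x ∈ Submodule.span k {v} := by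
    intro g x hx
    obtain ⟨s, hs⟩ := hcon g
    rw [hs, LinearMap.smul_apply, Module.End.one_apply]
    exact Submodule.smul_mem _ _ hx
  rcases hirr _ hst with h | h
  · exact hv ((Submodule.span_singleton_eq_bot).mp h)
  · have h1 : finrank k (Submodule.span k {v}) = 1 := finrank_span_singleton hv
    rw [h, finrank_top, hV] at h1
    omega

/-- **`det = d`** for every group element, from the common quadratics and multiplicativity
of `d`. -/
theorem det_eq_of_quad (hV : finrank k V = 2) (ρ : G →* Module.End k V) (d : G →* k)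
    (hq : ∀ g : G, ∃ t : k, ρ g * ρ g - t • ρ g + d g • (1 : Module.End k V) = 0)
    (hns : ∃ h : G, ∀ s : k, ρ h ≠ s • (1 : Module.End k V)) (g : G) :
    LinearMap.det (ρ g) = d g := by
  by_cases hg : ∀ s : k, ρ g ≠ s • (1 : Module.End k V)
  · obtain ⟨t, ht⟩ := hq g
    exact (trace_det_of_nonscalar_quad hV (ρ g) hg ht).2
  · push Not at hg
    obtain ⟨s, hs⟩ := hg
    obtain ⟨h, hh⟩ := hns
    have hdet_g : LinearMap.det (ρ g) = s ^ 2 := by
      rw [hs, LinearMap.det_smul, hV, map_one, mul_one]
    have hs0 : s ≠ 0 := by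
      intro h0
      apply det_rho_ne_zero ρ g
      rw [hdet_g, h0]
      ring
    have hgh : ρ (g * h) = s • ρ h := by
      rw [map_mul, hs, smul_mul_assoc, one_mul]
    have hns' : ∀ s' : k, ρ (g * h) ≠ s' • (1 : Module.End k V) := by
      intro s' h1
      apply hh (s⁻¹ * s')
      rw [mul_smul, ← h1, hgh, smul_smul, inv_mul_cancel₀ hs0, one_smul]
    obtain ⟨t1, ht1⟩ := hq (g * h)
    obtain ⟨t2, ht2⟩ := hq h
    have e1 := (trace_det_of_nonscalar_quad hV _ hns' ht1).2
    have e2 := (trace_det_of_nonscalar_quad hV _ hh ht2).2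
    rw [hgh, LinearMap.det_smul, hV, e2, map_mul] at e1
    have hdh := monoidHom_ne_zero d h
    rw [hdet_g]
    exact mul_right_cancel₀ hdh e1

/-- An involution with `d c = -1` is not a scalar. -/
theorem involution_nonscalar (hV : finrank k V = 2) (h2 : (2 : k) ≠ 0)
    (ρ : G →* Module.End k V) (d : G →* k)
    (hq : ∀ g : G, ∃ t : k, ρ g * ρ g - t • ρ g + d g • (1 : Module.End k V) = 0)
    (hns : ∃ h : G, ∀ s : k, ρ h ≠ s • (1 : Module.End k V))
    (c : G) (hc : c * c = 1) (hdc : d c = -1) :
    ∀ s : k, ρ c ≠ s • (1 : Module.End k V) := by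
  intro s hs
  have h1 : LinearMap.det (ρ c) = -1 := by rw [det_eq_of_quad hV ρ d hq hns c, hdc]
  have h3 : ρ c * ρ c = 1 := by rw [← map_mul, hc, map_one]
  have h4 : (s * s) • (1 : Module.End k V) = (1 : k) • (1 : Module.End k V) := by
    have e : (s • (1 : Module.End k V)) * (s • (1 : Module.End k V)) = 1 := by
      rw [← hs]
      exact h3
    rw [smul_mul_smul_comm, one_mul] at e
    rw [e, one_smul]
  have h5 : s * s = 1 := smul_one_injective hV h4
  rw [hs, LinearMap.det_smul, hV, map_one, mul_one, pow_two, h5] at h1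
  apply h2
  linear_combination h1

/-- **The Burnside hypothesis from irreducibility over `k` and oddness.** -/
theorem span_range_eq_top (hV : finrank k V = 2) (h2 : (2 : k) ≠ 0)
    (ρ : G →* Module.End k V)
    (hirr : ∀ N : Submodule k V, (∀ g : G, ∀ x ∈ N, ρ g x ∈ N) → N = ⊥ ∨ N = ⊤)
    (d : G →* k)
    (hq : ∀ g : G, ∃ t : k, ρ g * ρ g - t • ρ g + d g • (1 : Module.End k V) = 0)
    (c : G) (hc : c * c = 1) (hdc : d c = -1) :
    Submodule.span k (Set.range ρ) = ⊤ := by
  classical
  have hns := exists_nonscalar hV ρ hirr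
  have hcns := involution_nonscalar hV h2 ρ d hq hns c hc hdc
  -- the span is the subalgebra generated by the image
  have hspan : Submodule.span k (Set.range ρ)
      = Subalgebra.toSubmodule (Algebra.adjoin k (Set.range ρ)) := by
    rw [Algebra.adjoin_eq_span, ← MonoidHom.coe_mrange, Submonoid.closure_eq]
  set 𝔸 : Subalgebra k (Module.End k V) := Algebra.adjoin k (Set.range ρ) with h𝔸
  have hmem : ∀ g : G, ρ g ∈ 𝔸 := fun g => Algebra.subset_adjoin ⟨g, rfl⟩
  suffices h : 𝔸 = ⊤ by rw [hspan, h, Algebra.top_toSubmodule]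
  -- the two idempotents of the involution
  set A : Module.End k V := ρ c with hA
  have hA2 : A * A = 1 := by rw [hA, ← map_mul, hc, map_one]
  set P : Module.End k V := (2⁻¹ : k) • (1 + A) with hP
  set Q : Module.End k V := (2⁻¹ : k) • (1 - A) with hQ
  have hPmem : P ∈ 𝔸 := 𝔸.smul_mem (𝔸.add_mem 𝔸.one_mem (hmem c)) _
  have hQmem : Q ∈ 𝔸 := 𝔸.smul_mem (𝔸.sub_mem 𝔸.one_mem (hmem c)) _
  have e1 : (1 + A) * (1 + A) = (2 : k) • (1 + A) := by
    rw [two_smul]
    simp only [mul_add, add_mul, one_mul, mul_one, hA2]
    abel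
  have e2 : (1 - A) * (1 - A) = (2 : k) • (1 - A) := by
    rw [two_smul]
    simp only [mul_sub, sub_mul, one_mul, mul_one, hA2]
    abel
  have e3 : (1 + A) * (1 - A) = 0 := by
    simp only [mul_sub, add_mul, one_mul, mul_one, hA2]
    abel
  have e4 : (1 - A) * (1 + A) = 0 := by
    simp only [mul_add, sub_mul, one_mul, mul_one, hA2]
    abel
  have hPP : P * P = P := by
    rw [hP, smul_mul_smul_comm, e1, smul_smul, mul_assoc, inv_mul_cancel₀ h2, mul_one]
  have hQQ : Q * Q = Q := by
    rw [hQ, smul_mul_smul_comm, e2, smul_smul, mul_assoc, inv_mul_cancel₀ h2, mul_one]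
  have hPQ : P * Q = 0 := by rw [hP, hQ, smul_mul_smul_comm, e3, smul_zero]
  have hQP : Q * P = 0 := by rw [hP, hQ, smul_mul_smul_comm, e4, smul_zero]
  have hP0 : P ≠ 0 := by
    intro h0
    have h1 : (1 : Module.End k V) + A = 0 := by
      have := congrArg (fun f : Module.End k V => (2 : k) • f) h0
      simpa [hP, smul_smul, mul_inv_cancel₀ h2] using this
    apply hcns (-1)
    rw [neg_smul, one_smul]
    exact eq_neg_of_add_eq_zero_right h1
  have hQ0 : Q ≠ 0 := by
    intro h0
    have h1 : (1 : Module.End k V) - A = 0 := by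
      have := congrArg (fun f : Module.End k V => (2 : k) • f) h0
      simpa [hQ, smul_smul, mul_inv_cancel₀ h2] using this
    apply hcns 1
    rw [one_smul]
    exact (sub_eq_zero.mp h1).symm
  obtain ⟨x, hx⟩ : ∃ x : V, P x ≠ 0 := by
    by_contra hcon
    push Not at hcon
    exact hP0 (LinearMap.ext hcon)
  obtain ⟨y, hy⟩ : ∃ y : V, Q y ≠ 0 := by
    by_contra hcon
    push Not at hcon
    exact hQ0 (LinearMap.ext hcon)
  have hPx : P (P x) = P x := by
    have := congrArg (fun f : Module.End k V => f x) hPP
    simpa using this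
  have hQx : Q (P x) = 0 := by
    have := congrArg (fun f : Module.End k V => f x) hQP
    simpa using this
  have hQy : Q (Q y) = Q y := by
    have := congrArg (fun f : Module.End k V => f y) hQQ
    simpa using this
  have hPy : P (Q y) = 0 := by
    have := congrArg (fun f : Module.End k V => f y) hPQ
    simpa using this
  -- the eigenbasis
  have hli : LinearIndependent k ![P x, Q y] := by
    rw [LinearIndependent.pair_iff]
    intro s t hst
    constructor
    · have := congrArg P hst
      rw [map_add, map_smul, map_smul, hPx, hPy, smul_zero, add_zero, map_zero] at this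
      exact (smul_eq_zero.mp this).resolve_right hx
    · have := congrArg Q hst
      rw [map_add, map_smul, map_smul, hQx, hQy, smul_zero, zero_add, map_zero] at this
      exact (smul_eq_zero.mp this).resolve_right hy
  let b : Basis (Fin 2) k V :=
    basisOfLinearIndependentOfCardEqFinrank hli (by rw [Fintype.card_fin, hV])
  have hb : ⇑b = ![P x, Q y] := coe_basisOfLinearIndependentOfCardEqFinrank hli _
  -- transitivity of the algebra on nonzero vectors
  have htrans : ∀ v : V, v ≠ 0 → ∀ w : V, ∃ a ∈ 𝔸, a v = w := by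
    intro v hv w
    let N : Submodule k V := (Subalgebra.toSubmodule 𝔸).map (LinearMap.applyₗ v)
    have hN : ∀ g : G, ∀ z ∈ N, ρ g z ∈ N := by
      intro g z hz
      obtain ⟨a, ha, rfl⟩ := hz
      exact ⟨ρ g * a, 𝔸.mul_mem (hmem g) ha, rfl⟩
    have hvN : v ∈ N := ⟨1, 𝔸.one_mem, rfl⟩
    rcases hirr N hN with h | h
    · rw [h, Submodule.mem_bot] at hvN
      exact absurd hvN hv
    · have hw : w ∈ N := by rw [h]; exact Submodule.mem_top
      obtain ⟨a, ha, rfl⟩ := hw
      exact ⟨a, ha, rfl⟩
  refine eq_top_iff.mpr (fun M _ => ?_)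
  obtain ⟨a, ha, hav⟩ := htrans (P x) hx (M (P x))
  obtain ⟨a', ha', hav'⟩ := htrans (Q y) hy (M (Q y))
  have hM : M = a * P + a' * Q := by
    apply b.ext
    intro i
    fin_cases i
    · simp [hb, hPx, hQx, hav]
    · simp [hb, hPy, hQy, hav']
  rw [hM]
  exact 𝔸.add_mem (𝔸.mul_mem ha hPmem) (𝔸.mul_mem ha' hQmem)

end Core

end Fermat.Agent.S44.helper2984
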