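import Fermat.Agent.S44.helper2984_OddSpan
import Fermat.Agent.S58.helper8215_Hres
import Fermat.Agent.S58.helper1646_GalRel
import Fermat.Agent.Lib.helper1397_TorsionCard

/-!
# S44-L8-ODDSPAN, the instance for `E[p]` over `ℚ̄` (helper2984)

`E` an elliptic curve over `ℚ` with an integral model `W`, `p` an odd prime with `E[p]`
irreducible (frozen `GaloisRepIsIrreducible`: irreducible over `𝔽_p` only).  Then, with NO Weil
pairing:

* `exists_common_quad` : every `g ∈ Gal(ℚ̄/ℚ)` has `t : ℤ`, `d : ℕ` with `g² - t g + d = 0` on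
  `E[p]` and `g ζ = ζ ^ d` for every `p`-th root of unity `ζ` (generator-Chebotarev + the
  Frobenius relation on torsion + Lucas; unconditional, no irreducibility);
* `cycChar ζ hζ : Gal(ℚ̄/ℚ) →* ZMod p` : the mod `p` cyclotomic character, with
  `cycChar_spec : g ζ = ζ ^ d → cycChar ζ hζ g = d`;
* `span_range_rhoE_eq_top` : `Submodule.span (ZMod p) (Set.range ρ_{E,p}) = ⊤`, the Burnside
  hypothesis of the Boston–Lenstra–Ribet step (landed `S32.helper929.univ_exists_algHom` /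
  `matLift_surjective_of_span`);
* `det_rhoE_eq_cycChar` : `det ρ_{E,p}(g) = χ_p(g)` for every `g`;
* `span_range_frey`, `det_frey` : the same for the Frey curve of a `FreyPackage`.

The hypothesis-passing forms (`*_of_quad`) take the common quadratics as an input, in the
`End`-shape and in the point shape of the landed `helper5765.frob_relation_of_isIntegralModelOf`.
-/

set_option autoImplicit false

namespace Fermat.Agent.S44.helper2984

open WeierstrassCurve WeierstrassCurve.Affine WeierstrassCurve.Affine.Point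

local notation "Qb" => AlgebraicClosure ℚ
local notation "GQ" => (AlgebraicClosure ℚ ≃ₐ[ℚ] AlgebraicClosure ℚ)

section Instance

variable (E : WeierstrassCurve ℚ) (p : ℕ)

/-- The `p`-torsion of `E(ℚ̄)` (frozen shape). -/
abbrev TorE : Type := Submodule.torsionBy ℤ (E⁄Qb).Point p

/-- The mod `p` representation on `E[p]` (frozen shape). -/
noncomputable abbrev rhoE : GQ →* Module.End (ZMod p) (TorE E p) :=
  galoisRepModuleEnd (S := ℚ) (K := AlgebraicClosure ℚ) E p

variable {E p}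

/-- The `End`-shape of a quadratic relation from the relation on points. -/
theorem rel_end_of_points (σ : GQ) (t : ℤ) (d : ℕ)
    (hrel : ∀ P : (E⁄Qb).Point, p • P = 0 → σ • σ • P - t • σ • P + (d : ℤ) • P = 0) :
    rhoE E p σ * rhoE E p σ - (t : ZMod p) • rhoE E p σ
      + (d : ZMod p) • (1 : Module.End (ZMod p) (TorE E p)) = 0 := by
  apply LinearMap.ext
  intro P
  have hP : p • (P : (E⁄Qb).Point) = 0 := by
    have h := (Submodule.mem_torsionBy_iff _ _).mp P.2
    rwa [natCast_zsmul] at h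
  have key := hrel P.1 hP
  apply Subtype.ext
  simp only [LinearMap.add_apply, LinearMap.sub_apply, LinearMap.smul_apply, Module.End.mul_apply,
    Module.End.one_apply, galoisRepModuleEnd_apply, LinearMap.zero_apply]
  rw [Int.cast_smul_eq_zsmul, Nat.cast_smul_eq_nsmul]
  rw [natCast_zsmul] at key
  exact key

variable [hpF : Fact p.Prime]

/-- The mod `p` cyclotomic character attached to a primitive `p`-th root of unity of `ℚ̄`,
valued in `ZMod p`. -/
noncomputable def cycChar (ζ : Qb) (hζ : IsPrimitiveRoot ζ p) : GQ →* ZMod p :=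
  haveI : NeZero p := ⟨hpF.out.ne_zero⟩
  (Units.coeHom (ZMod p)).comp (hζ.autToPow ℚ)

/-- The defining property of the cyclotomic character. -/
theorem cycChar_spec (ζ : Qb) (hζ : IsPrimitiveRoot ζ p) (σ : GQ) (d : ℕ) (h : σ ζ = ζ ^ d) :
    cycChar ζ hζ σ = (d : ZMod p) := by
  have : NeZero p := ⟨hpF.out.ne_zero⟩
  have h1 := hζ.autToPow_spec ℚ σ
  rw [h] at h1
  have hζ0 : ζ ≠ 0 := hζ.ne_zero hpF.out.ne_zero
  have h1u : (Units.mk0 ζ hζ0) ^ ((hζ.autToPow ℚ σ : (ZMod p)ˣ) : ZMod p).val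
      = (Units.mk0 ζ hζ0) ^ d := by
    apply Units.ext
    rw [Units.val_pow_eq_pow_val, Units.val_pow_eq_pow_val, Units.val_mk0]
    exact h1
  have h2 := pow_eq_pow_iff_modEq.mp h1u
  have hord : orderOf (Units.mk0 ζ hζ0) = p := by
    rw [← orderOf_units, Units.val_mk0]
    exact hζ.eq_orderOf.symm
  rw [hord] at h2
  have h3 := (ZMod.natCast_eq_natCast_iff _ _ _).mpr h2
  rw [ZMod.natCast_zmod_val] at h3
  exact h3

/-- `E[p]` is a plane over `𝔽_p`. -/
theorem finrank_torE [E.IsElliptic] : Module.finrank (ZMod p) (TorE E p) = 2 := by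
  have hE : (E⁄Qb).IsElliptic := inferInstanceAs ((E.map (algebraMap ℚ Qb)).IsElliptic)
  have hcard : Nat.card (TorE E p) = p ^ 2 :=
    Fermat.Agent.Lib.helper5856.card_torsionBy (W := E⁄Qb) p
      (by exact_mod_cast hpF.out.ne_zero)
  have hfin : Finite (TorE E p) :=
    Nat.finite_of_card_ne_zero (by rw [hcard]; exact pow_ne_zero _ hpF.out.ne_zero)
  have h1 := Module.natCard_eq_pow_finrank (K := ZMod p) (V := TorE E p)
  rw [hcard, Nat.card_zmod] at h1
  exact (Nat.pow_right_injective hpF.out.two_le h1).symm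

/-- `2 ≠ 0` in `ZMod p` for an odd prime `p`. -/
theorem two_ne_zero_zmod (hp2 : p ≠ 2) : (2 : ZMod p) ≠ 0 := by
  intro h
  have h1 : p ∣ 2 := (ZMod.natCast_eq_zero_iff 2 p).mp (by exact_mod_cast h)
  have h3 := Nat.le_of_dvd (by norm_num) h1
  have h4 := hpF.out.two_le
  omega

/-- Complex conjugation has cyclotomic value `-1`. -/
theorem cycChar_complexConjugation (hp2 : p ≠ 2) (ζ : Qb) (hζ : IsPrimitiveRoot ζ p) :
    cycChar ζ hζ complexConjugation = -1 := by
  have hinv : complexConjugation ζ = ζ⁻¹ :=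
    Fermat.Agent.S58.helper8215.involution_apply_root complexConjugation
      complexConjugation_mul_self Fermat.Agent.S58.helper8215.complexConjugation_ne_one
      hpF.out hp2 ζ hζ.pow_eq_one
  have hζ0 : ζ ≠ 0 := hζ.ne_zero hpF.out.ne_zero
  have h1 : complexConjugation ζ = ζ ^ (p - 1) := by
    rw [hinv]
    apply inv_eq_of_mul_eq_one_right
    rw [← pow_succ', Nat.sub_add_cancel hpF.out.one_le, hζ.pow_eq_one]
  rw [cycChar_spec ζ hζ _ _ h1]
  have h3 : (((p - 1 : ℕ) : ZMod p) + 1) = 0 := by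
    have : (((p - 1 + 1 : ℕ)) : ZMod p) = 0 := by
      rw [Nat.sub_add_cancel hpF.out.one_le]
      exact ZMod.natCast_self p
    push_cast at this
    exact this
  linear_combination h3

/-- **span = ⊤, hypothesis-passing (`End`-shape).** -/
theorem span_range_rhoE_eq_top_of_quad [E.IsElliptic] (hp2 : p ≠ 2)
    (hirr : GaloisRepIsIrreducible (K := AlgebraicClosure ℚ) ℚ E p)
    (ζ : Qb) (hζ : IsPrimitiveRoot ζ p)
    (hq : ∀ σ : GQ, ∃ (t : ZMod p) (d : ℕ),
      rhoE E p σ * rhoE E p σ - t • rhoE E p σ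
        + (d : ZMod p) • (1 : Module.End (ZMod p) (TorE E p)) = 0 ∧ σ ζ = ζ ^ d) :
    Submodule.span (ZMod p) (Set.range (rhoE E p)) = ⊤ := by
  refine span_range_eq_top finrank_torE (two_ne_zero_zmod hp2) (rhoE E p)
    (fun N hN => hirr.2 N hN) (cycChar ζ hζ) ?_ complexConjugation complexConjugation_mul_self
    (cycChar_complexConjugation hp2 ζ hζ)
  intro σ
  obtain ⟨t, d, hrel, hσζ⟩ := hq σ
  exact ⟨t, by rw [cycChar_spec ζ hζ σ d hσζ]; exact hrel⟩

/-- **`det = cyclotomic`, hypothesis-passing (`End`-shape).** -/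
theorem det_rhoE_eq_cycChar_of_quad [E.IsElliptic]
    (hirr : GaloisRepIsIrreducible (K := AlgebraicClosure ℚ) ℚ E p)
    (ζ : Qb) (hζ : IsPrimitiveRoot ζ p)
    (hq : ∀ σ : GQ, ∃ (t : ZMod p) (d : ℕ),
      rhoE E p σ * rhoE E p σ - t • rhoE E p σ
        + (d : ZMod p) • (1 : Module.End (ZMod p) (TorE E p)) = 0 ∧ σ ζ = ζ ^ d) (g : GQ) :
    LinearMap.det (rhoE E p g) = cycChar ζ hζ g := by
  refine det_eq_of_quad finrank_torE (rhoE E p) (cycChar ζ hζ) ?_
    (exists_nonscalar finrank_torE (rhoE E p) (fun N hN => hirr.2 N hN)) g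
  intro σ
  obtain ⟨t, d, hrel, hσζ⟩ := hq σ
  exact ⟨t, by rw [cycChar_spec ζ hζ σ d hσζ]; exact hrel⟩

end Instance

/-! ### The common quadratics, unconditionally -/

/-- The relation on the torsion module from the relation on points. -/
theorem rel_tors_of_points {E : WeierstrassCurve ℚ} {p : ℕ} (σ : GQ) (t d : ℤ)
    (hrel : ∀ P : (E⁄Qb).Point, p • P = 0 → σ • σ • P - t • σ • P + d • P = 0) :
    Fermat.Agent.S58.helper8967.Rel σ t d (TorE E p) := by
  intro v
  have hv : p • (v : (E⁄Qb).Point) = 0 := by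
    have h := (Submodule.mem_torsionBy_iff _ _).mp v.2
    rwa [natCast_zsmul] at h
  have key := hrel v.1 hv
  apply Subtype.ext
  exact key

/-- The relation on points from the relation on the torsion module. -/
theorem points_of_rel_tors {E : WeierstrassCurve ℚ} {p : ℕ} (σ : GQ) (t d : ℤ)
    (hrel : Fermat.Agent.S58.helper8967.Rel σ t d (TorE E p))
    (P : (E⁄Qb).Point) (hP : p • P = 0) : σ • σ • P - t • σ • P + d • P = 0 := by
  have hmem : P ∈ Submodule.torsionBy ℤ (E⁄Qb).Point p := by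
    rw [Submodule.mem_torsionBy_iff, natCast_zsmul]
    exact hP
  have key := congrArg Subtype.val (hrel ⟨P, hmem⟩)
  exact key

/-- The bad primes of an integral model, together with `p`. -/
noncomputable def badSet (W : WeierstrassCurve ℤ) (p : ℕ) : Finset ℕ :=
  insert p W.Δ.natAbs.primeFactors

theorem good_of_not_mem_badSet {W : WeierstrassCurve ℤ} (hΔ : W.Δ ≠ 0) {p ℓ : ℕ}
    (hℓ : ℓ.Prime) (h : ℓ ∉ badSet W p) : W.IsGoodPrimeFor ℓ ∧ ℓ ≠ p := by
  rw [badSet, Finset.mem_insert, not_or] at h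
  refine ⟨?_, h.1⟩
  intro hdvd
  apply h.2
  rw [Nat.mem_primeFactors]
  exact ⟨hℓ, Int.natCast_dvd.mp hdvd, Int.natAbs_ne_zero.mpr hΔ⟩

/-- **Common quadratics with the Frobenius exposed** (the form a second module consumes).
`E` a curve over `ℚ` with an integral model `W` (`Δ ≠ 0`), `p` a prime, `L₀` any finite level,
`T₀` any finite set of primes.  Every `g ∈ Gal(ℚ̄/ℚ)` agrees on `L₀`, on `E[p]` and on `μ_p` with
`τ ^ j`, where `τ` is a Frobenius element at a prime `ℓ ∉ T₀`, `ℓ ≠ p`, good for `W`; and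
`g² - V_j(a_ℓ(W), ℓ) g + ℓ ^ j = 0` on `E[p]`, `g ζ = ζ ^ (ℓ ^ j)` on `μ_p`.  (Any other module
on which `g` acts through `L₀` and on which `τ² - a_ℓ(W) τ + ℓ = 0` gets the SAME quadratic for
`g` from `helper8967.smul_pow_relation`.) -/
theorem exists_frob_pow_quad (E : WeierstrassCurve ℚ) (W : WeierstrassCurve ℤ)
    (hWE : W.IsIntegralModelOf E) (hΔ : W.Δ ≠ 0) (p : ℕ) (hp : p.Prime)
    (L₀ : IntermediateField ℚ Qb) [FiniteDimensional ℚ L₀] (T₀ : Finset ℕ) (g : GQ) :
    ∃ (ℓ : ℕ) (A : ValuationSubring Qb) (τ : GQ) (j : ℕ),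
      ℓ.Prime ∧ ℓ ∉ T₀ ∧ W.IsGoodPrimeFor ℓ ∧ ℓ ≠ p ∧ A.LiesOverPrime ℓ ∧ A.IsFrobeniusAt τ ℓ ∧
      (∀ x ∈ L₀, (τ ^ j) x = g x) ∧
      (∀ P : (E⁄Qb).Point, p • P = 0 → g • P = τ ^ j • P) ∧
      (∀ P : (E⁄Qb).Point, p • P = 0 →
        g • g • P - Fermat.Agent.S58.helper8967.lucasTr (W.apOfModel ℓ) ℓ j • g • P
          + ((ℓ ^ j : ℕ) : ℤ) • P = 0) ∧
      (∀ ζ : Qb, ζ ^ p = 1 → g ζ = ζ ^ (ℓ ^ j)) := by
  classical
  have hp0 : p ≠ 0 := hp.ne_zero
  obtain ⟨L₂, hL₂fin, hL₂⟩ :=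
    Fermat.Agent.Lib.helper822.galoisFactorsThroughFiniteLevel_torsion E p hp0
  set S₃ : Set Qb := {ζ | ζ ^ p = 1} with hS₃
  have hS₃fin : S₃.Finite := by
    have hsub : S₃ ⊆ ((Polynomial.nthRoots p (1 : Qb)).toFinset : Set Qb) := by
      intro ζ hζ
      rw [Finset.mem_coe, Multiset.mem_toFinset, Polynomial.mem_nthRoots (Nat.pos_of_ne_zero hp0)]
      exact hζ
    exact (Finset.finite_toSet _).subset hsub
  have : Finite S₃ := hS₃fin
  have hL₃fin : FiniteDimensional ℚ (IntermediateField.adjoin ℚ S₃) :=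
    IntermediateField.finiteDimensional_adjoin
      (fun x _ => ((AlgebraicClosure.isAlgebraic ℚ).isAlgebraic x).isIntegral)
  have := hL₂fin
  have := hL₃fin
  set L : IntermediateField ℚ Qb := L₀ ⊔ L₂ ⊔ IntermediateField.adjoin ℚ S₃ with hL
  have hL₀le : L₀ ≤ L := le_sup_of_le_left le_sup_left
  have hL₂le : L₂ ≤ L := le_sup_of_le_left le_sup_right
  have hL₃le : IntermediateField.adjoin ℚ S₃ ≤ L := le_sup_right
  obtain ⟨ℓ, A, τ, j, hℓ, hℓT, hA, hτ, hj⟩ :=
    Fermat.Agent.Lib.helper74.exists_frobenius_pow_eq L g (T₀ ∪ badSet W p)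
  have : Fact ℓ.Prime := ⟨hℓ⟩
  rw [Finset.mem_union, not_or] at hℓT
  obtain ⟨hgood, hne⟩ := good_of_not_mem_badSet hΔ hℓ hℓT.2
  have hcop : Nat.Coprime p ℓ := (Nat.coprime_primes hp hℓ).mpr (Ne.symm hne)
  set h : GQ := (τ ^ j)⁻¹ * g with hh
  have hg : g = τ ^ j * h := by rw [hh, mul_inv_cancel_left]
  have hfix : ∀ x ∈ L, h x = x := by
    intro x hx
    have h1 : (τ ^ j) (h x) = (τ ^ j) x := by
      rw [← AlgEquiv.mul_apply, ← hg, hj x hx]
    exact (τ ^ j).injective h1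
  have hhP : ∀ P : TorE E p, h • P = P := by
    intro P
    have h1 := hL₂ h fun x hx => hfix x (hL₂le hx)
    have h2 := congrArg (fun f => f P) h1
    exact h2
  have e : ∀ Q : TorE E p, g • Q = τ ^ j • Q := by
    intro Q
    rw [hg, mul_smul, hhP]
  refine ⟨ℓ, A, τ, j, hℓ, hℓT.1, hgood, hne, hA, hτ, fun x hx => hj x (hL₀le hx), ?_, ?_, ?_⟩
  · intro P hP
    have hmem : P ∈ Submodule.torsionBy ℤ (E⁄Qb).Point p := by
      rw [Submodule.mem_torsionBy_iff, natCast_zsmul]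
      exact hP
    exact congrArg Subtype.val (e ⟨P, hmem⟩)
  · have hrelτ : Fermat.Agent.S58.helper8967.Rel τ (W.apOfModel ℓ) (ℓ : ℤ) (TorE E p) :=
      rel_tors_of_points τ _ _ (fun P hP =>
        Fermat.Agent.S58.helper5765.frob_relation_of_isIntegralModelOf E W hWE ℓ hgood
          (fun K _ _ _ _ => Fermat.Agent.Lib.helper1844.frobCH_all ℓ W hgood K) A hA τ hτ
          p hcop P hP)
    have hrelj := Fermat.Agent.S58.helper8967.smul_pow_relation τ _ _ hrelτ j
    have hrelg : Fermat.Agent.S58.helper8967.Rel g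
        (Fermat.Agent.S58.helper8967.lucasTr (W.apOfModel ℓ) ℓ j) ((ℓ : ℤ) ^ j) (TorE E p) := by
      intro P
      rw [e, e]
      exact hrelj P
    intro P hP
    have := points_of_rel_tors g _ _ hrelg P hP
    push_cast
    exact this
  · intro ζ hζ
    have hζL : ζ ∈ L := hL₃le (IntermediateField.subset_adjoin ℚ S₃ hζ)
    rw [hg, AlgEquiv.mul_apply, hfix ζ hζL]
    exact Fermat.Agent.S58.helper1646.pow_apply_of_pow_eq_one τ ℓ p
      (fun ζ' hζ' => Fermat.Agent.S58.helper5765.isFrobeniusAt_apply_of_pow_eq_one A hA τ ℓ hτ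
        p hp0 hcop ζ' hζ')
      j ζ hζ

/-- **Common quadratics, unconditionally**: for a curve `E` over `ℚ` with an integral model `W`
(`Δ ≠ 0`) and a prime `p`, every `g ∈ Gal(ℚ̄/ℚ)` has integers `t`, `d > 0` with
`g² - t g + d = 0` on `E[p]` and `g ζ = ζ ^ d` on `μ_p`. -/
theorem exists_common_quad (E : WeierstrassCurve ℚ) (W : WeierstrassCurve ℤ)
    (hWE : W.IsIntegralModelOf E) (hΔ : W.Δ ≠ 0) (p : ℕ) (hp : p.Prime) (g : GQ) :
    ∃ (t : ℤ) (d : ℕ), 0 < d ∧
      (∀ P : (E⁄Qb).Point, p • P = 0 → g • g • P - t • g • P + (d : ℤ) • P = 0) ∧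
      (∀ ζ : Qb, ζ ^ p = 1 → g ζ = ζ ^ d) := by
  obtain ⟨ℓ, A, τ, j, hℓ, -, -, -, -, -, -, -, hrel, hroot⟩ :=
    exists_frob_pow_quad E W hWE hΔ p hp ⊥ ∅ g
  exact ⟨_, ℓ ^ j, pow_pos hℓ.pos j, hrel, hroot⟩

/-- The discriminant of an integral model of an elliptic curve is nonzero. -/
theorem Δ_ne_zero_of_isIntegralModelOf (E : WeierstrassCurve ℚ) [E.IsElliptic]
    (W : WeierstrassCurve ℤ) (hWE : W.IsIntegralModelOf E) : W.Δ ≠ 0 := by
  obtain ⟨C, hC⟩ := hWE
  intro h0
  have h1 : (W.map (Int.castRingHom ℚ)).Δ = 0 := by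
    rw [WeierstrassCurve.map_Δ, h0, _root_.map_zero]
  rw [← hC, WeierstrassCurve.variableChange_Δ] at h1
  have hE : E.Δ ≠ 0 := E.isUnit_Δ.ne_zero
  rcases mul_eq_zero.mp h1 with h2 | h2
  · exact absurd h2 (pow_ne_zero _ (Units.ne_zero _))
  · exact hE h2

section Unconditional

variable {E : WeierstrassCurve ℚ} {p : ℕ} [hpF : Fact p.Prime]

/-- The common quadratics in the `End`-shape consumed by `span_range_rhoE_eq_top_of_quad`. -/
theorem exists_common_quad_end [E.IsElliptic] (W : WeierstrassCurve ℤ)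
    (hWE : W.IsIntegralModelOf E) (ζ : Qb) (hζ : IsPrimitiveRoot ζ p) (σ : GQ) :
    ∃ (t : ZMod p) (d : ℕ),
      rhoE E p σ * rhoE E p σ - t • rhoE E p σ
        + (d : ZMod p) • (1 : Module.End (ZMod p) (TorE E p)) = 0 ∧ σ ζ = ζ ^ d := by
  obtain ⟨t, d, -, hrel, hroot⟩ :=
    exists_common_quad E W hWE (Δ_ne_zero_of_isIntegralModelOf E W hWE) p hpF.out σ
  exact ⟨(t : ZMod p), d, rel_end_of_points σ t d hrel, hroot ζ hζ.pow_eq_one⟩

/-- **S44-L8-ODDSPAN.**  `E` an elliptic curve over `ℚ` with an integral model, `p` an odd prime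
with `E[p]` irreducible (over `𝔽_p`): the image of `Gal(ℚ̄/ℚ)` spans `End_{𝔽_p}(E[p])`. -/
theorem span_range_rhoE_eq_top [E.IsElliptic] (W : WeierstrassCurve ℤ)
    (hWE : W.IsIntegralModelOf E) (hp2 : p ≠ 2)
    (hirr : GaloisRepIsIrreducible (K := AlgebraicClosure ℚ) ℚ E p) :
    Submodule.span (ZMod p) (Set.range (rhoE E p)) = ⊤ := by
  have : NeZero p := ⟨hpF.out.ne_zero⟩
  obtain ⟨ζ, hζ⟩ := HasEnoughRootsOfUnity.exists_primitiveRoot Qb p
  exact span_range_rhoE_eq_top_of_quad hp2 hirr ζ hζ (exists_common_quad_end W hWE ζ hζ)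

/-- **`det ρ_{E,p} = χ_p`** for irreducible `E[p]`, without the Weil pairing. -/
theorem det_rhoE_eq_cycChar [E.IsElliptic] (W : WeierstrassCurve ℤ)
    (hWE : W.IsIntegralModelOf E)
    (hirr : GaloisRepIsIrreducible (K := AlgebraicClosure ℚ) ℚ E p)
    (ζ : Qb) (hζ : IsPrimitiveRoot ζ p) (g : GQ) :
    LinearMap.det (rhoE E p g) = cycChar ζ hζ g :=
  det_rhoE_eq_cycChar_of_quad hirr ζ hζ (exists_common_quad_end W hWE ζ hζ) g

end Unconditional

/-! ### The Frey curve -/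

section Frey

open Fermat.Agent.Lib.helper1397

/-- **S44-L8-ODDSPAN for the Frey curve** (frozen vocabulary of S44). -/
theorem span_range_frey (P : FreyPackage) (W : WeierstrassCurve ℤ)
    (hW : W.IsIntegralModelOf P.freyCurve)
    (hirr : GaloisRepIsIrreducible (K := AlgebraicClosure ℚ) ℚ P.freyCurve P.p) :
    Submodule.span (ZMod P.p)
      (Set.range (galoisRepModuleEnd (S := ℚ) (K := AlgebraicClosure ℚ) P.freyCurve P.p)) = ⊤ := by
  have : Fact P.p.Prime := ⟨P.pp⟩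
  have hp2 : P.p ≠ 2 := by
    have := P.hp5
    omega
  exact span_range_rhoE_eq_top W hW hp2 hirr

/-- **`det = cyclotomic` for the Frey curve**, without the Weil pairing. -/
theorem det_frey (P : FreyPackage) (W : WeierstrassCurve ℤ)
    (hW : W.IsIntegralModelOf P.freyCurve)
    (hirr : GaloisRepIsIrreducible (K := AlgebraicClosure ℚ) ℚ P.freyCurve P.p)
    (ζ : Qb) (hζ : IsPrimitiveRoot ζ P.p) (g : GQ) :
    haveI : Fact P.p.Prime := ⟨P.pp⟩
    LinearMap.det (galoisRepModuleEnd (S := ℚ) (K := AlgebraicClosure ℚ) P.freyCurve P.p g)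
      = cycChar ζ hζ g := by
  have : Fact P.p.Prime := ⟨P.pp⟩
  exact det_rhoE_eq_cycChar W hW hirr ζ hζ g

end Frey


end Fermat.Agent.S44.helper2984
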