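/-
S44 (PL) block, leaf PL-CALC (architect helper7932, team_s44_chat #211): the FIRST-ORDER CALCULUS
modulo `ϖ ^ 2`.  Mathlib only, carrier-free.

Setting: `R` a commutative ring (in the application the `L`-rational part `O` of a Gauss ring),
`R₀ : Subring R` (the `K0`-rational part), `ρ : R →+* κ` (the reduction), `ϖ : R` with `ρ ϖ = 0`,
and the two hypotheses

* `(BC2)`  every `g` is `g0 + g1 * ϖ + ϖ ^ 2 * g'` with `g0 g1 ∈ R₀`;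
* `(UNIQ)` `g0 + g1 * ϖ = ϖ ^ 2 * g'` with `g0 g1 ∈ R₀` forces `ρ g0 = 0` and `ρ g1 = 0`.

Export: `FOCalc.eps : R → κ` with `eps g = ρ g1` for EVERY decomposition (`eps_eq`), additive
(`eps_add`, `epsHom`), a derivation over `ρ` (`eps_mul`), zero on `R₀` (`eps_of_mem`), zero on
`p`-th powers when `κ` has characteristic `p` (`eps_pow_char`), `eps (ϖ * u) = ρ u`
(`eps_unif_mul`); and for `κ` a field the logarithmic form `dlog u = eps u / ρ u`, additive on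
elements with nonzero reduction (`dlog_mul`), zero on `p`-th powers (`dlog_pow_char`) and on
`R₀` (`dlog_of_mem`).

`exists_eps` / `exists_eps_dlog` restate everything for two subrings `O₀ ≤ O` of a field `F` with
`ρ : ↥O →+* κ`, in the literal shape of the leaf.
-/
import Mathlib

set_option autoImplicit false

namespace Fermat.Agent.S44.helper4442

section General

variable {R κ : Type*} [CommRing R] [CommRing κ]

/-- The hypotheses of the first-order calculus modulo `ϖ ^ 2`: `ρ ϖ = 0`, `(BC2)`, `(UNIQ)`. -/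
structure FOCalc (R₀ : Subring R) (ρ : R →+* κ) (ϖ : R) : Prop where
  map_unif : ρ ϖ = 0
  bc2 : ∀ g : R, ∃ g0 ∈ R₀, ∃ g1 ∈ R₀, ∃ g' : R, g = g0 + g1 * ϖ + ϖ ^ 2 * g'
  uniq : ∀ g0 ∈ R₀, ∀ g1 ∈ R₀, ∀ g' : R, g0 + g1 * ϖ = ϖ ^ 2 * g' → ρ g0 = 0 ∧ ρ g1 = 0

namespace FOCalc

variable {R₀ : Subring R} {ρ : R →+* κ} {ϖ : R}

/-- The first-order coefficient: `eps g = ρ g1` for a (any) decomposition
`g = g0 + g1 * ϖ + ϖ ^ 2 * g'`. -/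
noncomputable def eps (h : FOCalc R₀ ρ ϖ) (g : R) : κ :=
  ρ (Classical.choose (Classical.choose_spec (h.bc2 g)).2)

/-- `eps g = ρ g1` and `ρ g = ρ g0` for EVERY decomposition `g = g0 + g1 * ϖ + ϖ ^ 2 * g'`. -/
theorem eps_eq (h : FOCalc R₀ ρ ϖ) {g g0 g1 g' : R} (h0 : g0 ∈ R₀) (h1 : g1 ∈ R₀)
    (e : g = g0 + g1 * ϖ + ϖ ^ 2 * g') : h.eps g = ρ g1 := by
  have hspec := Classical.choose_spec (h.bc2 g)
  have ha0 : Classical.choose (h.bc2 g) ∈ R₀ := hspec.1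
  have hspec1 := Classical.choose_spec hspec.2
  have ha1 : Classical.choose hspec.2 ∈ R₀ := hspec1.1
  obtain ⟨a', ea⟩ := hspec1.2
  have key := h.uniq (g0 - Classical.choose (h.bc2 g)) (R₀.sub_mem h0 ha0)
    (g1 - Classical.choose hspec.2) (R₀.sub_mem h1 ha1) (a' - g')
    (by linear_combination ea - e)
  have h2 : ρ g1 = ρ (Classical.choose hspec.2) := by
    have := key.2
    rwa [map_sub, sub_eq_zero] at this
  unfold eps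
  exact h2.symm

theorem rho_eq (h : FOCalc R₀ ρ ϖ) {g g0 g1 g' : R}
    (e : g = g0 + g1 * ϖ + ϖ ^ 2 * g') : ρ g = ρ g0 := by
  rw [e]
  simp [h.map_unif]

/-- Every element has a decomposition together with the values of `ρ` and `eps`. -/
theorem exists_decomp (h : FOCalc R₀ ρ ϖ) (g : R) :
    ∃ g0 ∈ R₀, ∃ g1 ∈ R₀, ∃ g' : R, g = g0 + g1 * ϖ + ϖ ^ 2 * g' ∧ ρ g = ρ g0 ∧
      h.eps g = ρ g1 := by
  obtain ⟨g0, h0, g1, h1, g', e⟩ := h.bc2 g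
  exact ⟨g0, h0, g1, h1, g', e, h.rho_eq e, h.eps_eq h0 h1 e⟩

theorem eps_add (h : FOCalc R₀ ρ ϖ) (a b : R) : h.eps (a + b) = h.eps a + h.eps b := by
  obtain ⟨a0, ha0, a1, ha1, a', ea, -, hea⟩ := h.exists_decomp a
  obtain ⟨b0, hb0, b1, hb1, b', eb, -, heb⟩ := h.exists_decomp b
  have e : a + b = (a0 + b0) + (a1 + b1) * ϖ + ϖ ^ 2 * (a' + b') := by
    linear_combination ea + eb
  rw [h.eps_eq (R₀.add_mem ha0 hb0) (R₀.add_mem ha1 hb1) e, hea, heb, map_add]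

/-- `eps` is a derivation over `ρ`. -/
theorem eps_mul (h : FOCalc R₀ ρ ϖ) (a b : R) :
    h.eps (a * b) = ρ a * h.eps b + h.eps a * ρ b := by
  obtain ⟨a0, ha0, a1, ha1, a', ea, hra, hea⟩ := h.exists_decomp a
  obtain ⟨b0, hb0, b1, hb1, b', eb, hrb, heb⟩ := h.exists_decomp b
  have e : a * b = (a0 * b0) + (a0 * b1 + a1 * b0) * ϖ
      + ϖ ^ 2 * (a1 * b1 + a0 * b' + b0 * a' + ϖ * (a1 * b' + b1 * a') + ϖ ^ 2 * (a' * b')) := by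
    rw [ea, eb]
    ring
  rw [h.eps_eq (R₀.mul_mem ha0 hb0)
    (R₀.add_mem (R₀.mul_mem ha0 hb1) (R₀.mul_mem ha1 hb0)) e, hea, heb, hra, hrb, map_add,
    map_mul, map_mul]

theorem eps_of_mem (h : FOCalc R₀ ρ ϖ) {g : R} (hg : g ∈ R₀) : h.eps g = 0 := by
  have e : g = g + 0 * ϖ + ϖ ^ 2 * 0 := by ring
  rw [h.eps_eq hg R₀.zero_mem e, map_zero]

@[simp] theorem eps_zero (h : FOCalc R₀ ρ ϖ) : h.eps 0 = 0 := h.eps_of_mem R₀.zero_mem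

@[simp] theorem eps_one (h : FOCalc R₀ ρ ϖ) : h.eps 1 = 0 := h.eps_of_mem R₀.one_mem

/-- `eps` as an additive homomorphism. -/
noncomputable def epsHom (h : FOCalc R₀ ρ ϖ) : R →+ κ where
  toFun := h.eps
  map_zero' := h.eps_zero
  map_add' := h.eps_add

@[simp] theorem epsHom_apply (h : FOCalc R₀ ρ ϖ) (g : R) : h.epsHom g = h.eps g := rfl

theorem eps_neg (h : FOCalc R₀ ρ ϖ) (a : R) : h.eps (-a) = -h.eps a :=
  map_neg h.epsHom a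

theorem eps_sub (h : FOCalc R₀ ρ ϖ) (a b : R) : h.eps (a - b) = h.eps a - h.eps b :=
  map_sub h.epsHom a b

theorem eps_sum (h : FOCalc R₀ ρ ϖ) {ι : Type*} (s : Finset ι) (f : ι → R) :
    h.eps (∑ i ∈ s, f i) = ∑ i ∈ s, h.eps (f i) :=
  map_sum h.epsHom f s

/-- `eps (ϖ * u) = ρ u`. -/
theorem eps_unif_mul (h : FOCalc R₀ ρ ϖ) (u : R) : h.eps (ϖ * u) = ρ u := by
  obtain ⟨u0, hu0, u1, hu1, u', eu, hru, -⟩ := h.exists_decomp u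
  have e : ϖ * u = 0 + u0 * ϖ + ϖ ^ 2 * (u1 + ϖ * u') := by
    rw [eu]
    ring
  rw [h.eps_eq R₀.zero_mem hu0 e, hru]

@[simp] theorem eps_unif (h : FOCalc R₀ ρ ϖ) : h.eps ϖ = 1 := by
  have := h.eps_unif_mul 1
  rwa [mul_one, map_one] at this

/-- `eps` vanishes on `ϖ ^ 2 * R`. -/
theorem eps_unif_sq_mul (h : FOCalc R₀ ρ ϖ) (g : R) : h.eps (ϖ ^ 2 * g) = 0 := by
  have e : ϖ ^ 2 * g = 0 + 0 * ϖ + ϖ ^ 2 * g := by ring
  rw [h.eps_eq R₀.zero_mem R₀.zero_mem e, map_zero]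

/-- `eps` is `R₀`-semilinear over `ρ`. -/
theorem eps_mul_of_mem_left (h : FOCalc R₀ ρ ϖ) {c : R} (hc : c ∈ R₀) (g : R) :
    h.eps (c * g) = ρ c * h.eps g := by
  rw [h.eps_mul, h.eps_of_mem hc, zero_mul, add_zero]

/-- The value of `eps` only depends on the class modulo `ϖ ^ 2`, and `eps` of a first-order
expression is the reduction of the linear coefficient. -/
theorem eps_add_unif_mul (h : FOCalc R₀ ρ ϖ) {g0 : R} (h0 : g0 ∈ R₀) (u : R) :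
    h.eps (g0 + ϖ * u) = ρ u := by
  rw [h.eps_add, h.eps_of_mem h0, zero_add, h.eps_unif_mul]

theorem eps_pow (h : FOCalc R₀ ρ ϖ) (g : R) (n : ℕ) :
    h.eps (g ^ n) = (n : κ) * ρ g ^ (n - 1) * h.eps g := by
  induction n with
  | zero => simp
  | succ n ih =>
    rw [pow_succ, h.eps_mul, ih, map_pow]
    rcases n with _ | n
    · simp
    · simp only [Nat.add_sub_cancel, Nat.cast_add, Nat.cast_one]
      ring

/-- `eps` vanishes on `p`-th powers in characteristic `p`. -/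
theorem eps_pow_char (h : FOCalc R₀ ρ ϖ) (p : ℕ) [CharP κ p] (s : R) :
    h.eps (s ^ p) = 0 := by
  rw [h.eps_pow, CharP.cast_eq_zero, zero_mul, zero_mul]

/-- `eps (c * s ^ p) = 0` for `c ∈ R₀`: constants times `p`-th powers are first-order trivial. -/
theorem eps_mul_pow_char (h : FOCalc R₀ ρ ϖ) (p : ℕ) [CharP κ p] {c : R} (hc : c ∈ R₀)
    (s : R) : h.eps (c * s ^ p) = 0 := by
  rw [h.eps_mul_of_mem_left hc, h.eps_pow_char, mul_zero]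

/-- `eps (a ^ p * g) = ρ a ^ p * eps g` in characteristic `p`. -/
theorem eps_pow_char_mul (h : FOCalc R₀ ρ ϖ) (p : ℕ) [CharP κ p] (a g : R) :
    h.eps (a ^ p * g) = ρ a ^ p * h.eps g := by
  rw [h.eps_mul, h.eps_pow_char, zero_mul, add_zero, map_pow]

/-- **Transfer.**  A ring homomorphism `φ : R → R'` mapping `R₀` into `R₀'` and `ϖ` to `ϖ'`,
compatible with the reductions through `ψ : κ → κ'`, commutes with `eps`. -/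
theorem eps_map (h : FOCalc R₀ ρ ϖ) {R' κ' : Type*} [CommRing R'] [CommRing κ']
    {R₀' : Subring R'} {ρ' : R' →+* κ'} {ϖ' : R'} (h' : FOCalc R₀' ρ' ϖ')
    (φ : R →+* R') (ψ : κ →+* κ') (hφ₀ : ∀ g ∈ R₀, φ g ∈ R₀') (hφϖ : φ ϖ = ϖ')
    (hρ : ∀ g, ρ' (φ g) = ψ (ρ g)) (g : R) : h'.eps (φ g) = ψ (h.eps g) := by
  obtain ⟨g0, h0, g1, h1, g', e, -, he⟩ := h.exists_decomp g
  have e' : φ g = φ g0 + φ g1 * ϖ' + ϖ' ^ 2 * φ g' := by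
    rw [e, map_add, map_add, map_mul, map_mul, map_pow, hφϖ]
  rw [h'.eps_eq (hφ₀ g0 h0) (hφ₀ g1 h1) e', hρ, he]

/-- Transfer with the same residue ring (`ρ' ∘ φ = ρ`). -/
theorem eps_map_id (h : FOCalc R₀ ρ ϖ) {R' : Type*} [CommRing R']
    {R₀' : Subring R'} {ρ' : R' →+* κ} {ϖ' : R'} (h' : FOCalc R₀' ρ' ϖ')
    (φ : R →+* R') (hφ₀ : ∀ g ∈ R₀, φ g ∈ R₀') (hφϖ : φ ϖ = ϖ')
    (hρ : ∀ g, ρ' (φ g) = ρ g) (g : R) : h'.eps (φ g) = h.eps g :=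
  h.eps_map h' φ (RingHom.id κ) hφ₀ hφϖ hρ g

end FOCalc

end General

section Dlog

variable {R κ : Type*} [CommRing R] [Field κ]

namespace FOCalc

variable {R₀ : Subring R} {ρ : R →+* κ} {ϖ : R}

/-- The logarithmic first-order coefficient `D u = eps u / ρ u`. -/
noncomputable def dlog (h : FOCalc R₀ ρ ϖ) (u : R) : κ := h.eps u / ρ u

theorem dlog_def (h : FOCalc R₀ ρ ϖ) (u : R) : h.dlog u = h.eps u / ρ u := rfl

theorem eps_eq_dlog_mul (h : FOCalc R₀ ρ ϖ) {u : R} (hu : ρ u ≠ 0) :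
    h.eps u = h.dlog u * ρ u := by
  rw [dlog, div_mul_cancel₀ _ hu]

/-- `D` is additive on elements with nonzero reduction. -/
theorem dlog_mul (h : FOCalc R₀ ρ ϖ) {u v : R} (hu : ρ u ≠ 0) (hv : ρ v ≠ 0) :
    h.dlog (u * v) = h.dlog u + h.dlog v := by
  unfold dlog
  rw [h.eps_mul, map_mul]
  field_simp
  ring

theorem rho_ne_zero_of_isUnit {ρ : R →+* κ} {u : R} (hu : IsUnit u) : ρ u ≠ 0 :=
  (hu.map ρ).ne_zero

/-- `D` is additive on units. -/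
theorem dlog_mul_of_isUnit (h : FOCalc R₀ ρ ϖ) {u v : R} (hu : IsUnit u) (hv : IsUnit v) :
    h.dlog (u * v) = h.dlog u + h.dlog v :=
  h.dlog_mul (rho_ne_zero_of_isUnit hu) (rho_ne_zero_of_isUnit hv)

@[simp] theorem dlog_one (h : FOCalc R₀ ρ ϖ) : h.dlog 1 = 0 := by
  simp [dlog]

theorem dlog_of_mem (h : FOCalc R₀ ρ ϖ) {c : R} (hc : c ∈ R₀) : h.dlog c = 0 := by
  simp [dlog, h.eps_of_mem hc]

theorem dlog_pow (h : FOCalc R₀ ρ ϖ) {u : R} (hu : ρ u ≠ 0) (n : ℕ) :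
    h.dlog (u ^ n) = (n : κ) * h.dlog u := by
  induction n with
  | zero => simp
  | succ n ih =>
    have hn : ρ (u ^ n) ≠ 0 := by
      rw [map_pow]
      exact pow_ne_zero n hu
    rw [pow_succ, h.dlog_mul hn hu, ih]
    push_cast
    ring

/-- `D` vanishes on `p`-th powers in characteristic `p` (no hypothesis on `u`). -/
theorem dlog_pow_char (h : FOCalc R₀ ρ ϖ) (p : ℕ) [CharP κ p] (u : R) :
    h.dlog (u ^ p) = 0 := by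
  simp [dlog, h.eps_pow_char p u]

/-- `D (c * s ^ p * u) = D u` for `c ∈ R₀`, `ρ c ≠ 0`, `ρ s ≠ 0`, `ρ u ≠ 0`. -/
theorem dlog_const_mul_pow_mul (h : FOCalc R₀ ρ ϖ) (p : ℕ) [CharP κ p] {c s u : R}
    (hc : c ∈ R₀) (hc0 : ρ c ≠ 0) (hs : ρ s ≠ 0) (hu : ρ u ≠ 0) :
    h.dlog (c * s ^ p * u) = h.dlog u := by
  have hsp : ρ (s ^ p) ≠ 0 := by
    rw [map_pow]
    exact pow_ne_zero p hs
  have hcs : ρ (c * s ^ p) ≠ 0 := by
    rw [map_mul]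
    exact mul_ne_zero hc0 hsp
  rw [h.dlog_mul hcs hu, h.dlog_mul hc0 hsp, h.dlog_of_mem hc, h.dlog_pow_char, add_zero,
    zero_add]

theorem dlog_inv_of_mul_eq_one (h : FOCalc R₀ ρ ϖ) {u v : R} (huv : u * v = 1) :
    h.dlog v = -h.dlog u := by
  have hu : ρ u ≠ 0 := rho_ne_zero_of_isUnit (IsUnit.of_mul_eq_one _ huv)
  have hv : ρ v ≠ 0 := rho_ne_zero_of_isUnit (IsUnit.of_mul_eq_one _ (by rwa [mul_comm] at huv))
  have := h.dlog_mul hu hv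
  rw [huv, h.dlog_one] at this
  exact eq_neg_of_add_eq_zero_right this.symm

/-- `D (1 + ϖ * u) = ρ u`: the first-order logarithm of a principal unit. -/
theorem dlog_one_add_unif_mul (h : FOCalc R₀ ρ ϖ) (u : R) :
    h.dlog (1 + ϖ * u) = ρ u := by
  rw [dlog, h.eps_add_unif_mul R₀.one_mem]
  simp [h.map_unif]

/-- `D (s ^ p * u) = D u` in characteristic `p`. -/
theorem dlog_pow_char_mul (h : FOCalc R₀ ρ ϖ) (p : ℕ) [CharP κ p] {s u : R}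
    (hs : ρ s ≠ 0) (hu : ρ u ≠ 0) : h.dlog (s ^ p * u) = h.dlog u := by
  have hsp : ρ (s ^ p) ≠ 0 := by
    rw [map_pow]
    exact pow_ne_zero p hs
  rw [h.dlog_mul hsp hu, h.dlog_pow_char, zero_add]

/-- `D (c * u) = D u` for `c ∈ R₀` with nonzero reduction. -/
theorem dlog_mem_mul (h : FOCalc R₀ ρ ϖ) {c u : R} (hc : c ∈ R₀) (hc0 : ρ c ≠ 0)
    (hu : ρ u ≠ 0) : h.dlog (c * u) = h.dlog u := by
  rw [h.dlog_mul hc0 hu, h.dlog_of_mem hc, zero_add]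

/-- `eps (a ^ p * g) = D g * ρ (a ^ p * g)` when `ρ g ≠ 0` (characteristic `p`). -/
theorem eps_pow_char_mul_eq_dlog (h : FOCalc R₀ ρ ϖ) (p : ℕ) [CharP κ p] (a : R) {g : R}
    (hg : ρ g ≠ 0) : h.eps (a ^ p * g) = h.dlog g * ρ (a ^ p * g) := by
  rw [h.eps_pow_char_mul, h.eps_eq_dlog_mul hg, map_mul, map_pow]
  ring

/-- **Transfer** for the logarithmic coefficient (no nonvanishing hypothesis needed). -/
theorem dlog_map (h : FOCalc R₀ ρ ϖ) {R' κ' : Type*} [CommRing R'] [Field κ']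
    {R₀' : Subring R'} {ρ' : R' →+* κ'} {ϖ' : R'} (h' : FOCalc R₀' ρ' ϖ')
    (φ : R →+* R') (ψ : κ →+* κ') (hφ₀ : ∀ g ∈ R₀, φ g ∈ R₀') (hφϖ : φ ϖ = ϖ')
    (hρ : ∀ g, ρ' (φ g) = ψ (ρ g)) (u : R) : h'.dlog (φ u) = ψ (h.dlog u) := by
  rw [dlog, dlog, h.eps_map h' φ ψ hφ₀ hφϖ hρ, hρ, map_div₀]

/-- Transfer for `D` with the same residue field (`ρ' ∘ φ = ρ`). -/
theorem dlog_map_id (h : FOCalc R₀ ρ ϖ) {R' : Type*} [CommRing R']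
    {R₀' : Subring R'} {ρ' : R' →+* κ} {ϖ' : R'} (h' : FOCalc R₀' ρ' ϖ')
    (φ : R →+* R') (hφ₀ : ∀ g ∈ R₀, φ g ∈ R₀') (hφϖ : φ ϖ = ϖ')
    (hρ : ∀ g, ρ' (φ g) = ρ g) (u : R) : h'.dlog (φ u) = h.dlog u :=
  h.dlog_map h' φ (RingHom.id κ) hφ₀ hφϖ hρ u

end FOCalc

end Dlog

/-! ### The literal shape of the leaf: two subrings `O₀ ≤ O` of a field -/

section Subrings

variable {F κ : Type*} [Field F] [CommRing κ]

/-- Transport of `(BC2)` + `(UNIQ)` for two subrings `O₀ ≤ O` of a field to `FOCalc`. -/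
theorem firstOrder_of_subrings (O₀ O : Subring F) (hle : O₀ ≤ O) (ρ : ↥O →+* κ) (ϖ : F)
    (hϖ : ϖ ∈ O) (hρϖ : ρ ⟨ϖ, hϖ⟩ = 0)
    (BC2 : ∀ g ∈ O, ∃ g0 ∈ O₀, ∃ g1 ∈ O₀, ∃ g' ∈ O, g = g0 + g1 * ϖ + ϖ ^ 2 * g')
    (UNIQ : ∀ (g0 g1 g' : F) (h0 : g0 ∈ O₀) (h1 : g1 ∈ O₀), g' ∈ O →
      g0 + g1 * ϖ = ϖ ^ 2 * g' → ρ ⟨g0, hle h0⟩ = 0 ∧ ρ ⟨g1, hle h1⟩ = 0) :
    FOCalc (O₀.comap O.subtype) ρ ⟨ϖ, hϖ⟩ where
  map_unif := hρϖ
  bc2 := by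
    intro g
    obtain ⟨g0, h0, g1, h1, g', hg', e⟩ := BC2 g g.2
    refine ⟨⟨g0, hle h0⟩, h0, ⟨g1, hle h1⟩, h1, ⟨g', hg'⟩, ?_⟩
    apply Subtype.ext
    simpa using e
  uniq := by
    intro g0 h0 g1 h1 g' e
    have e' : (g0 : F) + (g1 : F) * ϖ = ϖ ^ 2 * (g' : F) := by
      have := congrArg (Subtype.val) e
      simpa using this
    exact UNIQ g0 g1 g' h0 h1 g'.2 e'

/-- PL-CALC, subring form: existence of the first-order coefficient `ε` with all its properties. -/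
theorem exists_eps (p : ℕ) [CharP κ p] (O₀ O : Subring F) (hle : O₀ ≤ O) (ρ : ↥O →+* κ) (ϖ : F)
    (hϖ : ϖ ∈ O) (hρϖ : ρ ⟨ϖ, hϖ⟩ = 0)
    (BC2 : ∀ g ∈ O, ∃ g0 ∈ O₀, ∃ g1 ∈ O₀, ∃ g' ∈ O, g = g0 + g1 * ϖ + ϖ ^ 2 * g')
    (UNIQ : ∀ (g0 g1 g' : F) (h0 : g0 ∈ O₀) (h1 : g1 ∈ O₀), g' ∈ O →
      g0 + g1 * ϖ = ϖ ^ 2 * g' → ρ ⟨g0, hle h0⟩ = 0 ∧ ρ ⟨g1, hle h1⟩ = 0) :
    ∃ ε : ↥O → κ,
      (∀ (g : ↥O) (g0 g1 g' : F) (h0 : g0 ∈ O₀) (h1 : g1 ∈ O₀), g' ∈ O →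
        (g : F) = g0 + g1 * ϖ + ϖ ^ 2 * g' → ε g = ρ ⟨g1, hle h1⟩ ∧ ρ g = ρ ⟨g0, hle h0⟩) ∧
      (∀ a b, ε (a + b) = ε a + ε b) ∧
      (∀ a b, ε (a * b) = ρ a * ε b + ε a * ρ b) ∧
      (∀ a : ↥O, (a : F) ∈ O₀ → ε a = 0) ∧
      (∀ s, ε (s ^ p) = 0) ∧
      (∀ u, ε (⟨ϖ, hϖ⟩ * u) = ρ u) := by
  have h := firstOrder_of_subrings O₀ O hle ρ ϖ hϖ hρϖ BC2 UNIQ
  refine ⟨h.eps, ?_, h.eps_add, h.eps_mul, ?_, h.eps_pow_char p, h.eps_unif_mul⟩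
  · intro g g0 g1 g' h0 h1 hg' e
    have e' : g = (⟨g0, hle h0⟩ : ↥O) + ⟨g1, hle h1⟩ * ⟨ϖ, hϖ⟩ + ⟨ϖ, hϖ⟩ ^ 2 * ⟨g', hg'⟩ := by
      apply Subtype.ext
      simpa using e
    exact ⟨h.eps_eq (R₀ := O₀.comap O.subtype) h0 h1 e', h.rho_eq e'⟩
  · intro a ha
    exact h.eps_of_mem (R₀ := O₀.comap O.subtype) ha

end Subrings

section SubringsDlog

variable {F κ : Type*} [Field F] [Field κ]

/-- PL-CALC, subring form with the logarithmic coefficient `D = ε / ρ`: additive on elements with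
nonzero reduction (in particular on units of `O`), zero on `O₀` and on `p`-th powers. -/
theorem exists_eps_dlog (p : ℕ) [CharP κ p] (O₀ O : Subring F) (hle : O₀ ≤ O) (ρ : ↥O →+* κ)
    (ϖ : F) (hϖ : ϖ ∈ O) (hρϖ : ρ ⟨ϖ, hϖ⟩ = 0)
    (BC2 : ∀ g ∈ O, ∃ g0 ∈ O₀, ∃ g1 ∈ O₀, ∃ g' ∈ O, g = g0 + g1 * ϖ + ϖ ^ 2 * g')
    (UNIQ : ∀ (g0 g1 g' : F) (h0 : g0 ∈ O₀) (h1 : g1 ∈ O₀), g' ∈ O →
      g0 + g1 * ϖ = ϖ ^ 2 * g' → ρ ⟨g0, hle h0⟩ = 0 ∧ ρ ⟨g1, hle h1⟩ = 0) :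
    ∃ (ε D : ↥O → κ),
      (∀ u, D u = ε u / ρ u) ∧
      (∀ (g : ↥O) (g0 g1 g' : F) (h0 : g0 ∈ O₀) (h1 : g1 ∈ O₀), g' ∈ O →
        (g : F) = g0 + g1 * ϖ + ϖ ^ 2 * g' → ε g = ρ ⟨g1, hle h1⟩ ∧ ρ g = ρ ⟨g0, hle h0⟩) ∧
      (∀ a b, ε (a + b) = ε a + ε b) ∧
      (∀ a b, ε (a * b) = ρ a * ε b + ε a * ρ b) ∧
      (∀ a : ↥O, (a : F) ∈ O₀ → ε a = 0) ∧
      (∀ s, ε (s ^ p) = 0) ∧
      (∀ u, ε (⟨ϖ, hϖ⟩ * u) = ρ u) ∧
      (∀ u v, ρ u ≠ 0 → ρ v ≠ 0 → D (u * v) = D u + D v) ∧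
      (∀ u v, IsUnit u → IsUnit v → D (u * v) = D u + D v) ∧
      (∀ a : ↥O, (a : F) ∈ O₀ → D a = 0) ∧
      (∀ s, D (s ^ p) = 0) ∧
      (∀ u, D (1 + ⟨ϖ, hϖ⟩ * u) = ρ u) := by
  have h := firstOrder_of_subrings O₀ O hle ρ ϖ hϖ hρϖ BC2 UNIQ
  refine ⟨h.eps, h.dlog, fun _ => rfl, ?_, h.eps_add, h.eps_mul, ?_, h.eps_pow_char p,
    h.eps_unif_mul, fun u v hu hv => h.dlog_mul hu hv,
    fun u v hu hv => h.dlog_mul_of_isUnit hu hv, ?_, h.dlog_pow_char p,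
    h.dlog_one_add_unif_mul⟩
  · intro g g0 g1 g' h0 h1 hg' e
    have e' : g = (⟨g0, hle h0⟩ : ↥O) + ⟨g1, hle h1⟩ * ⟨ϖ, hϖ⟩ + ⟨ϖ, hϖ⟩ ^ 2 * ⟨g', hg'⟩ := by
      apply Subtype.ext
      simpa using e
    exact ⟨h.eps_eq (R₀ := O₀.comap O.subtype) h0 h1 e', h.rho_eq e'⟩
  · intro a ha
    exact h.eps_of_mem (R₀ := O₀.comap O.subtype) ha
  · intro a ha
    exact h.dlog_of_mem (R₀ := O₀.comap O.subtype) ha

end SubringsDlog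

end Fermat.Agent.S44.helper4442
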