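import Mathlib
import Fermat.Agent.S19.helper3214_RationalBallGal
import Fermat.Agent.S44.helper4442_PLCalc

/-!
# S44 (PL) block, input (IN-BC): the first-order calculus on the joint rational ring (helper3214)

`F = modularFunctionFieldBar (q * M)`, `A` a valuation ring of `ℚ̄` above the prime `q`,
`v 0`, `v 1` the two Gauss valuations `helper882.gpVal A (q * M) (atkinLehnerBar q M h')`.
`H ≤ H0` two subgroups of `Gal(ℚ̄/ℚ)` (in the application `H0` = inertia, fixed field `K0`;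
`H` = the group of `L = K0(ϖ)`), acting through the Prelude `arithmeticRingAut`
(`arithmeticGalois σ • f = arithmeticRingAut σ f` by `rfl`).

Base-field inputs, in elementary form:

* `π0` : an `H0`-fixed element of the maximal ideal of `A` (a uniformiser of `K0`; `π0 = q`);
* `hres` : every residue class of `A` has an `H0`-fixed representative;
* `hdiscF` : both Gauss valuations of a nonzero `H0`-fixed function are integral powers of
  `|π0|` (discreteness; `helper8007.gp_exists_val_eq_zpow`);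
* `hbc` : every `H`-fixed `c ∈ A` is `a0 + a1 * ϖ + ϖ ^ 2 * c'` with `a0 a1 ∈ A` `H0`-fixed and
  `c' ∈ A` `H`-fixed (base change of the constants);
* `hϖval` : `|ϖ|` is not an integral power of `|π0|` (total ramification, `e ≥ 2`).

Outputs:

* `exists_fixed_basis_pair` : every finite-dimensional `H0`-stable subspace has an `H0`-fixed
  basis orthonormal for both Gauss valuations;
* `exists_decomp_mem` : **(BC2) with support**: an `H`-fixed `g` of the joint unit ball lying in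
  an `H0`-stable finite-dimensional `V` is `g0 + g1 * ϖ + ϖ ^ 2 * g'` with `g0 g1` `H0`-fixed,
  `g'` `H`-fixed, all three in `V` and in the joint unit ball;
* `uniq_pair` : **(UNIQ)**: `g0 + g1 * ϖ = ϖ ^ 2 * g'` with `g0 g1` `H0`-fixed and `g'` integral
  at the valuation `c` forces `v c g0 < 1` and `v c g1 < 1`;
* `jointRing H`, `jointRing₀ H H0`, `jointUnif` and `foCalc` : the structure
  `helper4442.FOCalc (jointRing₀ H H0) ρ ϖ` for every ring homomorphism `ρ` out of the joint ring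
  killing the open unit ball of one of the two valuations;
* `exists_decomp_jointRing`, `exists_eps_eq` : the decomposition inside `V` in ring form and the
  resulting formula `eps g = ρ g1` (the support lemma behind (GLUE)).
-/

set_option autoImplicit false
set_option synthInstance.maxHeartbeats 400000

namespace Fermat.Agent.S44.helper3214

open AlgebraicCurve ModularCurve
open Fermat.Agent.S35

local notation "Qb" => AlgebraicClosure ℚ
local notation "GQ" => (AlgebraicClosure ℚ ≃ₐ[ℚ] AlgebraicClosure ℚ)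

/-! ### Finite orbits and stable finite-dimensional subspaces -/

section Abstract

variable {Γ L F : Type*} [Group Γ] [Field L] [Field F] [Algebra L F]
variable (τ : Γ →* RingAut L) (ρ : Γ →* RingAut F)

omit [Algebra L F] in
/-- An element fixed by the pointwise stabiliser of a finite set of scalars with finite orbits
has a finite orbit. -/
theorem finite_orbit_of_open
    (halg : ∀ c : L, (Set.range fun g : Γ => τ g c).Finite) (v : F)
    (hopen : ∃ s : Finset L, ∀ g, (∀ c ∈ s, τ g c = c) → ρ g v = v) :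
    (Set.range fun g : Γ => ρ g v).Finite := by
  classical
  obtain ⟨s, hs⟩ := hopen
  obtain ⟨X, hsX, hX⟩ := Fermat.Agent.S19.helper3214.exists_stable_finset τ halg s
  let Φ : Γ → (↥X → ↥X) := fun g c => ⟨τ g c, hX g c c.2⟩
  have key : ∀ g h, Φ g = Φ h → ρ g v = ρ h v := by
    intro g h hgh
    have h1 : ρ (h⁻¹ * g) v = v := by
      apply hs
      intro c hc
      have h2 : τ g c = τ h c := congrArg Subtype.val (congrFun hgh ⟨c, hsX hc⟩)
      rw [map_mul, RingAut.mul_apply, h2, ← RingAut.mul_apply, ← map_mul, inv_mul_cancel,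
        map_one]
      rfl
    have h3 := congrArg (ρ h) h1
    rw [← RingAut.mul_apply, ← map_mul, mul_inv_cancel_left] at h3
    exact h3
  have hsub : (Set.range fun g : Γ => ρ g v) ⊆
      Set.range fun r : (↥X → ↥X) => if hr : ∃ g, Φ g = r then ρ hr.choose v else v := by
    rintro _ ⟨g, rfl⟩
    have hr : ∃ g', Φ g' = Φ g := ⟨g, rfl⟩
    refine ⟨Φ g, ?_⟩
    simp only [dif_pos hr]
    exact key _ _ hr.choose_spec
  exact (Set.finite_range _).subset hsub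

/-- Every element with an open stabiliser lies in a finite-dimensional stable subspace. -/
theorem exists_stable_fd
    (hc : ∀ (g : Γ) (c : L), ρ g (algebraMap L F c) = algebraMap L F (τ g c))
    (halg : ∀ c : L, (Set.range fun g : Γ => τ g c).Finite) (v : F)
    (hopen : ∃ s : Finset L, ∀ g, (∀ c ∈ s, τ g c = c) → ρ g v = v) :
    ∃ V : Submodule L F, FiniteDimensional L V ∧ v ∈ V ∧ ∀ g, ∀ f ∈ V, ρ g f ∈ V := by
  have hfin := finite_orbit_of_open τ ρ halg v hopen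
  refine ⟨Submodule.span L (Set.range fun g : Γ => ρ g v),
    FiniteDimensional.span_of_finite L hfin, Submodule.subset_span ⟨1, by simp⟩, ?_⟩
  intro g f hf
  induction hf using Submodule.span_induction with
  | mem x hx =>
    obtain ⟨h, rfl⟩ := hx
    exact Submodule.subset_span ⟨g * h, by simp [RingAut.mul_apply]⟩
  | zero => simp
  | add x y _ _ hx hy =>
    rw [map_add]
    exact Submodule.add_mem _ hx hy
  | smul c x _ hx =>
    rw [Fermat.Agent.S19.helper3214.map_smul_of_compat τ ρ hc]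
    exact Submodule.smul_mem _ _ hx

end Abstract

/-! ### The Gauss pair -/

section GaussPair

variable (q M : ℕ) [NeZero q] [NeZero M] (h' : q.Coprime M) (A : ValuationSubring Qb)

local notation "FqM" => modularFunctionFieldBar (q * M)
local notation "vv" => helper882.gpVal A (q * M) (helper1219.atkinLehnerBar q M h')
local notation "vb" => helper882.gpBase A (q * M)
local notation "ar" => arithmeticRingAut (modularFunctionFieldFull (q * M))

omit [NeZero q] [NeZero M] in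
/-- Semilinearity of the arithmetic Galois action on a linear combination. -/
theorem ar_sum {n : ℕ} (σ : GQ) (c : Fin n → Qb) (e : Fin n → FqM) :
    ar σ (∑ j, c j • e j) = ∑ j, σ (c j) • ar σ (e j) := by
  rw [map_sum]
  refine Finset.sum_congr rfl fun j _ => ?_
  rw [Algebra.smul_def, Algebra.smul_def, map_mul, arithmeticRingAut_algebraMap]

omit [NeZero q] [NeZero M] in
/-- A linear combination of fixed vectors with fixed coefficients is fixed. -/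
theorem ar_sum_of_fixed {n : ℕ} (H : Subgroup GQ) (c : Fin n → Qb) (e : Fin n → FqM)
    (hc : ∀ j, ∀ σ ∈ H, σ (c j) = c j) (he : ∀ j, ∀ σ ∈ H, ar σ (e j) = e j) :
    ∀ σ ∈ H, ar σ (∑ j, c j • e j) = ∑ j, c j • e j := by
  intro σ hσ
  rw [ar_sum]
  exact Finset.sum_congr rfl fun j _ => by rw [hc j σ hσ, he j σ hσ]

/-- A linear combination of vectors of the joint unit ball with coefficients in `A` lies in the
joint unit ball. -/
theorem val_sum_le_one {n : ℕ} (c : Fin n → Qb) (e : Fin n → FqM) (hc : ∀ j, c j ∈ A)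
    (he : ∀ j i, vv i (e j) ≤ 1) (i : Fin 2) : vv i (∑ j, c j • e j) ≤ 1 := by
  refine Valuation.map_sum_le _ fun j _ => ?_
  rw [Algebra.smul_def, map_mul, helper882.gpVal_algebraMap]
  exact mul_le_one' ((helper882.gpBase_le_one_iff A (q * M) (c j)).mpr (hc j)) (he j i)

omit [NeZero q] [NeZero M] in
/-- Every function lies in a finite-dimensional subspace stable under a given subgroup of
`Gal(ℚ̄/ℚ)`. -/
theorem exists_stable_fd_gal (H0 : Subgroup GQ) (f : FqM) :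
    ∃ V : Submodule Qb FqM, FiniteDimensional Qb V ∧ f ∈ V ∧
      ∀ σ ∈ H0, ∀ x ∈ V, ar σ x ∈ V := by
  obtain ⟨V, hfd, hfV, hV⟩ := exists_stable_fd
    (Fermat.Agent.S19.helper3214.subBase (q * M) H0)
    (Fermat.Agent.S19.helper3214.subFun (q * M) H0)
    (Fermat.Agent.S19.helper3214.subFun_compat (q * M) H0)
    (Fermat.Agent.S19.helper3214.subBase_finite_range (q * M) H0) f
    (Fermat.Agent.S19.helper3214.subFun_open (q * M) H0 f)
  exact ⟨V, hfd, hfV, fun σ hσ x hx => hV ⟨σ, hσ⟩ x hx⟩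

variable {q M h' A}

/-- **Fixed orthonormal bases for the pair of Gauss valuations.**  `H0` a subgroup of
`Gal(ℚ̄/ℚ)` with an `H0`-fixed `π0` in the maximal ideal of `A`, `H0`-fixed representatives of
the residue classes of `A`, and both Gauss valuations of nonzero `H0`-fixed functions in
`|π0| ^ ℤ`.  Then every finite-dimensional `H0`-stable subspace has an `H0`-fixed basis which is
orthonormal for both Gauss valuations at once. -/
theorem exists_fixed_basis_pair (hq : q.Prime) (hA : A.LiesOverPrime q) (H0 : Subgroup GQ)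
    {π0 : Qb} (hπ0 : π0 ≠ 0) (hπ0A : π0 ∈ A.nonunits) (hπ0fix : ∀ σ ∈ H0, σ π0 = π0)
    (hres : ∀ a ∈ A, ∃ r ∈ A, (∀ σ ∈ H0, σ r = r) ∧ a - r ∈ A.nonunits)
    (hdiscF : ∀ f : FqM, f ≠ 0 → (∀ σ ∈ H0, ar σ f = f) →
      ∀ i, ∃ n : ℤ, vv i f = vb π0 ^ n)
    (V : Submodule Qb FqM) [FiniteDimensional Qb V]
    (hV : ∀ σ ∈ H0, ∀ f ∈ V, ar σ f ∈ V) :
    ∃ (n : ℕ) (e : Fin n → FqM), (∀ j, e j ∈ V) ∧ (∀ j, ∀ σ ∈ H0, ar σ (e j) = e j) ∧
      (∀ j i, vv i (e j) ≤ 1) ∧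
      (∀ (c : Fin n → Qb) (r : (helper882.gpRing A (q * M)).ValueGroup),
        (∀ i, vv i (∑ j, c j • e j) ≤ r) → ∀ j, vb (c j) ≤ r) ∧
      Submodule.span Qb (Set.range e) = V ∧ LinearIndependent Qb e := by
  have : Fact q.Prime := ⟨hq⟩
  have hqM : ¬ q ∣ M := (Nat.Prime.coprime_iff_not_dvd hq).mp h'
  have hπ0lt : vb π0 < 1 := (helper882.gpBase_lt_one_iff A (q * M) π0).mpr hπ0A
  have hπ0pos : 0 < vb π0 := zero_lt_iff.mpr ((Valuation.ne_zero_iff _).mpr hπ0)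
  have harch : ∀ x : Qb, x ≠ 0 → ∃ n : ℕ, π0 ^ n * x ∈ A := by
    intro x hx
    obtain ⟨n, hn⟩ := helper882.gpBase_powSmall A (q * M) hq hA π0 hπ0lt x⁻¹ (inv_ne_zero hx)
    refine ⟨n, (helper882.gpBase_le_one_iff A (q * M) _).mp ?_⟩
    rw [map_mul, map_pow]
    rw [map_inv₀] at hn
    have hx0 : 0 < vb x := zero_lt_iff.mpr ((Valuation.ne_zero_iff _).mpr hx)
    have h1 := mul_lt_mul_of_pos_right hn hx0
    rw [inv_mul_cancel₀ hx0.ne'] at h1
    exact h1.le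
  have hdiv : ∀ f : FqM, (∀ σ ∈ H0, ar σ f = f) →
      (∀ i, helper882.gpVal A (q * M) (helper1928.wAL q M hqM) i f < 1) →
      ∀ i, helper882.gpVal A (q * M) (helper1928.wAL q M hqM) i f ≤ vb π0 := by
    intro f hfix hlt i
    by_cases hf : f = 0
    · rw [hf, map_zero]
      exact zero_le
    · obtain ⟨n, hn⟩ := hdiscF f hf hfix i
      have hlt' : vv i f < 1 := hlt i
      have hn1 : 0 < n := by
        rw [hn] at hlt'
        exact (zpow_lt_one_iff_right_of_lt_one₀ hπ0pos hπ0lt).mp hlt'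
      show vv i f ≤ vb π0
      rw [hn]
      calc vb π0 ^ n ≤ vb π0 ^ (1 : ℤ) :=
            zpow_le_zpow_right_of_le_one₀ hπ0pos hπ0lt.le (by omega)
        _ = vb π0 := zpow_one _
  obtain ⟨n, e, heV, hefix, heB, hcartE, hspan, hli, -⟩ :=
    Fermat.Agent.S19.helper3214.gp_exists_fixed_cartesian q M hqM A hA H0 hπ0 hπ0A hπ0fix
      harch hres hdiv V hV
  exact ⟨n, e, heV, hefix, heB, hcartE, hspan, hli⟩

/-- **(BC2) with support.**  `H ≤ H0`; every `H`-fixed `c ∈ A` is `a0 + a1 * ϖ + ϖ ^ 2 * c'`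
with `a0 a1 ∈ A` `H0`-fixed and `c' ∈ A` `H`-fixed.  Then every `H`-fixed `g` in the joint unit
ball lying in a finite-dimensional `H0`-stable subspace `V` is `g0 + g1 * ϖ + ϖ ^ 2 * g'` with
`g0 g1 ∈ V` `H0`-fixed, `g' ∈ V` `H`-fixed, all in the joint unit ball. -/
theorem exists_decomp_mem (hq : q.Prime) (hA : A.LiesOverPrime q) (H0 H : Subgroup GQ)
    (hH : H ≤ H0)
    {π0 : Qb} (hπ0 : π0 ≠ 0) (hπ0A : π0 ∈ A.nonunits) (hπ0fix : ∀ σ ∈ H0, σ π0 = π0)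
    (hres : ∀ a ∈ A, ∃ r ∈ A, (∀ σ ∈ H0, σ r = r) ∧ a - r ∈ A.nonunits)
    (hdiscF : ∀ f : FqM, f ≠ 0 → (∀ σ ∈ H0, ar σ f = f) →
      ∀ i, ∃ n : ℤ, vv i f = vb π0 ^ n)
    {ϖ : Qb}
    (hbc : ∀ c ∈ A, (∀ σ ∈ H, σ c = c) → ∃ a0 a1 c' : Qb,
      a0 ∈ A ∧ (∀ σ ∈ H0, σ a0 = a0) ∧ a1 ∈ A ∧ (∀ σ ∈ H0, σ a1 = a1) ∧
      c' ∈ A ∧ (∀ σ ∈ H, σ c' = c') ∧ c = a0 + a1 * ϖ + ϖ ^ 2 * c')
    (V : Submodule Qb FqM) [FiniteDimensional Qb V]
    (hV : ∀ σ ∈ H0, ∀ f ∈ V, ar σ f ∈ V)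
    {g : FqM} (hgV : g ∈ V) (hgfix : ∀ σ ∈ H, ar σ g = g) (hg : ∀ i, vv i g ≤ 1) :
    ∃ g0 g1 g' : FqM,
      (g0 ∈ V ∧ (∀ σ ∈ H0, ar σ g0 = g0) ∧ ∀ i, vv i g0 ≤ 1) ∧
      (g1 ∈ V ∧ (∀ σ ∈ H0, ar σ g1 = g1) ∧ ∀ i, vv i g1 ≤ 1) ∧
      (g' ∈ V ∧ (∀ σ ∈ H, ar σ g' = g') ∧ ∀ i, vv i g' ≤ 1) ∧
      g = g0 + g1 * algebraMap Qb FqM ϖ + algebraMap Qb FqM ϖ ^ 2 * g' := by
  obtain ⟨n, e, heV, hefix, heB, hcartE, hspan, hli⟩ :=
    exists_fixed_basis_pair hq hA H0 hπ0 hπ0A hπ0fix hres hdiscF V hV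
  obtain ⟨a, ha⟩ := (Submodule.mem_span_range_iff_exists_fun Qb).mp (hspan ▸ hgV)
  -- the coordinates are `H`-fixed
  have hafix : ∀ j, ∀ σ ∈ H, σ (a j) = a j := by
    intro j σ hσ
    have h0 : ar σ (∑ j, a j • e j) = ∑ j, a j • e j := by
      rw [ha]
      exact hgfix σ hσ
    rw [ar_sum q M σ a e] at h0
    have h1 : ∑ j, (fun j => σ (a j)) j • e j = ∑ j, a j • e j := by
      rw [← h0]
      exact Finset.sum_congr rfl fun j _ => by rw [hefix j σ (hH hσ)]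
    have h2 : ∑ j, ((fun j => σ (a j)) - a) j • e j = 0 := by
      simp only [Pi.sub_apply, sub_smul, Finset.sum_sub_distrib]
      exact sub_eq_zero.mpr h1
    exact sub_eq_zero.mp (Fintype.linearIndependent_iff.mp hli _ h2 j)
  -- the coordinates lie in `A`
  have haA : ∀ j, a j ∈ A := fun j =>
    (helper882.gpBase_le_one_iff A (q * M) (a j)).mp
      (hcartE a 1 (fun i => by rw [ha]; exact hg i) j)
  choose a0 a1 c' ha0A ha0fix ha1A ha1fix hc'A hc'fix hdec using fun j =>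
    hbc (a j) (haA j) (hafix j)
  refine ⟨∑ j, a0 j • e j, ∑ j, a1 j • e j, ∑ j, c' j • e j,
    ⟨V.sum_mem fun j _ => V.smul_mem _ (heV j),
      ar_sum_of_fixed q M H0 a0 e ha0fix hefix, val_sum_le_one q M h' A a0 e ha0A heB⟩,
    ⟨V.sum_mem fun j _ => V.smul_mem _ (heV j),
      ar_sum_of_fixed q M H0 a1 e ha1fix hefix, val_sum_le_one q M h' A a1 e ha1A heB⟩,
    ⟨V.sum_mem fun j _ => V.smul_mem _ (heV j),
      ar_sum_of_fixed q M H c' e hc'fix (fun j σ hσ => hefix j σ (hH hσ)),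
      val_sum_le_one q M h' A c' e hc'A heB⟩, ?_⟩
  rw [← ha, Finset.sum_mul, Finset.mul_sum, ← Finset.sum_add_distrib, ← Finset.sum_add_distrib]
  refine Finset.sum_congr rfl fun j _ => ?_
  rw [hdec j, Algebra.smul_def, Algebra.smul_def, Algebra.smul_def, Algebra.smul_def, map_add,
    map_add, map_mul, map_mul, map_pow]
  ring

/-- **(UNIQ).**  If both Gauss valuations of nonzero `H0`-fixed functions lie in `|π0| ^ ℤ` and
`|ϖ| < 1` is not in `|π0| ^ ℤ`, then `g0 + g1 * ϖ = ϖ ^ 2 * g'` with `g0 g1` `H0`-fixed and `g'`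
integral at the valuation `c` forces `v c g0 < 1` and `v c g1 < 1`. -/
theorem uniq_pair (H0 : Subgroup GQ) {π0 : Qb} (hπ0 : π0 ≠ 0)
    (hdiscF : ∀ f : FqM, f ≠ 0 → (∀ σ ∈ H0, ar σ f = f) →
      ∀ i, ∃ n : ℤ, vv i f = vb π0 ^ n)
    {ϖ : Qb} (hϖ0 : ϖ ≠ 0) (hϖA : ϖ ∈ A.nonunits) (hϖval : ∀ n : ℤ, vb ϖ ≠ vb π0 ^ n)
    (c : Fin 2) {g0 g1 g' : FqM} (hg0 : ∀ σ ∈ H0, ar σ g0 = g0)
    (hg1 : ∀ σ ∈ H0, ar σ g1 = g1) (hg' : vv c g' ≤ 1)
    (heq : g0 + g1 * algebraMap Qb FqM ϖ = algebraMap Qb FqM ϖ ^ 2 * g') :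
    vv c g0 < 1 ∧ vv c g1 < 1 := by
  have ht1 : vb ϖ < 1 := (helper882.gpBase_lt_one_iff A (q * M) ϖ).mpr hϖA
  have ht0 : vb ϖ ≠ 0 := (Valuation.ne_zero_iff _).mpr hϖ0
  have htpos : 0 < vb ϖ := zero_lt_iff.mpr ht0
  have hπ00 : vb π0 ≠ 0 := (Valuation.ne_zero_iff _).mpr hπ0
  have hϖF : vv c (algebraMap Qb FqM ϖ) = vb ϖ := helper882.gpVal_algebraMap A (q * M) _ c ϖ
  have hsq : vb ϖ ^ 2 < 1 := pow_lt_one₀ zero_le ht1 (by norm_num)
  have hR : vv c (algebraMap Qb FqM ϖ ^ 2 * g') ≤ vb ϖ ^ 2 := by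
    rw [map_mul, map_pow, hϖF]
    calc vb ϖ ^ 2 * vv c g' ≤ vb ϖ ^ 2 * 1 := mul_le_mul_right hg' _
      _ = vb ϖ ^ 2 := mul_one _
  by_cases h0 : g0 = 0
  · subst h0
    rw [zero_add] at heq
    have hϖne : algebraMap Qb FqM ϖ ≠ 0 := by
      rw [ne_eq, map_eq_zero]
      exact hϖ0
    have h1 : g1 = algebraMap Qb FqM ϖ * g' := by
      have : algebraMap Qb FqM ϖ * g1 = algebraMap Qb FqM ϖ * (algebraMap Qb FqM ϖ * g') := by
        rw [mul_comm (algebraMap Qb FqM ϖ) g1, heq]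
        ring
      exact mul_left_cancel₀ hϖne this
    refine ⟨by rw [map_zero]; exact zero_lt_one, ?_⟩
    rw [h1, map_mul, hϖF]
    calc vb ϖ * vv c g' ≤ vb ϖ * 1 := mul_le_mul_right hg' _
      _ = vb ϖ := mul_one _
      _ < 1 := ht1
  by_cases h1 : g1 = 0
  · subst h1
    rw [zero_mul, add_zero] at heq
    refine ⟨?_, by rw [map_zero]; exact zero_lt_one⟩
    rw [heq]
    exact lt_of_le_of_lt hR hsq
  obtain ⟨n, hn⟩ := hdiscF g0 h0 hg0 c
  obtain ⟨m, hm⟩ := hdiscF g1 h1 hg1 c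
  have hne : vv c g0 ≠ vv c (g1 * algebraMap Qb FqM ϖ) := by
    rw [map_mul, hϖF, hn, hm]
    intro hcontra
    apply hϖval (n - m)
    rw [zpow_sub₀ hπ00, hcontra]
    field_simp
  have hmax := Valuation.map_add_of_distinct_val (vv c) hne
  rw [heq] at hmax
  have hle : max (vv c g0) (vv c (g1 * algebraMap Qb FqM ϖ)) ≤ vb ϖ ^ 2 := hmax ▸ hR
  refine ⟨lt_of_le_of_lt ((le_max_left _ _).trans hle) hsq, ?_⟩
  have h2 : vv c g1 * vb ϖ ≤ vb ϖ * vb ϖ := by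
    have := (le_max_right _ _).trans hle
    rwa [map_mul, hϖF, sq] at this
  have h3 : vv c g1 ≤ vb ϖ := le_of_mul_le_mul_right h2 htpos
  exact lt_of_le_of_lt h3 ht1

omit [NeZero q] [NeZero M] in
/-- `|ϖ|` is not an integral power of `|π0|` as soon as `|π0| = |ϖ| ^ e` with `e ≥ 2`. -/
theorem val_ne_zpow_of_pow_eq {π0 ϖ : Qb} (hϖ0 : ϖ ≠ 0) (hϖA : ϖ ∈ A.nonunits) {e : ℕ}
    (he : 2 ≤ e) (hπ0 : helper882.gpBase A (q * M) π0 = helper882.gpBase A (q * M) ϖ ^ e)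
    (n : ℤ) : helper882.gpBase A (q * M) ϖ ≠ helper882.gpBase A (q * M) π0 ^ n := by
  have ht1 : helper882.gpBase A (q * M) ϖ < 1 :=
    (helper882.gpBase_lt_one_iff A (q * M) ϖ).mpr hϖA
  have htpos : 0 < helper882.gpBase A (q * M) ϖ :=
    zero_lt_iff.mpr ((Valuation.ne_zero_iff _).mpr hϖ0)
  intro hcontra
  rw [hπ0, ← zpow_natCast, ← zpow_mul] at hcontra
  have h1 : helper882.gpBase A (q * M) ϖ ^ (1 : ℤ)
      = helper882.gpBase A (q * M) ϖ ^ ((e : ℤ) * n) := by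
    rw [zpow_one]
    exact hcontra
  have h2 := zpow_right_injective₀ htpos ht1.ne h1
  have h3 : (e : ℤ) ∣ 1 := ⟨n, h2⟩
  have h4 : (e : ℤ) ≤ 1 := Int.le_of_dvd one_pos h3
  omega

end GaussPair

/-! ### The joint rational ring and its first-order calculus -/

section JointRing

variable (q M : ℕ) [NeZero q] [NeZero M] (h' : q.Coprime M) (A : ValuationSubring Qb)

local notation "FqM" => modularFunctionFieldBar (q * M)
local notation "vv" => helper882.gpVal A (q * M) (helper1219.atkinLehnerBar q M h')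
local notation "vb" => helper882.gpBase A (q * M)
local notation "ar" => arithmeticRingAut (modularFunctionFieldFull (q * M))

/-- The `H`-rational joint ring of the two Gauss valuations: the `H`-fixed functions of level
`q * M` which are integral for both Gauss valuations. -/
noncomputable def jointRing (H : Subgroup GQ) : Subring FqM where
  carrier := {f | (∀ σ ∈ H, ar σ f = f) ∧ ∀ i, vv i f ≤ 1}
  mul_mem' := by
    rintro a b ⟨ha, ha'⟩ ⟨hb, hb'⟩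
    refine ⟨fun σ hσ => by rw [map_mul, ha σ hσ, hb σ hσ], fun i => ?_⟩
    rw [map_mul]
    exact mul_le_one' (ha' i) (hb' i)
  one_mem' := ⟨fun σ _ => map_one _, fun i => by rw [map_one]⟩
  add_mem' := by
    rintro a b ⟨ha, ha'⟩ ⟨hb, hb'⟩
    exact ⟨fun σ hσ => by rw [map_add, ha σ hσ, hb σ hσ],
      fun i => Valuation.map_add_le _ (ha' i) (hb' i)⟩
  zero_mem' := ⟨fun σ _ => map_zero _, fun i => by rw [map_zero]; exact zero_le⟩
  neg_mem' := by
    rintro a ⟨ha, ha'⟩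
    exact ⟨fun σ hσ => by rw [map_neg, ha σ hσ], fun i => by rw [Valuation.map_neg]; exact ha' i⟩

variable {q M h' A}

theorem mem_jointRing {H : Subgroup GQ} {f : FqM} :
    f ∈ jointRing q M h' A H ↔ (∀ σ ∈ H, ar σ f = f) ∧ ∀ i, vv i f ≤ 1 := Iff.rfl

/-- Membership in the joint ring in the `arithmeticGalois` vocabulary. -/
theorem mem_jointRing_iff_smul {H : Subgroup GQ} {f : FqM} :
    f ∈ jointRing q M h' A H ↔
      (∀ σ ∈ H, arithmeticGalois (modularFunctionFieldFull (q * M)) σ • f = f) ∧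
        ∀ i, vv i f ≤ 1 := Iff.rfl

theorem jointRing_mono {H H0 : Subgroup GQ} (hH : H ≤ H0) :
    jointRing q M h' A H0 ≤ jointRing q M h' A H :=
  fun _ hf => ⟨fun σ hσ => hf.1 σ (hH hσ), hf.2⟩

/-- Constants of `A` fixed by `H` lie in the joint ring. -/
theorem algebraMap_mem_jointRing {H : Subgroup GQ} {c : Qb} (hcA : c ∈ A)
    (hcfix : ∀ σ ∈ H, σ c = c) : algebraMap Qb FqM c ∈ jointRing q M h' A H := by
  refine ⟨fun σ hσ => ?_, fun i => ?_⟩
  · rw [arithmeticRingAut_algebraMap, hcfix σ hσ]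
  · rw [helper882.gpVal_algebraMap]
    exact (helper882.gpBase_le_one_iff A (q * M) c).mpr hcA

variable (q M h' A)

/-- The `H0`-rational part of the `H`-rational joint ring. -/
noncomputable def jointRing₀ (H H0 : Subgroup GQ) : Subring ↥(jointRing q M h' A H) :=
  (jointRing q M h' A H0).comap (jointRing q M h' A H).subtype

/-- A constant `ϖ ∈ A` fixed by `H`, as an element of the joint ring. -/
noncomputable def jointUnif (H : Subgroup GQ) {ϖ : Qb} (hϖA : ϖ ∈ A) (hϖfix : ∀ σ ∈ H, σ ϖ = ϖ) :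
    ↥(jointRing q M h' A H) :=
  ⟨algebraMap Qb FqM ϖ, algebraMap_mem_jointRing hϖA hϖfix⟩

variable {q M h' A}

theorem mem_jointRing₀ {H H0 : Subgroup GQ} {g : ↥(jointRing q M h' A H)} :
    g ∈ jointRing₀ q M h' A H H0 ↔ (g : FqM) ∈ jointRing q M h' A H0 := Iff.rfl

@[simp] theorem coe_jointUnif (H : Subgroup GQ) {ϖ : Qb} (hϖA : ϖ ∈ A)
    (hϖfix : ∀ σ ∈ H, σ ϖ = ϖ) :
    ((jointUnif q M h' A H hϖA hϖfix : ↥(jointRing q M h' A H)) : FqM) = algebraMap Qb FqM ϖ :=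
  rfl

/-- **(BC2) with support, ring form.**  Every element `g` of the `H`-rational joint ring lying
in a finite-dimensional `H0`-stable subspace `V` is `g0 + g1 * ϖ + ϖ ^ 2 * g'` with `g0`, `g1` in
the `H0`-rational part, `g'` in the joint ring, all three in `V`. -/
theorem exists_decomp_jointRing (hq : q.Prime) (hA : A.LiesOverPrime q) (H0 H : Subgroup GQ)
    (hH : H ≤ H0)
    {π0 : Qb} (hπ0 : π0 ≠ 0) (hπ0A : π0 ∈ A.nonunits) (hπ0fix : ∀ σ ∈ H0, σ π0 = π0)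
    (hres : ∀ a ∈ A, ∃ r ∈ A, (∀ σ ∈ H0, σ r = r) ∧ a - r ∈ A.nonunits)
    (hdiscF : ∀ f : FqM, f ≠ 0 → (∀ σ ∈ H0, ar σ f = f) →
      ∀ i, ∃ n : ℤ, vv i f = vb π0 ^ n)
    {ϖ : Qb} (hϖA : ϖ ∈ A) (hϖfix : ∀ σ ∈ H, σ ϖ = ϖ)
    (hbc : ∀ c ∈ A, (∀ σ ∈ H, σ c = c) → ∃ a0 a1 c' : Qb,
      a0 ∈ A ∧ (∀ σ ∈ H0, σ a0 = a0) ∧ a1 ∈ A ∧ (∀ σ ∈ H0, σ a1 = a1) ∧
      c' ∈ A ∧ (∀ σ ∈ H, σ c' = c') ∧ c = a0 + a1 * ϖ + ϖ ^ 2 * c')
    (V : Submodule Qb FqM) [FiniteDimensional Qb V]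
    (hV : ∀ σ ∈ H0, ∀ f ∈ V, ar σ f ∈ V)
    (g : ↥(jointRing q M h' A H)) (hgV : (g : FqM) ∈ V) :
    ∃ g0 ∈ jointRing₀ q M h' A H H0, ∃ g1 ∈ jointRing₀ q M h' A H H0,
      ∃ g' : ↥(jointRing q M h' A H), (g0 : FqM) ∈ V ∧ (g1 : FqM) ∈ V ∧ (g' : FqM) ∈ V ∧
        g = g0 + g1 * jointUnif q M h' A H hϖA hϖfix
          + jointUnif q M h' A H hϖA hϖfix ^ 2 * g' := by
  obtain ⟨g0, g1, g', ⟨h0V, h0fix, h0B⟩, ⟨h1V, h1fix, h1B⟩, ⟨h'V, h'fix, h'B⟩, hdec⟩ :=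
    exists_decomp_mem hq hA H0 H hH hπ0 hπ0A hπ0fix hres hdiscF hbc V hV hgV g.2.1 g.2.2
  refine ⟨⟨g0, jointRing_mono hH ⟨h0fix, h0B⟩⟩, ⟨h0fix, h0B⟩,
    ⟨g1, jointRing_mono hH ⟨h1fix, h1B⟩⟩, ⟨h1fix, h1B⟩, ⟨g', ⟨h'fix, h'B⟩⟩, h0V, h1V, h'V, ?_⟩
  exact Subtype.ext hdec

/-- **The first-order calculus on the joint rational ring.**  `R` = the `H`-rational joint ring
of the two Gauss valuations, `R₀` = its `H0`-rational part, `ϖ` the `H`-fixed constant, `ρ` any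
ring homomorphism out of `R` killing the open unit ball of the Gauss valuation `c`.  Under the
base-field inputs (see the header), `helper4442.FOCalc R₀ ρ ϖ` holds. -/
theorem foCalc (hq : q.Prime) (hA : A.LiesOverPrime q) (H0 H : Subgroup GQ) (hH : H ≤ H0)
    {π0 : Qb} (hπ0 : π0 ≠ 0) (hπ0A : π0 ∈ A.nonunits) (hπ0fix : ∀ σ ∈ H0, σ π0 = π0)
    (hres : ∀ a ∈ A, ∃ r ∈ A, (∀ σ ∈ H0, σ r = r) ∧ a - r ∈ A.nonunits)
    (hdiscF : ∀ f : FqM, f ≠ 0 → (∀ σ ∈ H0, ar σ f = f) →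
      ∀ i, ∃ n : ℤ, vv i f = vb π0 ^ n)
    {ϖ : Qb} (hϖ0 : ϖ ≠ 0) (hϖA : ϖ ∈ A.nonunits) (hϖfix : ∀ σ ∈ H, σ ϖ = ϖ)
    (hbc : ∀ c ∈ A, (∀ σ ∈ H, σ c = c) → ∃ a0 a1 c' : Qb,
      a0 ∈ A ∧ (∀ σ ∈ H0, σ a0 = a0) ∧ a1 ∈ A ∧ (∀ σ ∈ H0, σ a1 = a1) ∧
      c' ∈ A ∧ (∀ σ ∈ H, σ c' = c') ∧ c = a0 + a1 * ϖ + ϖ ^ 2 * c')
    (hϖval : ∀ n : ℤ, vb ϖ ≠ vb π0 ^ n)
    (c : Fin 2) {κ : Type*} [CommRing κ] (ρ : ↥(jointRing q M h' A H) →+* κ)
    (hρ : ∀ g : ↥(jointRing q M h' A H), vv c (g : FqM) < 1 → ρ g = 0) :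
    Fermat.Agent.S44.helper4442.FOCalc (jointRing₀ q M h' A H H0) ρ
      (jointUnif q M h' A H (A.nonunits_le hϖA) hϖfix) where
  map_unif := by
    apply hρ
    rw [coe_jointUnif, helper882.gpVal_algebraMap]
    exact (helper882.gpBase_lt_one_iff A (q * M) ϖ).mpr hϖA
  bc2 := by
    intro g
    obtain ⟨V, hfd, hgV, hV⟩ := exists_stable_fd_gal q M H0 (g : FqM)
    obtain ⟨g0, hg0, g1, hg1, g', -, -, -, hdec⟩ :=
      exists_decomp_jointRing hq hA H0 H hH hπ0 hπ0A hπ0fix hres hdiscF (A.nonunits_le hϖA)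
        hϖfix hbc V hV g hgV
    exact ⟨g0, hg0, g1, hg1, g', hdec⟩
  uniq := by
    intro g0 hg0 g1 hg1 g' heq
    have heq' : (g0 : FqM) + (g1 : FqM) * algebraMap Qb FqM ϖ
        = algebraMap Qb FqM ϖ ^ 2 * (g' : FqM) := congrArg Subtype.val heq
    obtain ⟨h0, h1⟩ := uniq_pair H0 hπ0 hdiscF hϖ0 hϖA hϖval c hg0.1 hg1.1 (g'.2.2 c) heq'
    exact ⟨hρ g0 h0, hρ g1 h1⟩

/-- **Support of the first-order coefficient** (the lemma behind (GLUE)).  For `g` in the joint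
ring lying in a finite-dimensional `H0`-stable subspace `V`, there is ONE element `g1` of the
`H0`-rational part, lying in `V`, whose reductions are the first-order coefficients of `g` for
both first-order calculi. -/
theorem exists_eps_eq (hq : q.Prime) (hA : A.LiesOverPrime q) (H0 H : Subgroup GQ)
    (hH : H ≤ H0)
    {π0 : Qb} (hπ0 : π0 ≠ 0) (hπ0A : π0 ∈ A.nonunits) (hπ0fix : ∀ σ ∈ H0, σ π0 = π0)
    (hres : ∀ a ∈ A, ∃ r ∈ A, (∀ σ ∈ H0, σ r = r) ∧ a - r ∈ A.nonunits)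
    (hdiscF : ∀ f : FqM, f ≠ 0 → (∀ σ ∈ H0, ar σ f = f) →
      ∀ i, ∃ n : ℤ, vv i f = vb π0 ^ n)
    {ϖ : Qb} (hϖA : ϖ ∈ A) (hϖfix : ∀ σ ∈ H, σ ϖ = ϖ)
    (hbc : ∀ c ∈ A, (∀ σ ∈ H, σ c = c) → ∃ a0 a1 c' : Qb,
      a0 ∈ A ∧ (∀ σ ∈ H0, σ a0 = a0) ∧ a1 ∈ A ∧ (∀ σ ∈ H0, σ a1 = a1) ∧
      c' ∈ A ∧ (∀ σ ∈ H, σ c' = c') ∧ c = a0 + a1 * ϖ + ϖ ^ 2 * c')
    {κ₁ κ₂ : Type*} [CommRing κ₁] [CommRing κ₂]
    {ρ₁ : ↥(jointRing q M h' A H) →+* κ₁} {ρ₂ : ↥(jointRing q M h' A H) →+* κ₂}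
    (fo₁ : Fermat.Agent.S44.helper4442.FOCalc (jointRing₀ q M h' A H H0) ρ₁
      (jointUnif q M h' A H hϖA hϖfix))
    (fo₂ : Fermat.Agent.S44.helper4442.FOCalc (jointRing₀ q M h' A H H0) ρ₂
      (jointUnif q M h' A H hϖA hϖfix))
    (V : Submodule Qb FqM) [FiniteDimensional Qb V]
    (hV : ∀ σ ∈ H0, ∀ f ∈ V, ar σ f ∈ V)
    (g : ↥(jointRing q M h' A H)) (hgV : (g : FqM) ∈ V) :
    ∃ g1 ∈ jointRing₀ q M h' A H H0, (g1 : FqM) ∈ V ∧ fo₁.eps g = ρ₁ g1 ∧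
      fo₂.eps g = ρ₂ g1 := by
  obtain ⟨g0, hg0, g1, hg1, g', -, h1V, -, hdec⟩ :=
    exists_decomp_jointRing hq hA H0 H hH hπ0 hπ0A hπ0fix hres hdiscF hϖA hϖfix hbc V hV g hgV
  exact ⟨g1, hg1, h1V, fo₁.eps_eq hg0 hg1 hdec, fo₂.eps_eq hg0 hg1 hdec⟩

end JointRing

end Fermat.Agent.S44.helper3214
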