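import Mathlib
import Fermat.Agent.S44.helper3214_JointBC
import Fermat.Agent.S35.helper1928_ResField

/-!
# S44 (PL) block: the two reductions of the joint rational ring (helper3214)

`R = jointRing q M h' A H` (the `H`-fixed functions of level `q * M` integral at both Gauss
valuations), `k` the residue field of `A`, `κ(M) = modularFunctionFieldFullC k M` the function
field of either component of the special fibre.

* `jointRho₁ : R →+* κ(M)`, `g ↦ gpRho g` (reduction at `v_∞`; `= helper1043.rhoK g`);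
* `jointRho₂ : R →+* κ(M)`, `g ↦ gpRho (W g)` (reduction at `v_0 = v_∞ ∘ W`);
* `jointRho₁_eq_zero_iff`, `jointRho₂_eq_zero_iff` : the kernels are the open unit balls;
* `gpRed_eq_fibreIncl` : `gpRed g = fibreIncl (jointRho₁ g, jointRho₂ g)`;
* `jointRho₁_algebraMap`, `jointRho₂_algebraMap`, `jointRho₁_const`, `jointRho₂_const` :
  constants reduce to constants;
* `foCalc₁`, `foCalc₂` : the two first-order calculi of `helper3214_JointBC.foCalc` at these
  reductions.
-/

set_option autoImplicit false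
set_option synthInstance.maxHeartbeats 400000

namespace Fermat.Agent.S44.helper3214

open AlgebraicCurve ModularCurve
open Fermat.Agent.S35

local notation "Qb" => AlgebraicClosure ℚ
local notation "GQ" => (AlgebraicClosure ℚ ≃ₐ[ℚ] AlgebraicClosure ℚ)

section JointRho

variable (q M : ℕ) [NeZero q] [NeZero M] (h' : q.Coprime M) (A : ValuationSubring Qb)

local notation "FqM" => modularFunctionFieldBar (q * M)
local notation "vv" => helper882.gpVal A (q * M) (helper1219.atkinLehnerBar q M h')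
local notation "vb" => helper882.gpBase A (q * M)
local notation "ar" => arithmeticRingAut (modularFunctionFieldFull (q * M))
local notation "kk" => IsLocalRing.ResidueField A
local notation "WW" => helper1219.atkinLehnerBar q M h'

variable {q M h' A}

/-- Elements of the joint ring lie in the Gauss ring at `∞`. -/
theorem mem_gpRing_of_mem_jointRing {H : Subgroup GQ} {g : FqM}
    (hg : g ∈ jointRing q M h' A H) : g ∈ helper882.gpRing A (q * M) :=
  (ValuationSubring.valuation_le_one_iff _ _).mp (hg.2 0)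

/-- The Atkin–Lehner transform of an element of the joint ring lies in the Gauss ring at `∞`. -/
theorem map_mem_gpRing_of_mem_jointRing {H : Subgroup GQ} {g : FqM}
    (hg : g ∈ jointRing q M h' A H) : WW g ∈ helper882.gpRing A (q * M) :=
  (ValuationSubring.valuation_le_one_iff _ _).mp (hg.2 1)

omit [NeZero q] in
include h' in
/-- The reduction of a function of level `q * M` lies in the function field of the special
fibre of level `M` (landed `helper1928.gpRho_mem_fullC`, coprimality binders). -/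
theorem gpRho_mem_fullC' (hq : q.Prime) (hA : A.LiesOverPrime q) (f : FqM) :
    helper882.gpRho A (q * M) f ∈ modularFunctionFieldFullC kk M := by
  have : Fact q.Prime := ⟨hq⟩
  exact helper1928.gpRho_mem_fullC q M ((Nat.Prime.coprime_iff_not_dvd hq).mp h') A hA f

variable (q M h' A)

/-- The reduction of the joint ring at the Gauss valuation `v_∞`, with values in the function
field of the special fibre. -/
noncomputable def jointRho₁ (hq : q.Prime) (hA : A.LiesOverPrime q) (H : Subgroup GQ) :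
    ↥(jointRing q M h' A H) →+* ↥(modularFunctionFieldFullC kk M) where
  toFun g := ⟨helper882.gpRho A (q * M) (g : FqM), gpRho_mem_fullC' (h' := h') hq hA _⟩
  map_one' := Subtype.ext (helper882.gpRho_one A (q * M))
  map_mul' a b := Subtype.ext (helper882.gpRho_mul A (q * M)
    (mem_gpRing_of_mem_jointRing a.2) (mem_gpRing_of_mem_jointRing b.2))
  map_zero' := Subtype.ext (by
    show helper882.gpRho A (q * M) 0 = 0
    exact (helper882.gpRho_eq_zero_iff A (q * M) (helper882.gpRing A (q * M)).zero_mem).mpr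
      (by rw [map_zero]; exact zero_lt_one))
  map_add' a b := Subtype.ext (helper882.gpRho_add A (q * M)
    (mem_gpRing_of_mem_jointRing a.2) (mem_gpRing_of_mem_jointRing b.2))

/-- The reduction of the joint ring at the Gauss valuation `v_0 = v_∞ ∘ W`, with values in the
function field of the special fibre. -/
noncomputable def jointRho₂ (hq : q.Prime) (hA : A.LiesOverPrime q) (H : Subgroup GQ) :
    ↥(jointRing q M h' A H) →+* ↥(modularFunctionFieldFullC kk M) where
  toFun g := ⟨helper882.gpRho A (q * M) (WW (g : FqM)), gpRho_mem_fullC' (h' := h') hq hA _⟩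
  map_one' := Subtype.ext (by
    show helper882.gpRho A (q * M) (WW 1) = 1
    rw [map_one]
    exact helper882.gpRho_one A (q * M))
  map_mul' a b := Subtype.ext (by
    show helper882.gpRho A (q * M) (WW ((a : FqM) * (b : FqM))) = _
    rw [map_mul]
    exact helper882.gpRho_mul A (q * M) (map_mem_gpRing_of_mem_jointRing a.2)
      (map_mem_gpRing_of_mem_jointRing b.2))
  map_zero' := Subtype.ext (by
    show helper882.gpRho A (q * M) (WW 0) = 0
    rw [map_zero]
    exact (helper882.gpRho_eq_zero_iff A (q * M) (helper882.gpRing A (q * M)).zero_mem).mpr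
      (by rw [map_zero]; exact zero_lt_one))
  map_add' a b := Subtype.ext (by
    show helper882.gpRho A (q * M) (WW ((a : FqM) + (b : FqM))) = _
    rw [map_add]
    exact helper882.gpRho_add A (q * M) (map_mem_gpRing_of_mem_jointRing a.2)
      (map_mem_gpRing_of_mem_jointRing b.2))

variable {q M h' A}

@[simp] theorem coe_jointRho₁ (hq : q.Prime) (hA : A.LiesOverPrime q) (H : Subgroup GQ)
    (g : ↥(jointRing q M h' A H)) :
    ((jointRho₁ q M h' A hq hA H g : ↥(modularFunctionFieldFullC kk M)) : LaurentSeries kk)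
      = helper882.gpRho A (q * M) (g : FqM) := rfl

@[simp] theorem coe_jointRho₂ (hq : q.Prime) (hA : A.LiesOverPrime q) (H : Subgroup GQ)
    (g : ↥(jointRing q M h' A H)) :
    ((jointRho₂ q M h' A hq hA H g : ↥(modularFunctionFieldFullC kk M)) : LaurentSeries kk)
      = helper882.gpRho A (q * M) (WW (g : FqM)) := rfl

/-- The kernel of `jointRho₁` is the open unit ball of `v_∞`. -/
theorem jointRho₁_eq_zero_iff (hq : q.Prime) (hA : A.LiesOverPrime q) (H : Subgroup GQ)
    (g : ↥(jointRing q M h' A H)) :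
    jointRho₁ q M h' A hq hA H g = 0 ↔ vv 0 (g : FqM) < 1 := by
  rw [← Subtype.coe_inj, coe_jointRho₁, ZeroMemClass.coe_zero,
    helper882.gpRho_eq_zero_iff A (q * M) (mem_gpRing_of_mem_jointRing g.2)]
  rfl

/-- The kernel of `jointRho₂` is the open unit ball of `v_0`. -/
theorem jointRho₂_eq_zero_iff (hq : q.Prime) (hA : A.LiesOverPrime q) (H : Subgroup GQ)
    (g : ↥(jointRing q M h' A H)) :
    jointRho₂ q M h' A hq hA H g = 0 ↔ vv 1 (g : FqM) < 1 := by
  rw [← Subtype.coe_inj, coe_jointRho₂, ZeroMemClass.coe_zero,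
    helper882.gpRho_eq_zero_iff A (q * M) (map_mem_gpRing_of_mem_jointRing g.2)]
  rfl

/-- `jointRho₁ g ≠ 0` iff `g` is a unit at `v_∞`. -/
theorem jointRho₁_ne_zero_iff (hq : q.Prime) (hA : A.LiesOverPrime q) (H : Subgroup GQ)
    (g : ↥(jointRing q M h' A H)) :
    jointRho₁ q M h' A hq hA H g ≠ 0 ↔ vv 0 (g : FqM) = 1 := by
  rw [ne_eq, jointRho₁_eq_zero_iff, not_lt]
  exact ⟨fun h => le_antisymm (g.2.2 0) h, fun h => h.ge⟩

/-- `jointRho₂ g ≠ 0` iff `g` is a unit at `v_0`. -/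
theorem jointRho₂_ne_zero_iff (hq : q.Prime) (hA : A.LiesOverPrime q) (H : Subgroup GQ)
    (g : ↥(jointRing q M h' A H)) :
    jointRho₂ q M h' A hq hA H g ≠ 0 ↔ vv 1 (g : FqM) = 1 := by
  rw [ne_eq, jointRho₂_eq_zero_iff, not_lt]
  exact ⟨fun h => le_antisymm (g.2.2 1) h, fun h => h.ge⟩

/-- The pair reduction `gpRed` of an element of the joint ring is the image of
`(jointRho₁ g, jointRho₂ g)` under the inclusion of the special fibre. -/
theorem gpRed_eq_fibreIncl (hq : q.Prime) (hA : A.LiesOverPrime q) (H : Subgroup GQ)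
    (g : ↥(jointRing q M h' A H)) :
    helper882.gpRed A (q * M) WW (g : FqM)
      = helper1928.fibreIncl kk M (jointRho₁ q M h' A hq hA H g, jointRho₂ q M h' A hq hA H g) :=
  rfl

/-- Reduction of a constant at `v_∞`. -/
theorem jointRho₁_algebraMap (hq : q.Prime) (hA : A.LiesOverPrime q) (H : Subgroup GQ)
    {c : Qb} (hcA : c ∈ A) (hcfix : ∀ σ ∈ H, σ c = c) :
    jointRho₁ q M h' A hq hA H ⟨algebraMap Qb FqM c, algebraMap_mem_jointRing hcA hcfix⟩
      = algebraMap kk ↥(modularFunctionFieldFullC kk M) (IsLocalRing.residue A ⟨c, hcA⟩) :=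
  Subtype.ext (helper882.gpRho_algebraMap A (q * M) hcA)

/-- Reduction of a constant at `v_0`. -/
theorem jointRho₂_algebraMap (hq : q.Prime) (hA : A.LiesOverPrime q) (H : Subgroup GQ)
    {c : Qb} (hcA : c ∈ A) (hcfix : ∀ σ ∈ H, σ c = c) :
    jointRho₂ q M h' A hq hA H ⟨algebraMap Qb FqM c, algebraMap_mem_jointRing hcA hcfix⟩
      = algebraMap kk ↥(modularFunctionFieldFullC kk M) (IsLocalRing.residue A ⟨c, hcA⟩) :=
  Subtype.ext (by
    show helper882.gpRho A (q * M) (WW (algebraMap Qb FqM c)) = _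
    rw [AlgEquiv.commutes]
    exact helper882.gpRho_algebraMap A (q * M) hcA)

/-- Constants reduce to constants at `v_∞` (no fixedness needed). -/
theorem jointRho₁_const (hq : q.Prime) (hA : A.LiesOverPrime q) (H : Subgroup GQ)
    (r : ↥(jointRing q M h' A H)) (hr : ∃ a : Qb, (r : FqM) = algebraMap Qb FqM a) :
    ∃ t : kk, jointRho₁ q M h' A hq hA H r
      = algebraMap kk ↥(modularFunctionFieldFullC kk M) t := by
  obtain ⟨a, ha⟩ := hr
  have haA : a ∈ A := by
    have h0 := r.2.2 0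
    rw [ha, helper882.gpVal_algebraMap] at h0
    exact (helper882.gpBase_le_one_iff A (q * M) a).mp h0
  refine ⟨IsLocalRing.residue A ⟨a, haA⟩, Subtype.ext ?_⟩
  rw [coe_jointRho₁, ha]
  exact helper882.gpRho_algebraMap A (q * M) haA

/-- Constants reduce to constants at `v_0` (no fixedness needed). -/
theorem jointRho₂_const (hq : q.Prime) (hA : A.LiesOverPrime q) (H : Subgroup GQ)
    (r : ↥(jointRing q M h' A H)) (hr : ∃ a : Qb, (r : FqM) = algebraMap Qb FqM a) :
    ∃ t : kk, jointRho₂ q M h' A hq hA H r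
      = algebraMap kk ↥(modularFunctionFieldFullC kk M) t := by
  obtain ⟨a, ha⟩ := hr
  have haA : a ∈ A := by
    have h0 := r.2.2 0
    rw [ha, helper882.gpVal_algebraMap] at h0
    exact (helper882.gpBase_le_one_iff A (q * M) a).mp h0
  refine ⟨IsLocalRing.residue A ⟨a, haA⟩, Subtype.ext ?_⟩
  rw [coe_jointRho₂, ha, AlgEquiv.commutes]
  exact helper882.gpRho_algebraMap A (q * M) haA

/-- **The first-order calculus at `v_∞`** on the joint rational ring, with the reduction
`jointRho₁` (base-field inputs as in `foCalc`). -/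
theorem foCalc₁ (hq : q.Prime) (hA : A.LiesOverPrime q) (H0 H : Subgroup GQ) (hH : H ≤ H0)
    {π0 : Qb} (hπ0 : π0 ≠ 0) (hπ0A : π0 ∈ A.nonunits) (hπ0fix : ∀ σ ∈ H0, σ π0 = π0)
    (hres : ∀ a ∈ A, ∃ r ∈ A, (∀ σ ∈ H0, σ r = r) ∧ a - r ∈ A.nonunits)
    (hdiscF : ∀ f : FqM, f ≠ 0 → (∀ σ ∈ H0, ar σ f = f) →
      ∀ i, ∃ n : ℤ, vv i f = vb π0 ^ n)
    {ϖ : Qb} (hϖ0 : ϖ ≠ 0) (hϖA : ϖ ∈ A.nonunits) (hϖfix : ∀ σ ∈ H, σ ϖ = ϖ)
    (hbc : ∀ c ∈ A, (∀ σ ∈ H, σ c = c) → ∃ a0 a1 c' : Qb,
      a0 ∈ A ∧ (∀ σ ∈ H0, σ a0 = a0) ∧ a1 ∈ A ∧ (∀ σ ∈ H0, σ a1 = a1) ∧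
      c' ∈ A ∧ (∀ σ ∈ H, σ c' = c') ∧ c = a0 + a1 * ϖ + ϖ ^ 2 * c')
    (hϖval : ∀ n : ℤ, vb ϖ ≠ vb π0 ^ n) :
    Fermat.Agent.S44.helper4442.FOCalc (jointRing₀ q M h' A H H0) (jointRho₁ q M h' A hq hA H)
      (jointUnif q M h' A H (A.nonunits_le hϖA) hϖfix) :=
  foCalc hq hA H0 H hH hπ0 hπ0A hπ0fix hres hdiscF hϖ0 hϖA hϖfix hbc hϖval 0
    (jointRho₁ q M h' A hq hA H) (fun g hg => (jointRho₁_eq_zero_iff hq hA H g).mpr hg)

/-- **The first-order calculus at `v_0`** on the joint rational ring, with the reduction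
`jointRho₂` (base-field inputs as in `foCalc`). -/
theorem foCalc₂ (hq : q.Prime) (hA : A.LiesOverPrime q) (H0 H : Subgroup GQ) (hH : H ≤ H0)
    {π0 : Qb} (hπ0 : π0 ≠ 0) (hπ0A : π0 ∈ A.nonunits) (hπ0fix : ∀ σ ∈ H0, σ π0 = π0)
    (hres : ∀ a ∈ A, ∃ r ∈ A, (∀ σ ∈ H0, σ r = r) ∧ a - r ∈ A.nonunits)
    (hdiscF : ∀ f : FqM, f ≠ 0 → (∀ σ ∈ H0, ar σ f = f) →
      ∀ i, ∃ n : ℤ, vv i f = vb π0 ^ n)
    {ϖ : Qb} (hϖ0 : ϖ ≠ 0) (hϖA : ϖ ∈ A.nonunits) (hϖfix : ∀ σ ∈ H, σ ϖ = ϖ)
    (hbc : ∀ c ∈ A, (∀ σ ∈ H, σ c = c) → ∃ a0 a1 c' : Qb,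
      a0 ∈ A ∧ (∀ σ ∈ H0, σ a0 = a0) ∧ a1 ∈ A ∧ (∀ σ ∈ H0, σ a1 = a1) ∧
      c' ∈ A ∧ (∀ σ ∈ H, σ c' = c') ∧ c = a0 + a1 * ϖ + ϖ ^ 2 * c')
    (hϖval : ∀ n : ℤ, vb ϖ ≠ vb π0 ^ n) :
    Fermat.Agent.S44.helper4442.FOCalc (jointRing₀ q M h' A H H0) (jointRho₂ q M h' A hq hA H)
      (jointUnif q M h' A H (A.nonunits_le hϖA) hϖfix) :=
  foCalc hq hA H0 H hH hπ0 hπ0A hπ0fix hres hdiscF hϖ0 hϖA hϖfix hbc hϖval 1
    (jointRho₂ q M h' A hq hA H) (fun g hg => (jointRho₂_eq_zero_iff hq hA H g).mpr hg)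

end JointRho

end Fermat.Agent.S44.helper3214
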