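/-
S44, step (3) "TOR-1" -- DEPTH RAISING FOR THE KRONECKER NORM, DIFFERENCE FORM (helper9545).

`A` any commutative ring, `p` a prime, `ζ : Aˣ` with `ζ ^ p = 1`, `J` an ideal of `A`,
`Y T : LaurentSeries A` with all coefficients of `T` in `J` (NO hypothesis on `Y`).  Then every
coefficient of

  `kronNorm ζ p (Y + T) - kronNorm ζ p Y`

lies in `p J + J ^ p`.

Why the difference form: an element of the Gauss valuation ring of a function field inside
`L((q))` is a fraction `inc X / inc Y` with `Y` primitive but in general NOT a unit of `A((q))`,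
so the form `kronNorm (1 + y) - 1` (helper145 `Lib/helper145_KronDepth`, helper7715, helper6911)
does not apply to the `q`-expansion of `1 + a u`.  The proof is the double count of helper145
(`k • e_k = ∑_b rot(ζ^b) (e_k restricted to subsets through 0)` in `ZMod p`, then Bezout for
`(k, p)`), carried out with the `Y`-factors; only the coefficients at exponents `p n` are needed,
where the character sum is `p` (so only `ζ ^ p = 1` is used).

Imports Mathlib + the landed S37 Kronecker-series file only.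
-/
import Mathlib
import Fermat.Agent.S37.helper5666_KroneckerSeries

set_option autoImplicit false

namespace Fermat.Agent.S44.helper9545

open Fermat.Agent.S37.helper5666

noncomputable section

variable {A : Type*} [CommRing A]

/-- All coefficients of the Laurent series `x` lie in the ideal `K`. -/
def CoeffIn (K : Ideal A) (x : LaurentSeries A) : Prop := ∀ n : ℤ, x.coeff n ∈ K

theorem CoeffIn.mono {K K' : Ideal A} (h : K ≤ K') {x : LaurentSeries A} (hx : CoeffIn K x) :
    CoeffIn K' x := fun n => h (hx n)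

theorem coeffIn_top (x : LaurentSeries A) : CoeffIn (⊤ : Ideal A) x := fun _ => Submodule.mem_top

theorem coeffIn_zero (K : Ideal A) : CoeffIn K (0 : LaurentSeries A) := fun n => by
  simp

theorem CoeffIn.add {K : Ideal A} {x y : LaurentSeries A} (hx : CoeffIn K x) (hy : CoeffIn K y) :
    CoeffIn K (x + y) := fun n => by
  rw [HahnSeries.coeff_add]
  exact K.add_mem (hx n) (hy n)

theorem coeffIn_sum {ι : Type*} (K : Ideal A) (s : Finset ι) (f : ι → LaurentSeries A)
    (h : ∀ i ∈ s, CoeffIn K (f i)) : CoeffIn K (∑ i ∈ s, f i) := by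
  classical
  induction s using Finset.induction_on with
  | empty => simpa using coeffIn_zero K
  | insert a s ha ih =>
    rw [Finset.sum_insert ha]
    exact (h a (Finset.mem_insert_self a s)).add
      (ih fun i hi => h i (Finset.mem_insert_of_mem hi))

theorem CoeffIn.rot {K : Ideal A} (u : Aˣ) {x : LaurentSeries A} (hx : CoeffIn K x) :
    CoeffIn K (rot u x) := fun n => by
  rw [rot_coeff]
  exact K.mul_mem_left _ (hx n)

theorem CoeffIn.mul {K K' : Ideal A} {x y : LaurentSeries A} (hx : CoeffIn K x)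
    (hy : CoeffIn K' y) : CoeffIn (K * K') (x * y) := fun n => by
  rw [HahnSeries.coeff_mul]
  exact Ideal.sum_mem _ fun ij _ => Ideal.mul_mem_mul (hx _) (hy _)

theorem CoeffIn.mul_right {K : Ideal A} {x : LaurentSeries A} (hx : CoeffIn K x)
    (y : LaurentSeries A) : CoeffIn K (x * y) := by
  have h := hx.mul (coeffIn_top y)
  rwa [Ideal.mul_top] at h

theorem coeffIn_prod {ι : Type*} (K : Ideal A) (s : Finset ι) (f : ι → LaurentSeries A)
    (h : ∀ i ∈ s, CoeffIn K (f i)) : CoeffIn (K ^ s.card) (∏ i ∈ s, f i) := by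
  classical
  induction s using Finset.induction_on with
  | empty =>
    intro n
    simp
  | insert a s ha ih =>
    rw [Finset.prod_insert ha, Finset.card_insert_of_notMem ha, pow_succ']
    exact (h a (Finset.mem_insert_self a s)).mul
      (ih fun i hi => h i (Finset.mem_insert_of_mem hi))

/-! ### The character `ZMod p → Aˣ`, `b ↦ ζ^b` -/

section Character

variable (p : ℕ) (ζ : Aˣ) (hζ : ζ ^ p = 1)

/-- The additive character `b ↦ ζ^b` of `ZMod p` (values in `Additive Aˣ`). -/
def chiAdd : ZMod p →+ Additive Aˣ :=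
  ZMod.lift p ⟨zmultiplesHom (Additive Aˣ) (Additive.ofMul ζ), by
    rw [zmultiplesHom_apply, natCast_zsmul, ← ofMul_pow, hζ, ofMul_one]⟩

/-- The character `b ↦ ζ^b` of `ZMod p`. -/
def chi (b : ZMod p) : Aˣ := Additive.toMul (chiAdd p ζ hζ b)

theorem chi_add (b c : ZMod p) : chi p ζ hζ (b + c) = chi p ζ hζ b * chi p ζ hζ c := by
  unfold chi
  rw [map_add, toMul_add]

theorem chi_zero : chi p ζ hζ 0 = 1 := by
  unfold chi
  rw [map_zero, toMul_zero]

theorem chi_intCast (m : ℤ) : chi p ζ hζ (m : ZMod p) = ζ ^ m := by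
  unfold chi chiAdd
  rw [ZMod.lift_coe]
  show Additive.toMul ((zmultiplesHom (Additive Aˣ) (Additive.ofMul ζ)) m) = ζ ^ m
  rw [zmultiplesHom_apply, ← ofMul_zpow, toMul_ofMul]

theorem chi_natCast (i : ℕ) : chi p ζ hζ (i : ZMod p) = ζ ^ i := by
  have h := chi_intCast p ζ hζ (i : ℤ)
  rwa [Int.cast_natCast, zpow_natCast] at h

theorem chi_zpow (b : ZMod p) (n : ℤ) :
    chi p ζ hζ b ^ n = chi p ζ hζ ((n : ZMod p) * b) := by
  unfold chi
  rw [← zsmul_eq_mul, map_zsmul, toMul_zsmul]

/-- At exponents divisible by `p` the character is trivial. -/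
theorem chi_zpow_mul (b : ZMod p) (n : ℤ) : chi p ζ hζ b ^ ((p : ℤ) * n) = 1 := by
  rw [chi_zpow]
  have h0 : (((p : ℤ) * n : ℤ) : ZMod p) = 0 := by
    rw [Int.cast_mul, Int.cast_natCast, ZMod.natCast_self, zero_mul]
  rw [h0, zero_mul, chi_zero]

end Character

/-! ### The mixed pieces -/

section Pieces

variable (p : ℕ) [Fact p.Prime] (ζ : Aˣ) (hζ : ζ ^ p = 1) (Y T : LaurentSeries A)

/-- `P_S = ∏_{b ∈ S} T(ζ^b X) * ∏_{b ∉ S} Y(ζ^b X)`. -/
def piece (S : Finset (ZMod p)) : LaurentSeries A :=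
  (∏ b ∈ S, rot (chi p ζ hζ b) T) * ∏ b ∈ Sᶜ, rot (chi p ζ hζ b) Y

theorem rot_piece (c : ZMod p) (S : Finset (ZMod p)) :
    rot (chi p ζ hζ c) (piece p ζ hζ Y T S)
      = piece p ζ hζ Y T (S.map (Equiv.addRight c).toEmbedding) := by
  have hcompl : (S.map (Equiv.addRight c).toEmbedding)ᶜ = Sᶜ.map (Equiv.addRight c).toEmbedding := by
    ext x
    simp only [Finset.mem_compl, Finset.mem_map_equiv]
  unfold piece
  rw [hcompl, map_mul, map_prod, map_prod, Finset.prod_map, Finset.prod_map]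
  congr 1
  · refine Finset.prod_congr rfl fun b _ => ?_
    rw [rot_rot, ← chi_add, add_comm c b]
    rfl
  · refine Finset.prod_congr rfl fun b _ => ?_
    rw [rot_rot, ← chi_add, add_comm c b]
    rfl

theorem coeffIn_piece (J : Ideal A) (hT : CoeffIn J T) (S : Finset (ZMod p)) :
    CoeffIn (J ^ S.card) (piece p ζ hζ Y T S) :=
  (coeffIn_prod J S _ fun _ _ => hT.rot _).mul_right _

/-- `E_k` = the part of `∏_b (Y + T)(ζ^b X)` of degree `k` in `T`. -/
def esym (k : ℕ) : LaurentSeries A :=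
  ∑ S ∈ Finset.powersetCard k (Finset.univ : Finset (ZMod p)), piece p ζ hζ Y T S

theorem coeffIn_esym (J : Ideal A) (hT : CoeffIn J T) (k : ℕ) :
    CoeffIn (J ^ k) (esym p ζ hζ Y T k) := by
  refine coeffIn_sum _ _ _ fun S hS => ?_
  have h := coeffIn_piece p ζ hζ Y T J hT S
  rwa [(Finset.mem_powersetCard.mp hS).2] at h

/-- The part of `E_k` over the subsets through `0`. -/
def esymZero (k : ℕ) : LaurentSeries A :=
  ∑ S ∈ (Finset.powersetCard k (Finset.univ : Finset (ZMod p))).filter (fun S => (0 : ZMod p) ∈ S),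
    piece p ζ hζ Y T S

theorem coeffIn_esymZero (J : Ideal A) (hT : CoeffIn J T) (k : ℕ) :
    CoeffIn (J ^ k) (esymZero p ζ hζ Y T k) := by
  refine coeffIn_sum _ _ _ fun S hS => ?_
  have h := coeffIn_piece p ζ hζ Y T J hT S
  rwa [(Finset.mem_powersetCard.mp (Finset.mem_filter.mp hS).1).2] at h

/-- The part of `E_k` over the subsets through `b` is the rotation by `ζ^b` of `esymZero`. -/
theorem sum_filter_mem_eq_rot (k : ℕ) (b : ZMod p) :
    ∑ S ∈ (Finset.powersetCard k (Finset.univ : Finset (ZMod p))).filter (fun S => b ∈ S),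
        piece p ζ hζ Y T S
      = rot (chi p ζ hζ b) (esymZero p ζ hζ Y T k) := by
  unfold esymZero
  rw [map_sum]
  symm
  refine Finset.sum_equiv (Equiv.finsetCongr (Equiv.addRight b)) (fun S => ?_) (fun S _ => ?_)
  · simp only [Finset.mem_filter, Finset.mem_powersetCard, Finset.subset_univ, true_and,
      Equiv.finsetCongr_apply, Finset.card_map, Finset.mem_map_equiv, Equiv.addRight_symm,
      Equiv.coe_addRight, add_neg_cancel]
  · rw [rot_piece]
    rfl

/-- The double count `k • E_k = ∑_b rot(ζ^b) (esymZero k)`. -/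
theorem nsmul_esym (k : ℕ) :
    k • esym p ζ hζ Y T k = ∑ b : ZMod p, rot (chi p ζ hζ b) (esymZero p ζ hζ Y T k) := by
  have h1 : k • esym p ζ hζ Y T k
      = ∑ S ∈ Finset.powersetCard k (Finset.univ : Finset (ZMod p)),
          ∑ _b ∈ S, piece p ζ hζ Y T S := by
    unfold esym
    rw [Finset.smul_sum]
    refine Finset.sum_congr rfl fun S hS => ?_
    rw [Finset.sum_const, (Finset.mem_powersetCard.mp hS).2]
  rw [h1, Finset.sum_comm' (s' := fun b =>
      (Finset.powersetCard k (Finset.univ : Finset (ZMod p))).filter (fun S => b ∈ S))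
      (t' := Finset.univ)]
  · exact Finset.sum_congr rfl fun b _ => sum_filter_mem_eq_rot p ζ hζ Y T k b
  · intro S b
    simp only [Finset.mem_filter, Finset.mem_univ, and_true]

/-- Coefficients of `E_k`, `0 < k < p`, at exponents `p n` lie in `p J`. -/
theorem coeff_esym_mem_of_lt (J : Ideal A) (hT : CoeffIn J T) (k : ℕ) (hk0 : k ≠ 0) (hkp : k < p)
    (n : ℤ) : (esym p ζ hζ Y T k).coeff ((p : ℤ) * n) ∈ Ideal.span {(p : A)} * J := by
  have hp : p.Prime := Fact.out
  -- the coefficient of the double count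
  have h1 : (k : A) * (esym p ζ hζ Y T k).coeff ((p : ℤ) * n)
      = (p : A) * (esymZero p ζ hζ Y T k).coeff ((p : ℤ) * n) := by
    have h := congrArg (fun x : LaurentSeries A => (HahnSeries.coeff.addMonoidHom ((p : ℤ) * n)) x)
      (nsmul_esym p ζ hζ Y T k)
    simp only [map_nsmul, map_sum] at h
    rw [nsmul_eq_mul] at h
    refine Eq.trans h ?_
    have h2 : ∀ b : ZMod p, (HahnSeries.coeff.addMonoidHom ((p : ℤ) * n))
        (rot (chi p ζ hζ b) (esymZero p ζ hζ Y T k))
          = (esymZero p ζ hζ Y T k).coeff ((p : ℤ) * n) := by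
      intro b
      show (rot (chi p ζ hζ b) (esymZero p ζ hζ Y T k)).coeff ((p : ℤ) * n) = _
      rw [rot_coeff, chi_zpow_mul, Units.val_one, one_mul]
    rw [Finset.sum_congr rfl fun b _ => h2 b, Finset.sum_const, Finset.card_univ, ZMod.card,
      nsmul_eq_mul]
  have hQ : (esymZero p ζ hζ Y T k).coeff ((p : ℤ) * n) ∈ J :=
    Ideal.pow_le_self hk0 (coeffIn_esymZero p ζ hζ Y T J hT k _)
  have hP : (esym p ζ hζ Y T k).coeff ((p : ℤ) * n) ∈ J :=
    Ideal.pow_le_self hk0 (coeffIn_esym p ζ hζ Y T J hT k _)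
  have h2 : (k : A) * (esym p ζ hζ Y T k).coeff ((p : ℤ) * n) ∈ Ideal.span {(p : A)} * J := by
    rw [h1]
    exact Ideal.mul_mem_mul (Ideal.subset_span rfl) hQ
  -- Bezout
  have hcop : Nat.Coprime k p :=
    (Nat.Coprime.symm ((Nat.Prime.coprime_iff_not_dvd hp).mpr
      (Nat.not_dvd_of_pos_of_lt (Nat.pos_of_ne_zero hk0) hkp)))
  obtain ⟨a, b, hab⟩ := Nat.isCoprime_iff_coprime.mpr hcop
  have hab' : (a : A) * (k : A) + (b : A) * (p : A) = 1 := by
    have := congrArg (fun z : ℤ => (z : A)) hab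
    simpa using this
  have h3 : (esym p ζ hζ Y T k).coeff ((p : ℤ) * n)
      = (a : A) * ((k : A) * (esym p ζ hζ Y T k).coeff ((p : ℤ) * n))
        + (p : A) * ((b : A) * (esym p ζ hζ Y T k).coeff ((p : ℤ) * n)) := by
    linear_combination (-(esym p ζ hζ Y T k).coeff ((p : ℤ) * n)) * hab'
  rw [h3]
  exact Ideal.add_mem _ (Ideal.mul_mem_left _ _ h2)
    (Ideal.mul_mem_mul (Ideal.subset_span rfl) (J.mul_mem_left _ hP))

/-- `∏_{b<p} x(ζ^b X)` as a product over `ZMod p`. -/
theorem kronProd_eq_prod_zmod (x : LaurentSeries A) :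
    kronProd ζ p x = ∏ b : ZMod p, rot (chi p ζ hζ b) x := by
  unfold kronProd
  refine Finset.prod_nbij' (fun i : ℕ => (i : ZMod p)) (fun b : ZMod p => b.val)
    (fun _ _ => Finset.mem_univ _) (fun b _ => Finset.mem_range.mpr (ZMod.val_lt b))
    (fun i hi => ZMod.val_natCast_of_lt (Finset.mem_range.mp hi))
    (fun b _ => ZMod.natCast_zmod_val b) (fun i _ => ?_)
  rw [chi_natCast]

/-- `∏_b (Y + T)(ζ^b X) - ∏_b Y(ζ^b X) = ∑_{1 ≤ k ≤ p} E_k`. -/
theorem kronProd_add_sub :
    kronProd ζ p (Y + T) - kronProd ζ p Y = ∑ k ∈ Finset.range p, esym p ζ hζ Y T (k + 1) := by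
  rw [kronProd_eq_prod_zmod p ζ hζ, kronProd_eq_prod_zmod p ζ hζ]
  have h0 : ∏ b : ZMod p, rot (chi p ζ hζ b) (Y + T)
      = ∑ S ∈ (Finset.univ : Finset (ZMod p)).powerset, piece p ζ hζ Y T S := by
    simp only [map_add]
    rw [Finset.prod_congr rfl fun b _ => add_comm (rot (chi p ζ hζ b) Y) (rot (chi p ζ hζ b) T),
      Finset.prod_add]
    refine Finset.sum_congr rfl fun S _ => ?_
    unfold piece
    rw [Finset.compl_eq_univ_sdiff]
  rw [h0, Finset.sum_powerset, Finset.card_univ, ZMod.card, Finset.sum_range_succ']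
  have h1 : ∑ S ∈ Finset.powersetCard 0 (Finset.univ : Finset (ZMod p)), piece p ζ hζ Y T S
      = ∏ b : ZMod p, rot (chi p ζ hζ b) Y := by
    simp only [Finset.powersetCard_zero, Finset.sum_singleton]
    unfold piece
    simp
  rw [h1, add_sub_cancel_right]
  rfl

end Pieces

/-! ### Main statements -/

/-- **Depth raising, difference form, product level**: at exponents `p n`. -/
theorem kronProd_add_sub_coeff_mem (p : ℕ) (hp : p.Prime) (ζ : Aˣ) (hζ : ζ ^ p = 1)
    (J : Ideal A) (Y T : LaurentSeries A) (hT : ∀ n : ℤ, T.coeff n ∈ J) (n : ℤ) :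
    (kronProd ζ p (Y + T) - kronProd ζ p Y).coeff ((p : ℤ) * n)
      ∈ Ideal.span {(p : A)} * J ⊔ J ^ p := by
  have : Fact p.Prime := ⟨hp⟩
  rw [kronProd_add_sub p ζ hζ Y T]
  have hsum : ∀ (s : Finset ℕ) (f : ℕ → LaurentSeries A) (K : Ideal A) (m : ℤ),
      (∀ k ∈ s, (f k).coeff m ∈ K) → (∑ k ∈ s, f k).coeff m ∈ K := by
    intro s f K m h
    have h' : (∑ k ∈ s, f k).coeff m = ∑ k ∈ s, (f k).coeff m :=
      map_sum (HahnSeries.coeff.addMonoidHom m) f s
    rw [h']
    exact Ideal.sum_mem _ h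
  refine hsum _ _ _ _ fun k hk => ?_
  have hk' : k + 1 ≤ p := Finset.mem_range.mp hk
  rcases Nat.lt_or_eq_of_le hk' with hlt | heq
  · exact Ideal.mem_sup_left
      (coeff_esym_mem_of_lt p ζ hζ Y T J hT (k + 1) (Nat.succ_ne_zero k) hlt n)
  · have h : CoeffIn (J ^ (k + 1)) (esym p ζ hζ Y T (k + 1)) :=
      coeffIn_esym p ζ hζ Y T J hT (k + 1)
    have hle : J ^ (k + 1) ≤ J ^ p := le_of_eq (congrArg (fun m : ℕ => J ^ m) heq)
    exact Ideal.mem_sup_right (hle (h _))

/-- **Depth raising for the Kronecker norm, difference form**: if all coefficients of `T` lie in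
`J`, all coefficients of `kronNorm ζ p (Y + T) - kronNorm ζ p Y` lie in `p J + J ^ p`
(no hypothesis on `Y`). -/
theorem kronNorm_add_sub_coeff_mem (p : ℕ) [NeZero p] (hp : p.Prime) (ζ : Aˣ) (hζ : ζ ^ p = 1)
    (J : Ideal A) (Y T : LaurentSeries A) (hT : ∀ n : ℤ, T.coeff n ∈ J) (n : ℤ) :
    (kronNorm ζ p (Y + T) - kronNorm ζ p Y).coeff n ∈ Ideal.span {(p : A)} * J ⊔ J ^ p := by
  have h := kronProd_add_sub_coeff_mem p hp ζ hζ J Y T hT n
  have h1 : (kronNorm ζ p (Y + T) - kronNorm ζ p Y).coeff n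
      = (kronProd ζ p (Y + T) - kronProd ζ p Y).coeff ((p : ℤ) * n) := by
    rw [HahnSeries.coeff_sub, HahnSeries.coeff_sub, kronNorm, kronNorm, descend_coeff,
      descend_coeff]
  rw [h1]
  exact h

end

end Fermat.Agent.S44.helper9545
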