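/-
S44, step (3) "TOR-1", registry leaf L3-FRACDEPTH (helper3316): DEPTH RAISING FOR THE KRONECKER
NORM ON THE GAUSS VALUATION OF A FUNCTION FIELD (the hypothesis `hdepth` of the abstract core
`S44/helper9545_Tor1Core`).

`L` a field, `A` a valuation subring of `L`, `π : A →+* k` a ring homomorphism to a field of
characteristic exponent `p` (`p` prime), `ζ ∈ L` a primitive `p`-th root of unity.  The landed
Gauss ring `S18.helper8991.gaussRing A π ⊆ L((q))` consists of the fractions `inc X / inc Y` with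
`X, Y ∈ A((q))`, `red Y ≠ 0`; `Y` is in general NOT a unit of `A((q))`, so an element `x` with
`x - 1 = c f`, `f` in the Gauss ring, need not have integral `q`-coefficients and the
coefficientwise depth lemmas for `kronNorm (1 + y) - 1` do not apply to it.  Here the depth
statement is proved for EVERY such `x`, through the difference form
`S44.helper9545.kronNorm_add_sub_coeff_mem` applied to the pair `(Y + c X, Y)`:

* `gaussRing_kronNorm_sub_one` : `x - 1 = C c * f`, `f ∈ gaussRing`, `c ∈ A`  ⟹
  `kronNorm ζ p x - 1 = C d * f'` with `f' ∈ gaussRing` and `d = p c` or `d = c ^ p`;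
* `gaussSubring_kronNorm_depth'`, `gaussSubring_kronNorm_depth` : for a subfield `E ≤ L((q))`
  with its Gauss valuation `v` (landed `gaussSubring`), `x y : E`, `y = kronNorm ζ p x` on
  expansions, `v (x - 1) ≤ 1`:  `v (y - 1) ≤ max (v p * v (x - 1)) (v (x - 1) ^ p)`, and the
  `γ`-form `v (x - 1) ≤ γ → v (y - 1) ≤ max (v p * γ) (γ ^ p)`;
* `gaussF_kronNorm_depth` : the same for the landed `gaussF A π N` (function field of `X₀(N)`).

Imports: Mathlib, the landed S37 Kronecker files and S18 Gauss ring, and the difference form (H)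
of helper9545.
-/
import Mathlib
import Fermat.Agent.S37.helper5666_KroneckerVal
import Fermat.Agent.S18.helper8991_GaussInst
import Fermat.Agent.S44.helper9545_KronDiff

set_option autoImplicit false

namespace Fermat.Agent.S44.helper3316

open HahnSeries ModularCurve
open Fermat.Agent.S37.helper5666 Fermat.Agent.S18.helper8991

noncomputable section

/-! ### Multiplicativity of the Kronecker norm over a domain -/

section Series

variable {R : Type*} [CommRing R]

theorem kronProd_mul (ζ : Rˣ) (l : ℕ) (x y : LaurentSeries R) :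
    kronProd ζ l (x * y) = kronProd ζ l x * kronProd ζ l y := by
  unfold kronProd
  simp only [map_mul]
  exact Finset.prod_mul_distrib

theorem kronNorm_mul [IsDomain R] (ζ : Rˣ) (l : ℕ) [NeZero l] (hζ : IsPrimitiveRoot ζ l)
    (x y : LaurentSeries R) : kronNorm ζ l (x * y) = kronNorm ζ l x * kronNorm ζ l y := by
  have key : ∀ z : LaurentSeries R, qExpand R l (kronNorm ζ l z) = kronProd ζ l z := fun z =>
    qExpand_kronNorm ζ l hζ.pow_eq_one (hreg_of_isPrimitiveRoot l ζ hζ) z
  apply qExpand_injective (R := R) (N := l)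
  rw [map_mul, key, key, key, kronProd_mul]

/-- Coefficients of `C c * X`. -/
theorem coeff_C_mul' (c : R) (X : LaurentSeries R) (n : ℤ) :
    (HahnSeries.C c * X).coeff n = c * X.coeff n := by
  rw [HahnSeries.C_mul_eq_smul, HahnSeries.coeff_smul, smul_eq_mul]

theorem coeffMap_frobenius_ne_zero {k : Type*} [Field k] (p : ℕ) [ExpChar k p]
    {Z : LaurentSeries k} (hZ : Z ≠ 0) : coeffMap (frobenius k p) Z ≠ 0 := by
  intro h0
  apply hZ
  ext n
  have h1 : (coeffMap (frobenius k p) Z).coeff n = 0 := by rw [h0]; rfl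
  rw [coeffMap_coeff, frobenius_def] at h1
  rw [HahnSeries.coeff_zero]
  exact pow_eq_zero_iff (M₀ := k) (ne_of_gt (expChar_pos k p)) |>.mp h1

end Series

/-! ### The Gauss ring -/

section Gauss

variable {L : Type*} [Field L] (A : ValuationSubring L) {k : Type*} [Field k] (π : A →+* k)

/-- **Depth raising on the Gauss ring, fraction form.**  If `x - 1 = c f` with `c ∈ A` and `f` in
the Gauss ring, then `kronNorm ζ p x - 1 = d f'` with `f'` in the Gauss ring and `d = p c` or
`d = c ^ p` (the one of larger absolute value). -/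
theorem gaussRing_kronNorm_sub_one (p : ℕ) [NeZero p] (hp : p.Prime) [ExpChar k p]
    (ζ : Lˣ) (hζ : IsPrimitiveRoot ζ p) (x : LaurentSeries L) (c : A)
    (hx : ∃ f ∈ gaussRing A π, x - 1 = HahnSeries.C (c : L) * f) :
    ∃ d : A, (d = (p : A) * c ∨ d = c ^ p) ∧
      ∃ f' ∈ gaussRing A π, kronNorm ζ p x - 1 = HahnSeries.C (d : L) * f' := by
  obtain ⟨f, ⟨X, Y, hY, hXY⟩, hxf⟩ := hx
  -- the integral root of unity
  obtain ⟨ζA, hζA⟩ := exists_unit_of_pow_eq_one A ζ p (NeZero.ne p) hζ.pow_eq_one
  have hζAp : ζA ^ p = 1 := by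
    have hinj : Function.Injective (Units.map (A.subtype : A →* L)) :=
      Units.map_injective (f := (A.subtype : A →* L)) Subtype.val_injective
    apply hinj
    rw [map_pow, hζA, hζ.pow_eq_one, map_one]
  have hπζ : π (ζA : A) = 1 := map_unit_eq_one_of_pow_eq_one π p ζA hζAp
  -- the pair `(Y + T, Y)`
  set T : LaurentSeries A := HahnSeries.C c * X with hT
  have hTJ : ∀ n : ℤ, T.coeff n ∈ Ideal.span {c} := fun n => by
    rw [hT, coeff_C_mul']
    exact Ideal.mul_mem_right _ _ (Ideal.subset_span rfl)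
  have hxY : x * inc A Y = inc A (Y + T) := by
    have hx' : x = 1 + HahnSeries.C (c : L) * f := by rw [← hxf]; ring
    rw [hx', map_add, hT, map_mul, inc_C, ← hXY]
    ring
  -- apply the norm
  have hN : kronNorm ζ p x * inc A (kronNorm ζA p Y) = inc A (kronNorm ζA p (Y + T)) := by
    have h1 : ∀ Z : LaurentSeries A, inc A (kronNorm ζA p Z) = kronNorm ζ p (inc A Z) := fun Z => by
      rw [← hζA]
      exact coeffMap_kronNorm_map A.subtype ζA p Z
    rw [h1, h1, ← kronNorm_mul ζ p hζ, hxY]
  set D : LaurentSeries A := kronNorm ζA p (Y + T) - kronNorm ζA p Y with hD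
  have hND : (kronNorm ζ p x - 1) * inc A (kronNorm ζA p Y) = inc A D := by
    rw [hD, map_sub, ← hN]
    ring
  have hDJ : ∀ n : ℤ, D.coeff n ∈ Ideal.span {(p : A)} * Ideal.span {c} ⊔ Ideal.span {c} ^ p :=
    fun n => Fermat.Agent.S44.helper9545.kronNorm_add_sub_coeff_mem p hp ζA hζAp _ Y T hTJ n
  -- the reduction of the new denominator
  have hredN : red A π (kronNorm ζA p Y) ≠ 0 := by
    have h2 : red A π (kronNorm ζA p Y) = coeffMap (frobenius k p) (red A π Y) :=
      coeffMap_kronNorm π ζA hπζ p Y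
    rw [h2]
    exact coeffMap_frobenius_ne_zero p hY
  have hincN : inc A (kronNorm ζA p Y) ≠ 0 := inc_ne_zero A π hredN
  -- the generator `d`
  obtain ⟨d, hd, hdJ⟩ : ∃ d : A, (d = (p : A) * c ∨ d = c ^ p) ∧
      Ideal.span {(p : A)} * Ideal.span {c} ⊔ Ideal.span {c} ^ p ≤ Ideal.span {d} := by
    rw [Ideal.span_singleton_mul_span_singleton, Ideal.span_singleton_pow]
    rcases ValuationRing.dvd_total ((p : A) * c) (c ^ p) with h | h
    · exact ⟨(p : A) * c, Or.inl rfl, sup_le le_rfl
        ((Ideal.span_singleton_le_span_singleton).mpr h)⟩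
    · exact ⟨c ^ p, Or.inr rfl, sup_le ((Ideal.span_singleton_le_span_singleton).mpr h) le_rfl⟩
  refine ⟨d, hd, ?_⟩
  have hDd : ∀ n : ℤ, d ∣ D.coeff n := fun n =>
    Ideal.mem_span_singleton.mp (hdJ (hDJ n))
  by_cases hd0 : d = 0
  · -- then `D = 0`, so `kronNorm ζ p x = 1`
    have hD0 : D = 0 := by
      ext n
      have := hDd n
      rw [hd0, zero_dvd_iff] at this
      rw [this, HahnSeries.coeff_zero]
    rw [hD0, map_zero] at hND
    have hx1 : kronNorm ζ p x - 1 = 0 := (mul_eq_zero.mp hND).resolve_right hincN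
    exact ⟨0, Subring.zero_mem _, by rw [hx1, mul_zero]⟩
  · have hdL : (d : L) ≠ 0 := fun h => hd0 (Subtype.ext h)
    have hdiv : ∀ n : ℤ, (inc A D).coeff n / (d : L) ∈ A := fun n => by
      obtain ⟨e, he⟩ := hDd n
      rw [inc_coeff, he]
      push_cast
      rw [mul_div_cancel_left₀ _ hdL]
      exact e.2
    refine ⟨HahnSeries.C (d : L)⁻¹ * (kronNorm ζ p x - 1),
      ⟨liftDiv A (inc A D) (d : L) hdiv, kronNorm ζA p Y, hredN, ?_⟩, ?_⟩
    · have h3 := C_mul_inc_liftDiv A (inc A D) (d : L) hdL hdiv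
      rw [mul_assoc, hND]
      calc HahnSeries.C (d : L)⁻¹ * inc A D
          = HahnSeries.C (d : L)⁻¹ * (HahnSeries.C (d : L) *
              inc A (liftDiv A (inc A D) (d : L) hdiv)) := by rw [h3]
        _ = inc A (liftDiv A (inc A D) (d : L) hdiv) := C_inv_mul_C_mul hdL _
    · rw [C_mul_C_inv_mul hdL]

/-! ### Subfields of `L((q))` with their Gauss valuation -/

section Subfield

variable (E : IntermediateField L (LaurentSeries L))
  (hE : ∀ f : LaurentSeries L, f ∈ E → f ≠ 0 → IsNormalizable A π f)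

/-- **Depth raising, existence form, on a subfield.**  `x, y ∈ E` with `y = kronNorm ζ p x` on
expansions; if `x - 1 = c g` with `c ∈ A` and `g` in the Gauss valuation ring of `E`, then
`y - 1 = d g'` with `g'` in the Gauss valuation ring and `d = p c` or `d = c ^ p`. -/
theorem gaussSubring_kronNorm_exists (p : ℕ) [NeZero p] (hp : p.Prime) [ExpChar k p]
    (ζ : Lˣ) (hζ : IsPrimitiveRoot ζ p) (x y : E)
    (hy : (y : LaurentSeries L) = kronNorm ζ p (x : LaurentSeries L)) (c : A)
    (g : E) (hg : g ∈ gaussSubring A π E hE) (hx : x - 1 = algebraMap L E (c : L) * g) :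
    ∃ d : A, (d = (p : A) * c ∨ d = c ^ p) ∧ ∃ g' : E, g' ∈ gaussSubring A π E hE ∧
      y - 1 = algebraMap L E (d : L) * g' := by
  have hx' : (x : LaurentSeries L) - 1 = HahnSeries.C (c : L) * (g : LaurentSeries L) := by
    have h : ((x - 1 : E) : LaurentSeries L)
        = ((algebraMap L E (c : L) * g : E) : LaurentSeries L) :=
      congrArg (fun z : E => (z : LaurentSeries L)) hx
    rw [Fermat.Agent.S18.helper8991.C_eq_algebraMap]
    exact h
  obtain ⟨d, hd, f', hf', hN⟩ := gaussRing_kronNorm_sub_one A π p hp ζ hζ (x : LaurentSeries L) c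
    ⟨(g : LaurentSeries L), hg, hx'⟩
  refine ⟨d, hd, ?_⟩
  by_cases hd0 : (d : L) = 0
  · refine ⟨0, Subring.zero_mem _, ?_⟩
    rw [hd0, map_zero, zero_mul] at hN
    rw [mul_zero]
    apply Subtype.ext
    show (y : LaurentSeries L) - 1 = 0
    rw [hy, hN]
  · have hdE : algebraMap L E (d : L) ≠ 0 := (map_ne_zero _).mpr hd0
    have hcoe : ((y - 1 : E) : LaurentSeries L) = HahnSeries.C (d : L) * f' := by
      show (y : LaurentSeries L) - 1 = _
      rw [hy, hN]
    refine ⟨(algebraMap L E (d : L))⁻¹ * (y - 1), ?_, ?_⟩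
    · rw [mem_gaussSubring_iff]
      have h2 : (((algebraMap L E (d : L))⁻¹ * (y - 1) : E) : LaurentSeries L) = f' := by
        rw [IntermediateField.coe_mul, hcoe, IntermediateField.coe_inv]
        have h3 : ((algebraMap L E (d : L) : E) : LaurentSeries L) = HahnSeries.C (d : L) := by
          rw [Fermat.Agent.S18.helper8991.C_eq_algebraMap]
          rfl
        rw [h3, ← mul_assoc, inv_mul_cancel₀, one_mul]
        rw [Fermat.Agent.S18.helper8991.C_eq_algebraMap]
        exact (map_ne_zero _).mpr hd0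
      rw [h2]
      exact hf'
    · rw [mul_inv_cancel_left₀ hdE]

/-- **Depth raising for the Gauss valuation of a subfield** (`hπ0`: `π` kills the maximal ideal of
`A`).  If `v (x - 1) ≤ 1` then `v (y - 1) ≤ max (v p * v (x - 1)) (v (x - 1) ^ p)`. -/
theorem gaussSubring_kronNorm_depth'
    (hπ0 : ∀ a : A, a ∈ IsLocalRing.maximalIdeal A → π a = 0)
    (p : ℕ) [NeZero p] (hp : p.Prime) [ExpChar k p]
    (ζ : Lˣ) (hζ : IsPrimitiveRoot ζ p) (x y : E)
    (hy : (y : LaurentSeries L) = kronNorm ζ p (x : LaurentSeries L))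
    (hx : (gaussSubring A π E hE).valuation (x - 1) ≤ 1) :
    (gaussSubring A π E hE).valuation (y - 1) ≤
      max ((gaussSubring A π E hE).valuation (p : E) * (gaussSubring A π E hE).valuation (x - 1))
        ((gaussSubring A π E hE).valuation (x - 1) ^ p) := by
  set v := (gaussSubring A π E hE).valuation with hv
  by_cases hx0 : x - 1 = 0
  · -- `x = 1`, hence `y = 1`
    obtain ⟨d, hd, g', -, hyd⟩ := gaussSubring_kronNorm_exists A π E hE p hp ζ hζ x y hy 0 0
      (Subring.zero_mem _) (by rw [hx0, mul_zero])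
    have hd0 : d = 0 := by
      rcases hd with h | h
      · rw [h, mul_zero]
      · rw [h, zero_pow (NeZero.ne p)]
    rw [hd0] at hyd
    have hy0 : y - 1 = 0 := by
      rw [hyd]
      simp
    rw [hy0, map_zero]
    exact zero_le
  · obtain ⟨c, u, hc, hu, hxu⟩ := exists_const_mul_unit A π E hE (x - 1) hx0
    have hunit : IsUnit u := (isUnit_iff_gaussRed_ne_zero A π E hE u).mpr hu
    have hvu : v (u : E) = 1 := (ValuationSubring.valuation_eq_one_iff _ u).mp hunit
    have hvx : v (x - 1) = v (algebraMap L E c) := by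
      rw [hxu, map_mul, hvu, mul_one]
    have hcA : c ∈ A := by
      rw [← algebraMap_mem_gaussSubring_iff A π E hE hπ0 c,
        ← ValuationSubring.valuation_le_one_iff, ← hv, ← hvx]
      exact hx
    obtain ⟨d, hd, g', hg', hyd⟩ := gaussSubring_kronNorm_exists A π E hE p hp ζ hζ x y hy
      ⟨c, hcA⟩ (u : E) u.2 hxu
    have hvg : v g' ≤ 1 := (ValuationSubring.valuation_le_one_iff _ _).mpr hg'
    have hle : v (y - 1) ≤ v (algebraMap L E (d : L)) := by
      rw [hyd, map_mul]
      exact mul_le_of_le_one_right' hvg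
    refine hle.trans ?_
    rcases hd with h | h
    · refine le_max_of_le_left (le_of_eq ?_)
      have hdL : (d : L) = (p : L) * c := by rw [h]; rfl
      rw [hdL, map_mul, map_natCast, map_mul, hvx]
    · refine le_max_of_le_right (le_of_eq ?_)
      have hdL : (d : L) = c ^ p := by rw [h]; rfl
      rw [hdL, map_pow, map_pow, hvx]

/-- **Depth raising for the Gauss valuation of a subfield, `γ`-form**: the hypothesis `hdepth` of
the abstract core `S44/helper9545_Tor1Core`. -/
theorem gaussSubring_kronNorm_depth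
    (hπ0 : ∀ a : A, a ∈ IsLocalRing.maximalIdeal A → π a = 0)
    (p : ℕ) [NeZero p] (hp : p.Prime) [ExpChar k p]
    (ζ : Lˣ) (hζ : IsPrimitiveRoot ζ p) (x y : E)
    (hy : (y : LaurentSeries L) = kronNorm ζ p (x : LaurentSeries L))
    (γ : (gaussSubring A π E hE).ValueGroup) (hγ : γ ≤ 1)
    (hx : (gaussSubring A π E hE).valuation (x - 1) ≤ γ) :
    (gaussSubring A π E hE).valuation (y - 1) ≤
      max ((gaussSubring A π E hE).valuation (p : E) * γ) (γ ^ p) := by
  refine (gaussSubring_kronNorm_depth' A π E hE hπ0 p hp ζ hζ x y hy (hx.trans hγ)).trans ?_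
  exact max_le_max (mul_le_mul' le_rfl hx) (pow_le_pow_left' hx p)

end Subfield

/-! ### The function field of `X₀(N)` -/

section Level

variable [Algebra ℚ L]

/-- **Depth raising for the Kronecker norm on `gaussF A π N`** (existence form). -/
theorem gaussF_kronNorm_exists (N : ℕ) (p : ℕ) [NeZero p] (hp : p.Prime) [ExpChar k p]
    (ζ : Lˣ) (hζ : IsPrimitiveRoot ζ p)
    (x y : ↥(laurentBaseChange L (modularFunctionFieldFull N)))
    (hy : (y : LaurentSeries L) = kronNorm ζ p (x : LaurentSeries L)) (c : A)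
    (g : ↥(laurentBaseChange L (modularFunctionFieldFull N))) (hg : g ∈ gaussF A π N)
    (hx : x - 1 = algebraMap L ↥(laurentBaseChange L (modularFunctionFieldFull N)) (c : L) * g) :
    ∃ d : A, (d = (p : A) * c ∨ d = c ^ p) ∧
      ∃ g' : ↥(laurentBaseChange L (modularFunctionFieldFull N)), g' ∈ gaussF A π N ∧
        y - 1 = algebraMap L ↥(laurentBaseChange L (modularFunctionFieldFull N)) (d : L) * g' :=
  gaussSubring_kronNorm_exists A π _ _ p hp ζ hζ x y hy c g hg hx

/-- **Depth raising for the Kronecker norm on `gaussF A π N`**: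
`v (x - 1) ≤ 1 → v (y - 1) ≤ max (v p * v (x - 1)) (v (x - 1) ^ p)` for `y = kronNorm ζ p x`. -/
theorem gaussF_kronNorm_depth' (N : ℕ)
    (hπ0 : ∀ a : A, a ∈ IsLocalRing.maximalIdeal A → π a = 0)
    (p : ℕ) [NeZero p] (hp : p.Prime) [ExpChar k p]
    (ζ : Lˣ) (hζ : IsPrimitiveRoot ζ p)
    (x y : ↥(laurentBaseChange L (modularFunctionFieldFull N)))
    (hy : (y : LaurentSeries L) = kronNorm ζ p (x : LaurentSeries L))
    (hx : (gaussF A π N).valuation (x - 1) ≤ 1) :
    (gaussF A π N).valuation (y - 1) ≤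
      max ((gaussF A π N).valuation (p : ↥(laurentBaseChange L (modularFunctionFieldFull N))) *
          (gaussF A π N).valuation (x - 1))
        ((gaussF A π N).valuation (x - 1) ^ p) :=
  gaussSubring_kronNorm_depth' A π _ _ hπ0 p hp ζ hζ x y hy hx

/-- **`hdepth` on `gaussF A π N`**, in the exact shape consumed by the abstract core
`S44/helper9545_Tor1Core` (`M` any multiplicative map whose expansion is the Kronecker norm). -/
theorem gaussF_hdepth (N : ℕ)
    (hπ0 : ∀ a : A, a ∈ IsLocalRing.maximalIdeal A → π a = 0)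
    (p : ℕ) [NeZero p] (hp : p.Prime) [ExpChar k p]
    (ζ : Lˣ) (hζ : IsPrimitiveRoot ζ p)
    (M : ↥(laurentBaseChange L (modularFunctionFieldFull N)) →*
      ↥(laurentBaseChange L (modularFunctionFieldFull N)))
    (hM : ∀ x : ↥(laurentBaseChange L (modularFunctionFieldFull N)),
      ((M x : ↥(laurentBaseChange L (modularFunctionFieldFull N))) : LaurentSeries L)
        = kronNorm ζ p (x : LaurentSeries L)) :
    ∀ (x : ↥(laurentBaseChange L (modularFunctionFieldFull N)))
      (γ : (gaussF A π N).ValueGroup), γ < 1 → (gaussF A π N).valuation (x - 1) ≤ γ →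
      (gaussF A π N).valuation (M x - 1) ≤
        max ((gaussF A π N).valuation (p : ↥(laurentBaseChange L (modularFunctionFieldFull N))) * γ)
          (γ ^ p) :=
  fun x γ hγ hx =>
    gaussSubring_kronNorm_depth A π _ _ hπ0 p hp ζ hζ x (M x) (hM x) γ hγ.le hx

end Level

end Gauss

end

end Fermat.Agent.S44.helper3316
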