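/-
S44, step (3) "TOR-1", registry leaf L3-FRACDEPTH (helper3316): THE INSTANCE of the depth-raising
hypothesis `hdepth` of the abstract core `S44/helper9545_Tor1Core`, for

  `F = modularFunctionFieldBar N = ℚ̄(X₀(N))`,  `v = (gaussV A N).valuation` (landed S34.helper584),
  `M = uNorm N p` (landed S35.helper2106: the multiplicative `U_p = N_β ∘ α^*`),  `p ∣ N`,
  `A` a valuation subring of `ℚ̄` over `p`:

  `uNorm_hdepth : ∀ x γ, γ < 1 → v (x - 1) ≤ γ → v (uNorm N p x - 1) ≤ max (v p * γ) (γ ^ p)`.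

No integrality of the `q`-expansion of `x` is assumed (see `S44/helper3316_KronFrac`).
-/
import Fermat.Agent.S44.helper3316_KronFrac
import Fermat.Agent.S35.helper2106_UqBridge
import Fermat.Agent.S34.helper584_UniInst

set_option autoImplicit false

namespace Fermat.Agent.S44.helper3316

open ModularCurve

local notation "Qb" => AlgebraicClosure ℚ

/-- **`hdepth` for `U_p` on `ℚ̄(X₀(N))` at the Gauss valuation**, `p ∣ N`: the multiplicative
`U_p` raises the depth of every function `x` with `v (x - 1) < 1`. -/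
theorem uNorm_hdepth (N p : ℕ) [NeZero N] [NeZero p] (hp : p.Prime) (hpN : p ∣ N)
    (A : ValuationSubring Qb) (hA : A.LiesOverPrime p) :
    ∀ (x : modularFunctionFieldBar N) (γ : (Fermat.Agent.S34.helper584.gaussV A N).ValueGroup),
      γ < 1 → (Fermat.Agent.S34.helper584.gaussV A N).valuation (x - 1) ≤ γ →
      (Fermat.Agent.S34.helper584.gaussV A N).valuation
          (Fermat.Agent.S35.helper2106.uNorm N p x - 1) ≤
        max ((Fermat.Agent.S34.helper584.gaussV A N).valuation (p : modularFunctionFieldBar N) * γ)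
          (γ ^ p) := by
  have hchar : CharP (IsLocalRing.ResidueField A) p :=
    Fermat.Agent.S34.helper584.charP_residueField hp A hA
  have : Fact p.Prime := ⟨hp⟩
  have hexp : ExpChar (IsLocalRing.ResidueField A) p := ExpChar.prime hp
  have : NeZero ((p : ℕ) : ℚ) := ⟨Nat.cast_ne_zero.mpr (NeZero.ne p)⟩
  obtain ⟨ζ₀, hζ₀⟩ := HasEnoughRootsOfUnity.exists_primitiveRoot Qb p
  let ζ : Qbˣ := (hζ₀.isUnit (NeZero.ne p)).unit
  have hζ : IsPrimitiveRoot ζ p := IsPrimitiveRoot.coe_units_iff.mp hζ₀
  exact gaussF_hdepth A (IsLocalRing.residue A) N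
    (fun a ha => (IsLocalRing.residue_eq_zero_iff a).mpr ha) p hp ζ hζ
    (Fermat.Agent.S35.helper2106.uNorm N p)
    (fun x => Fermat.Agent.S35.helper2106.coe_uNorm N p hp hpN ζ hζ x)

end Fermat.Agent.S44.helper3316
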