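import Mathlib

/-!
# S44 (BASE), abstract core: totally ramified extensions by distinct valuations (helper3506)

`F` a field with a valuation `v`, `K` a subfield whose nonzero elements have valuation in
`v π₀ ^ ℤ` (`π₀` a "uniformiser of `K`", `v π₀ < 1`), and `ϖ : F` with `v ϖ ^ e = v π₀`.
Then the monomials `g i * ϖ ^ i`, `i < e`, `g i ∈ K`, have pairwise distinct valuations, so

* `val_sum` : `v (∑ i < e, g i * ϖ ^ i) = max_i v (g i * ϖ ^ i)`;
* `eq_zero_of_sum_eq_zero`, `coeff_unique` : `1, ϖ, …, ϖ ^ (e-1)` are `K`-linearly independent;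
* `sum_le_one_iff` : the sum is integral iff every `g i` is;
* `exists_zpow_eq` : the value group of the `K`-span is generated by `v ϖ`;
* `residue_step` : an integral element of the span is `g 0 + ϖ * (integral element of the span)`.

No completeness, no Henselian hypothesis, no finiteness of `F / K`.
-/

set_option autoImplicit false

namespace Fermat.Agent.S44.helper3506

open Finset

section Distinct

variable {F : Type*} [Field F] {Γ₀ : Type*} [LinearOrderedCommGroupWithZero Γ₀]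
  (v : Valuation F Γ₀)

/-- A finite sum whose nonzero terms have pairwise distinct valuations has the valuation of
its largest term. -/
theorem valuation_sum_of_distinct {ι : Type*} [DecidableEq ι] (f : ι → F) (s : Finset ι) :
    (∀ i ∈ s, ∀ j ∈ s, f i ≠ 0 → f j ≠ 0 → v (f i) = v (f j) → i = j) →
    (∀ i ∈ s, v (f i) ≤ v (∑ j ∈ s, f j)) ∧
      (∑ j ∈ s, f j ≠ 0 → ∃ i ∈ s, v (∑ j ∈ s, f j) = v (f i)) := by
  induction s using Finset.induction_on with
  | empty => intro _; simp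
  | insert a t hat ih =>
    intro hd
    obtain ⟨ih1, ih2⟩ := ih (fun i hi j hj => hd i (mem_insert_of_mem hi) j (mem_insert_of_mem hj))
    rw [sum_insert hat]
    by_cases hT : ∑ j ∈ t, f j = 0
    · rw [hT, add_zero]
      refine ⟨fun i hi => ?_, fun h => ⟨a, mem_insert_self a t, rfl⟩⟩
      rcases mem_insert.mp hi with rfl | hi
      · exact le_rfl
      · have := ih1 i hi
        rw [hT, map_zero] at this
        exact this.trans zero_le
    · obtain ⟨i0, hi0, hv0⟩ := ih2 hT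
      have hfi0 : f i0 ≠ 0 := by
        intro h
        rw [h, map_zero] at hv0
        exact hT ((map_eq_zero v).mp hv0)
      by_cases hfa : f a = 0
      · rw [hfa, zero_add]
        refine ⟨fun i hi => ?_, fun _ => ⟨i0, mem_insert_of_mem hi0, hv0⟩⟩
        rcases mem_insert.mp hi with rfl | hi
        · rw [hfa, map_zero]; exact zero_le
        · exact ih1 i hi
      · have hne : v (f a) ≠ v (∑ j ∈ t, f j) := by
          intro h
          rw [hv0] at h
          have := hd a (mem_insert_self a t) i0 (mem_insert_of_mem hi0) hfa hfi0 h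
          exact hat (this ▸ hi0)
        have hmax := Valuation.map_add_of_distinct_val v hne
        refine ⟨fun i hi => ?_, fun _ => ?_⟩
        · rw [hmax]
          rcases mem_insert.mp hi with rfl | hi
          · exact le_max_left _ _
          · exact (ih1 i hi).trans (le_max_right _ _)
        · rw [hmax]
          rcases le_total (v (f a)) (v (∑ j ∈ t, f j)) with h | h
          · exact ⟨i0, mem_insert_of_mem hi0, by rw [max_eq_right h, hv0]⟩
          · exact ⟨a, mem_insert_self a t, by rw [max_eq_left h]⟩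

end Distinct

section TotRam

variable {F : Type*} [Field F] {Γ₀ : Type*} [LinearOrderedCommGroupWithZero Γ₀]
  (v : Valuation F Γ₀) (K : Subfield F) {π₀ ϖ : F} {e : ℕ}

/-- The hypotheses of the totally ramified core: `K` has value group `v π₀ ^ ℤ`, `v π₀ < 1`,
and `v ϖ ^ e = v π₀` with `e ≥ 1`. -/
structure IsTotRam (v : Valuation F Γ₀) (K : Subfield F) (π₀ ϖ : F) (e : ℕ) : Prop where
  disc : ∀ x ∈ K, x ≠ 0 → ∃ n : ℤ, v x = v π₀ ^ n
  lt_one : v π₀ < 1
  ne_zero : π₀ ≠ 0
  pos : 0 < e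
  pow_eq : v ϖ ^ e = v π₀

variable {v K}

namespace IsTotRam

variable (h : IsTotRam v K π₀ ϖ e)
include h

theorem val_pos : 0 < v ϖ := by
  have h0 : v π₀ ≠ 0 := (Valuation.ne_zero_iff v).mpr h.ne_zero
  rw [← h.pow_eq] at h0
  exact zero_lt_iff.mpr (fun h1 => h0 (by rw [h1, zero_pow h.pos.ne']))

theorem unif_ne_zero : ϖ ≠ 0 := (Valuation.ne_zero_iff v).mp h.val_pos.ne'

theorem val_lt_one : v ϖ < 1 := by
  by_contra hc
  have h1 : 1 ≤ v ϖ ^ e := one_le_pow₀ (not_lt.mp hc)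
  rw [h.pow_eq] at h1
  exact (not_lt.mpr h1) h.lt_one

theorem val_ne_one : v ϖ ≠ 1 := h.val_lt_one.ne

/-- Elements of `K` have valuation `v ϖ ^ (e * n)`. -/
theorem exists_zpow_mul (x : F) (hx : x ∈ K) (hx0 : x ≠ 0) :
    ∃ n : ℤ, v x = v ϖ ^ ((e : ℤ) * n) := by
  obtain ⟨n, hn⟩ := h.disc x hx hx0
  refine ⟨n, ?_⟩
  rw [hn, ← h.pow_eq, zpow_mul, zpow_natCast]

/-- Monomials `a * ϖ ^ i`, `i < e`, `a ∈ K`, of different degrees have different valuations. -/
theorem eq_of_val_monomial_eq {a b : F} (ha : a ∈ K) (hb : b ∈ K) (ha0 : a ≠ 0) (hb0 : b ≠ 0)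
    {i j : ℕ} (hi : i < e) (hj : j < e) (hv : v (a * ϖ ^ i) = v (b * ϖ ^ j)) : i = j := by
  obtain ⟨m, hm⟩ := h.exists_zpow_mul a ha ha0
  obtain ⟨n, hn⟩ := h.exists_zpow_mul b hb hb0
  have h0 : v ϖ ≠ 0 := h.val_pos.ne'
  rw [map_mul, map_mul, map_pow, map_pow, hm, hn, ← zpow_natCast (v ϖ) i,
    ← zpow_natCast (v ϖ) j, ← zpow_add₀ h0, ← zpow_add₀ h0] at hv
  have h2 := zpow_right_injective₀ h.val_pos h.val_ne_one hv
  have h3 : ((e : ℤ) * m + i) % e = ((e : ℤ) * n + j) % e := by rw [h2]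
  rw [add_comm, Int.add_mul_emod_self_left, add_comm ((e : ℤ) * n), Int.add_mul_emod_self_left,
    Int.emod_eq_of_lt (by positivity) (by exact_mod_cast hi),
    Int.emod_eq_of_lt (by positivity) (by exact_mod_cast hj)] at h3
  exact_mod_cast h3

/-- **Valuation of an expansion**: every term is bounded by the sum, and the valuation of a
nonzero sum is attained by a term. -/
theorem val_sum (g : ℕ → F) (hg : ∀ i < e, g i ∈ K) :
    (∀ i < e, v (g i * ϖ ^ i) ≤ v (∑ j ∈ range e, g j * ϖ ^ j)) ∧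
      (∑ j ∈ range e, g j * ϖ ^ j ≠ 0 →
        ∃ i < e, v (∑ j ∈ range e, g j * ϖ ^ j) = v (g i * ϖ ^ i)) := by
  have hϖ := h.unif_ne_zero
  have key := valuation_sum_of_distinct v (fun i => g i * ϖ ^ i) (range e) (by
    intro i hi j hj hfi hfj hv
    rw [mem_range] at hi hj
    have hgi : g i ≠ 0 := fun h0 => hfi (by simp [h0])
    have hgj : g j ≠ 0 := fun h0 => hfj (by simp [h0])
    exact h.eq_of_val_monomial_eq (hg i hi) (hg j hj) hgi hgj hi hj hv)
  refine ⟨fun i hi => key.1 i (mem_range.mpr hi), fun h0 => ?_⟩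
  obtain ⟨i, hi, hv⟩ := key.2 h0
  exact ⟨i, mem_range.mp hi, hv⟩

/-- `1, ϖ, …, ϖ ^ (e-1)` are linearly independent over `K`. -/
theorem eq_zero_of_sum_eq_zero (g : ℕ → F) (hg : ∀ i < e, g i ∈ K)
    (h0 : ∑ j ∈ range e, g j * ϖ ^ j = 0) : ∀ i < e, g i = 0 := by
  intro i hi
  have h1 := (h.val_sum g hg).1 i hi
  rw [h0, map_zero] at h1
  have h2 : v (g i * ϖ ^ i) = 0 := le_antisymm h1 zero_le
  rcases mul_eq_zero.mp ((map_eq_zero v).mp h2) with h3 | h3
  · exact h3
  · exact absurd h3 (pow_ne_zero i h.unif_ne_zero)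

/-- Uniqueness of the coefficients of an expansion. -/
theorem coeff_unique (g g' : ℕ → F) (hg : ∀ i < e, g i ∈ K) (hg' : ∀ i < e, g' i ∈ K)
    (heq : ∑ j ∈ range e, g j * ϖ ^ j = ∑ j ∈ range e, g' j * ϖ ^ j) : ∀ i < e, g i = g' i := by
  intro i hi
  have h1 := h.eq_zero_of_sum_eq_zero (fun j => g j - g' j)
    (fun j hj => K.sub_mem (hg j hj) (hg' j hj)) (by
      simp only [sub_mul, sum_sub_distrib, heq, sub_self]) i hi
  exact sub_eq_zero.mp h1

/-- A coefficient in `K` of valuation `≤ v ϖ ^ (-i)`, `i < e`, is integral. -/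
theorem coeff_le_one {a : F} (ha : a ∈ K) {i : ℕ} (hi : i < e) (hv : v (a * ϖ ^ i) ≤ 1) :
    v a ≤ 1 := by
  by_cases ha0 : a = 0
  · rw [ha0, map_zero]; exact zero_le
  obtain ⟨m, hm⟩ := h.exists_zpow_mul a ha ha0
  have h0 : v ϖ ≠ 0 := h.val_pos.ne'
  rw [map_mul, map_pow, hm, ← zpow_natCast (v ϖ) i, ← zpow_add₀ h0] at hv
  rw [hm]
  -- `v ϖ ^ k ≤ 1` iff `0 ≤ k`
  have hk : 0 ≤ (e : ℤ) * m + i := by
    by_contra hneg
    push Not at hneg
    have : 1 < v ϖ ^ ((e : ℤ) * m + i) := by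
      have h5 : v ϖ ^ ((e : ℤ) * m + i) = ((v ϖ) ^ (-((e : ℤ) * m + i)))⁻¹ := by
        rw [zpow_neg, inv_inv]
      rw [h5]
      have h6 : (v ϖ) ^ (-((e : ℤ) * m + i)) < 1 := by
        have hpos : 0 < -((e : ℤ) * m + i) := by omega
        obtain ⟨k, hk⟩ := Int.eq_ofNat_of_zero_le hpos.le
        rw [hk, zpow_natCast]
        have hk0 : k ≠ 0 := by rintro rfl; simp at hk; omega
        exact pow_lt_one₀ zero_le h.val_lt_one hk0
      have h7 : 0 < (v ϖ) ^ (-((e : ℤ) * m + i)) := zpow_pos h.val_pos _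
      exact (one_lt_inv₀ h7).mpr h6
    exact (not_lt.mpr hv) this
  have hm0 : 0 ≤ m := by
    by_contra hneg
    push Not at hneg
    have h8 : (e : ℤ) * m ≤ -(e : ℤ) := by nlinarith [h.pos]
    have h9 : (i : ℤ) < e := by exact_mod_cast hi
    omega
  obtain ⟨k, hk'⟩ := Int.eq_ofNat_of_zero_le (mul_nonneg (Int.natCast_nonneg e) hm0)
  rw [hk', zpow_natCast]
  exact pow_le_one₀ zero_le h.val_lt_one.le

/-- An expansion is integral iff all its coefficients are. -/
theorem sum_le_one_iff (g : ℕ → F) (hg : ∀ i < e, g i ∈ K) :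
    v (∑ j ∈ range e, g j * ϖ ^ j) ≤ 1 ↔ ∀ i < e, v (g i) ≤ 1 := by
  constructor
  · intro hle i hi
    exact h.coeff_le_one (hg i hi) hi (((h.val_sum g hg).1 i hi).trans hle)
  · intro hle
    refine Valuation.map_sum_le v (fun i hi => ?_)
    rw [map_mul, map_pow]
    exact mul_le_one' (hle i (mem_range.mp hi)) (pow_le_one₀ zero_le h.val_lt_one.le)

/-- **Discreteness**: a nonzero expansion has valuation in `v ϖ ^ ℤ`. -/
theorem exists_zpow_eq (g : ℕ → F) (hg : ∀ i < e, g i ∈ K)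
    (h0 : ∑ j ∈ range e, g j * ϖ ^ j ≠ 0) :
    ∃ n : ℤ, v (∑ j ∈ range e, g j * ϖ ^ j) = v ϖ ^ n := by
  obtain ⟨i, hi, hv⟩ := (h.val_sum g hg).2 h0
  have hgi : g i ≠ 0 := by
    intro hz
    rw [hz, zero_mul, map_zero] at hv
    exact h0 ((map_eq_zero v).mp hv)
  obtain ⟨m, hm⟩ := h.exists_zpow_mul (g i) (hg i hi) hgi
  refine ⟨(e : ℤ) * m + i, ?_⟩
  rw [hv, map_mul, map_pow, hm, ← zpow_natCast (v ϖ) i, ← zpow_add₀ h.val_pos.ne']

/-- **Residue step**: an integral expansion is `g 0 + ϖ * (integral expansion)`; the new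
expansion has coefficients `g (i + 1)` (and top coefficient `0`). -/
theorem residue_step (g : ℕ → F) (hg : ∀ i < e, g i ∈ K)
    (hle : v (∑ j ∈ range e, g j * ϖ ^ j) ≤ 1) :
    v (g 0) ≤ 1 ∧
      ∑ j ∈ range e, g j * ϖ ^ j = g 0 + ϖ * ∑ j ∈ range (e - 1), g (j + 1) * ϖ ^ j ∧
      v (∑ j ∈ range (e - 1), g (j + 1) * ϖ ^ j) ≤ 1 := by
  have hall := (h.sum_le_one_iff g hg).mp hle
  refine ⟨hall 0 h.pos, ?_, ?_⟩
  · obtain ⟨e', rfl⟩ : ∃ e', e = e' + 1 := ⟨e - 1, (Nat.sub_add_cancel h.pos).symm⟩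
    rw [sum_range_succ', Nat.add_sub_cancel, pow_zero, mul_one, add_comm, mul_sum]
    congr 1
    refine sum_congr rfl fun j _ => ?_
    ring
  · refine Valuation.map_sum_le v (fun i hi => ?_)
    rw [map_mul, map_pow]
    have hi' : i + 1 < e := by have := mem_range.mp hi; omega
    exact mul_le_one' (hall (i + 1) hi') (pow_le_one₀ zero_le h.val_lt_one.le)

end IsTotRam

end TotRam

section Binomial

open Polynomial

/-- The Eisenstein shape of the binomial formula: `(1 + x) ^ p = 1 + x ^ p + p x (1 + x s)`. -/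
theorem exists_one_add_pow_eq {R : Type*} [CommRing R] {p : ℕ} (hp : p.Prime) (x : R) :
    ∃ s : R, (1 + x) ^ p = 1 + x ^ p + (p : R) * x * (1 + x * s) := by
  obtain ⟨r, hr⟩ := exists_add_pow_prime_eq hp (1 : ℤ[X]) X
  have hc : r.coeff 0 = 1 := by
    have h1 := congrArg (fun f : ℤ[X] => f.coeff 1) hr
    simp only [one_pow, mul_one] at h1
    rw [coeff_one_add_X_pow, Nat.choose_one_right, coeff_add, coeff_add, coeff_one, coeff_X_pow,
      mul_assoc, coeff_natCast_mul, show (1 : ℕ) = 0 + 1 from rfl, coeff_X_mul] at h1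
    have hp1 : ¬ (0 + 1 = p) := fun h => hp.one_lt.ne (by omega)
    simp only [hp1, if_false, zero_add] at h1
    have hp0 : (p : ℤ) ≠ 0 := by exact_mod_cast hp.ne_zero
    have h2 : (p : ℤ) * r.coeff 0 = (p : ℤ) * 1 := by
      simp at h1
      linarith
    exact mul_left_cancel₀ hp0 h2
  have hr' : r = 1 + X * r.divX := by
    conv_lhs => rw [← divX_mul_X_add r, hc]
    simp [mul_comm, add_comm]
  refine ⟨aeval x r.divX, ?_⟩
  have h2 := congrArg (aeval x) hr
  rw [hr'] at h2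
  simp only [map_add, map_pow, map_one, aeval_X, map_mul, map_natCast] at h2
  rw [h2]
  ring

end Binomial

end Fermat.Agent.S44.helper3506
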