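import Mathlib
import Fermat.Prelude.Def_FLTPrelim_Ramification
import Fermat.Agent.Lib.helper54_Frobenius
import Fermat.Agent.Lib.helper954_QbarPlaces
import Fermat.Agent.Lib.helper3858_ResidueQbar
import Fermat.Agent.Lib.helper3858_ResidueRoots
import Fermat.Agent.S58.helper6024_Unram
import Fermat.Agent.S44.helper3506_BaseCore

/-!
# S44 (BASE), wild layer in the frozen vocabulary (helper3506)

`Qb = AlgebraicClosure ℚ`, `A` a valuation subring of `Qb` over `p`, `I = A.inertiaSubgroupIn ℚ`.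

* `IFix A x`   : `x` is fixed by `I`                      (`x ∈ K0 = Qb ^ I`);
* `SFix A S x` : `x` is fixed by `I ∩ Stab(S)`            (`x ∈ L_S = Qb ^ (I ∩ Stab S)`).

Results (see the statements below):
* (G0) `isClosed_inertia`, `mem_inertia_of_fixes`;
* (G1) `mem_adjoin_of_sfix` : `L_S = K0(S)`;
* (BC) `exists_expansion` : totally ramified basis `1, ϖ, …, ϖ ^ (e-1)` of `L_S` over `K0`.
-/

set_option autoImplicit false

namespace Fermat.Agent.S44.helper3506

noncomputable section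

open scoped Pointwise
open Polynomial
open Fermat.Agent.Lib.helper54 Fermat.Agent.Lib.helper954 Fermat.Agent.Lib.helper3858

attribute [local instance] isAlgebraic_Qbar isAlgClosure_Qbar isGalois_Qbar isIntegral_Qbar

local notation "Qb" => AlgebraicClosure ℚ
local notation "GQ" => (AlgebraicClosure ℚ ≃ₐ[ℚ] AlgebraicClosure ℚ)

/-! ### Carriers -/

/-- `x` is fixed by the inertia group of `A` (i.e. `x` lies in the inertia field `K0`). -/
def IFix (A : ValuationSubring Qb) (x : Qb) : Prop :=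
  ∀ σ ∈ A.inertiaSubgroupIn ℚ, σ x = x

/-- `x` is fixed by every inertia element fixing `S` pointwise
(i.e. `x` lies in `L_S = Qb ^ (I ∩ Stab S)`). -/
def SFix (A : ValuationSubring Qb) (S : Set Qb) (x : Qb) : Prop :=
  ∀ σ ∈ A.inertiaSubgroupIn ℚ, (∀ s ∈ S, σ s = s) → σ x = x

/-- The inertia field `K0` of `A`, as an intermediate field of `Qb / ℚ`. -/
def inertiaField (A : ValuationSubring Qb) : IntermediateField ℚ Qb :=
  IntermediateField.fixedField (A.inertiaSubgroupIn ℚ)

variable (A : ValuationSubring Qb)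

theorem mem_inertiaField {x : Qb} : x ∈ inertiaField A ↔ IFix A x := by
  unfold inertiaField IFix
  rw [IntermediateField.mem_fixedField_iff]

theorem IFix.sfix {x : Qb} (hx : IFix A x) (S : Set Qb) : SFix A S x :=
  fun σ hσ _ => hx σ hσ

theorem sfix_of_mem {S : Set Qb} {s : Qb} (hs : s ∈ S) : SFix A S s :=
  fun _ _ h => h s hs

theorem SFix.mono {S T : Set Qb} (hST : S ⊆ T) {x : Qb} (hx : SFix A S x) : SFix A T x :=
  fun σ hσ h => hx σ hσ (fun s hs => h s (hST hs))

theorem SFix.add {S : Set Qb} {x y : Qb} (hx : SFix A S x) (hy : SFix A S y) :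
    SFix A S (x + y) := fun σ hσ h => by rw [map_add, hx σ hσ h, hy σ hσ h]

theorem SFix.mul {S : Set Qb} {x y : Qb} (hx : SFix A S x) (hy : SFix A S y) :
    SFix A S (x * y) := fun σ hσ h => by rw [map_mul, hx σ hσ h, hy σ hσ h]

theorem SFix.sub {S : Set Qb} {x y : Qb} (hx : SFix A S x) (hy : SFix A S y) :
    SFix A S (x - y) := fun σ hσ h => by rw [map_sub, hx σ hσ h, hy σ hσ h]

theorem SFix.inv {S : Set Qb} {x : Qb} (hx : SFix A S x) : SFix A S x⁻¹ :=
  fun σ hσ h => by rw [map_inv₀, hx σ hσ h]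

theorem SFix.pow {S : Set Qb} {x : Qb} (hx : SFix A S x) (n : ℕ) : SFix A S (x ^ n) :=
  fun σ hσ h => by rw [map_pow, hx σ hσ h]

theorem SFix.sum {S : Set Qb} {ι : Type*} (s : Finset ι) (f : ι → Qb)
    (hf : ∀ i ∈ s, SFix A S (f i)) : SFix A S (∑ i ∈ s, f i) := fun σ hσ h => by
  rw [map_sum]
  exact Finset.sum_congr rfl fun i hi => hf i hi σ hσ h

/-! ### (G0) The inertia group is closed -/

theorem isOpen_setOf_apply (x : Qb) (P : Qb → Prop) : IsOpen {σ : GQ | P (σ x)} := by
  rw [isOpen_iff_mem_nhds]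
  intro σ hσ
  have h1 : IsOpen (σ • (MulAction.stabilizer GQ x : Set GQ)) :=
    (stabilizer_isOpen_of_isIntegral x).leftCoset σ
  refine Filter.mem_of_superset (h1.mem_nhds ⟨1, one_mem _, by simp⟩) ?_
  rintro _ ⟨τ, hτ, rfl⟩
  have h2 : τ x = x := hτ
  show P ((σ * τ) x)
  rw [AlgEquiv.mul_apply, h2]
  exact hσ

theorem isClosed_setOf_apply (x : Qb) (P : Qb → Prop) : IsClosed {σ : GQ | P (σ x)} := by
  rw [← isOpen_compl_iff]
  exact isOpen_setOf_apply x (fun y => ¬ P y)

theorem mem_decomposition_iff (σ : GQ) :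
    σ ∈ A.decompositionSubgroup ℚ ↔ ∀ x : Qb, σ x ∈ A ↔ x ∈ A := by
  rw [ValuationSubring.decompositionSubgroup, MulAction.mem_stabilizer_iff]
  constructor
  · intro hσ x
    conv_lhs => rw [← hσ]
    exact ValuationSubring.smul_mem_pointwise_smul_iff
  · intro h
    ext y
    rw [ValuationSubring.mem_pointwise_smul_iff_inv_smul_mem, ← h (σ⁻¹ • y)]
    have : σ (σ⁻¹ • y) = y := AlgEquiv.apply_symm_apply σ y
    rw [this]

theorem mem_inertia_iff (σ : GQ) :
    σ ∈ A.inertiaSubgroupIn ℚ ↔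
      (∀ x : Qb, σ x ∈ A ↔ x ∈ A) ∧ ∀ x : Qb, x ∈ A → σ x - x ∈ A.nonunits := by
  constructor
  · intro hσ
    exact ⟨(mem_decomposition_iff A σ).mp (mem_decomposition_of_mem_inertia hσ),
      fun x hx => apply_sub_mem_nonunits_of_mem_inertia hσ hx⟩
  · rintro ⟨h1, h2⟩
    exact mem_inertiaSubgroupIn_of A σ ((mem_decomposition_iff A σ).mpr h1) h2

/-- **(G0)** The inertia group is closed in the Krull topology. -/
theorem isClosed_inertia : IsClosed (A.inertiaSubgroupIn ℚ : Set GQ) := by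
  have h : (A.inertiaSubgroupIn ℚ : Set GQ) =
      (⋂ x : Qb, {σ : GQ | σ x ∈ A ↔ x ∈ A}) ∩
        (⋂ x : Qb, {σ : GQ | x ∈ A → σ x - x ∈ A.nonunits}) := by
    ext σ
    simp only [Set.mem_inter_iff, Set.mem_iInter, Set.mem_ofPred_eq, SetLike.mem_coe]
    exact mem_inertia_iff A σ
  rw [h]
  exact (isClosed_iInter fun x => isClosed_setOf_apply x (fun y => y ∈ A ↔ x ∈ A)).inter
    (isClosed_iInter fun x => isClosed_setOf_apply x (fun y => x ∈ A → y - x ∈ A.nonunits))

/-- **(G0')** An automorphism fixing the inertia field pointwise lies in the inertia group. -/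
theorem mem_inertia_of_fixes {σ : GQ} (h : ∀ x : Qb, IFix A x → σ x = x) :
    σ ∈ A.inertiaSubgroupIn ℚ := by
  have h1 := InfiniteGalois.fixingSubgroup_fixedField (k := ℚ) (K := Qb)
    ⟨A.inertiaSubgroupIn ℚ, isClosed_inertia A⟩
  have h2 : σ ∈ (IntermediateField.fixedField (A.inertiaSubgroupIn ℚ)).fixingSubgroup := by
    rw [IntermediateField.mem_fixingSubgroup_iff]
    intro x hx
    exact h x ((mem_inertiaField A).mp hx)
  rw [h1] at h2
  exact h2

/-! ### (G1) Galois correspondence: `Qb ^ (I ∩ Stab S) = K0(S)` -/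

/-- **(G1)** An element fixed by `I ∩ Stab(S)` lies in `K0(S)` (adjunction over the inertia
field). -/
theorem mem_adjoin_of_sfix (S : Set Qb) {x : Qb} (hx : SFix A S x) :
    x ∈ IntermediateField.adjoin (inertiaField A) S := by
  rw [← InfiniteGalois.fixedField_fixingSubgroup (IntermediateField.adjoin (inertiaField A) S),
    IntermediateField.mem_fixedField_iff]
  intro τ hτ
  rw [IntermediateField.mem_fixingSubgroup_iff] at hτ
  have hI : (τ.restrictScalars ℚ) ∈ A.inertiaSubgroupIn ℚ := by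
    apply mem_inertia_of_fixes
    intro z hz
    have : τ (algebraMap (inertiaField A) Qb ⟨z, (mem_inertiaField A).mpr hz⟩) =
        algebraMap (inertiaField A) Qb ⟨z, (mem_inertiaField A).mpr hz⟩ := τ.commutes _
    exact this
  exact hx (τ.restrictScalars ℚ) hI (fun s hs => hτ s (IntermediateField.subset_adjoin _ S hs))

/-- Converse of (G1). -/
theorem sfix_of_mem_adjoin (S : Set Qb) {x : Qb}
    (hx : x ∈ IntermediateField.adjoin (inertiaField A) S) : SFix A S x := by
  intro σ hσ hS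
  -- the set of elements fixed by `σ` is an intermediate field over `K0` containing `S`
  let E : IntermediateField (inertiaField A) Qb :=
    { carrier := {z | σ z = z}
      mul_mem' := fun {a b} ha hb => by
        show σ (a * b) = a * b
        rw [map_mul, ha, hb]
      one_mem' := map_one σ
      add_mem' := fun {a b} ha hb => by
        show σ (a + b) = a + b
        rw [map_add, ha, hb]
      zero_mem' := map_zero σ
      algebraMap_mem' := fun z => ((mem_inertiaField A).mp z.2) σ hσ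
      inv_mem' := fun a ha => by
        show σ a⁻¹ = a⁻¹
        rw [map_inv₀, ha] }
  have hle : IntermediateField.adjoin (inertiaField A) S ≤ E :=
    IntermediateField.adjoin_le_iff.mpr (fun s hs => hS s hs)
  exact hle hx

/-! ### (BC) The totally ramified basis -/

section BC

variable {A}

/-- The inertia field with uniformiser `p` and an element `ϖ` with `v ϖ ^ e = v p` satisfy the
hypotheses of the abstract core. -/
theorem isTotRam_of_pow_eq {p : ℕ} (hp : p.Prime) (hA : A.LiesOverPrime p) {ϖ : Qb} {e : ℕ}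
    (he : 0 < e) (hϖ : A.valuation ϖ ^ e = A.valuation (p : Qb)) :
    IsTotRam A.valuation (inertiaField A).toSubfield (p : Qb) ϖ e where
  disc := fun x hx hx0 =>
    Fermat.Agent.S58.helper6024.exists_zpow_valuation_eq A hp hA x
      ((mem_inertiaField A).mp hx) hx0
  lt_one := (ValuationSubring.mem_nonunits_iff A).mp hA
  ne_zero := by exact_mod_cast hp.ne_zero
  pos := he
  pow_eq := hϖ

theorem isIntegral_inertiaField (x : Qb) : IsIntegral (inertiaField A) x :=
  (isIntegral_Qbar.isIntegral x).tower_top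

/-- Linear independence of the powers of `ϖ` bounds the degree of `ϖ` over `K0` from below. -/
theorem le_natDegree_minpoly {π₀ ϖ : Qb} {e : ℕ}
    (hT : IsTotRam A.valuation (inertiaField A).toSubfield π₀ ϖ e) :
    e ≤ (minpoly (inertiaField A) ϖ).natDegree := by
  by_contra hlt
  push Not at hlt
  have hint : IsIntegral (inertiaField A) ϖ := isIntegral_inertiaField ϖ
  have h0 : aeval ϖ (minpoly (inertiaField A) ϖ) = 0 := minpoly.aeval _ _
  rw [aeval_eq_sum_range' hlt] at h0
  have h1 := hT.eq_zero_of_sum_eq_zero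
    (fun i => (((minpoly (inertiaField A) ϖ).coeff i : inertiaField A) : Qb))
    (fun i _ => ((minpoly (inertiaField A) ϖ).coeff i).2)
    (by
      rw [← h0]
      refine Finset.sum_congr rfl fun i _ => ?_
      rw [Algebra.smul_def]
      rfl)
    (minpoly (inertiaField A) ϖ).natDegree hlt
  have h2 : (minpoly (inertiaField A) ϖ).coeff (minpoly (inertiaField A) ϖ).natDegree = 1 :=
    minpoly.monic hint
  rw [h2] at h1
  exact one_ne_zero h1

/-- Elements of `K0(ϖ)` are polynomials of degree `< e` in `ϖ` as soon as the degree of `ϖ`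
over `K0` is at most `e`. -/
theorem exists_expansion_of_mem_adjoin {ϖ : Qb} {e : ℕ}
    (hdeg : (minpoly (inertiaField A) ϖ).natDegree ≤ e) {x : Qb}
    (hx : x ∈ IntermediateField.adjoin (inertiaField A) {ϖ}) :
    ∃ g : ℕ → Qb, (∀ i, IFix A (g i)) ∧ x = ∑ i ∈ Finset.range e, g i * ϖ ^ i := by
  have hint : IsIntegral (inertiaField A) ϖ := isIntegral_inertiaField ϖ
  have h1 : x ∈ (IntermediateField.adjoin (inertiaField A) {ϖ}).toSubalgebra := hx
  rw [IntermediateField.adjoin_simple_toSubalgebra_of_isAlgebraic hint.isAlgebraic,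
    Algebra.adjoin_singleton_eq_range_aeval] at h1
  obtain ⟨q, rfl⟩ := h1
  have hf : (minpoly (inertiaField A) ϖ).Monic := minpoly.monic hint
  have hr : aeval ϖ (q %ₘ minpoly (inertiaField A) ϖ) = aeval ϖ q := by
    conv_rhs => rw [← Polynomial.modByMonic_add_div q (minpoly (inertiaField A) ϖ)]
    rw [map_add, map_mul, minpoly.aeval, zero_mul, add_zero]
  have hrdeg : (q %ₘ minpoly (inertiaField A) ϖ).natDegree < e :=
    lt_of_lt_of_le (Polynomial.natDegree_modByMonic_lt q hf (minpoly.ne_one _ _)) hdeg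
  refine ⟨fun i => (((q %ₘ minpoly (inertiaField A) ϖ).coeff i : inertiaField A) : Qb),
    fun i => (mem_inertiaField A).mp ((q %ₘ minpoly (inertiaField A) ϖ).coeff i).2, ?_⟩
  change aeval ϖ q = _
  rw [← hr, aeval_eq_sum_range' hrdeg]
  refine Finset.sum_congr rfl fun i _ => ?_
  rw [Algebra.smul_def]
  rfl

/-- **(BC), existence.**  Let `S` be a set of elements with `[K0(S) : K0] ≤ e` and let
`ϖ ∈ L_S` satisfy `v ϖ ^ e = v p`.  Then every element of `L_S = Qb ^ (I ∩ Stab S)` is a
polynomial of degree `< e` in `ϖ` with coefficients in the inertia field. -/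
theorem exists_expansion {p : ℕ} (hp : p.Prime) (hA : A.LiesOverPrime p) (S : Set Qb)
    {ϖ : Qb} {e : ℕ} (he : 0 < e) (hϖ : A.valuation ϖ ^ e = A.valuation (p : Qb))
    (hϖS : SFix A S ϖ)
    [FiniteDimensional (inertiaField A) (IntermediateField.adjoin (inertiaField A) S)]
    (hfin : Module.finrank (inertiaField A) (IntermediateField.adjoin (inertiaField A) S) ≤ e)
    {x : Qb} (hx : SFix A S x) :
    ∃ g : ℕ → Qb, (∀ i, IFix A (g i)) ∧ x = ∑ i ∈ Finset.range e, g i * ϖ ^ i := by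
  have hT := isTotRam_of_pow_eq hp hA he hϖ
  have hint : IsIntegral (inertiaField A) ϖ := isIntegral_inertiaField ϖ
  have hle : IntermediateField.adjoin (inertiaField A) {ϖ} ≤
      IntermediateField.adjoin (inertiaField A) S := by
    rw [IntermediateField.adjoin_le_iff]
    rintro z rfl
    exact mem_adjoin_of_sfix A S hϖS
  have hd1 : e ≤ (minpoly (inertiaField A) ϖ).natDegree := le_natDegree_minpoly hT
  have hd2 : Module.finrank (inertiaField A) (IntermediateField.adjoin (inertiaField A) {ϖ}) =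
      (minpoly (inertiaField A) ϖ).natDegree := IntermediateField.adjoin.finrank hint
  have heq : IntermediateField.adjoin (inertiaField A) {ϖ} =
      IntermediateField.adjoin (inertiaField A) S :=
    IntermediateField.eq_of_le_of_finrank_le hle (by rw [hd2]; exact hfin.trans hd1)
  have hdeg : (minpoly (inertiaField A) ϖ).natDegree ≤ e := by
    rw [← hd2, heq]
    exact hfin
  exact exists_expansion_of_mem_adjoin hdeg (heq ▸ mem_adjoin_of_sfix A S hx)

end BC

/-! ### Valuations of `y - 1` (`y ^ p = 1 + p c`) and of `ζ - 1` -/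

section Units

variable {A}

theorem mem_of_pow_mem {x : Qb} {n : ℕ} (hn : n ≠ 0) (h : x ^ n ∈ A) : x ∈ A := by
  rw [← ValuationSubring.valuation_le_one_iff] at h ⊢
  rw [map_pow] at h
  exact (pow_le_one_iff_of_nonneg zero_le hn).mp h

/-- **Eisenstein relation.**  For `y ^ p = 1 + p c` with `c` a unit of `A`, the element
`ϖ = y - 1` satisfies `ϖ ^ p = p (c - ϖ (1 + ϖ s))` with `s ∈ A`; hence `v ϖ < 1` and
`v ϖ ^ p = v p`. -/
theorem eisenstein_kummer {p : ℕ} (hp : p.Prime) (hA : A.LiesOverPrime p) {c y : Qb}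
    (hc : A.valuation c = 1) (hy : y ^ p = 1 + (p : Qb) * c) :
    ∃ s : Qb, s ∈ A ∧ (y - 1) ^ p = (p : Qb) * (c - (y - 1) * (1 + (y - 1) * s)) ∧
      A.valuation (y - 1) < 1 ∧ A.valuation (y - 1) ^ p = A.valuation (p : Qb) := by
  have hvp : A.valuation (p : Qb) < 1 := (ValuationSubring.mem_nonunits_iff A).mp hA
  have hcA : c ∈ A := (A.valuation_le_one_iff c).mp hc.le
  have hpA : (p : Qb) ∈ A := natCast_mem A p
  have hyA : y ∈ A := mem_of_pow_mem hp.ne_zero (by
    rw [hy]
    exact A.add_mem _ _ A.one_mem (A.mul_mem _ _ hpA hcA))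
  have hϖA : y - 1 ∈ A := sub_mem hyA A.one_mem
  obtain ⟨s, hs⟩ := exists_one_add_pow_eq hp (⟨y - 1, hϖA⟩ : A)
  have hs' : (1 + (y - 1)) ^ p =
      1 + (y - 1) ^ p + (p : Qb) * (y - 1) * (1 + (y - 1) * (s : Qb)) := by
    have := congrArg (fun a : A => (a : Qb)) hs
    simpa using this
  have hrel : (y - 1) ^ p = (p : Qb) * (c - (y - 1) * (1 + (y - 1) * (s : Qb))) := by
    have h1 : (1 + (y - 1)) ^ p = 1 + (p : Qb) * c := by rw [← hy]; ring_nf
    rw [hs'] at h1
    linear_combination h1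
  have hinA : 1 + (y - 1) * (s : Qb) ∈ A := A.add_mem _ _ A.one_mem (A.mul_mem _ _ hϖA s.2)
  have hrA : c - (y - 1) * (1 + (y - 1) * (s : Qb)) ∈ A := sub_mem hcA (A.mul_mem _ _ hϖA hinA)
  have hlt : A.valuation (y - 1) < 1 := by
    by_contra hge
    have h1 : A.valuation (y - 1) = 1 :=
      le_antisymm ((A.valuation_le_one_iff _).mpr hϖA) (not_lt.mp hge)
    have h2 := congrArg A.valuation hrel
    rw [map_pow, h1, one_pow, map_mul] at h2
    have h3 : A.valuation (p : Qb) * A.valuation (c - (y - 1) * (1 + (y - 1) * (s : Qb))) ≤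
        A.valuation (p : Qb) := mul_le_of_le_one_right' ((A.valuation_le_one_iff _).mpr hrA)
    rw [← h2] at h3
    exact (not_lt.mpr h3) hvp
  have hunit : A.valuation (c - (y - 1) * (1 + (y - 1) * (s : Qb))) = 1 := by
    rw [Valuation.map_sub_eq_of_lt_left, hc]
    rw [hc, map_mul]
    exact lt_of_le_of_lt (mul_le_of_le_one_right' ((A.valuation_le_one_iff _).mpr hinA)) hlt
  refine ⟨s, s.2, hrel, hlt, ?_⟩
  rw [← map_pow, hrel, map_mul, hunit, mul_one]

/-- For a nontrivial `p`-th root of unity `ζ`: `v (ζ - 1) < 1` and `v (ζ - 1) ^ (p - 1) = v p`. -/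
theorem val_zeta_sub_one {p : ℕ} (hp : p.Prime) (hA : A.LiesOverPrime p) {ζ : Qb}
    (hζ : ζ ^ p = 1) (hζ1 : ζ ≠ 1) :
    A.valuation (ζ - 1) < 1 ∧ A.valuation (ζ - 1) ^ (p - 1) = A.valuation (p : Qb) := by
  have hvp : A.valuation (p : Qb) < 1 := (ValuationSubring.mem_nonunits_iff A).mp hA
  have hζA : ζ ∈ A := mem_of_pow_mem hp.ne_zero (by rw [hζ]; exact A.one_mem)
  have hlA : ζ - 1 ∈ A := sub_mem hζA A.one_mem
  have hl0 : ζ - 1 ≠ 0 := sub_ne_zero.mpr hζ1
  obtain ⟨s, hs⟩ := exists_one_add_pow_eq hp (⟨ζ - 1, hlA⟩ : A)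
  have hs' : (1 + (ζ - 1)) ^ p =
      1 + (ζ - 1) ^ p + (p : Qb) * (ζ - 1) * (1 + (ζ - 1) * (s : Qb)) := by
    have := congrArg (fun a : A => (a : Qb)) hs
    simpa using this
  have hp1 : p = (p - 1) + 1 := (Nat.sub_add_cancel hp.one_le).symm
  have hrel : (ζ - 1) ^ (p - 1) = -((p : Qb) * (1 + (ζ - 1) * (s : Qb))) := by
    have h1 : (1 + (ζ - 1)) ^ p = 1 := by rw [← hζ]; ring_nf
    rw [hs'] at h1
    have h2 : (ζ - 1) * ((ζ - 1) ^ (p - 1) + (p : Qb) * (1 + (ζ - 1) * (s : Qb))) = 0 := by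
      have h3 : (ζ - 1) ^ p = (ζ - 1) ^ (p - 1) * (ζ - 1) := by
        conv_lhs => rw [hp1, pow_succ]
      rw [h3] at h1
      linear_combination h1
    rcases mul_eq_zero.mp h2 with h | h
    · exact absurd h hl0
    · linear_combination h
  have hinA : 1 + (ζ - 1) * (s : Qb) ∈ A := A.add_mem _ _ A.one_mem (A.mul_mem _ _ hlA s.2)
  have hlt : A.valuation (ζ - 1) < 1 := by
    by_contra hge
    have h1 : A.valuation (ζ - 1) = 1 :=
      le_antisymm ((A.valuation_le_one_iff _).mpr hlA) (not_lt.mp hge)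
    have h2 := congrArg A.valuation hrel
    rw [map_pow, h1, one_pow, Valuation.map_neg, map_mul] at h2
    have h3 : A.valuation (p : Qb) * A.valuation (1 + (ζ - 1) * (s : Qb)) ≤
        A.valuation (p : Qb) := mul_le_of_le_one_right' ((A.valuation_le_one_iff _).mpr hinA)
    rw [← h2] at h3
    exact (not_lt.mpr h3) hvp
  have hunit : A.valuation (1 + (ζ - 1) * (s : Qb)) = 1 := by
    apply Valuation.map_one_add_of_lt
    rw [map_mul]
    exact lt_of_le_of_lt (mul_le_of_le_one_right' ((A.valuation_le_one_iff _).mpr s.2)) hlt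
  refine ⟨hlt, ?_⟩
  rw [← map_pow, hrel, Valuation.map_neg, map_mul, hunit, mul_one]

end Units

/-! ### The interface `IsWildBase` and its consequences -/

/-- **Interface of a base field.**  `L_S = Qb ^ (I ∩ Stab S)` is totally ramified of degree `e`
over the inertia field `K0`, with uniformiser `ϖ`: `v ϖ ^ e = v p`, `ϖ ∈ L_S`, and every element
of `L_S` is a polynomial of degree `< e` in `ϖ` with coefficients in `K0`. -/
structure IsWildBase (A : ValuationSubring Qb) (p : ℕ) (S : Set Qb) (ϖ : Qb) (e : ℕ) : Prop where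
  pos : 0 < e
  val : A.valuation ϖ ^ e = A.valuation (p : Qb)
  sfix : SFix A S ϖ
  expand : ∀ x, SFix A S x →
    ∃ g : ℕ → Qb, (∀ i, IFix A (g i)) ∧ x = ∑ i ∈ Finset.range e, g i * ϖ ^ i

namespace IsWildBase

variable {A} {p : ℕ} {S : Set Qb} {ϖ : Qb} {e : ℕ}

theorem isTotRam (h : IsWildBase A p S ϖ e) (hp : p.Prime) (hA : A.LiesOverPrime p) :
    IsTotRam A.valuation (inertiaField A).toSubfield (p : Qb) ϖ e :=
  isTotRam_of_pow_eq hp hA h.pos h.val

theorem val_lt_one (h : IsWildBase A p S ϖ e) (hp : p.Prime) (hA : A.LiesOverPrime p) :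
    A.valuation ϖ < 1 := (h.isTotRam hp hA).val_lt_one

theorem unif_ne_zero (h : IsWildBase A p S ϖ e) (hp : p.Prime) (hA : A.LiesOverPrime p) :
    ϖ ≠ 0 := (h.isTotRam hp hA).unif_ne_zero

theorem unif_mem (h : IsWildBase A p S ϖ e) (hp : p.Prime) (hA : A.LiesOverPrime p) :
    ϖ ∈ A := (A.valuation_le_one_iff ϖ).mp (h.val_lt_one hp hA).le

theorem sfix_sum (h : IsWildBase A p S ϖ e) (g : ℕ → Qb) (hg : ∀ i, IFix A (g i)) (n : ℕ) :
    SFix A S (∑ i ∈ Finset.range n, g i * ϖ ^ i) :=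
  SFix.sum A _ _ fun i _ => ((hg i).sfix A S).mul A (h.sfix.pow A i)

/-- **(D) Discreteness**: the value group of `L_S` is generated by `v ϖ`. -/
theorem discrete (h : IsWildBase A p S ϖ e) (hp : p.Prime) (hA : A.LiesOverPrime p) {x : Qb}
    (hx : SFix A S x) (hx0 : x ≠ 0) : ∃ n : ℤ, A.valuation x = A.valuation ϖ ^ n := by
  obtain ⟨g, hg, rfl⟩ := h.expand x hx
  exact (h.isTotRam hp hA).exists_zpow_eq g (fun i _ => (mem_inertiaField A).mpr (hg i)) hx0

/-- **(BC) Uniqueness** of the coefficients. -/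
theorem coeff_unique (h : IsWildBase A p S ϖ e) (hp : p.Prime) (hA : A.LiesOverPrime p)
    (g g' : ℕ → Qb) (hg : ∀ i < e, IFix A (g i)) (hg' : ∀ i < e, IFix A (g' i))
    (heq : ∑ i ∈ Finset.range e, g i * ϖ ^ i = ∑ i ∈ Finset.range e, g' i * ϖ ^ i) :
    ∀ i < e, g i = g' i :=
  (h.isTotRam hp hA).coeff_unique g g' (fun i hi => (mem_inertiaField A).mpr (hg i hi))
    (fun i hi => (mem_inertiaField A).mpr (hg' i hi)) heq

/-- **(BC) Valuation formula**: every term is bounded by the sum, and the valuation of a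
nonzero expansion is attained by one of its terms. -/
theorem val_expansion (h : IsWildBase A p S ϖ e) (hp : p.Prime) (hA : A.LiesOverPrime p)
    (g : ℕ → Qb) (hg : ∀ i < e, IFix A (g i)) :
    (∀ i < e, A.valuation (g i * ϖ ^ i) ≤ A.valuation (∑ j ∈ Finset.range e, g j * ϖ ^ j)) ∧
      (∑ j ∈ Finset.range e, g j * ϖ ^ j ≠ 0 → ∃ i < e,
        A.valuation (∑ j ∈ Finset.range e, g j * ϖ ^ j) = A.valuation (g i * ϖ ^ i)) :=
  (h.isTotRam hp hA).val_sum g (fun i hi => (mem_inertiaField A).mpr (hg i hi))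

/-- **(BC) Integrality**: `O_L = ⊕_{i<e} O_K0 ϖ ^ i`. -/
theorem expansion_mem_iff (h : IsWildBase A p S ϖ e) (hp : p.Prime) (hA : A.LiesOverPrime p)
    (g : ℕ → Qb) (hg : ∀ i < e, IFix A (g i)) :
    ∑ j ∈ Finset.range e, g j * ϖ ^ j ∈ A ↔ ∀ i < e, g i ∈ A := by
  rw [← ValuationSubring.valuation_le_one_iff,
    (h.isTotRam hp hA).sum_le_one_iff g (fun i hi => (mem_inertiaField A).mpr (hg i hi))]
  exact forall₂_congr fun i _ => A.valuation_le_one_iff (g i)

/-- **(RES) Residue step**: an integral element of `L_S` is an integral element of `K0` plus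
`ϖ` times an integral element of `L_S`. -/
theorem residue (h : IsWildBase A p S ϖ e) (hp : p.Prime) (hA : A.LiesOverPrime p) {x : Qb}
    (hx : SFix A S x) (hxA : x ∈ A) :
    ∃ g₀ x' : Qb, IFix A g₀ ∧ g₀ ∈ A ∧ SFix A S x' ∧ x' ∈ A ∧ x = g₀ + ϖ * x' := by
  obtain ⟨g, hg, rfl⟩ := h.expand x hx
  obtain ⟨h0, h1, h2⟩ := (h.isTotRam hp hA).residue_step g
    (fun i _ => (mem_inertiaField A).mpr (hg i)) ((A.valuation_le_one_iff _).mpr hxA)
  exact ⟨g 0, ∑ j ∈ Finset.range (e - 1), g (j + 1) * ϖ ^ j, hg 0, (A.valuation_le_one_iff _).mp h0,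
    h.sfix_sum (fun j => g (j + 1)) (fun j => hg (j + 1)) (e - 1),
    (A.valuation_le_one_iff _).mp h2, h1⟩

/-- **(RES), iterated**: `ϖ`-adic digits in `O_K0` to any order. -/
theorem digits (h : IsWildBase A p S ϖ e) (hp : p.Prime) (hA : A.LiesOverPrime p) {x : Qb}
    (hx : SFix A S x) (hxA : x ∈ A) (m : ℕ) :
    ∃ (a : ℕ → Qb) (x' : Qb), (∀ i, IFix A (a i)) ∧ (∀ i, a i ∈ A) ∧ SFix A S x' ∧ x' ∈ A ∧
      x = ∑ i ∈ Finset.range m, a i * ϖ ^ i + ϖ ^ m * x' := by
  induction m with
  | zero =>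
    exact ⟨fun _ => 0, x, fun _ σ _ => map_zero σ, fun _ => A.zero_mem, hx, hxA, by simp⟩
  | succ m ih =>
    obtain ⟨a, x', ha, haA, hx', hx'A, hxeq⟩ := ih
    obtain ⟨g₀, x'', hg₀, hg₀A, hx'', hx''A, hx'eq⟩ := h.residue hp hA hx' hx'A
    refine ⟨fun i => if i = m then g₀ else a i, x'', fun i => ?_, fun i => ?_, hx'', hx''A, ?_⟩
    · by_cases him : i = m
      · simp only [him, if_true]; exact hg₀
      · simp only [him, if_false]; exact ha i
    · by_cases him : i = m
      · simp only [him, if_true]; exact hg₀A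
      · simp only [him, if_false]; exact haA i
    · have h1 : ∑ i ∈ Finset.range m, (if i = m then g₀ else a i) * ϖ ^ i =
          ∑ i ∈ Finset.range m, a i * ϖ ^ i :=
        Finset.sum_congr rfl fun i hi => by
          rw [if_neg (Finset.mem_range.mp hi).ne]
      show x = ∑ i ∈ Finset.range (m + 1), (if i = m then g₀ else a i) * ϖ ^ i + ϖ ^ (m + 1) * x''
      rw [Finset.sum_range_succ, if_pos rfl, h1]
      conv_lhs => rw [hxeq, hx'eq]
      ring

/-- A unit of `O_L` is congruent to a unit of `O_K0` modulo `ϖ`. -/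
theorem residue_unit (h : IsWildBase A p S ϖ e) (hp : p.Prime) (hA : A.LiesOverPrime p) {x : Qb}
    (hx : SFix A S x) (hxv : A.valuation x = 1) :
    ∃ g₀ x' : Qb, IFix A g₀ ∧ A.valuation g₀ = 1 ∧ SFix A S x' ∧ x' ∈ A ∧ x = g₀ + ϖ * x' := by
  obtain ⟨g₀, x', hg₀, hg₀A, hx', hx'A, hxeq⟩ :=
    h.residue hp hA hx ((A.valuation_le_one_iff x).mp hxv.le)
  refine ⟨g₀, x', hg₀, ?_, hx', hx'A, hxeq⟩
  have hlt : A.valuation (ϖ * x') < 1 := by
    rw [map_mul]
    exact lt_of_le_of_lt (mul_le_of_le_one_right' ((A.valuation_le_one_iff _).mpr hx'A))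
      (h.val_lt_one hp hA)
  have hg₀eq : g₀ = x - ϖ * x' := by rw [hxeq]; ring
  rw [hg₀eq, Valuation.map_sub_eq_of_lt_left, hxv]
  rw [hxv]
  exact hlt

end IsWildBase

/-! ### The four base fields `K0`, `K0(ζ)`, `K0(y)`, `K0(ζ, y)` -/

section Instances

variable {A} {p : ℕ}

/-- Degree bound for a simple extension of the inertia field. -/
theorem finrank_adjoin_simple_le {z : Qb} (f : (inertiaField A)[X]) (hf : f ≠ 0)
    (hz : aeval z f = 0) :
    Module.finrank (inertiaField A) (IntermediateField.adjoin (inertiaField A) {z}) ≤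
      f.natDegree := by
  rw [IntermediateField.adjoin.finrank (isIntegral_inertiaField z)]
  exact Polynomial.natDegree_le_of_dvd (minpoly.dvd _ _ hz) hf

/-- `[K0(ζ) : K0] ≤ p - 1` for a nontrivial `p`-th root of unity. -/
theorem finrank_adjoin_zeta_le (hp : p.Prime) {ζ : Qb} (hζ : ζ ^ p = 1) (hζ1 : ζ ≠ 1) :
    Module.finrank (inertiaField A) (IntermediateField.adjoin (inertiaField A) {ζ}) ≤ p - 1 := by
  have : Fact p.Prime := ⟨hp⟩
  have h := finrank_adjoin_simple_le (A := A) (z := ζ) (cyclotomic p (inertiaField A))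
    (cyclotomic_ne_zero p _) (by
      rw [cyclotomic_prime, map_sum]
      simp only [map_pow, aeval_X]
      have h1 : (∑ i ∈ Finset.range p, ζ ^ i) * (ζ - 1) = 0 := by
        rw [geom_sum_mul, hζ, sub_self]
      rcases mul_eq_zero.mp h1 with h2 | h2
      · exact h2
      · exact absurd (sub_eq_zero.mp h2) hζ1)
  rwa [natDegree_cyclotomic, Nat.totient_prime hp] at h

/-- `[K0(y) : K0] ≤ p` when `y ^ p` lies in the inertia field. -/
theorem finrank_adjoin_root_le (hp : p.Prime) {y : Qb} (hy : IFix A (y ^ p)) :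
    Module.finrank (inertiaField A) (IntermediateField.adjoin (inertiaField A) {y}) ≤ p := by
  have h := finrank_adjoin_simple_le (A := A) (z := y)
    (X ^ p - C (⟨y ^ p, (mem_inertiaField A).mpr hy⟩ : inertiaField A))
    (X_pow_sub_C_ne_zero hp.pos _) (by
      rw [map_sub, map_pow, aeval_X, aeval_C]
      exact sub_self _)
  rwa [natDegree_X_pow_sub_C] at h

theorem ifix_natCast (A : ValuationSubring Qb) (n : ℕ) : IFix A (n : Qb) :=
  fun σ _ => map_natCast σ n

theorem ifix_one (A : ValuationSubring Qb) : IFix A (1 : Qb) := fun σ _ => map_one σ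

theorem IFix.add {x y : Qb} (hx : IFix A x) (hy : IFix A y) : IFix A (x + y) :=
  fun σ hσ => by rw [map_add, hx σ hσ, hy σ hσ]

theorem IFix.mul {x y : Qb} (hx : IFix A x) (hy : IFix A y) : IFix A (x * y) :=
  fun σ hσ => by rw [map_mul, hx σ hσ, hy σ hσ]

/-- **(I0)** The inertia field itself: `S = ∅`, uniformiser `p`, `e = 1`. -/
theorem isWildBase_inertia : IsWildBase A p ∅ (p : Qb) 1 where
  pos := one_pos
  val := pow_one _
  sfix := (ifix_natCast A p).sfix A ∅
  expand := fun x hx => by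
    refine ⟨fun _ => x, fun _ σ hσ => hx σ hσ (fun s hs => absurd hs (Set.notMem_empty s)), ?_⟩
    simp

/-- **(I0')** The tame field `K0(ζ_p)`: `S = {ζ}`, uniformiser `ζ - 1`, `e = p - 1`. -/
theorem isWildBase_zeta (hp : p.Prime) (hA : A.LiesOverPrime p) {ζ : Qb} (hζ : ζ ^ p = 1)
    (hζ1 : ζ ≠ 1) : IsWildBase A p {ζ} (ζ - 1) (p - 1) := by
  have hpos : 0 < p - 1 := by have := hp.two_le; omega
  have hval := (val_zeta_sub_one hp hA hζ hζ1).2
  have hsfix : SFix A {ζ} (ζ - 1) :=
    (sfix_of_mem A (Set.mem_singleton ζ)).sub A ((ifix_one A).sfix A _)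
  have := IntermediateField.adjoin.finiteDimensional (isIntegral_inertiaField (A := A) ζ)
  exact ⟨hpos, hval, hsfix, fun x hx =>
    exists_expansion hp hA {ζ} hpos hval hsfix (finrank_adjoin_zeta_le hp hζ hζ1) hx⟩

/-- **(I1)** The wild field `K0(u ^ (1/p))`, `u = 1 + p c`, `c` a unit of `O_K0`:
`S = {y}`, uniformiser `y - 1`, `e = p`. -/
theorem isWildBase_kummer (hp : p.Prime) (hA : A.LiesOverPrime p) {c y : Qb} (hcI : IFix A c)
    (hc : A.valuation c = 1) (hy : y ^ p = 1 + (p : Qb) * c) :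
    IsWildBase A p {y} (y - 1) p := by
  obtain ⟨s, -, -, -, hval⟩ := eisenstein_kummer hp hA hc hy
  have hsfix : SFix A {y} (y - 1) :=
    (sfix_of_mem A (Set.mem_singleton y)).sub A ((ifix_one A).sfix A _)
  have hyI : IFix A (y ^ p) := by
    rw [hy]
    exact (ifix_one A).add ((ifix_natCast A p).mul hcI)
  have := IntermediateField.adjoin.finiteDimensional (isIntegral_inertiaField (A := A) y)
  exact ⟨hp.pos, hval, hsfix, fun x hx =>
    exists_expansion hp hA {y} hp.pos hval hsfix (finrank_adjoin_root_le hp hyI) hx⟩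

/-- **(I2)** The wild field `K0(ζ_p, u ^ (1/p))`: `S = {ζ, y}`, uniformiser
`(ζ - 1) / (y - 1)`, `e = p (p - 1)`. -/
theorem isWildBase_kummer_zeta (hp : p.Prime) (hA : A.LiesOverPrime p) {ζ c y : Qb}
    (hζ : ζ ^ p = 1) (hζ1 : ζ ≠ 1) (hcI : IFix A c) (hc : A.valuation c = 1)
    (hy : y ^ p = 1 + (p : Qb) * c) :
    IsWildBase A p {ζ, y} ((ζ - 1) / (y - 1)) (p * (p - 1)) := by
  obtain ⟨s, -, -, -, hvy⟩ := eisenstein_kummer hp hA hc hy
  have hvz := (val_zeta_sub_one hp hA hζ hζ1).2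
  have hp1 : 0 < p - 1 := by have := hp.two_le; omega
  have hpos : 0 < p * (p - 1) := Nat.mul_pos hp.pos hp1
  have hvp0 : A.valuation (p : Qb) ≠ 0 :=
    (Valuation.ne_zero_iff _).mpr (by exact_mod_cast hp.ne_zero)
  have hval : A.valuation ((ζ - 1) / (y - 1)) ^ (p * (p - 1)) = A.valuation (p : Qb) := by
    rw [map_div₀, div_pow, mul_comm p (p - 1), pow_mul, hvz, mul_comm (p - 1) p, pow_mul, hvy]
    have h1 : A.valuation (p : Qb) ^ p =
        A.valuation (p : Qb) ^ (p - 1) * A.valuation (p : Qb) := by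
      rw [← pow_succ, Nat.sub_add_cancel hp.one_le]
    rw [h1, mul_div_assoc, mul_comm, div_mul_cancel₀]
    · exact pow_ne_zero _ hvp0
  have hsfix : SFix A {ζ, y} ((ζ - 1) / (y - 1)) := by
    have h1 : SFix A {ζ, y} (ζ - 1) :=
      (sfix_of_mem A (Set.mem_insert ζ {y})).sub A ((ifix_one A).sfix A _)
    have h2 : SFix A {ζ, y} (y - 1) :=
      (sfix_of_mem A (Set.mem_insert_of_mem ζ (Set.mem_singleton y))).sub A
        ((ifix_one A).sfix A _)
    rw [div_eq_mul_inv]
    exact h1.mul A (h2.inv A)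
  have hyI : IFix A (y ^ p) := by
    rw [hy]
    exact (ifix_one A).add ((ifix_natCast A p).mul hcI)
  have h1 := IntermediateField.adjoin.finiteDimensional (isIntegral_inertiaField (A := A) ζ)
  have h2 := IntermediateField.adjoin.finiteDimensional (isIntegral_inertiaField (A := A) y)
  have hS : ({ζ, y} : Set Qb) = {ζ} ∪ {y} := Set.insert_eq ζ {y}
  have hadj : IntermediateField.adjoin (inertiaField A) ({ζ, y} : Set Qb) =
      IntermediateField.adjoin (inertiaField A) {ζ} ⊔
        IntermediateField.adjoin (inertiaField A) {y} := by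
    rw [hS, IntermediateField.adjoin_union]
  have : FiniteDimensional (inertiaField A)
      (IntermediateField.adjoin (inertiaField A) ({ζ, y} : Set Qb)) := by
    rw [hadj]
    infer_instance
  have hfin : Module.finrank (inertiaField A)
      (IntermediateField.adjoin (inertiaField A) ({ζ, y} : Set Qb)) ≤ p * (p - 1) := by
    rw [hadj, mul_comm]
    exact (IntermediateField.finrank_sup_le _ _).trans
      (Nat.mul_le_mul (finrank_adjoin_zeta_le hp hζ hζ1) (finrank_adjoin_root_le hp hyI))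
  exact ⟨hpos, hval, hsfix, fun x hx => exists_expansion hp hA {ζ, y} hpos hval hsfix hfin hx⟩

end Instances

end

end Fermat.Agent.S44.helper3506
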