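import Mathlib
import Fermat.Agent.S44.helper2530_BaseField
import Fermat.Agent.S44.helper3506_BaseWild

/-!
# S44 (BASE): the finite expansion (BC) on the carriers of `helper2530_BaseField` (helper3506)

`helper2530_BaseField` supplies, for the layers `t = ζ`, `t = y`, `t = (ζ, y)`, the rings
`layerRing A t = A ∩ Qb ^ (layerGroup A t)` as Henselian DVRs with uniformiser `ϖ`.
This file adds **(BC)**: `layerRing A t = ⊕_{i<e} R0 A * ϖ ^ i`, i.e. every element of the layer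
ring (field) is UNIQUELY a polynomial of degree `< e` in `ϖ` with coefficients in `R0 A = A ^ I`
(in the inertia field), and the valuation of such an expansion is the maximum of the valuations
of its terms.  Proof: Galois correspondence `Qb ^ (I ∩ Stab S) = K0(S)` + distinct valuations
(`helper3506_BaseWild`, `helper3506_BaseCore`).
-/

set_option autoImplicit false

namespace Fermat.Agent.S44.helper3506

noncomputable section

open Fermat.Agent.S19.helper1821 (R0 mem_R0)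
open Fermat.Agent.S44.helper2530

local notation "Qb" => AlgebraicClosure ℚ
local notation "GQ" => (AlgebraicClosure ℚ ≃ₐ[ℚ] AlgebraicClosure ℚ)

variable {p : ℕ} {A : ValuationSubring Qb}

/-! ### Dictionary between the two carriers -/

theorem sfix_singleton_iff (A : ValuationSubring Qb) (y x : Qb) :
    SFix A {y} x ↔ ∀ σ ∈ layerGroup A y, σ x = x := by
  constructor
  · intro h σ hσ
    obtain ⟨h1, h2⟩ := mem_layerGroup.mp hσ
    rw [AlgEquiv.smul_def] at h2
    exact h σ h1 (fun s hs => by rw [Set.mem_singleton_iff.mp hs]; exact h2)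
  · intro h σ hσ hS
    exact h σ (mem_layerGroup.mpr ⟨hσ, by rw [AlgEquiv.smul_def]; exact hS y rfl⟩)

theorem sfix_pair_iff (A : ValuationSubring Qb) (ζ y x : Qb) :
    SFix A {ζ, y} x ↔ ∀ σ ∈ layerGroup A (ζ, y), σ x = x := by
  constructor
  · intro h σ hσ
    obtain ⟨h1, h2, h3⟩ := mem_layerGroup_pair.mp hσ
    refine h σ h1 (fun s hs => ?_)
    rcases hs with rfl | hs
    · exact h2
    · rw [Set.mem_singleton_iff.mp hs]; exact h3
  · intro h σ hσ hS
    exact h σ (mem_layerGroup_pair.mpr ⟨hσ, hS ζ (Set.mem_insert ζ {y}),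
      hS y (Set.mem_insert_of_mem ζ rfl)⟩)

theorem mem_R0_iff_ifix {x : Qb} : x ∈ R0 A ↔ x ∈ A ∧ IFix A x := Iff.rfl

/-! ### (BC) for a general layer -/

section general

variable {X : Type*} [MulAction GQ X] {t : X} {S : Set Qb} {ϖ : Qb} {e : ℕ}

/-- **(BC), field form**: every element of the layer field is a polynomial of degree `< e` in
`ϖ` with inertia-fixed coefficients. -/
theorem IsWildBase.layerField_expansion (h : IsWildBase A p S ϖ e)
    (hS : ∀ x : Qb, (∀ σ ∈ layerGroup A t, σ x = x) → SFix A S x) {x : Qb}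
    (hx : ∀ σ ∈ layerGroup A t, σ x = x) :
    ∃ g : ℕ → Qb, (∀ i, ∀ σ ∈ A.inertiaSubgroupIn ℚ, σ (g i) = g i) ∧
      x = ∑ i ∈ Finset.range e, g i * ϖ ^ i :=
  h.expand x (hS x hx)

/-- **(BC), ring form**: `layerRing A t = ⊕_{i<e} R0 A * ϖ ^ i` (existence). -/
theorem IsWildBase.layerRing_expansion (h : IsWildBase A p S ϖ e) (hp : p.Prime)
    (hA : A.LiesOverPrime p)
    (hS : ∀ x : Qb, (∀ σ ∈ layerGroup A t, σ x = x) → SFix A S x) {x : Qb}
    (hx : x ∈ layerRing A t) :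
    ∃ g : ℕ → Qb, (∀ i, g i ∈ R0 A) ∧ x = ∑ i ∈ Finset.range e, g i * ϖ ^ i := by
  obtain ⟨g, hg, hxg⟩ := h.expand x (hS x hx.2)
  have hA' : ∀ i < e, g i ∈ A :=
    (h.expansion_mem_iff hp hA g (fun i _ => hg i)).mp (hxg ▸ hx.1)
  refine ⟨fun i => if i < e then g i else 0, fun i => ?_, ?_⟩
  · by_cases hi : i < e
    · simp only [hi, if_true]
      exact ⟨hA' i hi, hg i⟩
    · simp only [hi, if_false]
      exact (R0 A).zero_mem
  · rw [hxg]
    refine Finset.sum_congr rfl fun i hi => ?_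
    show g i * ϖ ^ i = (if i < e then g i else 0) * ϖ ^ i
    rw [if_pos (Finset.mem_range.mp hi)]

/-- **(BC), converse**: a polynomial in `ϖ` with coefficients in `R0 A` lies in the layer ring
as soon as `ϖ` does. -/
theorem sum_mem_layerRing (hϖ : ϖ ∈ layerRing A t) (g : ℕ → Qb) (hg : ∀ i, g i ∈ R0 A) (n : ℕ) :
    ∑ i ∈ Finset.range n, g i * ϖ ^ i ∈ layerRing A t :=
  Subring.sum_mem _ fun i _ =>
    (layerRing A t).mul_mem (R0_le_layerRing A t (hg i)) ((layerRing A t).pow_mem hϖ i)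

/-- **(BC), uniqueness** (coefficients fixed by inertia). -/
theorem IsWildBase.layer_coeff_unique (h : IsWildBase A p S ϖ e) (hp : p.Prime)
    (hA : A.LiesOverPrime p) (g g' : ℕ → Qb)
    (hg : ∀ i < e, ∀ σ ∈ A.inertiaSubgroupIn ℚ, σ (g i) = g i)
    (hg' : ∀ i < e, ∀ σ ∈ A.inertiaSubgroupIn ℚ, σ (g' i) = g' i)
    (heq : ∑ i ∈ Finset.range e, g i * ϖ ^ i = ∑ i ∈ Finset.range e, g' i * ϖ ^ i) :
    ∀ i < e, g i = g' i :=
  h.coeff_unique hp hA g g' hg hg' heq

end general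

/-! ### The three layers -/

section layers

variable {ζ c y : Qb}

/-- The interface `IsWildBase` for `K0(ζ_p)` from a primitive root. -/
theorem isWildBase_of_primitiveRoot (hp : p.Prime) (hA : A.LiesOverPrime p)
    (hζ : IsPrimitiveRoot ζ p) : IsWildBase A p {ζ} (ζ - 1) (p - 1) :=
  isWildBase_zeta hp hA hζ.pow_eq_one (hζ.ne_one hp.one_lt)

/-- **(BC) for `K = K0(ζ_p)`**: `R1 A ζ = layerRing A ζ = ⊕_{i<p-1} R0 A * (ζ - 1) ^ i`. -/
theorem bc_cyc (hp : p.Prime) (hA : A.LiesOverPrime p) (hζ : IsPrimitiveRoot ζ p) {x : Qb}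
    (hx : x ∈ layerRing A ζ) :
    ∃ g : ℕ → Qb, (∀ i, g i ∈ R0 A) ∧ x = ∑ i ∈ Finset.range (p - 1), g i * (ζ - 1) ^ i :=
  (isWildBase_of_primitiveRoot hp hA hζ).layerRing_expansion hp hA
    (fun x hx => (sfix_singleton_iff A ζ x).mpr hx) hx

/-- **(BC) for `L = K0(y)`, `y ^ p = 1 + p c`, `c` a unit of `R0 A`** (no `ζ_p`):
`layerRing A y = ⊕_{i<p} R0 A * (y - 1) ^ i`. -/
theorem bc_root (hp : p.Prime) (hA : A.LiesOverPrime p)
    (hcI : ∀ σ ∈ A.inertiaSubgroupIn ℚ, σ c = c) (hvc : A.valuation c = 1)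
    (hy : y ^ p = 1 + (p : Qb) * c) {x : Qb} (hx : x ∈ layerRing A y) :
    ∃ g : ℕ → Qb, (∀ i, g i ∈ R0 A) ∧ x = ∑ i ∈ Finset.range p, g i * (y - 1) ^ i :=
  (isWildBase_kummer hp hA hcI hvc hy).layerRing_expansion hp hA
    (fun x hx => (sfix_singleton_iff A y x).mpr hx) hx

/-- **(BC) for `L' = K0(ζ_p, y)`**:
`layerRing A (ζ, y) = ⊕_{i<p(p-1)} R0 A * ((ζ - 1)/(y - 1)) ^ i`. -/
theorem bc_wild (hp : p.Prime) (hA : A.LiesOverPrime p) (hζ : IsPrimitiveRoot ζ p)
    (hcI : ∀ σ ∈ A.inertiaSubgroupIn ℚ, σ c = c) (hvc : A.valuation c = 1)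
    (hy : y ^ p = 1 + (p : Qb) * c) {x : Qb} (hx : x ∈ layerRing A (ζ, y)) :
    ∃ g : ℕ → Qb, (∀ i, g i ∈ R0 A) ∧
      x = ∑ i ∈ Finset.range (p * (p - 1)), g i * ((ζ - 1) / (y - 1)) ^ i :=
  (isWildBase_kummer_zeta hp hA hζ.pow_eq_one (hζ.ne_one hp.one_lt) hcI hvc hy).layerRing_expansion
    hp hA (fun x hx => (sfix_pair_iff A ζ y x).mpr hx) hx

/-- **(BC), max formula** for the three layers, in one statement: for coefficients in `R0 A`
(or only inertia-fixed) the valuation of `∑_{i<e} g i ϖ^i` dominates every term and, when the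
sum is nonzero, equals the valuation of one of its terms. -/
theorem bc_val {S : Set Qb} {ϖ : Qb} {e : ℕ} (h : IsWildBase A p S ϖ e) (hp : p.Prime)
    (hA : A.LiesOverPrime p) (g : ℕ → Qb)
    (hg : ∀ i < e, ∀ σ ∈ A.inertiaSubgroupIn ℚ, σ (g i) = g i) :
    (∀ i < e, A.valuation (g i) * A.valuation ϖ ^ i ≤
        A.valuation (∑ j ∈ Finset.range e, g j * ϖ ^ j)) ∧
      (∑ j ∈ Finset.range e, g j * ϖ ^ j ≠ 0 → ∃ i < e,
        A.valuation (∑ j ∈ Finset.range e, g j * ϖ ^ j) = A.valuation (g i) * A.valuation ϖ ^ i) := by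
  have := h.val_expansion hp hA g hg
  simpa only [map_mul, map_pow] using this

end layers

end

end Fermat.Agent.S44.helper3506
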