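import Mathlib
import Fermat.Agent.Lib.helper9242_LaurentTheta
import Fermat.Agent.S37.helper5666_KroneckerSeries

/-!
# The logarithmic derivative intertwines the multiplicative and the additive Hecke operator
(helper4264, S44-L7-HECKEDLOG)

Formal `q`-series lemma used in the exit step of the S44 route: for a unit `x` of `A⸨q⸩` put
`G = θ x / x` (`θ = q d/dq`, `Fermat.Agent.Lib.helper9242.thetaFun`).  The multiplicative Hecke
transform on Kummer functions is, on `q`-expansions,

  `tmul ζ l x = x(q^l) * kronNorm ζ l x`,   `(kronNorm ζ l x)(q^l) = ∏_{b<l} x(ζ^b q)`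

(`Fermat.Agent.S37.helper5666`).  We prove

* `dlog_kronNorm` : `θ (kronNorm x) / kronNorm x = U_l G`  (`U_l G = ∑ G_{l n} q^n = descend l G`);
* `dlog_qExpand`  : `θ (x(q^l)) / x(q^l) = l * G(q^l)`;
* `dlog_tmul`     : `θ (tmul x) / tmul x = heckeT2 l G`, where
  `(heckeT2 l G)_n = G_{l n} + l * G_{n / l}` is the weight-two Hecke operator;
* `heckeT2_dlog_of_tmul_eq` : in characteristic `p`, `tmul h = c * h^a * w^p` implies
  `heckeT2 l G = a * G`.

Everything is stated with explicit inverses (`x * y = 1`), so that it applies over any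
commutative ring; field versions with `θ x / x` are at the end.
-/

set_option autoImplicit false

noncomputable section

namespace Fermat.Agent.S44.helper4264

open ModularCurve
open Fermat.Agent.Lib.helper9242 (thetaFun thetaFun_mul thetaFun_coeff thetaFun_qExpand
  thetaFun_one thetaFun_C)
open Fermat.Agent.S37.helper5666 (rot rot_coeff descend descend_coeff kronProd kronNorm
  qExpand_kronNorm sum_rot)

variable {A : Type*} [CommRing A]

/-! ### `θ` and the operators of the Kronecker library -/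

/-- `θ` commutes with the rotation `q ↦ u q`. -/
theorem thetaFun_rot (u : Aˣ) (x : LaurentSeries A) :
    thetaFun A (rot u x) = rot u (thetaFun A x) := by
  ext n
  simp only [thetaFun_coeff, rot_coeff]
  ring

/-- `θ` commutes with coefficientwise ring homomorphisms (`coeffMap` form). -/
theorem coeffMap_thetaFun {B : Type*} [CommRing B] (π : A →+* B) (x : LaurentSeries A) :
    coeffMap π (thetaFun A x) = thetaFun B (coeffMap π x) := by
  ext n
  simp only [coeffMap_coeff, thetaFun_coeff, map_mul, map_intCast]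

/-- `U_N ∘ θ = N * θ ∘ U_N`. -/
theorem descend_thetaFun (N : ℕ) [NeZero N] (x : LaurentSeries A) :
    descend N (thetaFun A x) = HahnSeries.C (N : A) * thetaFun A (descend N x) := by
  ext n
  rw [HahnSeries.C_mul_eq_smul, HahnSeries.coeff_smul, smul_eq_mul, descend_coeff, thetaFun_coeff,
    thetaFun_coeff, descend_coeff]
  push_cast
  ring

/-- Logarithmic Leibniz rule for finite products, with explicit inverses. -/
theorem thetaFun_prod_mul_prod {ι : Type*} (s : Finset ι) (f g : ι → LaurentSeries A)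
    (hfg : ∀ i ∈ s, f i * g i = 1) :
    thetaFun A (∏ i ∈ s, f i) * ∏ i ∈ s, g i = ∑ i ∈ s, thetaFun A (f i) * g i := by
  classical
  induction s using Finset.induction_on with
  | empty => simp [thetaFun_one]
  | insert a s ha ih =>
    have hs : ∀ i ∈ s, f i * g i = 1 := fun i hi => hfg i (Finset.mem_insert_of_mem hi)
    have hP : (∏ i ∈ s, f i) * ∏ i ∈ s, g i = 1 := by
      rw [← Finset.prod_mul_distrib]
      exact Finset.prod_eq_one hs
    have ha1 : f a * g a = 1 := hfg a (Finset.mem_insert_self a s)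
    rw [Finset.prod_insert ha, Finset.prod_insert ha, Finset.sum_insert ha, thetaFun_mul,
      ← ih hs]
    calc (f a * thetaFun A (∏ i ∈ s, f i) + (∏ i ∈ s, f i) * thetaFun A (f a)) *
          (g a * ∏ i ∈ s, g i)
        = (f a * g a) * (thetaFun A (∏ i ∈ s, f i) * ∏ i ∈ s, g i) +
          ((∏ i ∈ s, f i) * ∏ i ∈ s, g i) * (thetaFun A (f a) * g a) := by ring
      _ = thetaFun A (f a) * g a + thetaFun A (∏ i ∈ s, f i) * ∏ i ∈ s, g i := by
          rw [ha1, hP]; ring

/-! ### The Kronecker product and norm of a unit -/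

theorem kronProd_mul (ζ : Aˣ) (l : ℕ) (x y : LaurentSeries A) :
    kronProd ζ l (x * y) = kronProd ζ l x * kronProd ζ l y := by
  unfold kronProd
  rw [← Finset.prod_mul_distrib]
  exact Finset.prod_congr rfl (fun b _ => map_mul _ _ _)

theorem kronProd_one (ζ : Aˣ) (l : ℕ) : kronProd ζ l (1 : LaurentSeries A) = 1 := by
  unfold kronProd
  exact Finset.prod_eq_one (fun b _ => map_one _)

/-- `kronNorm` is multiplicative. -/
theorem kronNorm_mul (ζ : Aˣ) (l : ℕ) [NeZero l] (hζ : ζ ^ l = 1)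
    (hreg : ∀ n : ℤ, ¬ (l : ℤ) ∣ n → ∀ a : A, ((ζ ^ n : Aˣ) : A) * a = a → a = 0)
    (x y : LaurentSeries A) :
    kronNorm ζ l (x * y) = kronNorm ζ l x * kronNorm ζ l y := by
  apply qExpand_injective (R := A) l
  rw [map_mul, qExpand_kronNorm ζ l hζ hreg, qExpand_kronNorm ζ l hζ hreg,
    qExpand_kronNorm ζ l hζ hreg, kronProd_mul]

theorem kronNorm_one (ζ : Aˣ) (l : ℕ) [NeZero l] (hζ : ζ ^ l = 1)
    (hreg : ∀ n : ℤ, ¬ (l : ℤ) ∣ n → ∀ a : A, ((ζ ^ n : Aˣ) : A) * a = a → a = 0) :
    kronNorm ζ l (1 : LaurentSeries A) = 1 := by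
  apply qExpand_injective (R := A) l
  rw [qExpand_kronNorm ζ l hζ hreg, kronProd_one, map_one]

/-- `kronNorm` commutes with coefficientwise ring homomorphisms (the root of unity is
transported). -/
theorem coeffMap_kronNorm_map {B : Type*} [CommRing B] (π : A →+* B) (ζ : Aˣ) (l : ℕ) [NeZero l]
    (x : LaurentSeries A) :
    coeffMap π (kronNorm ζ l x) = kronNorm (Units.map (π : A →* B) ζ) l (coeffMap π x) := by
  unfold kronNorm kronProd
  rw [Fermat.Agent.S37.helper5666.coeffMap_descend, map_prod]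
  congr 1
  refine Finset.prod_congr rfl (fun b _ => ?_)
  rw [Fermat.Agent.S37.helper5666.coeffMap_rot, map_pow]

/-! ### The three logarithmic-derivative formulas -/

/-- Cancellation of `l` and of `q ↦ q^l`. -/
theorem eq_of_C_mul_qExpand_eq (l : ℕ) [NeZero l] (hl : ∀ a : A, (l : A) * a = 0 → a = 0)
    {u v : LaurentSeries A}
    (h : HahnSeries.C (l : A) * qExpand A l u = HahnSeries.C (l : A) * qExpand A l v) : u = v := by
  ext n
  have h1 := congrArg (fun z : LaurentSeries A => z.coeff ((l : ℤ) * n)) h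
  simp only [HahnSeries.C_mul_eq_smul, HahnSeries.coeff_smul, smul_eq_mul, qExpand_coeff_mul]
    at h1
  have h2 : (l : A) * (u.coeff n - v.coeff n) = 0 := by rw [mul_sub, h1, sub_self]
  exact sub_eq_zero.mp (hl _ h2)

/-- (A) `θ (kronNorm x) / kronNorm x = U_l (θ x / x)`. -/
theorem dlog_kronNorm (ζ : Aˣ) (l : ℕ) [NeZero l] (hζ : ζ ^ l = 1)
    (hreg : ∀ n : ℤ, ¬ (l : ℤ) ∣ n → ∀ a : A, ((ζ ^ n : Aˣ) : A) * a = a → a = 0)
    (hl : ∀ a : A, (l : A) * a = 0 → a = 0)
    (x y : LaurentSeries A) (hxy : x * y = 1) :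
    thetaFun A (kronNorm ζ l x) * kronNorm ζ l y = descend l (thetaFun A x * y) := by
  apply eq_of_C_mul_qExpand_eq l hl
  have h1 : thetaFun A (kronProd ζ l x) * kronProd ζ l y =
      ∑ b ∈ Finset.range l, rot (ζ ^ b) (thetaFun A x * y) := by
    unfold kronProd
    rw [thetaFun_prod_mul_prod (Finset.range l) (fun b => rot (ζ ^ b) x) (fun b => rot (ζ ^ b) y)
      (fun b _ => by rw [← map_mul, hxy, map_one])]
    refine Finset.sum_congr rfl (fun b _ => ?_)
    rw [thetaFun_rot, map_mul]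
  rw [sum_rot ζ l hζ hreg] at h1
  rw [← qExpand_kronNorm ζ l hζ hreg x, ← qExpand_kronNorm ζ l hζ hreg y, thetaFun_qExpand,
    mul_assoc, ← map_mul] at h1
  rw [h1, HahnSeries.C_mul_eq_smul]

/-- (B) `θ (x(q^l)) / x(q^l) = l * (θ x / x)(q^l)`. -/
theorem dlog_qExpand (l : ℕ) [NeZero l] (x y : LaurentSeries A) :
    thetaFun A (qExpand A l x) * qExpand A l y =
      HahnSeries.C (l : A) * qExpand A l (thetaFun A x * y) := by
  rw [thetaFun_qExpand, mul_assoc, ← map_mul]

/-- The multiplicative Hecke transform on `q`-expansions: `x(q^l) * ∏_{b<l} x(ζ^b q^{1/l})`. -/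
def tmul (ζ : Aˣ) (l : ℕ) [NeZero l] (x : LaurentSeries A) : LaurentSeries A :=
  qExpand A l x * kronNorm ζ l x

/-- The weight-two Hecke operator on `q`-expansions: `l * G(q^l) + U_l G`. -/
def heckeT2 (l : ℕ) [NeZero l] (G : LaurentSeries A) : LaurentSeries A :=
  HahnSeries.C (l : A) * qExpand A l G + descend l G

theorem heckeT2_coeff_mul (l : ℕ) [NeZero l] (G : LaurentSeries A) (n : ℤ) :
    (heckeT2 l G).coeff ((l : ℤ) * n) = G.coeff ((l : ℤ) * ((l : ℤ) * n)) + (l : A) * G.coeff n := by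
  unfold heckeT2
  rw [HahnSeries.coeff_add, HahnSeries.C_mul_eq_smul, HahnSeries.coeff_smul, smul_eq_mul,
    qExpand_coeff_mul, descend_coeff, add_comm]

theorem heckeT2_coeff_of_not_dvd (l : ℕ) [NeZero l] (G : LaurentSeries A) {n : ℤ}
    (hn : ¬ (l : ℤ) ∣ n) : (heckeT2 l G).coeff n = G.coeff ((l : ℤ) * n) := by
  unfold heckeT2
  rw [HahnSeries.coeff_add, HahnSeries.C_mul_eq_smul, HahnSeries.coeff_smul, smul_eq_mul,
    qExpand_coeff_of_not_dvd l G hn, mul_zero, zero_add, descend_coeff]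

/-- Coefficient formula `(T_l G)_n = G_{l n} + l * G_{n / l}`. -/
theorem heckeT2_coeff (l : ℕ) [NeZero l] (G : LaurentSeries A) (n : ℤ) :
    (heckeT2 l G).coeff n =
      G.coeff ((l : ℤ) * n) + (l : A) * (if (l : ℤ) ∣ n then G.coeff (n / (l : ℤ)) else 0) := by
  by_cases hn : (l : ℤ) ∣ n
  · obtain ⟨m, rfl⟩ := hn
    have hl0 : (l : ℤ) ≠ 0 := by exact_mod_cast NeZero.ne l
    rw [heckeT2_coeff_mul, if_pos (dvd_mul_right _ _), Int.mul_ediv_cancel_left m hl0]
  · rw [heckeT2_coeff_of_not_dvd l G hn, if_neg hn, mul_zero, add_zero]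

theorem heckeT2_add (l : ℕ) [NeZero l] (G H : LaurentSeries A) :
    heckeT2 l (G + H) = heckeT2 l G + heckeT2 l H := by
  unfold heckeT2
  rw [map_add, Fermat.Agent.S37.helper5666.descend_add]
  ring

theorem coeffMap_heckeT2 {B : Type*} [CommRing B] (π : A →+* B) (l : ℕ) [NeZero l]
    (G : LaurentSeries A) : coeffMap π (heckeT2 l G) = heckeT2 l (coeffMap π G) := by
  ext n
  rw [coeffMap_coeff, heckeT2_coeff, heckeT2_coeff]
  simp only [map_add, map_mul, map_natCast, coeffMap_coeff]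
  split_ifs <;> simp

theorem tmul_mul (ζ : Aˣ) (l : ℕ) [NeZero l] (hζ : ζ ^ l = 1)
    (hreg : ∀ n : ℤ, ¬ (l : ℤ) ∣ n → ∀ a : A, ((ζ ^ n : Aˣ) : A) * a = a → a = 0)
    (x y : LaurentSeries A) : tmul ζ l (x * y) = tmul ζ l x * tmul ζ l y := by
  unfold tmul
  rw [map_mul, kronNorm_mul ζ l hζ hreg]
  ring

theorem tmul_one (ζ : Aˣ) (l : ℕ) [NeZero l] (hζ : ζ ^ l = 1)
    (hreg : ∀ n : ℤ, ¬ (l : ℤ) ∣ n → ∀ a : A, ((ζ ^ n : Aˣ) : A) * a = a → a = 0) :
    tmul ζ l (1 : LaurentSeries A) = 1 := by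
  unfold tmul
  rw [map_one, kronNorm_one ζ l hζ hreg, one_mul]

theorem coeffMap_tmul {B : Type*} [CommRing B] (π : A →+* B) (ζ : Aˣ) (l : ℕ) [NeZero l]
    (x : LaurentSeries A) :
    coeffMap π (tmul ζ l x) = tmul (Units.map (π : A →* B) ζ) l (coeffMap π x) := by
  unfold tmul
  rw [map_mul, coeffMap_qExpand, coeffMap_kronNorm_map]

/-- (C) **`dlog` intertwines the multiplicative Hecke transform with `T_l` in weight two**:
`θ (tmul x) / tmul x = l * G(q^l) + U_l G` for `G = θ x / x`. -/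
theorem dlog_tmul (ζ : Aˣ) (l : ℕ) [NeZero l] (hζ : ζ ^ l = 1)
    (hreg : ∀ n : ℤ, ¬ (l : ℤ) ∣ n → ∀ a : A, ((ζ ^ n : Aˣ) : A) * a = a → a = 0)
    (hl : ∀ a : A, (l : A) * a = 0 → a = 0)
    (x y : LaurentSeries A) (hxy : x * y = 1) :
    thetaFun A (tmul ζ l x) * tmul ζ l y = heckeT2 l (thetaFun A x * y) := by
  have hq : qExpand A l x * qExpand A l y = 1 := by rw [← map_mul, hxy, map_one]
  have hk : kronNorm ζ l x * kronNorm ζ l y = 1 := by
    rw [← kronNorm_mul ζ l hζ hreg, hxy, kronNorm_one ζ l hζ hreg]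
  unfold tmul heckeT2
  rw [thetaFun_mul, ← dlog_kronNorm ζ l hζ hreg hl x y hxy, ← dlog_qExpand l x y]
  calc (qExpand A l x * thetaFun A (kronNorm ζ l x) +
          kronNorm ζ l x * thetaFun A (qExpand A l x)) * (qExpand A l y * kronNorm ζ l y)
      = (kronNorm ζ l x * kronNorm ζ l y) * (thetaFun A (qExpand A l x) * qExpand A l y) +
        (qExpand A l x * qExpand A l y) * (thetaFun A (kronNorm ζ l x) * kronNorm ζ l y) := by
        ring
    _ = thetaFun A (qExpand A l x) * qExpand A l y +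
        thetaFun A (kronNorm ζ l x) * kronNorm ζ l y := by rw [hq, hk]; ring

/-! ### The eigen-corollary in characteristic `p` -/

open Fermat.Agent.Lib.helper9242 (theta theta_apply) in
/-- `θ (w^n) * w = n * w^n * θ w`. -/
theorem thetaFun_pow_mul (w : LaurentSeries A) (n : ℕ) :
    thetaFun A (w ^ n) * w = HahnSeries.C (n : A) * w ^ n * thetaFun A w := by
  induction n with
  | zero => simp [thetaFun_one]
  | succ n ih =>
    rw [pow_succ, thetaFun_mul]
    have h1 : (w ^ n * thetaFun A w + w * thetaFun A (w ^ n)) * w =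
        w ^ n * w * thetaFun A w + w * (thetaFun A (w ^ n) * w) := by ring
    rw [h1, ih]
    push_cast
    rw [map_add, map_one]
    ring

/-- In characteristic `p` (in the weak sense `(p : A) = 0`), `p`-th powers are `θ`-constants. -/
theorem thetaFun_pow_char (p : ℕ) (hp : (p : A) = 0) (w w' : LaurentSeries A) (hw : w * w' = 1) :
    thetaFun A (w ^ p) = 0 := by
  have h := thetaFun_pow_mul w p
  rw [hp, map_zero, zero_mul, zero_mul] at h
  calc thetaFun A (w ^ p) = thetaFun A (w ^ p) * (w * w') := by rw [hw, mul_one]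
    _ = (thetaFun A (w ^ p) * w) * w' := by ring
    _ = 0 := by rw [h, zero_mul]

/-- (D) **Eigen-corollary**, explicit inverses, natural exponent.  If `(p : A) = 0` and the
multiplicative Hecke transform of a unit `h` is `c * h^a * w^p` (constant, power of `h`, `p`-th
power of a unit), then `G = θ h / h` is an eigenvector of the weight-two Hecke operator:
`T_l G = a * G`. -/
theorem heckeT2_dlog_of_tmul_eq (ζ : Aˣ) (l : ℕ) [NeZero l] (hζ : ζ ^ l = 1)
    (hreg : ∀ n : ℤ, ¬ (l : ℤ) ∣ n → ∀ a : A, ((ζ ^ n : Aˣ) : A) * a = a → a = 0)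
    (hl : ∀ a : A, (l : A) * a = 0 → a = 0)
    (p : ℕ) (hp : (p : A) = 0)
    (h h' w w' : LaurentSeries A) (hh : h * h' = 1) (hw : w * w' = 1) (c : A) (a : ℕ)
    (hT : tmul ζ l h = HahnSeries.C c * h ^ a * w ^ p) :
    heckeT2 l (thetaFun A h * h') = HahnSeries.C (a : A) * (thetaFun A h * h') := by
  have hT1 : tmul ζ l h * tmul ζ l h' = 1 := by
    rw [← tmul_mul ζ l hζ hreg, hh, tmul_one ζ l hζ hreg]
  have h1 : thetaFun A (tmul ζ l h) * h = HahnSeries.C (a : A) * tmul ζ l h * thetaFun A h := by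
    rw [hT, thetaFun_mul, thetaFun_pow_char p hp w w' hw, mul_zero, zero_add,
      Fermat.Agent.Lib.helper9242.thetaFun_C_mul]
    calc w ^ p * (HahnSeries.C c * thetaFun A (h ^ a)) * h
        = HahnSeries.C c * w ^ p * (thetaFun A (h ^ a) * h) := by ring
      _ = HahnSeries.C (a : A) * (HahnSeries.C c * h ^ a * w ^ p) * thetaFun A h := by
          rw [thetaFun_pow_mul]; ring
  rw [← dlog_tmul ζ l hζ hreg hl h h' hh]
  calc thetaFun A (tmul ζ l h) * tmul ζ l h'
      = (thetaFun A (tmul ζ l h) * h) * (h' * tmul ζ l h') := by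
        rw [mul_assoc, ← mul_assoc h h', hh, one_mul]
    _ = HahnSeries.C (a : A) * (tmul ζ l h * tmul ζ l h') * (thetaFun A h * h') := by
        rw [h1]; ring
    _ = HahnSeries.C (a : A) * (thetaFun A h * h') := by rw [hT1, mul_one]

/-- (D), coefficient form: `G_{l n} + l * G_{n / l} = a * G_n`. -/
theorem coeff_dlog_of_tmul_eq (ζ : Aˣ) (l : ℕ) [NeZero l] (hζ : ζ ^ l = 1)
    (hreg : ∀ n : ℤ, ¬ (l : ℤ) ∣ n → ∀ a : A, ((ζ ^ n : Aˣ) : A) * a = a → a = 0)
    (hl : ∀ a : A, (l : A) * a = 0 → a = 0)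
    (p : ℕ) (hp : (p : A) = 0)
    (h h' w w' : LaurentSeries A) (hh : h * h' = 1) (hw : w * w' = 1) (c : A) (a : ℕ)
    (hT : tmul ζ l h = HahnSeries.C c * h ^ a * w ^ p) (n : ℤ) :
    (thetaFun A h * h').coeff ((l : ℤ) * n) +
        (l : A) * (if (l : ℤ) ∣ n then (thetaFun A h * h').coeff (n / (l : ℤ)) else 0) =
      (a : A) * (thetaFun A h * h').coeff n := by
  have h1 := congrArg (fun z : LaurentSeries A => z.coeff n)
    (heckeT2_dlog_of_tmul_eq ζ l hζ hreg hl p hp h h' w w' hh hw c a hT)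
  simp only [heckeT2_coeff, HahnSeries.C_mul_eq_smul, HahnSeries.coeff_smul, smul_eq_mul] at h1
  exact h1

/-! ### Field versions -/

section Field

variable {k : Type*} [Field k]

/-- (C), field form. -/
theorem dlog_tmul_field (ζ : kˣ) (l : ℕ) [NeZero l] (hζ : IsPrimitiveRoot ζ l)
    (hl : (l : k) ≠ 0) (x : LaurentSeries k) (hx : x ≠ 0) :
    thetaFun k (tmul ζ l x) / tmul ζ l x = heckeT2 l (thetaFun k x / x) := by
  have hreg := Fermat.Agent.S37.helper5666.hreg_of_isPrimitiveRoot l ζ hζ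
  have hxy : x * x⁻¹ = 1 := mul_inv_cancel₀ hx
  have hT1 : tmul ζ l x * tmul ζ l x⁻¹ = 1 := by
    rw [← tmul_mul ζ l hζ.pow_eq_one hreg, hxy, tmul_one ζ l hζ.pow_eq_one hreg]
  have hinv : (tmul ζ l x)⁻¹ = tmul ζ l x⁻¹ := inv_eq_of_mul_eq_one_right hT1
  rw [div_eq_mul_inv, div_eq_mul_inv, hinv]
  exact dlog_tmul ζ l hζ.pow_eq_one hreg
    (fun a ha => (mul_eq_zero.mp ha).resolve_left hl) x x⁻¹ hxy

/-- (D), field form: in characteristic `p`, `tmul h = c * h^a * w^p` implies
`T_l (θ h / h) = a * (θ h / h)`. -/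
theorem heckeT2_dlog_of_tmul_eq_field (ζ : kˣ) (l : ℕ) [NeZero l] (hζ : IsPrimitiveRoot ζ l)
    (hl : (l : k) ≠ 0) (p : ℕ) (hp : (p : k) = 0)
    (h w : LaurentSeries k) (hh : h ≠ 0) (hw : w ≠ 0) (c : k) (a : ℕ)
    (hT : tmul ζ l h = HahnSeries.C c * h ^ a * w ^ p) :
    heckeT2 l (thetaFun k h / h) = HahnSeries.C (a : k) * (thetaFun k h / h) := by
  rw [div_eq_mul_inv]
  exact heckeT2_dlog_of_tmul_eq ζ l hζ.pow_eq_one
    (Fermat.Agent.S37.helper5666.hreg_of_isPrimitiveRoot l ζ hζ)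
    (fun a ha => (mul_eq_zero.mp ha).resolve_left hl) p hp h h⁻¹ w w⁻¹
    (mul_inv_cancel₀ hh) (mul_inv_cancel₀ hw) c a hT

/-- (D), field and coefficient form. -/
theorem coeff_dlog_of_tmul_eq_field (ζ : kˣ) (l : ℕ) [NeZero l] (hζ : IsPrimitiveRoot ζ l)
    (hl : (l : k) ≠ 0) (p : ℕ) (hp : (p : k) = 0)
    (h w : LaurentSeries k) (hh : h ≠ 0) (hw : w ≠ 0) (c : k) (a : ℕ)
    (hT : tmul ζ l h = HahnSeries.C c * h ^ a * w ^ p) (n : ℤ) :
    (thetaFun k h / h).coeff ((l : ℤ) * n) +
        (l : k) * (if (l : ℤ) ∣ n then (thetaFun k h / h).coeff (n / (l : ℤ)) else 0) =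
      (a : k) * (thetaFun k h / h).coeff n := by
  have h1 := congrArg (fun z : LaurentSeries k => z.coeff n)
    (heckeT2_dlog_of_tmul_eq_field ζ l hζ hl p hp h w hh hw c a hT)
  simp only [heckeT2_coeff, HahnSeries.C_mul_eq_smul, HahnSeries.coeff_smul, smul_eq_mul] at h1
  exact h1

/-! ### Holomorphy at the cusp: `θ x / x = ord x + (a power series without constant term)` -/

open Fermat.Agent.Lib.helper9242 (thetaFun_single thetaFun_ofPowerSeries)

theorem single_eq_C_mul_single (m : ℤ) (a : k) :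
    (HahnSeries.single m a : LaurentSeries k) = HahnSeries.C a * HahnSeries.single m (1 : k) := by
  ext n
  rw [HahnSeries.C_mul_eq_smul, HahnSeries.coeff_smul]
  by_cases h : n = m
  · subst h; simp
  · simp [HahnSeries.coeff_single_of_ne h]

/-- `θ (q^m * u(q)) = m * q^m * u(q) + q^m * (q u'(q))`. -/
theorem thetaFun_single_mul_ofPowerSeries (m : ℤ) (u : PowerSeries k) :
    thetaFun k ((HahnSeries.single m (1 : k) : LaurentSeries k) *
        HahnSeries.ofPowerSeries ℤ k u) =
      HahnSeries.C ((m : ℤ) : k) * ((HahnSeries.single m (1 : k) : LaurentSeries k) *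
        HahnSeries.ofPowerSeries ℤ k u) +
      (HahnSeries.single m (1 : k) : LaurentSeries k) *
        HahnSeries.ofPowerSeries ℤ k (PowerSeries.X * PowerSeries.derivative k u) := by
  rw [thetaFun_mul, thetaFun_single, thetaFun_ofPowerSeries, mul_one,
    single_eq_C_mul_single m ((m : ℤ) : k)]
  ring

/-- (E) For `x ≠ 0` over a field: `θ x / x = C (ord x) + g(q)` with `g` a power series without
constant term. -/
theorem exists_dlog_eq_order_add (x : LaurentSeries k) (hx : x ≠ 0) :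
    ∃ g : PowerSeries k, PowerSeries.constantCoeff g = 0 ∧
      thetaFun k x / x =
        HahnSeries.C ((x.order : ℤ) : k) + HahnSeries.ofPowerSeries ℤ k g := by
  have hu0 : PowerSeries.constantCoeff x.powerSeriesPart ≠ 0 := by
    rw [← PowerSeries.coeff_zero_eq_constantCoeff_apply, LaurentSeries.powerSeriesPart_coeff]
    simpa using HahnSeries.coeff_order_eq_zero.not.mpr hx
  have hfac : (HahnSeries.single x.order (1 : k) : LaurentSeries k) *
      HahnSeries.ofPowerSeries ℤ k x.powerSeriesPart = x :=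
    LaurentSeries.single_order_mul_powerSeriesPart x
  have hinv : HahnSeries.ofPowerSeries ℤ k x.powerSeriesPart *
      HahnSeries.ofPowerSeries ℤ k x.powerSeriesPart⁻¹ = 1 := by
    rw [← map_mul, PowerSeries.mul_inv_cancel _ hu0, map_one]
  have hθ := thetaFun_single_mul_ofPowerSeries x.order x.powerSeriesPart
  rw [hfac] at hθ
  have hm : HahnSeries.ofPowerSeries ℤ k
      (PowerSeries.X * PowerSeries.derivative k x.powerSeriesPart * x.powerSeriesPart⁻¹) =
      HahnSeries.ofPowerSeries ℤ k (PowerSeries.X * PowerSeries.derivative k x.powerSeriesPart) *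
        HahnSeries.ofPowerSeries ℤ k x.powerSeriesPart⁻¹ := map_mul _ _ _
  refine ⟨PowerSeries.X * PowerSeries.derivative k x.powerSeriesPart * x.powerSeriesPart⁻¹,
    by simp, ?_⟩
  have h3 : HahnSeries.ofPowerSeries ℤ k
        (PowerSeries.X * PowerSeries.derivative k x.powerSeriesPart) *
        HahnSeries.ofPowerSeries ℤ k x.powerSeriesPart⁻¹ * x =
      (HahnSeries.single x.order (1 : k) : LaurentSeries k) *
        HahnSeries.ofPowerSeries ℤ k
          (PowerSeries.X * PowerSeries.derivative k x.powerSeriesPart) := by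
    calc HahnSeries.ofPowerSeries ℤ k
          (PowerSeries.X * PowerSeries.derivative k x.powerSeriesPart) *
          HahnSeries.ofPowerSeries ℤ k x.powerSeriesPart⁻¹ * x
        = HahnSeries.ofPowerSeries ℤ k
            (PowerSeries.X * PowerSeries.derivative k x.powerSeriesPart) *
          HahnSeries.ofPowerSeries ℤ k x.powerSeriesPart⁻¹ *
          ((HahnSeries.single x.order (1 : k) : LaurentSeries k) *
            HahnSeries.ofPowerSeries ℤ k x.powerSeriesPart) := by rw [hfac]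
      _ = (HahnSeries.single x.order (1 : k) : LaurentSeries k) *
          HahnSeries.ofPowerSeries ℤ k
            (PowerSeries.X * PowerSeries.derivative k x.powerSeriesPart) *
          (HahnSeries.ofPowerSeries ℤ k x.powerSeriesPart *
            HahnSeries.ofPowerSeries ℤ k x.powerSeriesPart⁻¹) := by ring
      _ = _ := by rw [hinv, mul_one]
  rw [div_eq_iff hx, hm, add_mul, h3, hθ]

/-- The logarithmic derivative as a power series (`n ↦` coefficient of `q^n` in `θ x / x`). -/
def dlogPS (x : LaurentSeries k) : PowerSeries k :=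
  PowerSeries.mk fun n => (thetaFun k x / x).coeff (n : ℤ)

@[simp] theorem coeff_dlogPS (x : LaurentSeries k) (n : ℕ) :
    PowerSeries.coeff n (dlogPS x) = (thetaFun k x / x).coeff (n : ℤ) :=
  PowerSeries.coeff_mk _ _

/-- `θ x / x` has no polar part: it is the power series `dlogPS x`. -/
theorem ofPowerSeries_dlogPS (x : LaurentSeries k) (hx : x ≠ 0) :
    HahnSeries.ofPowerSeries ℤ k (dlogPS x) = thetaFun k x / x := by
  obtain ⟨g, -, hg⟩ := exists_dlog_eq_order_add x hx
  have hC : (HahnSeries.C ((x.order : ℤ) : k) : LaurentSeries k) =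
      HahnSeries.ofPowerSeries ℤ k (PowerSeries.C ((x.order : ℤ) : k)) := by
    rw [HahnSeries.ofPowerSeries_C]
  rw [hC, ← map_add] at hg
  have h1 : dlogPS x = PowerSeries.C ((x.order : ℤ) : k) + g := by
    ext n
    rw [coeff_dlogPS, hg, HahnSeries.ofPowerSeries_apply_coeff]
  rw [h1, hg]

/-- The constant coefficient of `θ x / x` is the order of `x`. -/
theorem constantCoeff_dlogPS (x : LaurentSeries k) (hx : x ≠ 0) :
    PowerSeries.constantCoeff (dlogPS x) = ((x.order : ℤ) : k) := by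
  obtain ⟨g, hg0, hg⟩ := exists_dlog_eq_order_add x hx
  rw [← PowerSeries.coeff_zero_eq_constantCoeff_apply, coeff_dlogPS, hg, HahnSeries.coeff_add,
    HahnSeries.C_apply]
  have h2 : (HahnSeries.ofPowerSeries ℤ k g).coeff ((0 : ℕ) : ℤ) = 0 := by
    rw [HahnSeries.ofPowerSeries_apply_coeff, PowerSeries.coeff_zero_eq_constantCoeff_apply, hg0]
  rw [h2, add_zero]
  simp

theorem dlogPS_mul (x y : LaurentSeries k) (hx : x ≠ 0) (hy : y ≠ 0) :
    dlogPS (x * y) = dlogPS x + dlogPS y := by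
  have h1 : thetaFun k (x * y) / (x * y) = thetaFun k x / x + thetaFun k y / y := by
    rw [thetaFun_mul]
    field_simp
    ring
  ext n
  rw [map_add, coeff_dlogPS, coeff_dlogPS, coeff_dlogPS, h1, HahnSeries.coeff_add]

theorem dlogPS_C (c : k) : dlogPS (HahnSeries.C c : LaurentSeries k) = 0 := by
  ext n
  rw [coeff_dlogPS, thetaFun_C, zero_div]
  simp

/-- In characteristic `p`, `p`-th powers have trivial logarithmic derivative. -/
theorem dlogPS_pow_char (p : ℕ) (hp : (p : k) = 0) (w : LaurentSeries k) (hw : w ≠ 0) :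
    dlogPS (w ^ p) = 0 := by
  ext n
  rw [coeff_dlogPS, thetaFun_pow_char p hp w w⁻¹ (mul_inv_cancel₀ hw), zero_div]
  simp

theorem dlogPS_pow (x : LaurentSeries k) (hx : x ≠ 0) (a : ℕ) :
    dlogPS (x ^ a) = PowerSeries.C (a : k) * dlogPS x := by
  ext n
  rw [coeff_dlogPS, PowerSeries.coeff_C_mul, coeff_dlogPS]
  have h1 := thetaFun_pow_mul x a
  have h2 : thetaFun k (x ^ a) / x ^ a = HahnSeries.C (a : k) * (thetaFun k x / x) := by
    rw [div_eq_iff (pow_ne_zero a hx)]
    calc thetaFun k (x ^ a) = (thetaFun k (x ^ a) * x) / x := by field_simp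
      _ = HahnSeries.C (a : k) * (thetaFun k x / x) * x ^ a := by rw [h1]; ring
  rw [h2, HahnSeries.C_mul_eq_smul, HahnSeries.coeff_smul, smul_eq_mul]

/-- (D), power-series coefficient form (the shape of a weight-two Hecke eigen-relation on
`q`-expansion coefficients indexed by `ℕ`). -/
theorem coeff_dlogPS_of_tmul_eq (ζ : kˣ) (l : ℕ) [NeZero l] (hζ : IsPrimitiveRoot ζ l)
    (hl : (l : k) ≠ 0) (p : ℕ) (hp : (p : k) = 0)
    (h w : LaurentSeries k) (hh : h ≠ 0) (hw : w ≠ 0) (c : k) (a : ℕ)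
    (hT : tmul ζ l h = HahnSeries.C c * h ^ a * w ^ p) (n : ℕ) :
    PowerSeries.coeff (l * n) (dlogPS h) +
        (l : k) * (if l ∣ n then PowerSeries.coeff (n / l) (dlogPS h) else 0) =
      (a : k) * PowerSeries.coeff n (dlogPS h) := by
  have h1 := coeff_dlog_of_tmul_eq_field ζ l hζ hl p hp h w hh hw c a hT (n : ℤ)
  have hdvd : ((l : ℤ) ∣ (n : ℤ)) ↔ l ∣ n := Int.natCast_dvd_natCast
  simp only [coeff_dlogPS]
  by_cases hn : l ∣ n
  · rw [if_pos hn]
    rw [if_pos (hdvd.mpr hn)] at h1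
    have hdiv : ((n / l : ℕ) : ℤ) = (n : ℤ) / (l : ℤ) := Int.natCast_div n l
    rw [hdiv, Nat.cast_mul]
    exact h1
  · rw [if_neg hn]
    rw [if_neg (fun h => hn (hdvd.mp h))] at h1
    rw [Nat.cast_mul]
    exact h1

/-! ### `θ h = 0` in characteristic `p` over a perfect field: `h` is a `p`-th power -/

open Fermat.Agent.Lib.helper9242 (thetaFun_eq_zero_iff_coeff) in
/-- Over a perfect field of characteristic `p`, a Laurent series killed by `θ` is a `p`-th
power (`dlog h̄ = 0 ⟹ h̄ = ū^p`). -/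
theorem exists_pow_eq_of_thetaFun_eq_zero (p : ℕ) [Fact p.Prime] [CharP k p] [PerfectRing k p]
    (h : LaurentSeries k) (hθ : thetaFun k h = 0) : ∃ u : LaurentSeries k, h = u ^ p := by
  haveI : NeZero p := ⟨(Fact.out : p.Prime).ne_zero⟩
  haveI : ExpChar k p := ExpChar.prime (Fact.out : p.Prime)
  have hc := (thetaFun_eq_zero_iff_coeff k h).mp hθ
  have hsupp : ∀ n : ℤ, ¬ (p : ℤ) ∣ n → h.coeff n = 0 := by
    intro n hn
    apply hc n
    intro h0
    apply hn
    exact (CharP.intCast_eq_zero_iff k p n).mp h0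
  refine ⟨coeffMap ((frobeniusEquiv k p).symm : k →+* k) (descend p h), ?_⟩
  rw [← Fermat.Agent.S37.helper5666.qExpand_eq_pow_of_perfect k p,
    Fermat.Agent.S37.helper5666.qExpand_descend p h hsupp]

end Field

end Fermat.Agent.S44.helper4264
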