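/-
S44-OMEGA, part 3 (helper3511): `Ω_∞` intertwines the Hecke operator `T_ℓ` of `J₀(N)` with the
weight-two Hecke operator on `q`-expansions.

Input (hypothesis-passing): `Stmt_RedComm A N ℓ ζ` = (RED-COMM) "the multiplicative Hecke
transform `heckeFun N ℓ` preserves Gauss units and, on reductions, is
`tmul ζ ℓ x = x(q^ℓ) · kronNorm ζ ℓ x`" (L6-TLMULT (B)).

* `heckeFun_mul`, `heckeFun_algebraMap` : `heckeFun` is multiplicative and maps constants to
  constants.
* `dlogRed_heckeFun` : `dlogRed (heckeFun N ℓ f) = heckeT2 ℓ (dlogRed f)`.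
* `omega_heckeOperatorBar` : `Ω_∞ (T_ℓ x) = heckeT2 ℓ (Ω_∞ x)` on `J₀(N)[p]`.
* `heckeT2_omega_of_eigen`, `omega_coeff_of_eigen` : for `T_ℓ x = a • x`:
  `G_{ℓ n} + ℓ · G_{n/ℓ} = a · G_n` for the coefficients `G_n` of `Ω_∞ x` (the shape consumed by
  the exit).
-/
import Fermat.Agent.S44.helper3511_Omega
import Fermat.Agent.S44.helper4264_HeckeDlog

set_option autoImplicit false

namespace Fermat.Agent.S44.helper3511

open AlgebraicCurve ModularCurve
open Fermat.Agent.S29.helper8217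
open Fermat.Agent.S34.helper584
open Fermat.Agent.S18
open Fermat.Agent.Lib.helper9242
open Fermat.Agent.S44.helper4264

noncomputable section

/-! ### `normAlong` and `heckeFun` are multiplicative -/

section Norm

variable {K F F' : Type*} [Field K] [Field F] [Field F'] [Algebra K F] [Algebra K F']

theorem normAlong_mul' (ψ : F →ₐ[K] F') (x y : F') :
    normAlong ψ (x * y) = normAlong ψ x * normAlong ψ y := by
  let _i := algebraAlong ψ
  exact map_mul (Algebra.norm F) x y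

theorem normAlong_algebraMap' (ψ : F →ₐ[K] F') (c : K) :
    ∃ d : ℕ, normAlong ψ (algebraMap K F' c) = algebraMap K F (c ^ d) := by
  let _i := algebraAlong ψ
  refine ⟨Module.finrank F F', ?_⟩
  have h1 : algebraMap K F' c = algebraMap F F' (algebraMap K F c) := (ψ.commutes c).symm
  show Algebra.norm F (algebraMap K F' c) = _
  rw [h1, Algebra.norm_algebraMap, map_pow]

end Norm

section HeckeFun

variable {L : Type*} [Field L] [Algebra ℚ L] (N ℓ : ℕ) [NeZero N] [NeZero ℓ]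

theorem heckeFun_mul (x y : ↥(laurentBaseChange L (modularFunctionFieldFull N))) :
    heckeFun (L := L) N ℓ (x * y) = heckeFun (L := L) N ℓ x * heckeFun (L := L) N ℓ y := by
  unfold heckeFun
  rw [map_mul, normAlong_mul']

theorem heckeFun_algebraMap (c : L) :
    ∃ d : ℕ, heckeFun (L := L) N ℓ
        (algebraMap L ↥(laurentBaseChange L (modularFunctionFieldFull N)) c) =
      algebraMap L ↥(laurentBaseChange L (modularFunctionFieldFull N)) (c ^ d) := by
  unfold heckeFun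
  rw [AlgHom.commutes]
  exact normAlong_algebraMap' _ c

end HeckeFun

/-! ### (RED-COMM) and the Hecke equivariance of `dlogRed` -/

section RedComm

variable {L : Type*} [Field L] [Algebra ℚ L] (A : ValuationSubring L) (N ℓ : ℕ) [NeZero N]
  [NeZero ℓ]

/-- **(RED-COMM)**: the multiplicative Hecke transform preserves the units of the Gauss ring
and is `tmul ζ ℓ` on their reductions. -/
def Stmt_RedComm (ζ : (IsLocalRing.ResidueField A)ˣ) : Prop :=
  ∀ u : ↥(helper8991.gaussF A (IsLocalRing.residue A) N),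
    helper8991.gaussFRed A (IsLocalRing.residue A) N u ≠ 0 →
    ∃ hmem : heckeFun (L := L) N ℓ (u : ↥(laurentBaseChange L (modularFunctionFieldFull N))) ∈
        helper8991.gaussF A (IsLocalRing.residue A) N,
      helper8991.gaussFRed A (IsLocalRing.residue A) N ⟨_, hmem⟩ =
        tmul ζ ℓ (helper8991.gaussFRed A (IsLocalRing.residue A) N u)

variable {A N ℓ}

/-- `tmul` of a nonzero series over a field is nonzero. -/
theorem tmul_ne_zero {k : Type*} [Field k] (ζ : kˣ) (l : ℕ) [NeZero l]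
    (hζ : IsPrimitiveRoot ζ l) {x : LaurentSeries k} (hx : x ≠ 0) : tmul ζ l x ≠ 0 := by
  have hreg := Fermat.Agent.S37.helper5666.hreg_of_isPrimitiveRoot l ζ hζ
  have h1 : tmul ζ l x * tmul ζ l x⁻¹ = 1 := by
    rw [← tmul_mul ζ l hζ.pow_eq_one hreg, mul_inv_cancel₀ hx, tmul_one ζ l hζ.pow_eq_one hreg]
  intro h0
  rw [h0, zero_mul] at h1
  exact zero_ne_one h1

/-- **`dlogRed` intertwines the multiplicative Hecke transform with `T_ℓ` in weight two.** -/
theorem dlogRed_heckeFun (ζ : (IsLocalRing.ResidueField A)ˣ) (hζ : IsPrimitiveRoot ζ ℓ)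
    (hℓ : ((ℓ : ℕ) : IsLocalRing.ResidueField A) ≠ 0) (hRC : Stmt_RedComm A N ℓ ζ)
    {f : ↥(laurentBaseChange L (modularFunctionFieldFull N))} (hf : f ≠ 0) :
    dlogRed A N (heckeFun (L := L) N ℓ f) = heckeT2 ℓ (dlogRed A N f) := by
  obtain ⟨c, u, hc, hu, rfl⟩ :=
    helper8991.exists_const_mul_unit_F A (IsLocalRing.residue A) N f hf
  obtain ⟨hmem, hred⟩ := hRC u hu
  obtain ⟨d, hd⟩ := heckeFun_algebraMap (L := L) N ℓ c
  have hu' : helper8991.gaussFRed A (IsLocalRing.residue A) N ⟨_, hmem⟩ ≠ 0 := by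
    rw [hred]
    exact Fermat.Agent.S44.helper3511.tmul_ne_zero ζ ℓ hζ hu
  have e : heckeFun (L := L) N ℓ
      (algebraMap L ↥(laurentBaseChange L (modularFunctionFieldFull N)) c *
        (u : ↥(laurentBaseChange L (modularFunctionFieldFull N)))) =
      algebraMap L ↥(laurentBaseChange L (modularFunctionFieldFull N)) (c ^ d) *
        ((⟨_, hmem⟩ : ↥(helper8991.gaussF A (IsLocalRing.residue A) N)) :
          ↥(laurentBaseChange L (modularFunctionFieldFull N))) := by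
    rw [heckeFun_mul, hd]
  rw [e, dlogRed_eq A N (pow_ne_zero d hc) hu' rfl, dlogRed_eq A N hc hu rfl]
  unfold dlogU
  rw [hred]
  exact dlog_tmul_field ζ ℓ hζ hℓ _ hu

end RedComm

/-! ### `Ω_∞` and the Hecke operators of `J₀(N)` -/

section OmegaHecke

local notation "Qb" => AlgebraicClosure ℚ

variable {A : ValuationSubring Qb} {N : ℕ} [NeZero N]
  [HasPrincipalDivisors Qb (modularFunctionFieldBar N)]

/-- **`Ω_∞ ∘ T_ℓ = T_ℓ ∘ Ω_∞`** on `J₀(N)[p]`, where the right-hand `T_ℓ` is the weight-two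
Hecke operator on `q`-expansions (`heckeT2`, `ℓ` prime, `ℓ ≠ 0` in the residue field). -/
theorem omega_heckeOperatorBar {p : ℕ} (hp : p.Prime) (hA : A.LiesOverPrime p)
    (ℓ : ℕ) [NeZero ℓ] (hℓ : ℓ.Prime)
    (hI : HeckeInputsAlong Qb N ℓ) (ζ : (IsLocalRing.ResidueField A)ˣ)
    (hζ : IsPrimitiveRoot ζ ℓ) (hℓk : ((ℓ : ℕ) : IsLocalRing.ResidueField A) ≠ 0)
    (hRC : Stmt_RedComm A N ℓ ζ) {x : JZero N} (hx : (p : ℤ) • x = 0) :
    omega A N p (heckeOperatorBar N ⟨ℓ, hℓ⟩ x) = heckeT2 ℓ (omega A N p x) := by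
  obtain ⟨u, hu, rfl⟩ := exists_kummerClass_eq hp.ne_zero (Pic0.mem_torsion.mpr hx)
  obtain ⟨hk, e⟩ := heckeOperatorBar_kummerClass (N := N) ⟨ℓ, hℓ⟩ hI hp.ne_zero hu
  rw [e, omega_kummerClass hp hA hk, omega_kummerClass hp hA hu]
  exact dlogRed_heckeFun ζ hζ hℓk hRC hu.ne_zero

/-- `Ω_∞ (a • x) = a · Ω_∞ x` for `a : ℤ` on `J₀(N)[p]`. -/
theorem omega_zsmul {p : ℕ} (hp : p.Prime) (hA : A.LiesOverPrime p) (a : ℤ) {x : JZero N}
    (hx : (p : ℤ) • x = 0) :
    omega A N p (a • x) =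
      HahnSeries.C ((a : ℤ) : IsLocalRing.ResidueField A) * omega A N p x := by
  have h := map_zsmul (omegaAtHom hp hA AlgEquiv.refl)
    a (⟨x, Pic0.mem_torsion.mpr hx⟩ : ↥(Pic0.torsion Qb (modularFunctionFieldBar N) p))
  rw [omegaAtHom_apply, omegaAtHom_apply, AddSubgroupClass.coe_zsmul] at h
  rw [show omega A N p (a • x) = omegaAt A N AlgEquiv.refl p (a • x) from rfl, h,
    zsmul_eq_mul, ← map_intCast (HahnSeries.C : IsLocalRing.ResidueField A →+*
      LaurentSeries (IsLocalRing.ResidueField A)) a]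

/-- **(HECKE)**: a `T_ℓ`-eigenclass of `J₀(N)[p]` with eigenvalue `a` has `Ω_∞` in the
`a`-eigenspace of the weight-two Hecke operator on `q`-expansions. -/
theorem heckeT2_omega_of_eigen {p : ℕ} (hp : p.Prime) (hA : A.LiesOverPrime p)
    (ℓ : ℕ) [NeZero ℓ] (hℓ : ℓ.Prime)
    (hI : HeckeInputsAlong Qb N ℓ) (ζ : (IsLocalRing.ResidueField A)ˣ)
    (hζ : IsPrimitiveRoot ζ ℓ) (hℓk : ((ℓ : ℕ) : IsLocalRing.ResidueField A) ≠ 0)
    (hRC : Stmt_RedComm A N ℓ ζ) {x : JZero N} (hx : (p : ℤ) • x = 0) (a : ℤ)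
    (he : heckeOperatorBar N ⟨ℓ, hℓ⟩ x = a • x) :
    heckeT2 ℓ (omega A N p x) =
      HahnSeries.C ((a : ℤ) : IsLocalRing.ResidueField A) * omega A N p x := by
  rw [← omega_heckeOperatorBar hp hA ℓ hℓ hI ζ hζ hℓk hRC hx, he, omega_zsmul hp hA a hx]

/-- **(HECKE), coefficient form** (the shape consumed by the exit): with `G n` the `n`-th
coefficient of `Ω_∞ x`, `G (ℓ n) + ℓ · G (n / ℓ) = a · G n`. -/
theorem omega_coeff_of_eigen {p : ℕ} (hp : p.Prime) (hA : A.LiesOverPrime p)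
    (ℓ : ℕ) [NeZero ℓ] (hℓ : ℓ.Prime)
    (hI : HeckeInputsAlong Qb N ℓ) (ζ : (IsLocalRing.ResidueField A)ˣ)
    (hζ : IsPrimitiveRoot ζ ℓ) (hℓk : ((ℓ : ℕ) : IsLocalRing.ResidueField A) ≠ 0)
    (hRC : Stmt_RedComm A N ℓ ζ) {x : JZero N} (hx : (p : ℤ) • x = 0) (a : ℤ)
    (he : heckeOperatorBar N ⟨ℓ, hℓ⟩ x = a • x) (n : ℕ) :
    (omega A N p x).coeff ((ℓ * n : ℕ) : ℤ) +
        ((ℓ : ℕ) : IsLocalRing.ResidueField A) *
          (if ℓ ∣ n then (omega A N p x).coeff ((n / ℓ : ℕ) : ℤ) else 0) =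
      ((a : ℤ) : IsLocalRing.ResidueField A) * (omega A N p x).coeff (n : ℤ) := by
  have h1 := congrArg (fun z : LaurentSeries (IsLocalRing.ResidueField A) => z.coeff (n : ℤ))
    (heckeT2_omega_of_eigen hp hA ℓ hℓ hI ζ hζ hℓk hRC hx a he)
  simp only [heckeT2_coeff, HahnSeries.C_mul_eq_smul, HahnSeries.coeff_smul, smul_eq_mul] at h1
  rw [← h1]
  have e1 : ((ℓ * n : ℕ) : ℤ) = (ℓ : ℤ) * (n : ℤ) := by push_cast; ring
  have e2 : ((ℓ : ℤ) ∣ (n : ℤ)) ↔ ℓ ∣ n := Int.natCast_dvd_natCast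
  have e3 : ((n / ℓ : ℕ) : ℤ) = (n : ℤ) / (ℓ : ℤ) := Int.natCast_div n ℓ
  rw [e1, e3]
  by_cases hd : ℓ ∣ n
  · rw [if_pos hd, if_pos (e2.mpr hd)]
  · rw [if_neg hd, if_neg (fun h => hd (e2.mp h))]

end OmegaHecke

end

end Fermat.Agent.S44.helper3511
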