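/-
S44-OMEGA, part 4 (helper3511): the block (HECKE) of the S44 chain, UNCONDITIONAL.

For a prime `ℓ ∤ N`, `ℓ ≠ p`, `A` a valuation subring of `ℚ̄` over `p`, and a `T_ℓ`-eigenclass
`x ∈ J₀(N)[p]` with eigenvalue `a`, the coefficients `G_n` of `Ω_∞ x` satisfy the weight-two
Hecke relation `G_{ℓ n} + ℓ · G_{n/ℓ} = a · G_n`.

Inputs: `helper3511_OmegaHecke` (hypothesis-passing on (RED-COMM)), (RED-COMM) =
`S44.helper1022.exists_heckeFun_mem_gaussF` (L6-TLMULT (B1)), the formal lemma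
`S44.helper4264.dlog_tmul_field` (L6-DLOGHECKE), and the landed `S37.helper8426.heckeInputsAlong`.
-/
import Fermat.Agent.S44.helper3511_OmegaHecke
import Fermat.Agent.S44.helper1022_TlRed
import Fermat.Agent.S37.helper8426_HeckeInputs

set_option autoImplicit false

namespace Fermat.Agent.S44.helper3511

open AlgebraicCurve ModularCurve
open Fermat.Agent.S29.helper8217
open Fermat.Agent.S34.helper584
open Fermat.Agent.S18
open Fermat.Agent.S44.helper4264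

noncomputable section

section Inst

local notation "Qb" => AlgebraicClosure ℚ

variable {A : ValuationSubring Qb} {N : ℕ} [NeZero N]

/-- A prime `ℓ ≠ p` is invertible in the residue field of `A ∣ p`. -/
theorem natCast_residueField_ne_zero {p : ℕ} (hp : p.Prime) (hA : A.LiesOverPrime p) {ℓ : ℕ}
    (hℓ : ℓ.Prime) (hℓp : ℓ ≠ p) : ((ℓ : ℕ) : IsLocalRing.ResidueField A) ≠ 0 := by
  have hchar := charP_residueField hp A hA
  intro h0
  have hdvd : p ∣ ℓ := (CharP.cast_eq_zero_iff (IsLocalRing.ResidueField A) p ℓ).mp h0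
  rcases (Nat.dvd_prime hℓ).mp hdvd with h1 | h1
  · exact hp.one_lt.ne' h1
  · exact hℓp h1.symm

/-- **(RED-COMM) holds** for every prime `ℓ ∤ N`, `ℓ ≠ p`: there is a primitive `ℓ`-th root of
unity `ζ` of the residue field with `Stmt_RedComm A N ℓ ζ`. -/
theorem exists_stmt_RedComm {p : ℕ} (hp : p.Prime) (hA : A.LiesOverPrime p) (ℓ : ℕ)
    [NeZero ℓ] (hℓ : ℓ.Prime) (hℓN : ¬ ℓ ∣ N) (hℓp : ℓ ≠ p) :
    ∃ ζ : (IsLocalRing.ResidueField A)ˣ, IsPrimitiveRoot ζ ℓ ∧ Stmt_RedComm A N ℓ ζ := by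
  obtain ⟨z, hz⟩ := HasEnoughRootsOfUnity.exists_primitiveRoot Qb ℓ
  have hzu : IsUnit z := hz.isUnit (NeZero.ne ℓ)
  have hzu' : IsPrimitiveRoot hzu.unit ℓ := by
    rw [← IsPrimitiveRoot.coe_units_iff, IsUnit.unit_spec]
    exact hz
  obtain ⟨u, hu, -⟩ :=
    Fermat.Agent.S44.helper1022.exists_primitiveRoot_valuationSubring A ℓ hzu.unit hzu'
  have hk := natCast_residueField_ne_zero hp hA hℓ hℓp
  have huk := Fermat.Agent.S44.helper1022.isPrimitiveRoot_map_of_natCast_ne_zero A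
    (IsLocalRing.residue A) hℓ hk u hu
  refine ⟨Units.map ((IsLocalRing.residue A : A →+* IsLocalRing.ResidueField A) :
    A →* IsLocalRing.ResidueField A) u, huk, ?_⟩
  intro w _
  exact Fermat.Agent.S44.helper1022.exists_heckeFun_mem_gaussF N ℓ A (IsLocalRing.residue A)
    hℓ hℓN u hu huk w.2

variable [HasPrincipalDivisors Qb (modularFunctionFieldBar N)]

/-- **`Ω_∞ ∘ T_ℓ = T_ℓ ∘ Ω_∞`** on `J₀(N)[p]` for every prime `ℓ ∤ N`, `ℓ ≠ p`
(unconditional). -/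
theorem omega_heckeOperatorBar_of_not_dvd {p : ℕ} (hp : p.Prime) (hA : A.LiesOverPrime p)
    (ℓ : ℕ) [NeZero ℓ] (hℓ : ℓ.Prime) (hℓN : ¬ ℓ ∣ N) (hℓp : ℓ ≠ p) {x : JZero N}
    (hx : (p : ℤ) • x = 0) :
    omega A N p (heckeOperatorBar N ⟨ℓ, hℓ⟩ x) = heckeT2 ℓ (omega A N p x) := by
  obtain ⟨ζ, hζ, hRC⟩ := exists_stmt_RedComm (N := N) hp hA ℓ hℓ hℓN hℓp
  exact omega_heckeOperatorBar hp hA ℓ hℓ (Fermat.Agent.S37.helper8426.heckeInputsAlong N ℓ) ζ hζ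
    (natCast_residueField_ne_zero hp hA hℓ hℓp) hRC hx

/-- **(HECKE), unconditional**: for a prime `ℓ ∤ N`, `ℓ ≠ p` and `x ∈ J₀(N)[p]` with
`T_ℓ x = a • x`, the coefficients `G n` of `Ω_∞ x` satisfy
`G (ℓ n) + ℓ · G (n / ℓ) = a · G n`. -/
theorem omega_coeff_of_eigen_of_not_dvd {p : ℕ} (hp : p.Prime) (hA : A.LiesOverPrime p)
    (ℓ : ℕ) (hℓ : ℓ.Prime) (hℓN : ¬ ℓ ∣ N) (hℓp : ℓ ≠ p) {x : JZero N}
    (hx : (p : ℤ) • x = 0) (a : ℤ) (he : heckeOperatorBar N ⟨ℓ, hℓ⟩ x = a • x) (n : ℕ) :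
    (omega A N p x).coeff ((ℓ * n : ℕ) : ℤ) +
        ((ℓ : ℕ) : IsLocalRing.ResidueField A) *
          (if ℓ ∣ n then (omega A N p x).coeff ((n / ℓ : ℕ) : ℤ) else 0) =
      ((a : ℤ) : IsLocalRing.ResidueField A) * (omega A N p x).coeff (n : ℤ) := by
  have _i : NeZero ℓ := ⟨hℓ.ne_zero⟩
  obtain ⟨ζ, hζ, hRC⟩ := exists_stmt_RedComm (N := N) hp hA ℓ hℓ hℓN hℓp
  exact omega_coeff_of_eigen hp hA ℓ hℓ (Fermat.Agent.S37.helper8426.heckeInputsAlong N ℓ) ζ hζ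
    (natCast_residueField_ne_zero hp hA hℓ hℓp) hRC hx a he n

end Inst

end

end Fermat.Agent.S44.helper3511
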