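/-
S44-OMEGA, part 2 (helper3511): the kernel of `(Ω_∞, Ω_0)`, transport by `W`, and the
decomposition group.

* `exists_approx_two` : multiplicative weak approximation for two valuation subrings with
  witnesses (Mathlib only).
* `kummerClass_mem_kBothAbs_of_approx` : an `n`-Kummer element which is an `n`-th power up to a
  1-unit at EACH of the two valuations (with two different roots) has its class in `kBothAbs`
  (one common representative `≡ 1` at both).
* `Stmt_Pth A N p` : (PTH) "a Gauss unit whose reduction is killed by `θ` is a `p`-th power of a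
  function up to a 1-unit" (the residue field of the Gauss valuation is separable in `k((q))`).
* `mem_kBoth_of_omega_eq_zero` : (PTH) at `A` for `N` ⟹ `Ω_∞ x = 0 ∧ Ω_W x = 0 → x ∈ kBoth`;
  `mem_kBoth_iff_omega_eq_zero` : `ker (Ω_∞, Ω_W) ∩ J₀(N)[p] = kBoth A N p W`;
  `mem_kBoth_atkinLehner_iff_omega_eq_zero` : the instance `N = p * M`, `W = W_p`.
* `omegaAt_eq_omega_smul` : `Ω_W x = Ω_∞ (W • x)`.
* `resDecomp`, `gaussF_decomp`, `dlogRed_decomp`, `omegaAt_decomp`, `omegaAt_decomp_eq_zero_iff` :
  the decomposition group of `A` acts on `Ω` through its action on the residue field.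
-/
import Fermat.Agent.S44.helper3511_Omega

set_option autoImplicit false

namespace Fermat.Agent.S44.helper3511

open AlgebraicCurve ModularCurve
open Fermat.Agent.S29.helper8217
open Fermat.Agent.S34.helper584
open Fermat.Agent.S18
open Fermat.Agent.Lib.helper9242
open Fermat.Agent.S33.helper3511

noncomputable section

/-! ### Two-valuation weak approximation -/

section Approx

variable {F : Type*} [Field F] (V₁ V₂ : ValuationSubring F)

theorem valuation_pow_sub_one_lt (V : ValuationSubring F) {h : F}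
    (hh : V.valuation (h - 1) < 1) (n : ℕ) : V.valuation (h ^ n - 1) < 1 := by
  induction n with
  | zero =>
    rw [pow_zero]
    exact valuation_one_sub_one_lt V
  | succ n ih =>
    rw [pow_succ]
    exact valuation_mul_sub_one_lt V ih hh

/-- **Multiplicative weak approximation** for two valuation subrings separated by witnesses
`b` (unit of `V₁`, small for `V₂`) and `c'` (small for `V₁`, unit of `V₂`) whose powers become
arbitrarily small: any two nonzero elements are approximated, up to 1-units, by one element. -/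
theorem exists_approx_two (b c' : F) (hb₁ : V₁.valuation b = 1) (hb₂ : V₂.valuation b < 1)
    (hc₁ : V₁.valuation c' < 1) (hc₂ : V₂.valuation c' = 1)
    (harch₁ : ∀ d : F, d ≠ 0 → ∃ k : ℕ, V₁.valuation (c' ^ k / d) < 1)
    (harch₂ : ∀ d : F, d ≠ 0 → ∃ k : ℕ, V₂.valuation (b ^ k / d) < 1)
    {g₁ g₂ : F} (hg₁ : g₁ ≠ 0) (hg₂ : g₂ ≠ 0) :
    ∃ g : F, g ≠ 0 ∧ V₁.valuation (g / g₁ - 1) < 1 ∧ V₂.valuation (g / g₂ - 1) < 1 := by
  -- exponents
  have hm : ∃ m : ℕ, V₁.valuation (c' ^ (m + 1) * (g₂ / g₁ - 1)) < 1 := by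
    rcases eq_or_ne (g₂ / g₁ - 1) 0 with h0 | h0
    · refine ⟨0, ?_⟩
      rw [h0, mul_zero, map_zero]
      exact zero_lt_one
    · obtain ⟨k, hk⟩ := harch₁ (g₂ / g₁ - 1)⁻¹ (inv_ne_zero h0)
      refine ⟨k, ?_⟩
      rw [div_inv_eq_mul] at hk
      rw [pow_succ, mul_right_comm, map_mul]
      exact mul_lt_one_of_nonneg_of_lt_one_right hk.le zero_le hc₁
  have hn : ∃ n : ℕ, V₂.valuation (b ^ (n + 1) * (g₁ / g₂ - 1)) < 1 := by
    rcases eq_or_ne (g₁ / g₂ - 1) 0 with h0 | h0
    · refine ⟨0, ?_⟩
      rw [h0, mul_zero, map_zero]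
      exact zero_lt_one
    · obtain ⟨k, hk⟩ := harch₂ (g₁ / g₂ - 1)⁻¹ (inv_ne_zero h0)
      refine ⟨k, ?_⟩
      rw [div_inv_eq_mul] at hk
      rw [pow_succ, mul_right_comm, map_mul]
      exact mul_lt_one_of_nonneg_of_lt_one_right hk.le zero_le hb₂
  obtain ⟨m, hm⟩ := hm
  obtain ⟨n, hn⟩ := hn
  set s : F := b ^ (n + 1) + c' ^ (m + 1) with hs
  have hc₁m : V₁.valuation (c' ^ (m + 1)) < 1 := by
    rw [map_pow]
    exact pow_lt_one₀ zero_le hc₁ (Nat.succ_ne_zero m)
  have hb₂n : V₂.valuation (b ^ (n + 1)) < 1 := by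
    rw [map_pow]
    exact pow_lt_one₀ zero_le hb₂ (Nat.succ_ne_zero n)
  have hs₁ : V₁.valuation s = 1 := by
    have h1 : V₁.valuation (c' ^ (m + 1)) < V₁.valuation (b ^ (n + 1)) := by
      rw [map_pow _ b, hb₁, one_pow]
      exact hc₁m
    rw [hs, Valuation.map_add_eq_of_lt_left _ h1, map_pow, hb₁, one_pow]
  have hs₂ : V₂.valuation s = 1 := by
    have h1 : V₂.valuation (b ^ (n + 1)) < V₂.valuation (c' ^ (m + 1)) := by
      rw [map_pow _ c', hc₂, one_pow]
      exact hb₂n
    rw [hs, Valuation.map_add_eq_of_lt_right _ h1, map_pow, hc₂, one_pow]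
  have hs0 : s ≠ 0 := by
    intro h0
    rw [h0, map_zero] at hs₁
    exact zero_ne_one hs₁
  have e₁ : (g₁ * b ^ (n + 1) + g₂ * c' ^ (m + 1)) / s / g₁ - 1 =
      c' ^ (m + 1) * (g₂ / g₁ - 1) / s := by
    rw [hs]
    rw [hs] at hs0
    field_simp
    ring
  have e₂ : (g₁ * b ^ (n + 1) + g₂ * c' ^ (m + 1)) / s / g₂ - 1 =
      b ^ (n + 1) * (g₁ / g₂ - 1) / s := by
    rw [hs]
    rw [hs] at hs0
    field_simp
    ring
  have h₁ : V₁.valuation ((g₁ * b ^ (n + 1) + g₂ * c' ^ (m + 1)) / s / g₁ - 1) < 1 := by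
    rw [e₁, map_div₀, hs₁, div_one]
    exact hm
  have h₂ : V₂.valuation ((g₁ * b ^ (n + 1) + g₂ * c' ^ (m + 1)) / s / g₂ - 1) < 1 := by
    rw [e₂, map_div₀, hs₂, div_one]
    exact hn
  refine ⟨(g₁ * b ^ (n + 1) + g₂ * c' ^ (m + 1)) / s, ?_, h₁, h₂⟩
  intro h0
  rw [h0, zero_div, zero_sub, Valuation.map_neg, map_one] at h₁
  exact lt_irrefl _ h₁

end Approx

/-! ### From two local roots to a common representative -/

section Abstract

variable {K : Type*} {F : Type*} [Field K] [Field F] [Algebra K F] [HasPrincipalDivisors K F]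

/-- An `n`-Kummer element which is an `n`-th power up to a 1-unit at each of the two valuations
(with two roots `g₁`, `g₂`) has its class in `kBothAbs`. -/
theorem kummerClass_mem_kBothAbs_of_approx {n : ℕ} (hn : n ≠ 0) {V₁ V₂ : ValuationSubring F}
    (b c' : F) (hb₁ : V₁.valuation b = 1) (hb₂ : V₂.valuation b < 1)
    (hc₁ : V₁.valuation c' < 1) (hc₂ : V₂.valuation c' = 1)
    (harch₁ : ∀ d : F, d ≠ 0 → ∃ k : ℕ, V₁.valuation (c' ^ k / d) < 1)
    (harch₂ : ∀ d : F, d ≠ 0 → ∃ k : ℕ, V₂.valuation (b ^ k / d) < 1)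
    {u : F} (hu : IsKummer K n u) {g₁ g₂ : F} (hg₁ : g₁ ≠ 0) (hg₂ : g₂ ≠ 0)
    (h₁ : V₁.valuation (u / g₁ ^ n - 1) < 1) (h₂ : V₂.valuation (u / g₂ ^ n - 1) < 1) :
    kummerClass K n u ∈ kBothAbs K n V₁ V₂ := by
  obtain ⟨g, hg, ha₁, ha₂⟩ :=
    exists_approx_two V₁ V₂ b c' hb₁ hb₂ hc₁ hc₂ harch₁ harch₂ hg₁ hg₂
  have key : ∀ (V : ValuationSubring F) (g' : F), g' ≠ 0 → V.valuation (g / g' - 1) < 1 →
      V.valuation (u / g' ^ n - 1) < 1 → V.valuation (u / g ^ n - 1) < 1 := by
    intro V g' hg' ha hh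
    have e : u / g ^ n = u / g' ^ n * ((g / g') ^ n)⁻¹ := by
      rw [div_pow]
      field_simp
    rw [e]
    exact valuation_mul_sub_one_lt V hh
      (valuation_inv_sub_one_lt V (valuation_pow_sub_one_lt V ha n))
  refine ⟨u / g ^ n, hu.div (isKummer_pow_self n hg), key V₁ g₁ hg₁ ha₁ h₁, key V₂ g₂ hg₂ ha₂ h₂,
    ?_⟩
  rw [kummerClass_div hu (isKummer_pow_self n hg), kummerClass_pow_self hn hg, sub_zero]

omit [HasPrincipalDivisors K F] in
/-- `K`-algebra automorphisms preserve Kummer elements. -/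
theorem isKummer_algEquiv (σ : F ≃ₐ[K] F) {n : ℕ} {u : F} (h : IsKummer K n u) :
    IsKummer K n (σ u) := by
  refine ⟨(map_ne_zero σ).mpr h.1, fun v => ?_⟩
  have h1 := Place.ord_smul σ (σ⁻¹ • v) u
  rw [smul_inv_smul] at h1
  rw [h1]
  exact h.2 _

end Abstract

/-! ### The kernel of `(Ω_∞, Ω_W)` -/

section Kernel

local notation "Qb" => AlgebraicClosure ℚ

variable (A : ValuationSubring Qb) (N : ℕ)

/-- **(PTH)** at `A`, level `N`, exponent `p`: a unit `u` of the Gauss ring whose reduction is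
killed by `θ = q d/dq` (no coefficient at exponents prime to `p`) is, up to a 1-unit, the
`p`-th power of a FUNCTION. -/
def Stmt_Pth (p : ℕ) : Prop :=
  ∀ u : ↥(helper8991.gaussF A (IsLocalRing.residue A) N),
    helper8991.gaussFRed A (IsLocalRing.residue A) N u ≠ 0 →
    thetaFun (IsLocalRing.ResidueField A)
      (helper8991.gaussFRed A (IsLocalRing.residue A) N u) = 0 →
    ∃ g : modularFunctionFieldBar N, g ≠ 0 ∧
      (gaussV A N).valuation ((u : modularFunctionFieldBar N) / g ^ p - 1) < 1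

variable {A N}

/-- (PTH) for arbitrary functions: `dlogRed f = 0` ⟹ `f` is a `p`-th power up to a 1-unit. -/
theorem exists_pth_of_dlogRed_eq_zero {p : ℕ} (hp : p ≠ 0) (hPth : Stmt_Pth A N p)
    {f : modularFunctionFieldBar N} (hf : f ≠ 0) (h0 : dlogRed A N f = 0) :
    ∃ g : modularFunctionFieldBar N, g ≠ 0 ∧ (gaussV A N).valuation (f / g ^ p - 1) < 1 := by
  obtain ⟨c, u, hc, hu, rfl⟩ :=
    helper8991.exists_const_mul_unit_F A (IsLocalRing.residue A) N f hf
  have hθ := (dlogRed_eq_zero_iff A N hc hu rfl).mp h0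
  obtain ⟨g, hg, hv⟩ := hPth u hu hθ
  obtain ⟨d, hd⟩ := IsAlgClosed.exists_pow_nat_eq c (Nat.pos_of_ne_zero hp)
  have hd0 : d ≠ 0 := by
    rintro rfl
    rw [zero_pow hp] at hd
    exact hc hd.symm
  have hdF : algebraMap Qb (modularFunctionFieldBar N) d ≠ 0 := (map_ne_zero _).mpr hd0
  refine ⟨algebraMap Qb (modularFunctionFieldBar N) d * g, mul_ne_zero hdF hg, ?_⟩
  have e : algebraMap Qb (modularFunctionFieldBar N) c *
      (u : modularFunctionFieldBar N) / (algebraMap Qb (modularFunctionFieldBar N) d * g) ^ p =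
      (u : modularFunctionFieldBar N) / g ^ p := by
    rw [← hd, map_pow, mul_pow]
    field_simp
  rw [e]
  exact hv

variable [HasPrincipalDivisors Qb (modularFunctionFieldBar N)]

/-- **`ker (Ω_∞, Ω_W) ⊆ kBoth`** (given (PTH) and witnesses separating the Gauss valuation from
its `W`-twin): a `p`-torsion class killed by `Ω_∞` and `Ω_W` has ONE Kummer representative
`≡ 1` at both valuations. -/
theorem mem_kBoth_of_omega_eq_zero [NeZero N] {p : ℕ} (hp : p.Prime) (hA : A.LiesOverPrime p)
    (W : modularFunctionFieldBar N ≃ₐ[Qb] modularFunctionFieldBar N)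
    (hPth : Stmt_Pth A N p) (b c' : modularFunctionFieldBar N)
    (hb₁ : (gaussV A N).valuation b = 1) (hb₂ : (gaussV A N).valuation (W b) < 1)
    (hc₁ : (gaussV A N).valuation c' < 1) (hc₂ : (gaussV A N).valuation (W c') = 1)
    {x : JZero N} (hx : (p : ℤ) • x = 0) (h1 : omega A N p x = 0)
    (h2 : omegaAt A N W p x = 0) : x ∈ kBoth A N p W := by
  have hWr : ∀ y, ringHomOf N W y = W y := fun _ => rfl
  obtain ⟨u, hu, rfl⟩ := exists_kummerClass_eq hp.ne_zero (Pic0.mem_torsion.mpr hx)
  rw [omega_kummerClass hp hA hu] at h1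
  rw [omegaAt_kummerClass hp hA W hu] at h2
  obtain ⟨g₁, hg₁, hv₁⟩ := exists_pth_of_dlogRed_eq_zero hp.ne_zero hPth hu.ne_zero h1
  obtain ⟨g₂', hg₂', hv₂⟩ := exists_pth_of_dlogRed_eq_zero hp.ne_zero hPth
    ((map_ne_zero W).mpr hu.ne_zero) h2
  have hg₂ : W.symm g₂' ≠ 0 := (map_ne_zero W.symm).mpr hg₂'
  refine kummerClass_mem_kBothAbs_of_approx hp.ne_zero b c' hb₁ ?_ hc₁ ?_ ?_ ?_ hu hg₁ hg₂ hv₁ ?_
  · rw [valuation_comap_lt_one_iff, hWr]
    exact hb₂
  · rw [valuation_comap_eq_one_iff, hWr]
    exact hc₂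
  · intro d hd
    exact gaussV_arch hp A hA N hc₁ hd
  · intro d hd
    obtain ⟨k, hk⟩ := gaussV_arch hp A hA N hb₂ ((map_ne_zero W).mpr hd)
    refine ⟨k, ?_⟩
    rw [valuation_comap_lt_one_iff, hWr, map_div₀, map_pow]
    exact hk
  · rw [valuation_comap_lt_one_iff, hWr, map_sub, map_one, map_div₀, map_pow,
      AlgEquiv.apply_symm_apply]
    exact hv₂

/-- **`ker (Ω_∞, Ω_W) ∩ J₀(N)[p] = kBoth A N p W`** (given (PTH) and the witnesses). -/
theorem mem_kBoth_iff_omega_eq_zero [NeZero N] {p : ℕ} (hp : p.Prime) (hA : A.LiesOverPrime p)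
    (W : modularFunctionFieldBar N ≃ₐ[Qb] modularFunctionFieldBar N)
    (hPth : Stmt_Pth A N p) (b c' : modularFunctionFieldBar N)
    (hb₁ : (gaussV A N).valuation b = 1) (hb₂ : (gaussV A N).valuation (W b) < 1)
    (hc₁ : (gaussV A N).valuation c' < 1) (hc₂ : (gaussV A N).valuation (W c') = 1)
    {x : JZero N} :
    x ∈ kBoth A N p W ↔
      (p : ℤ) • x = 0 ∧ omega A N p x = 0 ∧ omegaAt A N W p x = 0 := by
  constructor
  · intro hx
    exact ⟨kBoth_le_torsion hx, omega_eq_zero_of_mem_kBoth hp hA hx⟩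
  · rintro ⟨hx, h1, h2⟩
    exact mem_kBoth_of_omega_eq_zero hp hA W hPth b c' hb₁ hb₂ hc₁ hc₂ hx h1 h2

/-- **`Ω_W x = Ω_∞ (W • x)`** on `J₀(N)[p]`. -/
theorem omegaAt_eq_omega_smul [NeZero N] {p : ℕ} (hp : p.Prime) (hA : A.LiesOverPrime p)
    (W : modularFunctionFieldBar N ≃ₐ[Qb] modularFunctionFieldBar N) {x : JZero N}
    (hx : (p : ℤ) • x = 0) : omegaAt A N W p x = omega A N p (W • x) := by
  obtain ⟨u, hu, rfl⟩ := exists_kummerClass_eq hp.ne_zero (Pic0.mem_torsion.mpr hx)
  rw [algEquiv_smul_kummerClass, omega_kummerClass hp hA (isKummer_algEquiv W hu),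
    omegaAt_kummerClass hp hA W hu]

end Kernel

/-! ### The instance `N = p * M`, `W = W_p` -/

section AtkinLehner

local notation "Qb" => AlgebraicClosure ℚ

open Fermat.Agent.S35.helper1219

variable {p M : ℕ} [NeZero p] [NeZero M] (h : Nat.Coprime p M)
  [HasPrincipalDivisors Qb (modularFunctionFieldBar (p * M))]

/-- At level `p * M` with the Atkin–Lehner involution `W_p`: given (PTH),
`kBoth A (p M) p W_p` is exactly the common kernel of `Ω_∞` and `Ω_0` on `J₀(p M)[p]`. -/
theorem mem_kBoth_atkinLehner_iff_omega_eq_zero (hp : p.Prime) {A : ValuationSubring Qb}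
    (hA : A.LiesOverPrime p) (hPth : Stmt_Pth A (p * M) p) {x : JZero (p * M)} :
    x ∈ kBoth A (p * M) p (atkinLehnerBar p M h) ↔
      (p : ℤ) • x = 0 ∧ omega A (p * M) p x = 0 ∧
        omegaAt A (p * M) (atkinLehnerBar p M h) p x = 0 := by
  obtain ⟨b, c', hb₁, hb₂, hc₁, hc₂⟩ := exists_witness A hp hA (p * M) (Dvd.intro M rfl)
    (atkinLehnerBar p M h) (atkinLehnerBar_swap h)
  exact mem_kBoth_iff_omega_eq_zero hp hA (atkinLehnerBar p M h) hPth b c' hb₁ hb₂ hc₁ hc₂

/-- `Ω_0` is invariant under the inertia group (the Atkin–Lehner involution commutes with the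
coefficientwise Galois action). -/
theorem omegaAt_atkinLehner_inertia (hp : p.Prime) {A : ValuationSubring Qb}
    (hA : A.LiesOverPrime p) {τ : Qb ≃ₐ[ℚ] Qb} (hτ : τ ∈ A.inertiaSubgroupIn ℚ)
    {x : JZero (p * M)} (hx : (p : ℤ) • x = 0) :
    omegaAt A (p * M) (atkinLehnerBar p M h) p (τ • x) =
      omegaAt A (p * M) (atkinLehnerBar p M h) p x :=
  omegaAt_inertia hp hA (atkinLehnerBar p M h) hτ
    (atkinLehnerBar_arithmeticGalois_smul p M h τ) hx

end AtkinLehner

/-! ### The decomposition group -/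

section Decomp

variable {L : Type*} [Field L] [Algebra ℚ L] (A : ValuationSubring L)

/-- The automorphism of the residue field of `A` induced by an element of its decomposition
group. -/
def resDecomp (g : A.decompositionSubgroup ℚ) :
    IsLocalRing.ResidueField A →+* IsLocalRing.ResidueField A :=
  MulSemiringAction.toRingHom (A.decompositionSubgroup ℚ) (IsLocalRing.ResidueField A) g

theorem residue_decompRingHom (g : A.decompositionSubgroup ℚ) (a : A) :
    IsLocalRing.residue A (decompRingHom A g a) = resDecomp A g (IsLocalRing.residue A a) :=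
  rfl

theorem red_coeffMap_decomp (g : A.decompositionSubgroup ℚ) (X : LaurentSeries A) :
    helper8991.red A (IsLocalRing.residue A) (coeffMap (decompRingHom A g) X) =
      coeffMap (resDecomp A g) (helper8991.red A (IsLocalRing.residue A) X) := by
  ext n
  rfl

/-- `θ` commutes with coefficientwise ring homomorphisms (`coeffMap` form). -/
theorem thetaFun_coeffMap {R S : Type*} [CommRing R] [CommRing S] (φ : R →+* S)
    (f : LaurentSeries R) : thetaFun S (coeffMap φ f) = coeffMap φ (thetaFun R f) := by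
  ext n
  rw [thetaFun_coeff, coeffMap_coeff, coeffMap_coeff, thetaFun_coeff, map_mul, map_intCast]

/-- **The decomposition group acts on the reduction of the Gauss ring through the residue
field**: `red (σ x) = σ̄ (red x)` coefficientwise. -/
theorem gaussF_decomp (N : ℕ) (g : A.decompositionSubgroup ℚ)
    (x : laurentBaseChange L (modularFunctionFieldFull N))
    (hx : x ∈ helper8991.gaussF A (IsLocalRing.residue A) N) :
    ∃ hx' : arithmeticGalois (modularFunctionFieldFull N)
        ((A.decompositionSubgroup ℚ).subtype g) • x ∈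
        helper8991.gaussF A (IsLocalRing.residue A) N,
      helper8991.gaussFRed A (IsLocalRing.residue A) N ⟨_, hx'⟩ =
        coeffMap (resDecomp A g) (helper8991.gaussFRed A (IsLocalRing.residue A) N ⟨x, hx⟩) := by
  obtain ⟨X, Y, hY, hXY⟩ := (helper8991.mem_gaussF_iff A (IsLocalRing.residue A) N x).mp hx
  have hY' : helper8991.red A (IsLocalRing.residue A) (coeffMap (decompRingHom A g) Y) ≠ 0 :=
    fun h0 => hY ((red_coeffMap_decomp_eq_zero_iff A g Y).mp h0)
  have h' : ((arithmeticGalois (modularFunctionFieldFull N)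
        ((A.decompositionSubgroup ℚ).subtype g) • x :
          laurentBaseChange L (modularFunctionFieldFull N)) : LaurentSeries L) *
        helper8991.inc A (coeffMap (decompRingHom A g) Y) =
      helper8991.inc A (coeffMap (decompRingHom A g) X) := by
    rw [inc_coeffMap_decomp, inc_coeffMap_decomp, ← hXY, map_mul]
    rfl
  have hx' : arithmeticGalois (modularFunctionFieldFull N)
      ((A.decompositionSubgroup ℚ).subtype g) • x ∈
        helper8991.gaussF A (IsLocalRing.residue A) N :=
    (helper8991.mem_gaussF_iff A (IsLocalRing.residue A) N _).mpr ⟨_, _, hY', h'⟩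
  refine ⟨hx', ?_⟩
  rw [helper8991.gaussFRed_eq A (IsLocalRing.residue A) N ⟨_, hx'⟩ hY' h',
    helper8991.gaussFRed_eq A (IsLocalRing.residue A) N ⟨x, hx⟩ hY hXY,
    red_coeffMap_decomp, red_coeffMap_decomp, map_div₀]

/-- **`dlogRed` is semilinear for the decomposition group**:
`dlogRed (σ f) = σ̄ (dlogRed f)` coefficientwise. -/
theorem dlogRed_decomp (N : ℕ) (g : A.decompositionSubgroup ℚ)
    (f : ↥(laurentBaseChange L (modularFunctionFieldFull N))) :
    dlogRed A N (arithmeticGalois (modularFunctionFieldFull N)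
        ((A.decompositionSubgroup ℚ).subtype g) • f) =
      coeffMap (resDecomp A g) (dlogRed A N f) := by
  rcases eq_or_ne f 0 with rfl | hf
  · rw [smul_zero, dlogRed_zero, map_zero]
  obtain ⟨c, u, hc, hu, rfl⟩ :=
    helper8991.exists_const_mul_unit_F A (IsLocalRing.residue A) N f hf
  obtain ⟨hmem, hred⟩ := gaussF_decomp A N g u u.2
  have hu' : helper8991.gaussFRed A (IsLocalRing.residue A) N ⟨_, hmem⟩ ≠ 0 := by
    rw [hred]
    exact (map_ne_zero (coeffMap (resDecomp A g))).mpr hu
  have e : arithmeticGalois (modularFunctionFieldFull N)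
        ((A.decompositionSubgroup ℚ).subtype g) •
      (algebraMap L ↥(laurentBaseChange L (modularFunctionFieldFull N)) c *
        (u : ↥(laurentBaseChange L (modularFunctionFieldFull N)))) =
      algebraMap L ↥(laurentBaseChange L (modularFunctionFieldFull N))
          ((A.decompositionSubgroup ℚ).subtype g c) *
        ((⟨_, hmem⟩ : ↥(helper8991.gaussF A (IsLocalRing.residue A) N)) :
          ↥(laurentBaseChange L (modularFunctionFieldFull N))) := by
    rw [smul_mul', SemilinearAut.smul_algebraMap]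
    rfl
  rw [e, dlogRed_eq A N ((map_ne_zero _).mpr hc) hu' rfl, dlogRed_eq A N hc hu rfl]
  unfold dlogU
  rw [hred, thetaFun_coeffMap, map_div₀]

end Decomp

section OmegaDecomp

local notation "Qb" => AlgebraicClosure ℚ

variable {A : ValuationSubring Qb} {N : ℕ}
  [HasPrincipalDivisors Qb (modularFunctionFieldBar N)]

/-- **`Ω_W` is semilinear for the decomposition group of `A`** (for `W` commuting with the
coefficientwise Galois action). -/
theorem omegaAt_decomp [NeZero N] {p : ℕ} (hp : p.Prime) (hA : A.LiesOverPrime p)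
    (W : modularFunctionFieldBar N ≃ₐ[Qb] modularFunctionFieldBar N)
    (g : A.decompositionSubgroup ℚ)
    (hWσ : ∀ x : modularFunctionFieldBar N,
      W (arithmeticGalois (modularFunctionFieldFull N)
          ((A.decompositionSubgroup ℚ).subtype g) • x) =
        arithmeticGalois (modularFunctionFieldFull N)
          ((A.decompositionSubgroup ℚ).subtype g) • W x)
    {x : JZero N} (hx : (p : ℤ) • x = 0) :
    omegaAt A N W p ((A.decompositionSubgroup ℚ).subtype g • x) =
      coeffMap (resDecomp A g) (omegaAt A N W p x) := by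
  obtain ⟨u, hu, rfl⟩ := exists_kummerClass_eq hp.ne_zero (Pic0.mem_torsion.mpr hx)
  rw [galois_smul_kummerClass, omegaAt_kummerClass hp hA W ((isKummer_smul_iff _).mpr hu),
    omegaAt_kummerClass hp hA W hu, hWσ, dlogRed_decomp A N g]

/-- The kernel of `Ω_W` on `J₀(N)[p]` is stable under the decomposition group of `A`. -/
theorem omegaAt_decomp_eq_zero_iff [NeZero N] {p : ℕ} (hp : p.Prime) (hA : A.LiesOverPrime p)
    (W : modularFunctionFieldBar N ≃ₐ[Qb] modularFunctionFieldBar N)
    {σ : Qb ≃ₐ[ℚ] Qb} (hσ : σ ∈ A.decompositionSubgroup ℚ)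
    (hWσ : ∀ x : modularFunctionFieldBar N,
      W (arithmeticGalois (modularFunctionFieldFull N) σ • x) =
        arithmeticGalois (modularFunctionFieldFull N) σ • W x)
    {x : JZero N} (hx : (p : ℤ) • x = 0) :
    omegaAt A N W p (σ • x) = 0 ↔ omegaAt A N W p x = 0 := by
  have h := omegaAt_decomp hp hA W ⟨σ, hσ⟩ hWσ hx
  have e : (A.decompositionSubgroup ℚ).subtype ⟨σ, hσ⟩ • x = σ • x := rfl
  rw [e] at h
  rw [h]
  exact map_eq_zero (coeffMap (resDecomp A ⟨σ, hσ⟩))

end OmegaDecomp

/-! ### Independence of the level -/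

section Level

variable {L : Type*} [Field L] [Algebra ℚ L] (A : ValuationSubring L)

/-- **`dlogRed` only depends on the `q`-expansion**, not on the level at which the function is
considered (so it is compatible with every inclusion of function fields `F_N ⊆ F_{N'}`). -/
theorem dlogRed_eq_of_coe_eq {N N' : ℕ}
    (f : ↥(laurentBaseChange L (modularFunctionFieldFull N)))
    (f' : ↥(laurentBaseChange L (modularFunctionFieldFull N')))
    (h : (f : LaurentSeries L) = (f' : LaurentSeries L)) : dlogRed A N f = dlogRed A N' f' := by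
  rcases eq_or_ne f 0 with rfl | hf
  · have h0 : (f' : LaurentSeries L) = 0 := by rw [← h, ZeroMemClass.coe_zero]
    have hf' : f' = 0 := ZeroMemClass.coe_eq_zero.mp h0
    rw [hf', dlogRed_zero, dlogRed_zero]
  obtain ⟨c, u, hc, hu, hfu⟩ :=
    helper8991.exists_const_mul_unit_F A (IsLocalRing.residue A) N f hf
  have hcF' : algebraMap L ↥(laurentBaseChange L (modularFunctionFieldFull N')) c ≠ 0 :=
    (map_ne_zero _).mpr hc
  have hcS : (algebraMap L (LaurentSeries L) c) ≠ 0 := (map_ne_zero _).mpr hc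
  -- the level-`N'` twin of `u`
  have hv : ((f' / algebraMap L ↥(laurentBaseChange L (modularFunctionFieldFull N')) c :
      ↥(laurentBaseChange L (modularFunctionFieldFull N'))) : LaurentSeries L) =
      ((u : ↥(laurentBaseChange L (modularFunctionFieldFull N))) : LaurentSeries L) := by
    have h1 : ((f' / algebraMap L ↥(laurentBaseChange L (modularFunctionFieldFull N')) c :
        ↥(laurentBaseChange L (modularFunctionFieldFull N'))) : LaurentSeries L) =
        (f' : LaurentSeries L) / algebraMap L (LaurentSeries L) c := by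
      rw [IntermediateField.coe_div, IntermediateField.coe_algebraMap_apply]
    have h2 : (f : LaurentSeries L) = algebraMap L (LaurentSeries L) c *
        ((u : ↥(laurentBaseChange L (modularFunctionFieldFull N))) : LaurentSeries L) := by
      rw [hfu, IntermediateField.coe_mul, IntermediateField.coe_algebraMap_apply]
    rw [h1, ← h, h2, mul_div_cancel_left₀ _ hcS]
  obtain ⟨X, Y, hY, hXY⟩ := (helper8991.mem_gaussF_iff A (IsLocalRing.residue A) N u).mp u.2
  have hXY' : ((f' / algebraMap L ↥(laurentBaseChange L (modularFunctionFieldFull N')) c :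
      ↥(laurentBaseChange L (modularFunctionFieldFull N'))) : LaurentSeries L) *
      helper8991.inc A Y = helper8991.inc A X := by
    rw [hv]
    exact hXY
  have hmem : f' / algebraMap L ↥(laurentBaseChange L (modularFunctionFieldFull N')) c ∈
      helper8991.gaussF A (IsLocalRing.residue A) N' :=
    (helper8991.mem_gaussF_iff A (IsLocalRing.residue A) N' _).mpr ⟨X, Y, hY, hXY'⟩
  have hred : helper8991.gaussFRed A (IsLocalRing.residue A) N' ⟨_, hmem⟩ =
      helper8991.gaussFRed A (IsLocalRing.residue A) N u := by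
    rw [helper8991.gaussFRed_eq A (IsLocalRing.residue A) N' ⟨_, hmem⟩ hY hXY',
      helper8991.gaussFRed_eq A (IsLocalRing.residue A) N u hY hXY]
  have hu' : helper8991.gaussFRed A (IsLocalRing.residue A) N' ⟨_, hmem⟩ ≠ 0 := by
    rw [hred]
    exact hu
  have hf'u : f' = algebraMap L ↥(laurentBaseChange L (modularFunctionFieldFull N')) c *
      ((⟨_, hmem⟩ : ↥(helper8991.gaussF A (IsLocalRing.residue A) N')) :
        ↥(laurentBaseChange L (modularFunctionFieldFull N'))) := by
    show f' = _ * (f' / _)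
    rw [mul_div_cancel₀ _ hcF']
  rw [dlogRed_eq A N hc hu hfu, dlogRed_eq A N' hc hu' hf'u]
  unfold dlogU
  rw [hred]

end Level

section OmegaLevel

local notation "Qb" => AlgebraicClosure ℚ

/-- **`Ω_∞` is independent of the level**: Kummer functions with the same `q`-expansion at two
levels have the same `Ω_∞` (e.g. `h` and its image under an inclusion `F_N ⊆ F_{N'}`). -/
theorem omega_kummerClass_eq_of_coe_eq {A : ValuationSubring Qb} {N N' : ℕ} [NeZero N]
    [NeZero N'] [HasPrincipalDivisors Qb (modularFunctionFieldBar N)]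
    [HasPrincipalDivisors Qb (modularFunctionFieldBar N')] {p : ℕ} (hp : p.Prime)
    (hA : A.LiesOverPrime p) {h : modularFunctionFieldBar N} {h' : modularFunctionFieldBar N'}
    (hk : IsKummer Qb p h) (hk' : IsKummer Qb p h')
    (e : (h : LaurentSeries Qb) = (h' : LaurentSeries Qb)) :
    omega A N p (kummerClass Qb p h) = omega A N' p (kummerClass Qb p h') := by
  rw [omega_kummerClass hp hA hk, omega_kummerClass hp hA hk']
  exact dlogRed_eq_of_coe_eq A h h' e

end OmegaLevel

end

end Fermat.Agent.S44.helper3511
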