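/-
S44 seam (T2) (helper3511): `Stmt_OmegaExists` of the top Spec `helper3130_Spec`, and the bridge
between the Spec vocabulary (`IsKummerFn`, `IsOmega`) and the Omega library
(`S29.helper8217.IsKummer` / `kummerClass`, `helper3511.dlogRed` / `omega`).

* `isKummerFn_kummerClass`, `isKummer_of_isKummerFn`, `isKummerFn_iff` : `IsKummerFn N n c h` iff
  `h` is an `n`-Kummer element with Kummer class `c` (`n ≠ 0`).
* `isOmega_omega` : `IsOmega A N p c (omega A N p c)` for every `p`-torsion class `c`.
* `eq_omega_of_isOmega`, `isOmega_iff` : `IsOmega A N p c G ↔ p • c = 0 ∧ G = omega A N p c`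
  (the relation of the Spec determines `G`).
* `seam_T2 : helper3130.Stmt_OmegaExists`.
-/
import Fermat.Agent.S44.helper3130_Spec
import Fermat.Agent.S44.helper3511_Omega

set_option autoImplicit false

namespace Fermat.Agent.S44.helper3511

open AlgebraicCurve ModularCurve
open Fermat.Agent.S29.helper8217
open Fermat.Agent.S34.helper584
open Fermat.Agent.S18
open Fermat.Agent.Lib.helper9242
open Fermat.Agent.S35.helper882

noncomputable section

local notation "Qb" => AlgebraicClosure ℚ

/-! ### Kummer functions: Spec vocabulary vs. `S29.helper8217` -/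

section KummerBridge

variable {N : ℕ} [NeZero N] [HasPrincipalDivisors Qb (modularFunctionFieldBar N)]

/-- An `n`-Kummer element is a Kummer function (Spec vocabulary) of its Kummer class. -/
theorem isKummerFn_kummerClass {n : ℕ} {h : modularFunctionFieldBar N} (hk : IsKummer Qb n h) :
    Fermat.Agent.S44.helper3130.IsKummerFn N n (kummerClass Qb n h) h := by
  refine ⟨hk.ne_zero, ⟨kummerDivisor Qb n h, kummerDivisor_mem_degZero hk⟩,
    (kummerClass_eq_mk hk).symm, fun v => ?_⟩
  show v.ord h = (n : ℤ) * kummerDivisor Qb n h v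
  rw [kummerDivisor_apply, hk.mul_ediv_cancel v]

/-- A Kummer function (Spec vocabulary) of `c` is an `n`-Kummer element with Kummer class `c`. -/
theorem isKummer_of_isKummerFn {n : ℕ} (hn : n ≠ 0) {c : JZero N}
    {h : modularFunctionFieldBar N} (hf : Fermat.Agent.S44.helper3130.IsKummerFn N n c h) :
    IsKummer Qb n h ∧ kummerClass Qb n h = c := by
  obtain ⟨h0, D, rfl, hD⟩ := hf
  obtain ⟨hk, hdiv⟩ := isKummer_of_zsmul_eq (K := Qb) hn h0 (fun v => (hD v).symm)
  exact ⟨hk, kummerClass_eq_mk_of_eq hk D hdiv.symm⟩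

theorem isKummerFn_iff {n : ℕ} (hn : n ≠ 0) {c : JZero N} {h : modularFunctionFieldBar N} :
    Fermat.Agent.S44.helper3130.IsKummerFn N n c h ↔
      IsKummer Qb n h ∧ kummerClass Qb n h = c := by
  constructor
  · exact isKummer_of_isKummerFn hn
  · rintro ⟨hk, rfl⟩
    exact isKummerFn_kummerClass hk

end KummerBridge

/-! ### Gauss units -/

section GaussUnit

variable (A : ValuationSubring Qb) (N : ℕ)

/-- A unit of the Gauss ring (nonzero reduction) has Gauss valuation `1`. -/
theorem valuation_eq_one_of_gaussFRed_ne_zero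
    (u : ↥(helper8991.gaussF A (IsLocalRing.residue A) N))
    (hu : helper8991.gaussFRed A (IsLocalRing.residue A) N u ≠ 0) :
    (gpRing A N).valuation (u : modularFunctionFieldBar N) = 1 := by
  have hle : (gpRing A N).valuation (u : modularFunctionFieldBar N) ≤ 1 :=
    (ValuationSubring.valuation_le_one_iff _ _).mpr u.2
  refine le_antisymm hle (not_lt.mp fun hlt => hu ?_)
  rw [helper8991.gaussFRed_eq_zero_iff]
  exact (ValuationSubring.valuation_lt_one_iff (gpRing A N) u).mpr hlt

/-- A function of Gauss valuation `1` is a unit of the Gauss ring. -/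
theorem gaussFRed_ne_zero_of_valuation_eq_one {h : modularFunctionFieldBar N}
    (hv : (gpRing A N).valuation h = 1) :
    ∃ hmem : h ∈ helper8991.gaussF A (IsLocalRing.residue A) N,
      helper8991.gaussFRed A (IsLocalRing.residue A) N ⟨h, hmem⟩ ≠ 0 := by
  have hmem : h ∈ helper8991.gaussF A (IsLocalRing.residue A) N :=
    (ValuationSubring.valuation_le_one_iff _ _).mp hv.le
  refine ⟨hmem, fun h0 => ?_⟩
  rw [helper8991.gaussFRed_eq_zero_iff] at h0
  have hlt := (ValuationSubring.valuation_lt_one_iff (gpRing A N) ⟨h, hmem⟩).mp h0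
  rw [show ((⟨h, hmem⟩ : ↥(gpRing A N)) : modularFunctionFieldBar N) = h from rfl, hv] at hlt
  exact lt_irrefl _ hlt

end GaussUnit

/-! ### `IsOmega` and `omega` -/

section Seam

variable {A : ValuationSubring Qb} {N : ℕ} [NeZero N]
  [HasPrincipalDivisors Qb (modularFunctionFieldBar N)]

omit [NeZero N] in
/-- Every `p`-torsion class has a Kummer function which is a unit of the Gauss ring. -/
theorem exists_gaussUnit_kummer {p : ℕ} (hp : p ≠ 0) {c : JZero N} (hc : (p : ℤ) • c = 0) :
    ∃ u : ↥(helper8991.gaussF A (IsLocalRing.residue A) N),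
      helper8991.gaussFRed A (IsLocalRing.residue A) N u ≠ 0 ∧
      IsKummer Qb p (u : modularFunctionFieldBar N) ∧
      kummerClass Qb p (u : modularFunctionFieldBar N) = c := by
  obtain ⟨f, hf, rfl⟩ := exists_kummerClass_eq hp (Pic0.mem_torsion.mpr hc)
  obtain ⟨a, u, ha, hu, hfu⟩ :=
    helper8991.exists_const_mul_unit_F A (IsLocalRing.residue A) N f hf.ne_zero
  have haF : algebraMap Qb (modularFunctionFieldBar N) a ≠ 0 := (map_ne_zero _).mpr ha
  have hav : ∀ v : Place Qb (modularFunctionFieldBar N),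
      v.ord (algebraMap Qb (modularFunctionFieldBar N) a) = 0 := fun v => ord_algebraMap v a
  have hku : IsKummer Qb p (u : modularFunctionFieldBar N) := by
    have h1 := hf.div (isKummer_of_ord_eq_zero (K := Qb) p haF hav)
    rwa [hfu, mul_div_cancel_left₀ _ haF] at h1
  refine ⟨u, hu, hku, ?_⟩
  rw [hfu, kummerClass_mul_of_ord_eq_zero haF hav hku]

/-- **`Ω_∞ c` is a residual logarithmic derivative of `c`** in the sense of the Spec. -/
theorem isOmega_omega {p : ℕ} (hp : p.Prime) (hA : A.LiesOverPrime p) {c : JZero N}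
    (hc : (p : ℤ) • c = 0) :
    Fermat.Agent.S44.helper3130.IsOmega A N p c (omega A N p c) := by
  obtain ⟨u, hu, hku, rfl⟩ := exists_gaussUnit_kummer (A := A) hp.ne_zero hc
  refine ⟨u, isKummerFn_kummerClass hku, valuation_eq_one_of_gaussFRed_ne_zero A N u hu,
    fun n => ?_⟩
  have hρ : gpRho A N (u : modularFunctionFieldBar N) =
      helper8991.gaussFRed A (IsLocalRing.residue A) N u := gpRho_of_mem A N u.2
  rw [hρ, omega_kummerClass hp hA hku, dlogRed_mul_red A N u hu, thetaFun_coeff]

/-- **Uniqueness**: the relation of the Spec determines `G = Ω_∞ c`. -/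
theorem eq_omega_of_isOmega {p : ℕ} (hp : p.Prime) (hA : A.LiesOverPrime p) {c : JZero N}
    {G : LaurentSeries (IsLocalRing.ResidueField A)}
    (hG : Fermat.Agent.S44.helper3130.IsOmega A N p c G) : G = omega A N p c := by
  obtain ⟨h, hkf, hv, hrel⟩ := hG
  obtain ⟨hk, rfl⟩ := isKummer_of_isKummerFn hp.ne_zero hkf
  obtain ⟨hmem, hne⟩ := gaussFRed_ne_zero_of_valuation_eq_one A N hv
  have hρ : gpRho A N h = helper8991.gaussFRed A (IsLocalRing.residue A) N ⟨h, hmem⟩ :=
    gpRho_of_mem A N hmem
  rw [hρ] at hrel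
  have hθ : G * helper8991.gaussFRed A (IsLocalRing.residue A) N ⟨h, hmem⟩ =
      thetaFun (IsLocalRing.ResidueField A)
        (helper8991.gaussFRed A (IsLocalRing.residue A) N ⟨h, hmem⟩) := by
    ext n
    rw [hrel n, thetaFun_coeff]
  have h1 := dlogRed_mul_red A N ⟨h, hmem⟩ hne
  rw [omega_kummerClass hp hA hk]
  have h2 : dlogRed A N h * helper8991.gaussFRed A (IsLocalRing.residue A) N ⟨h, hmem⟩ =
      G * helper8991.gaussFRed A (IsLocalRing.residue A) N ⟨h, hmem⟩ := by
    rw [hθ]
    exact h1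
  exact (mul_right_cancel₀ hne h2).symm

/-- A class with a residual logarithmic derivative (Spec) is `p`-torsion. -/
theorem zsmul_eq_zero_of_isOmega {p : ℕ} (hp : p ≠ 0) {c : JZero N}
    {G : LaurentSeries (IsLocalRing.ResidueField A)}
    (hG : Fermat.Agent.S44.helper3130.IsOmega A N p c G) : (p : ℤ) • c = 0 := by
  obtain ⟨h, hkf, -, -⟩ := hG
  obtain ⟨-, rfl⟩ := isKummer_of_isKummerFn hp hkf
  exact zsmul_kummerClass p h

/-- **`IsOmega A N p c G ↔ p c = 0 ∧ G = Ω_∞ c`.** -/
theorem isOmega_iff {p : ℕ} (hp : p.Prime) (hA : A.LiesOverPrime p) {c : JZero N}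
    {G : LaurentSeries (IsLocalRing.ResidueField A)} :
    Fermat.Agent.S44.helper3130.IsOmega A N p c G ↔ (p : ℤ) • c = 0 ∧ G = omega A N p c := by
  constructor
  · intro hG
    exact ⟨zsmul_eq_zero_of_isOmega hp.ne_zero hG, eq_omega_of_isOmega hp hA hG⟩
  · rintro ⟨hc, rfl⟩
    exact isOmega_omega hp hA hc

/-- `IsOmega A N p c 0` (Spec) iff `c` is `p`-torsion with `Ω_∞ c = 0`. -/
theorem isOmega_zero_iff {p : ℕ} (hp : p.Prime) (hA : A.LiesOverPrime p) {c : JZero N} :
    Fermat.Agent.S44.helper3130.IsOmega A N p c 0 ↔ (p : ℤ) • c = 0 ∧ omega A N p c = 0 := by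
  rw [isOmega_iff hp hA]
  exact and_congr_right fun _ => eq_comm

end Seam

/-- **Seam (T2)**: every `p`-torsion class has a residual logarithmic derivative. -/
theorem seam_T2 : Fermat.Agent.S44.helper3130.Stmt_OmegaExists := by
  intro p hp N _ A hA c hc
  have hc' : (p : ℤ) • c = 0 := by rw [natCast_zsmul]; exact hc
  exact ⟨omega A N p c, isOmega_omega hp hA hc'⟩

end

end Fermat.Agent.S44.helper3511
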