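/-
S44 seam (T8) (helper3511): `Stmt_OmegaHecke` of the top Spec `helper3130_Spec`.

`IsOmega A N p c G` forces `G = Ω_∞ c` (`helper3511_SeamT2.eq_omega_of_isOmega`), and `Ω_∞`
intertwines `T_ℓ` on `J₀(N)[p]` with the weight-two Hecke operator on `q`-expansions
(`helper3511_OmegaHeckeInst.omega_coeff_of_eigen_of_not_dvd`, on `helper1022_TlRed` (RED-COMM) and
`helper4264_HeckeDlog`).
-/
import Fermat.Agent.S44.helper3511_SeamT2
import Fermat.Agent.S44.helper3511_OmegaHeckeInst

set_option autoImplicit false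

namespace Fermat.Agent.S44.helper3511

open AlgebraicCurve ModularCurve

/-- **Seam (T8)**: `Ω` intertwines `T_ℓ` on `J₀(N)` with the formal weight-2 Hecke operator. -/
theorem seam_T8 : Fermat.Agent.S44.helper3130.Stmt_OmegaHecke := by
  intro p hp N _ A hA c hc ℓ hℓ hℓN hℓp a he G hG n
  have hc' : (p : ℤ) • c = 0 := by rw [natCast_zsmul]; exact hc
  have hGe := eq_omega_of_isOmega hp hA hG
  have key := omega_coeff_of_eigen_of_not_dvd hp hA ℓ hℓ hℓN hℓp hc' a he n
  rw [hGe, mul_comm n ℓ]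
  by_cases hd : ℓ ∣ n
  · rw [if_pos hd] at key ⊢
    exact key
  · rw [if_neg hd] at key ⊢
    rw [mul_zero] at key
    exact key

end Fermat.Agent.S44.helper3511
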