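/-
S44, registry leaf L1-GEOM-P (helper3630): the instance of the landed S35/S34 two-valuation +
nodal geometry module at the residue characteristic itself (`q = p`), level `p * M`, in the
`(ℚ̄, A)`-form.

The landed S34 instance file (`Fermat.Agent.S34.helper2423_NodalInst`) discharges every binder of
the abstract function-field theorem `Fermat.Agent.S35.helper603.twisted_lattice_of_components` at
the concrete objects

* generic fibre `F = modularFunctionFieldBar (q * M)` over `ℚ̄`;
* `v = gpVal A (q * M) (atkinLehnerBar q M h')` (the Gauss valuation at `∞` and its Atkin-Lehner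
  twist), `vL = gpBase A (q * M)`, `red = gpRed A (q * M) (atkinLehnerBar q M h')`;
* special fibre: `kk = ResidueField A`, both components `modularFunctionFieldFullC kk M`,
  `jj = fibreIncl kk M`;

and none of these uses a hypothesis relating `q` to a torsion modulus.  This file repackages
that instance so that ANY abstract theorem stated on the binder list of
`twisted_lattice_of_components` (the wild count of S44 step (1), the twisted counts of step (4),
the order comparison of step (5)) can be instantiated at `q = p` in one line: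

* (G2) the chart-independent binders as named lemmas `geom_*`;
* (G1) `GeomData q M h' A`: the chart / node binders as a structure, and
  `nonempty_geomData : Stmt_ChartNodes q M h' A → Nonempty (GeomData q M h' A)`
  (`Stmt_ChartNodes` is the one geometric Prop of the S35/S34 chain);
* (G3) `GeomData.twisted_lattice`: the landed theorem (E3) at these binders, for every modulus
  `n ≠ 0` (in particular `n = q`), together with the genus formula
  `g(F) + 1 = 2 g(F_k(M)) + #nodes` and `deg E1 = d₁ + d₂`.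
-/
import Mathlib
import Fermat.Agent.S34.helper2423_NodalInst

set_option autoImplicit false

namespace Fermat.Agent.S44.helper3630

open AlgebraicCurve ModularCurve
open Fermat.Agent.S29.helper8217
open Fermat.Agent.S34.helper584
open Fermat.Agent.S35.helper1219
open Fermat.Agent.S35.helper603 (valueAt nodeRing evalAt pairRR glued nodeInclAlg IsNodalRR)
open Fermat.Agent.S35.helper882 (gpVal gpBase gpRed gpRing)
open Fermat.Agent.S35.helper1928 (fibreIncl)

local notation "Qb" => AlgebraicClosure ℚ

noncomputable section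

/-! ### (G2) The chart-independent binders at the level `q * M` -/

section Fixed

variable {q M : ℕ} [NeZero q] [NeZero M]

omit [NeZero q] [NeZero M] in
/-- `q ∤ M` from coprimality. -/
theorem geom_not_dvd (h' : Nat.Coprime q M) (hq : q.Prime) : ¬ q ∣ M :=
  (Nat.Prime.coprime_iff_not_dvd hq).mp h'

/-- The level `q * M` is nonzero. -/
theorem geom_neZero_level (q M : ℕ) [NeZero q] [NeZero M] : NeZero (q * M) :=
  ⟨mul_ne_zero (NeZero.ne q) (NeZero.ne M)⟩

/-- Generic fibre: principal divisors. -/
theorem geom_hasPrincipalDivisors (q M : ℕ) [NeZero q] [NeZero M] :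
    HasPrincipalDivisors Qb (modularFunctionFieldBar (q * M)) :=
  have := geom_neZero_level q M
  Fermat.Agent.S37.helper5162.hasPrincipalDivisors_FN (q * M)

/-- Generic fibre: every place has degree one (binder `hdegK`). -/
theorem geom_hdegK (q M : ℕ) [NeZero q] [NeZero M] :
    ∀ w : Place Qb (modularFunctionFieldBar (q * M)), w.deg = 1 :=
  have := geom_neZero_level q M
  Fermat.Agent.S37.helper5162.place_deg_eq_one (q * M)

/-- Generic fibre: Riemann bound (binder `hRBK`). -/
theorem geom_hRBK (q M : ℕ) [NeZero q] [NeZero M] :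
    Fermat.Agent.S18.helper981.HasRiemannBound Qb (modularFunctionFieldBar (q * M)) :=
  have := geom_neZero_level q M
  Fermat.Agent.S37.helper6267.hasRiemannBound_FN (q * M)

/-- Generic fibre: a base place (binder `P₀`), the cusp `∞`. -/
def geomP0 (q M : ℕ) [NeZero q] [NeZero M] : Place Qb (modularFunctionFieldBar (q * M)) :=
  have := geom_neZero_level q M
  Fermat.Agent.S29.helper36.qPlaceL Qb (q * M)

/-- The reduction datum of the pair of Gauss valuations (binder `hred`). -/
theorem geom_hred (h' : Nat.Coprime q M) (A : ValuationSubring Qb) :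
    Fermat.Agent.S35.helper2459.RedDataW (gpVal A (q * M) (atkinLehnerBar q M h'))
      (fun _ => (1 : (gpRing A (q * M)).ValueGroup)) (gpBase A (q * M))
      (IsLocalRing.ResidueField A) (gpRed A (q * M) (atkinLehnerBar q M h'))
      (gpRed A (q * M) (atkinLehnerBar q M h')) :=
  Fermat.Agent.S35.helper882.gpRedData A (q * M) (atkinLehnerBar q M h')

/-- Constants of `A` reduce to constants (binder `hconst`). -/
theorem geom_hconst (h' : Nat.Coprime q M) (A : ValuationSubring Qb) :
    ∀ c : Qb, gpBase A (q * M) c ≤ 1 →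
      ∃ κ : IsLocalRing.ResidueField A,
        gpRed A (q * M) (atkinLehnerBar q M h')
            (algebraMap Qb (modularFunctionFieldBar (q * M)) c) =
          algebraMap (IsLocalRing.ResidueField A)
            (LaurentSeries (IsLocalRing.ResidueField A) ×
              LaurentSeries (IsLocalRing.ResidueField A)) κ :=
  Fermat.Agent.S34.helper2423.gpRed_const A (q * M) (atkinLehnerBar q M h')

/-- Every finite-dimensional `ℚ̄`-subspace of the generic fibre is cartesian for the pair of
Gauss valuations (weights `1`). -/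
theorem geom_hcart_submodule (h' : Nat.Coprime q M) (hq : q.Prime) (A : ValuationSubring Qb)
    (hA : A.LiesOverPrime q) (S : Submodule Qb (modularFunctionFieldBar (q * M)))
    [FiniteDimensional Qb S] :
    Fermat.Agent.S35.helper2459.CartesianW (gpVal A (q * M) (atkinLehnerBar q M h'))
      (fun _ => (1 : (gpRing A (q * M)).ValueGroup)) (gpBase A (q * M)) S :=
  have : Fact q.Prime := ⟨hq⟩
  Fermat.Agent.S35.helper882.gp_cartesianW q M (geom_not_dvd h' hq) A hA S

/-- Every Riemann-Roch space of the generic fibre is finite-dimensional. -/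
theorem geom_finite_rr (q M : ℕ) [NeZero q] [NeZero M]
    (D : Divisor Qb (modularFunctionFieldBar (q * M))) :
    FiniteDimensional Qb (riemannRochSpace D) :=
  have := geom_hasPrincipalDivisors q M
  Fermat.Agent.S18.helper981.finite_riemannRochSpace (geom_hdegK q M) (geomP0 q M) D

/-- Every Riemann-Roch space of the generic fibre is cartesian (binder `hcart`). -/
theorem geom_hcart (h' : Nat.Coprime q M) (hq : q.Prime) (A : ValuationSubring Qb)
    (hA : A.LiesOverPrime q) :
    ∀ D : Divisor Qb (modularFunctionFieldBar (q * M)),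
      Fermat.Agent.S35.helper2459.CartesianW (gpVal A (q * M) (atkinLehnerBar q M h'))
        (fun _ => (1 : (gpRing A (q * M)).ValueGroup)) (gpBase A (q * M))
        (riemannRochSpace D) := fun D =>
  haveI := geom_finite_rr q M D
  geom_hcart_submodule h' hq A hA (riemannRochSpace D)

/-- The inclusion of the two components is injective (binder `hjj`). -/
theorem geom_hjj (M : ℕ) (A : ValuationSubring Qb) :
    Function.Injective (fibreIncl (IsLocalRing.ResidueField A) M) :=
  Fermat.Agent.S35.helper1928.fibreIncl_injective (IsLocalRing.ResidueField A) M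

/-- The reduction of every function lies on the two components (binder `hrange`; no unit-ball
hypothesis is needed). -/
theorem geom_hrange' (h' : Nat.Coprime q M) (hq : q.Prime) (A : ValuationSubring Qb)
    (hA : A.LiesOverPrime q) (f : modularFunctionFieldBar (q * M)) :
    ∃ y : ↥(modularFunctionFieldFullC (IsLocalRing.ResidueField A) M) ×
        ↥(modularFunctionFieldFullC (IsLocalRing.ResidueField A) M),
      gpRed A (q * M) (atkinLehnerBar q M h') f = fibreIncl (IsLocalRing.ResidueField A) M y := by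
  have : Fact q.Prime := ⟨hq⟩
  obtain ⟨y, hy⟩ := Fermat.Agent.S35.helper1928.gpRed_mem_range q M (geom_not_dvd h' hq) A hA
    (atkinLehnerBar q M h') f
  exact ⟨y, hy.symm⟩

/-- Binder `hrange` in the exact shape of `twisted_lattice_of_components`. -/
theorem geom_hrange (h' : Nat.Coprime q M) (hq : q.Prime) (A : ValuationSubring Qb)
    (hA : A.LiesOverPrime q) :
    ∀ f : modularFunctionFieldBar (q * M),
      (∀ i, gpVal A (q * M) (atkinLehnerBar q M h') i f ≤ 1) →
      ∃ y : ↥(modularFunctionFieldFullC (IsLocalRing.ResidueField A) M) ×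
          ↥(modularFunctionFieldFullC (IsLocalRing.ResidueField A) M),
        gpRed A (q * M) (atkinLehnerBar q M h') f =
          fibreIncl (IsLocalRing.ResidueField A) M y :=
  fun f _ => geom_hrange' h' hq A hA f

omit [NeZero q] [NeZero M] in
/-- The level `M` is invertible in the residue field of `A`. -/
theorem geom_hNk (h' : Nat.Coprime q M) (hq : q.Prime) (A : ValuationSubring Qb)
    (hA : A.LiesOverPrime q) :
    ∀ p : ℕ, p.Prime → p ∣ M → ((p : ℕ) : IsLocalRing.ResidueField A) ≠ 0 :=
  Fermat.Agent.S18.helper4307.natCast_ne_zero_residue M hq (geom_not_dvd h' hq) A hA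

/-- The residue field of `A` is algebraically closed. -/
theorem geom_isAlgClosed (A : ValuationSubring Qb) : IsAlgClosed (IsLocalRing.ResidueField A) :=
  Fermat.Agent.Lib.helper6879.isAlgClosed_residueField A

omit [NeZero q] in
/-- Special fibre: principal divisors on the component `F_k(M)`. -/
theorem geom_hasPrincipalDivisors_k (h' : Nat.Coprime q M) (hq : q.Prime)
    (A : ValuationSubring Qb) (hA : A.LiesOverPrime q) :
    HasPrincipalDivisors (IsLocalRing.ResidueField A)
      ↥(modularFunctionFieldFullC (IsLocalRing.ResidueField A) M) :=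
  have := geom_isAlgClosed A
  Fermat.Agent.S18.helper4307.hasPrincipalDivisors_fullC (IsLocalRing.ResidueField A) M
    (geom_hNk h' hq A hA)

omit [NeZero q] in
/-- Special fibre: every place of the component has degree one (binders `hdeg₁`, `hdeg₂`). -/
theorem geom_hdegk (h' : Nat.Coprime q M) (hq : q.Prime) (A : ValuationSubring Qb)
    (hA : A.LiesOverPrime q) :
    ∀ w : Place (IsLocalRing.ResidueField A)
      ↥(modularFunctionFieldFullC (IsLocalRing.ResidueField A) M), w.deg = 1 :=
  have := geom_isAlgClosed A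
  Fermat.Agent.S18.helper4307.place_deg_eq_one_fullC (IsLocalRing.ResidueField A) M
    (geom_hNk h' hq A hA)

omit [NeZero q] in
/-- Special fibre: Riemann bound on the component (binders `hRB₁`, `hRB₂`). -/
theorem geom_hRBk (h' : Nat.Coprime q M) (hq : q.Prime) (A : ValuationSubring Qb)
    (hA : A.LiesOverPrime q) :
    Fermat.Agent.S18.helper981.HasRiemannBound (IsLocalRing.ResidueField A)
      ↥(modularFunctionFieldFullC (IsLocalRing.ResidueField A) M) :=
  have := geom_isAlgClosed A
  Fermat.Agent.S37.helper265.hasRiemannBound_fullC (IsLocalRing.ResidueField A) M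
    (geom_hNk h' hq A hA)

omit [NeZero q] in
/-- Special fibre: the component has a place (binders `P₁`, `P₂`). -/
theorem geom_nonempty_place_k (h' : Nat.Coprime q M) (hq : q.Prime) (A : ValuationSubring Qb)
    (hA : A.LiesOverPrime q) :
    Nonempty (Place (IsLocalRing.ResidueField A)
      ↥(modularFunctionFieldFullC (IsLocalRing.ResidueField A) M)) :=
  have := geom_isAlgClosed A
  Fermat.Agent.S37.helper265.nonempty_place_fullC (IsLocalRing.ResidueField A) M
    (geom_hNk h' hq A hA)

end Fixed

/-! ### (G1) The chart / node binders as a structure -/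

/-- **The chart / node binders of `helper603.twisted_lattice_of_components` at the level
`q * M`** (generic fibre `modularFunctionFieldBar (q * M)`, pair of Gauss valuations of `A`,
both components of the special fibre `= modularFunctionFieldFullC (ResidueField A) M`), with the
inertia-stability of the chart added.  Field names are those of the binders of
`twisted_lattice_of_components`. -/
structure GeomData (q M : ℕ) [NeZero q] [NeZero M] (h' : Nat.Coprime q M)
    (A : ValuationSubring Qb) : Type 1 where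
  /-- places of the component have degree one (`hdeg₁ = hdeg₂`) -/
  hdegk : ∀ w : Place (IsLocalRing.ResidueField A)
    ↥(modularFunctionFieldFullC (IsLocalRing.ResidueField A) M), w.deg = 1
  /-- the index set of the nodes -/
  I : Type
  /-- finitely many nodes -/
  fintypeI : Fintype I
  /-- the point of the `i`-th node on the first component -/
  P : I → Place (IsLocalRing.ResidueField A)
    ↥(modularFunctionFieldFullC (IsLocalRing.ResidueField A) M)
  /-- the point of the `i`-th node on the second component -/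
  Q : I → Place (IsLocalRing.ResidueField A)
    ↥(modularFunctionFieldFullC (IsLocalRing.ResidueField A) M)
  hP : Function.Injective P
  hQ : Function.Injective Q
  /-- pole divisor of `x₁` -/
  Yinf₁ : Divisor (IsLocalRing.ResidueField A)
    ↥(modularFunctionFieldFullC (IsLocalRing.ResidueField A) M)
  /-- zero divisor of `x₁` -/
  Y0₁ : Divisor (IsLocalRing.ResidueField A)
    ↥(modularFunctionFieldFullC (IsLocalRing.ResidueField A) M)
  /-- pole divisor of `x₂` -/
  Yinf₂ : Divisor (IsLocalRing.ResidueField A)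
    ↥(modularFunctionFieldFullC (IsLocalRing.ResidueField A) M)
  /-- zero divisor of `x₂` -/
  Y0₂ : Divisor (IsLocalRing.ResidueField A)
    ↥(modularFunctionFieldFullC (IsLocalRing.ResidueField A) M)
  hYinf₁ : 0 ≤ Yinf₁
  hY0₁ : 0 ≤ Y0₁
  hYinf₂ : 0 ≤ Yinf₂
  hY0₂ : 0 ≤ Y0₂
  hdisj₁ : ∀ w, Yinf₁ w = 0 ∨ Y0₁ w = 0
  hdisj₂ : ∀ w, Yinf₂ w = 0 ∨ Y0₂ w = 0
  /-- degree of `x₁` -/
  d₁ : ℕ
  /-- degree of `x₂` -/
  d₂ : ℕ
  hd₁ : 0 < d₁
  hd₂ : 0 < d₂
  hdY₁ : Divisor.degree Yinf₁ = d₁
  hdY0₁ : Divisor.degree Y0₁ = d₁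
  hdY₂ : Divisor.degree Yinf₂ = d₂
  hdY0₂ : Divisor.degree Y0₂ = d₂
  hPY : ∀ i, Yinf₁ (P i) = 0 ∧ Y0₁ (P i) = 0
  hQY : ∀ i, Yinf₂ (Q i) = 0 ∧ Y0₂ (Q i) = 0
  /-- pole divisor of the chart function `x` -/
  E1 : Divisor Qb (modularFunctionFieldBar (q * M))
  /-- zero divisor of the chart function `x` -/
  E2 : Divisor Qb (modularFunctionFieldBar (q * M))
  hE1 : 0 ≤ E1
  hE2 : 0 ≤ E2
  hdE1 : 0 < Divisor.degree E1
  hdisj : ∀ w : Place Qb (modularFunctionFieldBar (q * M)), E1 w = 0 ∨ E2 w = 0
  hgE1 : ∀ τ ∈ A.inertiaSubgroupIn ℚ, ∀ w : Place Qb (modularFunctionFieldBar (q * M)),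
    0 < E1 w → 0 < E1 (arithmeticGalois (modularFunctionFieldFull (q * M)) τ • w)
  hgE2 : ∀ τ ∈ A.inertiaSubgroupIn ℚ, ∀ w : Place Qb (modularFunctionFieldBar (q * M)),
    0 < E2 w → 0 < E2 (arithmeticGalois (modularFunctionFieldFull (q * M)) τ • w)
  /-- the chart function -/
  x : modularFunctionFieldBar (q * M)
  hx0 : x ≠ 0
  hxord : ∀ w : Place Qb (modularFunctionFieldBar (q * M)), w.ord x = E2 w - E1 w
  hxv : ∀ i, gpVal A (q * M) (atkinLehnerBar q M h') i x = 1
  hxgal : ∀ τ ∈ A.inertiaSubgroupIn ℚ,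
    arithmeticGalois (modularFunctionFieldFull (q * M)) τ • x = x
  /-- first component of the reduction of `x` -/
  x₁ : ↥(modularFunctionFieldFullC (IsLocalRing.ResidueField A) M)
  /-- second component of the reduction of `x` -/
  x₂ : ↥(modularFunctionFieldFullC (IsLocalRing.ResidueField A) M)
  hredx : gpRed A (q * M) (atkinLehnerBar q M h') x =
    fibreIncl (IsLocalRing.ResidueField A) M (x₁, x₂)
  hx₁ : ∀ w, w.ord x₁ = Y0₁ w - Yinf₁ w
  hx₂ : ∀ w, w.ord x₂ = Y0₂ w - Yinf₂ w
  hcont : ∀ a b : ℕ, ∀ f ∈ riemannRochSpace (a • E1 + b • E2),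
    (∀ i, gpVal A (q * M) (atkinLehnerBar q M h') i f ≤ 1) →
    ∃ y₁ ∈ riemannRochSpace (a • Yinf₁ + b • Y0₁),
      ∃ y₂ ∈ riemannRochSpace (a • Yinf₂ + b • Y0₂),
        gpRed A (q * M) (atkinLehnerBar q M h') f =
          fibreIncl (IsLocalRing.ResidueField A) M (y₁, y₂) ∧
        ∀ i, valueAt (Q i) (hdegk (Q i)) y₂ = valueAt (P i) (hdegk (P i)) y₁
  hK1 : ∀ a : ℕ, ∀ y₁ ∈ riemannRochSpace (a • Yinf₁), ∀ y₂ ∈ riemannRochSpace (a • Yinf₂),
    (∀ i, valueAt (Q i) (hdegk (Q i)) y₂ = valueAt (P i) (hdegk (P i)) y₁) →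
    ∃ a' : ℕ, ∃ f ∈ riemannRochSpace (a' • E1),
      (∀ i, gpVal A (q * M) (atkinLehnerBar q M h') i f ≤ 1) ∧
        gpRed A (q * M) (atkinLehnerBar q M h') f =
          fibreIncl (IsLocalRing.ResidueField A) M (y₁, y₂)
  hK2 : ∀ b : ℕ, ∀ y₁ ∈ riemannRochSpace (b • Y0₁), ∀ y₂ ∈ riemannRochSpace (b • Y0₂),
    (∀ i, valueAt (Q i) (hdegk (Q i)) y₂ = valueAt (P i) (hdegk (P i)) y₁) →
    ∃ b' : ℕ, ∃ f ∈ riemannRochSpace (b' • E2),
      (∀ i, gpVal A (q * M) (atkinLehnerBar q M h') i f ≤ 1) ∧
        gpRed A (q * M) (atkinLehnerBar q M h') f =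
          fibreIncl (IsLocalRing.ResidueField A) M (y₁, y₂)

attribute [instance] GeomData.fintypeI

/-- **(G1) The chart / node package gives the geometric binders** at the level `q * M`, `A`
over `q` (any prime `q ∤ M`; for S44: `q = p`). -/
theorem nonempty_geomData {q M : ℕ} [NeZero q] [NeZero M] (h' : Nat.Coprime q M)
    (hq : q.Prime) (A : ValuationSubring Qb) (hA : A.LiesOverPrime q)
    (hC : Fermat.Agent.S34.helper2423.Stmt_ChartNodes q M h' A) :
    Nonempty (GeomData q M h' A) := by
  classical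
  have := geom_neZero_level q M
  have := geom_isAlgClosed A
  have hdegk := geom_hdegk h' hq A hA
  obtain ⟨x, x₁, x₂, I, _, P, Q, hxtr, hxfin, hxgal, hxv, hx₁tr, hx₁fin, hx₂tr, hx₂fin, hredx,
    hP, hQ, hPx, hQx, hpack⟩ := hC hdegk
  obtain ⟨E2, E1, hE2f, hE1f, hE2nn, hE1nn, hdisj, hxord, -, hdegE1⟩ :=
    Fermat.Agent.S18.helper4307.exists_zero_pole_divisors x hxtr
  obtain ⟨Y0₁, Yinf₁, hY0₁f, hYinf₁f, hY0₁nn, hYinf₁nn, hdisj₁, hx₁ord, hdY0₁, hdYinf₁⟩ :=
    Fermat.Agent.S18.helper4307.exists_zero_pole_divisors x₁ hx₁tr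
  obtain ⟨Y0₂, Yinf₂, hY0₂f, hYinf₂f, hY0₂nn, hYinf₂nn, hdisj₂, hx₂ord, hdY0₂, hdYinf₂⟩ :=
    Fermat.Agent.S18.helper4307.exists_zero_pole_divisors x₂ hx₂tr
  obtain ⟨hRR, hnode, hK1, hK2⟩ := hpack E1 E2 Yinf₁ Y0₁ Yinf₂ Y0₂ hE1f hE2f hYinf₁f hY0₁f
    hYinf₂f hY0₂f
  have hx0 : x ≠ 0 := fun h0 => hxtr (h0 ▸ isAlgebraic_zero)
  have hx₁0 : x₁ ≠ 0 := fun h0 => hx₁tr (h0 ▸ isAlgebraic_zero)
  have hx₂0 : x₂ ≠ 0 := fun h0 => hx₂tr (h0 ▸ isAlgebraic_zero)
  have hPY : ∀ i, Yinf₁ (P i) = 0 ∧ Y0₁ (P i) = 0 := fun i => by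
    rw [hYinf₁f, hY0₁f, hPx i]; simp
  have hQY : ∀ i, Yinf₂ (Q i) = 0 ∧ Y0₂ (Q i) = 0 := fun i => by
    rw [hYinf₂f, hY0₂f, hQx i]; simp
  have hstab : ∀ τ ∈ A.inertiaSubgroupIn ℚ, ∀ w : Place Qb (modularFunctionFieldBar (q * M)),
      (arithmeticGalois (modularFunctionFieldFull (q * M)) τ • w).ord x = w.ord x := by
    intro τ hτ w
    have h := SemilinearAut.ord_smul (arithmeticGalois (modularFunctionFieldFull (q * M)) τ) w x
    rwa [hxgal τ hτ] at h
  have hcont := Fermat.Agent.S35.helper603.hcont_of_chart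
    (gpVal A (q * M) (atkinLehnerBar q M h')) (gpBase A (q * M))
    (Fermat.Agent.S35.helper882.gpRedData A (q * M) (atkinLehnerBar q M h'))
    (fibreIncl (IsLocalRing.ResidueField A) M) P Q (fun i => hdegk (P i)) (fun i => hdegk (Q i))
    Yinf₁ Y0₁ Yinf₂ Y0₂ hY0₁nn hY0₂nn hPY hQY E1 E2 hE2nn x hx0 hxord hxv x₁ x₂ hx₁0 hx₂0 hredx
    hx₁ord hx₂ord hRR hnode
  have hd₁ : 0 < Module.finrank (IntermediateField.adjoin (IsLocalRing.ResidueField A) {x₁})
      ↥(modularFunctionFieldFullC (IsLocalRing.ResidueField A) M) := Module.finrank_pos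
  have hd₂ : 0 < Module.finrank (IntermediateField.adjoin (IsLocalRing.ResidueField A) {x₂})
      ↥(modularFunctionFieldFullC (IsLocalRing.ResidueField A) M) := Module.finrank_pos
  have hdE1 : 0 < Divisor.degree E1 := by
    rw [hdegE1]
    exact_mod_cast (Module.finrank_pos :
      0 < Module.finrank (IntermediateField.adjoin Qb {x}) (modularFunctionFieldBar (q * M)))
  exact ⟨{
    hdegk := hdegk, I := I, fintypeI := inferInstance, P := P, Q := Q, hP := hP, hQ := hQ
    Yinf₁ := Yinf₁, Y0₁ := Y0₁, Yinf₂ := Yinf₂, Y0₂ := Y0₂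
    hYinf₁ := hYinf₁nn, hY0₁ := hY0₁nn, hYinf₂ := hYinf₂nn, hY0₂ := hY0₂nn
    hdisj₁ := hdisj₁, hdisj₂ := hdisj₂
    d₁ := _, d₂ := _, hd₁ := hd₁, hd₂ := hd₂
    hdY₁ := hdYinf₁, hdY0₁ := hdY0₁, hdY₂ := hdYinf₂, hdY0₂ := hdY0₂
    hPY := hPY, hQY := hQY, E1 := E1, E2 := E2, hE1 := hE1nn, hE2 := hE2nn, hdE1 := hdE1
    hdisj := hdisj
    hgE1 := fun τ hτ w hw => by rw [hE1f, hstab τ hτ w, ← hE1f]; exact hw
    hgE2 := fun τ hτ w hw => by rw [hE2f, hstab τ hτ w, ← hE2f]; exact hw
    x := x, hx0 := hx0, hxord := hxord, hxv := hxv, hxgal := hxgal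
    x₁ := x₁, x₂ := x₂, hredx := hredx, hx₁ := hx₁ord, hx₂ := hx₂ord
    hcont := hcont, hK1 := hK1, hK2 := hK2 }⟩

/-! ### (G3) The landed theorem (E3) at these binders -/

/-- **The reduced twisted lattices at the level `q * M`, for every modulus `n ≠ 0`** (the landed
`helper603.twisted_lattice_of_components` at the binders `G`): `IsNodalRR` for the package of the
two components, `deg E1 = d₁ + d₂`, the genus formula `g(F) + 1 = 2 g(F_k(M)) + #nodes`, and the
description of the reduction of the unit ball of `L(D0 + a E1 + b E2)` for `u ≡ 1` at both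
valuations with `n D0 ≤ div u`. -/
theorem GeomData.twisted_lattice {q M : ℕ} [NeZero q] [NeZero M] {h' : Nat.Coprime q M}
    {A : ValuationSubring Qb} (G : GeomData q M h' A) (hq : q.Prime)
    (hA : A.LiesOverPrime q) :
    ∃ n₀ : ℕ,
      IsNodalRR (fun a b => pairRR G.P G.Q (a • G.Yinf₁ + b • G.Y0₁) (a • G.Yinf₂ + b • G.Y0₂))
        (fun i => (evalAt G.P (fun i => G.hdegk (G.P i)) i).comp
          (AlgHom.fst (IsLocalRing.ResidueField A) (nodeRing G.P) (nodeRing G.Q)))
        (fun i => (evalAt G.Q (fun i => G.hdegk (G.Q i)) i).comp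
          (AlgHom.snd (IsLocalRing.ResidueField A) (nodeRing G.P) (nodeRing G.Q)))
        (G.d₁ + G.d₂)
        (Fermat.Agent.S18.helper981.riemannGenus (IsLocalRing.ResidueField A)
            ↥(modularFunctionFieldFullC (IsLocalRing.ResidueField A) M) +
          Fermat.Agent.S18.helper981.riemannGenus (IsLocalRing.ResidueField A)
            ↥(modularFunctionFieldFullC (IsLocalRing.ResidueField A) M)) 2 n₀ ∧
      Divisor.degree G.E1 = ((G.d₁ + G.d₂ : ℕ) : ℤ) ∧
      Fermat.Agent.S18.helper981.riemannGenus Qb (modularFunctionFieldBar (q * M)) + 1 =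
        Fermat.Agent.S18.helper981.riemannGenus (IsLocalRing.ResidueField A)
            ↥(modularFunctionFieldFullC (IsLocalRing.ResidueField A) M) +
          Fermat.Agent.S18.helper981.riemannGenus (IsLocalRing.ResidueField A)
            ↥(modularFunctionFieldFullC (IsLocalRing.ResidueField A) M) + Fintype.card G.I ∧
      ∀ n : ℕ, n ≠ 0 → ∀ D0 : Divisor Qb (modularFunctionFieldBar (q * M)),
        Divisor.degree D0 = 0 → ∀ u : modularFunctionFieldBar (q * M), u ≠ 0 →
        (∀ w : Place Qb (modularFunctionFieldBar (q * M)), (n : ℤ) * D0 w ≤ w.ord u) →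
        (∀ i, gpVal A (q * M) (atkinLehnerBar q M h') i (u - 1) < 1) →
        ∃ c : G.I → IsLocalRing.ResidueField A, (∀ i, c i ^ n = 1) ∧ ∀ a b : ℕ, n₀ ≤ a + b →
          (∀ f ∈ riemannRochSpace (D0 + a • G.E1 + b • G.E2),
            (∀ i, gpVal A (q * M) (atkinLehnerBar q M h') i f ≤ 1) →
            ∃ y ∈ glued
                (fun i => (evalAt G.P (fun i => G.hdegk (G.P i)) i).comp
                  (AlgHom.fst (IsLocalRing.ResidueField A) (nodeRing G.P) (nodeRing G.Q)))
                (fun i => (evalAt G.Q (fun i => G.hdegk (G.Q i)) i).comp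
                  (AlgHom.snd (IsLocalRing.ResidueField A) (nodeRing G.P) (nodeRing G.Q))) c
                (pairRR G.P G.Q (a • G.Yinf₁ + b • G.Y0₁) (a • G.Yinf₂ + b • G.Y0₂)),
              gpRed A (q * M) (atkinLehnerBar q M h') f =
                ((fibreIncl (IsLocalRing.ResidueField A) M).comp (nodeInclAlg G.P G.Q)) y) ∧
          (∀ y ∈ glued
                (fun i => (evalAt G.P (fun i => G.hdegk (G.P i)) i).comp
                  (AlgHom.fst (IsLocalRing.ResidueField A) (nodeRing G.P) (nodeRing G.Q)))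
                (fun i => (evalAt G.Q (fun i => G.hdegk (G.Q i)) i).comp
                  (AlgHom.snd (IsLocalRing.ResidueField A) (nodeRing G.P) (nodeRing G.Q))) c
                (pairRR G.P G.Q (a • G.Yinf₁ + b • G.Y0₁) (a • G.Yinf₂ + b • G.Y0₂)),
            ∃ f ∈ riemannRochSpace (D0 + a • G.E1 + b • G.E2),
              (∀ i, gpVal A (q * M) (atkinLehnerBar q M h') i f ≤ 1) ∧
                gpRed A (q * M) (atkinLehnerBar q M h') f =
                  ((fibreIncl (IsLocalRing.ResidueField A) M).comp (nodeInclAlg G.P G.Q)) y) := by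
  classical
  have := geom_hasPrincipalDivisors q M
  have := geom_hasPrincipalDivisors_k h' hq A hA
  obtain ⟨P₁⟩ := geom_nonempty_place_k h' hq A hA
  exact Fermat.Agent.S35.helper603.twisted_lattice_of_components
    (geom_hdegK q M) (geom_hRBK q M) (geomP0 q M)
    (gpVal A (q * M) (atkinLehnerBar q M h')) (gpBase A (q * M))
    (geom_hred h' A) (geom_hconst h' A) (geom_hcart h' hq A hA)
    (fibreIncl (IsLocalRing.ResidueField A) M) (geom_hjj M A) (geom_hrange h' hq A hA)
    G.hdegk G.hdegk (geom_hRBk h' hq A hA) (geom_hRBk h' hq A hA) P₁ P₁ G.P G.Q G.hP G.hQ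
    G.Yinf₁ G.Y0₁ G.Yinf₂ G.Y0₂ G.hYinf₁ G.hY0₁ G.hYinf₂ G.hY0₂ G.hdisj₁ G.hdisj₂
    G.d₁ G.d₂ G.hd₁ G.hd₂ G.hdY₁ G.hdY0₁ G.hdY₂ G.hdY0₂ G.hPY G.hQY G.E1 G.E2 G.hE1 G.hE2 G.hdE1
    G.x G.hx0 G.hxord G.hxv G.x₁ G.x₂ G.hredx G.hx₁ G.hx₂ G.hcont G.hK1 G.hK2

/-! ### (G3') The lattice statements in short form: untwisted, and twisted by a `q`-power
Kummer function (the glueing constants are trivial in characteristic `q`) -/

section Short

variable {q M : ℕ} [NeZero q] [NeZero M] {h' : Nat.Coprime q M} {A : ValuationSubring Qb}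

/-- Evaluation of a pair of functions at the point `P i` of the `i`-th node (first component). -/
abbrev GeomData.evP (G : GeomData q M h' A) (i : G.I) :
    (nodeRing G.P × nodeRing G.Q) →ₐ[IsLocalRing.ResidueField A] IsLocalRing.ResidueField A :=
  (evalAt G.P (fun i => G.hdegk (G.P i)) i).comp
    (AlgHom.fst (IsLocalRing.ResidueField A) (nodeRing G.P) (nodeRing G.Q))

/-- Evaluation of a pair of functions at the point `Q i` of the `i`-th node (second
component). -/
abbrev GeomData.evQ (G : GeomData q M h' A) (i : G.I) :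
    (nodeRing G.P × nodeRing G.Q) →ₐ[IsLocalRing.ResidueField A] IsLocalRing.ResidueField A :=
  (evalAt G.Q (fun i => G.hdegk (G.Q i)) i).comp
    (AlgHom.snd (IsLocalRing.ResidueField A) (nodeRing G.P) (nodeRing G.Q))

/-- The Riemann-Roch package of the two components: pairs `(y₁, y₂)` regular at the nodes with
`y_j ∈ L(a Yinf_j + b Y0_j)`. -/
abbrev GeomData.T (G : GeomData q M h' A) (a b : ℕ) :
    Submodule (IsLocalRing.ResidueField A) (nodeRing G.P × nodeRing G.Q) :=
  pairRR G.P G.Q (a • G.Yinf₁ + b • G.Y0₁) (a • G.Yinf₂ + b • G.Y0₂)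

/-- The inclusion of the pairs regular at the nodes into `k((t)) × k((t))`. -/
abbrev GeomData.incl (G : GeomData q M h' A) :
    (nodeRing G.P × nodeRing G.Q) →ₐ[IsLocalRing.ResidueField A]
      (LaurentSeries (IsLocalRing.ResidueField A) × LaurentSeries (IsLocalRing.ResidueField A)) :=
  (fibreIncl (IsLocalRing.ResidueField A) M).comp (nodeInclAlg G.P G.Q)

/-- The glued lattice: pairs of `T a b` with equal values at the two points of every node. -/
abbrev GeomData.glue (G : GeomData q M h' A) (a b : ℕ) :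
    Submodule (IsLocalRing.ResidueField A) (nodeRing G.P × nodeRing G.Q) :=
  glued G.evP G.evQ (fun _ => (1 : IsLocalRing.ResidueField A)) (G.T a b)

/-- **The reduced lattices at the level `q * M` in residue characteristic `q`.**  There is `n₀`
such that the Riemann-Roch package of the two components is `IsNodalRR` with threshold `n₀`, and

* `deg E1 = d₁ + d₂`, `g(F) + 1 = 2 g(F_k(M)) + #nodes`;
* for every `m`, every divisor `D0` of degree `0` and every `u ≡ 1` at both Gauss valuations
  with `q ^ m • D0 ≤ div u` (for instance a `q ^ m`-Kummer function `u`, `div u = q ^ m • D0`),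
  and all `a + b ≥ n₀`: the reduction of the unit ball of `L(D0 + a E1 + b E2)` is EXACTLY the
  untwisted glued lattice `G.glue a b` (both inclusions): in characteristic `q` the glueing
  constants `c i`, `c i ^ (q ^ m) = 1`, are trivial. -/
theorem GeomData.red_twisted_ball (G : GeomData q M h' A) (hq : q.Prime)
    (hA : A.LiesOverPrime q) :
    ∃ n₀ : ℕ,
      IsNodalRR G.T G.evP G.evQ (G.d₁ + G.d₂)
        (Fermat.Agent.S18.helper981.riemannGenus (IsLocalRing.ResidueField A)
            ↥(modularFunctionFieldFullC (IsLocalRing.ResidueField A) M) +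
          Fermat.Agent.S18.helper981.riemannGenus (IsLocalRing.ResidueField A)
            ↥(modularFunctionFieldFullC (IsLocalRing.ResidueField A) M)) 2 n₀ ∧
      Divisor.degree G.E1 = ((G.d₁ + G.d₂ : ℕ) : ℤ) ∧
      Fermat.Agent.S18.helper981.riemannGenus Qb (modularFunctionFieldBar (q * M)) + 1 =
        Fermat.Agent.S18.helper981.riemannGenus (IsLocalRing.ResidueField A)
            ↥(modularFunctionFieldFullC (IsLocalRing.ResidueField A) M) +
          Fermat.Agent.S18.helper981.riemannGenus (IsLocalRing.ResidueField A)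
            ↥(modularFunctionFieldFullC (IsLocalRing.ResidueField A) M) + Fintype.card G.I ∧
      ∀ (m : ℕ) (D0 : Divisor Qb (modularFunctionFieldBar (q * M))),
        Divisor.degree D0 = 0 → ∀ u : modularFunctionFieldBar (q * M), u ≠ 0 →
        (∀ w : Place Qb (modularFunctionFieldBar (q * M)),
          ((q ^ m : ℕ) : ℤ) * D0 w ≤ w.ord u) →
        (∀ i, gpVal A (q * M) (atkinLehnerBar q M h') i (u - 1) < 1) →
        ∀ a b : ℕ, n₀ ≤ a + b →
          (∀ f ∈ riemannRochSpace (D0 + a • G.E1 + b • G.E2),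
            (∀ i, gpVal A (q * M) (atkinLehnerBar q M h') i f ≤ 1) →
            ∃ y ∈ G.glue a b, gpRed A (q * M) (atkinLehnerBar q M h') f = G.incl y) ∧
          (∀ y ∈ G.glue a b,
            ∃ f ∈ riemannRochSpace (D0 + a • G.E1 + b • G.E2),
              (∀ i, gpVal A (q * M) (atkinLehnerBar q M h') i f ≤ 1) ∧
                gpRed A (q * M) (atkinLehnerBar q M h') f = G.incl y) := by
  classical
  obtain ⟨n₀, hT, hdeg, hgen, hE3⟩ := G.twisted_lattice hq hA
  refine ⟨n₀, hT, hdeg, hgen, ?_⟩
  intro m D0 hD0 u hu hdiv hv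
  obtain ⟨c, hc, hab⟩ := hE3 (q ^ m) (pow_ne_zero m hq.ne_zero) D0 hD0 u hu hdiv hv
  have hc1 : c = fun _ => (1 : IsLocalRing.ResidueField A) := by
    funext i
    haveI : Fact q.Prime := ⟨hq⟩
    haveI : CharP (IsLocalRing.ResidueField A) q :=
      Fermat.Agent.Lib.helper6879.charP_residueField hq A hA
    have hinj := (frobenius_inj (IsLocalRing.ResidueField A) q).iterate m
    apply hinj
    rw [iterate_frobenius, iterate_frobenius, one_pow]
    exact hc i
  subst hc1
  exact hab

/-- **The untwisted lattice** (`D0 = 0`): for `a + b ≥ n₀` the reduction of the unit ball of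
`L(a E1 + b E2)` is exactly the glued lattice `G.glue a b`; in particular the reduction is ONTO
all glued pairs. -/
theorem GeomData.red_ball (G : GeomData q M h' A) (hq : q.Prime) (hA : A.LiesOverPrime q) :
    ∃ n₀ : ℕ,
      IsNodalRR G.T G.evP G.evQ (G.d₁ + G.d₂)
        (Fermat.Agent.S18.helper981.riemannGenus (IsLocalRing.ResidueField A)
            ↥(modularFunctionFieldFullC (IsLocalRing.ResidueField A) M) +
          Fermat.Agent.S18.helper981.riemannGenus (IsLocalRing.ResidueField A)
            ↥(modularFunctionFieldFullC (IsLocalRing.ResidueField A) M)) 2 n₀ ∧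
      ∀ a b : ℕ, n₀ ≤ a + b →
        (∀ f ∈ riemannRochSpace (a • G.E1 + b • G.E2),
          (∀ i, gpVal A (q * M) (atkinLehnerBar q M h') i f ≤ 1) →
          ∃ y ∈ G.glue a b, gpRed A (q * M) (atkinLehnerBar q M h') f = G.incl y) ∧
        (∀ y ∈ G.glue a b,
          ∃ f ∈ riemannRochSpace (a • G.E1 + b • G.E2),
            (∀ i, gpVal A (q * M) (atkinLehnerBar q M h') i f ≤ 1) ∧
              gpRed A (q * M) (atkinLehnerBar q M h') f = G.incl y) := by
  classical
  obtain ⟨n₀, hT, -, -, hE3⟩ := G.red_twisted_ball hq hA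
  refine ⟨n₀, hT, fun a b hab => ?_⟩
  have h := hE3 0 0 (by simp) 1 one_ne_zero (fun w => by simp [Place.ord_one])
    (fun i => by simp) a b hab
  simpa only [zero_add] using h

end Short

end

end Fermat.Agent.S44.helper3630
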