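/-
S44, leaf L1-GEOM-P (helper3630), second file: THE EXPLICIT-CHART HANDLE.

`nonempty_geomData` (file `helper3630_GeomP`) produces the geometric binders from the existential
Prop `S34.helper2423.Stmt_ChartNodes`, so the chart function `x`, its reductions `x₁`, `x₂` and
the nodes are abstract.  Here the same bundle is built, as a DEFINITION, from the landed
explicit-chart predicate `S35.helper1928.ChartNodesAt q M h' A hdegk x x₁ x₂ P Q`:

* `GeomData.ofChartNodesAt` : the bundle, with `x`, `x₁`, `x₂`, `I`, `P`, `Q` the given ones and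
  `E1 = poleDiv x`, `E2 = zeroDiv x`, `Yinf_j = poleDiv x_j`, `Y0_j = zeroDiv x_j`,
  `d_j = [F_k : k(x_j)]` (all projections hold by `rfl`);
* `exists_geomData_at` : the instance-free existential form;
* for EVERY bundle `G` (abstract chart or not): the pointwise formulas `G.E1 w = max 0 (-ord x)`,
  …, `G.E1 = poleDiv G.x`, … and `nonempty_geomData` again through the explicit form.
-/
import Mathlib
import Fermat.Agent.S44.helper3630_GeomP
import Fermat.Agent.S35.helper1928_ChartNodesAt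

set_option autoImplicit false

namespace Fermat.Agent.S44.helper3630

open AlgebraicCurve ModularCurve
open Fermat.Agent.S29.helper8217
open Fermat.Agent.S34.helper584
open Fermat.Agent.S35.helper1219
open Fermat.Agent.S35.helper603 (valueAt nodeRing evalAt pairRR glued nodeInclAlg IsNodalRR)
open Fermat.Agent.S35.helper882 (gpVal gpBase gpRed gpRing)
open Fermat.Agent.S35.helper1928 (fibreIncl ChartNodesAt)
open Fermat.Agent.S35.helper2974

local notation "Qb" => AlgebraicClosure ℚ

noncomputable section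

section At

variable {q M : ℕ} [NeZero q] [NeZero M]

/-- **The geometric binders at the level `q * M` for an EXPLICIT chart**: the bundle `GeomData`
built from the landed explicit-chart package `S35.helper1928.ChartNodesAt`.  The chart function,
its two reductions and the nodes are the given ones; the divisors are the pole / zero divisors
`helper2974.poleDiv`, `helper2974.zeroDiv` of `x`, `x₁`, `x₂`. -/
def GeomData.ofChartNodesAt (h' : Nat.Coprime q M) (hq : q.Prime) (A : ValuationSubring Qb)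
    (hA : A.LiesOverPrime q)
    (hdegk : ∀ w : Place (IsLocalRing.ResidueField A)
      ↥(modularFunctionFieldFullC (IsLocalRing.ResidueField A) M), w.deg = 1)
    (x : modularFunctionFieldBar (q * M))
    (x₁ x₂ : ↥(modularFunctionFieldFullC (IsLocalRing.ResidueField A) M))
    {I : Type} [Fintype I]
    (P Q : I → Place (IsLocalRing.ResidueField A)
      ↥(modularFunctionFieldFullC (IsLocalRing.ResidueField A) M))
    (hC : ChartNodesAt q M h' A hdegk x x₁ x₂ P Q) : GeomData q M h' A :=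
  haveI := geom_hasPrincipalDivisors_k h' hq A hA
  haveI := geom_isAlgClosed A
  { hdegk := hdegk
    I := I
    fintypeI := inferInstance
    P := P
    Q := Q
    hP := hC.2.2.2.2.2.2.2.2.2.1
    hQ := hC.2.2.2.2.2.2.2.2.2.2.1
    Yinf₁ := poleDiv (IsLocalRing.ResidueField A) x₁
    Y0₁ := zeroDiv (IsLocalRing.ResidueField A) x₁
    Yinf₂ := poleDiv (IsLocalRing.ResidueField A) x₂
    Y0₂ := zeroDiv (IsLocalRing.ResidueField A) x₂
    hYinf₁ := poleDiv_nonneg x₁
    hY0₁ := zeroDiv_nonneg x₁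
    hYinf₂ := poleDiv_nonneg x₂
    hY0₂ := zeroDiv_nonneg x₂
    hdisj₁ := poleDiv_eq_zero_or_zeroDiv_eq_zero x₁
    hdisj₂ := poleDiv_eq_zero_or_zeroDiv_eq_zero x₂
    d₁ := Module.finrank (IntermediateField.adjoin (IsLocalRing.ResidueField A) {x₁})
      ↥(modularFunctionFieldFullC (IsLocalRing.ResidueField A) M)
    d₂ := Module.finrank (IntermediateField.adjoin (IsLocalRing.ResidueField A) {x₂})
      ↥(modularFunctionFieldFullC (IsLocalRing.ResidueField A) M)
    hd₁ := by
      have := hC.2.2.2.2.2.1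
      exact Module.finrank_pos
    hd₂ := by
      have := hC.2.2.2.2.2.2.2.1
      exact Module.finrank_pos
    hdY₁ := by
      have := hC.2.2.2.2.2.1
      exact degree_poleDiv_eq_finrank x₁ hC.2.2.2.2.1
    hdY0₁ := by
      have := hC.2.2.2.2.2.1
      exact degree_zeroDiv_eq_finrank x₁ hC.2.2.2.2.1
    hdY₂ := by
      have := hC.2.2.2.2.2.2.2.1
      exact degree_poleDiv_eq_finrank x₂ hC.2.2.2.2.2.2.1
    hdY0₂ := by
      have := hC.2.2.2.2.2.2.2.1
      exact degree_zeroDiv_eq_finrank x₂ hC.2.2.2.2.2.2.1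
    hPY := fun i =>
      ⟨poleDiv_of_ord_nonneg (hC.2.2.2.2.2.2.2.2.2.2.2.1 i).ge,
        zeroDiv_of_ord_nonpos (hC.2.2.2.2.2.2.2.2.2.2.2.1 i).le⟩
    hQY := fun i =>
      ⟨poleDiv_of_ord_nonneg (hC.2.2.2.2.2.2.2.2.2.2.2.2.1 i).ge,
        zeroDiv_of_ord_nonpos (hC.2.2.2.2.2.2.2.2.2.2.2.2.1 i).le⟩
    E1 := poleDiv Qb x
    E2 := zeroDiv Qb x
    hE1 := poleDiv_nonneg x
    hE2 := zeroDiv_nonneg x
    hdE1 := by
      have := hC.2.1
      rw [degree_poleDiv_eq_finrank x hC.1]
      exact_mod_cast (Module.finrank_pos :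
        0 < Module.finrank (IntermediateField.adjoin Qb {x}) (modularFunctionFieldBar (q * M)))
    hdisj := poleDiv_eq_zero_or_zeroDiv_eq_zero x
    hgE1 := fun τ hτ w hw => by
      have h := SemilinearAut.ord_smul (arithmeticGalois (modularFunctionFieldFull (q * M)) τ) w x
      rw [hC.2.2.1 τ hτ] at h
      rw [poleDiv_pos_iff] at hw ⊢
      rw [h]; exact hw
    hgE2 := fun τ hτ w hw => by
      have h := SemilinearAut.ord_smul (arithmeticGalois (modularFunctionFieldFull (q * M)) τ) w x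
      rw [hC.2.2.1 τ hτ] at h
      rw [zeroDiv_pos_iff] at hw ⊢
      rw [h]; exact hw
    x := x
    hx0 := fun h0 => hC.1 (h0 ▸ isAlgebraic_zero)
    hxord := ord_eq_zeroDiv_sub_poleDiv x
    hxv := hC.2.2.2.1
    hxgal := hC.2.2.1
    x₁ := x₁
    x₂ := x₂
    hredx := hC.2.2.2.2.2.2.2.2.1
    hx₁ := ord_eq_zeroDiv_sub_poleDiv x₁
    hx₂ := ord_eq_zeroDiv_sub_poleDiv x₂
    hcont := by
      obtain ⟨hxtr, hxfin, -, hxv, hx₁tr, hx₁fin, hx₂tr, hx₂fin, hredx, hP, hQ, hPx, hQx,
        hpack⟩ := hC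
      obtain ⟨hRR, hnode, -, -⟩ := hpack (poleDiv Qb x) (zeroDiv Qb x)
        (poleDiv (IsLocalRing.ResidueField A) x₁) (zeroDiv (IsLocalRing.ResidueField A) x₁)
        (poleDiv (IsLocalRing.ResidueField A) x₂) (zeroDiv (IsLocalRing.ResidueField A) x₂)
        (fun _ => rfl) (fun _ => rfl) (fun _ => rfl) (fun _ => rfl) (fun _ => rfl)
        (fun _ => rfl)
      exact Fermat.Agent.S35.helper603.hcont_of_chart
        (gpVal A (q * M) (atkinLehnerBar q M h')) (gpBase A (q * M))
        (Fermat.Agent.S35.helper882.gpRedData A (q * M) (atkinLehnerBar q M h'))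
        (fibreIncl (IsLocalRing.ResidueField A) M) P Q (fun i => hdegk (P i))
        (fun i => hdegk (Q i))
        (poleDiv (IsLocalRing.ResidueField A) x₁) (zeroDiv (IsLocalRing.ResidueField A) x₁)
        (poleDiv (IsLocalRing.ResidueField A) x₂) (zeroDiv (IsLocalRing.ResidueField A) x₂)
        (zeroDiv_nonneg x₁) (zeroDiv_nonneg x₂)
        (fun i => ⟨poleDiv_of_ord_nonneg (hPx i).ge, zeroDiv_of_ord_nonpos (hPx i).le⟩)
        (fun i => ⟨poleDiv_of_ord_nonneg (hQx i).ge, zeroDiv_of_ord_nonpos (hQx i).le⟩)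
        (poleDiv Qb x) (zeroDiv Qb x) (zeroDiv_nonneg x) x
        (fun h0 => hxtr (h0 ▸ isAlgebraic_zero)) (ord_eq_zeroDiv_sub_poleDiv x) hxv x₁ x₂
        (fun h0 => hx₁tr (h0 ▸ isAlgebraic_zero)) (fun h0 => hx₂tr (h0 ▸ isAlgebraic_zero))
        hredx (ord_eq_zeroDiv_sub_poleDiv x₁) (ord_eq_zeroDiv_sub_poleDiv x₂) hRR hnode
    hK1 := by
      obtain ⟨-, -, -, -, -, -, -, -, -, -, -, -, -, hpack⟩ := hC
      exact (hpack (poleDiv Qb x) (zeroDiv Qb x)
        (poleDiv (IsLocalRing.ResidueField A) x₁) (zeroDiv (IsLocalRing.ResidueField A) x₁)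
        (poleDiv (IsLocalRing.ResidueField A) x₂) (zeroDiv (IsLocalRing.ResidueField A) x₂)
        (fun _ => rfl) (fun _ => rfl) (fun _ => rfl) (fun _ => rfl) (fun _ => rfl)
        (fun _ => rfl)).2.2.1
    hK2 := by
      obtain ⟨-, -, -, -, -, -, -, -, -, -, -, -, -, hpack⟩ := hC
      exact (hpack (poleDiv Qb x) (zeroDiv Qb x)
        (poleDiv (IsLocalRing.ResidueField A) x₁) (zeroDiv (IsLocalRing.ResidueField A) x₁)
        (poleDiv (IsLocalRing.ResidueField A) x₂) (zeroDiv (IsLocalRing.ResidueField A) x₂)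
        (fun _ => rfl) (fun _ => rfl) (fun _ => rfl) (fun _ => rfl) (fun _ => rfl)
        (fun _ => rfl)).2.2.2 }

/-! ### The projections of `GeomData.ofChartNodesAt` (all by `rfl`) -/

section Proj

variable (h' : Nat.Coprime q M) (hq : q.Prime) (A : ValuationSubring Qb)
  (hA : A.LiesOverPrime q)
  (hdegk : ∀ w : Place (IsLocalRing.ResidueField A)
    ↥(modularFunctionFieldFullC (IsLocalRing.ResidueField A) M), w.deg = 1)
  (x : modularFunctionFieldBar (q * M))
  (x₁ x₂ : ↥(modularFunctionFieldFullC (IsLocalRing.ResidueField A) M))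
  {I : Type} [Fintype I]
  (P Q : I → Place (IsLocalRing.ResidueField A)
    ↥(modularFunctionFieldFullC (IsLocalRing.ResidueField A) M))
  (hC : ChartNodesAt q M h' A hdegk x x₁ x₂ P Q)

@[simp] theorem GeomData.ofChartNodesAt_x :
    (GeomData.ofChartNodesAt h' hq A hA hdegk x x₁ x₂ P Q hC).x = x := rfl

@[simp] theorem GeomData.ofChartNodesAt_x₁ :
    (GeomData.ofChartNodesAt h' hq A hA hdegk x x₁ x₂ P Q hC).x₁ = x₁ := rfl

@[simp] theorem GeomData.ofChartNodesAt_x₂ :
    (GeomData.ofChartNodesAt h' hq A hA hdegk x x₁ x₂ P Q hC).x₂ = x₂ := rfl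

@[simp] theorem GeomData.ofChartNodesAt_I :
    (GeomData.ofChartNodesAt h' hq A hA hdegk x x₁ x₂ P Q hC).I = I := rfl

@[simp] theorem GeomData.ofChartNodesAt_P :
    (GeomData.ofChartNodesAt h' hq A hA hdegk x x₁ x₂ P Q hC).P = P := rfl

@[simp] theorem GeomData.ofChartNodesAt_Q :
    (GeomData.ofChartNodesAt h' hq A hA hdegk x x₁ x₂ P Q hC).Q = Q := rfl

@[simp] theorem GeomData.ofChartNodesAt_E1 :
    (GeomData.ofChartNodesAt h' hq A hA hdegk x x₁ x₂ P Q hC).E1 = poleDiv Qb x := rfl

@[simp] theorem GeomData.ofChartNodesAt_E2 :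
    (GeomData.ofChartNodesAt h' hq A hA hdegk x x₁ x₂ P Q hC).E2 = zeroDiv Qb x := rfl

@[simp] theorem GeomData.ofChartNodesAt_Yinf₁
    [HasPrincipalDivisors (IsLocalRing.ResidueField A)
      ↥(modularFunctionFieldFullC (IsLocalRing.ResidueField A) M)] :
    (GeomData.ofChartNodesAt h' hq A hA hdegk x x₁ x₂ P Q hC).Yinf₁ =
      poleDiv (IsLocalRing.ResidueField A) x₁ := rfl

@[simp] theorem GeomData.ofChartNodesAt_Y0₁
    [HasPrincipalDivisors (IsLocalRing.ResidueField A)
      ↥(modularFunctionFieldFullC (IsLocalRing.ResidueField A) M)] :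
    (GeomData.ofChartNodesAt h' hq A hA hdegk x x₁ x₂ P Q hC).Y0₁ =
      zeroDiv (IsLocalRing.ResidueField A) x₁ := rfl

@[simp] theorem GeomData.ofChartNodesAt_Yinf₂
    [HasPrincipalDivisors (IsLocalRing.ResidueField A)
      ↥(modularFunctionFieldFullC (IsLocalRing.ResidueField A) M)] :
    (GeomData.ofChartNodesAt h' hq A hA hdegk x x₁ x₂ P Q hC).Yinf₂ =
      poleDiv (IsLocalRing.ResidueField A) x₂ := rfl

@[simp] theorem GeomData.ofChartNodesAt_Y0₂
    [HasPrincipalDivisors (IsLocalRing.ResidueField A)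
      ↥(modularFunctionFieldFullC (IsLocalRing.ResidueField A) M)] :
    (GeomData.ofChartNodesAt h' hq A hA hdegk x x₁ x₂ P Q hC).Y0₂ =
      zeroDiv (IsLocalRing.ResidueField A) x₂ := rfl

@[simp] theorem GeomData.ofChartNodesAt_d₁ :
    (GeomData.ofChartNodesAt h' hq A hA hdegk x x₁ x₂ P Q hC).d₁ =
      Module.finrank (IntermediateField.adjoin (IsLocalRing.ResidueField A) {x₁})
        ↥(modularFunctionFieldFullC (IsLocalRing.ResidueField A) M) := rfl

@[simp] theorem GeomData.ofChartNodesAt_d₂ :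
    (GeomData.ofChartNodesAt h' hq A hA hdegk x x₁ x₂ P Q hC).d₂ =
      Module.finrank (IntermediateField.adjoin (IsLocalRing.ResidueField A) {x₂})
        ↥(modularFunctionFieldFullC (IsLocalRing.ResidueField A) M) := rfl

end Proj

/-! ### Every bundle: the divisors are the pole / zero divisors of its chart -/

section Formulas

variable {h' : Nat.Coprime q M} {A : ValuationSubring Qb}

/-- `E1` is the pole divisor of the chart function, pointwise. -/
theorem GeomData.E1_apply (G : GeomData q M h' A)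
    (w : Place Qb (modularFunctionFieldBar (q * M))) : G.E1 w = max 0 (-(w.ord G.x)) := by
  have a1 := G.hE1 w
  have a2 := G.hE2 w
  have a3 := G.hxord w
  simp only [Finsupp.coe_zero, Pi.zero_apply] at a1 a2
  rcases G.hdisj w with h | h
  · rw [h, max_eq_left (by omega)]
  · rw [max_eq_right (by omega)]
    omega

/-- `E2` is the zero divisor of the chart function, pointwise. -/
theorem GeomData.E2_apply (G : GeomData q M h' A)
    (w : Place Qb (modularFunctionFieldBar (q * M))) : G.E2 w = max 0 (w.ord G.x) := by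
  have a1 := G.hE1 w
  have a2 := G.hE2 w
  have a3 := G.hxord w
  simp only [Finsupp.coe_zero, Pi.zero_apply] at a1 a2
  rcases G.hdisj w with h | h
  · rw [max_eq_right (by omega)]
    omega
  · rw [h, max_eq_left (by omega)]

/-- `Yinf₁` is the pole divisor of `x₁`, pointwise. -/
theorem GeomData.Yinf₁_apply (G : GeomData q M h' A)
    (w : Place (IsLocalRing.ResidueField A)
      ↥(modularFunctionFieldFullC (IsLocalRing.ResidueField A) M)) :
    G.Yinf₁ w = max 0 (-(w.ord G.x₁)) := by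
  have a1 := G.hYinf₁ w
  have a2 := G.hY0₁ w
  have a3 := G.hx₁ w
  simp only [Finsupp.coe_zero, Pi.zero_apply] at a1 a2
  rcases G.hdisj₁ w with h | h
  · rw [h, max_eq_left (by omega)]
  · rw [max_eq_right (by omega)]
    omega

/-- `Y0₁` is the zero divisor of `x₁`, pointwise. -/
theorem GeomData.Y0₁_apply (G : GeomData q M h' A)
    (w : Place (IsLocalRing.ResidueField A)
      ↥(modularFunctionFieldFullC (IsLocalRing.ResidueField A) M)) :
    G.Y0₁ w = max 0 (w.ord G.x₁) := by
  have a1 := G.hYinf₁ w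
  have a2 := G.hY0₁ w
  have a3 := G.hx₁ w
  simp only [Finsupp.coe_zero, Pi.zero_apply] at a1 a2
  rcases G.hdisj₁ w with h | h
  · rw [max_eq_right (by omega)]
    omega
  · rw [h, max_eq_left (by omega)]

/-- `Yinf₂` is the pole divisor of `x₂`, pointwise. -/
theorem GeomData.Yinf₂_apply (G : GeomData q M h' A)
    (w : Place (IsLocalRing.ResidueField A)
      ↥(modularFunctionFieldFullC (IsLocalRing.ResidueField A) M)) :
    G.Yinf₂ w = max 0 (-(w.ord G.x₂)) := by
  have a1 := G.hYinf₂ w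
  have a2 := G.hY0₂ w
  have a3 := G.hx₂ w
  simp only [Finsupp.coe_zero, Pi.zero_apply] at a1 a2
  rcases G.hdisj₂ w with h | h
  · rw [h, max_eq_left (by omega)]
  · rw [max_eq_right (by omega)]
    omega

/-- `Y0₂` is the zero divisor of `x₂`, pointwise. -/
theorem GeomData.Y0₂_apply (G : GeomData q M h' A)
    (w : Place (IsLocalRing.ResidueField A)
      ↥(modularFunctionFieldFullC (IsLocalRing.ResidueField A) M)) :
    G.Y0₂ w = max 0 (w.ord G.x₂) := by
  have a1 := G.hYinf₂ w
  have a2 := G.hY0₂ w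
  have a3 := G.hx₂ w
  simp only [Finsupp.coe_zero, Pi.zero_apply] at a1 a2
  rcases G.hdisj₂ w with h | h
  · rw [max_eq_right (by omega)]
    omega
  · rw [h, max_eq_left (by omega)]

theorem GeomData.E1_eq (G : GeomData q M h' A) : G.E1 = poleDiv Qb G.x :=
  eq_poleDiv_of_apply G.E1_apply

theorem GeomData.E2_eq (G : GeomData q M h' A) : G.E2 = zeroDiv Qb G.x :=
  eq_zeroDiv_of_apply G.E2_apply

theorem GeomData.Yinf₁_eq (G : GeomData q M h' A)
    [HasPrincipalDivisors (IsLocalRing.ResidueField A)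
      ↥(modularFunctionFieldFullC (IsLocalRing.ResidueField A) M)] :
    G.Yinf₁ = poleDiv (IsLocalRing.ResidueField A) G.x₁ :=
  eq_poleDiv_of_apply G.Yinf₁_apply

theorem GeomData.Y0₁_eq (G : GeomData q M h' A)
    [HasPrincipalDivisors (IsLocalRing.ResidueField A)
      ↥(modularFunctionFieldFullC (IsLocalRing.ResidueField A) M)] :
    G.Y0₁ = zeroDiv (IsLocalRing.ResidueField A) G.x₁ :=
  eq_zeroDiv_of_apply G.Y0₁_apply

theorem GeomData.Yinf₂_eq (G : GeomData q M h' A)
    [HasPrincipalDivisors (IsLocalRing.ResidueField A)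
      ↥(modularFunctionFieldFullC (IsLocalRing.ResidueField A) M)] :
    G.Yinf₂ = poleDiv (IsLocalRing.ResidueField A) G.x₂ :=
  eq_poleDiv_of_apply G.Yinf₂_apply

theorem GeomData.Y0₂_eq (G : GeomData q M h' A)
    [HasPrincipalDivisors (IsLocalRing.ResidueField A)
      ↥(modularFunctionFieldFullC (IsLocalRing.ResidueField A) M)] :
    G.Y0₂ = zeroDiv (IsLocalRing.ResidueField A) G.x₂ :=
  eq_zeroDiv_of_apply G.Y0₂_apply

/-- The nodes are neither zeros nor poles of the reductions of the chart function. -/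
theorem GeomData.ord_x₁_P (G : GeomData q M h' A) (i : G.I) : (G.P i).ord G.x₁ = 0 := by
  rw [G.hx₁, (G.hPY i).1, (G.hPY i).2]; rfl

theorem GeomData.ord_x₂_Q (G : GeomData q M h' A) (i : G.I) : (G.Q i).ord G.x₂ = 0 := by
  rw [G.hx₂, (G.hQY i).1, (G.hQY i).2]; rfl

/-- Frobenius chart: if `x₂ = x₁ ^ q` then `Yinf₂ = q • Yinf₁` and `Y0₂ = q • Y0₁`. -/
theorem GeomData.Y₂_eq_smul_of_pow (G : GeomData q M h' A) (hx : G.x₂ = G.x₁ ^ q) :
    G.Yinf₂ = q • G.Yinf₁ ∧ G.Y0₂ = q • G.Y0₁ := by
  have hord : ∀ w : Place (IsLocalRing.ResidueField A)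
      ↥(modularFunctionFieldFullC (IsLocalRing.ResidueField A) M),
      w.ord G.x₂ = (q : ℤ) * w.ord G.x₁ := fun w => by
    rw [hx, Fermat.Agent.S24.helper1370.ord_pow]
  constructor
  · refine Finsupp.ext fun w => ?_
    rw [G.Yinf₂_apply, hord, Finsupp.smul_apply, G.Yinf₁_apply, nsmul_eq_mul, ← mul_neg,
      max_zero_natCast_mul]
  · refine Finsupp.ext fun w => ?_
    rw [G.Y0₂_apply, hord, Finsupp.smul_apply, G.Y0₁_apply, nsmul_eq_mul,
      max_zero_natCast_mul]

end Formulas

/-! ### The existential forms -/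

/-- **Instance-free existential form of the explicit-chart handle**: a bundle with the given
chart function and reductions (and, by `GeomData.E1_apply` etc., the pole / zero divisors of
them). -/
theorem exists_geomData_at (h' : Nat.Coprime q M) (hq : q.Prime) (A : ValuationSubring Qb)
    (hA : A.LiesOverPrime q)
    (hdegk : ∀ w : Place (IsLocalRing.ResidueField A)
      ↥(modularFunctionFieldFullC (IsLocalRing.ResidueField A) M), w.deg = 1)
    (x : modularFunctionFieldBar (q * M))
    (x₁ x₂ : ↥(modularFunctionFieldFullC (IsLocalRing.ResidueField A) M))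
    {I : Type} [Fintype I]
    (P Q : I → Place (IsLocalRing.ResidueField A)
      ↥(modularFunctionFieldFullC (IsLocalRing.ResidueField A) M))
    (hC : ChartNodesAt q M h' A hdegk x x₁ x₂ P Q) :
    ∃ G : GeomData q M h' A, G.x = x ∧ G.x₁ = x₁ ∧ G.x₂ = x₂ ∧
      (∀ w, G.E1 w = max 0 (-(w.ord x))) ∧ (∀ w, G.E2 w = max 0 (w.ord x)) ∧
      (∀ w, G.Yinf₁ w = max 0 (-(w.ord x₁))) ∧ (∀ w, G.Y0₁ w = max 0 (w.ord x₁)) ∧
      (∀ w, G.Yinf₂ w = max 0 (-(w.ord x₂))) ∧ (∀ w, G.Y0₂ w = max 0 (w.ord x₂)) ∧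
      (∀ y : Place (IsLocalRing.ResidueField A)
          ↥(modularFunctionFieldFullC (IsLocalRing.ResidueField A) M),
        (∃ i, G.P i = y) ↔ ∃ i, P i = y) ∧
      (∀ y : Place (IsLocalRing.ResidueField A)
          ↥(modularFunctionFieldFullC (IsLocalRing.ResidueField A) M),
        (∃ i, G.Q i = y) ↔ ∃ i, Q i = y) :=
  ⟨GeomData.ofChartNodesAt h' hq A hA hdegk x x₁ x₂ P Q hC, rfl, rfl, rfl,
    fun _ => rfl, fun _ => rfl, fun _ => rfl, fun _ => rfl, fun _ => rfl, fun _ => rfl,
    fun _ => Iff.rfl, fun _ => Iff.rfl⟩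

/-- `nonempty_geomData` again, through the explicit form (same statement; kept as a check that
the two constructions agree on the hypothesis `Stmt_ChartNodes`). -/
theorem nonempty_geomData_of_at (h' : Nat.Coprime q M) (hq : q.Prime) (A : ValuationSubring Qb)
    (hA : A.LiesOverPrime q)
    (hC : Fermat.Agent.S34.helper2423.Stmt_ChartNodes q M h' A) :
    Nonempty (GeomData q M h' A) := by
  obtain ⟨x, x₁, x₂, I, _, P, Q, hC'⟩ :=
    (Fermat.Agent.S35.helper1928.stmt_ChartNodes_iff q M h' A).mp hC (geom_hdegk h' hq A hA)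
  exact ⟨GeomData.ofChartNodesAt h' hq A hA _ x x₁ x₂ P Q hC'⟩

end At

end

end Fermat.Agent.S44.helper3630
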