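/-
S44-L6-EPSCUSP (helper4539): the modular unit `eps = Δ(t)/Δ(t^p)` at EVERY cusp, expansion form.

For a squarefree level `N = p * N0` every cusp of `X₀(N)` is `W_Q(∞)` for an exact divisor `Q ∣ N`,
so the expansion of a function `f` at that cusp is the expansion at `∞` of `W_Q f`
(`W_Q = S35.helper1219.atkinLehnerBar Q (N / Q)`).  With `u = Δ(t^p)/Δ(t) = eps⁻¹`
(`S36.helper5460.deltaQuot`) and the mutually inverse INTEGER Laurent series
`deltaQuotZ p = t^(p-1) (E(t^p)/E(t))²⁴`, `deltaUnitZ p = t^(1-p) (E(t)/E(t^p))²⁴` of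
`S36.helper4857`:

* (C1) `p ∤ Q` (`Q = d`, level `d * M`, `p ∣ M`): `W_d u = u(t^d)`, i.e. the expansion of `W_d u`
  is `qExpand ℤ d (deltaQuotZ p)` and that of `W_d eps` is `qExpand ℤ d (deltaUnitZ p)`;
* (C2) `p ∣ Q` (`Q = p * d`, level `p * d * M`): `W_Q u = p⁻¹² · eps(t^d)`, i.e. the expansion of
  `p¹² · W_Q u` is `qExpand ℤ d (deltaUnitZ p)` and that of `p⁻¹² · W_Q eps` is
  `qExpand ℤ d (deltaQuotZ p)`.

Both series are units of `ℤ((t))` with leading coefficient `1`, of order `∓ d (p - 1)` over EVERY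
nontrivial coefficient ring (`order_coeffMap_qExpand_deltaUnitZ`, `..._deltaQuotZ`): the order of
`eps` at the cusp and the order of its reduction at the reduced cusp are EQUAL (and prime to `p`
when `p ∤ d`), and the normalised functions are units of the Gauss ring at `∞` with these
reductions (`..._mem_gaussF`, `gaussFRed_...`).
-/
import Mathlib
import Fermat.Agent.S44.helper4539_EpsVal

set_option autoImplicit false

open Complex UpperHalfPlane ModularCurve CongruenceSubgroup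
open scoped MatrixGroups

noncomputable section

namespace Fermat.Agent.S44.helper4539

open Fermat.Agent.S24.helper24 Fermat.Agent.S24.helper504 Fermat.Agent.S24
open Fermat.Agent.S35.helper1219
open Fermat.Agent.S28.helper4768 (DeltaL DeltaL_ne_zero)
open Fermat.Agent.S28.helper407 (pt coe_pt)
open Fermat.Agent.S36.helper5460
open Fermat.Agent.S36.helper4857 (deltaQuotZ deltaUnitZ DeltaLZ)

local notation "Δ" => ModularForm.discriminant

/-! ## The analytic identity at the cusps `W_(pd)(∞)` -/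

/-- For `γ ∈ SL(2, ℤ)` with bottom row `(M, p d)`:
`Δ(p · γ(pdτ)) / Δ(γ(pdτ)) = p⁻¹² · Δ(dτ) / Δ(pdτ)`. -/
theorem deltaQuotFun_smul_hpt_mid (p d M : ℕ) [NeZero p] [NeZero d] (γ : SL(2, ℤ))
    (h10 : γ 1 0 = (M : ℤ)) (h11 : γ 1 1 = ((p * d : ℕ) : ℤ)) (τ : ℍ) :
    deltaQuotFun p (γ • hpt (p * d) 0 1 τ) =
      ((p : ℂ) ^ 12)⁻¹ * (deltaQuotFun d τ * deltaQuotInvFun (p * d) τ) := by
  have hp0 : 0 < p := Nat.pos_of_ne_zero (NeZero.ne p)
  have hd0 : 0 < d := Nat.pos_of_ne_zero (NeZero.ne d)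
  have hQ0 : 0 < p * d := Nat.mul_pos hp0 hd0
  have hpC : (p : ℂ) ≠ 0 := Nat.cast_ne_zero.mpr (NeZero.ne p)
  have hdC : (d : ℂ) ≠ 0 := Nat.cast_ne_zero.mpr (NeZero.ne d)
  have hdet := γ.det_coe
  rw [Matrix.det_fin_two, h10, h11] at hdet
  have hdet' : Matrix.det !![(p : ℤ) * γ 0 0, γ 0 1; (M : ℤ), (d : ℤ)] = 1 := by
    rw [Matrix.det_fin_two_of]
    push_cast at hdet
    linear_combination hdet
  let γ' : SL(2, ℤ) := ⟨!![(p : ℤ) * γ 0 0, γ 0 1; (M : ℤ), (d : ℤ)], hdet'⟩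
  have hmat : !![(p : ℤ), 0; 0, 1] * (γ : Matrix (Fin 2) (Fin 2) ℤ) =
      (γ' : Matrix (Fin 2) (Fin 2) ℤ) * !![((1 : ℕ) : ℤ), ((0 : ℕ) : ℤ); 0, (p : ℤ)] := by
    ext i j
    fin_cases i <;> fin_cases j
    · simp [γ', Matrix.mul_apply, Fin.sum_univ_two]
    · simp [γ', Matrix.mul_apply, Fin.sum_univ_two]
      ring
    · simp [γ', Matrix.mul_apply, Fin.sum_univ_two]
      exact h10
    · simp [γ', Matrix.mul_apply, Fin.sum_univ_two]
      rw [h11]
      push_cast
      ring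
  set σ : ℍ := hpt (p * d) 0 1 τ with hσ
  have hσpt : σ = pt (p * d) 0 1 τ := by
    apply UpperHalfPlane.ext
    rw [hσ, coe_hpt, coe_pt hQ0 one_pos]
  have hτ : pt 1 0 p σ = pt d 0 1 τ := by
    apply UpperHalfPlane.ext
    rw [coe_pt one_pos hp0, coe_pt hd0 one_pos, hσ, coe_hpt]
    simp only [Nat.cast_zero, Nat.cast_one, add_zero, div_one, one_mul, Nat.cast_mul]
    field_simp
  have h1 := Fermat.Agent.S28.helper407.discriminant_pt_smul hp0 one_pos hp0 hmat σ
  rw [hτ] at h1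
  have h2 := Fermat.Agent.S28.helper407.discriminant_smul γ σ
  have hne := Fermat.Agent.S28.helper407.denom_SL2Z_ne_zero γ σ
  have hΔτ : Δ τ ≠ 0 := ModularForm.discriminant_ne_zero τ
  have hΔσ : Δ σ ≠ 0 := ModularForm.discriminant_ne_zero σ
  have hΔd : Δ (pt d 0 1 τ) ≠ 0 := ModularForm.discriminant_ne_zero _
  unfold deltaQuotFun deltaQuotInvFun
  rw [h1, h2, ← hσpt]
  field_simp

/-! ## The Atkin–Lehner transforms of `u = Δ(t^p)/Δ(t)` -/

/-- **(C2), function-field form.** `W_(pd) (Δ(t^p)/Δ(t)) = p⁻¹² · Δ(t^d)/Δ(t^(pd))` at level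
`p * d * M`. -/
theorem atkinLehnerBar_deltaQuot_mid (p d M : ℕ) [NeZero p] [NeZero d] [NeZero M]
    (h : Nat.Coprime (p * d) M) (h1 : p ∣ p * d * M) (h2 : d ∣ p * d * M)
    (h3 : p * d ∣ p * d * M) :
    atkinLehnerBar (p * d) M h (deltaQuot (p * d * M) p h1) =
      algebraMap Kbar (FN (p * d * M)) (((p : Kbar) ^ 12)⁻¹) *
        (deltaQuot (p * d * M) d h2 / deltaQuot (p * d * M) (p * d) h3) := by
  have hconst : IsAvatar (p * d * M) (algebraMap Kbar (FN (p * d * M)) (((p : Kbar) ^ 12)⁻¹))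
      (fun _ => ((p : ℂ) ^ 12)⁻¹) := by
    refine ⟨(helper315.IsCuspHol.const 1 _).isCuspMer, ?_⟩
    rw [helper315.cuspExpFun_const one_pos, formalC_algebraMap]
    congr 1
    rw [map_inv₀, map_pow, map_natCast]
  refine atkinLehnerBar_eq_of_avatar (p * d) M h _ _ (deltaQuotFun p)
    ((fun _ => ((p : ℂ) ^ 12)⁻¹) * (deltaQuotFun d * deltaQuotInvFun (p * d)))
    (isAvatar_deltaQuot (p * d * M) p h1)
    (hconst.mul ((isAvatar_deltaQuot (p * d * M) d h2).div
      (isAvatar_deltaQuot (p * d * M) (p * d) h3)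
      (cm_deltaQuotInvFun (p * d)).1 (deltaQuotFun_mul_inv (p * d)))) fun τ => ?_
  rw [alGL_smul, deltaQuotFun_smul_hpt_mid p d M (alGamma (p * d) M h)
    (alGamma_one_zero (p * d) M h) (alGamma_one_one (p * d) M h) τ]
  rfl

/-! ## Expansions -/

section Series

variable (p d : ℕ) [NeZero p] [NeZero d]

/-- `Δ(t^(pd))/Δ(t^d) = (Δ(t^p)/Δ(t))(t^d)` as rational Laurent series. -/
theorem deltaQuotQ_div :
    deltaQuotQ (p * d) / deltaQuotQ d = qExpand ℚ d (deltaQuotQ p) := by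
  have hd : qExpand ℚ d DeltaL ≠ 0 := fun h =>
    DeltaL_ne_zero ((map_eq_zero_iff _ (RingHom.injective _)).mp h)
  have h0 := DeltaL_ne_zero
  unfold deltaQuotQ
  rw [map_div₀, qExpand_qExpand, qExpand_congr (mul_comm d p)]
  field_simp

/-- The expansion `u(t^d)` over `ℚ̄` is the integer series `qExpand ℤ d (deltaQuotZ p)`. -/
theorem coeffEmb_qExpand_deltaQuotQ :
    coeffEmb Kbar (qExpand ℚ d (deltaQuotQ p))
      = coeffMap (Int.castRingHom Kbar) (qExpand ℤ d (deltaQuotZ p)) := by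
  rw [helper3176.coeffEmb_qExpand, deltaQuotQ,
    Fermat.Agent.S36.helper4857.coeffEmb_deltaQuot p Kbar, coeffMap_qExpand]

theorem qExpand_deltaQuotZ_mul_deltaUnitZ :
    qExpand ℤ d (deltaQuotZ p) * qExpand ℤ d (deltaUnitZ p) = 1 := by
  rw [← map_mul, Fermat.Agent.S36.helper4857.deltaQuotZ_mul_deltaUnitZ, map_one]

theorem qExpand_deltaUnitZ_mul_deltaQuotZ :
    qExpand ℤ d (deltaUnitZ p) * qExpand ℤ d (deltaQuotZ p) = 1 := by
  rw [mul_comm, qExpand_deltaQuotZ_mul_deltaUnitZ]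

/-- The expansion `eps(t^d)` over `ℚ̄` is the integer series `qExpand ℤ d (deltaUnitZ p)`. -/
theorem inv_coeffEmb_qExpand_deltaQuotQ :
    (coeffEmb Kbar (qExpand ℚ d (deltaQuotQ p)))⁻¹
      = coeffMap (Int.castRingHom Kbar) (qExpand ℤ d (deltaUnitZ p)) := by
  have h1 : coeffMap (Int.castRingHom Kbar) (qExpand ℤ d (deltaQuotZ p))
      * coeffMap (Int.castRingHom Kbar) (qExpand ℤ d (deltaUnitZ p)) = 1 := by
    rw [← map_mul, qExpand_deltaQuotZ_mul_deltaUnitZ, map_one]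
  rw [coeffEmb_qExpand_deltaQuotQ]
  exact (eq_inv_of_mul_eq_one_right h1).symm

end Series

/-! ## Orders of the cusp series over any nontrivial coefficient ring -/

section Orders

variable {R : Type*} [CommRing R]

theorem coeff_coeffMap_qExpand_single_mul (f : ℤ →+* R) (d : ℕ) [NeZero d] (n : ℤ)
    (U : PowerSeries ℤ) (m : ℤ) :
    (coeffMap f (qExpand ℤ d
        (HahnSeries.single n (1 : ℤ) * HahnSeries.ofPowerSeries ℤ ℤ U))).coeff ((d : ℤ) * m)
      = f ((HahnSeries.ofPowerSeries ℤ ℤ U).coeff (m - n)) := by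
  rw [coeffMap_coeff, qExpand_coeff_mul, HahnSeries.coeff_single_mul, one_mul]

/-- A series `(t^n · U(t))(t^d)` with `U(0) = 1`, read over a nontrivial ring, has order `d n`
and leading coefficient `1`. -/
theorem coeff_coeffMap_qExpand_single_mul_self (f : ℤ →+* R) (d : ℕ) [NeZero d] (n : ℤ)
    (U : PowerSeries ℤ) (hU : PowerSeries.constantCoeff U = 1) :
    (coeffMap f (qExpand ℤ d
        (HahnSeries.single n (1 : ℤ) * HahnSeries.ofPowerSeries ℤ ℤ U))).coeff ((d : ℤ) * n)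
      = 1 := by
  rw [coeff_coeffMap_qExpand_single_mul, sub_self, show (0 : ℤ) = ((0 : ℕ) : ℤ) from rfl,
    HahnSeries.ofPowerSeries_apply_coeff, PowerSeries.coeff_zero_eq_constantCoeff_apply, hU,
    map_one]

theorem coeff_coeffMap_qExpand_single_mul_of_lt (f : ℤ →+* R) (d : ℕ) [NeZero d] (n : ℤ)
    (U : PowerSeries ℤ) {j : ℤ} (hj : j < (d : ℤ) * n) :
    (coeffMap f (qExpand ℤ d
        (HahnSeries.single n (1 : ℤ) * HahnSeries.ofPowerSeries ℤ ℤ U))).coeff j = 0 := by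
  by_cases hdvd : (d : ℤ) ∣ j
  · obtain ⟨m, rfl⟩ := hdvd
    have hd : (0 : ℤ) < (d : ℤ) := by exact_mod_cast Nat.pos_of_ne_zero (NeZero.ne d)
    have hm : m < n := lt_of_mul_lt_mul_left hj hd.le
    rw [coeff_coeffMap_qExpand_single_mul, ModularCurve.ofPowerSeries_coeff_of_neg U (by omega),
      map_zero]
  · rw [coeffMap_coeff, qExpand_coeff_of_not_dvd d _ hdvd, map_zero]

theorem order_coeffMap_qExpand_single_mul [Nontrivial R] (f : ℤ →+* R) (d : ℕ) [NeZero d]
    (n : ℤ) (U : PowerSeries ℤ) (hU : PowerSeries.constantCoeff U = 1) :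
    (coeffMap f (qExpand ℤ d
        (HahnSeries.single n (1 : ℤ) * HahnSeries.ofPowerSeries ℤ ℤ U))).order = (d : ℤ) * n := by
  have h1 := coeff_coeffMap_qExpand_single_mul_self f d n U hU
  have h1' : (coeffMap f (qExpand ℤ d
      (HahnSeries.single n (1 : ℤ) * HahnSeries.ofPowerSeries ℤ ℤ U))).coeff ((d : ℤ) * n) ≠ 0 := by
    rw [h1]
    exact one_ne_zero
  refine le_antisymm (HahnSeries.order_le_of_coeff_ne_zero h1') ?_
  rw [HahnSeries.le_order_iff_forall (HahnSeries.ne_zero_of_coeff_ne_zero h1')]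
  intro j hj
  exact coeff_coeffMap_qExpand_single_mul_of_lt f d n U hj

variable (p d : ℕ) [NeZero p] [NeZero d]

/-- **Order of `u(t^d) = Δ(t^(pd))/Δ(t^d)`** over any nontrivial ring: `d (p - 1)`. -/
theorem order_coeffMap_qExpand_deltaQuotZ [Nontrivial R] (f : ℤ →+* R) :
    (coeffMap f (qExpand ℤ d (deltaQuotZ p))).order = (d : ℤ) * ((p : ℤ) - 1) :=
  order_coeffMap_qExpand_single_mul f d _ _ (Fermat.Agent.S36.helper4857.constantCoeff_deltaW p)

/-- **Order of `eps(t^d) = Δ(t^d)/Δ(t^(pd))`** over any nontrivial ring: `d (1 - p)`. -/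
theorem order_coeffMap_qExpand_deltaUnitZ [Nontrivial R] (f : ℤ →+* R) :
    (coeffMap f (qExpand ℤ d (deltaUnitZ p))).order = (d : ℤ) * (1 - (p : ℤ)) :=
  order_coeffMap_qExpand_single_mul f d _ _
    (Fermat.Agent.S36.helper4857.constantCoeff_deltaWInv p)

/-- Leading coefficient `1` (so the leading coefficient survives every reduction). -/
theorem coeff_coeffMap_qExpand_deltaQuotZ (f : ℤ →+* R) :
    (coeffMap f (qExpand ℤ d (deltaQuotZ p))).coeff ((d : ℤ) * ((p : ℤ) - 1)) = 1 :=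
  coeff_coeffMap_qExpand_single_mul_self f d _ _
    (Fermat.Agent.S36.helper4857.constantCoeff_deltaW p)

theorem coeff_coeffMap_qExpand_deltaUnitZ (f : ℤ →+* R) :
    (coeffMap f (qExpand ℤ d (deltaUnitZ p))).coeff ((d : ℤ) * (1 - (p : ℤ))) = 1 :=
  coeff_coeffMap_qExpand_single_mul_self f d _ _
    (Fermat.Agent.S36.helper4857.constantCoeff_deltaWInv p)

end Orders

/-! ## (C1) The cusps `W_d(∞)`, `p ∤ d`: level `d * M`, `p ∣ M` -/

section C1

variable (p d M : ℕ) [NeZero p] [NeZero d] [NeZero M] (h : Nat.Coprime d M) (hp : p ∣ M)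
  (h1 : p ∣ d * M)

include hp

/-- **(C1)** The expansion of `W_d (Δ(t^p)/Δ(t))` is the integer series `(Δ(t^p)/Δ(t))(t^d)`. -/
theorem coe_atkinLehnerBar_deltaQuot_left :
    ((atkinLehnerBar d M h (deltaQuot (d * M) p h1) : FN (d * M)) : LaurentSeries Kbar)
      = coeffMap (Int.castRingHom Kbar) (qExpand ℤ d (deltaQuotZ p)) := by
  have h2 : p * d ∣ d * M := by
    rw [mul_comm p d]
    exact Nat.mul_dvd_mul_left d hp
  rw [atkinLehnerBar_deltaQuot_left d M h hp h1 h2, IntermediateField.coe_div,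
    coe_deltaQuot, coe_deltaQuot, ← map_div₀, deltaQuotQ_div, coeffEmb_qExpand_deltaQuotQ]

/-- **(C1)** The expansion of `W_d (eps)` is the integer series `eps(t^d)`. -/
theorem coe_atkinLehnerBar_eps_left :
    ((atkinLehnerBar d M h (deltaQuot (d * M) p h1)⁻¹ : FN (d * M)) : LaurentSeries Kbar)
      = coeffMap (Int.castRingHom Kbar) (qExpand ℤ d (deltaUnitZ p)) := by
  rw [map_inv₀]
  exact Fermat.Agent.S35.helper4640.coe_inv_eq (d * M) (qExpand_deltaQuotZ_mul_deltaUnitZ p d)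
    (coe_atkinLehnerBar_deltaQuot_left p d M h hp h1)

/-- **(C1), order.** `ord_{W_d(∞)} (eps) = d (1 - p)`. -/
theorem order_atkinLehnerBar_eps_left :
    ((atkinLehnerBar d M h (deltaQuot (d * M) p h1)⁻¹ : FN (d * M)) : LaurentSeries Kbar).order
      = (d : ℤ) * (1 - (p : ℤ)) := by
  rw [coe_atkinLehnerBar_eps_left p d M h hp h1, order_coeffMap_qExpand_deltaUnitZ]

variable (A : ValuationSubring Kbar) {k : Type*} [Field k] (π : A →+* k)

theorem atkinLehnerBar_eps_left_mem_gaussF :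
    atkinLehnerBar d M h (deltaQuot (d * M) p h1)⁻¹ ∈ Fermat.Agent.S18.helper8991.gaussF A π (d * M) :=
  Fermat.Agent.S35.helper4640.mem_gaussF_of_coe_eq A π (d * M)
    (coe_atkinLehnerBar_eps_left p d M h hp h1)

theorem atkinLehnerBar_deltaQuot_left_mem_gaussF :
    atkinLehnerBar d M h (deltaQuot (d * M) p h1) ∈ Fermat.Agent.S18.helper8991.gaussF A π (d * M) :=
  Fermat.Agent.S35.helper4640.mem_gaussF_of_coe_eq A π (d * M)
    (coe_atkinLehnerBar_deltaQuot_left p d M h hp h1)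

/-- **(C1), reduction.** `red_∞ (W_d eps) = eps(t^d)` read in `k`: a unit of the Gauss ring whose
reduction has the same order `d (1 - p)` at `t = 0`. -/
theorem gaussFRed_atkinLehnerBar_eps_left :
    Fermat.Agent.S18.helper8991.gaussFRed A π (d * M)
        ⟨atkinLehnerBar d M h (deltaQuot (d * M) p h1)⁻¹,
          atkinLehnerBar_eps_left_mem_gaussF p d M h hp h1 A π⟩
      = coeffMap (Int.castRingHom k) (qExpand ℤ d (deltaUnitZ p)) :=
  Fermat.Agent.S35.helper4640.gaussFRed_of_coe_eq A π (d * M)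
    (coe_atkinLehnerBar_eps_left p d M h hp h1) _

theorem gaussFRed_atkinLehnerBar_deltaQuot_left :
    Fermat.Agent.S18.helper8991.gaussFRed A π (d * M)
        ⟨atkinLehnerBar d M h (deltaQuot (d * M) p h1),
          atkinLehnerBar_deltaQuot_left_mem_gaussF p d M h hp h1 A π⟩
      = coeffMap (Int.castRingHom k) (qExpand ℤ d (deltaQuotZ p)) :=
  Fermat.Agent.S35.helper4640.gaussFRed_of_coe_eq A π (d * M)
    (coe_atkinLehnerBar_deltaQuot_left p d M h hp h1) _

/-- **(C1), (CUSP) equality.** The order of the reduction of `W_d eps` equals the order of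
`W_d eps`: both are `d (1 - p)`. -/
theorem order_gaussFRed_atkinLehnerBar_eps_left :
    (Fermat.Agent.S18.helper8991.gaussFRed A π (d * M)
        ⟨atkinLehnerBar d M h (deltaQuot (d * M) p h1)⁻¹,
          atkinLehnerBar_eps_left_mem_gaussF p d M h hp h1 A π⟩).order
      = ((atkinLehnerBar d M h (deltaQuot (d * M) p h1)⁻¹ : FN (d * M)) :
          LaurentSeries Kbar).order := by
  rw [gaussFRed_atkinLehnerBar_eps_left p d M h hp h1, order_coeffMap_qExpand_deltaUnitZ,
    order_atkinLehnerBar_eps_left p d M h hp h1]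

end C1

/-! ## (C2) The cusps `W_(pd)(∞)`: level `p * d * M` -/

section C2

variable (p d M : ℕ) [NeZero p] [NeZero d] [NeZero M] (h : Nat.Coprime (p * d) M)
  (h1 : p ∣ p * d * M)

/-- **(C2)** The expansion of `p¹² · W_(pd) (Δ(t^p)/Δ(t))` is the integer series `eps(t^d)`. -/
theorem coe_const_mul_atkinLehnerBar_deltaQuot_mid :
    ((algebraMap Kbar (FN (p * d * M)) ((p : Kbar) ^ 12)
        * atkinLehnerBar (p * d) M h (deltaQuot (p * d * M) p h1) : FN (p * d * M)) :
          LaurentSeries Kbar)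
      = coeffMap (Int.castRingHom Kbar) (qExpand ℤ d (deltaUnitZ p)) := by
  have hq0 : ((p : Kbar) ^ 12) ≠ 0 := pow_ne_zero 12 (Nat.cast_ne_zero.mpr (NeZero.ne p))
  have h2 : d ∣ p * d * M := ⟨p * M, by ring⟩
  have h3 : p * d ∣ p * d * M := dvd_mul_right (p * d) M
  rw [atkinLehnerBar_deltaQuot_mid p d M h h1 h2 h3, ← mul_assoc, ← map_mul,
    mul_inv_cancel₀ hq0, map_one, one_mul, IntermediateField.coe_div, coe_deltaQuot,
    coe_deltaQuot, ← map_div₀, ← inv_div, map_inv₀, deltaQuotQ_div,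
    inv_coeffEmb_qExpand_deltaQuotQ]

/-- **(C2)** The expansion of `p⁻¹² · W_(pd) (eps)` is the integer series `(Δ(t^p)/Δ(t))(t^d)`. -/
theorem coe_const_mul_atkinLehnerBar_eps_mid :
    ((algebraMap Kbar (FN (p * d * M)) (((p : Kbar) ^ 12)⁻¹)
        * atkinLehnerBar (p * d) M h (deltaQuot (p * d * M) p h1)⁻¹ : FN (p * d * M)) :
          LaurentSeries Kbar)
      = coeffMap (Int.castRingHom Kbar) (qExpand ℤ d (deltaQuotZ p)) := by
  have he : algebraMap Kbar (FN (p * d * M)) (((p : Kbar) ^ 12)⁻¹)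
        * atkinLehnerBar (p * d) M h (deltaQuot (p * d * M) p h1)⁻¹
      = (algebraMap Kbar (FN (p * d * M)) ((p : Kbar) ^ 12)
        * atkinLehnerBar (p * d) M h (deltaQuot (p * d * M) p h1))⁻¹ := by
    rw [map_inv₀, map_inv₀, mul_inv]
  rw [he]
  exact Fermat.Agent.S35.helper4640.coe_inv_eq (p * d * M)
    (qExpand_deltaUnitZ_mul_deltaQuotZ p d)
    (coe_const_mul_atkinLehnerBar_deltaQuot_mid p d M h h1)

/-- **(C2), order.** `ord_{W_(pd)(∞)} (eps) = d (p - 1)` (the constant `p⁻¹²` has order `0`). -/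
theorem order_const_mul_atkinLehnerBar_eps_mid :
    ((algebraMap Kbar (FN (p * d * M)) (((p : Kbar) ^ 12)⁻¹)
        * atkinLehnerBar (p * d) M h (deltaQuot (p * d * M) p h1)⁻¹ : FN (p * d * M)) :
          LaurentSeries Kbar).order
      = (d : ℤ) * ((p : ℤ) - 1) := by
  rw [coe_const_mul_atkinLehnerBar_eps_mid p d M h h1, order_coeffMap_qExpand_deltaQuotZ]

variable (A : ValuationSubring Kbar) {k : Type*} [Field k] (π : A →+* k)

theorem const_mul_atkinLehnerBar_eps_mid_mem_gaussF :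
    algebraMap Kbar (FN (p * d * M)) (((p : Kbar) ^ 12)⁻¹)
        * atkinLehnerBar (p * d) M h (deltaQuot (p * d * M) p h1)⁻¹
      ∈ Fermat.Agent.S18.helper8991.gaussF A π (p * d * M) :=
  Fermat.Agent.S35.helper4640.mem_gaussF_of_coe_eq A π (p * d * M)
    (coe_const_mul_atkinLehnerBar_eps_mid p d M h h1)

theorem const_mul_atkinLehnerBar_deltaQuot_mid_mem_gaussF :
    algebraMap Kbar (FN (p * d * M)) ((p : Kbar) ^ 12)
        * atkinLehnerBar (p * d) M h (deltaQuot (p * d * M) p h1)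
      ∈ Fermat.Agent.S18.helper8991.gaussF A π (p * d * M) :=
  Fermat.Agent.S35.helper4640.mem_gaussF_of_coe_eq A π (p * d * M)
    (coe_const_mul_atkinLehnerBar_deltaQuot_mid p d M h h1)

/-- **(C2), reduction.** `red_∞ (p⁻¹² W_(pd) eps) = (Δ(t^p)/Δ(t))(t^d)` read in `k`. -/
theorem gaussFRed_const_mul_atkinLehnerBar_eps_mid :
    Fermat.Agent.S18.helper8991.gaussFRed A π (p * d * M)
        ⟨algebraMap Kbar (FN (p * d * M)) (((p : Kbar) ^ 12)⁻¹)
            * atkinLehnerBar (p * d) M h (deltaQuot (p * d * M) p h1)⁻¹,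
          const_mul_atkinLehnerBar_eps_mid_mem_gaussF p d M h h1 A π⟩
      = coeffMap (Int.castRingHom k) (qExpand ℤ d (deltaQuotZ p)) :=
  Fermat.Agent.S35.helper4640.gaussFRed_of_coe_eq A π (p * d * M)
    (coe_const_mul_atkinLehnerBar_eps_mid p d M h h1) _

theorem gaussFRed_const_mul_atkinLehnerBar_deltaQuot_mid :
    Fermat.Agent.S18.helper8991.gaussFRed A π (p * d * M)
        ⟨algebraMap Kbar (FN (p * d * M)) ((p : Kbar) ^ 12)
            * atkinLehnerBar (p * d) M h (deltaQuot (p * d * M) p h1),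
          const_mul_atkinLehnerBar_deltaQuot_mid_mem_gaussF p d M h h1 A π⟩
      = coeffMap (Int.castRingHom k) (qExpand ℤ d (deltaUnitZ p)) :=
  Fermat.Agent.S35.helper4640.gaussFRed_of_coe_eq A π (p * d * M)
    (coe_const_mul_atkinLehnerBar_deltaQuot_mid p d M h h1) _

/-- **(C2), (CUSP) equality.** The order of the reduction of `p⁻¹² W_(pd) eps` equals its order:
both are `d (p - 1)`. -/
theorem order_gaussFRed_const_mul_atkinLehnerBar_eps_mid :
    (Fermat.Agent.S18.helper8991.gaussFRed A π (p * d * M)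
        ⟨algebraMap Kbar (FN (p * d * M)) (((p : Kbar) ^ 12)⁻¹)
            * atkinLehnerBar (p * d) M h (deltaQuot (p * d * M) p h1)⁻¹,
          const_mul_atkinLehnerBar_eps_mid_mem_gaussF p d M h h1 A π⟩).order
      = ((algebraMap Kbar (FN (p * d * M)) (((p : Kbar) ^ 12)⁻¹)
          * atkinLehnerBar (p * d) M h (deltaQuot (p * d * M) p h1)⁻¹ : FN (p * d * M)) :
            LaurentSeries Kbar).order := by
  rw [gaussFRed_const_mul_atkinLehnerBar_eps_mid, order_coeffMap_qExpand_deltaQuotZ,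
    order_const_mul_atkinLehnerBar_eps_mid p d M h h1]

end C2

end Fermat.Agent.S44.helper4539
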