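/-
S44-L6-EPSBAR (helper4539): the reduction `ε̄` of `eps = Δ(t)/Δ(t^p)` at the Gauss valuation `v_∞`
is a function of LEVEL ONE on the special fibre.

`A ⊂ ℚ̄` a valuation subring above the prime `p`, `k` its residue field.  The reduction of `eps`
(at every level `p * M`) is the integer series `deltaUnitZ p = t^(1-p) (E(t)/E(t^p))²⁴` read in
`k` (`helper4539.gpRho_eps`); its inverse is `deltaQuotZ p` read in `k`, the reduction of
`u = Δ(t^p)/Δ(t)` and of `W (eps / p¹²)`.  Here:

* `epsBar_mem_fullC_one`, `deltaBar_mem_fullC_one` : both series lie in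
  `modularFunctionFieldFullC k 1 = k(j̄)` (item (iv) of the cusp-matching seam, chat #375);
* `epsBar_mem_fullC`, `deltaBar_mem_fullC` : hence in `modularFunctionFieldFullC k M`, every `M`;
* `order_epsBar = 1 - p`, `order_deltaBar = p - 1`, leading coefficients `1`, and
  `epsBar_mul_deltaBar = 1`;
* `gpRho_eps_mem_fullC_one` etc.: the same statements for `helper882.gpRho A (p * M) eps`.
-/
import Mathlib
import Fermat.Agent.S44.helper4539_EpsCusp
import Fermat.Agent.S35.helper1928_ResField

set_option autoImplicit false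

open ModularCurve

noncomputable section

namespace Fermat.Agent.S44.helper4539

open Fermat.Agent.S24.helper24 (Kbar FN)
open Fermat.Agent.S36.helper5460 (deltaQuot)
open Fermat.Agent.S36.helper4857 (deltaQuotZ deltaUnitZ)
open Fermat.Agent.S35.helper882 (gpRho)

section EpsBar

variable (p : ℕ) [Fact p.Prime] (A : ValuationSubring Kbar) (hA : (p : Kbar) ∈ A.nonunits)

include hA in
/-- **`ε̄ ∈ k(j̄)`**: the reduction of `eps = Δ(t)/Δ(t^p)` is a function of level one. -/
theorem epsBar_mem_fullC_one :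
    coeffMap (Int.castRingHom (IsLocalRing.ResidueField A)) (deltaUnitZ p)
      ∈ modularFunctionFieldFullC (IsLocalRing.ResidueField A) 1 := by
  have : NeZero p := ⟨(Fact.out : p.Prime).ne_zero⟩
  have h := Fermat.Agent.S35.helper1928.gpRho_mem_fullC p 1
    (fun h => (Fact.out : p.Prime).one_lt.ne' (Nat.dvd_one.mp h)) A hA
    (deltaQuot (p * 1) p (dvd_mul_right p 1))⁻¹
  rwa [gpRho_eps] at h

include hA in
/-- **`ε̄⁻¹ ∈ k(j̄)`**: the reduction of `u = Δ(t^p)/Δ(t)` is a function of level one. -/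
theorem deltaBar_mem_fullC_one :
    coeffMap (Int.castRingHom (IsLocalRing.ResidueField A)) (deltaQuotZ p)
      ∈ modularFunctionFieldFullC (IsLocalRing.ResidueField A) 1 := by
  have : NeZero p := ⟨(Fact.out : p.Prime).ne_zero⟩
  have h := Fermat.Agent.S35.helper1928.gpRho_mem_fullC p 1
    (fun h => (Fact.out : p.Prime).one_lt.ne' (Nat.dvd_one.mp h)) A hA
    (deltaQuot (p * 1) p (dvd_mul_right p 1))
  rwa [gpRho_deltaQuot] at h

include hA in
theorem epsBar_mem_fullC (M : ℕ) [NeZero M] :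
    coeffMap (Int.castRingHom (IsLocalRing.ResidueField A)) (deltaUnitZ p)
      ∈ modularFunctionFieldFullC (IsLocalRing.ResidueField A) M :=
  full_degeneracyC_le (IsLocalRing.ResidueField A) (one_dvd M) (epsBar_mem_fullC_one p A hA)

include hA in
theorem deltaBar_mem_fullC (M : ℕ) [NeZero M] :
    coeffMap (Int.castRingHom (IsLocalRing.ResidueField A)) (deltaQuotZ p)
      ∈ modularFunctionFieldFullC (IsLocalRing.ResidueField A) M :=
  full_degeneracyC_le (IsLocalRing.ResidueField A) (one_dvd M) (deltaBar_mem_fullC_one p A hA)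

include hA in
/-- The reduction of `eps` at level `p * M` lies in `k(j̄) = F_k(1) ⊆ F_k(M)`. -/
theorem gpRho_eps_mem_fullC_one (M : ℕ) [NeZero M] :
    haveI : NeZero p := ⟨(Fact.out : p.Prime).ne_zero⟩
    gpRho A (p * M) (deltaQuot (p * M) p (dvd_mul_right p M))⁻¹
      ∈ modularFunctionFieldFullC (IsLocalRing.ResidueField A) 1 := by
  have : NeZero p := ⟨(Fact.out : p.Prime).ne_zero⟩
  show gpRho A (p * M) (deltaQuot (p * M) p (dvd_mul_right p M))⁻¹ ∈ _
  rw [gpRho_eps]
  exact epsBar_mem_fullC_one p A hA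

include hA in
/-- The reduction of `u = Δ(t^p)/Δ(t)` at level `p * M` lies in `k(j̄)`. -/
theorem gpRho_deltaQuot_mem_fullC_one (M : ℕ) [NeZero M] :
    haveI : NeZero p := ⟨(Fact.out : p.Prime).ne_zero⟩
    gpRho A (p * M) (deltaQuot (p * M) p (dvd_mul_right p M))
      ∈ modularFunctionFieldFullC (IsLocalRing.ResidueField A) 1 := by
  have : NeZero p := ⟨(Fact.out : p.Prime).ne_zero⟩
  show gpRho A (p * M) (deltaQuot (p * M) p (dvd_mul_right p M)) ∈ _
  rw [gpRho_deltaQuot]
  exact deltaBar_mem_fullC_one p A hA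

end EpsBar

/-! ## Orders and leading coefficients (any nontrivial coefficient ring) -/

section Orders

variable {R : Type*} [CommRing R] (q : ℕ) [NeZero q]

/-- `ord_T (ε̄) = 1 - q`. -/
theorem order_epsBar [Nontrivial R] (f : ℤ →+* R) :
    (coeffMap f (deltaUnitZ q)).order = 1 - (q : ℤ) := by
  have h := order_coeffMap_qExpand_deltaUnitZ q 1 f
  rw [qExpand_one_apply] at h
  rw [h]
  simp

/-- `ord_T (ε̄⁻¹) = q - 1`. -/
theorem order_deltaBar [Nontrivial R] (f : ℤ →+* R) :
    (coeffMap f (deltaQuotZ q)).order = (q : ℤ) - 1 := by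
  have h := order_coeffMap_qExpand_deltaQuotZ q 1 f
  rw [qExpand_one_apply] at h
  rw [h]
  simp

theorem coeff_epsBar (f : ℤ →+* R) : (coeffMap f (deltaUnitZ q)).coeff (1 - (q : ℤ)) = 1 := by
  have h := coeff_coeffMap_qExpand_deltaUnitZ q 1 f
  rw [qExpand_one_apply] at h
  simpa using h

theorem coeff_deltaBar (f : ℤ →+* R) : (coeffMap f (deltaQuotZ q)).coeff ((q : ℤ) - 1) = 1 := by
  have h := coeff_coeffMap_qExpand_deltaQuotZ q 1 f
  rw [qExpand_one_apply] at h
  simpa using h

theorem epsBar_mul_deltaBar (f : ℤ →+* R) :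
    coeffMap f (deltaUnitZ q) * coeffMap f (deltaQuotZ q) = 1 := by
  rw [← map_mul, mul_comm, Fermat.Agent.S36.helper4857.deltaQuotZ_mul_deltaUnitZ, map_one]

theorem epsBar_ne_zero [Nontrivial R] (f : ℤ →+* R) : coeffMap f (deltaUnitZ q) ≠ 0 := by
  intro h
  have h1 := epsBar_mul_deltaBar q f
  rw [h, zero_mul] at h1
  exact zero_ne_one h1

theorem deltaBar_ne_zero [Nontrivial R] (f : ℤ →+* R) : coeffMap f (deltaQuotZ q) ≠ 0 := by
  intro h
  have h1 := epsBar_mul_deltaBar q f
  rw [h, mul_zero] at h1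
  exact zero_ne_one h1

end Orders

end Fermat.Agent.S44.helper4539
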