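/-
S44-L6-EPSDIV (helper4539): THE DIVISOR OF `eps = Δ(t)/Δ(t^p)` in the Prelude `Place` vocabulary,
at every level `p * M` (`p` prime, `p ∤ M`; no squarefree hypothesis, no `W_d` for `d ∣ M`).
This is `(E-gen)` of finding #4107.

With `j = jBar (p * M)`, `W = S35.helper1219.atkinLehnerBar p M h` (so `W j = j(t^p)`) and
`u = S36.helper5460.deltaQuot (p * M) p _ = Δ(t^p)/Δ(t)`, `eps = u⁻¹`, for EVERY place `P` of
`FN (p * M)`:

* `ord_eps_of_regular` : `0 ≤ P.ord j → P.ord eps = 0` (and `0 ≤ P.ord (W j)`);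
* `pole_pair`          : `P.ord j < 0 → ∃ e ≥ 1, (P.ord j, P.ord (W j), P.ord eps)
                            = (-e, -p e, -e (p - 1))` or `(-p e, -e, e (p - 1))`;
* `ord_eps_of_pole`    : `P.ord j < 0 → P.ord eps = P.ord (W j) - P.ord j`;
* `ord_eps`            : `P.ord eps = (j)_∞ P - (W j)_∞ P` (`S35.helper2974.poleDiv`).

Proof: at level `p` the function field has exactly two places over `j = ∞` (fundamental identity,
degree `p + 1`): the cusp `∞` and its `W`-translate, where `eps` has orders `1 - p` and `p - 1`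
by the expansions of `eps` and `W eps = p¹² / eps`; `eps` and `eps⁻¹` are integral over `ℚ̄[j]`;
places of level `p * M` restrict to level `p` with `ord = e · ord`.
-/
import Mathlib
import Fermat.Agent.S44.helper4539_EpsCusp
import Fermat.Agent.S36.helper5460_DeltaInt
import Fermat.Agent.S35.helper2974_ChartDiv

set_option autoImplicit false

open ModularCurve AlgebraicCurve IntermediateField

noncomputable section

namespace Fermat.Agent.S44.helper4539

open Fermat.Agent.S24.helper24 Fermat.Agent.S35.helper1219 Fermat.Agent.S18.helper1040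
open Fermat.Agent.S35.helper2974 (fundId_poles ord_apply_eq_ord_smul exists_restrict_ord inclBar
  coe_inclBar coe_jBar_eq jBar_ne_zero ord_nonneg_of_isIntegral ord_nonneg_of_isIntegral_adjoin
  poleDiv poleDiv_apply)

/-! ## Abstract: a function of degree `q + 1` with poles of orders `1` and `q` has no other pole -/

section Abstract

variable {K F : Type*} [Field K] [Field F] [Algebra K F]

theorem eq_or_eq_of_two_poles [IsAlgClosed K] [CharZero K] (t : F) (ht : Transcendental K t)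
    [FiniteDimensional K⟮t⟯ F] (q : ℕ) (hq : 2 ≤ q) (hdeg : Module.finrank K⟮t⟯ F = q + 1)
    (P0 P1 : Place K F) (h0 : P0.ord t = -1) (h1 : P1.ord t = -(q : ℤ))
    (P : Place K F) (hP : P.ord t < 0) : P = P0 ∨ P = P1 := by
  classical
  obtain ⟨sp, hsp, hsump⟩ := fundId_poles t ht
  have hqZ : (2 : ℤ) ≤ q := by exact_mod_cast hq
  by_contra hne
  push Not at hne
  have h01 : P0 ≠ P1 := by
    intro h
    rw [h] at h0
    omega
  have hsub : ({P0, P1, P} : Finset (Place K F)) ⊆ sp := by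
    intro z hz
    simp only [Finset.mem_insert, Finset.mem_singleton] at hz
    rw [hsp]
    rcases hz with rfl | rfl | rfl
    · omega
    · omega
    · exact hP
  have hle : ∑ z ∈ ({P0, P1, P} : Finset (Place K F)), (-z.ord t) ≤ ∑ z ∈ sp, (-z.ord t) :=
    Finset.sum_le_sum_of_subset_of_nonneg hsub
      (fun z hz _ => by have := (hsp z).mp hz; omega)
  rw [Finset.sum_neg_distrib, Finset.sum_neg_distrib, hsump, hdeg,
    Finset.sum_insert (by simp [h01, hne.1.symm]),
    Finset.sum_insert (by simp [hne.2.symm]), Finset.sum_singleton, h0, h1] at hle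
  push_cast at hle
  omega

end Abstract

/-! ## Orders of expansions -/

section Orders

theorem order_coe_jBar (N : ℕ) [NeZero N] :
    ((jBar N : FN N) : LaurentSeries Kbar).order = -1 := by
  rw [coe_jBar_eq, Fermat.Agent.S28.helper1457.order_jqModC]

theorem order_coe_jBarD (N d : ℕ) [NeZero N] [NeZero d] (hd : d ∣ N) :
    ((jBarD N d hd : FN N) : LaurentSeries Kbar).order = -(d : ℤ) := by
  have h0 : ((jBar N : FN N) : LaurentSeries Kbar) ≠ 0 := fun h => by
    have := order_coe_jBar N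
    rw [h, HahnSeries.order_zero] at this
    omega
  rw [Fermat.Agent.S37.helper9343.coe_jBarD', ← Fermat.Agent.S37.helper9343.coe_jBar' N,
    Fermat.Agent.S37.helper9343.order_qExpand d h0, order_coe_jBar]
  ring

theorem jBarD_ne_zero (N d : ℕ) [NeZero N] [NeZero d] (hd : d ∣ N) : jBarD N d hd ≠ 0 := by
  intro h
  have h1 := order_coe_jBarD N d hd
  rw [h] at h1
  have hd0 : (0 : ℤ) < d := by exact_mod_cast Nat.pos_of_ne_zero (NeZero.ne d)
  have h2 : (((0 : FN N) : LaurentSeries Kbar)).order = 0 := HahnSeries.order_zero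
  omega

theorem cuspInf_ord_eq (N : ℕ) [NeZero N] {f : FN N} (hf : f ≠ 0) :
    (cuspInf N).ord f = (f : LaurentSeries Kbar).order :=
  isCuspInf_cuspInf N f hf

theorem order_coe_deltaQuot (N q : ℕ) [NeZero N] [NeZero q] (hd : q ∣ N) :
    ((Fermat.Agent.S36.helper5460.deltaQuot N q hd : FN N) : LaurentSeries Kbar).order
      = (q : ℤ) - 1 := by
  have h := order_coeffMap_qExpand_deltaQuotZ q 1 (Int.castRingHom Kbar)
  rw [qExpand_one_apply] at h
  rw [coe_deltaQuot_eq, h]
  simp

theorem order_coe_deltaQuot_inv (N q : ℕ) [NeZero N] [NeZero q] (hd : q ∣ N) :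
    (((Fermat.Agent.S36.helper5460.deltaQuot N q hd)⁻¹ : FN N) : LaurentSeries Kbar).order
      = 1 - (q : ℤ) := by
  have h := order_coeffMap_qExpand_deltaUnitZ q 1 (Int.castRingHom Kbar)
  rw [qExpand_one_apply] at h
  rw [coe_deltaQuot_inv_eq, h]
  simp

end Orders

/-! ## Level `p`: the two places over `j = ∞` -/

section LevelP

variable (p : ℕ) [NeZero p] (hp : p.Prime)

include hp in
/-- **Level `p`.** A pole `P` of `j` on `X₀(p)` is the cusp `∞` or the cusp `0 = W(∞)`:
`(ord j, ord (W j), ord eps) = (-1, -p, 1 - p)` or `(-p, -1, p - 1)`. -/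
theorem pole_triple_level (P : Place Kbar (FN (p * 1))) (hP : P.ord (jBar (p * 1)) < 0) :
    (P.ord (jBar (p * 1)) = -1 ∧
        P.ord (atkinLehnerBar p 1 (Nat.coprime_one_right p) (jBar (p * 1))) = -(p : ℤ) ∧
        P.ord (Fermat.Agent.S36.helper5460.deltaQuot (p * 1) p (dvd_mul_right p 1))⁻¹
          = 1 - (p : ℤ)) ∨
      (P.ord (jBar (p * 1)) = -(p : ℤ) ∧
        P.ord (atkinLehnerBar p 1 (Nat.coprime_one_right p) (jBar (p * 1))) = -1 ∧
        P.ord (Fermat.Agent.S36.helper5460.deltaQuot (p * 1) p (dvd_mul_right p 1))⁻¹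
          = (p : ℤ) - 1) := by
  set W := atkinLehnerBar p 1 (Nat.coprime_one_right p) with hWdef
  set u := Fermat.Agent.S36.helper5460.deltaQuot (p * 1) p (dvd_mul_right p 1) with hu
  have hW : ∀ z, W (W z) = z := atkinLehnerBar_atkinLehnerBar p 1 (Nat.coprime_one_right p)
  have hu0 : u ≠ 0 := Fermat.Agent.S36.helper5460.deltaQuot_ne_zero _ _ _
  have hWj : W (jBar (p * 1)) = jBarD (p * 1) p (Dvd.intro 1 rfl) :=
    atkinLehnerBar_jBar p 1 (Nat.coprime_one_right p)
  have hj0 : jBar (p * 1) ≠ 0 := jBar_ne_zero (p * 1)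
  -- orders at the cusp `∞`
  have a0 : (cuspInf (p * 1)).ord (jBar (p * 1)) = -1 := by
    rw [cuspInf_ord_eq (p * 1) hj0, order_coe_jBar]
  have b0 : (cuspInf (p * 1)).ord (W (jBar (p * 1))) = -(p : ℤ) := by
    rw [hWj, cuspInf_ord_eq (p * 1) (jBarD_ne_zero _ _ _), order_coe_jBarD]
  have c0 : (cuspInf (p * 1)).ord u⁻¹ = 1 - (p : ℤ) := by
    rw [cuspInf_ord_eq (p * 1) (inv_ne_zero hu0), order_coe_deltaQuot_inv]
  -- orders at the cusp `0 = W(∞)`
  have a1 : (W • cuspInf (p * 1)).ord (jBar (p * 1)) = -(p : ℤ) := by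
    rw [← ord_apply_eq_ord_smul W hW, b0]
  have b1 : (W • cuspInf (p * 1)).ord (W (jBar (p * 1))) = -1 := by
    rw [← ord_apply_eq_ord_smul W hW, hW, a0]
  have c1 : (W • cuspInf (p * 1)).ord u⁻¹ = (p : ℤ) - 1 := by
    have hq0 : ((p : Kbar) ^ 12) ≠ 0 := pow_ne_zero 12 (Nat.cast_ne_zero.mpr (NeZero.ne p))
    rw [← ord_apply_eq_ord_smul W hW, hWdef, hu, atkinLehnerBar_eps,
      Fermat.Agent.S24.helper1370.ord_algebraMap_mul _ hq0, cuspInf_ord_eq (p * 1) hu0,
      order_coe_deltaQuot]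
  have hdeg : Module.finrank Kbar⟮jBar (p * 1)⟯ (FN (p * 1)) = p + 1 := by
    rw [Fermat.Agent.S37.helper6887.finrank_jBar, mul_one]
    have h := Fermat.Agent.Lib.helper804.dedekindPsi_prime_pow hp 0
    simpa using h
  have : FiniteDimensional Kbar⟮jBar (p * 1)⟯ (FN (p * 1)) :=
    Fermat.Agent.S37.helper5162.finiteDimensional_jBar (p * 1)
  rcases eq_or_eq_of_two_poles (jBar (p * 1))
      (Fermat.Agent.S24.helper3176.transcendental_jBar (p * 1)) p hp.two_le hdeg
      (cuspInf (p * 1)) (W • cuspInf (p * 1)) a0 a1 P hP with rfl | rfl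
  · exact Or.inl ⟨a0, b0, c0⟩
  · exact Or.inr ⟨a1, b1, c1⟩

end LevelP

/-! ## Transport along `F_M ⊆ F_N` -/

section Incl

variable {M N : ℕ} [NeZero M] [NeZero N] (hMN : M ∣ N)

theorem inclBar_jBar : inclBar hMN (jBar M) = jBar N :=
  Subtype.ext (by rw [coe_inclBar, coe_jBar_eq, coe_jBar_eq])

theorem inclBar_jBarD (d : ℕ) [NeZero d] (hd : d ∣ M) (hd' : d ∣ N) :
    inclBar hMN (jBarD M d hd) = jBarD N d hd' :=
  Subtype.ext (by
    rw [coe_inclBar, Fermat.Agent.S37.helper9343.coe_jBarD',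
      Fermat.Agent.S37.helper9343.coe_jBarD'])

theorem inclBar_deltaQuot (q : ℕ) [NeZero q] (hd : q ∣ M) (hd' : q ∣ N) :
    inclBar hMN (Fermat.Agent.S36.helper5460.deltaQuot M q hd)
      = Fermat.Agent.S36.helper5460.deltaQuot N q hd' :=
  Subtype.ext (by rw [coe_inclBar, coe_deltaQuot_eq, coe_deltaQuot_eq])

end Incl

/-! ## Any level: `eps` is a unit wherever `j` is regular -/

section Regular

variable (N d : ℕ) [NeZero N] [NeZero d] (hd : d ∣ N)

/-- `Δ(t^d)/Δ(t)` has neither zero nor pole at a place where `j` is regular (any level, any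
`d ∣ N`). -/
theorem ord_deltaQuot_of_regular (P : Place Kbar (FN N)) (hP : 0 ≤ P.ord (jBar N)) :
    P.ord (Fermat.Agent.S36.helper5460.deltaQuot N d hd) = 0 := by
  have h1 := ord_nonneg_of_isIntegral_adjoin P hP
    (Fermat.Agent.S36.helper5460.isIntegral_deltaQuot N d hd)
  have h2 := ord_nonneg_of_isIntegral_adjoin P hP
    (Fermat.Agent.S36.helper5460.isIntegral_deltaQuot_inv N d hd)
  rw [Place.ord_inv] at h2
  omega

theorem ord_deltaQuot_inv_of_regular (P : Place Kbar (FN N)) (hP : 0 ≤ P.ord (jBar N)) :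
    P.ord (Fermat.Agent.S36.helper5460.deltaQuot N d hd)⁻¹ = 0 := by
  rw [Place.ord_inv, ord_deltaQuot_of_regular N d hd P hP, neg_zero]

end Regular

/-! ## Level `p * M`: the divisor of `eps` -/

section LevelPM

variable (p M : ℕ) [NeZero p] [NeZero M] (hp : p.Prime) (h : Nat.Coprime p M)

include hp in
/-- `W j = j(t^p)` is regular wherever `j` is regular. -/
theorem ord_atkinLehnerBar_jBar_nonneg (P : Place Kbar (FN (p * M)))
    (hP : 0 ≤ P.ord (jBar (p * M))) :
    0 ≤ P.ord (atkinLehnerBar p M h (jBar (p * M))) := by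
  rw [atkinLehnerBar_jBar]
  have hmem : jBar (p * M) ∈ P.toValuationSubring :=
    Fermat.Agent.S24.helper1370.mem_of_ord_nonneg P hP
  have hint : IsIntegral P.toValuationSubring (jBarD (p * M) p (Dvd.intro M rfl)) :=
    Fermat.Agent.S37.helper9343.isIntegral_jBarD_prime_of_mem p hp (p * M) (Dvd.intro M rfl)
      (a := (⟨jBar (p * M), hmem⟩ : P.toValuationSubring)) rfl
  exact ord_nonneg_of_isIntegral P hint

include hp in
/-- **(E-gen), poles.** At a pole `P` of `j` on `X₀(p M)` there is `e ≥ 1` (the ramification index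
over `X₀(p)`) with `(ord j, ord (W j), ord eps) = (-e, -p e, e (1 - p))` — the cusps above `∞` —
or `(-p e, -e, e (p - 1))` — the cusps above `0`. -/
theorem pole_triple (P : Place Kbar (FN (p * M))) (hP : P.ord (jBar (p * M)) < 0) :
    ∃ e : ℕ, 0 < e ∧
      ((P.ord (jBar (p * M)) = -(e : ℤ) ∧
          P.ord (atkinLehnerBar p M h (jBar (p * M))) = -((p : ℤ) * e) ∧
          P.ord (Fermat.Agent.S36.helper5460.deltaQuot (p * M) p (dvd_mul_right p M))⁻¹
            = (e : ℤ) * (1 - (p : ℤ))) ∨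
        (P.ord (jBar (p * M)) = -((p : ℤ) * e) ∧
          P.ord (atkinLehnerBar p M h (jBar (p * M))) = -(e : ℤ) ∧
          P.ord (Fermat.Agent.S36.helper5460.deltaQuot (p * M) p (dvd_mul_right p M))⁻¹
            = (e : ℤ) * ((p : ℤ) - 1))) := by
  have hN : p * 1 ∣ p * M := Nat.mul_dvd_mul_left p (one_dvd M)
  have hfin : FiniteDimensional Kbar⟮inclBar hN (jBar (p * 1))⟯ (FN (p * M)) := by
    rw [inclBar_jBar]
    exact Fermat.Agent.S37.helper5162.finiteDimensional_jBar (p * M)
  obtain ⟨e, v, he, hev⟩ := exists_restrict_ord (inclBar hN) (jBar (p * 1)) P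
  have e1 : P.ord (jBar (p * M)) = (e : ℤ) * v.ord (jBar (p * 1)) := by
    rw [← inclBar_jBar hN, hev]
  have e2 : P.ord (atkinLehnerBar p M h (jBar (p * M)))
      = (e : ℤ) * v.ord (atkinLehnerBar p 1 (Nat.coprime_one_right p) (jBar (p * 1))) := by
    rw [atkinLehnerBar_jBar, atkinLehnerBar_jBar,
      ← inclBar_jBarD hN p (Dvd.intro 1 rfl) (Dvd.intro M rfl), hev]
  have e3 : P.ord (Fermat.Agent.S36.helper5460.deltaQuot (p * M) p (dvd_mul_right p M))⁻¹
      = (e : ℤ) * v.ord (Fermat.Agent.S36.helper5460.deltaQuot (p * 1) p (dvd_mul_right p 1))⁻¹ := by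
    rw [← inclBar_deltaQuot hN p (dvd_mul_right p 1) (dvd_mul_right p M), ← map_inv₀, hev]
  have heZ : (0 : ℤ) < e := by exact_mod_cast he
  have hv : v.ord (jBar (p * 1)) < 0 := by
    by_contra hcon
    push Not at hcon
    rw [e1] at hP
    nlinarith [mul_nonneg heZ.le hcon]
  rcases pole_triple_level p hp v hv with ⟨a, b, c⟩ | ⟨a, b, c⟩
  · exact ⟨e, he, Or.inl ⟨by rw [e1, a]; ring, by rw [e2, b]; ring, by rw [e3, c]⟩⟩
  · exact ⟨e, he, Or.inr ⟨by rw [e1, a]; ring, by rw [e2, b]; ring, by rw [e3, c]⟩⟩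

include hp in
/-- **(E-gen), poles, divisor form.** `ord_P eps = ord_P (W j) - ord_P j` at every pole of `j`;
`W j` has a pole there too. -/
theorem ord_eps_of_pole (P : Place Kbar (FN (p * M))) (hP : P.ord (jBar (p * M)) < 0) :
    P.ord (atkinLehnerBar p M h (jBar (p * M))) < 0 ∧
      P.ord (Fermat.Agent.S36.helper5460.deltaQuot (p * M) p (dvd_mul_right p M))⁻¹
        = P.ord (atkinLehnerBar p M h (jBar (p * M))) - P.ord (jBar (p * M)) := by
  have hpZ : (2 : ℤ) ≤ p := by exact_mod_cast hp.two_le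
  obtain ⟨e, he, ⟨a, b, c⟩ | ⟨a, b, c⟩⟩ := pole_triple p M hp h P hP
  · have heZ : (0 : ℤ) < e := by exact_mod_cast he
    refine ⟨by rw [b]; nlinarith, ?_⟩
    rw [a, b, c]
    ring
  · have heZ : (0 : ℤ) < e := by exact_mod_cast he
    refine ⟨by rw [b]; omega, ?_⟩
    rw [a, b, c]
    ring

include hp in
/-- **(E-gen), regular places.** `eps` is a unit and `W j` is regular wherever `j` is regular. -/
theorem ord_eps_of_regular (P : Place Kbar (FN (p * M))) (hP : 0 ≤ P.ord (jBar (p * M))) :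
    0 ≤ P.ord (atkinLehnerBar p M h (jBar (p * M))) ∧
      P.ord (Fermat.Agent.S36.helper5460.deltaQuot (p * M) p (dvd_mul_right p M))⁻¹ = 0 :=
  ⟨ord_atkinLehnerBar_jBar_nonneg p M hp h P hP,
    ord_deltaQuot_inv_of_regular (p * M) p (dvd_mul_right p M) P hP⟩

include hp in
/-- **(E-gen): `div(eps) = (j)_∞ - (W j)_∞`** at every place of `X₀(p M)`. -/
theorem ord_eps (P : Place Kbar (FN (p * M))) :
    P.ord (Fermat.Agent.S36.helper5460.deltaQuot (p * M) p (dvd_mul_right p M))⁻¹
      = poleDiv Kbar (jBar (p * M)) P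
        - poleDiv Kbar (atkinLehnerBar p M h (jBar (p * M))) P := by
  rw [poleDiv_apply, poleDiv_apply]
  rcases lt_or_ge (P.ord (jBar (p * M))) 0 with hP | hP
  · obtain ⟨h1, h2⟩ := ord_eps_of_pole p M hp h P hP
    rw [h2, max_eq_right (by omega), max_eq_right (by omega)]
    ring
  · obtain ⟨h1, h2⟩ := ord_eps_of_regular p M hp h P hP
    rw [h2, max_eq_left (by omega), max_eq_left (by omega)]
    ring

include hp in
/-- The same for `u = Δ(t^p)/Δ(t) = eps⁻¹`: `div(u) = (W j)_∞ - (j)_∞`. -/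
theorem ord_deltaQuot (P : Place Kbar (FN (p * M))) :
    P.ord (Fermat.Agent.S36.helper5460.deltaQuot (p * M) p (dvd_mul_right p M))
      = poleDiv Kbar (atkinLehnerBar p M h (jBar (p * M))) P
        - poleDiv Kbar (jBar (p * M)) P := by
  have h1 := ord_eps p M hp h P
  rw [Place.ord_inv] at h1
  omega

end LevelPM

end Fermat.Agent.S44.helper4539
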