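/-
S44 (row 38), block (PL) — first-order calculus helpers on `helper4442.FOCalc` (helper4642).
LIGHT FILE: imports Mathlib + the landed `helper4442_PLCalc` only.

Setting.  `R` = a commutative ring (instance: the `L`-rational joint ball of the two Gauss
valuations), `R₀` its `K0`-rational part, `ϖ` a uniformiser of `L`, `ρ : R →+* κ` a reduction,
`c : FOCalc R₀ ρ ϖ` the first-order calculus modulo `ϖ ^ 2`.

* `eps_pow_mul`, `eps_eq_zero_of_mul_pow_mem`, `eps_eq_of_mul_eq_pow_mul` : the calculus lemmas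
  that produce the first-order constants of the twists `T_j = b_j ^ p * eps ^ j`
  (`D_∞(T_j) = 0`, `D_0(T_j) = 12 j λ`) from identities INSIDE the joint ball
  (no single-valuation ring is needed: `b_j⁻¹` and `b_j ϖ ^ (12 j e / p)` are not both in the
  joint ball, but each identity only uses one of them, at the valuation where it is a unit,
  and the cofactor lies in the joint ball).
* `eps_test` : `ε (a ^ p * (T * h)) = (D h + t) * ρ (a ^ p * (T * h))`.
* `fog_of_decomp` : the pair of first-order coefficients of `g = g0 + g1 ϖ + ϖ² g'`, with `g1`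
  in a set of `K0`-rational elements reducing into `G`, lies in `G` (the (GLUE) hypothesis of the
  block theorem from base change for balls + continuity of the reduction).
-/
import Mathlib
import Fermat.Agent.S44.helper4442_PLCalc

set_option autoImplicit false

namespace Fermat.Agent.S44.helper4642

open Fermat.Agent.S44.helper4442 (FOCalc)

/-! ### First-order calculus: `p`-th powers and twists -/

section Calc

variable {R κ : Type*} [CommRing R] [Field κ] {R₀ : Subring R} {ρ : R →+* κ} {ϖ : R}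

/-- `ε (a ^ p * H) = ρ a ^ p * ε H` in characteristic `p`. -/
theorem eps_pow_mul (c : FOCalc R₀ ρ ϖ) (p : ℕ) [CharP κ p] (a H : R) :
    c.eps (a ^ p * H) = ρ a ^ p * c.eps H := by
  rw [c.eps_mul, c.eps_pow_char p, zero_mul, add_zero, map_pow]

/-- **Twist, tame side.**  If `Y * b ^ p` is `K0`-rational and `b` has nonzero reduction, then
`ε Y = 0`.  (Instance: `Y = T_j`, `b = b_j⁻¹`, `Y * b ^ p = eps ^ j` at the valuation `∞`.) -/
theorem eps_eq_zero_of_mul_pow_mem (c : FOCalc R₀ ρ ϖ) (p : ℕ) [CharP κ p] {Y b : R}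
    (hb : ρ b ≠ 0) (h : Y * b ^ p ∈ R₀) : c.eps Y = 0 := by
  have h1 := c.eps_of_mem h
  rw [c.eps_mul, c.eps_pow_char p, mul_zero, zero_add, map_pow] at h1
  exact (mul_eq_zero.mp h1).resolve_right (pow_ne_zero p hb)

/-- **Twist, wild side.**  If `Y * τ = β ^ p * θ ^ n` with `τ` `K0`-rational of nonzero
reduction and `ε θ = lam * ρ θ`, then `ε Y = n * lam * ρ Y`.
(Instance: `Y = T_j`, `θ = p / ϖ ^ e`, `n = 12 j`, `τ = (p / t) ^ (12 j)` for a `K0`-rational
twisting function `t`, `β = b_j ϖ ^ (12 j e / p)`, at the valuation `0`.) -/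
theorem eps_eq_of_mul_eq_pow_mul (c : FOCalc R₀ ρ ϖ) (p : ℕ) [CharP κ p] {Y τ β θ : R}
    {lam : κ} (n : ℕ) (hτ : τ ∈ R₀) (hτ0 : ρ τ ≠ 0) (hθ : c.eps θ = lam * ρ θ)
    (h : Y * τ = β ^ p * θ ^ n) : c.eps Y = (n : κ) * lam * ρ Y := by
  have h1 : c.eps (Y * τ) = c.eps Y * ρ τ := by
    rw [c.eps_mul, c.eps_of_mem hτ, mul_zero, zero_add]
  have h2 : c.eps (β ^ p * θ ^ n) = ρ β ^ p * ((n : κ) * ρ θ ^ (n - 1) * (lam * ρ θ)) := by
    rw [c.eps_mul, c.eps_pow_char p, zero_mul, add_zero, c.eps_pow, hθ, map_pow]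
  have h3 : ρ Y * ρ τ = ρ β ^ p * ρ θ ^ n := by
    rw [← map_mul, h, map_mul, map_pow, map_pow]
  have h4 : c.eps Y * ρ τ = (n : κ) * lam * ρ Y * ρ τ := by
    rw [← h1, h, h2]
    rcases n with _ | n
    · simp
    · have e : (n + 1 : ℕ) - 1 = n := rfl
      rw [e]
      have h3' : ρ Y * ρ τ = ρ β ^ p * (ρ θ ^ n * ρ θ) := by rw [h3, pow_succ]
      calc ρ β ^ p * (((n + 1 : ℕ) : κ) * ρ θ ^ n * (lam * ρ θ))
          = ((n + 1 : ℕ) : κ) * lam * (ρ β ^ p * (ρ θ ^ n * ρ θ)) := by ring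
        _ = ((n + 1 : ℕ) : κ) * lam * (ρ Y * ρ τ) := by rw [h3']
        _ = ((n + 1 : ℕ) : κ) * lam * ρ Y * ρ τ := by ring
  exact mul_right_cancel₀ hτ0 h4

/-- For an element `h` of nonzero reduction: `ε (a ^ p * (T * h))` in terms of `D h = ε h / ρ h`
and of the first-order constant `t` of the twist `T` (`ε T = t * ρ T`). -/
theorem eps_test (c : FOCalc R₀ ρ ϖ) (p : ℕ) [CharP κ p] {h T : R} (hh : ρ h ≠ 0) {t : κ}
    (hT : c.eps T = t * ρ T) (a : R) :
    c.eps (a ^ p * (T * h)) = (c.dlog h + t) * ρ (a ^ p * (T * h)) := by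
  rw [eps_pow_mul c p, c.eps_mul, hT, c.eps_eq_dlog_mul hh, map_mul, map_mul, map_pow]
  ring

end Calc

/-! ### `(FOG)`: first-order coefficients of ball elements are glued pairs -/

section FOG

variable {R κ₁ κ₂ : Type*} [CommRing R] [CommRing κ₁] [CommRing κ₂] {R₀ : Subring R}
  {ρ₁ : R →+* κ₁} {ρ₂ : R →+* κ₂} {ϖ : R}

/-- If `g = g0 + g1 * ϖ + ϖ ^ 2 * g'` with `g0` `K0`-rational and `g1` in a set `B₀` of
`K0`-rational elements whose reductions lie in `G` (the glued pairs: continuity of the reduction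
on the `K0`-rational unit ball of `L(D')`), then the pair of first-order coefficients of `g`
lies in `G`. -/
theorem fog_of_decomp (c₁ : FOCalc R₀ ρ₁ ϖ) (c₂ : FOCalc R₀ ρ₂ ϖ) (G : Set (κ₁ × κ₂))
    (B₀ : Set R) (hB₀ : ∀ g ∈ B₀, g ∈ R₀ ∧ (ρ₁ g, ρ₂ g) ∈ G) {g : R}
    (hg : ∃ g0 ∈ R₀, ∃ g1 ∈ B₀, ∃ g' : R, g = g0 + g1 * ϖ + ϖ ^ 2 * g') :
    (c₁.eps g, c₂.eps g) ∈ G := by
  obtain ⟨g0, h0, g1, h1, g', e⟩ := hg
  rw [c₁.eps_eq h0 (hB₀ g1 h1).1 e, c₂.eps_eq h0 (hB₀ g1 h1).1 e]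
  exact (hB₀ g1 h1).2

end FOG

end Fermat.Agent.S44.helper4642
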