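/-
S44 (row 38), block (PL) — the twist hypotheses of the block theorem `helper7932.pl_block`
(`ρ₁ (T j) ≠ 0`, `ρ₂ (T j) ≠ 0`, `fo₁.dlog (T j) = 0`, `fo₂.dlog (T j) = 12 * j * lam`)
from two identities INSIDE THE JOINT RING (helper4642).

No first-order calculus on the single-valuation rings `O_∞`, `O_0` is needed: only the two
`FOCalc` structures on the joint ring `R` that the block theorem takes anyway.

Instance (`T j = b_j ^ p * eps ^ j`, values `(v_∞, v_0)`: `eps ↦ (1, |p| ^ 12)`,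
`b_j ↦ (1, |ϖ| ^ (-12 j e / p))`, `p = θ ϖ ^ e`):

* at `∞`:  `bi := b_j⁻¹` (values `(1, |ϖ| ^ (12 j e / p))`, in the joint ring, unit at `∞`),
  `T j * bi ^ p = eps ^ j`, `eps` `K0`-rational with `ρ₁ eps ≠ 0`;
* at `0`:  `τ := (p ^ 12 / eps) ^ j` (values `(|p| ^ (12 j), 1)`, `K0`-rational, unit at `0`),
  `β := b_j * ϖ ^ (12 j e / p)` (values `(|ϖ| ^ (12 j e / p), 1)`), `θ := p / ϖ ^ e` (a constant
  unit), and `T j * τ = b_j ^ p * p ^ (12 j) = β ^ p * θ ^ (12 j)`.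
-/
import Mathlib
import Fermat.Agent.S44.helper4442_PLCalc
import Fermat.Agent.S44.helper4642_PLFog

set_option autoImplicit false

namespace Fermat.Agent.S44.helper4642

open Fermat.Agent.S44.helper4442 (FOCalc)

section TwistJoint

variable {R κ : Type*} [CommRing R] [Field κ] {R₀ : Subring R} {ρ : R →+* κ} {ϖ : R}

/-- **Twist at `∞`, joint-ring form.**  `T * bi ^ p = eps ^ j` with `eps` `K0`-rational of
nonzero reduction and `ρ bi ≠ 0`  ⟹  `ρ T ≠ 0` and `dlog T = 0`. -/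
theorem twist_inf_joint (fo : FOCalc R₀ ρ ϖ) (p : ℕ) [CharP κ p] (j : ℕ) {T bi eps : R}
    (hbi : ρ bi ≠ 0) (heps : eps ∈ R₀) (heps0 : ρ eps ≠ 0) (hT : T * bi ^ p = eps ^ j) :
    ρ T ≠ 0 ∧ fo.eps T = 0 ∧ fo.dlog T = 0 := by
  have h0 : ρ T ≠ 0 := by
    intro h
    have h1 : ρ (T * bi ^ p) = ρ eps ^ j := by rw [hT, map_pow]
    rw [map_mul, h, zero_mul] at h1
    exact pow_ne_zero j heps0 h1.symm
  have h1 : fo.eps T = 0 :=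
    eps_eq_zero_of_mul_pow_mem fo p hbi (by rw [hT]; exact R₀.pow_mem heps j)
  exact ⟨h0, h1, by rw [fo.dlog_def, h1, zero_div]⟩

/-- **Twist at `0`, joint-ring form.**  `T * τ = β ^ p * θ ^ n` with `τ` `K0`-rational of
nonzero reduction, `ρ β ≠ 0`, `ρ θ ≠ 0`  ⟹  `ρ T ≠ 0` and `dlog T = n * dlog θ`. -/
theorem twist_zero_joint (fo : FOCalc R₀ ρ ϖ) (p : ℕ) [CharP κ p] (n : ℕ) {T τ β θ : R}
    (hτ : τ ∈ R₀) (hτ0 : ρ τ ≠ 0) (hβ : ρ β ≠ 0) (hθ : ρ θ ≠ 0)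
    (hT : T * τ = β ^ p * θ ^ n) :
    ρ T ≠ 0 ∧ fo.dlog T = (n : κ) * fo.dlog θ := by
  have h0 : ρ T ≠ 0 := by
    intro h
    have h1 : ρ (T * τ) = ρ β ^ p * ρ θ ^ n := by rw [hT, map_mul, map_pow, map_pow]
    rw [map_mul, h, zero_mul] at h1
    exact mul_ne_zero (pow_ne_zero p hβ) (pow_ne_zero n hθ) h1.symm
  have h1 : fo.eps T = (n : κ) * fo.dlog θ * ρ T :=
    eps_eq_of_mul_eq_pow_mul fo p n hτ hτ0 (fo.eps_eq_dlog_mul hθ) hT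
  refine ⟨h0, ?_⟩
  rw [fo.dlog_def, h1, mul_div_assoc, div_self h0, mul_one]

end TwistJoint

section Bundle

variable {kk Fk₁ Fk₂ : Type*} [Field kk] [Field Fk₁] [Field Fk₂] [Algebra kk Fk₂]
variable {R : Type*} [CommRing R] {R₀ : Subring R} {ϖ : R} {ρ₁ : R →+* Fk₁} {ρ₂ : R →+* Fk₂}

/-- **The four twist hypotheses of `helper7932.pl_block` for one `j`**, from the two identities
in the joint ring.  `lam` is the first-order logarithm of the constant `θ = p / ϖ ^ e`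
(leaf PL-LAM: `lam ≠ 0`). -/
theorem twist_values_joint (p : ℕ) [CharP Fk₁ p] [CharP Fk₂ p]
    (fo₁ : FOCalc R₀ ρ₁ ϖ) (fo₂ : FOCalc R₀ ρ₂ ϖ) (j : ℕ) {T bi eps τ β θ : R} {lam : kk}
    (hbi : ρ₁ bi ≠ 0) (heps : eps ∈ R₀) (heps0 : ρ₁ eps ≠ 0) (hTi : T * bi ^ p = eps ^ j)
    (hτ : τ ∈ R₀) (hτ0 : ρ₂ τ ≠ 0) (hβ : ρ₂ β ≠ 0) (hθ : ρ₂ θ ≠ 0)
    (hTz : T * τ = β ^ p * θ ^ (12 * j))
    (hlam : fo₂.dlog θ = algebraMap kk Fk₂ lam) :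
    ρ₁ T ≠ 0 ∧ ρ₂ T ≠ 0 ∧ fo₁.dlog T = 0 ∧
      fo₂.dlog T = algebraMap kk Fk₂ (12 * (j : kk) * lam) := by
  obtain ⟨a1, -, a3⟩ := twist_inf_joint fo₁ p j hbi heps heps0 hTi
  obtain ⟨b1, b2⟩ := twist_zero_joint fo₂ p (12 * j) hτ hτ0 hβ hθ hTz
  refine ⟨a1, b1, a3, ?_⟩
  rw [b2, hlam, map_mul, map_mul, map_natCast, map_ofNat]
  push_cast
  ring

/-- The same for a family `T : ℕ → R` and all `j < p`, in the binder shape of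
`helper7932.pl_block` (`hT₁`, `hT₂`, `hD₁`, `hD₂`). -/
theorem twist_family_joint (p : ℕ) [CharP Fk₁ p] [CharP Fk₂ p]
    (fo₁ : FOCalc R₀ ρ₁ ϖ) (fo₂ : FOCalc R₀ ρ₂ ϖ) (T bi τ β : ℕ → R) {eps θ : R} {lam : kk}
    (hbi : ∀ j, j < p → ρ₁ (bi j) ≠ 0) (heps : eps ∈ R₀) (heps0 : ρ₁ eps ≠ 0)
    (hTi : ∀ j, j < p → T j * bi j ^ p = eps ^ j)
    (hτ : ∀ j, j < p → τ j ∈ R₀) (hτ0 : ∀ j, j < p → ρ₂ (τ j) ≠ 0)
    (hβ : ∀ j, j < p → ρ₂ (β j) ≠ 0) (hθ : ρ₂ θ ≠ 0)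
    (hTz : ∀ j, j < p → T j * τ j = β j ^ p * θ ^ (12 * j))
    (hlam : fo₂.dlog θ = algebraMap kk Fk₂ lam) :
    (∀ j, j < p → ρ₁ (T j) ≠ 0) ∧ (∀ j, j < p → ρ₂ (T j) ≠ 0) ∧
      (∀ j, j < p → fo₁.dlog (T j) = 0) ∧
      (∀ j, j < p → fo₂.dlog (T j) = algebraMap kk Fk₂ (12 * j * lam)) := by
  have key := fun j (hj : j < p) =>
    twist_values_joint p fo₁ fo₂ j (hbi j hj) heps heps0 (hTi j hj) (hτ j hj) (hτ0 j hj)
      (hβ j hj) hθ (hTz j hj) hlam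
  exact ⟨fun j hj => (key j hj).1, fun j hj => (key j hj).2.1, fun j hj => (key j hj).2.2.1,
    fun j hj => (key j hj).2.2.2⟩

end Bundle

end Fermat.Agent.S44.helper4642
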