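/-
S44 (row 38), block (PL) — the twist family `T j = b_j ^ p * eps ^ j` of the block theorem
`helper7932.pl_block`, constructed in ANY carrier of the joint ring from VALUATION DATA in the
function field (helper4642).  Carrier-agnostic glue between

* the two Gauss valuations `v₁ = v_∞`, `v₂ = v_0` on the function field `F`;
* the joint ring `R` (any commutative ring with an injective ring hom `ι : R →+* F` whose image
  contains every `L`-rational element of the joint unit ball; `R₀` contains every `K0`-rational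
  one), with reductions `ρ_c` nonzero on the elements of `v_c`-value `1`;
* `eps` (`K0`-rational, values `(1, |p| ^ 12)`: `helper4539` EpsVal), the twists `b_j`
  (`L`-rational, values `(1, |ϖ| ^ (-12 j e'))`, `e = p e'`: `helper413` GaussTwist), and the
  constant `θ = p / ϖ ^ e` (a unit at both valuations; `fo₂.dlog θ = lam`: leaf PL-LAM);

and the four twist hypotheses `hT₁ hT₂ hD₁ hD₂` of `pl_block`, through
`helper4642.twist_values_joint` (two identities inside the joint ring; no first-order calculus on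
the single-valuation rings).
-/
import Mathlib
import Fermat.Agent.S44.helper4442_PLCalc
import Fermat.Agent.S44.helper4642_PLTwistJoint

set_option autoImplicit false

namespace Fermat.Agent.S44.helper4642

open Fermat.Agent.S44.helper4442 (FOCalc)

section TwistVal

variable {kk Fk₁ Fk₂ : Type*} [Field kk] [Field Fk₁] [Field Fk₂] [Algebra kk Fk₂]
variable {R : Type*} [CommRing R] {R₀ : Subring R} {ϖ : R} {ρ₁ : R →+* Fk₁} {ρ₂ : R →+* Fk₂}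
variable {F : Type*} [Field F] {Γ : Type*} [LinearOrderedCommGroupWithZero Γ]

/-- **One twist from valuation data.**  `v₁ = v_∞`, `v₂ = v_0`; `AL` (`AK`) the subfield of
`L`-rational (`K0`-rational) functions.  Given `eps` with values `(1, |p| ^ 12)`, the constant
`θ = p / ϖ ^ e` (`e = p * e'`) with values `(1, 1)` and `b` with values
`(1, |ϖ| ^ (-12 j e'))`, the element `b ^ p * eps ^ j` lies in the joint ring and satisfies the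
four twist hypotheses of the (PL) block theorem. -/
theorem exists_twist_of_val (p : ℕ) [CharP Fk₁ p] [CharP Fk₂ p]
    (fo₁ : FOCalc R₀ ρ₁ ϖ) (fo₂ : FOCalc R₀ ρ₂ ϖ)
    (ι : R →+* F) (hι : Function.Injective ι)
    (v₁ v₂ : Valuation F Γ) (AL AK : Subfield F) (hKL : AK ≤ AL)
    (hR : ∀ x : F, x ∈ AL → v₁ x ≤ 1 → v₂ x ≤ 1 → ∃ r : R, ι r = x)
    (hR₀ : ∀ x : F, x ∈ AK → v₁ x ≤ 1 → v₂ x ≤ 1 → ∃ r ∈ R₀, ι r = x)
    (hρ₁ : ∀ r : R, v₁ (ι r) = 1 → ρ₁ r ≠ 0) (hρ₂ : ∀ r : R, v₂ (ι r) = 1 → ρ₂ r ≠ 0)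
    (hϖL : ι ϖ ∈ AL) (hϖ0 : ι ϖ ≠ 0) (hϖ₁ : v₁ (ι ϖ) ≤ 1) (hϖ₂ : v₂ (ι ϖ) ≤ 1)
    {e e' : ℕ} (he : e = p * e') {θ : R} (hθ : (p : F) = ι θ * ι ϖ ^ e)
    (hθ₁ : v₁ (ι θ) = 1) (hθ₂ : v₂ (ι θ) = 1)
    {epsF : F} (hepsK : epsF ∈ AK) (heps₁ : v₁ epsF = 1) (heps₂ : v₂ epsF = v₂ (p : F) ^ 12)
    (j : ℕ) {b : F} (hbL : b ∈ AL) (hb₁ : v₁ b = 1)
    (hb₂ : v₂ b * v₂ (ι ϖ) ^ (12 * j * e') = 1)
    {lam : kk} (hlam : fo₂.dlog θ = algebraMap kk Fk₂ lam) :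
    ∃ T : R, ι T = b ^ p * epsF ^ j ∧ ρ₁ T ≠ 0 ∧ ρ₂ T ≠ 0 ∧ fo₁.dlog T = 0 ∧
      fo₂.dlog T = algebraMap kk Fk₂ (12 * (j : kk) * lam) := by
  -- basic facts
  have hb0 : b ≠ 0 := by
    rintro rfl
    simp at hb₁
  have heps0 : epsF ≠ 0 := by
    rintro rfl
    simp at heps₁
  have hθ0 : ι θ ≠ 0 := by
    intro h
    rw [h] at hθ₁
    simp at hθ₁
  have hpF0 : (p : F) ≠ 0 := by
    rw [hθ]
    exact mul_ne_zero hθ0 (pow_ne_zero _ hϖ0)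
  have hp₁ : v₁ (p : F) = v₁ (ι ϖ) ^ e := by rw [hθ, map_mul, hθ₁, one_mul, map_pow]
  have hp₂ : v₂ (p : F) = v₂ (ι ϖ) ^ e := by rw [hθ, map_mul, hθ₂, one_mul, map_pow]
  have hp₁le : v₁ (p : F) ≤ 1 := by
    rw [hp₁]
    exact pow_le_one₀ zero_le hϖ₁
  have hp₂le : v₂ (p : F) ≤ 1 := by
    rw [hp₂]
    exact pow_le_one₀ zero_le hϖ₂
  have hp₂0 : v₂ (p : F) ≠ 0 := (Valuation.ne_zero_iff _).mpr hpF0
  have hpK : (p : F) ∈ AK := natCast_mem AK p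
  have hepsL : epsF ∈ AL := hKL hepsK
  have hv₂b : (v₂ b)⁻¹ = v₂ (ι ϖ) ^ (12 * j * e') := inv_eq_of_mul_eq_one_right hb₂
  -- the twist `T`
  have hT₁v : v₁ (b ^ p * epsF ^ j) = 1 := by
    rw [map_mul, map_pow, map_pow, hb₁, heps₁, one_pow, one_pow, one_mul]
  have hT₂v : v₂ (b ^ p * epsF ^ j) = 1 := by
    rw [map_mul, map_pow, map_pow, heps₂, hp₂, he, ← pow_mul, ← pow_mul]
    have h1 : p * e' * (12 * j) = (12 * j * e') * p := by ring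
    rw [h1, pow_mul, ← mul_pow, hb₂, one_pow]
  obtain ⟨T, hT⟩ := hR (b ^ p * epsF ^ j)
    (AL.mul_mem (AL.pow_mem hbL p) (AL.pow_mem hepsL j)) hT₁v.le hT₂v.le
  -- `bi = b⁻¹`
  obtain ⟨bi, hbi⟩ := hR b⁻¹ (AL.inv_mem hbL) (by rw [map_inv₀, hb₁, inv_one])
    (by rw [map_inv₀, hv₂b]; exact pow_le_one₀ zero_le hϖ₂)
  have hbi₁ : ρ₁ bi ≠ 0 := hρ₁ bi (by rw [hbi, map_inv₀, hb₁, inv_one])
  -- `eps`
  obtain ⟨eps, heps, hepsι⟩ := hR₀ epsF hepsK heps₁.le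
    (by rw [heps₂]; exact pow_le_one₀ zero_le hp₂le)
  have hepsρ : ρ₁ eps ≠ 0 := hρ₁ eps (by rw [hepsι, heps₁])
  have hTi : T * bi ^ p = eps ^ j := by
    apply hι
    rw [map_mul, map_pow, map_pow, hT, hbi, hepsι, inv_pow]
    field_simp
  -- `τ = (p ^ 12 / eps) ^ j`
  have hτ₁v : v₁ (((p : F) ^ 12 / epsF) ^ j) ≤ 1 := by
    rw [map_pow, map_div₀, map_pow, heps₁, div_one]
    exact pow_le_one₀ zero_le (pow_le_one₀ zero_le hp₁le)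
  have hτ₂v : v₂ (((p : F) ^ 12 / epsF) ^ j) = 1 := by
    rw [map_pow, map_div₀, map_pow, heps₂, div_self (pow_ne_zero 12 hp₂0), one_pow]
  obtain ⟨τ, hτ, hτι⟩ := hR₀ (((p : F) ^ 12 / epsF) ^ j)
    (AK.pow_mem (AK.div_mem (AK.pow_mem hpK 12) hepsK) j) hτ₁v hτ₂v.le
  have hτρ : ρ₂ τ ≠ 0 := hρ₂ τ (by rw [hτι, hτ₂v])
  -- `β = b * ϖ ^ (12 j e')`
  have hβ₁v : v₁ (b * ι ϖ ^ (12 * j * e')) ≤ 1 := by
    rw [map_mul, hb₁, one_mul, map_pow]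
    exact pow_le_one₀ zero_le hϖ₁
  have hβ₂v : v₂ (b * ι ϖ ^ (12 * j * e')) = 1 := by
    rw [map_mul, map_pow, hb₂]
  obtain ⟨β, hβι⟩ := hR (b * ι ϖ ^ (12 * j * e')) (AL.mul_mem hbL (AL.pow_mem hϖL _))
    hβ₁v hβ₂v.le
  have hβρ : ρ₂ β ≠ 0 := hρ₂ β (by rw [hβι, hβ₂v])
  have hθρ : ρ₂ θ ≠ 0 := hρ₂ θ hθ₂
  have hTz : T * τ = β ^ p * θ ^ (12 * j) := by
    apply hι
    rw [map_mul, map_mul, map_pow, map_pow, hT, hτι, hβι]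
    have h2 : (b * ι ϖ ^ (12 * j * e')) ^ p * ι θ ^ (12 * j)
        = b ^ p * (ι θ * ι ϖ ^ e) ^ (12 * j) := by
      rw [he]
      ring
    rw [h2, ← hθ, div_pow]
    field_simp
    ring
  obtain ⟨c1, c2, c3, c4⟩ := twist_values_joint p fo₁ fo₂ j hbi₁ heps hepsρ hTi hτ hτρ hβρ hθρ
    hTz hlam
  exact ⟨T, hT, c1, c2, c3, c4⟩

/-- **The twist family from valuation data**, in the binder shape of `helper7932.pl_block`
(`T`, `hT₁`, `hT₂`, `hD₁`, `hD₂`), together with the formula `ι (T j) = b j ^ p * eps ^ j`. -/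
theorem exists_twist_family_of_val (p : ℕ) [CharP Fk₁ p] [CharP Fk₂ p]
    (fo₁ : FOCalc R₀ ρ₁ ϖ) (fo₂ : FOCalc R₀ ρ₂ ϖ)
    (ι : R →+* F) (hι : Function.Injective ι)
    (v₁ v₂ : Valuation F Γ) (AL AK : Subfield F) (hKL : AK ≤ AL)
    (hR : ∀ x : F, x ∈ AL → v₁ x ≤ 1 → v₂ x ≤ 1 → ∃ r : R, ι r = x)
    (hR₀ : ∀ x : F, x ∈ AK → v₁ x ≤ 1 → v₂ x ≤ 1 → ∃ r ∈ R₀, ι r = x)
    (hρ₁ : ∀ r : R, v₁ (ι r) = 1 → ρ₁ r ≠ 0) (hρ₂ : ∀ r : R, v₂ (ι r) = 1 → ρ₂ r ≠ 0)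
    (hϖL : ι ϖ ∈ AL) (hϖ0 : ι ϖ ≠ 0) (hϖ₁ : v₁ (ι ϖ) ≤ 1) (hϖ₂ : v₂ (ι ϖ) ≤ 1)
    {e e' : ℕ} (he : e = p * e') {θ : R} (hθ : (p : F) = ι θ * ι ϖ ^ e)
    (hθ₁ : v₁ (ι θ) = 1) (hθ₂ : v₂ (ι θ) = 1)
    {epsF : F} (hepsK : epsF ∈ AK) (heps₁ : v₁ epsF = 1) (heps₂ : v₂ epsF = v₂ (p : F) ^ 12)
    (b : ℕ → F) (hbL : ∀ j, j < p → b j ∈ AL) (hb₁ : ∀ j, j < p → v₁ (b j) = 1)
    (hb₂ : ∀ j, j < p → v₂ (b j) * v₂ (ι ϖ) ^ (12 * j * e') = 1)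
    {lam : kk} (hlam : fo₂.dlog θ = algebraMap kk Fk₂ lam) :
    ∃ T : ℕ → R, (∀ j, j < p → ι (T j) = b j ^ p * epsF ^ j) ∧
      (∀ j, j < p → ρ₁ (T j) ≠ 0) ∧ (∀ j, j < p → ρ₂ (T j) ≠ 0) ∧
      (∀ j, j < p → fo₁.dlog (T j) = 0) ∧
      (∀ j, j < p → fo₂.dlog (T j) = algebraMap kk Fk₂ (12 * j * lam)) := by
  classical
  have key : ∀ j : ℕ, ∃ T : R, j < p → (ι T = b j ^ p * epsF ^ j ∧ ρ₁ T ≠ 0 ∧ ρ₂ T ≠ 0 ∧
      fo₁.dlog T = 0 ∧ fo₂.dlog T = algebraMap kk Fk₂ (12 * (j : kk) * lam)) := by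
    intro j
    by_cases hj : j < p
    · obtain ⟨T, hT⟩ := exists_twist_of_val p fo₁ fo₂ ι hι v₁ v₂ AL AK hKL hR hR₀ hρ₁ hρ₂ hϖL hϖ0
        hϖ₁ hϖ₂ he hθ hθ₁ hθ₂ hepsK heps₁ heps₂ j (hbL j hj) (hb₁ j hj) (hb₂ j hj) hlam
      exact ⟨T, fun _ => hT⟩
    · exact ⟨0, fun h => absurd h hj⟩
  choose T hT using key
  exact ⟨T, fun j hj => (hT j hj).1, fun j hj => (hT j hj).2.1, fun j hj => (hT j hj).2.2.1,
    fun j hj => (hT j hj).2.2.2.1, fun j hj => (hT j hj).2.2.2.2⟩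

end TwistVal

end Fermat.Agent.S44.helper4642
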