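import Fermat.Agent.S44.helper478_PthRoot
import Fermat.Agent.S35.helper1928_ResField
import Fermat.Agent.S37.helper1588_FFKDegree
import Fermat.Agent.Lib.helper6879_ResidueQbar
import Fermat.Agent.Lib.helper9242_LaurentTheta

/-!
# S44 / L3-INST (helper478): the seam (PTH) — `p`-th roots in the residue field of the Gauss
valuation

`ℓ` a prime, `ℓ ∤ M`, `A ⊂ ℚ̄` a valuation subring above `ℓ`, `k` its residue field,
`GF = gaussF A (residue A) (ℓ M)` the Gauss valuation ring of `F_{ℓ M}` and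
`red = gaussFRed : GF →+* k((q))` its reduction; the residue field is
`F_k(M) = modularFunctionFieldFullC k M` (landed `S35.helper1928.range_gaussFRed`).

* `coeff_pow_char_of_not_dvd`, `exists_pow_eq_of_coeff` : in characteristic `ℓ` (perfect `k`) a
  Laurent series is an `ℓ`-th power iff it is supported on `ℓ ℤ`;
* `fullC_exists_pow_eq` : **(PTH)**  `F_k(M) ∩ k((q^ℓ)) = F_k(M)^ℓ`
  (abstract core: `[F : F^ℓ] = ℓ`, `helper478_PthRoot`; `j = 1/q + …` is not an `ℓ`-th power);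
* `exists_red_pow_eq` : a Gauss-integral function whose reduction is supported on `ℓ ℤ` has
  reduction `red g ^ ℓ` for a Gauss-integral function `g`;
* `exists_pow_val_lt` : hence a Gauss unit `u` with `θ (red u) = 0` is an `ℓ`-th power of a
  function up to a `1`-unit: `∃ g ≠ 0, v (u / g ^ ℓ - 1) < 1`
  (`exists_pow_val_lt_of_theta` : the `thetaFun` form).
-/

set_option autoImplicit false

noncomputable section

namespace Fermat.Agent.S44.helper478

open ModularCurve IntermediateField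
open Fermat.Agent.S24.helper24
open Fermat.Agent.S18
open Fermat.Agent.S37.helper5666

section Series

variable (k : Type) [Field k] (ℓ : ℕ) [Fact ℓ.Prime] [CharP k ℓ]

/-- In characteristic `ℓ`, an `ℓ`-th power of a Laurent series is supported on `ℓ ℤ`. -/
theorem coeff_pow_char_of_not_dvd (y : LaurentSeries k) {n : ℤ} (hn : ¬ (ℓ : ℤ) ∣ n) :
    (y ^ ℓ).coeff n = 0 := by
  have : ExpChar k ℓ := ExpChar.prime Fact.out
  have : NeZero ℓ := ⟨(Fact.out : ℓ.Prime).ne_zero⟩
  rw [pow_expChar_eq_qExpand, qExpand_coeff_of_not_dvd _ _ hn]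

/-- Over a perfect field of characteristic `ℓ`, a Laurent series supported on `ℓ ℤ` is an
`ℓ`-th power. -/
theorem exists_pow_eq_of_coeff [PerfectField k] (x : LaurentSeries k)
    (hx : ∀ n : ℤ, ¬ (ℓ : ℤ) ∣ n → x.coeff n = 0) : ∃ y : LaurentSeries k, y ^ ℓ = x := by
  have : ExpChar k ℓ := ExpChar.prime Fact.out
  have : NeZero ℓ := ⟨(Fact.out : ℓ.Prime).ne_zero⟩
  have : PerfectRing k ℓ := PerfectField.toPerfectRing ℓ
  refine ⟨coeffMap ((frobeniusEquiv k ℓ).symm : k →+* k) (descend ℓ x), ?_⟩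
  rw [← qExpand_eq_pow_of_perfect, qExpand_descend ℓ x hx]

/-- **(PTH)**  `F_k(M) ∩ k((q^ℓ)) = F_k(M)^ℓ` for `k` perfect of characteristic `ℓ ∤ M`. -/
theorem fullC_exists_pow_eq [PerfectField k] (M : ℕ) [NeZero M] (hℓM : ¬ ℓ ∣ M)
    (x : LaurentSeries k) (hxF : x ∈ modularFunctionFieldFullC k M)
    (hx : ∀ n : ℤ, ¬ (ℓ : ℤ) ∣ n → x.coeff n = 0) :
    ∃ y : LaurentSeries k, y ∈ modularFunctionFieldFullC k M ∧ y ^ ℓ = x := by
  have hℓ : ℓ.Prime := Fact.out
  have hMK : ∀ p : ℕ, p.Prime → p ∣ M → (p : k) ≠ 0 := by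
    intro p hp hpM h0
    rw [CharP.cast_eq_zero_iff k ℓ p] at h0
    have : ℓ = p := (Nat.prime_dvd_prime_iff_eq hℓ hp).mp h0
    exact hℓM (this ▸ hpM)
  have := Fermat.Agent.S37.helper1588.finiteDimensional_jC k M hMK
  have : CharP (LaurentSeries k) ℓ :=
    charP_of_injective_algebraMap (algebraMap k (LaurentSeries k)).injective ℓ
  have : CharP ↥(modularFunctionFieldFullC k M) ℓ :=
    charP_of_injective_algebraMap (algebraMap k ↥(modularFunctionFieldFullC k M)).injective ℓ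
  -- the subfield `F ∩ k((q))^ℓ` of `F`
  let L : Subfield ↥(modularFunctionFieldFullC k M) :=
    (frobRange (LaurentSeries k) ℓ).comap
      (algebraMap ↥(modularFunctionFieldFullC k M) (LaurentSeries k))
  have hmemL : ∀ z : ↥(modularFunctionFieldFullC k M),
      z ∈ L ↔ ∃ y : LaurentSeries k, y ^ ℓ = (z : LaurentSeries k) := by
    intro z
    show (z : LaurentSeries k) ∈ frobRange (LaurentSeries k) ℓ ↔ _
    exact mem_frobRange ℓ
  have hL : ∀ y : ↥(modularFunctionFieldFullC k M), y ^ ℓ ∈ L := by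
    intro y
    rw [hmemL]
    exact ⟨(y : LaurentSeries k), rfl⟩
  have hjL : Fermat.Agent.S37.helper1588.jC k M ∉ L := by
    intro hj
    rw [hmemL] at hj
    obtain ⟨y, hy⟩ := hj
    have h1 : (y ^ ℓ).coeff (-1 : ℤ) = 0 := by
      apply coeff_pow_char_of_not_dvd k ℓ y
      intro hdvd
      have h2 : (ℓ : ℤ) ∣ 1 := (dvd_neg).mp hdvd
      have h3 : ℓ ∣ 1 := by exact_mod_cast h2
      exact hℓ.one_lt.ne' (Nat.dvd_one.mp h3)
    rw [hy, Fermat.Agent.S37.helper1588.coe_jC,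
      ModularCurve.coeff_jqModC_neg_one] at h1
    exact one_ne_zero h1
  have hj : ∀ y : ↥(modularFunctionFieldFullC k M),
      y ^ ℓ ≠ Fermat.Agent.S37.helper1588.jC k M := by
    intro y hy
    exact hjL (hy ▸ hL y)
  have hxL : (⟨x, hxF⟩ : ↥(modularFunctionFieldFullC k M)) ∈ L := by
    rw [hmemL]
    exact exists_pow_eq_of_coeff k ℓ x hx
  obtain ⟨y, hy⟩ := exists_pow_eq_of_mem (K := k) ℓ
    (Fermat.Agent.S37.helper1588.jC k M) hj L hL hjL hxL
  refine ⟨(y : LaurentSeries k), y.2, ?_⟩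
  have := congrArg (fun z : ↥(modularFunctionFieldFullC k M) => (z : LaurentSeries k)) hy
  simpa using this

end Series

section Gauss

open Fermat.Agent.S35.helper1928

variable (ℓ M : ℕ) [Fact ℓ.Prime] [NeZero M] (hℓM : ¬ ℓ ∣ M) (A : ValuationSubring Kbar)
  (hA : (ℓ : Kbar) ∈ A.nonunits)

include hℓM hA in
/-- A Gauss-integral function of level `ℓ M` whose reduction is supported on `ℓ ℤ` has reduction
`red g ^ ℓ`, `g` a Gauss-integral function. -/
theorem exists_red_pow_eq (u : ↥(vInf ℓ M A))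
    (hu : ∀ n : ℤ, ¬ (ℓ : ℤ) ∣ n →
      (helper8991.gaussFRed A (IsLocalRing.residue A) (ℓ * M) u).coeff n = 0) :
    ∃ g : ↥(vInf ℓ M A),
      helper8991.gaussFRed A (IsLocalRing.residue A) (ℓ * M) g ^ ℓ =
        helper8991.gaussFRed A (IsLocalRing.residue A) (ℓ * M) u := by
  have : CharP (IsLocalRing.ResidueField A) ℓ := helper508.charP_residueField ℓ A hA
  have : IsAlgClosed (IsLocalRing.ResidueField A) :=
    Fermat.Agent.Lib.helper6879.isAlgClosed_residueField A
  have hrange := range_gaussFRed ℓ M hℓM A hA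
  have hmem : helper8991.gaussFRed A (IsLocalRing.residue A) (ℓ * M) u ∈
      modularFunctionFieldFullC (IsLocalRing.ResidueField A) M := by
    have : helper8991.gaussFRed A (IsLocalRing.residue A) (ℓ * M) u ∈
        Set.range (helper8991.gaussFRed A (IsLocalRing.residue A) (ℓ * M)) := ⟨u, rfl⟩
    rw [hrange] at this
    exact this
  obtain ⟨y, hyF, hy⟩ := fullC_exists_pow_eq (IsLocalRing.ResidueField A) ℓ M hℓM _ hmem hu
  have hy' : y ∈ Set.range (helper8991.gaussFRed A (IsLocalRing.residue A) (ℓ * M)) := by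
    rw [hrange]
    exact hyF
  obtain ⟨g, rfl⟩ := hy'
  exact ⟨g, hy⟩

include hℓM hA in
/-- **(PTH), function form.**  A Gauss unit `u` of level `ℓ M` whose reduction is supported on
`ℓ ℤ` is an `ℓ`-th power of a function up to a `1`-unit of the Gauss valuation. -/
theorem exists_pow_val_lt (u : ↥(vInf ℓ M A))
    (hu0 : helper8991.gaussFRed A (IsLocalRing.residue A) (ℓ * M) u ≠ 0)
    (hu : ∀ n : ℤ, ¬ (ℓ : ℤ) ∣ n →
      (helper8991.gaussFRed A (IsLocalRing.residue A) (ℓ * M) u).coeff n = 0) :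
    ∃ g : FN (ℓ * M), g ≠ 0 ∧
      (vInf ℓ M A).valuation ((u : FN (ℓ * M)) / g ^ ℓ - 1) < 1 := by
  obtain ⟨g, hg⟩ := exists_red_pow_eq ℓ M hℓM A hA u hu
  have hℓ0 : ℓ ≠ 0 := (Fact.out : ℓ.Prime).ne_zero
  have hg0 : helper8991.gaussFRed A (IsLocalRing.residue A) (ℓ * M) g ≠ 0 := by
    intro h0
    rw [h0, zero_pow hℓ0] at hg
    exact hu0 hg.symm
  have hgU : IsUnit g :=
    (helper8991.isUnit_iff_gaussFRed_ne_zero A (IsLocalRing.residue A) (ℓ * M) g).mpr hg0
  obtain ⟨g', hgg'⟩ := hgU.exists_right_inv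
  have hgF : (g : FN (ℓ * M)) * (g' : FN (ℓ * M)) = 1 := congrArg Subtype.val hgg'
  have hgne : (g : FN (ℓ * M)) ≠ 0 := left_ne_zero_of_mul_eq_one hgF
  have hg'eq : (g' : FN (ℓ * M)) = (g : FN (ℓ * M))⁻¹ := eq_inv_of_mul_eq_one_right hgF
  refine ⟨(g : FN (ℓ * M)), hgne, ?_⟩
  -- the element `u * g' ^ ℓ - 1` of the Gauss ring reduces to `0`
  have hred : helper8991.gaussFRed A (IsLocalRing.residue A) (ℓ * M) (u * g' ^ ℓ - 1) = 0 := by
    have h1 := congrArg (helper8991.gaussFRed A (IsLocalRing.residue A) (ℓ * M)) hgg'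
    rw [map_mul, map_one] at h1
    rw [map_sub, map_mul, map_pow, map_one, ← hg, ← mul_pow, h1, one_pow, sub_self]
  have hmax := (helper8991.gaussFRed_eq_zero_iff A (IsLocalRing.residue A) (ℓ * M) _).mp hred
  have hlt := (ValuationSubring.valuation_lt_one_iff (vInf ℓ M A) (u * g' ^ ℓ - 1)).mp hmax
  have hcoe : ((u * g' ^ ℓ - 1 : ↥(vInf ℓ M A)) : FN (ℓ * M)) =
      (u : FN (ℓ * M)) / (g : FN (ℓ * M)) ^ ℓ - 1 := by
    show (u : FN (ℓ * M)) * (g' : FN (ℓ * M)) ^ ℓ - 1 = _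
    rw [hg'eq, inv_pow, div_eq_mul_inv]
  rw [← hcoe]
  exact hlt

include hℓM hA in
/-- **(PTH), `θ` form** (the hypothesis `θ (red u) = 0` is `dlogRed u = 0`, `helper3511`). -/
theorem exists_pow_val_lt_of_theta (u : ↥(vInf ℓ M A))
    (hu0 : helper8991.gaussFRed A (IsLocalRing.residue A) (ℓ * M) u ≠ 0)
    (hθ : Fermat.Agent.Lib.helper9242.thetaFun (IsLocalRing.ResidueField A)
      (helper8991.gaussFRed A (IsLocalRing.residue A) (ℓ * M) u) = 0) :
    ∃ g : FN (ℓ * M), g ≠ 0 ∧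
      (vInf ℓ M A).valuation ((u : FN (ℓ * M)) / g ^ ℓ - 1) < 1 := by
  have : CharP (IsLocalRing.ResidueField A) ℓ := helper508.charP_residueField ℓ A hA
  refine exists_pow_val_lt ℓ M hℓM A hA u hu0 fun n hn => ?_
  refine (Fermat.Agent.Lib.helper9242.thetaFun_eq_zero_iff_coeff _ _).mp hθ n ?_
  rwa [Ne, CharP.intCast_eq_zero_iff (IsLocalRing.ResidueField A) ℓ n]

include hℓM hA in
/-- **(PTH), `θ` form at a level written `N = ℓ * M`** (for consumers at level `M * ℓ` or at a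
general level `N` with `ℓ ∥ N`: `subst`-free). -/
theorem exists_pow_val_lt_of_theta_level (N : ℕ) (hN : N = ℓ * M)
    (u : ↥(helper8991.gaussF A (IsLocalRing.residue A) N))
    (hu0 : helper8991.gaussFRed A (IsLocalRing.residue A) N u ≠ 0)
    (hθ : Fermat.Agent.Lib.helper9242.thetaFun (IsLocalRing.ResidueField A)
      (helper8991.gaussFRed A (IsLocalRing.residue A) N u) = 0) :
    ∃ g : FN N, g ≠ 0 ∧
      (helper8991.gaussF A (IsLocalRing.residue A) N).valuation ((u : FN N) / g ^ ℓ - 1) < 1 := by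
  subst hN
  exact exists_pow_val_lt_of_theta ℓ M hℓM A hA u hu0 hθ

end Gauss

end Fermat.Agent.S44.helper478
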