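import Mathlib

/-!
# S44 / L3-INST (helper478): `[F : F^p] = p` for function fields of one variable

Abstract core of the seam (PTH) of the TOR-1 instance.

`K` a perfect field of characteristic `p`, `F / K` a field, `j ∈ F` **not** a `p`-th power in `F`
with `F` finite over `K(j)`.  Then

* `relfinrank_frobRange_top` : `[F : F^p] = p`;
* `eq_frobRange_of_le` : every subfield `L` with `F^p ≤ L` and `j ∉ L` is `F^p`;
* `exists_pow_eq_of_mem` : the element form used by the instance: if `L ⊇ F^p` is a subfield
  avoiding `j`, every element of `L` is a `p`-th power in `F`.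

Application: `F = F_k(N0)` inside `k((q))`, `L = F ∩ k((q^p))`, `j = 1/q + …`.
-/

set_option autoImplicit false

namespace Fermat.Agent.S44.helper478

open Module IntermediateField Polynomial

section PthRoot

variable {K F : Type*} [Field K] [Field F] [Algebra K F] (p : ℕ) [Fact p.Prime] [CharP F p]

/-- The subfield `F^p` of `p`-th powers. -/
def frobRange (F : Type*) [Field F] (p : ℕ) [Fact p.Prime] [CharP F p] : Subfield F :=
  (frobenius F p).fieldRange

theorem mem_frobRange {x : F} : x ∈ frobRange F p ↔ ∃ y : F, y ^ p = x := by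
  unfold frobRange
  rw [RingHom.mem_fieldRange]
  simp [frobenius_def]

/-- `[K(j) : K^p(j^p)] = p` when `j` is not a `p`-th power. -/
theorem relfinrank_map_frobenius_adjoin [PerfectField K] (j : F) (hj : ∀ y : F, y ^ p ≠ j) :
    ((K⟮j⟯).toSubfield.map (frobenius F p)).relfinrank (K⟮j⟯).toSubfield = p := by
  classical
  have hpp : p.Prime := Fact.out
  have : CharP K p := RingHom.charP (algebraMap K F) (algebraMap K F).injective p
  have : ExpChar K p := ExpChar.prime hpp
  have : PerfectRing K p := PerfectField.toPerfectRing p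
  set B : Subfield F := (K⟮j⟯).toSubfield with hB
  set B' : Subfield F := B.map (frobenius F p) with hB'
  have hjB : j ∈ B := mem_adjoin_simple_self K j
  have hB'B : B' ≤ B := by
    rintro _ ⟨b, hb, rfl⟩
    exact pow_mem hb p
  rw [Subfield.relfinrank_eq_finrank_of_le hB'B]
  -- the element `j ^ p` of `B'`
  have hjp : j ^ p ∈ B' := ⟨j, hjB, rfl⟩
  set a : B' := ⟨j ^ p, hjp⟩ with ha
  have hn : ∀ b : B', b ^ p ≠ a := by
    intro b hb
    have h1 : ((b : F)) ^ p = j ^ p := by
      have := congrArg (fun z : B' => (z : F)) hb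
      simpa using this
    have h2 : (b : F) = j := frobenius_inj F p h1
    obtain ⟨y, -, hy⟩ := (h2 ▸ b.2 : j ∈ B')
    exact hj y hy
  have hirr : Irreducible (X ^ p - C a : B'[X]) := X_pow_sub_C_irreducible_of_prime hpp hn
  have hmonic : (X ^ p - C a : B'[X]).Monic := monic_X_pow_sub_C a hpp.ne_zero
  have haev : aeval j (X ^ p - C a : B'[X]) = 0 := by
    have h0 : (algebraMap B' F) a = j ^ p := rfl
    simp [h0]
  have hint : IsIntegral B' j := ⟨_, hmonic, haev⟩
  have hmin : minpoly B' j = X ^ p - C a :=
    (minpoly.eq_of_irreducible_of_monic hirr haev hmonic).symm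
  have hEq : Subfield.extendScalars hB'B = B'⟮j⟯ := by
    apply le_antisymm
    · intro x hx
      have hxB : x ∈ B := hx
      have hle : B ≤ (B'⟮j⟯).toSubfield := by
        rw [hB, adjoin_toSubfield, Subfield.closure_le]
        rintro x (⟨c, rfl⟩ | hx)
        · obtain ⟨c', rfl⟩ := surjective_frobenius K p c
          have h1 : algebraMap K F (frobenius K p c') ∈ B' := by
            refine ⟨algebraMap K F c', ?_, ?_⟩
            · exact (K⟮j⟯).algebraMap_mem c'
            · simp [frobenius_def]
          exact (B'⟮j⟯).algebraMap_mem ⟨_, h1⟩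
        · rw [Set.mem_singleton_iff] at hx
          rw [hx]
          exact mem_adjoin_simple_self B' j
      exact hle hxB
    · rw [adjoin_le_iff]
      rintro x hx
      rw [Set.mem_singleton_iff] at hx
      rw [hx]
      exact hjB
  rw [hEq, adjoin.finrank hint, hmin, natDegree_X_pow_sub_C]

/-- **`[F : F^p] = p`** for a field `F` finite over `K(j)`, `K` perfect, `j` not a `p`-th
power in `F`. -/
theorem relfinrank_frobRange_top [PerfectField K] (j : F) (hj : ∀ y : F, y ^ p ≠ j)
    [FiniteDimensional K⟮j⟯ F] : (frobRange F p).relfinrank ⊤ = p := by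
  classical
  set B : Subfield F := (K⟮j⟯).toSubfield with hB
  set B' : Subfield F := B.map (frobenius F p) with hB'
  have hB'B : B' ≤ B := by
    rintro _ ⟨b, hb, rfl⟩
    exact pow_mem hb p
  have hB'Fp : B' ≤ frobRange F p := by
    rintro _ ⟨b, -, rfl⟩
    exact (mem_frobRange p).mpr ⟨b, rfl⟩
  have hFp : frobRange F p = (⊤ : Subfield F).map (frobenius F p) := by
    rw [frobRange, RingHom.fieldRange_eq_map]
  have h2 : B'.relfinrank (frobRange F p) = B.relfinrank ⊤ := by
    rw [hFp]
    exact Subfield.relfinrank_map_map B ⊤ (frobenius F p)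
  have h3 : B.relfinrank ⊤ = finrank K⟮j⟯ F := by
    rw [Subfield.relfinrank_top_right]
    rfl
  have hd : 0 < finrank K⟮j⟯ F := finrank_pos
  have h1 : B'.relfinrank B = p := relfinrank_map_frobenius_adjoin p j hj
  have ha := Subfield.relfinrank_mul_relfinrank hB'B (le_top : B ≤ ⊤)
  have hb := Subfield.relfinrank_mul_relfinrank hB'Fp (le_top : frobRange F p ≤ ⊤)
  rw [h1, h3] at ha
  rw [h2, h3, ← ha] at hb
  have hc : finrank K⟮j⟯ F * (frobRange F p).relfinrank ⊤ = finrank K⟮j⟯ F * p := by
    rw [hb, mul_comm]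
  exact Nat.eq_of_mul_eq_mul_left hd hc

/-- Every subfield between `F^p` and `F` which misses `j` is `F^p`. -/
theorem eq_frobRange_of_le [PerfectField K] (j : F) (hj : ∀ y : F, y ^ p ≠ j)
    [FiniteDimensional K⟮j⟯ F] (L : Subfield F) (hL : frobRange F p ≤ L) (hjL : j ∉ L) :
    L = frobRange F p := by
  have hpp : p.Prime := Fact.out
  have htop := relfinrank_frobRange_top (K := K) p j hj
  have hmul := Subfield.relfinrank_mul_relfinrank hL (le_top : L ≤ ⊤)
  rw [htop] at hmul
  have hLtop : L.relfinrank ⊤ ≠ 1 := by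
    intro h1
    rw [Subfield.relfinrank_eq_one_iff] at h1
    exact hjL (h1 (Subfield.mem_top j))
  have hdvd : L.relfinrank ⊤ ∣ p := Dvd.intro_left _ hmul
  have hLp : L.relfinrank ⊤ = p := ((Nat.dvd_prime hpp).mp hdvd).resolve_left hLtop
  rw [hLp] at hmul
  have h1 : (frobRange F p).relfinrank L = 1 := by
    have : (frobRange F p).relfinrank L * p = 1 * p := by rw [hmul, one_mul]
    exact Nat.eq_of_mul_eq_mul_right hpp.pos this
  exact le_antisymm (Subfield.relfinrank_eq_one_iff.mp h1) hL

/-- Element form: if a subfield `L ⊇ F^p` avoids `j`, each of its elements is a `p`-th power. -/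
theorem exists_pow_eq_of_mem [PerfectField K] (j : F) (hj : ∀ y : F, y ^ p ≠ j)
    [FiniteDimensional K⟮j⟯ F] (L : Subfield F) (hL : ∀ y : F, y ^ p ∈ L) (hjL : j ∉ L)
    {x : F} (hx : x ∈ L) : ∃ y : F, y ^ p = x := by
  have hle : frobRange F p ≤ L := by
    intro z hz
    obtain ⟨y, rfl⟩ := (mem_frobRange p).mp hz
    exact hL y
  have := eq_frobRange_of_le (K := K) p j hj L hle hjL
  rw [this] at hx
  exact (mem_frobRange p).mp hx

end PthRoot

end Fermat.Agent.S44.helper478
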