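import Fermat.Agent.S44.helper478_Tor1Inst
import Fermat.Agent.S44.helper3316_KronFracInst

/-!
# S44 / L3-INST (helper478): the block (TOR1), UNCONDITIONAL

`stmt_Tor1_holds : S44.helper7545.Stmt_Tor1` — the export of the block (TOR1) of the chain of
record (captain's ruling #1): for every prime `p`, every `M` prime to `p`, every valuation
subring `A` of `ℚ̄` over `p`, a `p`-new `p`-Kummer class `c ∈ J₀(p M)` with `Ω_∞ c = 0` and
`Ω_0 c = 0` lies in `T = S44.helper560.kDeep A (p M) p W_p`.

Inputs (all compiled, no hypothesis left):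
* (PTH)            `helper478_PthRoot`, `helper478_PthInst`;
* (OMEGA), (K)     `helper3511_Omega`, `helper3511_OmegaKer`;
* (NORMQ)          `helper1687_NormSwap` (in-field norm identities);
* (FP)             `helper9545_Tor1Core`, `helper9545_Tor1Inst`, `helper9545_Tor1Final`;
* (H), (G)         `helper9545_KronDiff`, `helper3316_KronFrac`, `helper3316_KronFracInst`;
* Spec             `helper7545_Tor1Spec` (+ `helper7545_NormQ`), `helper560_TorSpec`.
-/

set_option autoImplicit false

namespace Fermat.Agent.S44.helper478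

/-- **(G)** holds (row L3-FRACDEPTH, `S44.helper3316.uNorm_hdepth`). -/
theorem stmt_DepthG : Stmt_DepthG :=
  fun A N0 p _ _ hp _ hA =>
    Fermat.Agent.S44.helper3316.uNorm_hdepth (N0 * p) p hp (dvd_mul_left p N0) A hA

/-- **(TOR1), function form** — `S44.helper7545.Stmt_Tor1Fun`. -/
theorem stmt_Tor1Fun_holds : Fermat.Agent.S44.helper7545.Stmt_Tor1Fun :=
  stmt_Tor1Fun stmt_DepthG

/-- **(TOR1), class form — THE EXPORT OF THE BLOCK** — `S44.helper7545.Stmt_Tor1`. -/
theorem stmt_Tor1_holds : Fermat.Agent.S44.helper7545.Stmt_Tor1 :=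
  stmt_Tor1 stmt_DepthG

end Fermat.Agent.S44.helper478
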