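import Fermat.Agent.S44.helper3130_Spec
import Fermat.Agent.S44.helper478_Tor1Final
import Fermat.Agent.S44.helper2359_SymTor1

/-!
# S44 seam (T3a) (helper478): `Stmt_Tor1` of the TOP Spec

`seam_T3a : Fermat.Agent.S44.helper3130.Stmt_Tor1` — a `p`-new `p`-torsion class of level `p M`
with `Ω = 0` lies in `T` (its Kummer function is a `p`-th power to every precision at both Gauss
valuations, approximants in the function field).

Adapter from the captain's vocabulary (`IsKummerFn`, `IsOmega`, `IsPNew`, `InT`) to the compiled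
block (TOR1) (`helper478.stmt_Tor1Fun_holds : helper7545.Stmt_Tor1Fun`) through (SYM)
(`helper2359.tor1FunAt_omega_only`):

* `isKummer_of_isKummerFn`      : `IsKummerFn N n c h → IsKummer Kbar n h`;
* `norm_levelIncl_eq_normAlong` : the norm of `F_N / F_M` along `levelIncl` is the norm along the
  Prelude degeneracy map `α = heckeAlphaBar Kbar M p` after `castFN` (`N = M * p`);
* `isPNewFun_of_norms`          : the two norm hypotheses of `IsPNew` give `helper7545.IsPNewFun`
  (`N_β x = N_α (W_p x)`, `helper7545.normAlong_heckeAlphaBar_swap`);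
* `dlogRed_eq_zero_of_theta`    : the relation `0 * ρ(h) = θ(ρ(h))` of `IsOmega … 0` is
  `helper3511.dlogRed h = 0`.
-/

set_option autoImplicit false

noncomputable section

namespace Fermat.Agent.S44.helper478

open ModularCurve AlgebraicCurve
open Fermat.Agent.S24.helper24
open Fermat.Agent.S29.helper8217 (IsKummer)
open Fermat.Agent.S34.helper584 (gaussV)
open Fermat.Agent.S35.helper1219 (castFN)
open Fermat.Agent.S44.helper3511 (dlogRed)
open Fermat.Agent.S44.helper3130 (IsKummerFn IsOmega IsPNew InT)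

/-- A Kummer function in the sense of the TOP Spec is a Kummer element. -/
theorem isKummer_of_isKummerFn {N n : ℕ} [NeZero N] {c : JZero N} {h : FN N}
    (hk : IsKummerFn N n c h) : IsKummer Kbar n h := by
  obtain ⟨h0, D, -, hD⟩ := hk
  exact ⟨h0, fun v => ⟨_, hD v⟩⟩

/-- The norm of `F_N / F_M` along `levelIncl` (`M ∣ N`) is the norm along the Prelude degeneracy
map `α : F_M → F_{M p}` after the level cast, for `N = M * p`. -/
theorem norm_levelIncl_eq_normAlong (M p N : ℕ) [NeZero M] [NeZero p] [NeZero N]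
    (hN : N = M * p) (hd : M ∣ N) (x : FN N) :
    (letI : Algebra (FN M) (FN N) :=
        (Fermat.Agent.S29.helper2378.levelIncl (M := M) (M' := N) hd).toRingHom.toAlgebra;
      Algebra.norm (FN M) x)
      = Fermat.Agent.S29.helper8217.normAlong (heckeAlphaBar Kbar M p) (castFN hN x) := by
  subst hN
  rfl

/-- The Atkin–Lehner involution of a level `N` written `N = M * p` commutes with the level
cast. -/
theorem castFN_atkinLehnerBar (M p N : ℕ) [NeZero M] [NeZero p] [NeZero N] (hp : p.Prime)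
    (hN : N = M * p) (hpd : p ∣ N) (hp2 : ¬ p ^ 2 ∣ N) (hpd' : p ∣ M * p)
    (hp2' : ¬ p ^ 2 ∣ M * p) (x : FN N) :
    castFN hN (Fermat.Agent.S35.helper1073.atkinLehnerBar N p hp hpd hp2 x)
      = Fermat.Agent.S35.helper1073.atkinLehnerBar (M * p) p hp hpd' hp2' (castFN hN x) := by
  subst hN
  rfl

/-- The two norm hypotheses of `IsPNew` (TOP Spec) give `IsPNewFun` (block (TOR1)). -/
theorem isPNewFun_of_norms (p M : ℕ) [NeZero p] [NeZero M] (hp : p.Prime)
    (hcop : Nat.Coprime p M) (x : FN (p * M))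
    (h1 : letI : Algebra (FN M) (FN (p * M)) :=
        (Fermat.Agent.S29.helper2378.levelIncl (M := M) (M' := p * M)
          (Dvd.intro_left p rfl)).toRingHom.toAlgebra;
      ∃ w : FN M, Algebra.norm (FN M) x = w ^ p)
    (h2 : letI : Algebra (FN M) (FN (p * M)) :=
        (Fermat.Agent.S29.helper2378.levelIncl (M := M) (M' := p * M)
          (Dvd.intro_left p rfl)).toRingHom.toAlgebra;
      ∃ w : FN M,
        Algebra.norm (FN M) (Fermat.Agent.S35.helper1219.atkinLehnerBar p M hcop x) = w ^ p) :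
    Fermat.Agent.S44.helper7545.IsPNewFun p M x := by
  have hpM : ¬ p ∣ M := (Nat.Prime.coprime_iff_not_dvd hp).mp hcop
  obtain ⟨w1, hw1⟩ := h1
  obtain ⟨w2, hw2⟩ := h2
  have e1 := norm_levelIncl_eq_normAlong M p (p * M) (mul_comm p M) (Dvd.intro_left p rfl) x
  have e2 := norm_levelIncl_eq_normAlong M p (p * M) (mul_comm p M) (Dvd.intro_left p rfl)
    (Fermat.Agent.S35.helper1219.atkinLehnerBar p M hcop x)
  refine ⟨⟨1, w1, ?_⟩, ⟨1, w2, ?_⟩⟩
  · rw [map_one, one_mul, ← hw1]
    exact e1.symm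
  · rw [map_one, one_mul, ← hw2]
    -- `N_β (cast x) = N_α (W (cast x)) = N_α (cast (W x))`
    have hsw := Fermat.Agent.S44.helper7545.normAlong_heckeAlphaBar_swap M p hp hpM
      (Fermat.Agent.S35.helper1073.atkinLehnerBar (M * p) p hp (dvd_mul_left p M)
        (Fermat.Agent.S35.helper1073.not_sq_dvd_mul M p hp hpM)).toAlgHom
      (Fermat.Agent.S35.helper1073.atkinLehnerBar_heckeAlphaBar M p hp hpM)
      (Fermat.Agent.S35.helper1073.atkinLehnerBar_heckeBetaBar M p hp hpM)
      (castFN (mul_comm p M) x)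
    have hW : Fermat.Agent.S35.helper1219.atkinLehnerBar p M hcop x
        = Fermat.Agent.S35.helper1073.atkinLehnerBar (p * M) p hp (dvd_mul_right p M)
            (Fermat.Agent.S35.helper1073.not_sq_dvd_of_coprime hp hcop) x :=
      Fermat.Agent.S35.helper1073.atkinLehnerBar_eq_helper1219 p M hp hcop x
    have hc := castFN_atkinLehnerBar M p (p * M) hp (mul_comm p M) (dvd_mul_right p M)
      (Fermat.Agent.S35.helper1073.not_sq_dvd_of_coprime hp hcop) (dvd_mul_left p M)
      (Fermat.Agent.S35.helper1073.not_sq_dvd_mul M p hp hpM) x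
    rw [hW] at e2
    rw [hc] at e2
    rw [hW, e2]
    exact hsw.symm

/-- The relation `0 * ρ(h) = θ(ρ(h))` of `IsOmega … 0`, for a Gauss unit `h`, is
`dlogRed h = 0`. -/
theorem dlogRed_eq_zero_of_theta (A : ValuationSubring Kbar) (N : ℕ) [NeZero N] (h : FN N)
    (hv : (Fermat.Agent.S35.helper882.gpRing A N).valuation h = 1)
    (hθ : ∀ n : ℤ, ((0 : LaurentSeries (IsLocalRing.ResidueField A))
        * Fermat.Agent.S35.helper882.gpRho A N h).coeff n
      = (n : IsLocalRing.ResidueField A) * (Fermat.Agent.S35.helper882.gpRho A N h).coeff n) :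
    dlogRed A N h = 0 := by
  have hmem : h ∈ Fermat.Agent.S35.helper882.gpRing A N :=
    ((Fermat.Agent.S35.helper882.gpRing A N).valuation_le_one_iff h).mp hv.le
  have hU : IsUnit (⟨h, hmem⟩ : ↥(Fermat.Agent.S35.helper882.gpRing A N)) :=
    ((Fermat.Agent.S35.helper882.gpRing A N).valuation_eq_one_iff ⟨h, hmem⟩).mpr hv
  have hu : Fermat.Agent.S18.helper8991.gaussFRed A (IsLocalRing.residue A) N ⟨h, hmem⟩ ≠ 0 :=
    (Fermat.Agent.S18.helper8991.isUnit_iff_gaussFRed_ne_zero A (IsLocalRing.residue A) N _).mp hU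
  have hθ' : Fermat.Agent.Lib.helper9242.thetaFun (IsLocalRing.ResidueField A)
      (Fermat.Agent.S18.helper8991.gaussFRed A (IsLocalRing.residue A) N ⟨h, hmem⟩) = 0 := by
    ext n
    rw [Fermat.Agent.Lib.helper9242.thetaFun_coeff]
    have := hθ n
    rw [Fermat.Agent.S35.helper882.gpRho_of_mem A N hmem, zero_mul] at this
    rw [← this]
  exact (Fermat.Agent.S44.helper3511.dlogRed_coe_eq_zero_iff A N ⟨h, hmem⟩ hu).mpr hθ'

/-- **Seam (T3a)** of the TOP Spec `S44.helper3130`: TOR-1. -/
theorem seam_T3a : Fermat.Agent.S44.helper3130.Stmt_Tor1 := by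
  intro p hp _ M _ _ hcop _ A hA c _ hnew hom
  obtain ⟨h, hk, hv, hθ⟩ := hom
  have hKum : IsKummer Kbar p h := isKummer_of_isKummerFn hk
  obtain ⟨hn1, hn2⟩ := hnew h hk
  have hnewF : Fermat.Agent.S44.helper7545.IsPNewFun p M h :=
    isPNewFun_of_norms p M hp hcop h hn1 hn2
  have hd : dlogRed A (p * M) h = 0 := dlogRed_eq_zero_of_theta A (p * M) h hv hθ
  have key := Fermat.Agent.S44.helper2359.tor1FunAt_omega_only hp hcop hA
    (stmt_Tor1Fun_holds p M hp hcop A hA) h hKum hnewF hd
  refine ⟨h, hk, fun γ hγ i => ?_⟩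
  obtain ⟨⟨g1, hg1⟩, ⟨g2, hg2⟩⟩ := key γ hγ
  fin_cases i
  · exact ⟨g1, hg1⟩
  · refine ⟨(Fermat.Agent.S35.helper1219.atkinLehnerBar p M hcop).symm g2, ?_⟩
    show (Fermat.Agent.S35.helper882.gpRing A (p * M)).valuation
      (Fermat.Agent.S35.helper1219.atkinLehnerBar p M hcop
        (h - (Fermat.Agent.S35.helper1219.atkinLehnerBar p M hcop).symm g2 ^ p)) ≤ γ
    rw [map_sub, map_pow, AlgEquiv.apply_symm_apply]
    exact hg2

end Fermat.Agent.S44.helper478
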