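/-
S44, step (3) "TOR-1", abstract FUNCTION-FIELD core (helper9545, backup of registry leaf L3-INST).

Carrier-free and Mathlib-only.  `F` is a field with a valuation `v` (any value group),
`M : F →* F` a multiplicative map (in the instance: the function-field avatar of the
Kronecker norm `x(q) ↦ ∏_j x(ζ^j q^{1/p})`, i.e. `M x = α^*(N_β x) / W x`), such that

* `M` raises depth: `v (x - 1) ≤ γ < 1 → v (M x - 1) ≤ max (v p * γ) (γ ^ p)`;
* the value group is archimedean below `1` (rank one);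
* the two norm relations hold for a pair `h, h'` (in the instance `h' = W h`):
  `h * M h' = gA ^ p` and `M h * h' = gB ^ p`.

Then `h` and `h'` are approximated by `p`-th powers of elements of `F` to every depth.
No completion and no Henselian hypothesis are used: the iteration `x = M (M x) * C ^ p`
runs inside `F`.
-/
import Mathlib

namespace Fermat.Agent.S44.helper9545

variable {F : Type*} [Field F] {Γ₀ : Type*} [LinearOrderedCommGroupWithZero Γ₀]

/-- An element at positive depth is a unit of the valuation. -/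
theorem val_eq_one_of_sub_one_lt (v : Valuation F Γ₀) {x : F} (hx : v (x - 1) < 1) : v x = 1 := by
  have h := Valuation.map_add_eq_of_lt_left v (x := (1 : F)) (y := x - 1) (by simpa using hx)
  simpa using h

theorem ne_zero_of_sub_one_lt (v : Valuation F Γ₀) {x : F} (hx : v (x - 1) < 1) : x ≠ 0 := by
  rintro rfl
  simp at hx

/-- The depth of the iterates of `M` on an element of positive depth decays geometrically. -/
theorem val_iterate_sub_one_le (v : Valuation F Γ₀) (p : ℕ) (hp : 2 ≤ p) (M : F →* F)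
    (hdepth : ∀ (x : F) (γ : Γ₀), γ < 1 → v (x - 1) ≤ γ →
      v (M x - 1) ≤ max (v (p : F) * γ) (γ ^ p))
    (c : Γ₀) (hc : c < 1) (hpc : v (p : F) ≤ c) (x : F) (hx : v (x - 1) ≤ c) (j : ℕ) :
    v (M^[j] x - 1) ≤ c ^ (j + 1) := by
  induction j with
  | zero => simpa using hx
  | succ j ih =>
    have hc0 : (0 : Γ₀) ≤ c := zero_le
    have hc1 : c ≤ 1 := hc.le
    have hγ1 : c ^ (j + 1) < 1 := pow_lt_one₀ hc0 hc (Nat.succ_ne_zero j)
    have hγc : c ^ (j + 1) ≤ c := by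
      calc c ^ (j + 1) ≤ c ^ 1 := pow_le_pow_of_le_one hc0 hc1 (by omega)
        _ = c := pow_one c
    have h := hdepth (M^[j] x) (c ^ (j + 1)) hγ1 ih
    rw [Function.iterate_succ_apply']
    refine h.trans (max_le ?_ ?_)
    · calc v (p : F) * c ^ (j + 1) ≤ c * c ^ (j + 1) := mul_le_mul_left hpc _
        _ = c ^ (j + 1 + 1) := by rw [pow_succ' c (j + 1)]
    · calc (c ^ (j + 1)) ^ p = (c ^ (j + 1)) ^ (p - 1) * c ^ (j + 1) := by
            rw [← pow_succ, Nat.sub_add_cancel (by omega)]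
        _ ≤ (c ^ (j + 1)) ^ 1 * c ^ (j + 1) :=
            mul_le_mul_left (pow_le_pow_of_le_one zero_le hγ1.le (by omega)) _
        _ ≤ c * c ^ (j + 1) := by rw [pow_one]; exact mul_le_mul_left hγc _
        _ = c ^ (j + 1 + 1) := by rw [pow_succ' c (j + 1)]

/-- **Iteration, raw form.**  If `x = M (M x) * C ^ p` and `x` has positive depth, then for
every depth `ε` there are `y` (an even iterate of `M` on `x`) and `D` with `x = y * D ^ p` and
`v (y - 1) ≤ ε`. -/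
theorem exists_eq_mul_pow_of_fixed (v : Valuation F Γ₀) (p : ℕ) (hp : 2 ≤ p) (M : F →* F)
    (hvp : v (p : F) < 1)
    (hdepth : ∀ (x : F) (γ : Γ₀), γ < 1 → v (x - 1) ≤ γ →
      v (M x - 1) ≤ max (v (p : F) * γ) (γ ^ p))
    (harch : ∀ γ : Γ₀, γ < 1 → ∀ ε : Γ₀, ε ≠ 0 → ∃ n : ℕ, γ ^ n ≤ ε)
    (x C : F) (hx : v (x - 1) < 1) (hfix : x = M (M x) * C ^ p) :
    ∀ ε : Γ₀, ε ≠ 0 → ∃ y D : F, x = y * D ^ p ∧ v (y - 1) ≤ ε ∧ v (y - 1) < 1 := by
  intro ε hε
  -- the iterated relation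
  have hiter : ∀ k : ℕ, ∃ D : F, x = M^[2 * k] x * D ^ p := by
    intro k
    induction k with
    | zero => exact ⟨1, by simp⟩
    | succ k ih =>
      obtain ⟨D, hD⟩ := ih
      refine ⟨M^[2 * k] C * D, ?_⟩
      have h1 : M^[2 * k] x = M^[2 * (k + 1)] x * (M^[2 * k] C) ^ p := by
        have h2 : M^[2 * k] x = M^[2 * k] (M (M x) * C ^ p) := congrArg _ hfix
        have h3 : ∀ (n : ℕ) (a b : F), M^[n] (a * b) = M^[n] a * M^[n] b := by
          intro n
          induction n with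
          | zero => intro a b; rfl
          | succ n ihn =>
            intro a b
            rw [Function.iterate_succ_apply', Function.iterate_succ_apply',
              Function.iterate_succ_apply', ihn, map_mul]
        have h4 : ∀ (n : ℕ) (a : F), M^[n] (a ^ p) = (M^[n] a) ^ p := by
          intro n
          induction n with
          | zero => intro a; rfl
          | succ n ihn =>
            intro a
            rw [Function.iterate_succ_apply', Function.iterate_succ_apply', ihn, map_pow]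
        rw [h2, h3, h4]
        congr 1
      calc x = M^[2 * k] x * D ^ p := hD
        _ = M^[2 * (k + 1)] x * (M^[2 * k] C) ^ p * D ^ p := by rw [← h1]
        _ = M^[2 * (k + 1)] x * (M^[2 * k] C * D) ^ p := by rw [mul_pow, mul_assoc]
  -- the depth
  set c : Γ₀ := max (v (p : F)) (v (x - 1)) with hcdef
  have hc : c < 1 := max_lt hvp hx
  obtain ⟨n, hn⟩ := harch c hc ε hε
  obtain ⟨D, hD⟩ := hiter n
  have hdep := val_iterate_sub_one_le v p hp M hdepth c hc (le_max_left _ _) x (le_max_right _ _)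
    (2 * n)
  have hle : c ^ (2 * n + 1) ≤ ε :=
    (pow_le_pow_of_le_one zero_le hc.le (by omega)).trans hn
  have hlt : v (M^[2 * n] x - 1) < 1 :=
    lt_of_le_of_lt hdep (pow_lt_one₀ zero_le hc (Nat.succ_ne_zero _))
  exact ⟨M^[2 * n] x, D, hD, hdep.trans hle, hlt⟩

/-- **Iteration.**  If `x = M (M x) * C ^ p` and `x` has positive depth, then `x` is
approximated by `p`-th powers to every depth. -/
theorem exists_pow_approx_of_fixed (v : Valuation F Γ₀) (p : ℕ) (hp : 2 ≤ p) (M : F →* F)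
    (hvp : v (p : F) < 1)
    (hdepth : ∀ (x : F) (γ : Γ₀), γ < 1 → v (x - 1) ≤ γ →
      v (M x - 1) ≤ max (v (p : F) * γ) (γ ^ p))
    (harch : ∀ γ : Γ₀, γ < 1 → ∀ ε : Γ₀, ε ≠ 0 → ∃ n : ℕ, γ ^ n ≤ ε)
    (x C : F) (hx : v (x - 1) < 1) (hfix : x = M (M x) * C ^ p) :
    ∀ ε : Γ₀, ε ≠ 0 → ∃ g : F, v (x - g ^ p) ≤ ε := by
  intro ε hε
  obtain ⟨y, D, hD, hdep, hlt⟩ :=
    exists_eq_mul_pow_of_fixed v p hp M hvp hdepth harch x C hx hfix ε hε
  have hvD : v (D ^ p) = 1 := by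
    have h1 : v x = 1 := val_eq_one_of_sub_one_lt v hx
    have h2 : v y = 1 := val_eq_one_of_sub_one_lt v hlt
    have h3 : v x = v y * v (D ^ p) := by rw [← map_mul]; exact congrArg v hD
    rw [h1, h2, one_mul] at h3
    exact h3.symm
  refine ⟨D, ?_⟩
  have hsub : x - D ^ p = D ^ p * (y - 1) := by
    rw [mul_sub, mul_one, mul_comm]; exact congrArg (· - D ^ p) hD
  rw [hsub, map_mul, hvD, one_mul]
  exact hdep

/-- **TOR-1, abstract function form.**  A pair `h, h'` of positive depth satisfying the two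
norm relations `h * M h' = gA ^ p`, `M h * h' = gB ^ p` is approximated by `p`-th powers to
every depth. -/
theorem tor1_pair (v : Valuation F Γ₀) (p : ℕ) (hp : 2 ≤ p) (M : F →* F)
    (hvp : v (p : F) < 1)
    (hdepth : ∀ (x : F) (γ : Γ₀), γ < 1 → v (x - 1) ≤ γ →
      v (M x - 1) ≤ max (v (p : F) * γ) (γ ^ p))
    (harch : ∀ γ : Γ₀, γ < 1 → ∀ ε : Γ₀, ε ≠ 0 → ∃ n : ℕ, γ ^ n ≤ ε)
    (h h' : F) (h1 : v (h - 1) < 1) (h2 : v (h' - 1) < 1)
    (hA : ∃ g : F, h * M h' = g ^ p) (hB : ∃ g : F, M h * h' = g ^ p) :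
    ∀ ε : Γ₀, ε ≠ 0 → (∃ g : F, v (h - g ^ p) ≤ ε) ∧ (∃ g : F, v (h' - g ^ p) ≤ ε) := by
  -- depth of `M x` is positive when that of `x` is
  have hMlt : ∀ x : F, v (x - 1) < 1 → v (M x - 1) < 1 := by
    intro x hx
    refine lt_of_le_of_lt (hdepth x _ hx le_rfl) (max_lt ?_ ?_)
    · calc v (p : F) * v (x - 1) ≤ 1 * v (x - 1) := mul_le_mul_left hvp.le _
        _ = v (x - 1) := one_mul _
        _ < 1 := hx
    · exact pow_lt_one₀ zero_le hx (by omega)
  -- the one-sided statement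
  have key : ∀ a b : F, v (a - 1) < 1 → v (b - 1) < 1 → (∃ g : F, a * M b = g ^ p) →
      (∃ g : F, M a * b = g ^ p) → ∀ ε : Γ₀, ε ≠ 0 → ∃ g : F, v (a - g ^ p) ≤ ε := by
    intro a b ha hb ⟨gA, hgA⟩ ⟨gB, hgB⟩
    have hMb : M b ≠ 0 := ne_zero_of_sub_one_lt v (hMlt b hb)
    have hMMa : M (M a) ≠ 0 := ne_zero_of_sub_one_lt v (hMlt _ (hMlt a ha))
    have hMgB : M gB ≠ 0 := by
      have h3 : M (M a) * M b = M gB ^ p := by rw [← map_mul, hgB, map_pow]
      intro h0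
      rw [h0, zero_pow (by omega)] at h3
      exact mul_ne_zero hMMa hMb h3
    have hfix : a = M (M a) * (gA / M gB) ^ p := by
      have h3 : M (M a) * M b = M gB ^ p := by rw [← map_mul, hgB, map_pow]
      rw [div_pow, ← hgA, ← h3]
      field_simp
    exact exists_pow_approx_of_fixed v p hp M hvp hdepth harch a _ ha hfix
  intro ε hε
  refine ⟨key h h' h1 h2 hA hB ε hε, key h' h h2 h1 ?_ ?_ ε hε⟩
  · obtain ⟨g, hg⟩ := hB
    exact ⟨g, by rw [mul_comm]; exact hg⟩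
  · obtain ⟨g, hg⟩ := hA
    exact ⟨g, by rw [mul_comm]; exact hg⟩

/-! ### Relative forms (one valuation at a time, up to `p`-th powers)

These are the shapes asked for by the owner of the leaf L3-INST (team_s44_chat #154): the
hypothesis is `v (x / g0 ^ p - 1) < 1` for SOME `g0 ≠ 0` (what `ω c = 0` + (PTH) give), and the
conclusion is `IsDeepAt`-style: `∀ ε ≠ 0, ∃ g ≠ 0, v (x / g ^ p - 1) ≤ ε`. -/

/-- **(FP)**, relative one-valuation form: if `x = M (M x) * C ^ p` and `x` is at positive depth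
up to a `p`-th power, then `x` is at every depth up to `p`-th powers. -/
theorem fp_relative (v : Valuation F Γ₀) (p : ℕ) (hp : 2 ≤ p) (M : F →* F)
    (hvp : v (p : F) < 1)
    (hdepth : ∀ (x : F) (γ : Γ₀), γ < 1 → v (x - 1) ≤ γ →
      v (M x - 1) ≤ max (v (p : F) * γ) (γ ^ p))
    (harch : ∀ γ : Γ₀, γ < 1 → ∀ ε : Γ₀, ε ≠ 0 → ∃ n : ℕ, γ ^ n ≤ ε)
    (x C : F) (hfix : x = M (M x) * C ^ p)
    (h0 : ∃ g0 : F, g0 ≠ 0 ∧ v (x / g0 ^ p - 1) < 1) :
    ∀ ε : Γ₀, ε ≠ 0 → ∃ g : F, g ≠ 0 ∧ v (x / g ^ p - 1) ≤ ε := by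
  obtain ⟨g0, hg0, hx'⟩ := h0
  intro ε hε
  have hg0p : g0 ^ p ≠ 0 := pow_ne_zero p hg0
  -- the fixed-point relation for `x' = x / g0 ^ p`
  have hxx' : x / g0 ^ p * g0 ^ p = x := div_mul_cancel₀ x hg0p
  have hMM : M (M (x / g0 ^ p)) * M (M g0) ^ p = M (M x) := by
    rw [← map_pow, ← map_mul, ← map_pow, ← map_mul, hxx']
  have hfix' : x / g0 ^ p = M (M (x / g0 ^ p)) * (M (M g0) * C / g0) ^ p := by
    rw [div_pow, mul_pow, ← mul_div_assoc, ← mul_assoc, hMM, ← hfix]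
  obtain ⟨y, D, hD, hdep, hlt⟩ :=
    exists_eq_mul_pow_of_fixed v p hp M hvp hdepth harch _ _ hx' hfix' ε hε
  have hy0 : y ≠ 0 := ne_zero_of_sub_one_lt v hlt
  have hx0 : x / g0 ^ p ≠ 0 := ne_zero_of_sub_one_lt v hx'
  have hD0 : D ≠ 0 := by
    rintro rfl
    rw [zero_pow (by omega), mul_zero] at hD
    exact hx0 hD
  refine ⟨g0 * D, mul_ne_zero hg0 hD0, ?_⟩
  have hDp : D ^ p ≠ 0 := pow_ne_zero p hD0
  have h1 : x / (g0 * D) ^ p = y := by
    rw [mul_pow, ← div_div, hD, mul_div_cancel_right₀ _ hDp]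
  rw [h1]
  exact hdep

/-- The two norm relations give the two fixed-point relations. -/
theorem fixed_of_norm_relations (p : ℕ) (hp : p ≠ 0) (M : F →* F)
    (hM0 : ∀ x : F, x ≠ 0 → M x ≠ 0) (h h' a b : F) (hh : h ≠ 0) (hh' : h' ≠ 0)
    (hA : h * M h' = a ^ p) (hB : M h * h' = b ^ p) :
    h = M (M h) * (a / M b) ^ p ∧ h' = M (M h') * (b / M a) ^ p := by
  have key : ∀ x y c d : F, x ≠ 0 → y ≠ 0 → x * M y = c ^ p → M x * y = d ^ p →
      x = M (M x) * (c / M d) ^ p := by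
    intro x y c d hx hy hc hd
    have hMy : M y ≠ 0 := hM0 y hy
    have hMMx : M (M x) ≠ 0 := hM0 _ (hM0 x hx)
    have h3 : M (M x) * M y = M d ^ p := by rw [← map_mul, hd, map_pow]
    have hMd : M d ≠ 0 := by
      intro h0
      rw [h0, zero_pow hp] at h3
      exact mul_ne_zero hMMx hMy h3
    rw [div_pow, ← hc, ← h3]
    field_simp
  refine ⟨key h h' a b hh hh' hA hB, key h' h b a hh' hh ?_ ?_⟩
  · rw [mul_comm]; exact hB
  · rw [mul_comm]; exact hA

/-- **TOR-1, abstract function form, relative.**  A pair `h, h'` (in the instance `h' = W h`),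
each at positive depth up to a `p`-th power, satisfying the two norm relations
`h * M h' = a ^ p`, `M h * h' = b ^ p`, is at every depth up to `p`-th powers. -/
theorem tor1_pair_rel (v : Valuation F Γ₀) (p : ℕ) (hp : 2 ≤ p) (M : F →* F)
    (hM0 : ∀ x : F, x ≠ 0 → M x ≠ 0) (hvp : v (p : F) < 1)
    (hdepth : ∀ (x : F) (γ : Γ₀), γ < 1 → v (x - 1) ≤ γ →
      v (M x - 1) ≤ max (v (p : F) * γ) (γ ^ p))
    (harch : ∀ γ : Γ₀, γ < 1 → ∀ ε : Γ₀, ε ≠ 0 → ∃ n : ℕ, γ ^ n ≤ ε)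
    (h h' : F) (h1 : ∃ g0 : F, g0 ≠ 0 ∧ v (h / g0 ^ p - 1) < 1)
    (h2 : ∃ g0 : F, g0 ≠ 0 ∧ v (h' / g0 ^ p - 1) < 1)
    (hA : ∃ a : F, h * M h' = a ^ p) (hB : ∃ b : F, M h * h' = b ^ p) :
    (∀ ε : Γ₀, ε ≠ 0 → ∃ g : F, g ≠ 0 ∧ v (h / g ^ p - 1) ≤ ε) ∧
      (∀ ε : Γ₀, ε ≠ 0 → ∃ g : F, g ≠ 0 ∧ v (h' / g ^ p - 1) ≤ ε) := by
  obtain ⟨a, ha⟩ := hA
  obtain ⟨b, hb⟩ := hB
  have hh : h ≠ 0 := by
    obtain ⟨g0, _, hg⟩ := h1
    rintro rfl
    simp at hg
  have hh' : h' ≠ 0 := by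
    obtain ⟨g0, _, hg⟩ := h2
    rintro rfl
    simp at hg
  obtain ⟨hf, hf'⟩ := fixed_of_norm_relations p (by omega) M hM0 h h' a b hh hh' ha hb
  exact ⟨fp_relative v p hp M hvp hdepth harch h _ hf h1,
    fp_relative v p hp M hvp hdepth harch h' _ hf' h2⟩

end Fermat.Agent.S44.helper9545
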