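/-
S44, step (3) "TOR-1", FUNCTION FORM AT LEVEL `N0 * p` (helper9545, backup of registry leaf
L3-INST; the half assigned by the owner in team_s44_chat #154: (FP) + hfix-from-NORMQ + the
archimedean instance at `gaussV`).

Setting: `p` prime, `p ∤ N0`, `A` a valuation subring of `ℚ̄` over `p`,
`v := (S34.helper584.gaussV A (N0 * p)).valuation` the Gauss valuation at the cusp `∞`,
`W := S35.helper1073.atkinLehnerBar (N0 * p) p ..` the Atkin–Lehner involution `W_p`,
`U := S35.helper2106.uNorm (N0 * p) p` the landed multiplicative `U_p` on functions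
(`t`-expansion `kronNorm ζ p`), `α = heckeAlphaBar`, `β = heckeBetaBar : F_{N0} → F_{N0 p}`.

`tor1_fun` : a function `h` whose two norms to level `N0` are constants times `p`-th powers
(`h` "`p`-new"), and such that `h` and `W h` are at positive depth up to `p`-th powers, is at
EVERY depth up to `p`-th powers, at `v` and at `v ∘ W`:
  `∀ ε ≠ 0, ∃ g ≠ 0, v (h / g ^ p - 1) ≤ ε`   and   `∀ ε ≠ 0, ∃ g ≠ 0, v (W h / g ^ p - 1) ≤ ε`.

Hypothesis-passing in exactly two named inputs, both owned by other rows: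
* `hdepth` = row L3-FRACDEPTH (G): `U` raises the Gauss depth `γ` to `max (v p * γ) (γ ^ p)`;
* `hGα`, `hGβ` = row L3-NORMQ, in-field forms `α (N_α x) = x * U (W x)`, `α (N_β x) = U x * W x`
  (compiled: `S44.helper1687.heckeAlphaBar_normAlong_heckeAlphaBar / _heckeBetaBar`, and
  `S44.helper7545` with `kronFN`).
Everything else is on main.
-/
import Fermat.Agent.S44.helper9545_Tor1Core
import Fermat.Agent.S34.helper584_UniInst
import Fermat.Agent.S35.helper2106_UqBridge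
import Fermat.Agent.S35.helper1073_AtkinLehnerSwap
import Fermat.Agent.S29.helper36_KummerCorr

set_option autoImplicit false

open ModularCurve AlgebraicCurve

namespace Fermat.Agent.S44.helper9545

noncomputable section

open Fermat.Agent.S24.helper24
open Fermat.Agent.S34.helper584 (gaussV gaussV_arch gaussF_valuation_algebraMap_le_one_iff)
open Fermat.Agent.S35.helper2106 (uNorm uNorm_ne_zero)
open Fermat.Agent.S29.helper36 (normAlong)

/-- The Gauss valuation of a constant of the maximal ideal is `< 1`. -/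
theorem gaussV_valuation_algebraMap_lt_one (A : ValuationSubring Kbar) (N : ℕ) {c : Kbar}
    (hc : c ∈ A.nonunits) :
    (gaussV A N).valuation (algebraMap Kbar (FN N) c) < 1 := by
  by_contra hlt
  have h1 : 1 ≤ (gaussV A N).valuation (algebraMap Kbar (FN N) c) := not_lt.mp hlt
  have hc0 : c ≠ 0 := by
    rintro rfl
    rw [map_zero, map_zero] at h1
    exact absurd h1 (not_le.mpr zero_lt_one)
  have h2 : (gaussV A N).valuation (algebraMap Kbar (FN N) c⁻¹) ≤ 1 := by
    rw [map_inv₀, map_inv₀]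
    exact inv_le_one_of_one_le₀ h1
  have h3 : c⁻¹ ∈ A := (gaussF_valuation_algebraMap_le_one_iff A N c⁻¹).mp h2
  rcases (ValuationSubring.mem_nonunits_iff_or A).mp hc with h | h
  · exact hc0 h
  · exact h h3

/-- **(ARCH)** at the Gauss valuation, in the binder shape of `tor1_pair_rel`. -/
theorem gaussV_harch {p : ℕ} (hp : p.Prime) (A : ValuationSubring Kbar)
    (hA : A.LiesOverPrime p) (N : ℕ) :
    ∀ γ : (gaussV A N).ValueGroup, γ < 1 → ∀ ε : (gaussV A N).ValueGroup, ε ≠ 0 →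
      ∃ n : ℕ, γ ^ n ≤ ε := by
  intro γ hγ ε hε
  obtain ⟨e, rfl⟩ := (gaussV A N).valuation_surjective γ
  obtain ⟨d, rfl⟩ := (gaussV A N).valuation_surjective ε
  have hd : d ≠ 0 := (Valuation.ne_zero_iff _).mp hε
  obtain ⟨k, hk⟩ := gaussV_arch hp A hA N hγ hd
  refine ⟨k, ?_⟩
  rw [map_div₀, div_lt_one₀ (zero_lt_iff.mpr hε), map_pow] at hk
  exact hk.le

variable (A : ValuationSubring Kbar) (N0 p : ℕ) [NeZero N0] [NeZero p]

/-- **TOR-1, function form at level `N0 * p`, generic in the pair `(M, W)`** (relative, one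
valuation at a time; see the file header).  `M` is any multiplicative avatar of the Kronecker
norm on `F_{N0 p}` (`S35.helper2106.uNorm (N0 * p) p`, or `S44.helper7545.kronFN`), `W` any map
(`W_p`); `hdepth` is row L3-FRACDEPTH (G), `hGα`/`hGβ` are row L3-NORMQ (in-field forms). -/
theorem tor1_fun_gen (hp : p.Prime) (hA : A.LiesOverPrime p)
    (M : FN (N0 * p) →* FN (N0 * p)) (hM0 : ∀ x : FN (N0 * p), x ≠ 0 → M x ≠ 0)
    (W : FN (N0 * p) → FN (N0 * p))
    (hdepth : ∀ (x : FN (N0 * p)) (γ : (gaussV A (N0 * p)).ValueGroup), γ < 1 →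
      (gaussV A (N0 * p)).valuation (x - 1) ≤ γ →
      (gaussV A (N0 * p)).valuation (M x - 1)
        ≤ max ((gaussV A (N0 * p)).valuation ((p : ℕ) : FN (N0 * p)) * γ) (γ ^ p))
    (hGα : ∀ x : FN (N0 * p),
      heckeAlphaBar Kbar N0 p (normAlong (heckeAlphaBar Kbar N0 p) x) = x * M (W x))
    (hGβ : ∀ x : FN (N0 * p),
      heckeAlphaBar Kbar N0 p (normAlong (heckeBetaBar Kbar N0 p) x) = M x * W x)
    (h : FN (N0 * p))
    (h1 : ∃ g0 : FN (N0 * p), g0 ≠ 0 ∧ (gaussV A (N0 * p)).valuation (h / g0 ^ p - 1) < 1)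
    (h2 : ∃ g0 : FN (N0 * p), g0 ≠ 0 ∧
      (gaussV A (N0 * p)).valuation (W h / g0 ^ p - 1) < 1)
    (ha : ∃ (c : Kbar) (w : FN N0),
      normAlong (heckeAlphaBar Kbar N0 p) h = algebraMap Kbar (FN N0) c * w ^ p)
    (hb : ∃ (c : Kbar) (w : FN N0),
      normAlong (heckeBetaBar Kbar N0 p) h = algebraMap Kbar (FN N0) c * w ^ p) :
    (∀ ε : (gaussV A (N0 * p)).ValueGroup, ε ≠ 0 →
        ∃ g : FN (N0 * p), g ≠ 0 ∧ (gaussV A (N0 * p)).valuation (h / g ^ p - 1) ≤ ε) ∧
      (∀ ε : (gaussV A (N0 * p)).ValueGroup, ε ≠ 0 →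
        ∃ g : FN (N0 * p), g ≠ 0 ∧
          (gaussV A (N0 * p)).valuation (W h / g ^ p - 1) ≤ ε) := by
  -- a constant times a `p`-th power, pushed along `α`, is a `p`-th power
  have hpow : ∀ (c : Kbar) (w : FN N0), ∃ a : FN (N0 * p),
      heckeAlphaBar Kbar N0 p (algebraMap Kbar (FN N0) c * w ^ p) = a ^ p := by
    intro c w
    obtain ⟨d, hd⟩ := IsAlgClosed.exists_pow_nat_eq c hp.pos
    refine ⟨algebraMap Kbar (FN (N0 * p)) d * heckeAlphaBar Kbar N0 p w, ?_⟩
    have h0 : heckeAlphaBar Kbar N0 p (algebraMap Kbar (FN N0) c * w ^ p)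
        = algebraMap Kbar (FN (N0 * p)) c * heckeAlphaBar Kbar N0 p w ^ p := by
      rw [map_mul, AlgHom.commutes, map_pow]
    rw [h0, mul_pow, ← hd, map_pow]
  have hvp : (gaussV A (N0 * p)).valuation ((p : ℕ) : FN (N0 * p)) < 1 := by
    have h0 : ((p : ℕ) : FN (N0 * p)) = algebraMap Kbar (FN (N0 * p)) (p : Kbar) :=
      (map_natCast (algebraMap Kbar (FN (N0 * p))) p).symm
    rw [h0]
    exact gaussV_valuation_algebraMap_lt_one A (N0 * p) hA
  refine tor1_pair_rel (gaussV A (N0 * p)).valuation p hp.two_le M hM0 hvp hdepth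
    (gaussV_harch hp A hA (N0 * p)) h _ h1 h2 ?_ ?_
  · obtain ⟨c, w, hcw⟩ := ha
    obtain ⟨a, ha'⟩ := hpow c w
    exact ⟨a, by rw [← hGα h, hcw, ha']⟩
  · obtain ⟨c, w, hcw⟩ := hb
    obtain ⟨b, hb'⟩ := hpow c w
    exact ⟨b, by rw [← hGβ h, hcw, hb']⟩

/-- **TOR-1, function form at level `N0 * p`**, for the landed `U_p = S35.helper2106.uNorm` and
the canonical `W_p = S35.helper1073.atkinLehnerBar`. -/
theorem tor1_fun (hp : p.Prime) (hpN : ¬ p ∣ N0) (hA : A.LiesOverPrime p)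
    (hdepth : ∀ (x : FN (N0 * p)) (γ : (gaussV A (N0 * p)).ValueGroup), γ < 1 →
      (gaussV A (N0 * p)).valuation (x - 1) ≤ γ →
      (gaussV A (N0 * p)).valuation (uNorm (N0 * p) p x - 1)
        ≤ max ((gaussV A (N0 * p)).valuation ((p : ℕ) : FN (N0 * p)) * γ) (γ ^ p))
    (hGα : ∀ x : FN (N0 * p),
      heckeAlphaBar Kbar N0 p (normAlong (heckeAlphaBar Kbar N0 p) x)
        = x * uNorm (N0 * p) p
            (Fermat.Agent.S35.helper1073.atkinLehnerBar (N0 * p) p hp (dvd_mul_left p N0)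
              (Fermat.Agent.S35.helper1073.not_sq_dvd_mul N0 p hp hpN) x))
    (hGβ : ∀ x : FN (N0 * p),
      heckeAlphaBar Kbar N0 p (normAlong (heckeBetaBar Kbar N0 p) x)
        = uNorm (N0 * p) p x
          * Fermat.Agent.S35.helper1073.atkinLehnerBar (N0 * p) p hp (dvd_mul_left p N0)
              (Fermat.Agent.S35.helper1073.not_sq_dvd_mul N0 p hp hpN) x)
    (h : FN (N0 * p))
    (h1 : ∃ g0 : FN (N0 * p), g0 ≠ 0 ∧ (gaussV A (N0 * p)).valuation (h / g0 ^ p - 1) < 1)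
    (h2 : ∃ g0 : FN (N0 * p), g0 ≠ 0 ∧ (gaussV A (N0 * p)).valuation
      (Fermat.Agent.S35.helper1073.atkinLehnerBar (N0 * p) p hp (dvd_mul_left p N0)
        (Fermat.Agent.S35.helper1073.not_sq_dvd_mul N0 p hp hpN) h / g0 ^ p - 1) < 1)
    (ha : ∃ (c : Kbar) (w : FN N0),
      normAlong (heckeAlphaBar Kbar N0 p) h = algebraMap Kbar (FN N0) c * w ^ p)
    (hb : ∃ (c : Kbar) (w : FN N0),
      normAlong (heckeBetaBar Kbar N0 p) h = algebraMap Kbar (FN N0) c * w ^ p) :
    (∀ ε : (gaussV A (N0 * p)).ValueGroup, ε ≠ 0 →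
        ∃ g : FN (N0 * p), g ≠ 0 ∧ (gaussV A (N0 * p)).valuation (h / g ^ p - 1) ≤ ε) ∧
      (∀ ε : (gaussV A (N0 * p)).ValueGroup, ε ≠ 0 →
        ∃ g : FN (N0 * p), g ≠ 0 ∧ (gaussV A (N0 * p)).valuation
          (Fermat.Agent.S35.helper1073.atkinLehnerBar (N0 * p) p hp (dvd_mul_left p N0)
            (Fermat.Agent.S35.helper1073.not_sq_dvd_mul N0 p hp hpN) h / g ^ p - 1) ≤ ε) :=
  tor1_fun_gen A N0 p hp hA (uNorm (N0 * p) p) (fun _ hx => uNorm_ne_zero (N0 * p) p hx)
    (fun x => Fermat.Agent.S35.helper1073.atkinLehnerBar (N0 * p) p hp (dvd_mul_left p N0)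
      (Fermat.Agent.S35.helper1073.not_sq_dvd_mul N0 p hp hpN) x)
    hdepth hGα hGβ h h1 h2 ha hb

end

end Fermat.Agent.S44.helper9545
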