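/-
S44, step (3) "TOR-1", function form at level `N0 * p` with the NORMQ identities discharged
(helper9545, backup of registry leaf L3-INST).

`tor1_fun_normq` = `helper9545.tor1_fun` with `hGα`, `hGβ` supplied by the compiled in-field
NORMQ identities of `S44.helper1687` (`α (N_α x) = x * U (W x)`, `α (N_β x) = U x * W x`).
The only remaining hypothesis is `hdepth` (row L3-FRACDEPTH (G)).
-/
import Fermat.Agent.S44.helper9545_Tor1Inst
import Fermat.Agent.S44.helper1687_NormSwap

set_option autoImplicit false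

open ModularCurve AlgebraicCurve

namespace Fermat.Agent.S44.helper9545

noncomputable section

open Fermat.Agent.S24.helper24
open Fermat.Agent.S34.helper584 (gaussV)
open Fermat.Agent.S35.helper2106 (uNorm)
open Fermat.Agent.S29.helper36 (normAlong)

variable (A : ValuationSubring Kbar) (N0 p : ℕ) [NeZero N0] [NeZero p]

/-- **TOR-1, function form at level `N0 * p`**, NORMQ discharged: the only hypothesis left is
the depth rule `hdepth` for the landed `U_p` at the Gauss valuation. -/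
theorem tor1_fun_normq (hp : p.Prime) (hpN : ¬ p ∣ N0) (hA : A.LiesOverPrime p)
    (hdepth : ∀ (x : FN (N0 * p)) (γ : (gaussV A (N0 * p)).ValueGroup), γ < 1 →
      (gaussV A (N0 * p)).valuation (x - 1) ≤ γ →
      (gaussV A (N0 * p)).valuation (uNorm (N0 * p) p x - 1)
        ≤ max ((gaussV A (N0 * p)).valuation ((p : ℕ) : FN (N0 * p)) * γ) (γ ^ p))
    (h : FN (N0 * p))
    (h1 : ∃ g0 : FN (N0 * p), g0 ≠ 0 ∧ (gaussV A (N0 * p)).valuation (h / g0 ^ p - 1) < 1)
    (h2 : ∃ g0 : FN (N0 * p), g0 ≠ 0 ∧ (gaussV A (N0 * p)).valuation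
      (Fermat.Agent.S35.helper1073.atkinLehnerBar (N0 * p) p hp (dvd_mul_left p N0)
        (Fermat.Agent.S35.helper1073.not_sq_dvd_mul N0 p hp hpN) h / g0 ^ p - 1) < 1)
    (ha : ∃ (c : Kbar) (w : FN N0),
      normAlong (heckeAlphaBar Kbar N0 p) h = algebraMap Kbar (FN N0) c * w ^ p)
    (hb : ∃ (c : Kbar) (w : FN N0),
      normAlong (heckeBetaBar Kbar N0 p) h = algebraMap Kbar (FN N0) c * w ^ p) :
    (∀ ε : (gaussV A (N0 * p)).ValueGroup, ε ≠ 0 →
        ∃ g : FN (N0 * p), g ≠ 0 ∧ (gaussV A (N0 * p)).valuation (h / g ^ p - 1) ≤ ε) ∧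
      (∀ ε : (gaussV A (N0 * p)).ValueGroup, ε ≠ 0 →
        ∃ g : FN (N0 * p), g ≠ 0 ∧ (gaussV A (N0 * p)).valuation
          (Fermat.Agent.S35.helper1073.atkinLehnerBar (N0 * p) p hp (dvd_mul_left p N0)
            (Fermat.Agent.S35.helper1073.not_sq_dvd_mul N0 p hp hpN) h / g ^ p - 1) ≤ ε) :=
  tor1_fun A N0 p hp hpN hA hdepth
    (fun x => Fermat.Agent.S44.helper1687.heckeAlphaBar_normAlong_heckeAlphaBar N0 p hp hpN x)
    (fun x => Fermat.Agent.S44.helper1687.heckeAlphaBar_normAlong_heckeBetaBar N0 p hp hpN x)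
    h h1 h2 ha hb

end

end Fermat.Agent.S44.helper9545
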