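import Fermat.Agent.S44.helper7545_Tor1Spec
import Fermat.Agent.S44.helper9545_Tor1Final
import Fermat.Agent.S44.helper3511_OmegaKer
import Fermat.Agent.S44.helper478_PthInst
import Fermat.Agent.S35.helper1073_AtkinLehnerBridge

/-!
# S44 / L3-INST (helper478): the block (TOR1) — composition

Target: `S44.helper7545.Stmt_Tor1Fun` (function form) and `Stmt_Tor1` (class form, the export of
the block): a `p`-new `p`-Kummer class of level `p M` killed by `Ω_∞` and `Ω_0` lies in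
`T = S44.helper560.kDeep`.

Chain (all compiled):
* (PTH)  `helper478_PthInst`  : `θ (red u) = 0 ⟹ u = g^p · (1-unit)`  (`stmt_Pth` below is the
  Prop `helper3511.Stmt_Pth` at level `N = p * M`);
* `helper3511.exists_pth_of_dlogRed_eq_zero` : `dlogRed f = 0 ⟹ f = g^p · (1-unit)`;
* `helper9545.tor1_fun_normq` (level `N0 * p`, relative form, NORMQ discharged): positive depth
  up to `p`-th powers + `p`-new ⟹ every depth up to `p`-th powers, at `v` and `v ∘ W_p`;
* level transport `N0 * p ↔ p * M` (`tor1_fun_level`, by `subst`) and `W`-bridge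
  `helper1073.atkinLehnerBar_eq_helper1219`;
* relative ⟹ absolute approximation (`exists_sub_pow_le_of_rel`).

The only hypothesis left is `Stmt_DepthG` = row L3-FRACDEPTH (G): the landed multiplicative
`U_p = S35.helper2106.uNorm` raises the Gauss depth `γ` to `max (|p| γ) (γ ^ p)`.
-/

set_option autoImplicit false

noncomputable section

namespace Fermat.Agent.S44.helper478

open ModularCurve AlgebraicCurve
open Fermat.Agent.S24.helper24
open Fermat.Agent.S29.helper8217 (IsKummer kummerClass)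
open Fermat.Agent.S34.helper584 (gaussV)
open Fermat.Agent.S35.helper1219 (castFN)
open Fermat.Agent.S35.helper2106 (uNorm)
open Fermat.Agent.S44.helper3511 (dlogRed omega omegaAt)

/-! ### Relative ⟹ absolute approximation (Mathlib only) -/

section Abstract

variable {F Γ₀ : Type*} [Field F] [LinearOrderedCommGroupWithZero Γ₀] (v : Valuation F Γ₀)

/-- If `x ≠ 0` is approximable to every RELATIVE depth by `p`-th powers
(`v (x / g ^ p - 1) ≤ ε`), it is approximable to every absolute depth (`v (x - g ^ p) ≤ ε`). -/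
theorem exists_sub_pow_le_of_rel (p : ℕ) (hp : p ≠ 0) {x : F} (hx : x ≠ 0)
    (hrel : ∀ ε : Γ₀, ε ≠ 0 → ∃ g : F, g ≠ 0 ∧ v (x / g ^ p - 1) ≤ ε) (ε : Γ₀) (hε : ε ≠ 0) :
    ∃ g : F, v (x - g ^ p) ≤ ε := by
  have hvx : v x ≠ 0 := (Valuation.ne_zero_iff v).mpr hx
  by_cases hε1 : (v x)⁻¹ * ε < 1
  · obtain ⟨g, hg, hle⟩ := hrel ((v x)⁻¹ * ε) (mul_ne_zero (inv_ne_zero hvx) hε)
    have hlt : v (x / g ^ p - 1) < 1 := lt_of_le_of_lt hle hε1
    have hgp : g ^ p ≠ 0 := pow_ne_zero p hg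
    have h1 : v (x / g ^ p) = 1 := by
      have : x / g ^ p = 1 + (x / g ^ p - 1) := by ring
      rw [this]
      exact Valuation.map_one_add_of_lt v hlt
    have h2 : v (g ^ p) = v x := by
      rw [map_div₀, div_eq_one_iff_eq ((Valuation.ne_zero_iff v).mpr hgp)] at h1
      exact h1.symm
    have h3 : x - g ^ p = g ^ p * (x / g ^ p - 1) := by
      field_simp
    refine ⟨g, ?_⟩
    rw [h3, map_mul, h2]
    calc v x * v (x / g ^ p - 1) ≤ v x * ((v x)⁻¹ * ε) := mul_le_mul' le_rfl hle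
      _ = ε := by rw [← mul_assoc, mul_inv_cancel₀ hvx, one_mul]
  · have hε1' : 1 ≤ (v x)⁻¹ * ε := not_lt.mp hε1
    have hxε : v x ≤ ε := by
      have := mul_le_mul' (le_refl (v x)) hε1'
      rwa [mul_one, ← mul_assoc, mul_inv_cancel₀ hvx, one_mul] at this
    exact ⟨0, by rw [zero_pow hp, sub_zero]; exact hxε⟩

end Abstract

/-! ### The remaining input: row L3-FRACDEPTH (G) -/

/-- **(G)** (row L3-FRACDEPTH): the landed multiplicative `U_p` raises the depth at the Gauss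
valuation: `v (x - 1) ≤ γ < 1 ⟹ v (U_p x - 1) ≤ max (|p| γ) (γ ^ p)`.
(Binder shape of `S44.helper9545.tor1_fun_normq`.) -/
def Stmt_DepthG : Prop :=
  ∀ (A : ValuationSubring Kbar) (N0 p : ℕ) [NeZero N0] [NeZero p], p.Prime → ¬ p ∣ N0 →
    A.LiesOverPrime p →
    ∀ (x : FN (N0 * p)) (γ : (gaussV A (N0 * p)).ValueGroup), γ < 1 →
      (gaussV A (N0 * p)).valuation (x - 1) ≤ γ →
      (gaussV A (N0 * p)).valuation (uNorm (N0 * p) p x - 1)
        ≤ max ((gaussV A (N0 * p)).valuation ((p : ℕ) : FN (N0 * p)) * γ) (γ ^ p)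

/-! ### (PTH) in the Prop form of `helper3511_OmegaKer` -/

/-- **(PTH)** holds at every level `N = p * M`, `p ∤ M`, `A` over `p`. -/
theorem stmt_Pth (p M : ℕ) [Fact p.Prime] [NeZero M] (hpM : ¬ p ∣ M)
    (A : ValuationSubring Kbar) (hA : A.LiesOverPrime p) (N : ℕ) (hN : N = p * M) :
    Fermat.Agent.S44.helper3511.Stmt_Pth A N p :=
  fun u hu hθ => exists_pow_val_lt_of_theta_level p M hpM A hA N hN u hu hθ

/-! ### Level transport of the fixed-point half -/

/-- `helper9545.tor1_fun_normq` at a level `N` written `N = N0 * p` (e.g. `N = p * N0`), with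
the canonical `W_p = helper1073.atkinLehnerBar N p` of the level `N`. -/
theorem tor1_fun_level (hG : Stmt_DepthG) (A : ValuationSubring Kbar) (N0 p : ℕ) [NeZero N0]
    [NeZero p] (hp : p.Prime) (hpN : ¬ p ∣ N0) (hA : A.LiesOverPrime p)
    (N : ℕ) [NeZero N] (hN : N = N0 * p) (hpd : p ∣ N) (hp2 : ¬ p ^ 2 ∣ N) (x : FN N)
    (h1 : ∃ g0 : FN N, g0 ≠ 0 ∧ (gaussV A N).valuation (x / g0 ^ p - 1) < 1)
    (h2 : ∃ g0 : FN N, g0 ≠ 0 ∧ (gaussV A N).valuation
      (Fermat.Agent.S35.helper1073.atkinLehnerBar N p hp hpd hp2 x / g0 ^ p - 1) < 1)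
    (ha : ∃ (c : Kbar) (w : FN N0),
      Fermat.Agent.S29.helper36.normAlong (heckeAlphaBar Kbar N0 p) (castFN hN x)
        = algebraMap Kbar (FN N0) c * w ^ p)
    (hb : ∃ (c : Kbar) (w : FN N0),
      Fermat.Agent.S29.helper36.normAlong (heckeBetaBar Kbar N0 p) (castFN hN x)
        = algebraMap Kbar (FN N0) c * w ^ p) :
    (∀ ε : (gaussV A N).ValueGroup, ε ≠ 0 →
        ∃ g : FN N, g ≠ 0 ∧ (gaussV A N).valuation (x / g ^ p - 1) ≤ ε) ∧
      (∀ ε : (gaussV A N).ValueGroup, ε ≠ 0 →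
        ∃ g : FN N, g ≠ 0 ∧ (gaussV A N).valuation
          (Fermat.Agent.S35.helper1073.atkinLehnerBar N p hp hpd hp2 x / g ^ p - 1) ≤ ε) := by
  subst hN
  exact Fermat.Agent.S44.helper9545.tor1_fun_normq A N0 p hp hpN hA (hG A N0 p hp hpN hA) x
    h1 h2 ha hb

/-! ### The block (TOR1) -/

/-- **(TOR1) at `(p, M, A)`, function form**, from (G). -/
theorem tor1FunAt (hG : Stmt_DepthG) (p M : ℕ) [NeZero p] [NeZero M] (hp : p.Prime)
    (h : Nat.Coprime p M) (A : ValuationSubring Kbar) (hA : A.LiesOverPrime p) :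
    Fermat.Agent.S44.helper7545.Tor1FunAt p M h A := by
  intro x hk hnew hd1 hd2
  have : Fact p.Prime := ⟨hp⟩
  have hpM : ¬ p ∣ M := (Nat.Prime.coprime_iff_not_dvd hp).mp h
  have hPth : Fermat.Agent.S44.helper3511.Stmt_Pth A (p * M) p :=
    stmt_Pth p M hpM A hA (p * M) rfl
  have hx0 : x ≠ 0 := hk.ne_zero
  have hWx0 : Fermat.Agent.S35.helper1219.atkinLehnerBar p M h x ≠ 0 :=
    (map_ne_zero _).mpr hx0
  have h1 := Fermat.Agent.S44.helper3511.exists_pth_of_dlogRed_eq_zero hp.ne_zero hPth hx0 hd1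
  have h2 := Fermat.Agent.S44.helper3511.exists_pth_of_dlogRed_eq_zero hp.ne_zero hPth hWx0 hd2
  have hW : Fermat.Agent.S35.helper1219.atkinLehnerBar p M h x
      = Fermat.Agent.S35.helper1073.atkinLehnerBar (p * M) p hp (dvd_mul_right p M)
          (Fermat.Agent.S35.helper1073.not_sq_dvd_of_coprime hp h) x :=
    Fermat.Agent.S35.helper1073.atkinLehnerBar_eq_helper1219 p M hp h x
  rw [hW] at h2 hWx0 ⊢
  obtain ⟨ha, hb⟩ := hnew
  obtain ⟨k1, k2⟩ := tor1_fun_level hG A M p hp hpM hA (p * M) (mul_comm p M)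
    (dvd_mul_right p M) (Fermat.Agent.S35.helper1073.not_sq_dvd_of_coprime hp h) x h1 h2 ha hb
  intro ε hε
  exact ⟨exists_sub_pow_le_of_rel _ p hp.ne_zero hx0 k1 ε hε,
    exists_sub_pow_le_of_rel _ p hp.ne_zero hWx0 k2 ε hε⟩

/-- **(TOR1), function form** (`S44.helper7545.Stmt_Tor1Fun`), from (G). -/
theorem stmt_Tor1Fun (hG : Stmt_DepthG) : Fermat.Agent.S44.helper7545.Stmt_Tor1Fun :=
  fun p M _ _ hp h A hA => tor1FunAt hG p M hp h A hA

/-- **(TOR1), class form — the export of the block** (`S44.helper7545.Stmt_Tor1`), from (G). -/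
theorem stmt_Tor1 (hG : Stmt_DepthG) : Fermat.Agent.S44.helper7545.Stmt_Tor1 :=
  Fermat.Agent.S44.helper7545.stmt_Tor1_of_fun (stmt_Tor1Fun hG)

end Fermat.Agent.S44.helper478
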