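import Mathlib
import Fermat.Agent.S19.helper3214_Rational

/-!
# S44 / L1-GEOM-P, rational form (helper4929): descent of lattices for SEVERAL valuations

Abstract setting: a group `Γ` acting on a field `L` (through `τ`) and semilinearly on an
`L`-algebra field `F` (through `ρ`).  Compared with the landed `S19/helper3214_Rational`
(one valuation subring `O` of `F`), the "unit ball" here is an arbitrary additive subgroup
`B ≤ F` with an "open unit ball" `B' ≤ B` (`A • B ⊆ B`, `𝔪_A • B ⊆ B'`); this covers the common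
ball of a finite family of valuations with weights (`ballW`, `openBallW`), i.e. the lattices
of the two-valuation (nodal) geometry.

* `exists_fixed_orthoB`          : a `Γ`-stable subspace with an orthonormal basis has a
  `Γ`-FIXED orthonormal basis (hypotheses: fixed uniformiser `ℓ`, every residue class of `A`
  contains a fixed element, fixed elements of `B'` are divisible by `ℓ` in `B`);
* `exists_fixed_lattice_basisB`  : the lattice `V ∩ B` is free over `A` on fixed vectors, the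
  fixed part is free over the fixed scalars on the same vectors;
* `exists_fixed_same_reductionB` : every element of `V ∩ B` is congruent modulo `B'` to a fixed
  element of `V ∩ B`;
* `exists_fixed_cartesian`       : the same in valuation-family form (input and output in the
  shape of `S35.helper2459.CartesianW`);
* `exists_fixed_decomp`, `fixed_decomp_unique` : base change.  If `f` is fixed by the stabiliser
  of a scalar `ϖ` whose orbit has `e` elements, then `f = ∑ i < e, ϖ ^ i • g i` with `g i` fixed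
  by all of `Γ`, uniquely (Vandermonde);
* `val_sum_le_iff_of_distinct`, `val_sum_pow_smul_le_iff` : the valuation of such a sum is the
  maximum of the valuations of its terms (`v (∑ ϖ ^ i • g i) = max_i |ϖ| ^ i * v (g i)`) as
  soon as the values of the `g i` lie in `|ℓ| ^ ℤ` and `|ϖ| ^ e = |ℓ|`.
-/

set_option autoImplicit false

namespace Fermat.Agent.S44.helper4929

open scoped BigOperators
open Fermat.Agent.S19.helper3214

/-! ## Orthonormal families relative to a ball pair -/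

section BallOrtho

variable {L F : Type*} [Field L] [Field F] [Algebra L F]
variable {A : ValuationSubring L} {B B' : AddSubgroup F}

/-- A family is orthonormal relative to the "open ball" `B'` if an `A`-combination lying in
`B'` has all its coefficients in the maximal ideal of `A`. -/
def IsOrthoB (A : ValuationSubring L) (B' : AddSubgroup F) {ι : Type*} [Fintype ι]
    (u : ι → F) : Prop :=
  ∀ a : ι → L, (∀ i, a i ∈ A) → (∑ i, a i • u i) ∈ B' → ∀ i, a i ∈ A.nonunits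

/-- Normalising by a coefficient of largest valuation. -/
theorem IsOrthoB.normalized_notMem {ι : Type*} [Fintype ι] {u : ι → F} (hu : IsOrthoB A B' u)
    {a : ι → L} {i0 : ι} (h0 : a i0 ≠ 0)
    (hmax : ∀ j, A.valuation (a j) ≤ A.valuation (a i0)) :
    (a i0)⁻¹ • ∑ j, a j • u j ∉ B' := by
  intro hsum
  have hv0 : 0 < A.valuation (a i0) := zero_lt_iff.mpr ((Valuation.ne_zero_iff _).mpr h0)
  have hb : ∀ j, (a i0)⁻¹ * a j ∈ A := by
    intro j
    rw [← A.valuation_le_one_iff, map_mul, map_inv₀]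
    exact (inv_mul_le_one₀ hv0).mpr (hmax j)
  have hsum' : ∑ j, ((a i0)⁻¹ * a j) • u j ∈ B' := by
    have : ∑ j, ((a i0)⁻¹ * a j) • u j = (a i0)⁻¹ • ∑ j, a j • u j := by
      rw [Finset.smul_sum]
      exact Finset.sum_congr rfl fun j _ => by rw [smul_smul]
    rw [this]
    exact hsum
  have := hu _ hb hsum' i0
  rw [inv_mul_cancel₀ h0] at this
  exact one_notMem_nonunits A this

/-- An orthonormal family is linearly independent. -/
theorem IsOrthoB.linearIndependent {ι : Type*} [Fintype ι] {u : ι → F}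
    (hu : IsOrthoB A B' u) : LinearIndependent L u := by
  classical
  rw [Fintype.linearIndependent_iff]
  intro a ha i
  by_contra hi
  obtain ⟨i0, -, hmax⟩ := Finset.exists_max_image Finset.univ (fun i => A.valuation (a i))
    ⟨i, Finset.mem_univ i⟩
  have h0 : a i0 ≠ 0 := by
    intro h
    have := hmax i (Finset.mem_univ i)
    rw [h, map_zero] at this
    exact hi ((Valuation.zero_iff _).mp (le_antisymm this zero_le))
  apply hu.normalized_notMem h0 fun j => hmax j (Finset.mem_univ j)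
  rw [ha, smul_zero]
  exact B'.zero_mem

/-- The coordinates of an element of the ball with respect to an orthonormal family are
integral. -/
theorem IsOrthoB.coeff_mem (hB'A : ∀ c ∈ A.nonunits, ∀ f ∈ B, c • f ∈ B')
    {ι : Type*} [Fintype ι] {u : ι → F} (hu : IsOrthoB A B' u)
    (a : ι → L) (ha : ∑ i, a i • u i ∈ B) : ∀ i, a i ∈ A := by
  classical
  intro i
  by_contra hi
  obtain ⟨i0, -, hmax⟩ := Finset.exists_max_image Finset.univ (fun i => A.valuation (a i))
    ⟨i, Finset.mem_univ i⟩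
  have h1 : 1 < A.valuation (a i0) :=
    lt_of_lt_of_le (not_le.mp fun h => hi ((A.valuation_le_one_iff _).mp h))
      (hmax i (Finset.mem_univ i))
  have h0 : a i0 ≠ 0 := by
    intro h
    rw [h, map_zero] at h1
    exact not_lt_zero h1
  apply hu.normalized_notMem h0 fun j => hmax j (Finset.mem_univ j)
  refine hB'A _ ?_ _ ha
  rw [A.mem_nonunits_iff, map_inv₀]
  exact inv_lt_one_of_one_lt₀ h1

/-- The coordinates of an element of the open ball with respect to an orthonormal family lie in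
the maximal ideal. -/
theorem IsOrthoB.coeff_mem_nonunits (hB'A : ∀ c ∈ A.nonunits, ∀ f ∈ B, c • f ∈ B')
    (hB'B : B' ≤ B) {ι : Type*} [Fintype ι] {u : ι → F} (hu : IsOrthoB A B' u)
    (a : ι → L) (ha : ∑ i, a i • u i ∈ B') : ∀ i, a i ∈ A.nonunits :=
  hu a (hu.coeff_mem hB'A a (hB'B ha)) ha

end BallOrtho

/-! ## Fixed orthonormal bases -/

section Main

variable {Γ L F : Type*} [Group Γ] [Field L] [Field F] [Algebra L F]
variable (τ : Γ →* RingAut L) (ρ : Γ →* RingAut F)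
variable {A : ValuationSubring L} {B B' : AddSubgroup F}

/-- The exchange step: a fixed family in the ball which is not orthonormal can be improved,
multiplying the determinant of its coordinate matrix by `ℓ⁻¹ * unit`. -/
theorem exchange_stepB
    (hc : ∀ (g : Γ) (c : L), ρ g (algebraMap L F c) = algebraMap L F (τ g c))
    (hB'A : ∀ c ∈ A.nonunits, ∀ f ∈ B, c • f ∈ B')
    {ℓ : L} (hℓfix : ∀ g, τ g ℓ = ℓ)
    (hres : ∀ a ∈ A, ∃ r ∈ A, (∀ g, τ g r = r) ∧ a - r ∈ A.nonunits)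
    (hdiv : ∀ f : F, (∀ g, ρ g f = f) → f ∈ B' → ℓ⁻¹ • f ∈ B)
    (V : Submodule L F) {d : ℕ} (u : Fin d → F)
    (w : Fin d → F) (P : Matrix (Fin d) (Fin d) L)
    (hwV : ∀ i, w i ∈ V) (hwB : ∀ i, w i ∈ B) (hwfix : ∀ i g, ρ g (w i) = w i)
    (hwP : ∀ i, w i = ∑ j, P i j • u j)
    (hnot : ¬ IsOrthoB A B' w) :
    ∃ (w' : Fin d → F) (P' : Matrix (Fin d) (Fin d) L) (r : L),
      (∀ i, w' i ∈ V) ∧ (∀ i, w' i ∈ B) ∧ (∀ i g, ρ g (w' i) = w' i) ∧
      (∀ i, w' i = ∑ j, P' i j • u j) ∧ r⁻¹ ∈ A ∧ r ≠ 0 ∧ P'.det = ℓ⁻¹ * r * P.det := by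
  classical
  -- a witness of non-orthonormality
  have h1 : ∃ a : Fin d → L, (∀ i, a i ∈ A) ∧ (∑ i, a i • w i) ∈ B' ∧
      ∃ i, a i ∉ A.nonunits := by
    by_contra hcon
    apply hnot
    intro a ha hsum i
    by_contra hi
    exact hcon ⟨a, ha, hsum, i, hi⟩
  obtain ⟨a, haA, hsum, i0, hi0⟩ := h1
  choose r hrA hrfix hra using fun i => hres (a i) (haA i)
  obtain ⟨h, hh⟩ : ∃ h : F, h = ∑ i, r i • w i := ⟨_, rfl⟩
  have hhV : h ∈ V := by
    rw [hh]
    exact V.sum_mem fun i _ => V.smul_mem _ (hwV i)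
  have hhfix : ∀ g, ρ g h = h := by
    intro g
    rw [hh, map_sum]
    exact Finset.sum_congr rfl fun i _ => by rw [map_smul_of_compat τ ρ hc, hrfix, hwfix]
  have hhnon : h ∈ B' := by
    have : h = ∑ i, a i • w i - ∑ i, (a i - r i) • w i := by
      rw [hh, ← Finset.sum_sub_distrib]
      exact Finset.sum_congr rfl fun i _ => by rw [sub_smul]; abel
    rw [this]
    exact B'.sub_mem hsum (B'.sum_mem fun i _ => hB'A _ (hra i) _ (hwB i))
  have hr0non : r i0 ∉ A.nonunits := by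
    intro hr
    apply hi0
    have := nonunits_add A (hra i0) hr
    rwa [sub_add_cancel] at this
  have hr0 : r i0 ≠ 0 := by
    intro h0
    exact hr0non (h0 ▸ nonunits_zero A)
  have hr0inv : (r i0)⁻¹ ∈ A := by
    by_contra hcon
    exact hr0non ((mem_nonunits_iff_inv_notMem' A hr0).mpr hcon)
  have hh'B : ℓ⁻¹ • h ∈ B := hdiv h hhfix hhnon
  have hℓinvfix : ∀ g, τ g ℓ⁻¹ = ℓ⁻¹ := fun g => by rw [map_inv₀, hℓfix]
  refine ⟨Function.update w i0 (ℓ⁻¹ • h), P.updateRow i0 (∑ k, (ℓ⁻¹ * r k) • P k), r i0,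
    ?_, ?_, ?_, ?_, hr0inv, hr0, ?_⟩
  · intro i
    by_cases hi : i = i0
    · rw [hi, Function.update_self]
      exact V.smul_mem _ hhV
    · rw [Function.update_of_ne hi]
      exact hwV i
  · intro i
    by_cases hi : i = i0
    · rw [hi, Function.update_self]
      exact hh'B
    · rw [Function.update_of_ne hi]
      exact hwB i
  · intro i g
    by_cases hi : i = i0
    · rw [hi, Function.update_self, map_smul_of_compat τ ρ hc, hℓinvfix, hhfix]
    · rw [Function.update_of_ne hi]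
      exact hwfix i g
  · intro i
    by_cases hi : i = i0
    · rw [hi, Function.update_self, Matrix.updateRow_self, hh, Finset.smul_sum]
      calc ∑ k, ℓ⁻¹ • r k • w k = ∑ k, ∑ j, ((ℓ⁻¹ * r k) * P k j) • u j := by
            refine Finset.sum_congr rfl fun k _ => ?_
            rw [hwP k, smul_smul, Finset.smul_sum]
            exact Finset.sum_congr rfl fun j _ => by rw [smul_smul]
        _ = ∑ j, ∑ k, ((ℓ⁻¹ * r k) * P k j) • u j := Finset.sum_comm
        _ = ∑ j, (∑ k, (ℓ⁻¹ * r k) • P k) j • u j := by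
            refine Finset.sum_congr rfl fun j _ => ?_
            rw [← Finset.sum_smul]
            congr 1
            simp [Finset.sum_apply]
    · rw [Function.update_of_ne hi, Matrix.updateRow_ne hi]
      exact hwP i
  · rw [Matrix.det_updateRow_sum, smul_eq_mul]

/-- **Fixed orthonormal bases for a ball pair.**  Let `V ≤ F` be a `Γ`-stable `L`-subspace with
an orthonormal basis `u` (with respect to the ball pair `B' ≤ B` over `A`).  Assume Speiser's
hypotheses (finite orbits of scalars, open stabilisers of vectors), a `Γ`-fixed non-unit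
`ℓ ≠ 0` of `A` such that `A` is archimedean with respect to `ℓ`, that every residue class of `A`
contains a `Γ`-fixed element, and that every `Γ`-fixed element of `B'` is divisible by `ℓ` in
`B`.  Then `V` has an orthonormal basis consisting of `Γ`-fixed vectors. -/
theorem exists_fixed_orthoB
    (hc : ∀ (g : Γ) (c : L), ρ g (algebraMap L F c) = algebraMap L F (τ g c))
    (hBA : ∀ c ∈ A, ∀ f ∈ B, c • f ∈ B)
    (hB'A : ∀ c ∈ A.nonunits, ∀ f ∈ B, c • f ∈ B')
    {ℓ : L} (hℓ0 : ℓ ≠ 0) (hℓA : ℓ ∈ A.nonunits) (hℓfix : ∀ g, τ g ℓ = ℓ)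
    (harch : ∀ x : L, x ≠ 0 → ∃ N : ℕ, ℓ ^ N * x ∈ A)
    (hres : ∀ a ∈ A, ∃ r ∈ A, (∀ g, τ g r = r) ∧ a - r ∈ A.nonunits)
    (hdiv : ∀ f : F, (∀ g, ρ g f = f) → f ∈ B' → ℓ⁻¹ • f ∈ B)
    (V : Submodule L F) (hV : ∀ g, ∀ f ∈ V, ρ g f ∈ V)
    (halg : ∀ c : L, (Set.range fun g : Γ => τ g c).Finite)
    (hopen : ∀ v ∈ V, ∃ s : Finset L, ∀ g, (∀ c ∈ s, τ g c = c) → ρ g v = v)
    {d : ℕ} (u : Fin d → F) (hu : IsOrthoB A B' u) (huB : ∀ i, u i ∈ B)
    (huV : Submodule.span L (Set.range u) = V) :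
    ∃ f : Fin d → F, IsOrthoB A B' f ∧ (∀ i, f i ∈ B) ∧ (∀ i, f i ∈ V) ∧
      (∀ i g, ρ g (f i) = f i) ∧ Submodule.span L (Set.range f) = V := by
  classical
  have huli : LinearIndependent L u := hu.linearIndependent
  have hfin : FiniteDimensional L V := by
    rw [← huV]
    exact FiniteDimensional.span_of_finite L (Set.finite_range u)
  have hdim : Module.finrank L V = d := by
    rw [← huV, finrank_span_eq_card huli, Fintype.card_fin]
  obtain ⟨w0, hw0V, hw0fix, -, hw0li⟩ := exists_fixed_basis τ ρ hc V hV halg hopen hdim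
  -- coordinates of the fixed basis
  have hcoord : ∀ i, ∃ c : Fin d → L, ∑ j, c j • u j = w0 i := fun i =>
    (Submodule.mem_span_range_iff_exists_fun L).mp (huV ▸ hw0V i)
  choose P0 hP0 using hcoord
  have hdet0 : (Matrix.of P0).det ≠ 0 := by
    intro hdet
    obtain ⟨c, hc0, hcP⟩ := Matrix.exists_vecMul_eq_zero_iff.mpr hdet
    apply hc0
    funext i
    refine Fintype.linearIndependent_iff.mp hw0li c ?_ i
    calc ∑ i, c i • w0 i = ∑ i, ∑ j, (c i * P0 i j) • u j := by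
          refine Finset.sum_congr rfl fun i _ => ?_
          rw [← hP0 i, Finset.smul_sum]
          exact Finset.sum_congr rfl fun j _ => by rw [smul_smul]
      _ = ∑ j, ∑ i, (c i * P0 i j) • u j := Finset.sum_comm
      _ = ∑ j, (Matrix.vecMul c (Matrix.of P0) j) • u j := by
          refine Finset.sum_congr rfl fun j _ => ?_
          rw [← Finset.sum_smul]
          rfl
      _ = 0 := by rw [hcP]; simp
  -- scale into the ball
  have hN : ∀ p : Fin d × Fin d, ∃ N : ℕ, ℓ ^ N * P0 p.1 p.2 ∈ A := by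
    intro p
    by_cases h0 : P0 p.1 p.2 = 0
    · exact ⟨0, by rw [h0, mul_zero]; exact A.zero_mem⟩
    · exact harch _ h0
  choose N hN using hN
  obtain ⟨M, hM⟩ : ∃ M : ℕ, M = ∑ p, N p := ⟨_, rfl⟩
  have hℓA' : ℓ ∈ A := nonunits_mem A hℓA
  have hMA : ∀ i j, ℓ ^ M * P0 i j ∈ A := by
    intro i j
    have hle : N (i, j) ≤ M := by
      rw [hM]
      exact Finset.single_le_sum (fun _ _ => Nat.zero_le _) (Finset.mem_univ (i, j))
    obtain ⟨k, hk⟩ := Nat.exists_eq_add_of_le hle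
    rw [hk, pow_add, mul_comm (ℓ ^ N (i, j)), mul_assoc]
    exact A.mul_mem _ _ (pow_mem hℓA' k) (hN (i, j))
  have hℓMfix : ∀ g, τ g (ℓ ^ M) = ℓ ^ M := fun g => by rw [map_pow, hℓfix]
  have hw1P : ∀ i, ℓ ^ M • w0 i = ∑ j, (ℓ ^ M • Matrix.of P0) i j • u j := by
    intro i
    rw [← hP0 i, Finset.smul_sum]
    exact Finset.sum_congr rfl fun j _ => by
      rw [smul_smul, Matrix.smul_apply, Matrix.of_apply, smul_eq_mul]
  have hw1B : ∀ i, ℓ ^ M • w0 i ∈ B := by
    intro i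
    rw [hw1P i]
    refine B.sum_mem fun j _ => hBA _ ?_ _ (huB j)
    rw [Matrix.smul_apply, Matrix.of_apply, smul_eq_mul]
    exact hMA i j
  have hdet1 : (ℓ ^ M • Matrix.of P0).det ≠ 0 := by
    rw [Matrix.det_smul]
    exact mul_ne_zero (pow_ne_zero _ (pow_ne_zero _ hℓ0)) hdet0
  -- the induction
  have main : ∀ (n : ℕ) (w : Fin d → F) (P : Matrix (Fin d) (Fin d) L),
      (∀ i, w i ∈ V) → (∀ i, w i ∈ B) → (∀ i g, ρ g (w i) = w i) →
      (∀ i, w i = ∑ j, P i j • u j) → P.det ≠ 0 → ℓ ^ n * (P.det)⁻¹ ∈ A →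
      ∃ f : Fin d → F, IsOrthoB A B' f ∧ (∀ i, f i ∈ B) ∧ (∀ i, f i ∈ V) ∧
        (∀ i g, ρ g (f i) = f i) := by
    intro n
    induction n with
    | zero =>
      intro w P hwV hwB hwfix hwP hdet hbound
      by_cases hortho : IsOrthoB A B' w
      · exact ⟨w, hortho, hwB, hwV, hwfix⟩
      · exfalso
        obtain ⟨w', P', r, -, hw'B, -, hw'P, hrinv, hr0, hdet'⟩ :=
          exchange_stepB τ ρ hc hB'A hℓfix hres hdiv V u w P hwV hwB hwfix hwP hortho
        have hP'A : P'.det ∈ A := det_mem_of_entries_mem A.toSubring P' fun i j =>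
          hu.coeff_mem hB'A (P' i) (by rw [← hw'P i]; exact hw'B i) j
        have heq : ℓ⁻¹ = P'.det * r⁻¹ * (ℓ ^ 0 * (P.det)⁻¹) := by
          rw [hdet', pow_zero, one_mul]
          field_simp
        have hℓinv : ℓ⁻¹ ∈ A := by
          rw [heq]
          exact A.mul_mem _ _ (A.mul_mem _ _ hP'A hrinv) hbound
        exact (mem_nonunits_iff_inv_notMem' A hℓ0).mp hℓA hℓinv
    | succ n ih =>
      intro w P hwV hwB hwfix hwP hdet hbound
      by_cases hortho : IsOrthoB A B' w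
      · exact ⟨w, hortho, hwB, hwV, hwfix⟩
      · obtain ⟨w', P', r, hw'V, hw'B, hw'fix, hw'P, hrinv, hr0, hdet'⟩ :=
          exchange_stepB τ ρ hc hB'A hℓfix hres hdiv V u w P hwV hwB hwfix hwP hortho
        refine ih w' P' hw'V hw'B hw'fix hw'P ?_ ?_
        · rw [hdet']
          exact mul_ne_zero (mul_ne_zero (inv_ne_zero hℓ0) hr0) hdet
        · have heq : ℓ ^ n * (P'.det)⁻¹ = (ℓ ^ (n + 1) * (P.det)⁻¹) * r⁻¹ := by
            rw [hdet', pow_succ]
            field_simp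
          rw [heq]
          exact A.mul_mem _ _ hbound hrinv
  obtain ⟨N0, hN0⟩ := harch _ (inv_ne_zero hdet1)
  obtain ⟨f, hf, hfB, hfV, hffix⟩ := main N0 (fun i => ℓ ^ M • w0 i) (ℓ ^ M • Matrix.of P0)
    (fun i => V.smul_mem _ (hw0V i)) hw1B
    (fun i g => by rw [map_smul_of_compat τ ρ hc, hℓMfix, hw0fix]) hw1P hdet1 hN0
  refine ⟨f, hf, hfB, hfV, hffix, ?_⟩
  have hfli : LinearIndependent L f := hf.linearIndependent
  apply Submodule.eq_of_le_of_finrank_eq
    (Submodule.span_le.mpr (by rintro _ ⟨i, rfl⟩; exact hfV i))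
  rw [finrank_span_eq_card hfli, Fintype.card_fin, hdim]

/-- **Fixed lattice bases for a ball pair.**  Under the hypotheses of `exists_fixed_orthoB`
there is a family `f` of `Γ`-fixed elements of `V ∩ B`, a basis of `V`, such that every element
of `V ∩ B` is an `A`-combination of the `f i`, every element of `V ∩ B'` is a combination with
coefficients in the maximal ideal, and every `Γ`-fixed element of `V ∩ B` is a combination with
`Γ`-fixed coefficients in `A`. -/
theorem exists_fixed_lattice_basisB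
    (hc : ∀ (g : Γ) (c : L), ρ g (algebraMap L F c) = algebraMap L F (τ g c))
    (hBA : ∀ c ∈ A, ∀ f ∈ B, c • f ∈ B)
    (hB'A : ∀ c ∈ A.nonunits, ∀ f ∈ B, c • f ∈ B') (hB'B : B' ≤ B)
    {ℓ : L} (hℓ0 : ℓ ≠ 0) (hℓA : ℓ ∈ A.nonunits) (hℓfix : ∀ g, τ g ℓ = ℓ)
    (harch : ∀ x : L, x ≠ 0 → ∃ N : ℕ, ℓ ^ N * x ∈ A)
    (hres : ∀ a ∈ A, ∃ r ∈ A, (∀ g, τ g r = r) ∧ a - r ∈ A.nonunits)
    (hdiv : ∀ f : F, (∀ g, ρ g f = f) → f ∈ B' → ℓ⁻¹ • f ∈ B)
    (V : Submodule L F) (hV : ∀ g, ∀ f ∈ V, ρ g f ∈ V)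
    (halg : ∀ c : L, (Set.range fun g : Γ => τ g c).Finite)
    (hopen : ∀ v ∈ V, ∃ s : Finset L, ∀ g, (∀ c ∈ s, τ g c = c) → ρ g v = v)
    {d : ℕ} (u : Fin d → F) (hu : IsOrthoB A B' u) (huB : ∀ i, u i ∈ B)
    (huV : Submodule.span L (Set.range u) = V) :
    ∃ f : Fin d → F, (∀ i, f i ∈ V) ∧ (∀ i, f i ∈ B) ∧ (∀ i g, ρ g (f i) = f i) ∧
      LinearIndependent L f ∧ Submodule.span L (Set.range f) = V ∧ IsOrthoB A B' f ∧
      (∀ h ∈ V, h ∈ B → ∃ a : Fin d → L, (∀ i, a i ∈ A) ∧ h = ∑ i, a i • f i) ∧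
      (∀ h ∈ V, h ∈ B' →
        ∃ a : Fin d → L, (∀ i, a i ∈ A.nonunits) ∧ h = ∑ i, a i • f i) ∧
      (∀ h ∈ V, h ∈ B → (∀ g, ρ g h = h) →
        ∃ a : Fin d → L, (∀ i, a i ∈ A) ∧ (∀ i g, τ g (a i) = a i) ∧ h = ∑ i, a i • f i) := by
  obtain ⟨f, hf, hfB, hfV, hffix, hfspan⟩ := exists_fixed_orthoB τ ρ hc hBA hB'A hℓ0 hℓA hℓfix
    harch hres hdiv V hV halg hopen u hu huB huV
  have hfli : LinearIndependent L f := hf.linearIndependent
  refine ⟨f, hfV, hfB, hffix, hfli, hfspan, hf, ?_, ?_, ?_⟩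
  · intro h hhV hhB
    obtain ⟨a, ha⟩ := (Submodule.mem_span_range_iff_exists_fun L).mp (hfspan ▸ hhV)
    exact ⟨a, hf.coeff_mem hB'A a (ha ▸ hhB), ha.symm⟩
  · intro h hhV hhB
    obtain ⟨a, ha⟩ := (Submodule.mem_span_range_iff_exists_fun L).mp (hfspan ▸ hhV)
    exact ⟨a, hf.coeff_mem_nonunits hB'A hB'B a (ha ▸ hhB), ha.symm⟩
  · intro h hhV hhB hhfix
    obtain ⟨a, ha⟩ := (Submodule.mem_span_range_iff_exists_fun L).mp (hfspan ▸ hhV)
    refine ⟨a, hf.coeff_mem hB'A a (ha ▸ hhB), ?_, ha.symm⟩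
    exact coeff_fixed_of_fixed τ ρ hc hfli hffix a (fun g => by rw [ha]; exact hhfix g)

/-- **Fixed lifts for a ball pair.**  Under the hypotheses of `exists_fixed_orthoB`, every
element of `V ∩ B` is congruent modulo `B'` to a `Γ`-fixed element of `V ∩ B`. -/
theorem exists_fixed_same_reductionB
    (hc : ∀ (g : Γ) (c : L), ρ g (algebraMap L F c) = algebraMap L F (τ g c))
    (hBA : ∀ c ∈ A, ∀ f ∈ B, c • f ∈ B)
    (hB'A : ∀ c ∈ A.nonunits, ∀ f ∈ B, c • f ∈ B')
    {ℓ : L} (hℓ0 : ℓ ≠ 0) (hℓA : ℓ ∈ A.nonunits) (hℓfix : ∀ g, τ g ℓ = ℓ)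
    (harch : ∀ x : L, x ≠ 0 → ∃ N : ℕ, ℓ ^ N * x ∈ A)
    (hres : ∀ a ∈ A, ∃ r ∈ A, (∀ g, τ g r = r) ∧ a - r ∈ A.nonunits)
    (hdiv : ∀ f : F, (∀ g, ρ g f = f) → f ∈ B' → ℓ⁻¹ • f ∈ B)
    (V : Submodule L F) (hV : ∀ g, ∀ f ∈ V, ρ g f ∈ V)
    (halg : ∀ c : L, (Set.range fun g : Γ => τ g c).Finite)
    (hopen : ∀ v ∈ V, ∃ s : Finset L, ∀ g, (∀ c ∈ s, τ g c = c) → ρ g v = v)
    {d : ℕ} (u : Fin d → F) (hu : IsOrthoB A B' u) (huB : ∀ i, u i ∈ B)
    (huV : Submodule.span L (Set.range u) = V)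
    {h : F} (hhV : h ∈ V) (hhB : h ∈ B) :
    ∃ h0 : F, h0 ∈ V ∧ h0 ∈ B ∧ (∀ g, ρ g h0 = h0) ∧ h - h0 ∈ B' := by
  obtain ⟨f, hf, hfB, hfV, hffix, hfspan⟩ := exists_fixed_orthoB τ ρ hc hBA hB'A hℓ0 hℓA hℓfix
    harch hres hdiv V hV halg hopen u hu huB huV
  obtain ⟨a, ha⟩ := (Submodule.mem_span_range_iff_exists_fun L).mp (hfspan ▸ hhV)
  have haA := hf.coeff_mem hB'A a (ha ▸ hhB)
  choose r hrA hrfix hra using fun i => hres (a i) (haA i)
  refine ⟨∑ i, r i • f i, V.sum_mem fun i _ => V.smul_mem _ (hfV i),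
    B.sum_mem fun i _ => hBA _ (hrA i) _ (hfB i), ?_, ?_⟩
  · intro g
    rw [map_sum]
    exact Finset.sum_congr rfl fun i _ => by rw [map_smul_of_compat τ ρ hc, hrfix, hffix]
  · rw [← ha, ← Finset.sum_sub_distrib]
    have h1 : ∀ i, a i • f i - r i • f i = (a i - r i) • f i := fun i => (sub_smul _ _ _).symm
    simp only [h1]
    exact B'.sum_mem fun i _ => hB'A _ (hra i) _ (hfB i)

end Main

/-! ## Valuation-family form -/

section ValFamily

variable {L F : Type*} [Field L] [Field F] [Algebra L F]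
variable {Γ₀ : Type*} [LinearOrderedCommGroupWithZero Γ₀] {ι : Type*}

/-- The common weighted ball `{f | ∀ i, v i f ≤ w i}` of a family of valuations. -/
def ballW (v : ι → Valuation F Γ₀) (w : ι → Γ₀) : AddSubgroup F where
  carrier := {f | ∀ i, v i f ≤ w i}
  zero_mem' := fun i => by rw [map_zero]; exact zero_le
  add_mem' := fun {a b} ha hb i => (v i).map_add_le (ha i) (hb i)
  neg_mem' := fun {a} ha i => by rw [Valuation.map_neg]; exact ha i

/-- The common weighted open ball `{f | ∀ i, v i f < w i}` of a family of valuations. -/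
def openBallW (v : ι → Valuation F Γ₀) (w : ι → Γ₀) (hw : ∀ i, w i ≠ 0) : AddSubgroup F where
  carrier := {f | ∀ i, v i f < w i}
  zero_mem' := fun i => by rw [map_zero]; exact zero_lt_iff.mpr (hw i)
  add_mem' := fun {a b} ha hb i => (v i).map_add_lt (ha i) (hb i)
  neg_mem' := fun {a} ha i => by rw [Valuation.map_neg]; exact ha i

theorem mem_ballW {v : ι → Valuation F Γ₀} {w : ι → Γ₀} {f : F} :
    f ∈ ballW v w ↔ ∀ i, v i f ≤ w i := Iff.rfl

theorem mem_openBallW {v : ι → Valuation F Γ₀} {w : ι → Γ₀} {hw : ∀ i, w i ≠ 0} {f : F} :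
    f ∈ openBallW v w hw ↔ ∀ i, v i f < w i := Iff.rfl

theorem openBallW_le_ballW (v : ι → Valuation F Γ₀) (w : ι → Γ₀) (hw : ∀ i, w i ≠ 0) :
    openBallW v w hw ≤ ballW v w := fun _ hf i => (hf i).le

variable {v : ι → Valuation F Γ₀} {w : ι → Γ₀} {vL : Valuation L Γ₀} {A : ValuationSubring L}

theorem smul_mem_ballW (hvL : ∀ i (c : L), v i (algebraMap L F c) = vL c)
    (hA : ∀ c : L, vL c ≤ 1 ↔ c ∈ A) {c : L} (hc : c ∈ A) {f : F} (hf : f ∈ ballW v w) :
    c • f ∈ ballW v w := by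
  intro i
  rw [Algebra.smul_def, map_mul, hvL]
  exact (mul_le_of_le_one_left' ((hA c).mpr hc)).trans (hf i)

theorem smul_mem_openBallW (hvL : ∀ i (c : L), v i (algebraMap L F c) = vL c)
    (hw : ∀ i, w i ≠ 0) (hA' : ∀ c : L, vL c < 1 ↔ c ∈ A.nonunits) {c : L}
    (hc : c ∈ A.nonunits) {f : F} (hf : f ∈ ballW v w) : c • f ∈ openBallW v w hw := by
  intro i
  rw [Algebra.smul_def, map_mul, hvL]
  have h1 : vL c < 1 := (hA' c).mpr hc
  calc vL c * v i f ≤ vL c * w i := mul_le_mul_right (hf i) _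
    _ < 1 * w i := mul_lt_mul_of_pos_right h1 (zero_lt_iff.mpr (hw i))
    _ = w i := one_mul _

/-- A family which is orthonormal in the sense of `S35.helper2459.CartesianW` is orthonormal
relative to the open ball. -/
theorem isOrthoB_of_cartesian [Fintype ι] (hw : ∀ i, w i ≠ 0)
    (hA' : ∀ c : L, vL c < 1 ↔ c ∈ A.nonunits) {n : ℕ} {e : Fin n → F}
    (horth : ∀ (c : Fin n → L) (r : Γ₀), (∀ i, v i (∑ j, c j • e j) ≤ r * w i) →
      ∀ j, vL (c j) ≤ r) :
    IsOrthoB A (openBallW v w hw) e := by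
  classical
  intro a _ hsum j
  rw [← hA']
  by_cases hι : Nonempty ι
  · obtain ⟨i0, -, hmax⟩ := Finset.exists_max_image Finset.univ
      (fun i => v i (∑ j, a j • e j) * (w i)⁻¹) ⟨hι.some, Finset.mem_univ _⟩
    have hr : v i0 (∑ j, a j • e j) * (w i0)⁻¹ < 1 :=
      (mul_inv_lt_iff₀ (zero_lt_iff.mpr (hw i0))).mpr (by rw [one_mul]; exact hsum i0)
    refine lt_of_le_of_lt (horth a _ (fun i => ?_) j) hr
    exact (mul_inv_le_iff₀ (zero_lt_iff.mpr (hw i))).mp (hmax i (Finset.mem_univ i))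
  · exact lt_of_le_of_lt (horth a 0 (fun i => (hι ⟨i⟩).elim) j) zero_lt_one

/-- Conversely, orthonormality relative to the open ball gives the strong (all radii) form. -/
theorem cartesian_of_isOrthoB (hvL : ∀ i (c : L), v i (algebraMap L F c) = vL c)
    (hw : ∀ i, w i ≠ 0) (hA : ∀ c : L, vL c ≤ 1 ↔ c ∈ A) {n : ℕ} {f : Fin n → F}
    (hf : IsOrthoB A (openBallW v w hw) f) (c : Fin n → L) (r : Γ₀)
    (hr : ∀ i, v i (∑ j, c j • f j) ≤ r * w i) : ∀ j, vL (c j) ≤ r := by
  classical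
  intro j
  by_contra hj
  rw [not_le] at hj
  obtain ⟨j0, -, hmax⟩ := Finset.exists_max_image Finset.univ (fun j => vL (c j))
    ⟨j, Finset.mem_univ j⟩
  have hlt : r < vL (c j0) := lt_of_lt_of_le hj (hmax j (Finset.mem_univ j))
  have hpos : 0 < vL (c j0) := lt_of_le_of_lt zero_le hlt
  have h0 : c j0 ≠ 0 := (Valuation.ne_zero_iff _).mp hpos.ne'
  -- the normalised combination lies in the open ball
  have hmem : (c j0)⁻¹ • ∑ k, c k • f k ∈ openBallW v w hw := by
    intro i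
    rw [Algebra.smul_def, map_mul, hvL, map_inv₀]
    calc (vL (c j0))⁻¹ * v i (∑ k, c k • f k) ≤ (vL (c j0))⁻¹ * (r * w i) :=
          mul_le_mul_right (hr i) _
      _ = ((vL (c j0))⁻¹ * r) * w i := (mul_assoc _ _ _).symm
      _ < 1 * w i := mul_lt_mul_of_pos_right
          ((inv_mul_lt_one₀ hpos).mpr hlt) (zero_lt_iff.mpr (hw i))
      _ = w i := one_mul _
  -- contradiction with orthonormality
  have hb : ∀ k, (c j0)⁻¹ * c k ∈ A := by
    intro k
    rw [← hA, map_mul, map_inv₀]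
    exact (inv_mul_le_one₀ hpos).mpr (hmax k (Finset.mem_univ k))
  have hsum' : ∑ k, ((c j0)⁻¹ * c k) • f k ∈ openBallW v w hw := by
    have : ∑ k, ((c j0)⁻¹ * c k) • f k = (c j0)⁻¹ • ∑ k, c k • f k := by
      rw [Finset.smul_sum]
      exact Finset.sum_congr rfl fun k _ => by rw [smul_smul]
    rw [this]
    exact hmem
  have := hf _ hb hsum' j0
  rw [inv_mul_cancel₀ h0] at this
  exact one_notMem_nonunits A this

variable {Γ : Type*} [Group Γ] (τ : Γ →* RingAut L) (ρ : Γ →* RingAut F)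

/-- **Fixed cartesian bases (valuation-family form).**  Input and output are in the shape of
`S35.helper2459.CartesianW v w vL V`: a finite family spanning `V`, contained in the weighted
ball, such that a combination of norm `≤ r` has all its coefficients of norm `≤ r`.  If `V` is
`Γ`-stable, `ℓ` is a `Γ`-fixed uniformiser of the `Γ`-fixed scalars (hypothesis `hdiv` : a
`Γ`-fixed element of the open ball lies in `ℓ •` the ball), and every residue class of `A`
contains a `Γ`-fixed element, then the family can be chosen `Γ`-fixed. -/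
theorem exists_fixed_cartesian [Fintype ι]
    (hc : ∀ (g : Γ) (c : L), ρ g (algebraMap L F c) = algebraMap L F (τ g c))
    (hvL : ∀ i (c : L), v i (algebraMap L F c) = vL c) (hw : ∀ i, w i ≠ 0)
    (hA : ∀ c : L, vL c ≤ 1 ↔ c ∈ A) (hA' : ∀ c : L, vL c < 1 ↔ c ∈ A.nonunits)
    {ℓ : L} (hℓ0 : ℓ ≠ 0) (hℓ1 : vL ℓ < 1) (hℓfix : ∀ g, τ g ℓ = ℓ)
    (harch : ∀ x : L, x ≠ 0 → ∃ N : ℕ, vL ℓ ^ N * vL x ≤ 1)
    (hres : ∀ a ∈ A, ∃ r ∈ A, (∀ g, τ g r = r) ∧ a - r ∈ A.nonunits)
    (hdiv : ∀ f : F, (∀ g, ρ g f = f) → (∀ i, v i f < w i) → ∀ i, v i f ≤ vL ℓ * w i)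
    (V : Submodule L F) (hV : ∀ g, ∀ f ∈ V, ρ g f ∈ V)
    (halg : ∀ c : L, (Set.range fun g : Γ => τ g c).Finite)
    (hopen : ∀ x ∈ V, ∃ s : Finset L, ∀ g, (∀ c ∈ s, τ g c = c) → ρ g x = x)
    {n : ℕ} (e : Fin n → F) (he : ∀ j i, v i (e j) ≤ w i)
    (horth : ∀ (c : Fin n → L) (r : Γ₀), (∀ i, v i (∑ j, c j • e j) ≤ r * w i) →
      ∀ j, vL (c j) ≤ r)
    (hspan : Submodule.span L (Set.range e) = V) :
    ∃ f : Fin n → F, (∀ j, f j ∈ V) ∧ (∀ j g, ρ g (f j) = f j) ∧ (∀ j i, v i (f j) ≤ w i) ∧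
      (∀ (c : Fin n → L) (r : Γ₀), (∀ i, v i (∑ j, c j • f j) ≤ r * w i) →
        ∀ j, vL (c j) ≤ r) ∧
      Submodule.span L (Set.range f) = V ∧
      (∀ h ∈ V, (∀ i, v i h ≤ w i) → ∃ h0 ∈ V, (∀ i, v i h0 ≤ w i) ∧ (∀ g, ρ g h0 = h0) ∧
        ∀ i, v i (h - h0) < w i) ∧
      (∀ h ∈ V, (∀ i, v i h ≤ w i) → (∀ g, ρ g h = h) →
        ∃ a : Fin n → L, (∀ j, vL (a j) ≤ 1) ∧ (∀ j g, τ g (a j) = a j) ∧
          h = ∑ j, a j • f j) := by
  have hℓ0' : vL ℓ ≠ 0 := (Valuation.ne_zero_iff _).mpr hℓ0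
  have hℓpos : 0 < vL ℓ := zero_lt_iff.mpr hℓ0'
  have hBA : ∀ c ∈ A, ∀ f ∈ ballW v w, c • f ∈ ballW v w :=
    fun c hcA f hf => smul_mem_ballW hvL hA hcA hf
  have hB'A : ∀ c ∈ A.nonunits, ∀ f ∈ ballW v w, c • f ∈ openBallW v w hw :=
    fun c hcA f hf => smul_mem_openBallW hvL hw hA' hcA hf
  have harch' : ∀ x : L, x ≠ 0 → ∃ N : ℕ, ℓ ^ N * x ∈ A := by
    intro x hx
    obtain ⟨N, hN⟩ := harch x hx
    exact ⟨N, by rw [← hA, map_mul, map_pow]; exact hN⟩
  have hdiv' : ∀ f : F, (∀ g, ρ g f = f) → f ∈ openBallW v w hw → ℓ⁻¹ • f ∈ ballW v w := by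
    intro f hffix hf i
    rw [Algebra.smul_def, map_mul, hvL, map_inv₀]
    calc (vL ℓ)⁻¹ * v i f ≤ (vL ℓ)⁻¹ * (vL ℓ * w i) := mul_le_mul_right (hdiv f hffix hf i) _
      _ = w i := by rw [← mul_assoc, inv_mul_cancel₀ hℓ0', one_mul]
  have hu : IsOrthoB A (openBallW v w hw) e := isOrthoB_of_cartesian hw hA' horth
  obtain ⟨f, hfV, hfB, hffix, hfli, hfspan, hfo, hlat, -, hlatfix⟩ :=
    exists_fixed_lattice_basisB τ ρ hc hBA hB'A (openBallW_le_ballW v w hw) hℓ0
      ((hA' ℓ).mp hℓ1) hℓfix harch' hres hdiv' V hV halg hopen e hu he hspan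
  refine ⟨f, hfV, hffix, hfB, cartesian_of_isOrthoB hvL hw hA hfo, hfspan, ?_, ?_⟩
  · intro h hhV hhB
    obtain ⟨a, haA, rfl⟩ := hlat h hhV hhB
    choose r hrA hrfix hra using fun j => hres (a j) (haA j)
    refine ⟨∑ j, r j • f j, V.sum_mem fun j _ => V.smul_mem _ (hfV j),
      (ballW v w).sum_mem fun j _ => hBA _ (hrA j) _ (hfB j), ?_, ?_⟩
    · intro g
      rw [map_sum]
      exact Finset.sum_congr rfl fun j _ => by rw [map_smul_of_compat τ ρ hc, hrfix, hffix]
    · have h1 : ∑ j, a j • f j - ∑ j, r j • f j = ∑ j, (a j - r j) • f j := by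
        rw [← Finset.sum_sub_distrib]
        exact Finset.sum_congr rfl fun j _ => (sub_smul _ _ _).symm
      rw [h1]
      exact (openBallW v w hw).sum_mem fun j _ => hB'A _ (hra j) _ (hfB j)
  · intro h hhV hhB hhfix
    obtain ⟨a, haA, hafix, rfl⟩ := hlatfix h hhV hhB hhfix
    exact ⟨a, fun j => (hA _).mpr (haA j), hafix, rfl⟩

end ValFamily

/-! ## Base change along a finite orbit: the Vandermonde decomposition -/

section Vandermonde

variable {Γ L F : Type*} [Group Γ] [Field L] [Field F] [Algebra L F]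
variable (τ : Γ →* RingAut L) (ρ : Γ →* RingAut F)

/-- An injective enumeration of a finite orbit. -/
theorem exists_orbit_enum (ϖ : L) (hfin : (Set.range fun g : Γ => τ g ϖ).Finite) :
    ∃ (e : ℕ) (x : Fin e → L), Function.Injective x ∧
      Set.range x = Set.range fun g : Γ => τ g ϖ := by
  classical
  refine ⟨hfin.toFinset.card, fun j => ((hfin.toFinset.equivFin).symm j : L), ?_, ?_⟩
  · intro a b h
    exact (hfin.toFinset.equivFin).symm.injective (Subtype.ext h)
  · ext y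
    constructor
    · rintro ⟨j, rfl⟩
      exact hfin.mem_toFinset.mp ((hfin.toFinset.equivFin).symm j).2
    · intro hy
      exact ⟨hfin.toFinset.equivFin ⟨y, hfin.mem_toFinset.mpr hy⟩, by simp⟩

/-- The Vandermonde system attached to an injective family of scalars has at most one
solution. -/
theorem vandermonde_system_unique {e : ℕ} (x : Fin e → L) (hx : Function.Injective x)
    (g g' : Fin e → F)
    (h : ∀ j, ∑ i : Fin e, x j ^ (i : ℕ) • g i = ∑ i : Fin e, x j ^ (i : ℕ) • g' i) : g = g' := by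
  classical
  set y : Fin e → F := fun j => algebraMap L F (x j) with hy
  have hyinj : Function.Injective y := fun a b hab => hx ((algebraMap L F).injective hab)
  have hdet : IsUnit (Matrix.vandermonde y).det :=
    isUnit_iff_ne_zero.mpr (Matrix.det_vandermonde_ne_zero_iff.mpr hyinj)
  have h1 : (Matrix.vandermonde y).mulVec g = (Matrix.vandermonde y).mulVec g' := by
    funext j
    have := h j
    simp only [Algebra.smul_def, map_pow] at this
    simpa [Matrix.mulVec, dotProduct, Matrix.vandermonde_apply, hy] using this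
  have h2 := congrArg ((Matrix.vandermonde y)⁻¹.mulVec) h1
  rwa [Matrix.mulVec_mulVec, Matrix.mulVec_mulVec, Matrix.nonsing_inv_mul _ hdet,
    Matrix.one_mulVec, Matrix.one_mulVec] at h2

/-- **Base change (existence).**  Let `x` enumerate the `Γ`-orbit of a scalar `ϖ` (`e` elements)
and let `f` be fixed by the stabiliser of `ϖ`.  Then `f = ∑ i < e, ϖ ^ i • g i` with all `g i`
fixed by `Γ`; moreover the `g i` lie in every `Γ`-stable `L`-subspace containing `f`. -/
theorem exists_fixed_decomp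
    (hc : ∀ (g : Γ) (c : L), ρ g (algebraMap L F c) = algebraMap L F (τ g c))
    (ϖ : L) {e : ℕ} (x : Fin e → L) (hx : Function.Injective x)
    (hxorb : Set.range x = Set.range fun g : Γ => τ g ϖ)
    (f : F) (hf : ∀ g, τ g ϖ = ϖ → ρ g f = f) :
    ∃ g : Fin e → F, (∀ i γ, ρ γ (g i) = g i) ∧ f = ∑ i : Fin e, ϖ ^ (i : ℕ) • g i ∧
      ∀ V : Submodule L F, (∀ γ, ∀ f' ∈ V, ρ γ f' ∈ V) → f ∈ V → ∀ i, g i ∈ V := by
  classical
  -- group elements reaching each conjugate
  have hγ : ∀ j, ∃ γ : Γ, τ γ ϖ = x j := fun j => by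
    have h1 : x j ∈ Set.range fun g : Γ => τ g ϖ := hxorb ▸ Set.mem_range_self j
    exact h1
  choose γ hγ using hγ
  -- the index permutation induced by a group element
  have hπ : ∀ (h : Γ) (j : Fin e), ∃ j', x j' = τ h (x j) := fun h j => by
    have h1 : τ h (x j) ∈ Set.range x := by
      rw [hxorb, ← hγ j]
      exact ⟨h * γ j, by show τ (h * γ j) ϖ = _; rw [map_mul]; rfl⟩
    exact h1
  choose π hπ using hπ
  have hπinj : ∀ h, Function.Injective (π h) := fun h a b hab => by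
    apply hx
    apply (τ h).injective
    rw [← hπ, ← hπ, hab]
  have hπsurj : ∀ h, Function.Surjective (π h) := fun h =>
    Finite.injective_iff_surjective.mp (hπinj h)
  -- the conjugates of `f` are well defined
  have hwd : ∀ (h : Γ) (j : Fin e), τ h ϖ = x j → ρ h f = ρ (γ j) f := by
    intro h j hj
    have h1 : ρ ((γ j)⁻¹ * h) f = f := by
      apply hf
      rw [map_mul, map_inv, RingAut.mul_apply, hj, ← hγ j]
      exact (τ (γ j)).symm_apply_apply ϖ
    have h2 : ρ h f = ρ (γ j) (ρ ((γ j)⁻¹ * h) f) := by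
      rw [← RingAut.mul_apply, ← map_mul, mul_inv_cancel_left]
    rw [h2, h1]
  obtain ⟨fv, hfv⟩ : ∃ fv : Fin e → F, ∀ j, fv j = ρ (γ j) f := ⟨fun j => ρ (γ j) f, fun _ => rfl⟩
  have hfvπ : ∀ (h : Γ) (j : Fin e), ρ h (fv j) = fv (π h j) := by
    intro h j
    have h1 : ρ (h * γ j) f = ρ (γ (π h j)) f :=
      hwd (h * γ j) (π h j) (by rw [map_mul, RingAut.mul_apply, hγ, hπ])
    rw [hfv, hfv, ← h1, map_mul, RingAut.mul_apply]
  -- the Vandermonde matrix of the conjugates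
  have hdet : IsUnit (Matrix.vandermonde x).det :=
    isUnit_iff_ne_zero.mpr (Matrix.det_vandermonde_ne_zero_iff.mpr hx)
  obtain ⟨g, hg⟩ : ∃ g : Fin e → F, ∀ i, g i = ∑ k, (Matrix.vandermonde x)⁻¹ i k • fv k :=
    ⟨fun i => ∑ k, (Matrix.vandermonde x)⁻¹ i k • fv k, fun _ => rfl⟩
  have hsys : ∀ j, ∑ i : Fin e, x j ^ (i : ℕ) • g i = fv j := by
    intro j
    calc ∑ i : Fin e, x j ^ (i : ℕ) • g i
        = ∑ i : Fin e, ∑ k, (Matrix.vandermonde x j i * (Matrix.vandermonde x)⁻¹ i k) • fv k := by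
          refine Finset.sum_congr rfl fun i _ => ?_
          rw [hg, Finset.smul_sum, Matrix.vandermonde_apply]
          exact Finset.sum_congr rfl fun k _ => by rw [smul_smul]
      _ = ∑ k, ∑ i : Fin e, (Matrix.vandermonde x j i * (Matrix.vandermonde x)⁻¹ i k) • fv k :=
          Finset.sum_comm
      _ = ∑ k, (Matrix.vandermonde x * (Matrix.vandermonde x)⁻¹) j k • fv k := by
          refine Finset.sum_congr rfl fun k _ => ?_
          rw [← Finset.sum_smul, Matrix.mul_apply]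
      _ = ∑ k, (1 : Matrix (Fin e) (Fin e) L) j k • fv k := by
          rw [Matrix.mul_nonsing_inv _ hdet]
      _ = fv j := by
          simp [Matrix.one_apply, ite_smul]
  -- fixedness
  have hgfix : ∀ i h, ρ h (g i) = g i := by
    intro i h
    have h3 : (fun i => ρ h (g i)) = g := by
      refine vandermonde_system_unique x hx _ g fun j' => ?_
      obtain ⟨j, rfl⟩ := hπsurj h j'
      rw [hsys, ← hfvπ, ← hsys j, map_sum]
      refine Finset.sum_congr rfl fun i _ => ?_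
      rw [map_smul_of_compat τ ρ hc, map_pow, hπ]
    exact congrFun h3 i
  obtain ⟨j0, hj0⟩ : ∃ j0, x j0 = ϖ := by
    have h1 : ϖ ∈ Set.range x := by
      rw [hxorb]
      exact ⟨1, by show τ 1 ϖ = _; rw [map_one]; rfl⟩
    exact h1
  have hf0 : f = fv j0 := by
    have h1 := hwd 1 j0 (by rw [map_one, hj0]; rfl)
    rw [map_one] at h1
    rw [hfv, ← h1]
    rfl
  refine ⟨g, hgfix, ?_, ?_⟩
  · rw [hf0, ← hsys j0, hj0]
  · intro V hV hfV i
    rw [hg]
    refine V.sum_mem fun k _ => V.smul_mem _ ?_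
    rw [hfv]
    exact hV _ _ hfV

/-- **Base change (uniqueness).**  The decomposition `f = ∑ i < e, ϖ ^ i • g i` with fixed
`g i` is unique (`e` the number of conjugates of `ϖ`). -/
theorem fixed_decomp_unique
    (hc : ∀ (g : Γ) (c : L), ρ g (algebraMap L F c) = algebraMap L F (τ g c))
    (ϖ : L) {e : ℕ} (x : Fin e → L) (hx : Function.Injective x)
    (hxorb : Set.range x = Set.range fun g : Γ => τ g ϖ)
    (g g' : Fin e → F) (hg : ∀ i γ, ρ γ (g i) = g i) (hg' : ∀ i γ, ρ γ (g' i) = g' i)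
    (h : ∑ i : Fin e, ϖ ^ (i : ℕ) • g i = ∑ i : Fin e, ϖ ^ (i : ℕ) • g' i) : g = g' := by
  refine vandermonde_system_unique x hx g g' fun j => ?_
  obtain ⟨γ, hγ⟩ : ∃ γ : Γ, τ γ ϖ = x j := by
    have h1 : x j ∈ Set.range fun g : Γ => τ g ϖ := hxorb ▸ Set.mem_range_self j
    exact h1
  have h1 := congrArg (ρ γ) h
  rw [map_sum, map_sum] at h1
  have h2 : ∀ z : Fin e → F, (∀ i γ, ρ γ (z i) = z i) →
      ∑ i : Fin e, ρ γ (ϖ ^ (i : ℕ) • z i) = ∑ i : Fin e, x j ^ (i : ℕ) • z i := fun z hz =>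
    Finset.sum_congr rfl fun i _ => by
      rw [map_smul_of_compat τ ρ hc, hz, map_pow, hγ]
  rw [h2 g hg, h2 g' hg'] at h1
  exact h1

end Vandermonde

/-! ## The valuation of a sum with pairwise distinct term values -/

section Ultra

variable {F : Type*} [Field F] {Γ₀ : Type*} [LinearOrderedCommGroupWithZero Γ₀]

/-- If the nonzero terms of a finite sum have pairwise distinct valuations, then every term is
bounded by the valuation of the sum. -/
theorem val_le_val_sum_of_distinct {ι : Type*} (v : Valuation F Γ₀) (s : Finset ι) (t : ι → F)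
    (hdist : ∀ i ∈ s, ∀ j ∈ s, i ≠ j → t i ≠ 0 → v (t i) ≠ v (t j)) :
    ∀ i ∈ s, v (t i) ≤ v (∑ i ∈ s, t i) := by
  classical
  induction s using Finset.induction_on with
  | empty => intro i hi; exact absurd hi (Finset.notMem_empty i)
  | insert a s ha ih =>
    have ih' := ih (fun i hi j hj =>
      hdist i (Finset.mem_insert_of_mem hi) j (Finset.mem_insert_of_mem hj))
    rw [Finset.sum_insert ha]
    by_cases hne : v (t a) = v (∑ i ∈ s, t i)
    · by_cases hta : t a = 0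
      · intro i hi
        rw [hta, zero_add]
        rcases Finset.mem_insert.mp hi with rfl | hi
        · rw [hta, map_zero]
          exact zero_le
        · exact ih' i hi
      · exfalso
        have hS0 : v (∑ i ∈ s, t i) ≠ 0 := by
          rw [← hne]
          exact (Valuation.ne_zero_iff _).mpr hta
        have hex : ∃ i1 ∈ s, v (t i1) = v (∑ i ∈ s, t i) := by
          by_contra hcon
          push Not at hcon
          have hlt : ∀ i ∈ s, v (t i) < v (∑ i ∈ s, t i) := fun i hi =>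
            lt_of_le_of_ne (ih' i hi) (hcon i hi)
          exact lt_irrefl _ (v.map_sum_lt hS0 hlt)
        obtain ⟨i1, hi1, hv1⟩ := hex
        exact hdist a (Finset.mem_insert_self a s) i1 (Finset.mem_insert_of_mem hi1)
          (by rintro rfl; exact ha hi1) hta (hne.trans hv1.symm)
    · have hmax := v.map_add_of_distinct_val hne
      intro i hi
      rw [hmax]
      rcases Finset.mem_insert.mp hi with rfl | hi
      · exact le_max_left _ _
      · exact (ih' i hi).trans (le_max_right _ _)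

/-- If the nonzero terms of a finite sum have pairwise distinct valuations, the valuation of
the sum is the maximum of the valuations of the terms. -/
theorem val_sum_le_iff_of_distinct {ι : Type*} (v : Valuation F Γ₀) (s : Finset ι) (t : ι → F)
    (hdist : ∀ i ∈ s, ∀ j ∈ s, i ≠ j → t i ≠ 0 → v (t i) ≠ v (t j)) (r : Γ₀) :
    v (∑ i ∈ s, t i) ≤ r ↔ ∀ i ∈ s, v (t i) ≤ r :=
  ⟨fun h i hi => (val_le_val_sum_of_distinct v s t hdist i hi).trans h, fun h => v.map_sum_le h⟩

/-- **Valuation of a base-change decomposition.**  If `|ϖ| ^ e = |ℓ|`, `|ϖ| < 1` and the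
values of the nonzero `g i` (`i < e`) are integral powers of `|ℓ|`, then
`v (∑ i < e, ϖ ^ i • g i) ≤ r` iff `|ϖ| ^ i * v (g i) ≤ r` for all `i`. -/
theorem val_sum_pow_smul_le_iff {L : Type*} [Field L] [Algebra L F]
    (v : Valuation F Γ₀) (vL : Valuation L Γ₀) (hvL : ∀ c : L, v (algebraMap L F c) = vL c)
    {ϖ ℓ : L} (hϖ0 : ϖ ≠ 0) (hϖ1 : vL ϖ < 1) {e : ℕ} (hϖe : vL ϖ ^ e = vL ℓ)
    (g : Fin e → F) (hg : ∀ i, g i ≠ 0 → ∃ m : ℤ, v (g i) = vL ℓ ^ m) (r : Γ₀) :
    v (∑ i : Fin e, ϖ ^ (i : ℕ) • g i) ≤ r ↔ ∀ i : Fin e, vL ϖ ^ (i : ℕ) * v (g i) ≤ r := by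
  have hval : ∀ i : Fin e, v (ϖ ^ (i : ℕ) • g i) = vL ϖ ^ (i : ℕ) * v (g i) := fun i => by
    rw [Algebra.smul_def, map_mul, hvL, map_pow]
  have hϖv0 : vL ϖ ≠ 0 := (Valuation.ne_zero_iff _).mpr hϖ0
  have hϖpos : 0 < vL ϖ := zero_lt_iff.mpr hϖv0
  have key := val_sum_le_iff_of_distinct v Finset.univ (fun i : Fin e => ϖ ^ (i : ℕ) • g i) ?_ r
  · rw [key]
    constructor
    · intro h i
      rw [← hval]
      exact h i (Finset.mem_univ i)
    · intro h i _
      rw [hval]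
      exact h i
  · intro i _ j _ hij hti
    have hgi : g i ≠ 0 := fun h0 => hti (by rw [h0, smul_zero])
    rw [hval, hval]
    by_cases hgj : g j = 0
    · rw [hgj, map_zero, mul_zero]
      exact mul_ne_zero (pow_ne_zero _ hϖv0) ((Valuation.ne_zero_iff _).mpr hgi)
    · obtain ⟨m, hm⟩ := hg i hgi
      obtain ⟨m', hm'⟩ := hg j hgj
      rw [hm, hm', ← hϖe]
      intro heq
      have h1 : vL ϖ ^ ((i : ℤ) + e * m) = vL ϖ ^ ((j : ℤ) + e * m') := by
        rw [zpow_add₀ hϖv0, zpow_add₀ hϖv0, zpow_mul, zpow_mul, zpow_natCast, zpow_natCast,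
          zpow_natCast]
        exact heq
      have h2 : (i : ℤ) + e * m = (j : ℤ) + e * m' :=
        zpow_right_injective₀ hϖpos hϖ1.ne h1
      have h3 : ((i : ℕ) : ℤ) - (j : ℕ) = e * (m' - m) := by linarith
      have hi := i.2
      have hj := j.2
      have h4 : ((i : ℕ) : ℤ) = (j : ℕ) := by
        by_contra hne
        have hd : (e : ℤ) ∣ ((i : ℕ) : ℤ) - (j : ℕ) := ⟨m' - m, h3⟩
        have hlt : |((i : ℕ) : ℤ) - (j : ℕ)| < e := by
          rw [abs_lt]
          constructor <;> omega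
        have := Int.eq_zero_of_abs_lt_dvd hd hlt
        omega
      exact hij (Fin.ext (by exact_mod_cast h4))

/-- **Integrality of the components.**  In the situation of `val_sum_pow_smul_le_iff`, if the
sum is integral (`v ≤ 1`) then so is every component `g i` (`i < e`). -/
theorem val_le_one_of_sum_pow_smul {L : Type*} [Field L] [Algebra L F]
    (v : Valuation F Γ₀) (vL : Valuation L Γ₀) (hvL : ∀ c : L, v (algebraMap L F c) = vL c)
    {ϖ ℓ : L} (hϖ0 : ϖ ≠ 0) (hϖ1 : vL ϖ < 1) {e : ℕ} (hϖe : vL ϖ ^ e = vL ℓ)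
    (g : Fin e → F) (hg : ∀ i, g i ≠ 0 → ∃ m : ℤ, v (g i) = vL ℓ ^ m)
    (h : v (∑ i : Fin e, ϖ ^ (i : ℕ) • g i) ≤ 1) : ∀ i, v (g i) ≤ 1 := by
  intro i
  have h1 := (val_sum_pow_smul_le_iff v vL hvL hϖ0 hϖ1 hϖe g hg 1).mp h i
  by_cases hgi : g i = 0
  · rw [hgi, map_zero]
    exact zero_le
  obtain ⟨m, hm⟩ := hg i hgi
  have hϖv0 : vL ϖ ≠ 0 := (Valuation.ne_zero_iff _).mpr hϖ0
  have hϖpos : 0 < vL ϖ := zero_lt_iff.mpr hϖv0
  rw [hm, ← hϖe] at h1 ⊢
  -- `|ϖ| ^ (i + e m) ≤ 1` forces `0 ≤ i + e m`, hence `0 ≤ m` as `i < e`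
  have h2 : vL ϖ ^ ((i : ℤ) + e * m) ≤ 1 := by
    rw [zpow_add₀ hϖv0, zpow_mul, zpow_natCast, zpow_natCast]
    exact h1
  have h3 : (0 : ℤ) ≤ (i : ℤ) + e * m := by
    by_contra hneg
    rw [not_le] at hneg
    have h4 : (1 : Γ₀) < vL ϖ ^ ((i : ℤ) + e * m) := by
      have := zpow_right_strictAnti₀ hϖpos hϖ1 hneg
      simpa using this
    exact absurd h2 (not_le.mpr h4)
  have hi := i.2
  have hm0 : 0 ≤ m := by
    by_contra hneg
    rw [not_le] at hneg
    have h5 : (e : ℤ) * m ≤ -(e : ℤ) := by nlinarith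
    omega
  obtain ⟨k, rfl⟩ := Int.eq_ofNat_of_zero_le hm0
  rw [zpow_natCast]
  exact pow_le_one₀ zero_le (pow_le_one₀ zero_le hϖ1.le)

/-- **The uniformiser of a base-change decomposition.**  In the situation of
`val_sum_pow_smul_le_iff`, a sum of value `< 1` has value `≤ |ϖ|`. -/
theorem val_sum_pow_smul_le_of_lt_one {L : Type*} [Field L] [Algebra L F]
    (v : Valuation F Γ₀) (vL : Valuation L Γ₀) (hvL : ∀ c : L, v (algebraMap L F c) = vL c)
    {ϖ ℓ : L} (hϖ0 : ϖ ≠ 0) (hϖ1 : vL ϖ < 1) {e : ℕ} (hϖe : vL ϖ ^ e = vL ℓ)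
    (g : Fin e → F) (hg : ∀ i, g i ≠ 0 → ∃ m : ℤ, v (g i) = vL ℓ ^ m)
    (h : v (∑ i : Fin e, ϖ ^ (i : ℕ) • g i) < 1) :
    v (∑ i : Fin e, ϖ ^ (i : ℕ) • g i) ≤ vL ϖ := by
  rw [val_sum_pow_smul_le_iff v vL hvL hϖ0 hϖ1 hϖe g hg]
  intro i
  have h1 : vL ϖ ^ (i : ℕ) * v (g i) < 1 :=
    lt_of_le_of_lt ((val_sum_pow_smul_le_iff v vL hvL hϖ0 hϖ1 hϖe g hg _).mp le_rfl i) h
  by_cases hgi : g i = 0
  · rw [hgi, map_zero, mul_zero]
    exact zero_le
  obtain ⟨m, hm⟩ := hg i hgi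
  have hϖv0 : vL ϖ ≠ 0 := (Valuation.ne_zero_iff _).mpr hϖ0
  have hϖpos : 0 < vL ϖ := zero_lt_iff.mpr hϖv0
  have hanti := zpow_right_strictAnti₀ hϖpos hϖ1
  have heq : vL ϖ ^ (i : ℕ) * v (g i) = vL ϖ ^ ((i : ℤ) + e * m) := by
    rw [hm, ← hϖe, zpow_add₀ hϖv0, zpow_mul, zpow_natCast, zpow_natCast]
  rw [heq] at h1 ⊢
  have h3 : (0 : ℤ) < (i : ℤ) + e * m := by
    by_contra hneg
    rw [not_lt] at hneg
    have h4 : vL ϖ ^ (0 : ℤ) ≤ vL ϖ ^ ((i : ℤ) + e * m) := hanti.antitone hneg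
    rw [zpow_zero] at h4
    exact absurd h1 (not_lt.mpr h4)
  have h5 : vL ϖ ^ ((i : ℤ) + e * m) ≤ vL ϖ ^ (1 : ℤ) := hanti.antitone (by omega)
  rwa [zpow_one] at h5

end Ultra

end Fermat.Agent.S44.helper4929
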