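import Mathlib
import Fermat.Prelude.Def_ModularCurve_ArithmeticGalois
import Fermat.Prelude.Def_FLTPrelim_Ramification
import Fermat.Agent.S19.helper3214_RationalGauss
import Fermat.Agent.S35.helper882_GaussPairCart
import Fermat.Agent.S44.helper4929_PairDescent

/-!
# S44 / L1-GEOM-P, rational form (helper4929): the Gauss pair over `K₀` and over `K₀(ϖ)`

`F = modularFunctionFieldBar N`, `A` a valuation subring of `ℚ̄`, `Γ` a subgroup of the inertia
group of `A` acting on `F` through the Prelude `arithmeticGalois` (coefficientwise on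
`q`-expansions), `v = helper882.gpVal A N W` the pair of Gauss valuations (`W` any
`ℚ̄`-automorphism of `F` commuting with `Γ`; in the application the Atkin–Lehner involution).
"`f` is `L`-rational" (`L = ℚ̄^Γ`) is the statement `∀ σ ∈ Γ, arithmeticGalois _ σ • f = f`.

* `exists_fixed_const_val` (K1) : the Gauss valuation of a nonzero `Γ`-fixed function is the
  valuation of a nonzero `Γ`-fixed constant (at every level, no hypothesis on `Γ` beyond
  `Γ ≤ inertia`).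
-/

set_option autoImplicit false
set_option synthInstance.maxHeartbeats 400000

namespace Fermat.Agent.S44.helper4929

open ModularCurve AlgebraicCurve
open Fermat.Agent.S18 Fermat.Agent.S35 Fermat.Agent.S19

local notation "Qb" => AlgebraicClosure ℚ
local notation "GQ" => (AlgebraicClosure ℚ ≃ₐ[ℚ] AlgebraicClosure ℚ)

/-! ## The action of a subgroup of the Galois group -/

section Actions

variable (N : ℕ) (Γ : Subgroup GQ)

/-- A subgroup `Γ` of the absolute Galois group acting on the constants. -/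
noncomputable def galBase : ↥Γ →* RingAut Qb :=
  (MonoidHom.snd (RingAut ↥(modularFunctionFieldBar N)) (RingAut Qb)).comp
    ((SemilinearAut Qb ↥(modularFunctionFieldBar N)).subtype.comp
      ((arithmeticGalois (modularFunctionFieldFull N)).comp Γ.subtype))

/-- A subgroup `Γ` of the absolute Galois group acting on the modular function field. -/
noncomputable def galFun : ↥Γ →* RingAut ↥(modularFunctionFieldBar N) :=
  (MonoidHom.fst (RingAut ↥(modularFunctionFieldBar N)) (RingAut Qb)).comp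
    ((SemilinearAut Qb ↥(modularFunctionFieldBar N)).subtype.comp
      ((arithmeticGalois (modularFunctionFieldFull N)).comp Γ.subtype))

theorem galBase_apply (σ : ↥Γ) (c : Qb) : galBase N Γ σ c = (σ : GQ) c := rfl

theorem galFun_apply (σ : ↥Γ) (f : ↥(modularFunctionFieldBar N)) :
    galFun N Γ σ f = arithmeticGalois (modularFunctionFieldFull N) (σ : GQ) • f := rfl

theorem galFun_compat (σ : ↥Γ) (c : Qb) :
    galFun N Γ σ (algebraMap Qb ↥(modularFunctionFieldBar N) c) =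
      algebraMap Qb ↥(modularFunctionFieldBar N) (galBase N Γ σ c) :=
  SemilinearAut.commutes (arithmeticGalois (modularFunctionFieldFull N) (σ : GQ)) c

/-- Scalars have finite orbits. -/
theorem galBase_finite_orbit (c : Qb) : (Set.range fun g : ↥Γ => galBase N Γ g c).Finite :=
  (helper3214.finite_range_galois c).subset (by rintro _ ⟨σ, rfl⟩; exact ⟨σ.1, rfl⟩)

/-- Functions have open stabilisers. -/
theorem galFun_open (x : ↥(modularFunctionFieldBar N)) :
    ∃ s : Finset Qb, ∀ g : ↥Γ, (∀ c ∈ s, galBase N Γ g c = c) → galFun N Γ g x = x := by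
  obtain ⟨s, hs⟩ := helper3214.exists_finset_of_hasFiniteLevel
    (Fermat.Agent.S29.helper8527.hasFiniteLevel_smul_elt (modularFunctionFieldFull N) x)
  exact ⟨s, fun σ hσ => hs σ.1 hσ⟩

/-- Functions have finite Galois orbits. -/
theorem finite_orbit (x : ↥(modularFunctionFieldBar N)) :
    (Set.range fun σ : GQ => arithmeticGalois (modularFunctionFieldFull N) σ • x).Finite := by
  classical
  obtain ⟨s, hs⟩ := helper3214.exists_finset_of_hasFiniteLevel
    (Fermat.Agent.S29.helper8527.hasFiniteLevel_smul_elt (modularFunctionFieldFull N) x)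
  have hR : (Set.range fun σ : GQ => fun c : ↥s => σ (c : Qb)).Finite := by
    refine (Set.Finite.pi fun c : ↥s => helper3214.finite_range_galois (c : Qb)).subset ?_
    rintro _ ⟨σ, rfl⟩ c _
    exact ⟨σ, rfl⟩
  have key : ∀ σ σ' : GQ, (∀ c ∈ s, σ' c = σ c) →
      arithmeticGalois (modularFunctionFieldFull N) σ • x
        = arithmeticGalois (modularFunctionFieldFull N) σ' • x := by
    intro σ σ' hag
    have h1 : arithmeticGalois (modularFunctionFieldFull N) (σ⁻¹ * σ') • x = x :=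
      hs _ (fun c hc => by
        rw [AlgEquiv.mul_apply, hag c hc]
        exact σ.symm_apply_apply c)
    have h1' : coeffMap ((σ⁻¹ * σ' : GQ) : Qb →+* Qb) (x : LaurentSeries Qb)
        = (x : LaurentSeries Qb) := congrArg Subtype.val h1
    apply Subtype.ext
    show coeffMap (σ : Qb →+* Qb) (x : LaurentSeries Qb)
      = coeffMap (σ' : Qb →+* Qb) (x : LaurentSeries Qb)
    conv_lhs => rw [← h1', coeffMap_coeffMap]
    refine coeffMap_congr (RingHom.ext fun c => ?_) _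
    change σ (σ.symm (σ' c)) = σ' c
    exact σ.apply_symm_apply _
  have hfac : Function.FactorsThrough
      (fun σ : GQ => arithmeticGalois (modularFunctionFieldFull N) σ • x)
      (fun σ : GQ => fun c : ↥s => σ (c : Qb)) :=
    fun σ σ' h => key σ σ' (fun c hc => (congrFun h ⟨c, hc⟩).symm)
  have hcomp := hfac.extend_comp (fun _ => x)
  rw [← hcomp, Set.range_comp]
  exact hR.image _

end Actions

/-! ## (K1) The Gauss valuation of a rational function is the valuation of a rational constant -/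

section Discrete

variable (N : ℕ) (A : ValuationSubring Qb) (Γ : Subgroup GQ)

/-- **(K1), unit form.**  A nonzero function fixed by a subgroup `Γ` of the inertia group of `A`
has the Gauss valuation of a nonzero `Γ`-fixed constant. -/
theorem exists_fixed_const_val (hΓ : Γ ≤ A.inertiaSubgroupIn ℚ)
    (f : ↥(modularFunctionFieldBar N)) (hf0 : f ≠ 0)
    (hfix : ∀ σ ∈ Γ, arithmeticGalois (modularFunctionFieldFull N) σ • f = f) :
    ∃ c : Qb, c ≠ 0 ∧ (∀ σ ∈ Γ, σ c = c) ∧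
      (helper882.gpRing A N).valuation f = helper882.gpBase A N c := by
  classical
  have hf0' : (f : LaurentSeries Qb) ≠ 0 := fun h => hf0 (Subtype.ext h)
  obtain ⟨c0, X, Y, hc0, hX, hY, hXm, hYm, hrel⟩ :=
    helper8991.exists_normal_form A (IsLocalRing.residue A) N f.2 hf0'
  have hmemA : ∀ σ ∈ Γ, ∀ x ∈ A, σ x ∈ A := fun σ hσ =>
    helper1821.mem_of_mem_inertia A (hΓ hσ)
  -- the finite orbit of the denominator
  let S : Set (LaurentSeries A) := {Z | ∃ (σ : GQ) (hσ : σ ∈ Γ),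
    Z = coeffMap (helper1821.resA A σ (hmemA σ hσ)) Y}
  have hincσ : ∀ (σ : GQ) (hσ : σ ∈ Γ) (Z : LaurentSeries A),
      helper8991.inc A (coeffMap (helper1821.resA A σ (hmemA σ hσ)) Z)
        = coeffMap (σ : Qb →+* Qb) (helper8991.inc A Z) := by
    intro σ hσ Z
    rw [helper8991.inc, coeffMap_coeffMap, coeffMap_coeffMap]
    rfl
  have hSfin : S.Finite := by
    refine Set.Finite.of_finite_image ?_ (helper8991.inc_injective A).injOn
    refine ((finite_orbit N ⟨helper8991.inc A Y, hYm⟩).image Subtype.val).subset ?_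
    rintro _ ⟨Z, ⟨σ, hσ, rfl⟩, rfl⟩
    refine ⟨_, ⟨σ, rfl⟩, ?_⟩
    rw [hincσ σ hσ]
    rfl
  obtain ⟨s, hs⟩ : ∃ s : Finset (LaurentSeries A), s = hSfin.toFinset := ⟨_, rfl⟩
  have hmem : ∀ Z, Z ∈ s ↔ ∃ (σ : GQ) (hσ : σ ∈ Γ),
      Z = coeffMap (helper1821.resA A σ (hmemA σ hσ)) Y := fun Z => by
    rw [hs, Set.Finite.mem_toFinset]
    rfl
  have hYs : Y ∈ s := by
    rw [hmem]
    refine ⟨1, Γ.one_mem, ?_⟩
    rw [helper1821.resA_one, coeffMap_id]
  obtain ⟨Y1, hY1def⟩ : ∃ Y1 : LaurentSeries A, Y1 = ∏ Z ∈ s.erase Y, Z := ⟨_, rfl⟩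
  have hYY1 : Y * Y1 = ∏ Z ∈ s, Z := by
    rw [hY1def]
    exact Finset.mul_prod_erase s (fun Z => Z) hYs
  have hredZ : ∀ Z ∈ s, helper8991.red A (IsLocalRing.residue A) Z
      = helper8991.red A (IsLocalRing.residue A) Y := by
    intro Z hZ
    obtain ⟨σ, hσ, rfl⟩ := (hmem Z).mp hZ
    rw [helper8991.red, coeffMap_coeffMap, helper1821.residue_comp_resA A (hΓ hσ)]
  have hY1 : helper8991.red A (IsLocalRing.residue A) Y1 ≠ 0 := by
    rw [hY1def, map_prod, Finset.prod_eq_pow_card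
      (b := helper8991.red A (IsLocalRing.residue A) Y)
      (fun Z hZ => hredZ Z (Finset.mem_of_mem_erase hZ))]
    exact pow_ne_zero _ hY
  -- the product over the orbit has fixed coefficients
  have hfixP : ∀ τ ∈ Γ, coeffMap (τ : Qb →+* Qb) (helper8991.inc A (∏ Z ∈ s, Z))
      = helper8991.inc A (∏ Z ∈ s, Z) := by
    intro τ hτ
    have hτ' : τ⁻¹ ∈ Γ := Γ.inv_mem hτ
    rw [← hincσ τ hτ]
    congr 1
    rw [map_prod]
    refine Finset.prod_nbij' (fun Z => coeffMap (helper1821.resA A τ (hmemA τ hτ)) Z)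
      (fun Z => coeffMap (helper1821.resA A τ⁻¹ (hmemA τ⁻¹ hτ')) Z) ?_ ?_ ?_ ?_ ?_
    · intro Z hZ
      obtain ⟨σ, hσ, rfl⟩ := (hmem Z).mp hZ
      rw [hmem]
      refine ⟨τ * σ, Γ.mul_mem hτ hσ, ?_⟩
      rw [coeffMap_coeffMap]
      rfl
    · intro Z hZ
      obtain ⟨σ, hσ, rfl⟩ := (hmem Z).mp hZ
      rw [hmem]
      refine ⟨τ⁻¹ * σ, Γ.mul_mem hτ' hσ, ?_⟩
      rw [coeffMap_coeffMap]
      rfl
    · intro Z _
      rw [coeffMap_coeffMap]
      have h1 : (helper1821.resA A τ⁻¹ (hmemA τ⁻¹ hτ')).comp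
          (helper1821.resA A τ (hmemA τ hτ)) = RingHom.id A := by
        ext x
        change τ⁻¹ (τ (x : Qb)) = (x : Qb)
        exact τ.symm_apply_apply _
      rw [h1, coeffMap_id]
    · intro Z _
      rw [coeffMap_coeffMap]
      have h1 : (helper1821.resA A τ (hmemA τ hτ)).comp
          (helper1821.resA A τ⁻¹ (hmemA τ⁻¹ hτ')) = RingHom.id A := by
        ext x
        change τ (τ⁻¹ (x : Qb)) = (x : Qb)
        exact τ.apply_symm_apply _
      rw [h1, coeffMap_id]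
    · intro Z _
      rfl
  -- the new numerator
  obtain ⟨X1, hX1def⟩ : ∃ X1 : LaurentSeries A, X1 = X * Y1 := ⟨_, rfl⟩
  have hX1 : helper8991.red A (IsLocalRing.residue A) X1 ≠ 0 := by
    rw [hX1def, map_mul]
    exact mul_ne_zero hX hY1
  have hrel' : (f : LaurentSeries Qb) * helper8991.inc A (∏ Z ∈ s, Z)
      = HahnSeries.C c0 * helper8991.inc A X1 := by
    rw [← hYY1, hX1def, map_mul, map_mul, ← mul_assoc, hrel, mul_assoc]
  have hcoef : ∀ σ ∈ Γ, ∀ n : ℤ, σ (c0 * ((X1.coeff n : A) : Qb)) = c0 * ((X1.coeff n : A) : Qb) := by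
    intro σ hσ n
    have h1 := congrArg (coeffMap (σ : Qb →+* Qb)) hrel'
    have hfσ : coeffMap (σ : Qb →+* Qb) (f : LaurentSeries Qb) = (f : LaurentSeries Qb) :=
      congrArg Subtype.val (hfix σ hσ)
    rw [map_mul, hfixP σ hσ, hfσ, hrel'] at h1
    have h2 := congrArg (fun z : LaurentSeries Qb => z.coeff n) h1
    simp only [coeffMap_coeff, helper8991.coeff_C_mul] at h2
    exact h2.symm
  -- a unit coefficient of the numerator
  obtain ⟨n, hn⟩ : ∃ n : ℤ, IsLocalRing.residue A (X1.coeff n) ≠ 0 := by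
    by_contra hcon
    push Not at hcon
    apply hX1
    ext n
    rw [helper8991.red_coeff, hcon n]
    rfl
  have hunit : IsUnit (X1.coeff n) := by
    by_contra h
    exact hn ((IsLocalRing.residue_eq_zero_iff _).mpr h)
  have hxA : ((X1.coeff n : A) : Qb) ∈ A := (X1.coeff n).2
  have hxn : ((X1.coeff n : A) : Qb) ∉ A.nonunits := by
    rw [ValuationSubring.coe_mem_nonunits_iff, IsLocalRing.mem_maximalIdeal, mem_nonunits_iff,
      not_not]
    exact hunit
  have hx0 : ((X1.coeff n : A) : Qb) ≠ 0 := by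
    intro h0
    apply hxn
    rw [h0]
    exact helper3214.nonunits_zero A
  have hxval : helper882.gpBase A N ((X1.coeff n : A) : Qb) = 1 :=
    le_antisymm ((helper882.gpBase_le_one_iff A N _).mpr hxA)
      (not_lt.mp fun h => hxn ((helper882.gpBase_lt_one_iff A N _).mp h))
  refine ⟨c0 * ((X1.coeff n : A) : Qb), mul_ne_zero hc0 hx0, fun σ hσ => hcoef σ hσ n, ?_⟩
  rw [map_mul, hxval, mul_one]
  -- the valuation of `f` is the valuation of `c0`
  have hunitF : ∀ (Z : LaurentSeries A)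
      (hZm : helper8991.inc A Z ∈ laurentBaseChange Qb (modularFunctionFieldFull N)),
      helper8991.red A (IsLocalRing.residue A) Z ≠ 0 →
      (helper882.gpRing A N).valuation (⟨helper8991.inc A Z, hZm⟩ : ↥(modularFunctionFieldBar N))
        = 1 := by
    intro Z hZm hZ
    have hmemG := helper8991.inc_mem_gaussF A (IsLocalRing.residue A) N hZm
    have hu : IsUnit (⟨⟨helper8991.inc A Z, hZm⟩, hmemG⟩ :
        ↥(helper8991.gaussF A (IsLocalRing.residue A) N)) := by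
      rw [helper8991.isUnit_iff_gaussFRed_ne_zero, helper8991.gaussFRed_inc]
      exact hZ
    exact (ValuationSubring.valuation_eq_one_iff _ _).mp hu
  have hrelF : f * (⟨helper8991.inc A Y, hYm⟩ : ↥(modularFunctionFieldBar N))
      = algebraMap Qb ↥(modularFunctionFieldBar N) c0 *
        (⟨helper8991.inc A X, hXm⟩ : ↥(modularFunctionFieldBar N)) := by
    apply Subtype.ext
    show (f : LaurentSeries Qb) * helper8991.inc A Y
      = algebraMap Qb (LaurentSeries Qb) c0 * helper8991.inc A X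
    rw [hrel, helper8991.C_eq_algebraMap]
  have h3 := congrArg (helper882.gpRing A N).valuation hrelF
  rw [map_mul, map_mul, hunitF Y hYm hY, hunitF X hXm hX, mul_one, mul_one] at h3
  rw [h3]
  rfl

end Discrete

/-! ## The pair of Gauss valuations -/

section Pair

variable (N : ℕ) (A : ValuationSubring Qb) (Γ : Subgroup GQ)
  (W : ↥(modularFunctionFieldBar N) ≃ₐ[Qb] ↥(modularFunctionFieldBar N))

/-- **(K1) for the pair.**  If `W` commutes with `Γ ≤ inertia`, both Gauss valuations of a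
nonzero `Γ`-fixed function are valuations of nonzero `Γ`-fixed constants. -/
theorem exists_fixed_const_gpVal (hΓ : Γ ≤ A.inertiaSubgroupIn ℚ)
    (hW : ∀ σ ∈ Γ, ∀ z, W (arithmeticGalois (modularFunctionFieldFull N) σ • z)
      = arithmeticGalois (modularFunctionFieldFull N) σ • W z)
    (f : ↥(modularFunctionFieldBar N)) (hf0 : f ≠ 0)
    (hfix : ∀ σ ∈ Γ, arithmeticGalois (modularFunctionFieldFull N) σ • f = f) (i : Fin 2) :
    ∃ c : Qb, c ≠ 0 ∧ (∀ σ ∈ Γ, σ c = c) ∧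
      helper882.gpVal A N W i f = helper882.gpBase A N c := by
  fin_cases i
  · exact exists_fixed_const_val N A Γ hΓ f hf0 hfix
  · have hWf0 : W f ≠ 0 := (map_ne_zero_iff W W.injective).mpr hf0
    have hWfix : ∀ σ ∈ Γ, arithmeticGalois (modularFunctionFieldFull N) σ • W f = W f :=
      fun σ hσ => by rw [← hW σ hσ, hfix σ hσ]
    exact exists_fixed_const_val N A Γ hΓ (W f) hWf0 hWfix

variable {N A Γ}

/-- **Value group of the rational constants.**  If every `Γ`-fixed constant of the maximal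
ideal of `A` is divisible in `A` by the `Γ`-fixed constant `ϖ`, the valuation of a nonzero
`Γ`-fixed constant is an integral power of the valuation of `ϖ`. -/
theorem exists_zpow_gpBase_of_unif {q : ℕ} (hq : q.Prime) (hqA : (q : Qb) ∈ A.nonunits)
    {ϖ : Qb} (hϖ0 : ϖ ≠ 0) (hϖA : ϖ ∈ A.nonunits) (hϖfix : ∀ σ ∈ Γ, σ ϖ = ϖ)
    (hunif : ∀ c : Qb, (∀ σ ∈ Γ, σ c = c) → c ∈ A.nonunits → ϖ⁻¹ * c ∈ A)
    (c : Qb) (hc0 : c ≠ 0) (hcfix : ∀ σ ∈ Γ, σ c = c) :
    ∃ m : ℤ, helper882.gpBase A N c = helper882.gpBase A N ϖ ^ m := by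
  have hϖ1 : helper882.gpBase A N ϖ < 1 := (helper882.gpBase_lt_one_iff A N ϖ).mpr hϖA
  have key : ∀ n : ℕ, ∀ c : Qb, c ≠ 0 → (∀ σ ∈ Γ, σ c = c) → c ∈ A →
      helper882.gpBase A N ϖ ^ n < helper882.gpBase A N c →
      ∃ m : ℕ, helper882.gpBase A N c = helper882.gpBase A N ϖ ^ m := by
    intro n
    induction n with
    | zero =>
      intro c _ _ hcA hlt
      rw [pow_zero] at hlt
      exact absurd ((helper882.gpBase_le_one_iff A N c).mpr hcA) (not_le.mpr hlt)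
    | succ n ih =>
      intro c hc0 hcfix hcA hlt
      by_cases hcu : c ∈ A.nonunits
      · have hϖv0 : helper882.gpBase A N ϖ ≠ 0 := (Valuation.ne_zero_iff _).mpr hϖ0
        have hc' := hunif c hcfix hcu
        have hc'0 : ϖ⁻¹ * c ≠ 0 := mul_ne_zero (inv_ne_zero hϖ0) hc0
        have hc'fix : ∀ σ ∈ Γ, σ (ϖ⁻¹ * c) = ϖ⁻¹ * c := fun σ hσ => by
          rw [map_mul, map_inv₀, hϖfix σ hσ, hcfix σ hσ]
        have hval : helper882.gpBase A N c
            = helper882.gpBase A N ϖ * helper882.gpBase A N (ϖ⁻¹ * c) := by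
          rw [← map_mul, mul_inv_cancel_left₀ hϖ0]
        have hlt' : helper882.gpBase A N ϖ ^ n < helper882.gpBase A N (ϖ⁻¹ * c) := by
          rw [hval, pow_succ'] at hlt
          exact lt_of_mul_lt_mul_left' hlt
        obtain ⟨m, hm⟩ := ih (ϖ⁻¹ * c) hc'0 hc'fix hc' hlt'
        exact ⟨m + 1, by rw [hval, hm, pow_succ']⟩
      · refine ⟨0, ?_⟩
        rw [pow_zero]
        exact le_antisymm ((helper882.gpBase_le_one_iff A N c).mpr hcA)
          (not_lt.mp fun h => hcu ((helper882.gpBase_lt_one_iff A N c).mp h))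
  have harch : ∀ c : Qb, c ≠ 0 →
      ∃ n : ℕ, helper882.gpBase A N ϖ ^ n < helper882.gpBase A N c := fun c hc0 =>
    helper882.gp_arch A N hq hqA _ _ hϖ1 ((Valuation.ne_zero_iff _).mpr hc0)
  rcases A.mem_or_inv_mem c with hcA | hcA
  · obtain ⟨n, hn⟩ := harch c hc0
    obtain ⟨m, hm⟩ := key n c hc0 hcfix hcA hn
    exact ⟨m, by rw [hm, zpow_natCast]⟩
  · have hc0' : c⁻¹ ≠ 0 := inv_ne_zero hc0
    have hcfix' : ∀ σ ∈ Γ, σ c⁻¹ = c⁻¹ := fun σ hσ => by rw [map_inv₀, hcfix σ hσ]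
    obtain ⟨n, hn⟩ := harch c⁻¹ hc0'
    obtain ⟨m, hm⟩ := key n c⁻¹ hc0' hcfix' hcA hn
    refine ⟨-(m : ℤ), ?_⟩
    rw [zpow_neg, zpow_natCast, ← hm, map_inv₀, inv_inv]

variable (N A Γ) in
/-- The bundle of hypotheses "`ϖ` is a uniformiser of the `Γ`-rational constants". -/
structure IsUnif (ϖ : Qb) : Prop where
  ne_zero : ϖ ≠ 0
  mem : ϖ ∈ A.nonunits
  fixed : ∀ σ ∈ Γ, σ ϖ = ϖ
  div : ∀ c : Qb, (∀ σ ∈ Γ, σ c = c) → c ∈ A.nonunits → ϖ⁻¹ * c ∈ A

/-- **(K1′)** Both Gauss valuations of a nonzero `Γ`-fixed function are integral powers of the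
valuation of the uniformiser. -/
theorem exists_zpow_gpVal {q : ℕ} (hq : q.Prime) (hqA : (q : Qb) ∈ A.nonunits)
    (hΓ : Γ ≤ A.inertiaSubgroupIn ℚ)
    (hW : ∀ σ ∈ Γ, ∀ z, W (arithmeticGalois (modularFunctionFieldFull N) σ • z)
      = arithmeticGalois (modularFunctionFieldFull N) σ • W z)
    {ϖ : Qb} (hϖ : IsUnif A Γ ϖ)
    (f : ↥(modularFunctionFieldBar N)) (hf0 : f ≠ 0)
    (hfix : ∀ σ ∈ Γ, arithmeticGalois (modularFunctionFieldFull N) σ • f = f) (i : Fin 2) :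
    ∃ m : ℤ, helper882.gpVal A N W i f = helper882.gpBase A N ϖ ^ m := by
  obtain ⟨c, hc0, hcfix, hc⟩ := exists_fixed_const_gpVal N A Γ W hΓ hW f hf0 hfix i
  obtain ⟨m, hm⟩ := exists_zpow_gpBase_of_unif (N := N) hq hqA hϖ.ne_zero hϖ.mem hϖ.fixed hϖ.div c hc0 hcfix
  exact ⟨m, by rw [hc, hm]⟩

/-- **Discreteness (`hdiv`).**  A `Γ`-fixed function which is strictly smaller than the
`Γ`-fixed function `h` at both valuations is smaller by the factor `|ϖ|`. -/
theorem gpVal_le_unif_mul (hΓ : Γ ≤ A.inertiaSubgroupIn ℚ)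
    (hW : ∀ σ ∈ Γ, ∀ z, W (arithmeticGalois (modularFunctionFieldFull N) σ • z)
      = arithmeticGalois (modularFunctionFieldFull N) σ • W z)
    {ϖ : Qb} (hϖ : IsUnif A Γ ϖ)
    (h : ↥(modularFunctionFieldBar N)) (hh0 : h ≠ 0)
    (hhfix : ∀ σ ∈ Γ, arithmeticGalois (modularFunctionFieldFull N) σ • h = h)
    (f : ↥(modularFunctionFieldBar N))
    (hfix : ∀ σ ∈ Γ, arithmeticGalois (modularFunctionFieldFull N) σ • f = f)
    (hlt : ∀ i, helper882.gpVal A N W i f < helper882.gpVal A N W i h) (i : Fin 2) :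
    helper882.gpVal A N W i f ≤ helper882.gpBase A N ϖ * helper882.gpVal A N W i h := by
  by_cases hf0 : f = 0
  · rw [hf0, map_zero]
    exact zero_le
  have hh0' : helper882.gpVal A N W i h ≠ 0 := (Valuation.ne_zero_iff _).mpr hh0
  have hgfix : ∀ σ ∈ Γ, arithmeticGalois (modularFunctionFieldFull N) σ • (f * h⁻¹) = f * h⁻¹ := by
    intro σ hσ
    have h1 : galFun N Γ ⟨σ, hσ⟩ (f * h⁻¹) = galFun N Γ ⟨σ, hσ⟩ f * (galFun N Γ ⟨σ, hσ⟩ h)⁻¹ := by
      rw [map_mul, map_inv₀]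
    rw [galFun_apply, galFun_apply, galFun_apply] at h1
    rw [h1, hfix σ hσ, hhfix σ hσ]
  obtain ⟨c, hc0, hcfix, hc⟩ := exists_fixed_const_gpVal N A Γ W hΓ hW (f * h⁻¹)
    (mul_ne_zero hf0 (inv_ne_zero hh0)) hgfix i
  have hlt1 : helper882.gpBase A N c < 1 := by
    rw [← hc, map_mul, map_inv₀]
    exact (mul_inv_lt_iff₀ (zero_lt_iff.mpr hh0')).mpr (by rw [one_mul]; exact hlt i)
  have hcA := hϖ.div c hcfix ((helper882.gpBase_lt_one_iff A N c).mp hlt1)
  have hϖv0 : helper882.gpBase A N ϖ ≠ 0 := (Valuation.ne_zero_iff _).mpr hϖ.ne_zero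
  have h2 : helper882.gpBase A N c ≤ helper882.gpBase A N ϖ := by
    have h3 := (helper882.gpBase_le_one_iff A N _).mpr hcA
    rw [map_mul, map_inv₀] at h3
    exact (inv_mul_le_one₀ (zero_lt_iff.mpr hϖv0)).mp h3
  have h4 : helper882.gpVal A N W i f
      = helper882.gpBase A N c * helper882.gpVal A N W i h := by
    rw [← hc, map_mul, map_inv₀, inv_mul_cancel_right₀ hh0']
  rw [h4]
  exact mul_le_mul_left h2 _

end Pair

/-! ## (K3) Fixed cartesian bases of twisted lattices -/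

section Lattice

variable (N : ℕ) (A : ValuationSubring Qb) (Γ : Subgroup GQ)
  (W : ↥(modularFunctionFieldBar N) ≃ₐ[Qb] ↥(modularFunctionFieldBar N))

/-- **The rational lattice statement.**  `V` has a basis `f` of `Γ`-fixed functions which is
orthonormal for the pair of Gauss valuations with weights `w i = gpVal i h`
(`S35.helper2459.CartesianW` shape, all radii), every element of the twisted ball
`{x ∈ V | ∀ i, v i x ≤ v i h}` is congruent modulo the open ball to a `Γ`-fixed element of the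
ball, and the `Γ`-fixed elements of the ball are the combinations of the `f j` with `Γ`-fixed
coefficients in `A`. -/
def HasFixedCartesian (h : ↥(modularFunctionFieldBar N))
    (V : Submodule Qb ↥(modularFunctionFieldBar N)) : Prop :=
  ∃ (n : ℕ) (f : Fin n → ↥(modularFunctionFieldBar N)),
    (∀ j, f j ∈ V) ∧
    (∀ j, ∀ σ ∈ Γ, arithmeticGalois (modularFunctionFieldFull N) σ • f j = f j) ∧
    (∀ j i, helper882.gpVal A N W i (f j) ≤ helper882.gpVal A N W i h) ∧
    (∀ (c : Fin n → Qb) (r : (helper882.gpRing A N).ValueGroup),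
      (∀ i, helper882.gpVal A N W i (∑ j, c j • f j) ≤ r * helper882.gpVal A N W i h) →
      ∀ j, helper882.gpBase A N (c j) ≤ r) ∧
    Submodule.span Qb (Set.range f) = V ∧
    (∀ x ∈ V, (∀ i, helper882.gpVal A N W i x ≤ helper882.gpVal A N W i h) →
      ∃ x0 ∈ V, (∀ i, helper882.gpVal A N W i x0 ≤ helper882.gpVal A N W i h) ∧
        (∀ σ ∈ Γ, arithmeticGalois (modularFunctionFieldFull N) σ • x0 = x0) ∧
        ∀ i, helper882.gpVal A N W i (x - x0) < helper882.gpVal A N W i h) ∧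
    (∀ x ∈ V, (∀ i, helper882.gpVal A N W i x ≤ helper882.gpVal A N W i h) →
      (∀ σ ∈ Γ, arithmeticGalois (modularFunctionFieldFull N) σ • x = x) →
      ∃ a : Fin n → Qb, (∀ j, a j ∈ A) ∧ (∀ j, ∀ σ ∈ Γ, σ (a j) = a j) ∧
        x = ∑ j, a j • f j)

variable {N A Γ W}

/-- **(K3) Fixed cartesian bases of twisted lattices.**  Let `Γ ≤ inertia` commute with `W`,
let `ϖ` be a uniformiser of the `Γ`-rational constants, and assume the cartesian property of
the pair over `(ℚ̄, A)` (weights `1`; landed at level `p * M` as `helper882.gp_cartesianW`).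
Then for every `Γ`-fixed twist `h ≠ 0` and every finite-dimensional `Γ`-stable subspace `V`
the rational lattice statement `HasFixedCartesian` holds. -/
theorem gp_exists_fixed_cartesian {q : ℕ} (hq : q.Prime) (hqA : (q : Qb) ∈ A.nonunits)
    (hΓ : Γ ≤ A.inertiaSubgroupIn ℚ)
    (hW : ∀ σ ∈ Γ, ∀ z, W (arithmeticGalois (modularFunctionFieldFull N) σ • z)
      = arithmeticGalois (modularFunctionFieldFull N) σ • W z)
    {ϖ : Qb} (hϖ : IsUnif A Γ ϖ)
    (hcart : ∀ S : Submodule Qb ↥(modularFunctionFieldBar N), FiniteDimensional Qb S →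
      helper2459.CartesianW (helper882.gpVal A N W)
        (fun _ => (1 : (helper882.gpRing A N).ValueGroup)) (helper882.gpBase A N) S)
    (h : ↥(modularFunctionFieldBar N)) (hh0 : h ≠ 0)
    (hhfix : ∀ σ ∈ Γ, arithmeticGalois (modularFunctionFieldFull N) σ • h = h)
    (V : Submodule Qb ↥(modularFunctionFieldBar N)) [FiniteDimensional Qb V]
    (hV : ∀ σ ∈ Γ, ∀ f ∈ V, arithmeticGalois (modularFunctionFieldFull N) σ • f ∈ V) :
    HasFixedCartesian N A Γ W h V := by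
  classical
  -- the untwisted space `h⁻¹ V`
  obtain ⟨V', hV'⟩ : ∃ V' : Submodule Qb ↥(modularFunctionFieldBar N),
      V' = V.map (LinearMap.mulLeft Qb h⁻¹) := ⟨_, rfl⟩
  have hV'fin : FiniteDimensional Qb V' := by
    rw [hV']
    infer_instance
  have hmemV' : ∀ y, y ∈ V' ↔ ∃ x ∈ V, h⁻¹ * x = y := fun y => by
    rw [hV', Submodule.mem_map]
    rfl
  obtain ⟨n, e', he'V, he'1, horth', hspan'⟩ := hcart V' hV'fin
  have hhv0 : ∀ i, helper882.gpVal A N W i h ≠ 0 := fun i => (Valuation.ne_zero_iff _).mpr hh0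
  have heV : ∀ j, h * e' j ∈ V := by
    intro j
    obtain ⟨x, hx, hxe⟩ := (hmemV' _).mp (he'V j)
    rw [← hxe, mul_inv_cancel_left₀ hh0]
    exact hx
  have he1 : ∀ j i, helper882.gpVal A N W i (h * e' j) ≤ helper882.gpVal A N W i h := by
    intro j i
    rw [map_mul]
    exact mul_le_of_le_one_right' (he'1 j i)
  have hsum : ∀ c : Fin n → Qb, ∑ j, c j • (h * e' j) = h * ∑ j, c j • e' j := by
    intro c
    rw [Finset.mul_sum]
    exact Finset.sum_congr rfl fun j _ => by rw [mul_smul_comm]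
  have horth : ∀ (c : Fin n → Qb) (r : (helper882.gpRing A N).ValueGroup),
      (∀ i, helper882.gpVal A N W i (∑ j, c j • (h * e' j)) ≤ r * helper882.gpVal A N W i h) →
      ∀ j, helper882.gpBase A N (c j) ≤ r := by
    intro c r hr
    refine horth' c r fun i => ?_
    have h1 := hr i
    rw [hsum, map_mul, mul_comm] at h1
    rw [mul_one]
    exact le_of_mul_le_mul_right h1 (zero_lt_iff.mpr (hhv0 i))
  have hspan : Submodule.span Qb (Set.range fun j => h * e' j) = V := by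
    apply le_antisymm
    · exact Submodule.span_le.mpr (by rintro _ ⟨j, rfl⟩; exact heV j)
    · intro x hx
      have hx' : h⁻¹ * x ∈ V' := (hmemV' _).mpr ⟨x, hx, rfl⟩
      rw [← hspan'] at hx'
      obtain ⟨c, hc⟩ := (Submodule.mem_span_range_iff_exists_fun Qb).mp hx'
      have hxe : x = ∑ j, c j • (h * e' j) := by
        rw [hsum, hc, mul_inv_cancel_left₀ hh0]
      rw [hxe]
      exact Submodule.sum_mem _ fun j _ =>
        Submodule.smul_mem _ _ (Submodule.subset_span ⟨j, rfl⟩)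
  have hϖ1 : helper882.gpBase A N ϖ < 1 := (helper882.gpBase_lt_one_iff A N ϖ).mpr hϖ.mem
  have harch : ∀ x : Qb, x ≠ 0 →
      ∃ m : ℕ, helper882.gpBase A N ϖ ^ m * helper882.gpBase A N x ≤ 1 := by
    intro x hx0
    have hx0' : helper882.gpBase A N x ≠ 0 := (Valuation.ne_zero_iff _).mpr hx0
    obtain ⟨m, hm⟩ := helper882.gp_arch A N hq hqA _ _ hϖ1 (inv_ne_zero hx0')
    refine ⟨m, ?_⟩
    have h1 := mul_lt_mul_of_pos_right hm (zero_lt_iff.mpr hx0')
    rw [inv_mul_cancel₀ hx0'] at h1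
    exact h1.le
  have hres : ∀ a ∈ A, ∃ r ∈ A, (∀ g : ↥Γ, galBase N Γ g r = r) ∧ a - r ∈ A.nonunits := by
    intro a ha
    obtain ⟨r, hr, hn⟩ := helper1821.exists_sub_mem_nonunits hq hqA ha
    exact ⟨r, hr.1, fun g => hr.2 g.1 (hΓ g.2), hn⟩
  obtain ⟨f, hfV, hffix, hfB, hforth, hfspan, hlift, hlat⟩ :=
    exists_fixed_cartesian (galBase N Γ) (galFun N Γ) (galFun_compat N Γ)
      (helper882.gpVal_algebraMap A N W) hhv0
      (helper882.gpBase_le_one_iff A N) (helper882.gpBase_lt_one_iff A N)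
      hϖ.ne_zero hϖ1 (fun g => hϖ.fixed g.1 g.2) harch hres
      (fun f hffix hlt i => gpVal_le_unif_mul W hΓ hW hϖ h hh0 hhfix f
        (fun σ hσ => hffix ⟨σ, hσ⟩) hlt i)
      V (fun g f hf => hV g.1 g.2 f hf)
      (galBase_finite_orbit N Γ) (fun x _ => galFun_open N Γ x)
      (fun j => h * e' j) he1 horth hspan
  refine ⟨n, f, hfV, fun j σ hσ => hffix j ⟨σ, hσ⟩, hfB, hforth, hfspan, ?_, ?_⟩
  · intro x hxV hxB
    obtain ⟨x0, hx0V, hx0B, hx0fix, hx0⟩ := hlift x hxV hxB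
    exact ⟨x0, hx0V, hx0B, fun σ hσ => hx0fix ⟨σ, hσ⟩, hx0⟩
  · intro x hxV hxB hxfix
    obtain ⟨a, haA, hafix, hxa⟩ := hlat x hxV hxB (fun g => hxfix g.1 g.2)
    exact ⟨a, fun j => (helper882.gpBase_le_one_iff A N _).mp (haA j),
      fun j σ hσ => hafix j ⟨σ, hσ⟩, hxa⟩

end Lattice

/-! ## (K2) Base change from `K₀ = ℚ̄^Γ₀` to `K₀(ϖ)` -/

section BaseChange

/-- The stabiliser of a constant `ϖ` in a subgroup `Γ₀` of the Galois group
(`= Gal(ℚ̄ / K₀(ϖ))` for `K₀ = ℚ̄^Γ₀`). -/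
def stab (Γ₀ : Subgroup GQ) (ϖ : Qb) : Subgroup GQ where
  carrier := {σ | σ ∈ Γ₀ ∧ σ ϖ = ϖ}
  mul_mem' := fun {a b} ha hb =>
    ⟨Γ₀.mul_mem ha.1 hb.1, by rw [AlgEquiv.mul_apply, hb.2, ha.2]⟩
  one_mem' := ⟨Γ₀.one_mem, rfl⟩
  inv_mem' := fun {a} ha => ⟨Γ₀.inv_mem ha.1, by
    have h1 : a.symm (a ϖ) = ϖ := a.symm_apply_apply ϖ
    rw [ha.2] at h1
    exact h1⟩

theorem mem_stab {Γ₀ : Subgroup GQ} {ϖ : Qb} {σ : GQ} :
    σ ∈ stab Γ₀ ϖ ↔ σ ∈ Γ₀ ∧ σ ϖ = ϖ := Iff.rfl

theorem stab_le (Γ₀ : Subgroup GQ) (ϖ : Qb) : stab Γ₀ ϖ ≤ Γ₀ := fun _ h => h.1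

variable (N : ℕ) {A : ValuationSubring Qb} {Γ₀ : Subgroup GQ}
  {W : ↥(modularFunctionFieldBar N) ≃ₐ[Qb] ↥(modularFunctionFieldBar N)}

/-- **(K2), existence.**  Let `x` enumerate the `Γ₀`-orbit of the constant `ϖ` (`e` elements).
Every function fixed by the stabiliser of `ϖ` (i.e. `K₀(ϖ)`-rational) is
`∑ i < e, ϖ ^ i • g i` with `Γ₀`-fixed (`K₀`-rational) functions `g i`, which lie in every
`Γ₀`-stable `ℚ̄`-subspace containing `f` (e.g. a Riemann-Roch space of a `Γ₀`-stable divisor). -/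
theorem gp_exists_fixed_decomp (ϖ : Qb) {e : ℕ} (x : Fin e → Qb) (hx : Function.Injective x)
    (hxorb : Set.range x = Set.range fun σ : ↥Γ₀ => (σ : GQ) ϖ)
    (f : ↥(modularFunctionFieldBar N))
    (hf : ∀ σ ∈ stab Γ₀ ϖ, arithmeticGalois (modularFunctionFieldFull N) σ • f = f) :
    ∃ g : Fin e → ↥(modularFunctionFieldBar N),
      (∀ i, ∀ σ ∈ Γ₀, arithmeticGalois (modularFunctionFieldFull N) σ • g i = g i) ∧
      f = ∑ i : Fin e, ϖ ^ (i : ℕ) • g i ∧
      ∀ V : Submodule Qb ↥(modularFunctionFieldBar N),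
        (∀ σ ∈ Γ₀, ∀ f' ∈ V, arithmeticGalois (modularFunctionFieldFull N) σ • f' ∈ V) →
        f ∈ V → ∀ i, g i ∈ V := by
  obtain ⟨g, hg, hfg, hgV⟩ := exists_fixed_decomp (galBase N Γ₀) (galFun N Γ₀)
    (galFun_compat N Γ₀) ϖ x hx hxorb f (fun g hg => hf g.1 ⟨g.2, hg⟩)
  exact ⟨g, fun i σ hσ => hg i ⟨σ, hσ⟩, hfg,
    fun V hV hfV i => hgV V (fun γ f' hf' => hV γ.1 γ.2 f' hf') hfV i⟩

/-- **(K2), uniqueness.** -/
theorem gp_fixed_decomp_unique (ϖ : Qb) {e : ℕ} (x : Fin e → Qb) (hx : Function.Injective x)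
    (hxorb : Set.range x = Set.range fun σ : ↥Γ₀ => (σ : GQ) ϖ)
    (g g' : Fin e → ↥(modularFunctionFieldBar N))
    (hg : ∀ i, ∀ σ ∈ Γ₀, arithmeticGalois (modularFunctionFieldFull N) σ • g i = g i)
    (hg' : ∀ i, ∀ σ ∈ Γ₀, arithmeticGalois (modularFunctionFieldFull N) σ • g' i = g' i)
    (h : ∑ i : Fin e, ϖ ^ (i : ℕ) • g i = ∑ i : Fin e, ϖ ^ (i : ℕ) • g' i) : g = g' :=
  fixed_decomp_unique (galBase N Γ₀) (galFun N Γ₀) (galFun_compat N Γ₀) ϖ x hx hxorb g g'
    (fun i γ => hg i γ.1 γ.2) (fun i γ => hg' i γ.1 γ.2) h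

variable {N}

/-- **(K2), valuations.**  If `ℓ₀` is a uniformiser of the `Γ₀`-rational constants and
`|ϖ| ^ e = |ℓ₀|`, then for `Γ₀`-fixed `g i` (`i < e`) both Gauss valuations satisfy
`v (∑ ϖ ^ i • g i) = max_i |ϖ| ^ i * v (g i)`. -/
theorem gpVal_sum_pow_smul_le_iff {q : ℕ} (hq : q.Prime) (hqA : (q : Qb) ∈ A.nonunits)
    (hΓ₀ : Γ₀ ≤ A.inertiaSubgroupIn ℚ)
    (hW : ∀ σ ∈ Γ₀, ∀ z, W (arithmeticGalois (modularFunctionFieldFull N) σ • z)
      = arithmeticGalois (modularFunctionFieldFull N) σ • W z)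
    {ℓ₀ : Qb} (hℓ₀ : IsUnif A Γ₀ ℓ₀)
    {ϖ : Qb} (hϖ0 : ϖ ≠ 0) (hϖA : ϖ ∈ A.nonunits) {e : ℕ}
    (hϖe : helper882.gpBase A N ϖ ^ e = helper882.gpBase A N ℓ₀)
    (g : Fin e → ↥(modularFunctionFieldBar N))
    (hg : ∀ i, ∀ σ ∈ Γ₀, arithmeticGalois (modularFunctionFieldFull N) σ • g i = g i)
    (i0 : Fin 2) (r : (helper882.gpRing A N).ValueGroup) :
    helper882.gpVal A N W i0 (∑ i : Fin e, ϖ ^ (i : ℕ) • g i) ≤ r ↔
      ∀ i : Fin e, helper882.gpBase A N ϖ ^ (i : ℕ) * helper882.gpVal A N W i0 (g i) ≤ r :=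
  val_sum_pow_smul_le_iff (helper882.gpVal A N W i0) (helper882.gpBase A N)
    (helper882.gpVal_algebraMap A N W i0) hϖ0 ((helper882.gpBase_lt_one_iff A N ϖ).mpr hϖA) hϖe g
    (fun i hgi => exists_zpow_gpVal W hq hqA hΓ₀ hW hℓ₀ (g i) hgi (hg i) i0) r

/-- **(K2), integrality.**  In the situation of `gpVal_sum_pow_smul_le_iff`, if the sum is
integral for one of the Gauss valuations, so is every component: the Gauss ring of `K₀(ϖ)` is
`⊕ i < e, ϖ ^ i • (Gauss ring of K₀)`. -/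
theorem gpVal_le_one_of_sum_pow_smul {q : ℕ} (hq : q.Prime) (hqA : (q : Qb) ∈ A.nonunits)
    (hΓ₀ : Γ₀ ≤ A.inertiaSubgroupIn ℚ)
    (hW : ∀ σ ∈ Γ₀, ∀ z, W (arithmeticGalois (modularFunctionFieldFull N) σ • z)
      = arithmeticGalois (modularFunctionFieldFull N) σ • W z)
    {ℓ₀ : Qb} (hℓ₀ : IsUnif A Γ₀ ℓ₀)
    {ϖ : Qb} (hϖ0 : ϖ ≠ 0) (hϖA : ϖ ∈ A.nonunits) {e : ℕ}
    (hϖe : helper882.gpBase A N ϖ ^ e = helper882.gpBase A N ℓ₀)
    (g : Fin e → ↥(modularFunctionFieldBar N))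
    (hg : ∀ i, ∀ σ ∈ Γ₀, arithmeticGalois (modularFunctionFieldFull N) σ • g i = g i)
    (i0 : Fin 2)
    (h : helper882.gpVal A N W i0 (∑ i : Fin e, ϖ ^ (i : ℕ) • g i) ≤ 1) :
    ∀ i, helper882.gpVal A N W i0 (g i) ≤ 1 :=
  val_le_one_of_sum_pow_smul (helper882.gpVal A N W i0) (helper882.gpBase A N)
    (helper882.gpVal_algebraMap A N W i0) hϖ0 ((helper882.gpBase_lt_one_iff A N ϖ).mpr hϖA) hϖe g
    (fun i hgi => exists_zpow_gpVal W hq hqA hΓ₀ hW hℓ₀ (g i) hgi (hg i) i0) h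

variable (N) in
/-- **The uniformiser of `K₀(ϖ)`.**  If `ℓ₀` is a uniformiser of the `Γ₀`-rational constants,
the `Γ₀`-orbit of `ϖ` has `e` elements and `|ϖ| ^ e = |ℓ₀|` (totally ramified of degree `e`),
then `ϖ` is a uniformiser of the constants fixed by the stabiliser of `ϖ`. -/
theorem isUnif_stab {q : ℕ} (hq : q.Prime) (hqA : (q : Qb) ∈ A.nonunits)
    {ℓ₀ : Qb} (hℓ₀ : IsUnif A Γ₀ ℓ₀)
    {ϖ : Qb} (hϖ0 : ϖ ≠ 0) (hϖA : ϖ ∈ A.nonunits) {e : ℕ} (x : Fin e → Qb)
    (hx : Function.Injective x)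
    (hxorb : Set.range x = Set.range fun σ : ↥Γ₀ => (σ : GQ) ϖ)
    (hϖe : helper882.gpBase A N ϖ ^ e = helper882.gpBase A N ℓ₀) :
    IsUnif A (stab Γ₀ ϖ) ϖ where
  ne_zero := hϖ0
  mem := hϖA
  fixed := fun _ hσ => hσ.2
  div := by
    intro c hcfix hcA
    obtain ⟨a, hafix, hca, -⟩ := exists_fixed_decomp (galBase N Γ₀) (galBase N Γ₀)
      (fun _ _ => rfl) ϖ x hx hxorb c (fun g hg => hcfix g.1 ⟨g.2, hg⟩)
    have hϖ1 : helper882.gpBase A N ϖ < 1 := (helper882.gpBase_lt_one_iff A N ϖ).mpr hϖA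
    have hϖv0 : helper882.gpBase A N ϖ ≠ 0 := (Valuation.ne_zero_iff _).mpr hϖ0
    have hval : ∀ i, a i ≠ 0 →
        ∃ m : ℤ, helper882.gpBase A N (a i) = helper882.gpBase A N ℓ₀ ^ m := fun i hai =>
      exists_zpow_gpBase_of_unif (N := N) hq hqA hℓ₀.ne_zero hℓ₀.mem hℓ₀.fixed hℓ₀.div (a i) hai
        (fun σ hσ => hafix i ⟨σ, hσ⟩)
    have h1 := val_sum_pow_smul_le_of_lt_one (helper882.gpBase A N) (helper882.gpBase A N)
      (fun _ => rfl) hϖ0 hϖ1 hϖe a hval
      (by rw [← hca]; exact (helper882.gpBase_lt_one_iff A N c).mpr hcA)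
    rw [← hca] at h1
    rw [← helper882.gpBase_le_one_iff A N, map_mul, map_inv₀]
    exact (inv_mul_le_one₀ (zero_lt_iff.mpr hϖv0)).mpr h1

/-- **The uniformiser of `K₀ = ℚ̄^I`.**  The prime `p` is a uniformiser of the inertia-fixed
constants (landed `S19.helper1821` (B1)). -/
theorem isUnif_inertia {p : ℕ} (hp : p.Prime) (hA : A.LiesOverPrime p) :
    IsUnif A (A.inertiaSubgroupIn ℚ) (p : Qb) where
  ne_zero := Nat.cast_ne_zero.mpr hp.ne_zero
  mem := hA
  fixed := fun σ _ => map_natCast σ p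
  div := by
    intro c hcfix hcA
    obtain ⟨y, hy, hcy⟩ := helper1821.natCast_dvd_of_mem_nonunits hp hA (x := c)
      ⟨helper3214.nonunits_mem A hcA, hcfix⟩ hcA
    rw [hcy, inv_mul_cancel_left₀ (Nat.cast_ne_zero.mpr hp.ne_zero)]
    exact hy.1

end BaseChange

/-! ## The instance at level `p * M`, `A` over `p` (`q = p`: the bad fibre of `X₀(p M)`) -/

section LevelPM

variable (p M : ℕ) [Fact p.Prime] [NeZero M] (hpM : ¬ p ∣ M) (A : ValuationSubring Qb)

/-- The Atkin–Lehner involution `W_p` commutes with the arithmetic Galois action. -/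
theorem wAL_arithmeticGalois_smul (σ : GQ) (z : ↥(modularFunctionFieldBar (p * M))) :
    helper1928.wAL p M hpM (arithmeticGalois (modularFunctionFieldFull (p * M)) σ • z)
      = arithmeticGalois (modularFunctionFieldFull (p * M)) σ • helper1928.wAL p M hpM z := by
  have : NeZero p := ⟨(Fact.out : p.Prime).ne_zero⟩
  exact helper1219.atkinLehnerBar_arithmeticGalois_smul p M _ σ z

/-- A constant `u` with `u, u⁻¹ ∈ A` and `u ≠ 0` has valuation one. -/
theorem gpBase_eq_one_of_unit (N : ℕ) {A : ValuationSubring Qb} {u : Qb} (hu0 : u ≠ 0)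
    (hu : u ∈ A) (hu' : u⁻¹ ∈ A) : helper882.gpBase A N u = 1 := by
  apply le_antisymm ((helper882.gpBase_le_one_iff A N u).mpr hu)
  have h1 := (helper882.gpBase_le_one_iff A N u⁻¹).mpr hu'
  rw [map_inv₀] at h1
  exact (inv_le_one₀ (zero_lt_iff.mpr ((Valuation.ne_zero_iff _).mpr hu0))).mp h1

omit [Fact p.Prime] in
/-- `|ϖ| ^ e = |p|` from `ϖ ^ e = p * unit`. -/
theorem gpBase_pow_eq_of_eq_mul_unit (N : ℕ) {A : ValuationSubring Qb} {ϖ u : Qb} (hϖ0 : ϖ ≠ 0)
    {e : ℕ} (hu : u ∈ A) (hu' : u⁻¹ ∈ A) (hϖe : ϖ ^ e = (p : Qb) * u) :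
    helper882.gpBase A N ϖ ^ e = helper882.gpBase A N (p : Qb) := by
  have hu0 : u ≠ 0 := by
    rintro rfl
    rw [mul_zero] at hϖe
    exact pow_ne_zero e hϖ0 hϖe
  rw [← map_pow, hϖe, map_mul, gpBase_eq_one_of_unit N hu0 hu hu', mul_one]

/-- **(K1′) over `K₀`, level `p * M`.**  Both Gauss valuations of a nonzero inertia-fixed
function are integral powers of `|p|` (`e = 1`). -/
theorem geomK0_exists_zpow (hA : A.LiesOverPrime p)
    (f : ↥(modularFunctionFieldBar (p * M))) (hf0 : f ≠ 0)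
    (hfix : ∀ σ ∈ A.inertiaSubgroupIn ℚ,
      arithmeticGalois (modularFunctionFieldFull (p * M)) σ • f = f) (i : Fin 2) :
    ∃ m : ℤ, helper882.gpVal A (p * M) (helper1928.wAL p M hpM) i f
      = helper882.gpBase A (p * M) (p : Qb) ^ m :=
  exists_zpow_gpVal (helper1928.wAL p M hpM) (Fact.out : p.Prime) hA le_rfl
    (fun σ _ z => wAL_arithmeticGalois_smul p M hpM σ z) (isUnif_inertia Fact.out hA) f hf0 hfix i

/-- **(K3) over `K₀`, level `p * M`.**  For every inertia-fixed twist `h ≠ 0` and every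
finite-dimensional inertia-stable subspace `V` of `ℚ̄(X₀(p M))`, the twisted lattice
`{x ∈ V | v_∞ x ≤ v_∞ h, v_0 x ≤ v_0 h}` has an orthonormal basis of inertia-fixed functions,
every element of it is congruent modulo the open ball to an inertia-fixed element, and its
inertia-fixed part is free over `O_{K₀} = A^I` on that basis. -/
theorem geomK0_hasFixedCartesian (hA : A.LiesOverPrime p)
    (h : ↥(modularFunctionFieldBar (p * M))) (hh0 : h ≠ 0)
    (hhfix : ∀ σ ∈ A.inertiaSubgroupIn ℚ,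
      arithmeticGalois (modularFunctionFieldFull (p * M)) σ • h = h)
    (V : Submodule Qb ↥(modularFunctionFieldBar (p * M))) [FiniteDimensional Qb V]
    (hV : ∀ σ ∈ A.inertiaSubgroupIn ℚ, ∀ f ∈ V,
      arithmeticGalois (modularFunctionFieldFull (p * M)) σ • f ∈ V) :
    HasFixedCartesian (p * M) A (A.inertiaSubgroupIn ℚ) (helper1928.wAL p M hpM) h V :=
  gp_exists_fixed_cartesian (Fact.out : p.Prime) hA le_rfl
    (fun σ _ z => wAL_arithmeticGalois_smul p M hpM σ z) (isUnif_inertia Fact.out hA)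
    (fun S hS => @helper882.gp_cartesianW p M _ _ hpM A hA S hS) h hh0 hhfix V hV

variable {p M A}

/-- **The uniformiser of `L = K₀(ϖ)`** (`K₀ = ℚ̄^I`): if the inertia orbit of `ϖ` has `e`
elements and `ϖ ^ e = p * unit`, then `ϖ` is a uniformiser of the constants fixed by
`Gal(ℚ̄ / L) = stab I ϖ`. -/
theorem isUnif_stab_inertia (hA : A.LiesOverPrime p)
    {ϖ : Qb} (hϖ0 : ϖ ≠ 0) (hϖA : ϖ ∈ A.nonunits) {e : ℕ} (x : Fin e → Qb)
    (hx : Function.Injective x)
    (hxorb : Set.range x = Set.range fun σ : ↥(A.inertiaSubgroupIn ℚ) => (σ : GQ) ϖ)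
    {u : Qb} (hu : u ∈ A) (hu' : u⁻¹ ∈ A) (hϖe : ϖ ^ e = (p : Qb) * u) :
    IsUnif A (stab (A.inertiaSubgroupIn ℚ) ϖ) ϖ :=
  isUnif_stab 1 (Fact.out : p.Prime) hA (isUnif_inertia Fact.out hA) hϖ0 hϖA x hx hxorb
    (gpBase_pow_eq_of_eq_mul_unit p 1 hϖ0 hu hu' hϖe)

variable (p M) (A) in
/-- **(K1′) over `L = K₀(ϖ)`, level `p * M`.**  Both Gauss valuations of a nonzero
`L`-rational function are integral powers of `|ϖ|`. -/
theorem geomL_exists_zpow (hA : A.LiesOverPrime p)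
    {ϖ : Qb} (hϖ0 : ϖ ≠ 0) (hϖA : ϖ ∈ A.nonunits) {e : ℕ} (x : Fin e → Qb)
    (hx : Function.Injective x)
    (hxorb : Set.range x = Set.range fun σ : ↥(A.inertiaSubgroupIn ℚ) => (σ : GQ) ϖ)
    {u : Qb} (hu : u ∈ A) (hu' : u⁻¹ ∈ A) (hϖe : ϖ ^ e = (p : Qb) * u)
    (f : ↥(modularFunctionFieldBar (p * M))) (hf0 : f ≠ 0)
    (hfix : ∀ σ ∈ stab (A.inertiaSubgroupIn ℚ) ϖ,
      arithmeticGalois (modularFunctionFieldFull (p * M)) σ • f = f) (i : Fin 2) :
    ∃ m : ℤ, helper882.gpVal A (p * M) (helper1928.wAL p M hpM) i f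
      = helper882.gpBase A (p * M) ϖ ^ m :=
  exists_zpow_gpVal (helper1928.wAL p M hpM) (Fact.out : p.Prime) hA (stab_le _ _)
    (fun σ _ z => wAL_arithmeticGalois_smul p M hpM σ z)
    (isUnif_stab_inertia hA hϖ0 hϖA x hx hxorb hu hu' hϖe) f hf0 hfix i

variable (p M) (A) in
/-- **(K3) over `L = K₀(ϖ)`, level `p * M`.**  The rational lattice statement for
`Γ = Gal(ℚ̄ / K₀(ϖ))`, `ϖ` totally ramified of degree `e` over `K₀`. -/
theorem geomL_hasFixedCartesian (hA : A.LiesOverPrime p)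
    {ϖ : Qb} (hϖ0 : ϖ ≠ 0) (hϖA : ϖ ∈ A.nonunits) {e : ℕ} (x : Fin e → Qb)
    (hx : Function.Injective x)
    (hxorb : Set.range x = Set.range fun σ : ↥(A.inertiaSubgroupIn ℚ) => (σ : GQ) ϖ)
    {u : Qb} (hu : u ∈ A) (hu' : u⁻¹ ∈ A) (hϖe : ϖ ^ e = (p : Qb) * u)
    (h : ↥(modularFunctionFieldBar (p * M))) (hh0 : h ≠ 0)
    (hhfix : ∀ σ ∈ stab (A.inertiaSubgroupIn ℚ) ϖ,
      arithmeticGalois (modularFunctionFieldFull (p * M)) σ • h = h)
    (V : Submodule Qb ↥(modularFunctionFieldBar (p * M))) [FiniteDimensional Qb V]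
    (hV : ∀ σ ∈ stab (A.inertiaSubgroupIn ℚ) ϖ, ∀ f ∈ V,
      arithmeticGalois (modularFunctionFieldFull (p * M)) σ • f ∈ V) :
    HasFixedCartesian (p * M) A (stab (A.inertiaSubgroupIn ℚ) ϖ) (helper1928.wAL p M hpM) h V :=
  gp_exists_fixed_cartesian (Fact.out : p.Prime) hA (stab_le _ _)
    (fun σ _ z => wAL_arithmeticGalois_smul p M hpM σ z)
    (isUnif_stab_inertia hA hϖ0 hϖA x hx hxorb hu hu' hϖe)
    (fun S hS => @helper882.gp_cartesianW p M _ _ hpM A hA S hS) h hh0 hhfix V hV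

variable (p M) (A) in
/-- **(K2) = (BC) at level `p * M`.**  Every `L`-rational function (`L = K₀(ϖ)`, `ϖ` totally
ramified of degree `e` over `K₀ = ℚ̄^I`) is uniquely `∑ i < e, ϖ ^ i • g i` with `K₀`-rational
`g i`; the `g i` stay in every inertia-stable subspace containing `f`; for both Gauss
valuations `v (f) = max_i |ϖ| ^ i * v (g i)`; and `f` is integral iff all `g i` are. -/
theorem geomL_decomp (hA : A.LiesOverPrime p)
    {ϖ : Qb} (hϖ0 : ϖ ≠ 0) (hϖA : ϖ ∈ A.nonunits) {e : ℕ} (x : Fin e → Qb)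
    (hx : Function.Injective x)
    (hxorb : Set.range x = Set.range fun σ : ↥(A.inertiaSubgroupIn ℚ) => (σ : GQ) ϖ)
    {u : Qb} (hu : u ∈ A) (hu' : u⁻¹ ∈ A) (hϖe : ϖ ^ e = (p : Qb) * u)
    (f : ↥(modularFunctionFieldBar (p * M)))
    (hf : ∀ σ ∈ stab (A.inertiaSubgroupIn ℚ) ϖ,
      arithmeticGalois (modularFunctionFieldFull (p * M)) σ • f = f) :
    ∃ g : Fin e → ↥(modularFunctionFieldBar (p * M)),
      (∀ i, ∀ σ ∈ A.inertiaSubgroupIn ℚ,
        arithmeticGalois (modularFunctionFieldFull (p * M)) σ • g i = g i) ∧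
      f = ∑ i : Fin e, ϖ ^ (i : ℕ) • g i ∧
      (∀ V : Submodule Qb ↥(modularFunctionFieldBar (p * M)),
        (∀ σ ∈ A.inertiaSubgroupIn ℚ, ∀ f' ∈ V,
          arithmeticGalois (modularFunctionFieldFull (p * M)) σ • f' ∈ V) →
        f ∈ V → ∀ i, g i ∈ V) ∧
      (∀ (i0 : Fin 2) (r : (helper882.gpRing A (p * M)).ValueGroup),
        helper882.gpVal A (p * M) (helper1928.wAL p M hpM) i0 f ≤ r ↔
          ∀ i : Fin e, helper882.gpBase A (p * M) ϖ ^ (i : ℕ) *
            helper882.gpVal A (p * M) (helper1928.wAL p M hpM) i0 (g i) ≤ r) ∧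
      (∀ i0 : Fin 2, helper882.gpVal A (p * M) (helper1928.wAL p M hpM) i0 f ≤ 1 →
        ∀ i, helper882.gpVal A (p * M) (helper1928.wAL p M hpM) i0 (g i) ≤ 1) := by
  obtain ⟨g, hg, hfg, hgV⟩ := gp_exists_fixed_decomp (p * M) ϖ x hx hxorb f hf
  have hpow := gpBase_pow_eq_of_eq_mul_unit p (p * M) hϖ0 hu hu' hϖe
  refine ⟨g, hg, hfg, hgV, fun i0 r => ?_, fun i0 h1 => ?_⟩
  · rw [hfg]
    exact gpVal_sum_pow_smul_le_iff (Fact.out : p.Prime) hA le_rfl
      (fun σ _ z => wAL_arithmeticGalois_smul p M hpM σ z) (isUnif_inertia Fact.out hA)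
      hϖ0 hϖA hpow g hg i0 r
  · rw [hfg] at h1
    exact gpVal_le_one_of_sum_pow_smul (Fact.out : p.Prime) hA le_rfl
      (fun σ _ z => wAL_arithmeticGalois_smul p M hpM σ z) (isUnif_inertia Fact.out hA)
      hϖ0 hϖA hpow g hg i0 h1

end LevelPM

end Fermat.Agent.S44.helper4929
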