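import Mathlib
import Fermat.Agent.S19.helper3214_RationalPlace
import Fermat.Agent.S35.helper1219_AtkinLehnerFF
import Fermat.Agent.S44.helper4929_GeomK0

/-!
# S44, the jump hypotheses of the odd count (helper4929)

`helper6565.InOdd` (the odd clause of the block `(CNT)`) takes two hypotheses `hjump0`, `hjump1`:
an element `f` of the unit ball of a chart lattice `L(D0 + a E1 + b E2)` with `v i f < 1` can be
replaced, without changing its reduction, by an element `f'` of the same ball with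
`v i f' ≤ |ϖ|`.  Over `(ℚ̄, A)` the valuations are not discrete; the replacement is the
`Γ`-fixed lift `f'` of the reduction of `f` ((K3) of `helper4929_GeomK0`), whose valuation is a
power of `|ϖ|` by (K1).

* `gp_jump` : the generic statement (any level, any `Γ ≤ inertia` commuting with `W`, any
  uniformiser `ϖ` of the `Γ`-rational constants, any `Γ`-stable finite-dimensional `V`).
* `geom_jump` : level `q * M`, `A` over `q`, `Γ` = inertia, `ϖ = q`, `V = L(D)` with `D`
  inertia-invariant; `W = helper1219.atkinLehnerBar q M h'`, `red = helper882.gpRed`.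
* `geom_hjump`, `geom_hjump'` : the two hypotheses of `InOdd` verbatim (`i` arbitrary),
  for `D0 w = ord_w H / n`, resp. `D0' w = (- ord_w H) / n`, `H` inertia-fixed, and the chart
  divisors `E1`, `E2` of an inertia-fixed chart function `x` (fields of `helper3630.GeomData`).
* `geomL_jump` : the same over `L = K₀(ϖ)` (`Γ` = stabiliser of `ϖ` in the inertia group).
* `gp_fixed_lift`, `geomG_fixed_lift`, `geom_fixed_lift`, `geomL_fixed_lift` : the rational
  lift alone (every element of the unit ball of `L(D)` has the same reduction as a `Γ`-fixed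
  element of that ball), i.e. the reduction of the `Γ`-rational ball is the reduction of the
  whole ball; `geomG_*` : any `Γ ≤ inertia` with a uniformiser (`IsUnif A Γ ϖ`).
-/

set_option autoImplicit false
set_option synthInstance.maxHeartbeats 400000

namespace Fermat.Agent.S44.helper4929

open ModularCurve AlgebraicCurve
open Fermat.Agent.S18 Fermat.Agent.S35 Fermat.Agent.S19

local notation "Qb" => AlgebraicClosure ℚ
local notation "GQ" => (AlgebraicClosure ℚ ≃ₐ[ℚ] AlgebraicClosure ℚ)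

/-! ## Invariant divisors -/

section Divisors

variable {K F : Type*} [Field K] [Field F] [Algebra K F]

/-- A divisor whose multiplicities are constant along `w ↦ g • w` is fixed by `g`. -/
theorem divisor_smul_eq_of_apply (g : SemilinearAut K F) (D : Divisor K F)
    (h : ∀ w : Place K F, D (g • w) = D w) : g • D = D := by
  refine Finsupp.ext fun w => ?_
  rw [SemilinearAut.divisor_smul_apply]
  have h1 := h (g⁻¹ • w)
  rw [smul_inv_smul] at h1
  exact h1.symm

/-- The orders of a `g`-fixed function are constant along `w ↦ g • w`. -/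
theorem ord_smul_of_fixed (g : SemilinearAut K F) {H : F} (hH : g • H = H) (w : Place K F) :
    (g • w).ord H = w.ord H := by
  have h := SemilinearAut.ord_smul g w H
  rwa [hH] at h

/-- The pole divisor `E1` and the zero divisor `E2` of a `g`-fixed function `x`
(`0 ≤ E1`, `0 ≤ E2`, disjoint supports, `ord x = E2 - E1`) are constant along `w ↦ g • w`. -/
theorem chartDiv_smul_of_fixed (g : SemilinearAut K F) {E1 E2 : Divisor K F}
    (hE1 : 0 ≤ E1) (hE2 : 0 ≤ E2) (hdisj : ∀ w : Place K F, E1 w = 0 ∨ E2 w = 0)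
    {x : F} (hxord : ∀ w : Place K F, w.ord x = E2 w - E1 w) (hx : g • x = x)
    (w : Place K F) : E1 (g • w) = E1 w ∧ E2 (g • w) = E2 w := by
  have h1 := ord_smul_of_fixed g hx w
  rw [hxord, hxord] at h1
  have ha1 : 0 ≤ E1 w := hE1 w
  have ha2 : 0 ≤ E2 w := hE2 w
  have hb1 : 0 ≤ E1 (g • w) := hE1 (g • w)
  have hb2 : 0 ≤ E2 (g • w) := hE2 (g • w)
  rcases hdisj w with h2 | h2 <;> rcases hdisj (g • w) with h3 | h3 <;> constructor <;> omega

end Divisors

/-! ## The generic jump -/

section Generic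

variable {N : ℕ} {A : ValuationSubring Qb} {Γ : Subgroup GQ}
  {W : ↥(modularFunctionFieldBar N) ≃ₐ[Qb] ↥(modularFunctionFieldBar N)}

/-- **The rational lift, from the rational lattice statement.**  If `V` satisfies
`HasFixedCartesian` with the trivial twist, every `f` in the unit ball of `V` has the same
reduction as a `Γ`-fixed `f'` in the unit ball of `V` (and `f - f'` is in the open ball). -/
theorem gp_fixed_lift_of_hasFixedCartesian
    {kk : Type*} [Field kk] {Fk : Type*} [CommRing Fk] [Algebra kk Fk]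
    {red : ↥(modularFunctionFieldBar N) → Fk}
    (hred : helper2459.RedDataW (helper882.gpVal A N W)
      (fun _ => (1 : (helper882.gpRing A N).ValueGroup)) (helper882.gpBase A N) kk red red)
    {V : Submodule Qb ↥(modularFunctionFieldBar N)}
    (hV : HasFixedCartesian N A Γ W 1 V)
    (f : ↥(modularFunctionFieldBar N)) (hf : f ∈ V)
    (hfb : ∀ j, helper882.gpVal A N W j f ≤ 1) :
    ∃ f' ∈ V, (∀ σ ∈ Γ, arithmeticGalois (modularFunctionFieldFull N) σ • f' = f') ∧
      (∀ j, helper882.gpVal A N W j f' ≤ 1) ∧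
      (∀ j, helper882.gpVal A N W j (f - f') < 1) ∧ red f' = red f := by
  obtain ⟨n, e, -, -, -, -, -, hlift, -⟩ := hV
  obtain ⟨x0, hx0V, hx0b, hx0fix, hx0lt⟩ := hlift f hf (fun j => by rw [map_one]; exact hfb j)
  simp only [map_one] at hx0b hx0lt
  refine ⟨x0, hx0V, hx0fix, hx0b, hx0lt, ?_⟩
  have h1 : f = x0 + (f - x0) := by ring
  have h2 : red (f - x0) = 0 :=
    (hred.eq_zero_iff (f - x0) (fun j => (hx0lt j).le)).mpr hx0lt
  have h3 := hred.map_add x0 (f - x0) hx0b (fun j => (hx0lt j).le)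
  rw [← h1, h2, add_zero] at h3
  exact h3.symm

/-- **The jump, from the rational lattice statement.**  If `V` satisfies `HasFixedCartesian`
with the trivial twist, every `f` in the unit ball of `V` with `v i f < 1` has the same
reduction as a `Γ`-fixed `f'` in the unit ball of `V` with `v i f' ≤ |ϖ|`. -/
theorem gp_jump_of_hasFixedCartesian {q : ℕ} (hq : q.Prime) (hqA : (q : Qb) ∈ A.nonunits)
    (hΓ : Γ ≤ A.inertiaSubgroupIn ℚ)
    (hW : ∀ σ ∈ Γ, ∀ z, W (arithmeticGalois (modularFunctionFieldFull N) σ • z)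
      = arithmeticGalois (modularFunctionFieldFull N) σ • W z)
    {ϖ : Qb} (hϖ : IsUnif A Γ ϖ)
    {kk : Type*} [Field kk] {Fk : Type*} [CommRing Fk] [Algebra kk Fk]
    {red : ↥(modularFunctionFieldBar N) → Fk}
    (hred : helper2459.RedDataW (helper882.gpVal A N W)
      (fun _ => (1 : (helper882.gpRing A N).ValueGroup)) (helper882.gpBase A N) kk red red)
    {V : Submodule Qb ↥(modularFunctionFieldBar N)}
    (hV : HasFixedCartesian N A Γ W 1 V) (i : Fin 2)
    (f : ↥(modularFunctionFieldBar N)) (hf : f ∈ V)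
    (hfb : ∀ j, helper882.gpVal A N W j f ≤ 1) (hlt : helper882.gpVal A N W i f < 1) :
    ∃ f' ∈ V, (∀ σ ∈ Γ, arithmeticGalois (modularFunctionFieldFull N) σ • f' = f') ∧
      (∀ j, helper882.gpVal A N W j f' ≤ 1) ∧
      helper882.gpVal A N W i f' ≤ helper882.gpBase A N ϖ ∧ red f' = red f := by
  obtain ⟨x0, hx0V, hx0fix, hx0b, hx0lt, hred_eq⟩ :=
    gp_fixed_lift_of_hasFixedCartesian hred hV f hf hfb
  have hx0i : helper882.gpVal A N W i x0 < 1 := by
    have h1 : x0 = f - (f - x0) := by ring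
    rw [h1]
    exact lt_of_le_of_lt (Valuation.map_sub _ _ _) (max_lt hlt (hx0lt i))
  refine ⟨x0, hx0V, hx0fix, hx0b, ?_, hred_eq⟩
  by_cases hx00 : x0 = 0
  · rw [hx00, map_zero]
    exact zero_le
  obtain ⟨m, hm⟩ := exists_zpow_gpVal W hq hqA hΓ hW hϖ x0 hx00 hx0fix i
  have hϖ0 : 0 < helper882.gpBase A N ϖ :=
    zero_lt_iff.mpr ((Valuation.ne_zero_iff _).mpr hϖ.ne_zero)
  have hϖ1 : helper882.gpBase A N ϖ < 1 := (helper882.gpBase_lt_one_iff A N ϖ).mpr hϖ.mem
  have hanti : StrictAnti fun n : ℤ => helper882.gpBase A N ϖ ^ n :=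
    zpow_right_strictAnti₀ hϖ0 hϖ1
  rw [hm] at hx0i ⊢
  have hm1 : (1 : ℤ) ≤ m := by
    by_contra hcon
    have h0 : m ≤ 0 := by omega
    have h6 : helper882.gpBase A N ϖ ^ (0 : ℤ) ≤ helper882.gpBase A N ϖ ^ m :=
      hanti.antitone h0
    rw [zpow_zero] at h6
    exact absurd hx0i (not_lt.mpr h6)
  have h5 : helper882.gpBase A N ϖ ^ m ≤ helper882.gpBase A N ϖ ^ (1 : ℤ) :=
    hanti.antitone hm1
  rw [zpow_one] at h5
  exact h5

/-- **The rational lift (generic).**  `Γ ≤ inertia` commuting with `W`, `ϖ` a uniformiser of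
the `Γ`-rational constants, `V` finite-dimensional and `Γ`-stable: every `f` in the unit ball
of `V` has the same reduction as a `Γ`-fixed `f'` in the unit ball of `V`. -/
theorem gp_fixed_lift {q : ℕ} (hq : q.Prime) (hqA : (q : Qb) ∈ A.nonunits)
    (hΓ : Γ ≤ A.inertiaSubgroupIn ℚ)
    (hW : ∀ σ ∈ Γ, ∀ z, W (arithmeticGalois (modularFunctionFieldFull N) σ • z)
      = arithmeticGalois (modularFunctionFieldFull N) σ • W z)
    {ϖ : Qb} (hϖ : IsUnif A Γ ϖ)
    (hcart : ∀ S : Submodule Qb ↥(modularFunctionFieldBar N), FiniteDimensional Qb S →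
      helper2459.CartesianW (helper882.gpVal A N W)
        (fun _ => (1 : (helper882.gpRing A N).ValueGroup)) (helper882.gpBase A N) S)
    {kk : Type*} [Field kk] {Fk : Type*} [CommRing Fk] [Algebra kk Fk]
    {red : ↥(modularFunctionFieldBar N) → Fk}
    (hred : helper2459.RedDataW (helper882.gpVal A N W)
      (fun _ => (1 : (helper882.gpRing A N).ValueGroup)) (helper882.gpBase A N) kk red red)
    (V : Submodule Qb ↥(modularFunctionFieldBar N)) [FiniteDimensional Qb V]
    (hV : ∀ σ ∈ Γ, ∀ f ∈ V, arithmeticGalois (modularFunctionFieldFull N) σ • f ∈ V)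
    (f : ↥(modularFunctionFieldBar N)) (hf : f ∈ V)
    (hfb : ∀ j, helper882.gpVal A N W j f ≤ 1) :
    ∃ f' ∈ V, (∀ σ ∈ Γ, arithmeticGalois (modularFunctionFieldFull N) σ • f' = f') ∧
      (∀ j, helper882.gpVal A N W j f' ≤ 1) ∧
      (∀ j, helper882.gpVal A N W j (f - f') < 1) ∧ red f' = red f :=
  gp_fixed_lift_of_hasFixedCartesian hred
    (gp_exists_fixed_cartesian hq hqA hΓ hW hϖ hcart 1 one_ne_zero
      (fun _ _ => smul_one _) V hV) f hf hfb

/-- **The jump (generic).**  `Γ ≤ inertia` commuting with `W`, `ϖ` a uniformiser of the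
`Γ`-rational constants, `V` finite-dimensional and `Γ`-stable. -/
theorem gp_jump {q : ℕ} (hq : q.Prime) (hqA : (q : Qb) ∈ A.nonunits)
    (hΓ : Γ ≤ A.inertiaSubgroupIn ℚ)
    (hW : ∀ σ ∈ Γ, ∀ z, W (arithmeticGalois (modularFunctionFieldFull N) σ • z)
      = arithmeticGalois (modularFunctionFieldFull N) σ • W z)
    {ϖ : Qb} (hϖ : IsUnif A Γ ϖ)
    (hcart : ∀ S : Submodule Qb ↥(modularFunctionFieldBar N), FiniteDimensional Qb S →
      helper2459.CartesianW (helper882.gpVal A N W)
        (fun _ => (1 : (helper882.gpRing A N).ValueGroup)) (helper882.gpBase A N) S)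
    {kk : Type*} [Field kk] {Fk : Type*} [CommRing Fk] [Algebra kk Fk]
    {red : ↥(modularFunctionFieldBar N) → Fk}
    (hred : helper2459.RedDataW (helper882.gpVal A N W)
      (fun _ => (1 : (helper882.gpRing A N).ValueGroup)) (helper882.gpBase A N) kk red red)
    (V : Submodule Qb ↥(modularFunctionFieldBar N)) [FiniteDimensional Qb V]
    (hV : ∀ σ ∈ Γ, ∀ f ∈ V, arithmeticGalois (modularFunctionFieldFull N) σ • f ∈ V)
    (i : Fin 2) (f : ↥(modularFunctionFieldBar N)) (hf : f ∈ V)
    (hfb : ∀ j, helper882.gpVal A N W j f ≤ 1) (hlt : helper882.gpVal A N W i f < 1) :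
    ∃ f' ∈ V, (∀ σ ∈ Γ, arithmeticGalois (modularFunctionFieldFull N) σ • f' = f') ∧
      (∀ j, helper882.gpVal A N W j f' ≤ 1) ∧
      helper882.gpVal A N W i f' ≤ helper882.gpBase A N ϖ ∧ red f' = red f :=
  gp_jump_of_hasFixedCartesian hq hqA hΓ hW hϖ hred
    (gp_exists_fixed_cartesian hq hqA hΓ hW hϖ hcart 1 one_ne_zero
      (fun _ _ => smul_one _) V hV) i f hf hfb hlt

end Generic

/-! ## Level `q * M`, `A` over `q` -/

section Level

variable {q M : ℕ} [NeZero q] [NeZero M]

/-- The cartesian property of the pair of Gauss valuations at level `q * M` (landed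
`helper882.gp_cartesianW`), for the Atkin–Lehner involution `helper1219.atkinLehnerBar q M h'`. -/
theorem geom_cartesian (h' : Nat.Coprime q M) (hq : q.Prime) (A : ValuationSubring Qb)
    (hA : A.LiesOverPrime q) (S : Submodule Qb ↥(modularFunctionFieldBar (q * M)))
    (hS : FiniteDimensional Qb S) :
    helper2459.CartesianW (helper882.gpVal A (q * M) (helper1219.atkinLehnerBar q M h'))
      (fun _ => (1 : (helper882.gpRing A (q * M)).ValueGroup)) (helper882.gpBase A (q * M)) S :=
  have : Fact q.Prime := ⟨hq⟩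
  @helper882.gp_cartesianW q M _ _ ((Nat.Prime.coprime_iff_not_dvd hq).mp h') A hA S hS

/-- **(K1′) at level `q * M`** in the `atkinLehnerBar q M h'` vocabulary: both Gauss valuations
of a nonzero inertia-fixed function are integral powers of `|q|`. -/
theorem geom_exists_zpow (h' : Nat.Coprime q M) (hq : q.Prime) (A : ValuationSubring Qb)
    (hA : A.LiesOverPrime q) (f : ↥(modularFunctionFieldBar (q * M))) (hf0 : f ≠ 0)
    (hfix : ∀ σ ∈ A.inertiaSubgroupIn ℚ,
      arithmeticGalois (modularFunctionFieldFull (q * M)) σ • f = f) (i : Fin 2) :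
    ∃ m : ℤ, helper882.gpVal A (q * M) (helper1219.atkinLehnerBar q M h') i f
      = helper882.gpBase A (q * M) (q : Qb) ^ m :=
  exists_zpow_gpVal (helper1219.atkinLehnerBar q M h') hq hA le_rfl
    (fun σ _ z => helper1219.atkinLehnerBar_arithmeticGalois_smul q M h' σ z)
    (isUnif_inertia hq hA) f hf0 hfix i

/-- **(K3) at level `q * M`** in the `atkinLehnerBar q M h'` vocabulary. -/
theorem geom_hasFixedCartesian (h' : Nat.Coprime q M) (hq : q.Prime) (A : ValuationSubring Qb)
    (hA : A.LiesOverPrime q) (h : ↥(modularFunctionFieldBar (q * M))) (hh0 : h ≠ 0)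
    (hhfix : ∀ σ ∈ A.inertiaSubgroupIn ℚ,
      arithmeticGalois (modularFunctionFieldFull (q * M)) σ • h = h)
    (V : Submodule Qb ↥(modularFunctionFieldBar (q * M))) [FiniteDimensional Qb V]
    (hV : ∀ σ ∈ A.inertiaSubgroupIn ℚ, ∀ f ∈ V,
      arithmeticGalois (modularFunctionFieldFull (q * M)) σ • f ∈ V) :
    HasFixedCartesian (q * M) A (A.inertiaSubgroupIn ℚ) (helper1219.atkinLehnerBar q M h') h V :=
  gp_exists_fixed_cartesian hq hA le_rfl
    (fun σ _ z => helper1219.atkinLehnerBar_arithmeticGalois_smul q M h' σ z)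
    (isUnif_inertia hq hA) (geom_cartesian h' hq A hA) h hh0 hhfix V hV

/-- An invariant divisor has an inertia-stable Riemann–Roch space. -/
theorem rr_stable_of_invariant {N : ℕ} {Γ : Subgroup GQ}
    (D : Divisor Qb ↥(modularFunctionFieldBar N))
    (hD : ∀ τ ∈ Γ, ∀ w : Place Qb ↥(modularFunctionFieldBar N),
      D (arithmeticGalois (modularFunctionFieldFull N) τ • w) = D w) :
    ∀ σ ∈ Γ, ∀ f ∈ riemannRochSpace D,
      arithmeticGalois (modularFunctionFieldFull N) σ • f ∈ riemannRochSpace D :=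
  fun σ hσ _ hf => helper3214.smul_mem_riemannRochSpace _
    (divisor_smul_eq_of_apply _ D (hD σ hσ)) hf

/-- **The jump at level `q * M`** (`Γ` = inertia, `ϖ = q`): for an inertia-invariant divisor
`D`, every `f` in the unit ball of `L(D)` with `v i f < 1` has the same reduction as an
inertia-fixed `f'` in the unit ball of `L(D)` with `v i f' ≤ |q|`. -/
theorem geom_jump (h' : Nat.Coprime q M) (hq : q.Prime) (A : ValuationSubring Qb)
    (hA : A.LiesOverPrime q)
    (D : Divisor Qb ↥(modularFunctionFieldBar (q * M)))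
    [FiniteDimensional Qb (riemannRochSpace D)]
    (hD : ∀ τ ∈ A.inertiaSubgroupIn ℚ, ∀ w : Place Qb ↥(modularFunctionFieldBar (q * M)),
      D (arithmeticGalois (modularFunctionFieldFull (q * M)) τ • w) = D w)
    (i : Fin 2) (f : ↥(modularFunctionFieldBar (q * M))) (hf : f ∈ riemannRochSpace D)
    (hfb : ∀ j, helper882.gpVal A (q * M) (helper1219.atkinLehnerBar q M h') j f ≤ 1)
    (hlt : helper882.gpVal A (q * M) (helper1219.atkinLehnerBar q M h') i f < 1) :
    ∃ f' ∈ riemannRochSpace D,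
      (∀ σ ∈ A.inertiaSubgroupIn ℚ,
        arithmeticGalois (modularFunctionFieldFull (q * M)) σ • f' = f') ∧
      (∀ j, helper882.gpVal A (q * M) (helper1219.atkinLehnerBar q M h') j f' ≤ 1) ∧
      helper882.gpVal A (q * M) (helper1219.atkinLehnerBar q M h') i f'
        ≤ helper882.gpBase A (q * M) (q : Qb) ∧
      helper882.gpRed A (q * M) (helper1219.atkinLehnerBar q M h') f'
        = helper882.gpRed A (q * M) (helper1219.atkinLehnerBar q M h') f :=
  gp_jump hq hA le_rfl
    (fun σ _ z => helper1219.atkinLehnerBar_arithmeticGalois_smul q M h' σ z)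
    (isUnif_inertia hq hA) (geom_cartesian h' hq A hA)
    (helper882.gpRedData A (q * M) (helper1219.atkinLehnerBar q M h'))
    (riemannRochSpace D) (rr_stable_of_invariant D hD) i f hf hfb hlt

/-- The chart lattices `D0 + a E1 + b E2` are inertia-invariant. -/
theorem chartLattice_invariant {N : ℕ} {Γ : Subgroup GQ}
    {E1 E2 : Divisor Qb ↥(modularFunctionFieldBar N)}
    (hE1 : 0 ≤ E1) (hE2 : 0 ≤ E2)
    (hdisj : ∀ w : Place Qb ↥(modularFunctionFieldBar N), E1 w = 0 ∨ E2 w = 0)
    {x : ↥(modularFunctionFieldBar N)}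
    (hxord : ∀ w : Place Qb ↥(modularFunctionFieldBar N), w.ord x = E2 w - E1 w)
    (hxgal : ∀ τ ∈ Γ, arithmeticGalois (modularFunctionFieldFull N) τ • x = x)
    {D0 : Divisor Qb ↥(modularFunctionFieldBar N)}
    (hD0 : ∀ τ ∈ Γ, ∀ w : Place Qb ↥(modularFunctionFieldBar N),
      D0 (arithmeticGalois (modularFunctionFieldFull N) τ • w) = D0 w) (a b : ℕ) :
    ∀ τ ∈ Γ, ∀ w : Place Qb ↥(modularFunctionFieldBar N),
      (D0 + a • E1 + b • E2) (arithmeticGalois (modularFunctionFieldFull N) τ • w)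
        = (D0 + a • E1 + b • E2) w := by
  intro τ hτ w
  obtain ⟨h1, h2⟩ := chartDiv_smul_of_fixed _ hE1 hE2 hdisj hxord (hxgal τ hτ) w
  simp only [Finsupp.coe_add, Finsupp.coe_smul, Pi.add_apply, Pi.smul_apply]
  rw [h1, h2, hD0 τ hτ w]

/-- **`hjump` of `helper6565.InOdd`, verbatim** (`i = 0`: `hjump0`; the binders are fields of
`helper3630.GeomData`): `D0 w = ord_w H / n` for an inertia-fixed `H`, chart divisors `E1`, `E2`
of the inertia-fixed chart function `x`, `ϖ = q`. -/
theorem geom_hjump (h' : Nat.Coprime q M) (hq : q.Prime) (A : ValuationSubring Qb)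
    (hA : A.LiesOverPrime q)
    (hfin : ∀ D : Divisor Qb ↥(modularFunctionFieldBar (q * M)),
      FiniteDimensional Qb (riemannRochSpace D))
    {E1 E2 : Divisor Qb ↥(modularFunctionFieldBar (q * M))}
    (hE1 : 0 ≤ E1) (hE2 : 0 ≤ E2)
    (hdisj : ∀ w : Place Qb ↥(modularFunctionFieldBar (q * M)), E1 w = 0 ∨ E2 w = 0)
    {x : ↥(modularFunctionFieldBar (q * M))}
    (hxord : ∀ w : Place Qb ↥(modularFunctionFieldBar (q * M)), w.ord x = E2 w - E1 w)
    (hxgal : ∀ τ ∈ A.inertiaSubgroupIn ℚ,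
      arithmeticGalois (modularFunctionFieldFull (q * M)) τ • x = x)
    {H : ↥(modularFunctionFieldBar (q * M))}
    (hH : ∀ τ ∈ A.inertiaSubgroupIn ℚ,
      arithmeticGalois (modularFunctionFieldFull (q * M)) τ • H = H)
    (n : ℕ) {D0 : Divisor Qb ↥(modularFunctionFieldBar (q * M))}
    (hD0 : ∀ w : Place Qb ↥(modularFunctionFieldBar (q * M)), D0 w = w.ord H / (n : ℤ))
    (i : Fin 2) :
    ∀ a b : ℕ, ∀ f ∈ riemannRochSpace (D0 + a • E1 + b • E2),
      (∀ j, helper882.gpVal A (q * M) (helper1219.atkinLehnerBar q M h') j f ≤ 1) →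
      helper882.gpVal A (q * M) (helper1219.atkinLehnerBar q M h') i f < 1 →
      ∃ f' ∈ riemannRochSpace (D0 + a • E1 + b • E2),
        (∀ j, helper882.gpVal A (q * M) (helper1219.atkinLehnerBar q M h') j f' ≤ 1) ∧
        helper882.gpVal A (q * M) (helper1219.atkinLehnerBar q M h') i f'
          ≤ helper882.gpBase A (q * M) (q : Qb) ∧
        helper882.gpRed A (q * M) (helper1219.atkinLehnerBar q M h') f'
          = helper882.gpRed A (q * M) (helper1219.atkinLehnerBar q M h') f := by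
  intro a b f hf hfb hlt
  have := hfin (D0 + a • E1 + b • E2)
  have hD0inv : ∀ τ ∈ A.inertiaSubgroupIn ℚ,
      ∀ w : Place Qb ↥(modularFunctionFieldBar (q * M)),
      D0 (arithmeticGalois (modularFunctionFieldFull (q * M)) τ • w) = D0 w := by
    intro τ hτ w
    rw [hD0, hD0, ord_smul_of_fixed _ (hH τ hτ) w]
  obtain ⟨f', hf', -, hb, hi, hr⟩ := geom_jump h' hq A hA (D0 + a • E1 + b • E2)
    (chartLattice_invariant hE1 hE2 hdisj hxord hxgal hD0inv a b) i f hf hfb hlt
  exact ⟨f', hf', hb, hi, hr⟩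

/-- **`hjump1` of `helper6565.InOdd`, verbatim**: the same with `D0' w = (- ord_w H) / n`. -/
theorem geom_hjump' (h' : Nat.Coprime q M) (hq : q.Prime) (A : ValuationSubring Qb)
    (hA : A.LiesOverPrime q)
    (hfin : ∀ D : Divisor Qb ↥(modularFunctionFieldBar (q * M)),
      FiniteDimensional Qb (riemannRochSpace D))
    {E1 E2 : Divisor Qb ↥(modularFunctionFieldBar (q * M))}
    (hE1 : 0 ≤ E1) (hE2 : 0 ≤ E2)
    (hdisj : ∀ w : Place Qb ↥(modularFunctionFieldBar (q * M)), E1 w = 0 ∨ E2 w = 0)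
    {x : ↥(modularFunctionFieldBar (q * M))}
    (hxord : ∀ w : Place Qb ↥(modularFunctionFieldBar (q * M)), w.ord x = E2 w - E1 w)
    (hxgal : ∀ τ ∈ A.inertiaSubgroupIn ℚ,
      arithmeticGalois (modularFunctionFieldFull (q * M)) τ • x = x)
    {H : ↥(modularFunctionFieldBar (q * M))}
    (hH : ∀ τ ∈ A.inertiaSubgroupIn ℚ,
      arithmeticGalois (modularFunctionFieldFull (q * M)) τ • H = H)
    (n : ℕ) {D0' : Divisor Qb ↥(modularFunctionFieldBar (q * M))}
    (hD0' : ∀ w : Place Qb ↥(modularFunctionFieldBar (q * M)),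
      D0' w = (-w.ord H) / (n : ℤ))
    (i : Fin 2) :
    ∀ a b : ℕ, ∀ f ∈ riemannRochSpace (D0' + a • E1 + b • E2),
      (∀ j, helper882.gpVal A (q * M) (helper1219.atkinLehnerBar q M h') j f ≤ 1) →
      helper882.gpVal A (q * M) (helper1219.atkinLehnerBar q M h') i f < 1 →
      ∃ f' ∈ riemannRochSpace (D0' + a • E1 + b • E2),
        (∀ j, helper882.gpVal A (q * M) (helper1219.atkinLehnerBar q M h') j f' ≤ 1) ∧
        helper882.gpVal A (q * M) (helper1219.atkinLehnerBar q M h') i f'
          ≤ helper882.gpBase A (q * M) (q : Qb) ∧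
        helper882.gpRed A (q * M) (helper1219.atkinLehnerBar q M h') f'
          = helper882.gpRed A (q * M) (helper1219.atkinLehnerBar q M h') f := by
  intro a b f hf hfb hlt
  have := hfin (D0' + a • E1 + b • E2)
  have hD0inv : ∀ τ ∈ A.inertiaSubgroupIn ℚ,
      ∀ w : Place Qb ↥(modularFunctionFieldBar (q * M)),
      D0' (arithmeticGalois (modularFunctionFieldFull (q * M)) τ • w) = D0' w := by
    intro τ hτ w
    rw [hD0', hD0', ord_smul_of_fixed _ (hH τ hτ) w]
  obtain ⟨f', hf', -, hb, hi, hr⟩ := geom_jump h' hq A hA (D0' + a • E1 + b • E2)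
    (chartLattice_invariant hE1 hE2 hdisj hxord hxgal hD0inv a b) i f hf hfb hlt
  exact ⟨f', hf', hb, hi, hr⟩

/-- **The jump over `L = K₀(ϖ)`** (`Γ` = stabiliser of `ϖ` in the inertia group, `ϖ` totally
ramified of degree `e` over `K₀`): for a `Γ`-invariant divisor `D`, every `f` in the unit ball
of `L(D)` with `v i f < 1` has the same reduction as an `L`-rational `f'` in the unit ball of
`L(D)` with `v i f' ≤ |ϖ|`. -/
theorem geomL_jump (h' : Nat.Coprime q M) (hq : q.Prime) (A : ValuationSubring Qb)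
    (hA : A.LiesOverPrime q)
    {ϖ : Qb} (hϖ0 : ϖ ≠ 0) (hϖA : ϖ ∈ A.nonunits) {e : ℕ} (x : Fin e → Qb)
    (hx : Function.Injective x)
    (hxorb : Set.range x = Set.range fun σ : ↥(A.inertiaSubgroupIn ℚ) => (σ : GQ) ϖ)
    {u : Qb} (hu : u ∈ A) (hu' : u⁻¹ ∈ A) (hϖe : ϖ ^ e = (q : Qb) * u)
    (D : Divisor Qb ↥(modularFunctionFieldBar (q * M)))
    [FiniteDimensional Qb (riemannRochSpace D)]
    (hD : ∀ τ ∈ stab (A.inertiaSubgroupIn ℚ) ϖ,
      ∀ w : Place Qb ↥(modularFunctionFieldBar (q * M)),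
      D (arithmeticGalois (modularFunctionFieldFull (q * M)) τ • w) = D w)
    (i : Fin 2) (f : ↥(modularFunctionFieldBar (q * M))) (hf : f ∈ riemannRochSpace D)
    (hfb : ∀ j, helper882.gpVal A (q * M) (helper1219.atkinLehnerBar q M h') j f ≤ 1)
    (hlt : helper882.gpVal A (q * M) (helper1219.atkinLehnerBar q M h') i f < 1) :
    ∃ f' ∈ riemannRochSpace D,
      (∀ σ ∈ stab (A.inertiaSubgroupIn ℚ) ϖ,
        arithmeticGalois (modularFunctionFieldFull (q * M)) σ • f' = f') ∧
      (∀ j, helper882.gpVal A (q * M) (helper1219.atkinLehnerBar q M h') j f' ≤ 1) ∧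
      helper882.gpVal A (q * M) (helper1219.atkinLehnerBar q M h') i f'
        ≤ helper882.gpBase A (q * M) ϖ ∧
      helper882.gpRed A (q * M) (helper1219.atkinLehnerBar q M h') f'
        = helper882.gpRed A (q * M) (helper1219.atkinLehnerBar q M h') f :=
  have : Fact q.Prime := ⟨hq⟩
  gp_jump hq hA (stab_le _ _)
    (fun σ _ z => helper1219.atkinLehnerBar_arithmeticGalois_smul q M h' σ z)
    (isUnif_stab_inertia hA hϖ0 hϖA x hx hxorb hu hu' hϖe) (geom_cartesian h' hq A hA)
    (helper882.gpRedData A (q * M) (helper1219.atkinLehnerBar q M h'))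
    (riemannRochSpace D) (rr_stable_of_invariant D hD) i f hf hfb hlt

/-! ### General `Γ ≤ inertia` with a uniformiser (covers `K₀`, `K₀(ϖ)` and every layer) -/

/-- **(K1′) for `Γ`-rational functions at level `q * M`**: both Gauss valuations of a nonzero
`Γ`-fixed function are integral powers of `|ϖ|`, `ϖ` a uniformiser of the `Γ`-rational
constants. -/
theorem geomG_exists_zpow (h' : Nat.Coprime q M) (hq : q.Prime) (A : ValuationSubring Qb)
    (hA : A.LiesOverPrime q) {Γ : Subgroup GQ} (hΓ : Γ ≤ A.inertiaSubgroupIn ℚ)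
    {ϖ : Qb} (hϖ : IsUnif A Γ ϖ)
    (f : ↥(modularFunctionFieldBar (q * M))) (hf0 : f ≠ 0)
    (hfix : ∀ σ ∈ Γ, arithmeticGalois (modularFunctionFieldFull (q * M)) σ • f = f)
    (i : Fin 2) :
    ∃ m : ℤ, helper882.gpVal A (q * M) (helper1219.atkinLehnerBar q M h') i f
      = helper882.gpBase A (q * M) ϖ ^ m :=
  exists_zpow_gpVal (helper1219.atkinLehnerBar q M h') hq hA hΓ
    (fun σ _ z => helper1219.atkinLehnerBar_arithmeticGalois_smul q M h' σ z) hϖ f hf0 hfix i

/-- **(K3) for `Γ`-rational functions at level `q * M`.** -/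
theorem geomG_hasFixedCartesian (h' : Nat.Coprime q M) (hq : q.Prime)
    (A : ValuationSubring Qb) (hA : A.LiesOverPrime q)
    {Γ : Subgroup GQ} (hΓ : Γ ≤ A.inertiaSubgroupIn ℚ) {ϖ : Qb} (hϖ : IsUnif A Γ ϖ)
    (h : ↥(modularFunctionFieldBar (q * M))) (hh0 : h ≠ 0)
    (hhfix : ∀ σ ∈ Γ, arithmeticGalois (modularFunctionFieldFull (q * M)) σ • h = h)
    (V : Submodule Qb ↥(modularFunctionFieldBar (q * M))) [FiniteDimensional Qb V]
    (hV : ∀ σ ∈ Γ, ∀ f ∈ V,
      arithmeticGalois (modularFunctionFieldFull (q * M)) σ • f ∈ V) :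
    HasFixedCartesian (q * M) A Γ (helper1219.atkinLehnerBar q M h') h V :=
  gp_exists_fixed_cartesian hq hA hΓ
    (fun σ _ z => helper1219.atkinLehnerBar_arithmeticGalois_smul q M h' σ z)
    hϖ (geom_cartesian h' hq A hA) h hh0 hhfix V hV

/-- **The rational lift at level `q * M`**: for a `Γ`-invariant divisor `D`, every `f` in the
unit ball of `L(D)` has the same reduction as a `Γ`-fixed `f'` in the unit ball of `L(D)`
(so the reduction of the `Γ`-rational part of the ball is the reduction of the whole ball). -/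
theorem geomG_fixed_lift (h' : Nat.Coprime q M) (hq : q.Prime) (A : ValuationSubring Qb)
    (hA : A.LiesOverPrime q) {Γ : Subgroup GQ} (hΓ : Γ ≤ A.inertiaSubgroupIn ℚ)
    {ϖ : Qb} (hϖ : IsUnif A Γ ϖ)
    (D : Divisor Qb ↥(modularFunctionFieldBar (q * M)))
    [FiniteDimensional Qb (riemannRochSpace D)]
    (hD : ∀ τ ∈ Γ, ∀ w : Place Qb ↥(modularFunctionFieldBar (q * M)),
      D (arithmeticGalois (modularFunctionFieldFull (q * M)) τ • w) = D w)
    (f : ↥(modularFunctionFieldBar (q * M))) (hf : f ∈ riemannRochSpace D)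
    (hfb : ∀ j, helper882.gpVal A (q * M) (helper1219.atkinLehnerBar q M h') j f ≤ 1) :
    ∃ f' ∈ riemannRochSpace D,
      (∀ σ ∈ Γ, arithmeticGalois (modularFunctionFieldFull (q * M)) σ • f' = f') ∧
      (∀ j, helper882.gpVal A (q * M) (helper1219.atkinLehnerBar q M h') j f' ≤ 1) ∧
      (∀ j, helper882.gpVal A (q * M) (helper1219.atkinLehnerBar q M h') j (f - f') < 1) ∧
      helper882.gpRed A (q * M) (helper1219.atkinLehnerBar q M h') f'
        = helper882.gpRed A (q * M) (helper1219.atkinLehnerBar q M h') f :=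
  gp_fixed_lift hq hA hΓ
    (fun σ _ z => helper1219.atkinLehnerBar_arithmeticGalois_smul q M h' σ z)
    hϖ (geom_cartesian h' hq A hA)
    (helper882.gpRedData A (q * M) (helper1219.atkinLehnerBar q M h'))
    (riemannRochSpace D) (rr_stable_of_invariant D hD) f hf hfb

/-- **The jump for `Γ`-rational functions at level `q * M`.** -/
theorem geomG_jump (h' : Nat.Coprime q M) (hq : q.Prime) (A : ValuationSubring Qb)
    (hA : A.LiesOverPrime q) {Γ : Subgroup GQ} (hΓ : Γ ≤ A.inertiaSubgroupIn ℚ)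
    {ϖ : Qb} (hϖ : IsUnif A Γ ϖ)
    (D : Divisor Qb ↥(modularFunctionFieldBar (q * M)))
    [FiniteDimensional Qb (riemannRochSpace D)]
    (hD : ∀ τ ∈ Γ, ∀ w : Place Qb ↥(modularFunctionFieldBar (q * M)),
      D (arithmeticGalois (modularFunctionFieldFull (q * M)) τ • w) = D w)
    (i : Fin 2) (f : ↥(modularFunctionFieldBar (q * M))) (hf : f ∈ riemannRochSpace D)
    (hfb : ∀ j, helper882.gpVal A (q * M) (helper1219.atkinLehnerBar q M h') j f ≤ 1)
    (hlt : helper882.gpVal A (q * M) (helper1219.atkinLehnerBar q M h') i f < 1) :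
    ∃ f' ∈ riemannRochSpace D,
      (∀ σ ∈ Γ, arithmeticGalois (modularFunctionFieldFull (q * M)) σ • f' = f') ∧
      (∀ j, helper882.gpVal A (q * M) (helper1219.atkinLehnerBar q M h') j f' ≤ 1) ∧
      helper882.gpVal A (q * M) (helper1219.atkinLehnerBar q M h') i f'
        ≤ helper882.gpBase A (q * M) ϖ ∧
      helper882.gpRed A (q * M) (helper1219.atkinLehnerBar q M h') f'
        = helper882.gpRed A (q * M) (helper1219.atkinLehnerBar q M h') f :=
  gp_jump hq hA hΓ
    (fun σ _ z => helper1219.atkinLehnerBar_arithmeticGalois_smul q M h' σ z)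
    hϖ (geom_cartesian h' hq A hA)
    (helper882.gpRedData A (q * M) (helper1219.atkinLehnerBar q M h'))
    (riemannRochSpace D) (rr_stable_of_invariant D hD) i f hf hfb hlt

/-- **The rational lift over `K₀`** (`Γ` = inertia). -/
theorem geom_fixed_lift (h' : Nat.Coprime q M) (hq : q.Prime) (A : ValuationSubring Qb)
    (hA : A.LiesOverPrime q)
    (D : Divisor Qb ↥(modularFunctionFieldBar (q * M)))
    [FiniteDimensional Qb (riemannRochSpace D)]
    (hD : ∀ τ ∈ A.inertiaSubgroupIn ℚ, ∀ w : Place Qb ↥(modularFunctionFieldBar (q * M)),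
      D (arithmeticGalois (modularFunctionFieldFull (q * M)) τ • w) = D w)
    (f : ↥(modularFunctionFieldBar (q * M))) (hf : f ∈ riemannRochSpace D)
    (hfb : ∀ j, helper882.gpVal A (q * M) (helper1219.atkinLehnerBar q M h') j f ≤ 1) :
    ∃ f' ∈ riemannRochSpace D,
      (∀ σ ∈ A.inertiaSubgroupIn ℚ,
        arithmeticGalois (modularFunctionFieldFull (q * M)) σ • f' = f') ∧
      (∀ j, helper882.gpVal A (q * M) (helper1219.atkinLehnerBar q M h') j f' ≤ 1) ∧
      (∀ j, helper882.gpVal A (q * M) (helper1219.atkinLehnerBar q M h') j (f - f') < 1) ∧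
      helper882.gpRed A (q * M) (helper1219.atkinLehnerBar q M h') f'
        = helper882.gpRed A (q * M) (helper1219.atkinLehnerBar q M h') f :=
  geomG_fixed_lift h' hq A hA le_rfl (isUnif_inertia hq hA) D hD f hf hfb

/-- **The rational lift over `L = K₀(ϖ)`** (`Γ` = stabiliser of `ϖ` in the inertia group). -/
theorem geomL_fixed_lift (h' : Nat.Coprime q M) (hq : q.Prime) (A : ValuationSubring Qb)
    (hA : A.LiesOverPrime q)
    {ϖ : Qb} (hϖ0 : ϖ ≠ 0) (hϖA : ϖ ∈ A.nonunits) {e : ℕ} (x : Fin e → Qb)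
    (hx : Function.Injective x)
    (hxorb : Set.range x = Set.range fun σ : ↥(A.inertiaSubgroupIn ℚ) => (σ : GQ) ϖ)
    {u : Qb} (hu : u ∈ A) (hu' : u⁻¹ ∈ A) (hϖe : ϖ ^ e = (q : Qb) * u)
    (D : Divisor Qb ↥(modularFunctionFieldBar (q * M)))
    [FiniteDimensional Qb (riemannRochSpace D)]
    (hD : ∀ τ ∈ stab (A.inertiaSubgroupIn ℚ) ϖ,
      ∀ w : Place Qb ↥(modularFunctionFieldBar (q * M)),
      D (arithmeticGalois (modularFunctionFieldFull (q * M)) τ • w) = D w)
    (f : ↥(modularFunctionFieldBar (q * M))) (hf : f ∈ riemannRochSpace D)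
    (hfb : ∀ j, helper882.gpVal A (q * M) (helper1219.atkinLehnerBar q M h') j f ≤ 1) :
    ∃ f' ∈ riemannRochSpace D,
      (∀ σ ∈ stab (A.inertiaSubgroupIn ℚ) ϖ,
        arithmeticGalois (modularFunctionFieldFull (q * M)) σ • f' = f') ∧
      (∀ j, helper882.gpVal A (q * M) (helper1219.atkinLehnerBar q M h') j f' ≤ 1) ∧
      (∀ j, helper882.gpVal A (q * M) (helper1219.atkinLehnerBar q M h') j (f - f') < 1) ∧
      helper882.gpRed A (q * M) (helper1219.atkinLehnerBar q M h') f'
        = helper882.gpRed A (q * M) (helper1219.atkinLehnerBar q M h') f :=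
  have : Fact q.Prime := ⟨hq⟩
  geomG_fixed_lift h' hq A hA (stab_le _ _)
    (isUnif_stab_inertia hA hϖ0 hϖA x hx hxorb hu hu' hϖe) D hD f hf hfb

end Level

end Fermat.Agent.S44.helper4929
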