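import Fermat.Agent.S30.helper54_MachineExport
import Fermat.Agent.S58.helper5765_FrobTors
import Fermat.Agent.Lib.helper1844_FrobGenAll
import Fermat.Agent.Lib.helper54_Frobenius

/-!
# S44, module L8 (helper54): equivariant maps out of `E[p]` are Hecke eigen

`P` a Frey package, `E[p] = FreyTor P` the `p`-torsion of the Frey curve over `ℚ̄` with its
`Gal(ℚ̄/ℚ)`-action, `W` any integral model of the Frey curve.

* `frob_relation_freyTor` : `σ² - a_ℓ(W) σ + ℓ = 0` on `E[p]` for every Frobenius element `σ` at a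
  prime `ℓ ≠ p` of good reduction of `W` (S58 `helper5765` + the unconditional Frobenius
  Cayley–Hamilton `Lib.helper1844`), as an identity in `E[p]`.
* `hecke_eigen_of_equivariant` **(EIGEN)** : EVERY `Gal(ℚ̄/ℚ)`-equivariant additive map
  `ψ : E[p] → J₀(M)` (any level `M`) lands in the `a_ℓ(W)`-eigenspace of `T_ℓ`, for every prime
  `ℓ ∤ M`, `ℓ ≠ p`, good for `W`.  Proof: Eichler–Shimura on `J₀(M)[p]` (the S30 machine export
  `stmt_ESMod`) reads `T_ℓ (σ y) = σ² y + ℓ y`; with `y = ψ x` and the relation on `E[p]` this is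
  `a_ℓ • σ y`; and `σ` is onto `E[p]`.  No injectivity, no irreducibility, no commutation of
  `T_ℓ` with degeneracy maps is needed.
-/

set_option autoImplicit false
set_option linter.style.haveILetI false

open ModularCurve AlgebraicCurve WeierstrassCurve WeierstrassCurve.Affine

namespace Fermat.Agent.S44.helper54

local notation "Qb" => AlgebraicClosure ℚ
local notation "GQ" => (AlgebraicClosure ℚ ≃ₐ[ℚ] AlgebraicClosure ℚ)

/-- The `p`-torsion of the Frey curve over `ℚ̄` (the Prelude carrier of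
`GaloisRepIsIrreducible ℚ P.freyCurve P.p`). -/
abbrev FreyTor (P : FreyPackage) : Type :=
  Submodule.torsionBy ℤ ((P.freyCurve)⁄Qb).Point P.p

/-- Elements of `E[p]` are killed by `p`. -/
theorem nsmul_freyTor (P : FreyPackage) (x : FreyTor P) : P.p • x = 0 := by
  rw [← Nat.cast_smul_eq_nsmul ℤ P.p x]
  exact Submodule.smul_torsionBy _ x

/-- **Frobenius relation on `E[p]`**: `σ² - a_ℓ(W) σ + ℓ = 0` for every Frobenius element `σ` at a
good prime `ℓ ≠ p` of an integral model `W`. -/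
theorem frob_relation_freyTor (P : FreyPackage) (W : WeierstrassCurve ℤ)
    (hW : W.IsIntegralModelOf P.freyCurve) {ℓ : ℕ} (hℓ : ℓ.Prime) (hg : W.IsGoodPrimeFor ℓ)
    (hℓp : ℓ ≠ P.p) (A : ValuationSubring Qb) (hA : A.LiesOverPrime ℓ) (σ : GQ)
    (hσ : A.IsFrobeniusAt σ ℓ) (x : FreyTor P) :
    σ • σ • x - W.apOfModel ℓ • σ • x + (ℓ : ℤ) • x = 0 := by
  haveI : Fact ℓ.Prime := ⟨hℓ⟩
  have hcop : Nat.Coprime P.p ℓ := (Nat.coprime_primes P.pp hℓ).mpr (Ne.symm hℓp)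
  have hP : P.p • (x : ((P.freyCurve)⁄Qb).Point) = 0 := by
    have h := (Submodule.mem_torsionBy_iff _ _).mp x.2
    rwa [natCast_zsmul] at h
  have key := Fermat.Agent.S58.helper5765.frob_relation_of_isIntegralModelOf P.freyCurve W hW ℓ hg
    (fun K _ _ _ _ => Fermat.Agent.Lib.helper1844.frobCH_all ℓ W hg K) A hA σ hσ P.p hcop x.1 hP
  apply Subtype.ext
  exact key

/-- **(EIGEN).** Every `Gal(ℚ̄/ℚ)`-equivariant additive map from the `p`-torsion of the Frey curve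
to `J₀(M)` lands in the `a_ℓ(W)`-eigenspace of `T_ℓ`, for every prime `ℓ ∤ M`, `ℓ ≠ p`, of good
reduction for the integral model `W`. -/
theorem hecke_eigen_of_equivariant (P : FreyPackage) {M : ℕ} [NeZero M]
    (W : WeierstrassCurve ℤ) (hW : W.IsIntegralModelOf P.freyCurve)
    (ψ : FreyTor P →+ JZero M) (hψ : ∀ (σ : GQ) (x : FreyTor P), ψ (σ • x) = σ • ψ x)
    (ℓ : ℕ) (hℓ : ℓ.Prime) (hℓM : ¬ ℓ ∣ M) (hg : W.IsGoodPrimeFor ℓ) (hℓp : ℓ ≠ P.p)
    (x : FreyTor P) :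
    heckeOperatorBar M ⟨ℓ, hℓ⟩ (ψ x) = W.apOfModel ℓ • ψ x := by
  obtain ⟨A, σ, hA, hσ⟩ := Fermat.Agent.Lib.helper54.exists_liesOverPrime_isFrobeniusAt hℓ
  obtain ⟨x', rfl⟩ : ∃ x' : FreyTor P, σ • x' = x := ⟨σ⁻¹ • x, smul_inv_smul σ x⟩
  have hℓp' : ¬ ℓ ∣ P.p := fun h => hℓp ((Nat.prime_dvd_prime_iff_eq hℓ P.pp).mp h)
  have hpy : P.p • ψ x' = 0 := by
    rw [← map_nsmul, nsmul_freyTor, map_zero]
  have hES := Fermat.Agent.S30.helper54.stmt_ESMod M P.p ℓ hℓ hℓM hℓp' A hA σ hσ (ψ x') hpy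
  have hE := congrArg ψ (frob_relation_freyTor P W hW hℓ hg hℓp A hA σ hσ x')
  rw [map_add, map_sub, map_zsmul, map_zsmul, hψ, hψ, map_zero] at hE
  rw [hψ]
  have h1 : heckeOperatorBar M ⟨ℓ, hℓ⟩ (σ • ψ x') = σ • σ • ψ x' + ℓ • ψ x' := by
    have e : σ • σ • ψ x' + ℓ • ψ x' - heckeOperatorBar M ⟨ℓ, hℓ⟩ (σ • ψ x') = 0 := by
      rw [← hES]
      abel
    exact (sub_eq_zero.mp e).symm
  have h2 : W.apOfModel ℓ • σ • ψ x' = σ • σ • ψ x' + (ℓ : ℤ) • ψ x' := by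
    have e : σ • σ • ψ x' + (ℓ : ℤ) • ψ x' - W.apOfModel ℓ • σ • ψ x' = 0 := by
      rw [← hE]
      abel
    exact (sub_eq_zero.mp e).symm
  rw [h1, h2, natCast_zsmul]

end Fermat.Agent.S44.helper54
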