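/-
helper929 — Boston–Lenstra–Ribet in embedding form (Mathlib + the landed S32 UNIV lemma).

`k` a field, `G` a group, `ρ : G → M₂(k)` with `k[G] → M₂(k)` onto (absolute irreducibility),
`M ≠ 0` a `k[G]`-module on which every `g` satisfies the characteristic polynomial of `ρ g`
(Eichler–Shimura + Chebotarev).  Then `k²` (with the action `ρ`) embeds `G`-equivariantly
into `M`; more precisely `M` is a module over `M₂(k)` through `ρ`.

Also: module form (`V` two-dimensional with `span (range ρ) = ⊤`) and the criterion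
"irreducible + an involution with eigenvalues `1, -1`" for the full-span hypothesis.
-/
import Fermat.Agent.S32.helper929_FinCarayol

set_option autoImplicit false

namespace Fermat.Agent.S44.helper929

open Fermat.Agent.S32.helper929

section MatrixForm

variable {G : Type*} [Group G] {k : Type*} [Field k]
variable {M : Type*} [AddCommGroup M] [Module k M]

/-- The matrix with first column `v` and second column `0`. -/
def colMat (v : Fin 2 → k) : Matrix (Fin 2) (Fin 2) k := !![v 0, 0; v 1, 0]

theorem mul_colMat (X : Matrix (Fin 2) (Fin 2) k) (v : Fin 2 → k) :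
    X * colMat v = colMat (X.mulVec v) := by
  ext i j
  fin_cases i <;> fin_cases j <;>
    simp [colMat, Matrix.mul_apply, Matrix.mulVec, dotProduct, Fin.sum_univ_two]

theorem colMat_add (v w : Fin 2 → k) : colMat (v + w) = colMat v + colMat w := by
  ext i j
  fin_cases i <;> fin_cases j <;> simp [colMat]

theorem colMat_smul (c : k) (v : Fin 2 → k) : colMat (c • v) = c • colMat v := by
  ext i j
  fin_cases i <;> fin_cases j <;> simp [colMat]

theorem e11_mul_colMat (v : Fin 2 → k) :
    (!![1, 0; 0, 0] : Matrix (Fin 2) (Fin 2) k) * colMat v = v 0 • !![1, 0; 0, 0] := by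
  ext i j
  fin_cases i <;> fin_cases j <;> simp [colMat, Matrix.mul_apply, Fin.sum_univ_two]

theorem e12_mul_colMat (v : Fin 2 → k) :
    (!![0, 1; 0, 0] : Matrix (Fin 2) (Fin 2) k) * colMat v = v 1 • !![1, 0; 0, 0] := by
  ext i j
  fin_cases i <;> fin_cases j <;> simp [colMat, Matrix.mul_apply, Fin.sum_univ_two]

theorem colMat_mul_e11 (v : Fin 2 → k) :
    colMat v * (!![1, 0; 0, 0] : Matrix (Fin 2) (Fin 2) k) = colMat v := by
  ext i j
  fin_cases i <;> fin_cases j <;> simp [colMat, Matrix.mul_apply, Fin.sum_univ_two]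

/-- A nonzero module over `M₂(k)` contains a nonzero vector fixed by `e₁₁`. -/
theorem exists_ne_zero_e11_fixed [Nontrivial M]
    (Φ : Matrix (Fin 2) (Fin 2) k →ₐ[k] Module.End k M) :
    ∃ m1 : M, m1 ≠ 0 ∧ Φ !![1, 0; 0, 0] m1 = m1 := by
  obtain ⟨m, hm⟩ := exists_ne (0 : M)
  by_cases h : Φ !![1, 0; 0, 0] m = 0
  · have h22 : Φ !![0, 0; 0, 1] m = m := by
      have hsum : (!![1, 0; 0, 0] : Matrix (Fin 2) (Fin 2) k) + !![0, 0; 0, 1] = 1 := by
        ext i j
        fin_cases i <;> fin_cases j <;> simp
      have h1 : Φ (!![1, 0; 0, 0] + !![0, 0; 0, 1]) m = m := by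
        rw [hsum, map_one]; rfl
      rw [map_add, LinearMap.add_apply, h, zero_add] at h1
      exact h1
    refine ⟨Φ !![0, 1; 0, 0] m, fun h0 => ?_, ?_⟩
    · have h2 : Φ !![0, 0; 1, 0] (Φ !![0, 1; 0, 0] m) = m := by
        rw [← Module.End.mul_apply, ← map_mul]
        have : (!![0, 0; 1, 0] : Matrix (Fin 2) (Fin 2) k) * !![0, 1; 0, 0] = !![0, 0; 0, 1] := by
          ext i j
          fin_cases i <;> fin_cases j <;> simp [Matrix.mul_apply, Fin.sum_univ_two]
        rw [this, h22]
      rw [h0, map_zero] at h2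
      exact hm h2.symm
    · rw [← Module.End.mul_apply, ← map_mul]
      have : (!![1, 0; 0, 0] : Matrix (Fin 2) (Fin 2) k) * !![0, 1; 0, 0] = !![0, 1; 0, 0] := by
        ext i j
        fin_cases i <;> fin_cases j <;> simp [Matrix.mul_apply, Fin.sum_univ_two]
      rw [this]
  · refine ⟨Φ !![1, 0; 0, 0] m, h, ?_⟩
    rw [← Module.End.mul_apply, ← map_mul, e11_mul_e11]

/-- **BLR, algebra form**: a nonzero module over `M₂(k)` contains a copy of `k²`. -/
theorem exists_injective_of_algHom [Nontrivial M]
    (Φ : Matrix (Fin 2) (Fin 2) k →ₐ[k] Module.End k M) :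
    ∃ j : (Fin 2 → k) →ₗ[k] M, Function.Injective j ∧
      ∀ (X : Matrix (Fin 2) (Fin 2) k) (v : Fin 2 → k), j (X.mulVec v) = Φ X (j v) := by
  obtain ⟨m1, hm1, hfix⟩ := exists_ne_zero_e11_fixed Φ
  let j : (Fin 2 → k) →ₗ[k] M :=
    { toFun := fun v => Φ (colMat v) m1
      map_add' := fun v w => by rw [colMat_add, map_add, LinearMap.add_apply]
      map_smul' := fun c v => by
        rw [colMat_smul, map_smul, LinearMap.smul_apply, RingHom.id_apply] }
  have hj : ∀ v, j v = Φ (colMat v) m1 := fun _ => rfl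
  refine ⟨j, ?_, fun X v => ?_⟩
  · rw [← LinearMap.ker_eq_bot, LinearMap.ker_eq_bot']
    intro v hv
    rw [hj] at hv
    have h0 : v 0 • m1 = 0 := by
      have h1 : Φ !![1, 0; 0, 0] (Φ (colMat v) m1) = v 0 • m1 := by
        rw [← Module.End.mul_apply, ← map_mul, e11_mul_colMat, map_smul, LinearMap.smul_apply,
          hfix]
      rw [hv, map_zero] at h1
      exact h1.symm
    have h1 : v 1 • m1 = 0 := by
      have h1 : Φ !![0, 1; 0, 0] (Φ (colMat v) m1) = v 1 • m1 := by
        rw [← Module.End.mul_apply, ← map_mul, e12_mul_colMat, map_smul, LinearMap.smul_apply,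
          hfix]
      rw [hv, map_zero] at h1
      exact h1.symm
    funext i
    fin_cases i
    · exact (smul_eq_zero.mp h0).resolve_right hm1
    · exact (smul_eq_zero.mp h1).resolve_right hm1
  · rw [hj, hj, ← mul_colMat, map_mul, Module.End.mul_apply]

/-- **BLR, matrix form.**  If `k[G] → M₂(k)` is onto and every `g` satisfies on `M ≠ 0` the
characteristic polynomial of `ρ g`, then `k²` embeds `G`-equivariantly into `M`. -/
theorem exists_equivariant_injective [Nontrivial M]
    (ρ : G →* Matrix (Fin 2) (Fin 2) k) (hsurj : Function.Surjective (matLift ρ))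
    (ψ : G →* Module.End k M)
    (hψ : ∀ g, ψ g * ψ g - (ρ g).trace • ψ g + (ρ g).det • (1 : Module.End k M) = 0) :
    ∃ j : (Fin 2 → k) →ₗ[k] M, Function.Injective j ∧
      ∀ (g : G) (v : Fin 2 → k), j ((ρ g).mulVec v) = ψ g (j v) := by
  obtain ⟨Φ, hΦ⟩ := univ_exists_algHom (ρ := ρ) (ψ := ψ) hψ hsurj
  obtain ⟨j, hinj, hj⟩ := exists_injective_of_algHom Φ
  exact ⟨j, hinj, fun g v => by rw [hj, hΦ]⟩

/-- Span form of the hypothesis. -/
theorem exists_equivariant_injective_of_span [Nontrivial M]
    (ρ : G →* Matrix (Fin 2) (Fin 2) k) (hspan : Submodule.span k (Set.range ρ) = ⊤)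
    (ψ : G →* Module.End k M)
    (hψ : ∀ g, ψ g * ψ g - (ρ g).trace • ψ g + (ρ g).det • (1 : Module.End k M) = 0) :
    ∃ j : (Fin 2 → k) →ₗ[k] M, Function.Injective j ∧
      ∀ (g : G) (v : Fin 2 → k), j ((ρ g).mulVec v) = ψ g (j v) :=
  exists_equivariant_injective ρ (matLift_surjective_of_span ρ hspan) ψ hψ

end MatrixForm

section Irr

variable {G : Type*} [Group G] {k : Type*} [Field k]

/-- Rank-one identity: a `2 × 2` matrix of determinant `0` satisfies `e Y e = tr(e Y) e`. -/
theorem mul_mul_self_of_det_eq_zero {T : Type*} [CommRing T]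
    (e Y : Matrix (Fin 2) (Fin 2) T) (he : e.det = 0) :
    e * Y * e = (e * Y).trace • e := by
  rw [Matrix.det_fin_two] at he
  ext i j
  fin_cases i <;> fin_cases j <;>
    simp only [Matrix.mul_apply, Matrix.trace_fin_two, Fin.sum_univ_two, Matrix.smul_apply,
      smul_eq_mul, Fin.zero_eta, Fin.mk_one, Fin.isValue]
  · linear_combination (- Y 1 1) * he
  · linear_combination (Y 0 1) * he
  · linear_combination (Y 1 0) * he
  · linear_combination (- Y 0 0) * he

/-- A `2 × 2` matrix of determinant `0` and trace `1` is idempotent. -/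
theorem mul_self_of_det_eq_zero_of_trace_eq_one {T : Type*} [CommRing T]
    (e : Matrix (Fin 2) (Fin 2) T) (he : e.det = 0) (ht : e.trace = 1) : e * e = e := by
  have h := mul_mul_self_of_det_eq_zero e 1 he
  rwa [mul_one, ht, one_smul] at h

/-- For an idempotent `e ≠ 0` with `det e = 0` and a matrix `Y` which does not preserve the
line `im e`, we have `(1 - e) Y e ≠ 0`. Stated with the hypothesis on a fixed vector. -/
theorem compl_mul_mul_ne_zero
    (e Y : Matrix (Fin 2) (Fin 2) k) (he : e.det = 0)
    (u : Fin 2 → k) (hu : e.mulVec u = u) (hY : ∀ c : k, Y.mulVec u ≠ c • u) :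
    (1 - e) * Y * e ≠ 0 := by
  intro h0
  have h1 : Y * e = (e * Y).trace • e := by
    have h2 : Y * e = e * Y * e + (1 - e) * Y * e := by
      simp only [sub_mul, one_mul]; abel
    rw [h2, h0, add_zero, mul_mul_self_of_det_eq_zero e Y he]
  apply hY ((e * Y).trace)
  calc Y.mulVec u = Y.mulVec (e.mulVec u) := by rw [hu]
    _ = (Y * e).mulVec u := by rw [Matrix.mulVec_mulVec]
    _ = (e * Y).trace • u := by rw [h1, Matrix.smul_mulVec, hu]

/-- A nonzero idempotent matrix fixes a nonzero vector. -/
theorem exists_ne_zero_mulVec_eq (e : Matrix (Fin 2) (Fin 2) k) (hee : e * e = e) (hne : e ≠ 0) :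
    ∃ u : Fin 2 → k, u ≠ 0 ∧ e.mulVec u = u := by
  have : ∃ i j, e i j ≠ 0 := by
    by_contra hcon
    refine hne (Matrix.ext fun i j => ?_)
    by_contra hij
    exact hcon ⟨i, j, hij⟩
  obtain ⟨i, j, hij⟩ := this
  refine ⟨fun l => e l j, fun h => hij (congrFun h i), ?_⟩
  funext l
  have := congrFun (congrFun hee l) j
  rw [Matrix.mul_apply] at this
  simpa [Matrix.mulVec, dotProduct] using this

set_option linter.unusedSimpArgs false in
/-- **Absolute irreducibility criterion.** If `ρ : G → GL₂(k)` has no invariant line and some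
`ρ g₀` has two distinct eigenvalues in `k`, then `k[G] → M₂(k)` is onto. -/
theorem matLift_surjective_of_irreducible
    (ρ : G →* Matrix (Fin 2) (Fin 2) k)
    (hirr : ∀ v : Fin 2 → k, v ≠ 0 → ∃ g : G, ∀ c : k, (ρ g).mulVec v ≠ c • v)
    (g₀ : G) (a b : k) (hab : a ≠ b)
    (htr : (ρ g₀).trace = a + b) (hdet : (ρ g₀).det = a * b) :
    Function.Surjective (matLift ρ) := by
  classical
  set S : Subalgebra k (Matrix (Fin 2) (Fin 2) k) := (matLift ρ).range with hS
  have hρ : ∀ g, ρ g ∈ S := fun g => ⟨MonoidAlgebra.of k G g, by simp [matLift]⟩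
  have hab' : a - b ≠ 0 := sub_ne_zero.mpr hab
  set X := ρ g₀ with hX
  set e : Matrix (Fin 2) (Fin 2) k := (a - b)⁻¹ • (X - b • 1) with he_def
  set f : Matrix (Fin 2) (Fin 2) k := 1 - e with hf_def
  have heS : e ∈ S := S.smul_mem (S.sub_mem (hρ g₀) (S.smul_mem S.one_mem b)) _
  have hfS : f ∈ S := S.sub_mem S.one_mem heS
  rw [Matrix.trace_fin_two] at htr
  rw [Matrix.det_fin_two] at hdet
  have he_det : e.det = 0 := by
    rw [Matrix.det_fin_two]
    simp only [he_def, Matrix.smul_apply, Matrix.sub_apply, Matrix.one_apply_eq, smul_eq_mul,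
      mul_one, Matrix.one_apply_ne, ne_eq, zero_ne_one, one_ne_zero, not_false_eq_true, mul_zero,
      sub_zero, Fin.isValue]
    have : (X 0 0 - b) * (X 1 1 - b) - X 0 1 * X 1 0 = 0 := by
      linear_combination hdet - b * htr
    linear_combination (a - b)⁻¹ * (a - b)⁻¹ * this
  have he_tr : e.trace = 1 := by
    rw [Matrix.trace_fin_two]
    simp only [he_def, Matrix.smul_apply, Matrix.sub_apply, Matrix.one_apply_eq, smul_eq_mul,
      mul_one, Fin.isValue]
    field_simp
    linear_combination htr
  have hf_det : f.det = 0 := by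
    rw [Matrix.det_fin_two] at he_det ⊢
    rw [Matrix.trace_fin_two] at he_tr
    simp only [hf_def, Matrix.sub_apply, Matrix.one_apply_eq, Matrix.one_apply_ne, ne_eq,
      zero_ne_one, one_ne_zero, not_false_eq_true, Fin.isValue]
    linear_combination he_det - he_tr
  have hee : e * e = e := mul_self_of_det_eq_zero_of_trace_eq_one e he_det he_tr
  have hef : e * f = 0 := by rw [hf_def, mul_sub, mul_one, hee, sub_self]
  have hfe : f * e = 0 := by rw [hf_def, sub_mul, one_mul, hee, sub_self]
  have hff : f * f = f := by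
    rw [hf_def, mul_sub, mul_one, sub_mul, one_mul, hee, sub_self, sub_zero]
  have he_ne : e ≠ 0 := by
    intro h; rw [h, Matrix.trace_zero] at he_tr; exact zero_ne_one he_tr
  have hf_ne : f ≠ 0 := by
    intro h
    have h1 : e = 1 := by rw [hf_def, sub_eq_zero] at h; exact h.symm
    rw [h1, Matrix.det_one] at he_det
    exact one_ne_zero he_det
  obtain ⟨u, hu0, hu⟩ := exists_ne_zero_mulVec_eq e hee he_ne
  obtain ⟨w, hw0, hw⟩ := exists_ne_zero_mulVec_eq f hff hf_ne
  obtain ⟨g₁, hg₁⟩ := hirr u hu0
  obtain ⟨g₂, hg₂⟩ := hirr w hw0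
  have hF : f * ρ g₁ * e ≠ 0 := compl_mul_mul_ne_zero e (ρ g₁) he_det u hu hg₁
  have hE : e * ρ g₂ * f ≠ 0 := by
    have := compl_mul_mul_ne_zero f (ρ g₂) hf_det w hw hg₂
    rwa [show (1 : Matrix (Fin 2) (Fin 2) k) - f = e by rw [hf_def]; abel] at this
  set F := f * ρ g₁ * e with hF_def
  set E := e * ρ g₂ * f with hE_def
  have hFS : F ∈ S := S.mul_mem (S.mul_mem hfS (hρ g₁)) heS
  have hES : E ∈ S := S.mul_mem (S.mul_mem heS (hρ g₂)) hfS
  have heE : e * E = E := by rw [hE_def, ← mul_assoc, ← mul_assoc, hee]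
  have hEf : E * f = E := by rw [hE_def, mul_assoc, hff]
  have hfF : f * F = F := by rw [hF_def, ← mul_assoc, ← mul_assoc, hff]
  have hFe : F * e = F := by rw [hF_def, mul_assoc, hee]
  have hEe : E * e = 0 := by rw [hE_def, mul_assoc, hfe, mul_zero]
  have hfE : f * E = 0 := by rw [hE_def, ← mul_assoc, ← mul_assoc, hfe, zero_mul, zero_mul]
  have hFf : F * f = 0 := by rw [hF_def, mul_assoc, hef, mul_zero]
  have heF : e * F = 0 := by rw [hF_def, ← mul_assoc, ← mul_assoc, hef, zero_mul, zero_mul]
  have hli : LinearIndependent k ![e, f, E, F] := by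
    rw [Fintype.linearIndependent_iff]
    intro c hc
    have hc' : c 0 • e + c 1 • f + c 2 • E + c 3 • F = 0 := by
      simpa [Fin.sum_univ_four] using hc
    have h0 : c 0 = 0 := by
      have := congrArg (fun Z => e * Z * e) hc'
      simp only [mul_add, add_mul, Matrix.mul_smul, Matrix.smul_mul, hee, hef, hfe, hff, heE,
        hEf, hfF, hFe, hEe, heF, hfE, hFf, mul_zero, zero_mul, smul_zero, add_zero,
        zero_add] at this
      exact (smul_eq_zero.mp this).resolve_right he_ne
    have h1 : c 1 = 0 := by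
      have := congrArg (fun Z => f * Z * f) hc'
      simp only [mul_add, add_mul, Matrix.mul_smul, Matrix.smul_mul, hee, hef, hfe, hff, heE,
        hEf, hfF, hFe, hEe, heF, hfE, hFf, mul_zero, zero_mul, smul_zero, add_zero,
        zero_add] at this
      exact (smul_eq_zero.mp this).resolve_right hf_ne
    have h2 : c 2 = 0 := by
      have := congrArg (fun Z => e * Z * f) hc'
      simp only [mul_add, add_mul, Matrix.mul_smul, Matrix.smul_mul, hee, hef, hfe, hff, heE,
        hEf, hfF, hFe, hEe, heF, hfE, hFf, mul_zero, zero_mul, smul_zero, add_zero,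
        zero_add] at this
      exact (smul_eq_zero.mp this).resolve_right hE
    have h3 : c 3 = 0 := by
      have := congrArg (fun Z => f * Z * e) hc'
      simp only [mul_add, add_mul, Matrix.mul_smul, Matrix.smul_mul, hee, hef, hfe, hff, heE,
        hEf, hfF, hFe, hEe, heF, hfE, hFf, mul_zero, zero_mul, smul_zero, add_zero,
        zero_add] at this
      exact (smul_eq_zero.mp this).resolve_right hF
    intro i
    fin_cases i
    · exact h0
    · exact h1
    · exact h2
    · exact h3
  have hspan : Submodule.span k (Set.range ![e, f, E, F]) = ⊤ := by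
    apply hli.span_eq_top_of_card_eq_finrank'
    rw [Module.finrank_matrix, Module.finrank_self]
    simp
  have htop : Subalgebra.toSubmodule S = ⊤ := by
    rw [eq_top_iff, ← hspan, Submodule.span_le]
    rintro _ ⟨i, rfl⟩
    fin_cases i
    · exact heS
    · exact hfS
    · exact hES
    · exact hFS
  intro Z
  have hZ : Z ∈ Subalgebra.toSubmodule S := by rw [htop]; exact Submodule.mem_top
  exact hZ

end Irr

section ModuleForm

variable {G : Type*} [Group G] {k : Type*} [Field k]
variable {V : Type*} [AddCommGroup V] [Module k V]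
variable {M : Type*} [AddCommGroup M] [Module k M]

/-- The matrix representation attached to `ρV : G →* End_k V` in a basis. -/
noncomputable def matRep (bV : Module.Basis (Fin 2) k V) (ρV : G →* Module.End k V) :
    G →* Matrix (Fin 2) (Fin 2) k :=
  ((LinearMap.toMatrixAlgEquiv bV : Module.End k V ≃ₐ[k] Matrix (Fin 2) (Fin 2) k) :
    Module.End k V →* Matrix (Fin 2) (Fin 2) k).comp ρV

theorem matRep_apply (bV : Module.Basis (Fin 2) k V) (ρV : G →* Module.End k V) (g : G) :
    matRep bV ρV g = LinearMap.toMatrix bV bV (ρV g) := rfl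

theorem matRep_trace (bV : Module.Basis (Fin 2) k V) (ρV : G →* Module.End k V) (g : G) :
    (matRep bV ρV g).trace = LinearMap.trace k V (ρV g) := by
  rw [matRep_apply, ← LinearMap.trace_eq_matrix_trace k bV]

theorem matRep_det (bV : Module.Basis (Fin 2) k V) (ρV : G →* Module.End k V) (g : G) :
    (matRep bV ρV g).det = LinearMap.det (ρV g) := by
  rw [matRep_apply, LinearMap.det_toMatrix]

theorem matRep_mulVec (bV : Module.Basis (Fin 2) k V) (ρV : G →* Module.End k V) (g : G)
    (x : V) : (matRep bV ρV g).mulVec (bV.equivFun x) = bV.equivFun (ρV g x) := by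
  rw [matRep_apply]
  exact LinearMap.toMatrix_mulVec_repr bV bV (ρV g) x

/-- No invariant line, from irreducibility in submodule form. -/
theorem matRep_irreducible (hV : Module.finrank k V = 2)
    (bV : Module.Basis (Fin 2) k V) (ρV : G →* Module.End k V)
    (hirr : ∀ W : Submodule k V, (∀ g, ∀ x ∈ W, ρV g x ∈ W) → W = ⊥ ∨ W = ⊤)
    (v : Fin 2 → k) (hv : v ≠ 0) :
    ∃ g : G, ∀ c : k, (matRep bV ρV g).mulVec v ≠ c • v := by
  by_contra hcon
  have hcon' : ∀ g : G, ∃ c : k, (matRep bV ρV g).mulVec v = c • v := by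
    intro g
    by_contra h
    exact hcon ⟨g, fun c hc => h ⟨c, hc⟩⟩
  set x : V := bV.equivFun.symm v with hx
  have hx0 : x ≠ 0 := by
    intro h
    apply hv
    have := congrArg bV.equivFun h
    rwa [hx, LinearEquiv.apply_symm_apply, map_zero] at this
  have hstab : ∀ g, ∀ y ∈ Submodule.span k {x}, ρV g y ∈ Submodule.span k {x} := by
    intro g y hy
    obtain ⟨t, rfl⟩ := Submodule.mem_span_singleton.mp hy
    obtain ⟨c, hc⟩ := hcon' g
    have h1 : ρV g x = c • x := by
      apply bV.equivFun.injective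
      rw [← matRep_mulVec, hx, LinearEquiv.apply_symm_apply, hc, map_smul,
        LinearEquiv.apply_symm_apply]
    rw [map_smul, h1]
    exact Submodule.smul_mem _ _ (Submodule.smul_mem _ _ (Submodule.mem_span_singleton_self x))
  rcases hirr _ hstab with h | h
  · exact hx0 ((Submodule.span_singleton_eq_bot).mp h)
  · have h1 := finrank_span_singleton (K := k) hx0
    rw [h, finrank_top, hV] at h1
    omega

/-- **Boston–Lenstra–Ribet, module form.**  `V` a two-dimensional irreducible representation
of `G` over a field `k` in which some `g₀` has two distinct eigenvalues in `k`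
(so `V` is absolutely irreducible); `M ≠ 0` a `k[G]`-module on which every `g` is killed by the
characteristic polynomial of `g` on `V`.  Then `V` embeds `G`-equivariantly into `M`. -/
theorem exists_equivariant_injective_module [Nontrivial M]
    (hV : Module.finrank k V = 2)
    (ρV : G →* Module.End k V)
    (hirr : ∀ W : Submodule k V, (∀ g, ∀ x ∈ W, ρV g x ∈ W) → W = ⊥ ∨ W = ⊤)
    (g₀ : G) (a b : k) (hab : a ≠ b)
    (htr : LinearMap.trace k V (ρV g₀) = a + b) (hdet : LinearMap.det (ρV g₀) = a * b)
    (ψ : G →* Module.End k M)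
    (hψ : ∀ g, ψ g * ψ g - LinearMap.trace k V (ρV g) • ψ g
        + LinearMap.det (ρV g) • (1 : Module.End k M) = 0) :
    ∃ j : V →ₗ[k] M, Function.Injective j ∧ ∀ (g : G) (v : V), j (ρV g v) = ψ g (j v) := by
  have hfin : Module.Finite k V := Module.finite_of_finrank_pos (by rw [hV]; norm_num)
  let bV : Module.Basis (Fin 2) k V := Module.finBasisOfFinrankEq k V hV
  have hsurj : Function.Surjective (matLift (matRep bV ρV)) :=
    matLift_surjective_of_irreducible (matRep bV ρV) (matRep_irreducible hV bV ρV hirr) g₀ a b hab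
      (by rw [matRep_trace, htr]) (by rw [matRep_det, hdet])
  obtain ⟨j₀, hinj, hj₀⟩ := exists_equivariant_injective (matRep bV ρV) hsurj ψ
    (fun g => by rw [matRep_trace, matRep_det]; exact hψ g)
  refine ⟨j₀ ∘ₗ bV.equivFun.toLinearMap, hinj.comp bV.equivFun.injective, fun g v => ?_⟩
  simp only [LinearMap.comp_apply, LinearEquiv.coe_coe]
  rw [← matRep_mulVec, hj₀]

end ModuleForm

section Involution

variable {G : Type*} [Group G] {k : Type*} [Field k]
variable {V : Type*} [AddCommGroup V] [Module k V]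
variable {M : Type*} [AddCommGroup M] [Module k M]

/-- Cayley–Hamilton for `2 × 2` matrices. -/
theorem cayley_hamilton_fin_two {T : Type*} [CommRing T] (X : Matrix (Fin 2) (Fin 2) T) :
    X * X - X.trace • X + X.det • (1 : Matrix (Fin 2) (Fin 2) T) = 0 := by
  ext i j
  fin_cases i <;> fin_cases j <;>
    simp [Matrix.mul_apply, Matrix.trace_fin_two, Matrix.det_fin_two, Fin.sum_univ_two] <;> ring

/-- An involution of determinant `-1` on a plane has trace `0`. -/
theorem trace_eq_zero_of_involution (hV : Module.finrank k V = 2) (f : Module.End k V)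
    (hff : f * f = 1) (hdet : LinearMap.det f = -1) : LinearMap.trace k V f = 0 := by
  have hfin : Module.Finite k V := Module.finite_of_finrank_pos (by rw [hV]; norm_num)
  let bV : Module.Basis (Fin 2) k V := Module.finBasisOfFinrankEq k V hV
  set X := LinearMap.toMatrix bV bV f with hX
  have hXX : X * X = 1 := by
    rw [hX, ← LinearMap.toMatrix_mul, hff, LinearMap.toMatrix_one]
  have hXdet : X.det = -1 := by rw [hX, LinearMap.det_toMatrix, hdet]
  have hch := cayley_hamilton_fin_two X
  rw [hXX, hXdet] at hch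
  have h0 : X.trace • X = 0 := by
    have : X.trace • X = (1 : Matrix (Fin 2) (Fin 2) k) + (-1 : k) • 1 := by
      linear_combination (norm := module) - hch
    rw [this]; module
  rw [LinearMap.trace_eq_matrix_trace k bV f]
  rcases smul_eq_zero.mp h0 with h | h
  · exact h
  · exfalso
    rw [h, mul_zero] at hXX
    exact zero_ne_one hXX

/-- The span of the image of a two-dimensional irreducible representation in which some
element has two distinct eigenvalues is the whole endomorphism algebra (Burnside). -/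
theorem span_range_eq_top_of_irreducible
    (hV : Module.finrank k V = 2)
    (ρV : G →* Module.End k V)
    (hirr : ∀ W : Submodule k V, (∀ g, ∀ x ∈ W, ρV g x ∈ W) → W = ⊥ ∨ W = ⊤)
    (g₀ : G) (a b : k) (hab : a ≠ b)
    (htr : LinearMap.trace k V (ρV g₀) = a + b) (hdet : LinearMap.det (ρV g₀) = a * b) :
    Submodule.span k (Set.range ρV) = ⊤ := by
  have hfin : Module.Finite k V := Module.finite_of_finrank_pos (by rw [hV]; norm_num)
  let bV : Module.Basis (Fin 2) k V := Module.finBasisOfFinrankEq k V hV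
  have hsurj : Function.Surjective (matLift (matRep bV ρV)) :=
    matLift_surjective_of_irreducible (matRep bV ρV) (matRep_irreducible hV bV ρV hirr) g₀ a b hab
      (by rw [matRep_trace, htr]) (by rw [matRep_det, hdet])
  have key : ∀ x : MonoidAlgebra k G,
      (LinearMap.toMatrixAlgEquiv bV).symm (matLift (matRep bV ρV) x)
        ∈ Submodule.span k (Set.range ρV) := by
    intro x
    induction x using MonoidAlgebra.induction_on with
    | of g =>
      have : (LinearMap.toMatrixAlgEquiv bV).symm (matLift (matRep bV ρV) (MonoidAlgebra.of k G g))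
          = ρV g := by
        simp only [matLift, MonoidAlgebra.lift_of]
        exact (LinearMap.toMatrixAlgEquiv bV).symm_apply_apply (ρV g)
      rw [this]
      exact Submodule.subset_span ⟨g, rfl⟩
    | add x y hx hy =>
      rw [map_add, map_add]
      exact Submodule.add_mem _ hx hy
    | smul c x hx =>
      rw [map_smul, map_smul]
      exact Submodule.smul_mem _ c hx
  rw [eq_top_iff]
  intro φ _
  obtain ⟨x, hx⟩ := hsurj (LinearMap.toMatrixAlgEquiv bV φ)
  have := key x
  rwa [hx, AlgEquiv.symm_apply_apply] at this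

/-- **BLR for odd representations**: `V` irreducible of dimension `2`, `c` an involution of `G`
acting with determinant `-1` on `V` (complex conjugation), `2 ≠ 0` in `k`. -/
theorem exists_equivariant_injective_module_of_involution [Nontrivial M]
    (h2 : (2 : k) ≠ 0) (hV : Module.finrank k V = 2)
    (ρV : G →* Module.End k V)
    (hirr : ∀ W : Submodule k V, (∀ g, ∀ x ∈ W, ρV g x ∈ W) → W = ⊥ ∨ W = ⊤)
    (c : G) (hc : c * c = 1) (hdetc : LinearMap.det (ρV c) = -1)
    (ψ : G →* Module.End k M)
    (hψ : ∀ g, ψ g * ψ g - LinearMap.trace k V (ρV g) • ψ g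
        + LinearMap.det (ρV g) • (1 : Module.End k M) = 0) :
    ∃ j : V →ₗ[k] M, Function.Injective j ∧ ∀ (g : G) (v : V), j (ρV g v) = ψ g (j v) := by
  have htr : LinearMap.trace k V (ρV c) = 0 :=
    trace_eq_zero_of_involution hV (ρV c) (by rw [← map_mul, hc, map_one]) hdetc
  refine exists_equivariant_injective_module hV ρV hirr c 1 (-1) ?_ ?_ ?_ ψ hψ
  · intro h
    apply h2
    linear_combination h
  · rw [htr]; ring
  · rw [hdetc]; ring

/-- Burnside for odd representations: span form. -/
theorem span_range_eq_top_of_involution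
    (h2 : (2 : k) ≠ 0) (hV : Module.finrank k V = 2)
    (ρV : G →* Module.End k V)
    (hirr : ∀ W : Submodule k V, (∀ g, ∀ x ∈ W, ρV g x ∈ W) → W = ⊥ ∨ W = ⊤)
    (c : G) (hc : c * c = 1) (hdetc : LinearMap.det (ρV c) = -1) :
    Submodule.span k (Set.range ρV) = ⊤ := by
  have htr : LinearMap.trace k V (ρV c) = 0 :=
    trace_eq_zero_of_involution hV (ρV c) (by rw [← map_mul, hc, map_one]) hdetc
  refine span_range_eq_top_of_irreducible hV ρV hirr c 1 (-1) ?_ ?_ ?_
  · intro h
    apply h2
    linear_combination h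
  · rw [htr]; ring
  · rw [hdetc]; ring

end Involution

section CommonQuadratic

variable {G : Type*} [Group G] {k : Type*} [Field k]
variable {V : Type*} [AddCommGroup V] [Module k V]
variable {M : Type*} [AddCommGroup M] [Module k M]

/-- A non-scalar `2 × 2` matrix has a unique monic annihilating quadratic: its characteristic
polynomial. -/
theorem quad_unique_of_not_scalar (X : Matrix (Fin 2) (Fin 2) k) (hX : ∀ s : k, X ≠ s • 1)
    (t δ : k) (h : X * X - t • X + δ • (1 : Matrix (Fin 2) (Fin 2) k) = 0) :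
    t = X.trace ∧ δ = X.det := by
  have hch := cayley_hamilton_fin_two X
  have h1 : (X.trace - t) • X = (X.det - δ) • (1 : Matrix (Fin 2) (Fin 2) k) := by
    linear_combination (norm := module) h - hch
  have ht : X.trace - t = 0 := by
    by_contra hne
    apply hX ((X.trace - t)⁻¹ * (X.det - δ))
    have := congrArg (fun Z => (X.trace - t)⁻¹ • Z) h1
    simp only [smul_smul, inv_mul_cancel₀ hne, one_smul] at this
    exact this
  rw [ht, zero_smul] at h1
  have h2 := congrFun (congrFun h1 0) 0
  simp only [Matrix.zero_apply, Matrix.smul_apply, Matrix.one_apply_eq, smul_eq_mul,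
    mul_one] at h2
  exact ⟨(sub_eq_zero.mp ht).symm, (sub_eq_zero.mp h2.symm).symm⟩

/-- The determinant of a value of a group representation is nonzero. -/
theorem det_ne_zero_of_monoidHom (ρ : G →* Matrix (Fin 2) (Fin 2) k) (g : G) :
    (ρ g).det ≠ 0 := by
  intro h
  have h1 : ρ g * ρ g⁻¹ = 1 := by rw [← map_mul, mul_inv_cancel, map_one]
  have h2 := congrArg Matrix.det h1
  rw [Matrix.det_mul, h, zero_mul, Matrix.det_one] at h2
  exact zero_ne_one h2

/-- **Forced trace and determinant.**  If some `ρ h` is not scalar, `d` is multiplicative and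
every `ρ g` is killed by some quadratic `X² - t X + d g`, then any such quadratic is the
characteristic polynomial of `ρ g`. -/
theorem forced_trace_det (ρ : G →* Matrix (Fin 2) (Fin 2) k)
    (h₀ : G) (hh₀ : ∀ s : k, ρ h₀ ≠ s • 1)
    (d : G → k) (hd : ∀ g h, d (g * h) = d g * d h)
    (hq : ∀ g, ∃ t : k, ρ g * ρ g - t • ρ g + d g • (1 : Matrix (Fin 2) (Fin 2) k) = 0)
    (g : G) (t : k) (ht : ρ g * ρ g - t • ρ g + d g • (1 : Matrix (Fin 2) (Fin 2) k) = 0) :
    t = (ρ g).trace ∧ d g = (ρ g).det := by
  by_cases hsc : ∀ s : k, ρ g ≠ s • 1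
  · exact quad_unique_of_not_scalar (ρ g) hsc t (d g) ht
  · have hsc' : ∃ s : k, ρ g = s • 1 := by
      by_contra hcon
      exact hsc fun s hs => hcon ⟨s, hs⟩
    obtain ⟨s, hs⟩ := hsc'
    have hdet : (ρ g).det = s * s := by
      rw [hs, det_smul_fin_two, Matrix.det_one, mul_one]
    have hs0 : s ≠ 0 := by
      intro h0
      have := det_ne_zero_of_monoidHom ρ g
      rw [hdet, h0, mul_zero] at this
      exact this rfl
    -- `ρ (g h₀) = s • ρ h₀` is not scalar
    have hgh : ρ (g * h₀) = s • ρ h₀ := by rw [map_mul, hs, smul_mul_assoc, one_mul]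
    have hgh_ns : ∀ r : k, ρ (g * h₀) ≠ r • 1 := by
      intro r hr
      apply hh₀ (s⁻¹ * r)
      rw [hgh] at hr
      have := congrArg (fun Z => s⁻¹ • Z) hr
      simp only [smul_smul, inv_mul_cancel₀ hs0, one_smul] at this
      exact this
    obtain ⟨t1, ht1⟩ := hq (g * h₀)
    obtain ⟨t2, ht2⟩ := hq h₀
    have e1 := (quad_unique_of_not_scalar _ hgh_ns t1 _ ht1).2
    have e2 := (quad_unique_of_not_scalar _ hh₀ t2 _ ht2).2
    rw [hgh, det_smul_fin_two, hd, e2] at e1
    have hdg : d g = s * s := mul_right_cancel₀ (det_ne_zero_of_monoidHom ρ h₀) e1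
    refine ⟨?_, by rw [hdg, hdet]⟩
    rw [hs, hdg] at ht
    have h00 := congrFun (congrFun ht 0) 0
    simp only [Matrix.add_apply, Matrix.sub_apply, Matrix.mul_apply, Fin.sum_univ_two,
      Matrix.smul_apply, Matrix.one_apply_eq, Matrix.one_apply_ne, ne_eq, zero_ne_one,
      one_ne_zero, not_false_eq_true, smul_eq_mul, mul_one, mul_zero, add_zero,
      Matrix.zero_apply, Fin.isValue] at h00
    have hts : t = 2 * s := by
      have : s * (2 * s - t) = 0 := by linear_combination h00
      rcases mul_eq_zero.mp this with h | h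
      · exact absurd h hs0
      · exact (sub_eq_zero.mp h).symm
    rw [hts, hs, Matrix.trace_smul, Matrix.trace_one, Fintype.card_fin, smul_eq_mul]
    push_cast
    ring

/-- Irreducible ⟹ some value is not scalar. -/
theorem exists_not_scalar (ρ : G →* Matrix (Fin 2) (Fin 2) k)
    (hirr : ∀ v : Fin 2 → k, v ≠ 0 → ∃ g : G, ∀ c : k, (ρ g).mulVec v ≠ c • v) :
    ∃ h : G, ∀ s : k, ρ h ≠ s • 1 := by
  have hv : (fun _ => 1 : Fin 2 → k) ≠ 0 := fun h => one_ne_zero (congrFun h 0)
  obtain ⟨g, hg⟩ := hirr _ hv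
  refine ⟨g, fun s hs => hg s ?_⟩
  rw [hs, Matrix.smul_mulVec, Matrix.one_mulVec]

/-- **Oddness ⟹ absolute irreducibility**, common-quadratic shape: `ρ` without invariant line,
`d` multiplicative with `d c = -1` for an involution `c`, every `ρ g` killed by some
`X² - t X + d g`, and `2 ≠ 0`.  Then `k[G] → M₂(k)` is onto. -/
theorem matLift_surjective_of_odd (h2 : (2 : k) ≠ 0)
    (ρ : G →* Matrix (Fin 2) (Fin 2) k)
    (hirr : ∀ v : Fin 2 → k, v ≠ 0 → ∃ g : G, ∀ c : k, (ρ g).mulVec v ≠ c • v)
    (d : G → k) (hd : ∀ g h, d (g * h) = d g * d h)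
    (hq : ∀ g, ∃ t : k, ρ g * ρ g - t • ρ g + d g • (1 : Matrix (Fin 2) (Fin 2) k) = 0)
    (c : G) (hc : c * c = 1) (hdc : d c = -1) :
    Function.Surjective (matLift ρ) := by
  obtain ⟨h₀, hh₀⟩ := exists_not_scalar ρ hirr
  have hforce := forced_trace_det ρ h₀ hh₀ d hd hq
  obtain ⟨tc, htc⟩ := hq c
  obtain ⟨htr, hdet⟩ := hforce c tc htc
  have hcc : ρ c * ρ c = 1 := by rw [← map_mul, hc, map_one]
  have hch := cayley_hamilton_fin_two (ρ c)
  rw [hcc, ← hdet, hdc] at hch
  have h0 : (ρ c).trace • ρ c = 0 := by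
    have : (ρ c).trace • ρ c = (1 : Matrix (Fin 2) (Fin 2) k) + (-1 : k) • 1 := by
      linear_combination (norm := module) - hch
    rw [this]; module
  have htr0 : (ρ c).trace = 0 := by
    rcases smul_eq_zero.mp h0 with h | h
    · exact h
    · exfalso
      rw [h, mul_zero] at hcc
      exact zero_ne_one hcc
  refine matLift_surjective_of_irreducible ρ hirr c 1 (-1) ?_ ?_ ?_
  · intro h
    apply h2
    linear_combination h
  · rw [htr0]; ring
  · rw [← hdet, hdc]; ring

/-- **Boston–Lenstra–Ribet, one-shot "common quadratic" form** (what Eichler–Shimura +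
Chebotarev give without a Weil pairing).  `V` an irreducible two-dimensional representation of
`G` over `k`, `2 ≠ 0`; `d : G → k` multiplicative with `d c = -1` for an involution `c`
(cyclotomic character, complex conjugation); `M ≠ 0` a `k[G]`-module such that every `g` is
killed on `V` and on `M` by a common quadratic `X² - t X + d g`.  Then `V` embeds
`G`-equivariantly into `M`, and `d = det`, `t = trace` on `V`. -/
theorem exists_equivariant_injective_of_common_quadratic [Nontrivial M]
    (h2 : (2 : k) ≠ 0) (hV : Module.finrank k V = 2)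
    (ρV : G →* Module.End k V)
    (hirr : ∀ W : Submodule k V, (∀ g, ∀ x ∈ W, ρV g x ∈ W) → W = ⊥ ∨ W = ⊤)
    (d : G → k) (hd : ∀ g h, d (g * h) = d g * d h)
    (c : G) (hc : c * c = 1) (hdc : d c = -1)
    (ψ : G →* Module.End k M)
    (hq : ∀ g, ∃ t : k, ρV g * ρV g - t • ρV g + d g • (1 : Module.End k V) = 0 ∧
      ψ g * ψ g - t • ψ g + d g • (1 : Module.End k M) = 0) :
    (∃ j : V →ₗ[k] M, Function.Injective j ∧ ∀ (g : G) (v : V), j (ρV g v) = ψ g (j v)) ∧
      (∀ g, LinearMap.det (ρV g) = d g) ∧
      Submodule.span k (Set.range ρV) = ⊤ := by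
  have hfin : Module.Finite k V := Module.finite_of_finrank_pos (by rw [hV]; norm_num)
  let bV : Module.Basis (Fin 2) k V := Module.finBasisOfFinrankEq k V hV
  set ρ := matRep bV ρV with hρ
  have hirr' := matRep_irreducible hV bV ρV hirr
  -- transport of quadratics to matrices
  have htrans : ∀ (g : G) (t : k), ρV g * ρV g - t • ρV g + d g • (1 : Module.End k V) = 0 →
      ρ g * ρ g - t • ρ g + d g • (1 : Matrix (Fin 2) (Fin 2) k) = 0 := by
    intro g t h
    have := congrArg (LinearMap.toMatrixAlgEquiv bV) h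
    rw [map_add, map_sub, map_mul, map_smul, map_smul, map_one, map_zero] at this
    exact this
  have hqρ : ∀ g, ∃ t : k, ρ g * ρ g - t • ρ g + d g • (1 : Matrix (Fin 2) (Fin 2) k) = 0 :=
    fun g => (hq g).imp fun t ht => htrans g t ht.1
  have hsurj : Function.Surjective (matLift ρ) :=
    matLift_surjective_of_odd h2 ρ hirr' d hd hqρ c hc hdc
  obtain ⟨h₀, hh₀⟩ := exists_not_scalar ρ hirr'
  have hforce := forced_trace_det ρ h₀ hh₀ d hd hqρ
  have hψ : ∀ g, ψ g * ψ g - (ρ g).trace • ψ g + (ρ g).det • (1 : Module.End k M) = 0 := by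
    intro g
    obtain ⟨t, ht1, ht2⟩ := hq g
    obtain ⟨e1, e2⟩ := hforce g t (htrans g t ht1)
    rw [← e1, ← e2]
    exact ht2
  obtain ⟨j₀, hinj, hj₀⟩ := exists_equivariant_injective ρ hsurj ψ hψ
  refine ⟨⟨j₀ ∘ₗ bV.equivFun.toLinearMap, hinj.comp bV.equivFun.injective, fun g v => ?_⟩,
    fun g => ?_, ?_⟩
  · simp only [LinearMap.comp_apply, LinearEquiv.coe_coe]
    rw [← matRep_mulVec, hj₀]
  · obtain ⟨t, ht1, -⟩ := hq g
    rw [← matRep_det bV ρV g]
    exact (hforce g t (htrans g t ht1)).2.symm
  · -- span = ⊤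
    have key : ∀ x : MonoidAlgebra k G,
        (LinearMap.toMatrixAlgEquiv bV).symm (matLift ρ x)
          ∈ Submodule.span k (Set.range ρV) := by
      intro x
      induction x using MonoidAlgebra.induction_on with
      | of g =>
        have : (LinearMap.toMatrixAlgEquiv bV).symm (matLift ρ (MonoidAlgebra.of k G g))
            = ρV g := by
          simp only [matLift, MonoidAlgebra.lift_of]
          exact (LinearMap.toMatrixAlgEquiv bV).symm_apply_apply (ρV g)
        rw [this]
        exact Submodule.subset_span ⟨g, rfl⟩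
      | add x y hx hy =>
        rw [map_add, map_add]
        exact Submodule.add_mem _ hx hy
      | smul c x hx =>
        rw [map_smul, map_smul]
        exact Submodule.smul_mem _ c hx
    rw [eq_top_iff]
    intro φ _
    obtain ⟨x, hx⟩ := hsurj (LinearMap.toMatrixAlgEquiv bV φ)
    have := key x
    rwa [hx, AlgEquiv.symm_apply_apply] at this

end CommonQuadratic

section Lucas

variable {k : Type*} [Field k]

/-- The Lucas sequence `V_n(t, d)`: `V_0 = 2`, `V_1 = t`, `V_{n+2} = t V_{n+1} - d V_n`. -/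
def lucasV (t d : k) : ℕ → k
  | 0 => 2
  | 1 => t
  | (n + 2) => t * lucasV t d (n + 1) - d * lucasV t d n

/-- If `x² - t x + d = 0` then `xⁿ` is killed by `X² - V_n(t,d) X + dⁿ`. -/
theorem pow_quad_of_quad {R : Type*} [Ring R] [Algebra k R] (x : R) (t d : k)
    (hx : x * x - t • x + d • (1 : R) = 0) (n : ℕ) :
    x ^ n * x ^ n - lucasV t d n • x ^ n + d ^ n • (1 : R) = 0 := by
  set y : R := t • 1 - x with hy
  have hxy : x * y = d • 1 := by
    rw [hy, mul_sub, mul_smul_comm, mul_one]
    linear_combination (norm := module) - hx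
  have hyx : y * x = d • 1 := by
    rw [hy, sub_mul, smul_mul_assoc, one_mul]
    linear_combination (norm := module) - hx
  have hsum : ∀ m : ℕ, x ^ m + y ^ m = lucasV t d m • (1 : R) ∧
      x ^ (m + 1) + y ^ (m + 1) = lucasV t d (m + 1) • (1 : R) := by
    intro m
    induction m with
    | zero =>
      refine ⟨?_, ?_⟩
      · simp only [pow_zero, lucasV]; module
      · simp only [zero_add, pow_one, lucasV, hy]; module
    | succ m ih =>
      refine ⟨ih.2, ?_⟩
      have h1 : x * y ^ (m + 1) = d • y ^ m := by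
        rw [pow_succ' y m, ← mul_assoc, hxy, smul_mul_assoc, one_mul]
      have h2 : y * x ^ (m + 1) = d • x ^ m := by
        rw [pow_succ' x m, ← mul_assoc, hyx, smul_mul_assoc, one_mul]
      have h3 : (x + y) * (x ^ (m + 1) + y ^ (m + 1))
          = x ^ (m + 1 + 1) + y ^ (m + 1 + 1) + d • (x ^ m + y ^ m) := by
        rw [add_mul, mul_add, mul_add, h1, h2, ← pow_succ' x (m + 1), ← pow_succ' y (m + 1)]
        module
      have h4 : x + y = t • (1 : R) := by rw [hy]; abel
      rw [h4, ih.1, ih.2, smul_mul_assoc, one_mul] at h3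
      show x ^ (m + 1 + 1) + y ^ (m + 1 + 1) = lucasV t d (m + 2) • (1 : R)
      simp only [lucasV]
      linear_combination (norm := module) - h3
  have hprod : ∀ m : ℕ, x ^ m * y ^ m = d ^ m • (1 : R) := by
    intro m
    induction m with
    | zero => simp
    | succ m ih =>
      rw [pow_succ x m, pow_succ' y m, mul_assoc, ← mul_assoc x y, hxy, smul_mul_assoc, one_mul,
        mul_smul_comm, ih, smul_smul, pow_succ']
  have h5 : lucasV t d n • x ^ n = x ^ n * x ^ n + d ^ n • (1 : R) := by
    have : x ^ n * (x ^ n + y ^ n) = x ^ n * (lucasV t d n • (1 : R)) := by rw [(hsum n).1]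
    rw [mul_add, hprod, mul_smul_comm, mul_one] at this
    exact this.symm
  rw [h5]
  abel

end Lucas

section Generator

variable {G : Type*} [Group G] {k : Type*} [Field k]
variable {V : Type*} [AddCommGroup V] [Module k V]
variable {M : Type*} [AddCommGroup M] [Module k M]

/-- **BLR, generator-Chebotarev shape.**  As `exists_equivariant_injective_of_common_quadratic`,
but the common quadratic is only given at an element `h` a power of which acts like `g`
(Frobenius elements generate the cyclic subgroups of the image). -/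
theorem exists_equivariant_injective_of_generator_quadratic [Nontrivial M]
    (h2 : (2 : k) ≠ 0) (hV : Module.finrank k V = 2)
    (ρV : G →* Module.End k V)
    (hirr : ∀ W : Submodule k V, (∀ g, ∀ x ∈ W, ρV g x ∈ W) → W = ⊥ ∨ W = ⊤)
    (ψ : G →* Module.End k M) (χ : G →* kˣ)
    (hrel : ∀ g, ∃ (h : G) (n : ℕ) (t : k), ρV (h ^ n) = ρV g ∧ ψ (h ^ n) = ψ g ∧
      χ (h ^ n) = χ g ∧
      ρV h * ρV h - t • ρV h + (χ h : k) • (1 : Module.End k V) = 0 ∧
      ψ h * ψ h - t • ψ h + (χ h : k) • (1 : Module.End k M) = 0)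
    (c : G) (hc : c * c = 1) (hχc : χ c = -1) :
    (∃ j : V →ₗ[k] M, Function.Injective j ∧ ∀ (g : G) (v : V), j (ρV g v) = ψ g (j v)) ∧
      (∀ g, LinearMap.det (ρV g) = (χ g : k)) ∧
      Submodule.span k (Set.range ρV) = ⊤ := by
  refine exists_equivariant_injective_of_common_quadratic h2 hV ρV hirr (fun g => (χ g : k))
    (fun g h => by rw [map_mul, Units.val_mul]) c hc (by rw [hχc]; simp) ψ ?_
  intro g
  obtain ⟨h, n, t, e1, e2, e3, q1, q2⟩ := hrel g
  refine ⟨lucasV t (χ h : k) n, ?_, ?_⟩
  · have := pow_quad_of_quad (ρV h) t (χ h : k) q1 n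
    rwa [← map_pow, e1, ← Units.val_pow_eq_pow_val, ← map_pow, e3] at this
  · have := pow_quad_of_quad (ψ h) t (χ h : k) q2 n
    rwa [← map_pow, e2, ← Units.val_pow_eq_pow_val, ← map_pow, e3] at this

end Generator

end Fermat.Agent.S44.helper929
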