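import Fermat.Agent.S44.helper54_Eigen
import Fermat.Agent.S44.helper1121_OccFp
import Fermat.Agent.S44.helper929_BLR
import Fermat.Agent.Lib.helper74_GenChebQbar
import Fermat.Agent.Lib.helper822_TorsionGalois
import Fermat.Agent.S30.helper6350_CycloPkg
import Fermat.Agent.S29.helper8527_FiniteLevel
import Fermat.Agent.S29.helper288_FinTorsion
import Fermat.Agent.S29.helper5500_GalHecke
import Fermat.Agent.S13.helper956_FreyCard

/-!
# S44, module L8 (helper54): `E[p]` inside `J₀(N)[p]` (EMBED)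

`exists_embed` : for a Frey package `P` which is residually modular of level `N` and whose
`E[p]` is irreducible there are an integral model `W` of the Frey curve and an INJECTIVE,
`Gal(ℚ̄/ℚ)`-EQUIVARIANT additive map `φ : E[p] → J₀(N)`, with image killed by `p` and inside the
`a_ℓ(W)`-eigenspace of `T_ℓ` for every prime `ℓ ∤ N`, `ℓ ≠ p`, good for `W`.

Ingredients:
* `helper1121.exists_torsion_eigen` (OCC-FP, landed): a nonzero eigenclass `x₀ ∈ J₀(N)[p]`;
* `eigenSub` : the eigenspace `S ⊆ J₀(N)[p]`, Galois-stable (`S29.helper5500`);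
* generator-Chebotarev (`Lib.helper74`) at a common finite level of `E[p]`, `J₀(N)[p]` and `μ_p`,
  the Frobenius relation on `E[p]` (`frob_relation_freyTor`) and Eichler–Shimura on `J₀(N)[p]`
  (S30 export `stmt_ESMod`): every `g` agrees with a power of a Frobenius element `τ` for which
  `E[p]` and `S` satisfy the same quadratic `X² - a_ℓ X + ℓ`;
* `exists_embedding_of_generator_rel` : the abstract embedding lemma, an instance of
  `helper929.exists_equivariant_injective_of_generator_quadratic` (Boston–Lenstra–Ribet without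
  Weil pairing) with `k = ZMod p`, `c` = complex conjugation and the mod `p` cyclotomic
  character `cycloMod`.
-/

set_option autoImplicit false
set_option linter.style.haveILetI false

open ModularCurve AlgebraicCurve WeierstrassCurve WeierstrassCurve.Affine

namespace Fermat.Agent.S44.helper54

local notation "Qb" => AlgebraicClosure ℚ
local notation "GQ" => (AlgebraicClosure ℚ ≃ₐ[ℚ] AlgebraicClosure ℚ)

/-! ### The abstract embedding lemma -/

section Abstract

variable (G : Type*) [Group G] (p : ℕ)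
  (V : Type*) [AddCommGroup V] [Module (ZMod p) V] [DistribMulAction G V]

/-- An additive action on a `ZMod p`-module as a representation. -/
noncomputable def linAct : G →* Module.End (ZMod p) V where
  toFun g := (DistribSMul.toAddMonoidHom V g).toZModLinearMap p
  map_one' := LinearMap.ext fun v => one_smul G v
  map_mul' g h := LinearMap.ext fun v => mul_smul g h v

theorem linAct_apply (g : G) (v : V) : linAct G p V g v = g • v := rfl

variable {G p V}
variable [Fact p.Prime] {J : Type*} [AddCommGroup J] [DistribMulAction G J]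

/-- **Abstract embedding lemma.**  `V` a plane over `𝔽_p` (`p` odd) with an irreducible additive
action of `G`; `S` a nonzero `G`-stable subgroup of `J` killed by `p`; `χ : G → 𝔽_pˣ` a character
with `χ c = -1` at an involution `c`; every `g` agrees on `V`, `S` and `χ` with a power of an
element `h` such that `V` and `S` satisfy one and the same relation `h² - t h + d = 0`,
`d ≡ χ h`.  Then `V` embeds `G`-equivariantly into `S`. -/
theorem exists_embedding_of_generator_rel (hp2 : p ≠ 2)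
    (hV : Module.finrank (ZMod p) V = 2)
    (hirr : ∀ U : Submodule (ZMod p) V, (∀ (g : G), ∀ x ∈ U, g • x ∈ U) → U = ⊥ ∨ U = ⊤)
    (S : AddSubgroup J) (hSp : ∀ y ∈ S, p • y = 0) (hSG : ∀ (g : G), ∀ y ∈ S, g • y ∈ S)
    (hS0 : ∃ y ∈ S, y ≠ 0) (χ : G →* (ZMod p)ˣ)
    (hrel : ∀ g : G, ∃ (h : G) (n : ℕ) (t d : ℤ),
      (∀ v : V, h ^ n • v = g • v) ∧ (∀ y ∈ S, h ^ n • y = g • y) ∧ χ (h ^ n) = χ g ∧
      ((χ h : (ZMod p)ˣ) : ZMod p) = (d : ZMod p) ∧
      (∀ v : V, h • h • v - t • h • v + d • v = 0) ∧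
      (∀ y ∈ S, h • h • y - t • h • y + d • y = 0))
    (c : G) (hc : c * c = 1) (hχc : χ c = -1) :
    ∃ φ : V →+ J, Function.Injective φ ∧ (∀ (g : G) (v : V), φ (g • v) = g • φ v) ∧
      ∀ v, φ v ∈ S := by
  classical
  letI modS : Module (ZMod p) S := AddCommGroup.zmodModule (n := p)
    (fun y => Subtype.ext (hSp y.1 y.2))
  letI actS : DistribMulAction G S :=
    { smul := fun g y => ⟨g • (y : J), hSG g y.1 y.2⟩
      one_smul := fun y => Subtype.ext (one_smul G (y : J))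
      mul_smul := fun g h y => Subtype.ext (mul_smul g h (y : J))
      smul_zero := fun g => Subtype.ext (smul_zero g)
      smul_add := fun g y z => Subtype.ext (smul_add g (y : J) (z : J)) }
  haveI : Nontrivial S := by
    obtain ⟨y, hy, hy0⟩ := hS0
    exact ⟨⟨⟨y, hy⟩, 0, fun h => hy0 (congrArg Subtype.val h)⟩⟩
  have h2 : (2 : ZMod p) ≠ 0 := by
    intro h
    have h1 : p ∣ 2 := (ZMod.natCast_eq_zero_iff 2 p).mp (by exact_mod_cast h)
    rcases (Nat.dvd_prime Nat.prime_two).mp h1 with h3 | h3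
    · exact (Fact.out : p.Prime).one_lt.ne' h3
    · exact hp2 h3
  obtain ⟨⟨j, hjinj, hjeq⟩, -, -⟩ :=
    Fermat.Agent.S44.helper929.exists_equivariant_injective_of_generator_quadratic (M := S) h2 hV
      (linAct G p V) (fun U hU => hirr U hU) (linAct G p S) χ
      (by
        intro g
        obtain ⟨h, n, t, d, e1, e2, e3, e4, q1, q2⟩ := hrel g
        refine ⟨h, n, (t : ZMod p), LinearMap.ext fun v => e1 v,
          LinearMap.ext fun y => Subtype.ext (e2 y.1 y.2), e3, ?_, ?_⟩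
        · refine LinearMap.ext fun v => ?_
          show h • h • v - (t : ZMod p) • (h • v) + ((χ h : (ZMod p)ˣ) : ZMod p) • v = 0
          rw [e4, Int.cast_smul_eq_zsmul, Int.cast_smul_eq_zsmul]
          exact q1 v
        · refine LinearMap.ext fun y => ?_
          show h • h • y - (t : ZMod p) • (h • y) + ((χ h : (ZMod p)ˣ) : ZMod p) • y = 0
          rw [e4, Int.cast_smul_eq_zsmul, Int.cast_smul_eq_zsmul]
          exact Subtype.ext (q2 y.1 y.2))
      c hc hχc
  refine ⟨S.subtype.comp j.toAddMonoidHom, ?_, ?_, fun v => (j v).2⟩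
  · exact fun v v' h => hjinj (Subtype.ext h)
  · intro g v
    exact congrArg Subtype.val (hjeq g v)

end Abstract

/-! ### The mod `p` cyclotomic character -/

section Cyclo

open Fermat.Agent.S30.helper6350

variable (p : ℕ) [Fact p.Prime]

/-- The mod `p` cyclotomic character of `Gal(ℚ̄/ℚ)`. -/
noncomputable def cycloMod : GQ →* (ZMod p)ˣ :=
  (Units.map ((PadicInt.toZMod : ℤ_[p] →+* ZMod p) : ℤ_[p] →* ZMod p)).comp (padicCyclo p)

theorem coe_cycloMod (σ : GQ) :
    ((cycloMod p σ : (ZMod p)ˣ) : ZMod p) = PadicInt.toZMod (padicCyclo p σ : ℤ_[p]) := rfl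

theorem cycloMod_frobenius {ℓ : ℕ} (hℓ : ℓ.Prime) (hne : ℓ ≠ p)
    {A : ValuationSubring Qb} (hA : A.LiesOverPrime ℓ) {σ : GQ} (hσ : A.IsFrobeniusAt σ ℓ) :
    ((cycloMod p σ : (ZMod p)ˣ) : ZMod p) = (ℓ : ZMod p) := by
  rw [coe_cycloMod, padicCyclo_frobenius p hℓ hne hA hσ, map_natCast]

theorem cycloMod_complexConjugation : cycloMod p complexConjugation = -1 := by
  apply Units.ext
  rw [coe_cycloMod, padicCyclo_complexConjugation, map_neg, map_one, Units.val_neg, Units.val_one]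

theorem exists_level_cycloMod :
    ∃ L : IntermediateField ℚ Qb, FiniteDimensional ℚ L ∧
      ∀ σ : GQ, (∀ x ∈ L, σ x = x) → cycloMod p σ = 1 := by
  obtain ⟨L, hL, h⟩ := exists_level_padicCyclo p 1
  refine ⟨L, hL, fun σ hσ => Units.ext ?_⟩
  have h1 := h σ hσ
  rw [pow_one, ← PadicInt.maximalIdeal_eq_span_p, ← PadicInt.ker_toZMod, RingHom.mem_ker,
    map_sub, map_one, sub_eq_zero] at h1
  rw [coe_cycloMod, h1, Units.val_one]

end Cyclo

/-! ### The eigenspace -/

section Eigen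

variable (P : FreyPackage) (N : ℕ) [NeZero N] (W : WeierstrassCurve ℤ)

/-- The subgroup of `J₀(N)` of the classes killed by `p` on which `T_ℓ` acts by `a_ℓ(W)` for every
prime `ℓ ∤ N`, `ℓ ≠ p`, good for `W`. -/
def eigenSub : AddSubgroup (JZero N) where
  carrier := {y | P.p • y = 0 ∧ ∀ (ℓ : ℕ) (hℓ : ℓ.Prime), ¬ ℓ ∣ N → W.IsGoodPrimeFor ℓ →
    ℓ ≠ P.p → heckeOperatorBar N ⟨ℓ, hℓ⟩ y = W.apOfModel ℓ • y}
  zero_mem' := ⟨nsmul_zero _, fun ℓ hℓ _ _ _ => by rw [map_zero, zsmul_zero]⟩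
  add_mem' := fun {a b} ha hb => ⟨by rw [nsmul_add, ha.1, hb.1, add_zero],
    fun ℓ hℓ h1 h2 h3 => by rw [map_add, ha.2 ℓ hℓ h1 h2 h3, hb.2 ℓ hℓ h1 h2 h3, zsmul_add]⟩
  neg_mem' := fun {a} ha => ⟨by rw [neg_nsmul, ha.1, neg_zero],
    fun ℓ hℓ h1 h2 h3 => by rw [map_neg, ha.2 ℓ hℓ h1 h2 h3, zsmul_neg]⟩

variable {P N W}

theorem mem_eigenSub {y : JZero N} : y ∈ eigenSub P N W ↔
    P.p • y = 0 ∧ ∀ (ℓ : ℕ) (hℓ : ℓ.Prime), ¬ ℓ ∣ N → W.IsGoodPrimeFor ℓ →
      ℓ ≠ P.p → heckeOperatorBar N ⟨ℓ, hℓ⟩ y = W.apOfModel ℓ • y := Iff.rfl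

/-- The eigenspace is stable under `Gal(ℚ̄/ℚ)`. -/
theorem smul_mem_eigenSub (σ : GQ) {y : JZero N} (hy : y ∈ eigenSub P N W) :
    σ • y ∈ eigenSub P N W := by
  refine ⟨?_, fun ℓ hℓ h1 h2 h3 => ?_⟩
  · have h := map_nsmul (DistribSMul.toAddMonoidHom (JZero N) σ) P.p y
    have h' : P.p • σ • y = σ • P.p • y := h.symm
    rw [h', hy.1]
    exact smul_zero (A := JZero N) σ
  · have h := map_zsmul (DistribSMul.toAddMonoidHom (JZero N) σ) (W.apOfModel ℓ) y
    have h' : W.apOfModel ℓ • σ • y = σ • W.apOfModel ℓ • y := h.symm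
    rw [← Fermat.Agent.S29.helper5500.galois_smul_heckeOperatorBar, hy.2 ℓ hℓ h1 h2 h3, h']

end Eigen

/-! ### The discriminant of an integral model of the Frey curve -/

theorem Δ_ne_zero_of_isIntegralModelOf_frey (P : FreyPackage) {W : WeierstrassCurve ℤ}
    (hW : W.IsIntegralModelOf P.freyCurve) : W.Δ ≠ 0 := by
  obtain ⟨C, hC⟩ := hW
  intro h0
  have h1 : (W.map (Int.castRingHom ℚ)).Δ = 0 := by
    rw [WeierstrassCurve.map_Δ, h0, map_zero]
  rw [← hC, WeierstrassCurve.variableChange_Δ] at h1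
  rcases mul_eq_zero.mp h1 with h | h
  · exact (pow_ne_zero 12 (Units.ne_zero _)) h
  · exact Fermat.Agent.S13.helper956.freyCurve_Δ_ne_zero P h

/-! ### The embedding -/

/-- **(EMBED), from one eigenclass.**  If `E[p]` is irreducible and `J₀(N)[p]` contains a nonzero
class on which `T_ℓ` acts by `a_ℓ(W)` at the good primes, then `E[p]` embeds
`Gal(ℚ̄/ℚ)`-equivariantly into the `a_•(W)`-eigenspace of `J₀(N)[p]`. -/
theorem exists_embed_of_eigen (P : FreyPackage) {N : ℕ} [NeZero N]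
    (hirr : Point.GaloisRepIsIrreducible (K := Qb) ℚ P.freyCurve P.p)
    (W : WeierstrassCurve ℤ) (hW : W.IsIntegralModelOf P.freyCurve)
    (x₀ : JZero N) (hx₀ : x₀ ≠ 0) (hx₀S : x₀ ∈ eigenSub P N W) :
    ∃ φ : FreyTor P →+ JZero N, Function.Injective φ ∧
      (∀ (σ : GQ) (x : FreyTor P), φ (σ • x) = σ • φ x) ∧
      ∀ x, φ x ∈ eigenSub P N W := by
  classical
  haveI : Fact P.p.Prime := ⟨P.pp⟩
  have hp2 : P.p ≠ 2 := by have := P.hp5; omega
  have hΔ : W.Δ ≠ 0 := Δ_ne_zero_of_isIntegralModelOf_frey P hW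
  -- `E[p]` is a plane
  have hV : Module.finrank (ZMod P.p) (FreyTor P) = 2 := by
    have hcard : Nat.card (FreyTor P) = P.p ^ 2 :=
      Fermat.Agent.S13.helper956.frey_torsion_card Qb P
    have hfin : Finite (FreyTor P) :=
      Nat.finite_of_card_ne_zero (by rw [hcard]; exact pow_ne_zero _ P.hp0)
    have h1 := Module.natCard_eq_pow_finrank (K := ZMod P.p) (V := FreyTor P)
    rw [hcard, Nat.card_zmod] at h1
    exact (Nat.pow_right_injective P.pp.two_le h1).symm
  -- the three finite levels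
  obtain ⟨L₁, hL₁fin, hL₁⟩ := Fermat.Agent.S29.helper8527.exists_finiteLevel_of_finite N
    (Fermat.Agent.S29.helper288.finite_torsion_JZero (N := N) P.hp0)
  obtain ⟨L₂, hL₂fin, hL₂⟩ :=
    Fermat.Agent.Lib.helper822.galoisFactorsThroughFiniteLevel_torsion P.freyCurve P.p P.hp0
  obtain ⟨L₃, hL₃fin, hL₃⟩ := exists_level_cycloMod P.p
  have := hL₁fin
  have := hL₂fin
  have := hL₃fin
  set L : IntermediateField ℚ Qb := L₁ ⊔ L₂ ⊔ L₃ with hL
  have hL₁le : L₁ ≤ L := le_sup_of_le_left le_sup_left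
  have hL₂le : L₂ ≤ L := le_sup_of_le_left le_sup_right
  have hL₃le : L₃ ≤ L := le_sup_right
  have hLfin : FiniteDimensional ℚ L := by
    rw [hL]
    infer_instance
  -- the bad primes
  have hprod : N * P.p * W.Δ.natAbs ≠ 0 :=
    mul_ne_zero (mul_ne_zero (NeZero.ne N) P.hp0) (Int.natAbs_ne_zero.mpr hΔ)
  refine exists_embedding_of_generator_rel hp2 hV hirr.2 (eigenSub P N W)
    (fun y hy => hy.1) (fun σ y hy => smul_mem_eigenSub σ hy) ⟨x₀, hx₀S, hx₀⟩ (cycloMod P.p)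
    ?_ complexConjugation complexConjugation_mul_self (cycloMod_complexConjugation P.p)
  intro g
  obtain ⟨ℓ, A, τ, j, hℓ, hℓT, hA, hτ, hj⟩ :=
    Fermat.Agent.Lib.helper74.exists_frobenius_pow_eq L g (N * P.p * W.Δ.natAbs).primeFactors
  have hnd : ¬ ℓ ∣ N * P.p * W.Δ.natAbs := fun hd =>
    hℓT (Nat.mem_primeFactors.mpr ⟨hℓ, hd, hprod⟩)
  have hℓN : ¬ ℓ ∣ N := fun hd => hnd (Dvd.dvd.mul_right (Dvd.dvd.mul_right hd _) _)
  have hℓp : ℓ ≠ P.p := fun h =>
    hnd (Dvd.dvd.mul_right (Dvd.dvd.mul_left (h ▸ dvd_rfl) _) _)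
  have hℓp' : ¬ ℓ ∣ P.p := fun h => hℓp ((Nat.prime_dvd_prime_iff_eq hℓ P.pp).mp h)
  have hgood : W.IsGoodPrimeFor ℓ := fun hd =>
    hnd (Dvd.dvd.mul_left (Int.natCast_dvd.mp hd) _)
  -- `g = τ ^ j * h₀` with `h₀` trivial on `L`
  set h₀ : GQ := (τ ^ j)⁻¹ * g with hh₀
  have hg : g = τ ^ j * h₀ := by rw [hh₀, mul_inv_cancel_left]
  have hfix : ∀ x ∈ L, h₀ x = x := by
    intro x hx
    have h1 : (τ ^ j) (h₀ x) = (τ ^ j) x := by
      rw [← AlgEquiv.mul_apply, ← hg, hj x hx]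
    exact (τ ^ j).injective h1
  refine ⟨τ, j, W.apOfModel ℓ, (ℓ : ℤ), ?_, ?_, ?_, ?_, ?_, ?_⟩
  · intro v
    have h1 := hL₂ h₀ fun x hx => hfix x (hL₂le hx)
    have h2 : h₀ • v = v := congrArg (fun f => f v) h1
    rw [hg, mul_smul, h2]
  · intro y hy
    have h2 : h₀ • y = y := hL₁ h₀ (fun x hx => hfix x (hL₁le hx)) y hy.1
    rw [hg, mul_smul, h2]
  · rw [hg, map_mul, hL₃ h₀ fun x hx => hfix x (hL₃le hx), mul_one]
  · rw [cycloMod_frobenius P.p hℓ hℓp hA hτ, Int.cast_natCast]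
  · exact fun v => frob_relation_freyTor P W hW hℓ hgood hℓp A hA τ hτ v
  · intro y hy
    have hES := Fermat.Agent.S30.helper54.stmt_ESMod N P.p ℓ hℓ hℓN hℓp' A hA τ hτ y hy.1
    rw [(smul_mem_eigenSub τ hy).2 ℓ hℓ hℓN hgood hℓp, ← natCast_zsmul] at hES
    exact hES

/-- **(EMBED).**  If the Frey package is residually modular of level `N` and `E[p]` is
irreducible, then `E[p]` embeds `Gal(ℚ̄/ℚ)`-equivariantly into `J₀(N)`; the image is killed by `p`
and lies in the `a_ℓ(W)`-eigenspace of `T_ℓ` for every prime `ℓ ∤ N`, `ℓ ≠ p`, good for the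
integral model `W` of the witness of residual modularity. -/
theorem exists_embed (P : FreyPackage) {N : ℕ} [NeZero N]
    (hirr : Point.GaloisRepIsIrreducible (K := Qb) ℚ P.freyCurve P.p)
    (hmod : P.ModularRepOfLevel N) :
    ∃ (W : WeierstrassCurve ℤ) (φ : FreyTor P →+ JZero N),
      W.IsIntegralModelOf P.freyCurve ∧ Function.Injective φ ∧
      (∀ (σ : GQ) (x : FreyTor P), φ (σ • x) = σ • φ x) ∧
      (∀ x, P.p • φ x = 0) ∧
      ∀ (ℓ : ℕ) (hℓ : ℓ.Prime), ¬ ℓ ∣ N → W.IsGoodPrimeFor ℓ → ℓ ≠ P.p → ∀ x,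
        heckeOperatorBar N ⟨ℓ, hℓ⟩ (φ x) = W.apOfModel ℓ • φ x := by
  obtain ⟨W, x₀, hW, hx₀, hpx₀, hx₀T⟩ :=
    Fermat.Agent.S44.helper1121.exists_torsion_eigen P hmod
  obtain ⟨φ, hinj, hequiv, hmem⟩ := exists_embed_of_eigen P hirr W hW x₀ hx₀ ⟨hpx₀, hx₀T⟩
  exact ⟨W, φ, hW, hinj, hequiv, fun x => (hmem x).1,
    fun ℓ hℓ h1 h2 h3 x => (hmem x).2 ℓ hℓ h1 h2 h3⟩

end Fermat.Agent.S44.helper54
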