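import Fermat.Agent.S44.helper54_Eigen
import Fermat.Agent.S44.helper259_OccDownExit
import Fermat.Agent.S36.helper4856_DegOps

/-!
# S44, module L8 (helper54): the `p`-old exit

* `modularRepOfLevel_of_equivariant` **(P-OLD EXIT)** : a NONZERO `Gal(ℚ̄/ℚ)`-equivariant additive
  map from the `p`-torsion `E[p]` of the Frey curve to `J₀(M)` (any level `M`) makes the Frey
  package residually modular of level `M`.  [`hecke_eigen_of_equivariant` (EIGEN) turns any
  nonzero value into a `p`-torsion Hecke eigenclass with the eigenvalues `a_ℓ(W)`;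
  `helper259.modularRepOfLevel_of_torsion_eigen` (OCC-DOWN + EXITLIFT) finishes.]
* `modularRepOfLevel_of_aPush_ne_zero`, `modularRepOfLevel_of_bPush_ne_zero` : the form used by
  the S44 assembly: if `φ : E[p] → J₀(M₁ p)` is equivariant and one of the two degeneracy
  push-forwards `α_*, β_* : J₀(M₁ p) → J₀(M₁)` (`S36.helper4856.aPush`, `bPush`) does not kill the
  image of `φ`, then the package is residually modular of level `M₁`.
* `modularRepOfLevel_or_pNew` : the dichotomy "exit, or `range φ` is `p`-new".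
-/

set_option autoImplicit false
set_option linter.style.haveILetI false

open ModularCurve AlgebraicCurve

namespace Fermat.Agent.S44.helper54

local notation "GQ" => (AlgebraicClosure ℚ ≃ₐ[ℚ] AlgebraicClosure ℚ)

open Fermat.Agent.S36.helper4856

/-- **(P-OLD EXIT).** A nonzero equivariant additive map `E[p] → J₀(M)` gives residual modularity
of level `M`. -/
theorem modularRepOfLevel_of_equivariant (P : FreyPackage) {M : ℕ} [NeZero M]
    (W : WeierstrassCurve ℤ) (hW : W.IsIntegralModelOf P.freyCurve)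
    (ψ : FreyTor P →+ JZero M) (hψ : ∀ (σ : GQ) (x : FreyTor P), ψ (σ • x) = σ • ψ x)
    (x : FreyTor P) (hx : ψ x ≠ 0) : P.ModularRepOfLevel M :=
  Fermat.Agent.S44.helper259.modularRepOfLevel_of_torsion_eigen P M W hW (ψ x) hx
    (by rw [← map_nsmul, nsmul_freyTor, map_zero])
    (fun l hl hlM hg hlp => hecke_eigen_of_equivariant P W hW ψ hψ l hl hlM hg hlp x)

/-- The prime of a Frey package is nonzero (instance form, for the degeneracy operators). -/
theorem neZero_p (P : FreyPackage) : NeZero P.p := ⟨P.hp0⟩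

/-- **(P-OLD EXIT), `α_*` form.** -/
theorem modularRepOfLevel_of_aPush_ne_zero (P : FreyPackage) {M₁ : ℕ} [NeZero M₁] [NeZero P.p]
    (W : WeierstrassCurve ℤ) (hW : W.IsIntegralModelOf P.freyCurve)
    (φ : FreyTor P →+ JZero (M₁ * P.p))
    (hφ : ∀ (σ : GQ) (x : FreyTor P), φ (σ • x) = σ • φ x)
    (x : FreyTor P) (hx : aPush M₁ P.p (φ x) ≠ 0) : P.ModularRepOfLevel M₁ :=
  modularRepOfLevel_of_equivariant P W hW ((aPush M₁ P.p).comp φ)
    (fun σ y => by
      rw [AddMonoidHom.comp_apply, AddMonoidHom.comp_apply, hφ, galois_smul_aPush]) x hx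

/-- **(P-OLD EXIT), `β_*` form.** -/
theorem modularRepOfLevel_of_bPush_ne_zero (P : FreyPackage) {M₁ : ℕ} [NeZero M₁] [NeZero P.p]
    (W : WeierstrassCurve ℤ) (hW : W.IsIntegralModelOf P.freyCurve)
    (φ : FreyTor P →+ JZero (M₁ * P.p))
    (hφ : ∀ (σ : GQ) (x : FreyTor P), φ (σ • x) = σ • φ x)
    (x : FreyTor P) (hx : bPush M₁ P.p (φ x) ≠ 0) : P.ModularRepOfLevel M₁ :=
  modularRepOfLevel_of_equivariant P W hW ((bPush M₁ P.p).comp φ)
    (fun σ y => by
      rw [AddMonoidHom.comp_apply, AddMonoidHom.comp_apply, hφ, galois_smul_bPush]) x hx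

/-- **The `p`-old / `p`-new dichotomy.**  For an equivariant `φ : E[p] → J₀(M₁ p)`: either the
package is residually modular of level `M₁`, or the image of `φ` is killed by both degeneracy
push-forwards (`range φ` is `p`-new). -/
theorem modularRepOfLevel_or_pNew (P : FreyPackage) {M₁ : ℕ} [NeZero M₁] [NeZero P.p]
    (W : WeierstrassCurve ℤ) (hW : W.IsIntegralModelOf P.freyCurve)
    (φ : FreyTor P →+ JZero (M₁ * P.p))
    (hφ : ∀ (σ : GQ) (x : FreyTor P), φ (σ • x) = σ • φ x) :
    P.ModularRepOfLevel M₁ ∨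
      ∀ x : FreyTor P, aPush M₁ P.p (φ x) = 0 ∧ bPush M₁ P.p (φ x) = 0 := by
  by_cases h : ∀ x : FreyTor P, aPush M₁ P.p (φ x) = 0 ∧ bPush M₁ P.p (φ x) = 0
  · exact Or.inr h
  · left
    obtain ⟨x, hx⟩ := not_forall.mp h
    rcases not_and_or.mp hx with ha | hb
    · exact modularRepOfLevel_of_aPush_ne_zero P W hW φ hφ x ha
    · exact modularRepOfLevel_of_bPush_ne_zero P W hW φ hφ x hb

end Fermat.Agent.S44.helper54
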