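import Fermat.Agent.S44.helper3130_Spec
import Fermat.Agent.S44.helper54_Embed
import Fermat.Agent.S44.helper54_OldExit
import Fermat.Agent.S35.helper1219_AtkinLehnerPic

/-!
# S44, seam (T1) of the top Spec (helper54): `Stmt_Embed`

`seam_T1 : Fermat.Agent.S44.helper3130.Stmt_Embed` — from residual modularity of level `p M` and
irreducibility of `E[p]`: either the Frey package is residually modular of level `M`, or there is
a `p`-new Frey module `V ⊆ J₀(p M)`.

Ingredients (all compiled):

* `exists_embed` (EMBED, `helper54_Embed`): a Galois-equivariant injection `φ : E[p] → J₀(p M)`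
  whose image consists of Hecke eigenclasses with the eigenvalues `a_ℓ(W)`;
* `modularRepOfLevel_of_equivariant` (P-OLD EXIT, `helper54_OldExit`): a NONZERO equivariant map
  `E[p] → J₀(M)` gives residual modularity of level `M`;
* this file: the push-forward `pushIncl p M : J₀(p M) → J₀(M)` along the inclusion
  `F_M ⊆ F_(p M)` (the one of `helper3130.IsPNew`), its Galois equivariance, its value on Kummer
  classes (`[h] ↦ [Norm h]`), and the bridge
  `pushIncl c = 0 ⟹ the norm of every Kummer function of c is a p-th power`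
  (constants are `p`-th powers in `ℚ̄`), i.e. `isPNew_of_pushIncl_eq_zero`.

The dichotomy: if `pushIncl ∘ φ` or `pushIncl ∘ W_p ∘ φ` is nonzero we exit at level `M`;
otherwise `V := range φ` is a `p`-new Frey module.
-/

set_option autoImplicit false
set_option linter.style.haveILetI false

open ModularCurve AlgebraicCurve

namespace Fermat.Agent.S44.helper54

local notation "Kbar" => AlgebraicClosure ℚ
local notation "GQ" => (AlgebraicClosure ℚ ≃ₐ[ℚ] AlgebraicClosure ℚ)
local notation "FN" => modularFunctionFieldBar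

open Fermat.Agent.S29.helper8217 Fermat.Agent.S36.helper4856 Fermat.Agent.S44.helper3130
open Fermat.Agent.S35.helper1219 (picOfAlgEquiv picOfAlgEquiv_kummerClass smul_picOfAlgEquiv
  atkinLehnerBar atkinLehnerBar_arithmeticRingAut)

noncomputable section

/-- A Kummer function of `c` (vocabulary of the top Spec) is a Kummer element whose Kummer class
is `c`. -/
theorem isKummer_of_isKummerFn {N n : ℕ} [NeZero N] (hn : n ≠ 0) {c : JZero N} {h : FN N}
    (hk : IsKummerFn N n c h) : IsKummer Kbar n h ∧ kummerClass Kbar n h = c := by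
  obtain ⟨h0, D, hD, hord⟩ := hk
  obtain ⟨hK, hdiv⟩ := isKummer_of_zsmul_eq (K := Kbar) hn h0
    (D := (D : Divisor Kbar (FN N))) (fun v => (hord v).symm)
  exact ⟨hK, by rw [kummerClass_eq_mk_of_eq hK D hdiv.symm, hD]⟩

section Push

variable (p M : ℕ) [NeZero p] [NeZero M]

/-- The inclusion `F_M ⊆ F_(p M)` used by `helper3130.IsPNew`. -/
abbrev inclPM : FN M →ₐ[Kbar] FN (p * M) :=
  Fermat.Agent.S29.helper2378.levelIncl (M := M) (M' := p * M) (Dvd.intro_left p rfl)

/-- Push-forward `J₀(p M) → J₀(M)` along the inclusion `F_M ⊆ F_(p M)`. -/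
def pushIncl : JZero (p * M) →+ JZero M :=
  pushPic (inclPM p M)
    (Fermat.Agent.S37.helper5162.isIntegral_of_finiteAlong _
      (Fermat.Agent.S29.helper2378.finiteAlong_levelIncl _))
    (Fermat.Agent.S29.helper2378.finiteAlong_levelIncl _)
    (Fermat.Agent.S37.helper8426.normFormulaAlong _ _
      (Fermat.Agent.S37.helper5162.residueField_surjective (p * M)))

/-- The inclusion commutes with the coefficientwise Galois action. -/
theorem intertwines_inclPM (σ : GQ) :
    SemilinearAut.IntertwinesAlong
      ((inclPM p M : FN M →ₐ[Kbar] FN (p * M)) : FN M →+* FN (p * M))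
      (arithmeticGalois (modularFunctionFieldFull M) σ)
      (arithmeticGalois (modularFunctionFieldFull (p * M)) σ) := by
  intro x
  apply Subtype.ext
  rw [coe_arithmeticGalois_smul]
  show coeffMap (σ : Kbar →+* Kbar) ((inclPM p M x : FN (p * M)) : LaurentSeries Kbar)
    = ((inclPM p M (arithmeticGalois (modularFunctionFieldFull M) σ • x) : FN (p * M)) :
        LaurentSeries Kbar)
  rw [Fermat.Agent.S29.helper2378.coe_levelIncl, Fermat.Agent.S29.helper2378.coe_levelIncl,
    coe_arithmeticGalois_smul]

/-- The push-forward commutes with the Galois action. -/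
theorem galois_smul_pushIncl (σ : GQ) (x : JZero (p * M)) :
    σ • pushIncl p M x = pushIncl p M (σ • x) := by
  rw [galois_smul_pic0_def, galois_smul_pic0_def]
  exact (pushPic_smul _ _ _ _ _ _ (intertwines_inclPM p M σ) x).symm

/-- On Kummer classes the push-forward is the norm. -/
theorem pushIncl_kummerClass {n : ℕ} (hn : n ≠ 0) {u : FN (p * M)} (h : IsKummer Kbar n u) :
    IsKummer Kbar n (normAlong (inclPM p M) u) ∧
      pushIncl p M (kummerClass Kbar n u) = kummerClass Kbar n (normAlong (inclPM p M) u) :=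
  pushPic_kummerClass _ _ _ _ hn h

/-- **The bridge.**  If the push-forward of the class of a Kummer element vanishes, then its norm
to level `M` is an `n`-th power (constants are `n`-th powers in `ℚ̄`). -/
theorem exists_norm_eq_pow_of_pushIncl_eq_zero {n : ℕ} (hn : n ≠ 0) {u : FN (p * M)}
    (h : IsKummer Kbar n u) (h0 : pushIncl p M (kummerClass Kbar n u) = 0) :
    ∃ w : FN M, normAlong (inclPM p M) u = w ^ n := by
  obtain ⟨hK, hpush⟩ := pushIncl_kummerClass p M hn h
  rw [hpush] at h0
  obtain ⟨w, c, _, _, hc, hEq⟩ := (kummerClass_eq_zero_iff hn hK).mp h0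
  obtain ⟨a, rfl⟩ := Fermat.Agent.S29.helper36.exists_algebraMap_eq_of_ord_eq_zero Kbar M hc
  obtain ⟨d, hd⟩ := IsAlgClosed.exists_pow_nat_eq a (Nat.pos_of_ne_zero hn)
  exact ⟨algebraMap Kbar (FN M) d * w, by rw [hEq, mul_pow, ← map_pow, hd]⟩

variable {p M}

/-- **`p`-new from the two push-forwards.**  If `c` and `W_p c` are killed by the push-forward to
level `M`, then `c` is `p`-new in the function form of the top Spec. -/
theorem isPNew_of_pushIncl_eq_zero (hcop : Nat.Coprime p M) (c : JZero (p * M))
    (h1 : pushIncl p M c = 0)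
    (h2 : pushIncl p M (picOfAlgEquiv (p * M) (atkinLehnerBar p M hcop) c) = 0) :
    IsPNew p M hcop c := by
  intro h hk
  obtain ⟨hK, hc⟩ := isKummer_of_isKummerFn (NeZero.ne p) hk
  refine ⟨?_, ?_⟩
  · exact exists_norm_eq_pow_of_pushIncl_eq_zero p M (NeZero.ne p) hK (by rw [hc]; exact h1)
  · have hKW : IsKummer Kbar p (atkinLehnerBar p M hcop h) :=
      (isKummer_smul_iff (SemilinearAut.ofAlgAut (atkinLehnerBar p M hcop))).mpr hK
    refine exists_norm_eq_pow_of_pushIncl_eq_zero p M (NeZero.ne p) hKW ?_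
    rw [← picOfAlgEquiv_kummerClass, hc]
    exact h2

end Push

/-- **Seam (T1) of the S44 top Spec: EMBED + p-OLD EXIT.** -/
theorem seam_T1 : Stmt_Embed := by
  intro P M _ hcop _ hirr hmod
  obtain ⟨W, φ, hW, hinj, hequiv, _, hT⟩ := exists_embed P hirr hmod
  by_cases hnew : ∀ x : FreyTor P, pushIncl P.p M (φ x) = 0 ∧
      pushIncl P.p M (picOfAlgEquiv (P.p * M) (atkinLehnerBar P.p M hcop) (φ x)) = 0
  · right
    refine ⟨W, φ.range, hW, ?_, ?_, ?_⟩
    · exact ⟨AddMonoidHom.ofInjective hinj, fun σ x => hequiv σ x⟩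
    · rintro ℓ hℓ hℓN hg c ⟨x, rfl⟩
      exact hT ℓ hℓ hℓN hg (fun h => hℓN (h ▸ Dvd.intro M rfl)) x
    · rintro c ⟨x, rfl⟩
      exact isPNew_of_pushIncl_eq_zero hcop (φ x) (hnew x).1 (hnew x).2
  · left
    push Not at hnew
    obtain ⟨x, hx⟩ := hnew
    by_cases h1 : pushIncl P.p M (φ x) = 0
    · refine modularRepOfLevel_of_equivariant P W hW
        ((pushIncl P.p M).comp ((picOfAlgEquiv (P.p * M) (atkinLehnerBar P.p M hcop)).comp φ))
        (fun σ y => ?_) x (hx h1)
      rw [AddMonoidHom.comp_apply, AddMonoidHom.comp_apply, AddMonoidHom.comp_apply,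
        AddMonoidHom.comp_apply, hequiv,
        ← smul_picOfAlgEquiv _ _ (atkinLehnerBar_arithmeticRingAut P.p M hcop),
        galois_smul_pushIncl]
    · refine modularRepOfLevel_of_equivariant P W hW ((pushIncl P.p M).comp φ)
        (fun σ y => ?_) x h1
      rw [AddMonoidHom.comp_apply, AddMonoidHom.comp_apply, hequiv, galois_smul_pushIncl]

end

end Fermat.Agent.S44.helper54
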