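/-
S44, leaf L2-INST (helper6715): carrier of `T` and statement of the `χ`-action.

`T = kDeep A N p W` is the subgroup of `J₀(N)` of the classes of `p`-Kummer functions having ONE
representative `h` which is DEEP at both Gauss valuations of `ℚ̄(X₀(N))` above a valuation
subring `A` of `ℚ̄` (the Gauss ring `gaussV A N` and its twin under `W`, in practice the
Atkin-Lehner involution `W_p`).  DEEP at `V` means `h ≡ 1 mod π ^ p * 𝔪_V`, `π = ζ_p - 1`, stated
without `ζ_p`:  `v ((h - 1) ^ (p - 1)) < v (p ^ p)`.  When the residue characteristic of `V` is `p`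
these are the classes which are `p`-th powers in both completions (steps (2), (3) of #3246).

* `IsDeepAt p V h`, with the group laws, the quotient form and the behaviour under `comap`;
* `kDeepAbs K p V₁ V₂ : AddSubgroup (Pic0 K F)`, `kDeep A N p W : AddSubgroup (JZero N)`;
* `kDeep_le_kBoth`, `smul_mem_kDeep` (stability under the decomposition group);
* `Stmt_TorChiElt N p A W τ k` : the element form of "`τ` acts on `T` by `χ(τ) = k`", the wild
  twin of `Fermat.Agent.S34.helper584.Stmt_TorFix`, and `torChi_class`, the class form.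
-/
import Fermat.Agent.S33.helper3511_FreeHalf

set_option autoImplicit false

namespace Fermat.Agent.S44.helper6715

open AlgebraicCurve ModularCurve
open Fermat.Agent.S29.helper8217
open Fermat.Agent.S34.helper584
open Fermat.Agent.S18
open Fermat.Agent.S33.helper3511

noncomputable section

/-! ### Deep elements -/

section Deep

variable {F : Type*} [Field F]

/-- `h` is DEEP at `V` for the prime `p`: `v ((h - 1) ^ (p - 1)) < v (p ^ p)`, i.e.
`h ≡ 1 mod π ^ p * 𝔪_V` for `π = ζ_p - 1`. -/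
def IsDeepAt (p : ℕ) (V : ValuationSubring F) (h : F) : Prop :=
  V.valuation ((h - 1) ^ (p - 1)) < V.valuation ((p : F) ^ p)

variable {p : ℕ} {V : ValuationSubring F}

theorem isDeepAt_iff {h : F} :
    IsDeepAt p V h ↔ V.valuation (h - 1) ^ (p - 1) < V.valuation (p : F) ^ p := by
  unfold IsDeepAt
  rw [map_pow, map_pow]

theorem valuation_natCast_le_one (V : ValuationSubring F) (n : ℕ) :
    V.valuation (n : F) ≤ 1 :=
  (ValuationSubring.valuation_le_one_iff V _).mpr (natCast_mem V n)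

theorem IsDeepAt.one_lt {h : F} (hh : IsDeepAt p V h) : 1 < p := by
  rw [isDeepAt_iff] at hh
  by_contra hcon
  have hp : p = 0 ∨ p = 1 := by omega
  rcases hp with rfl | rfl
  · simp at hh
  · simp at hh

theorem IsDeepAt.natCast_ne_zero {h : F} (hh : IsDeepAt p V h) : (p : F) ≠ 0 := by
  intro h0
  have h1 := hh.one_lt
  rw [isDeepAt_iff, h0, map_zero, zero_pow (by omega)] at hh
  exact not_lt_zero hh

theorem isDeepAt_one (hp1 : 1 < p) (hp : (p : F) ≠ 0) : IsDeepAt p V (1 : F) := by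
  rw [isDeepAt_iff, sub_self, map_zero, zero_pow (by omega)]
  exact zero_lt_iff.mpr (pow_ne_zero _ ((map_ne_zero _).mpr hp))

/-- The quotient form of deepness. -/
theorem isDeepAt_iff_div_lt_one (hp : (p : F) ≠ 0) {h : F} :
    IsDeepAt p V h ↔ V.valuation ((h - 1) ^ (p - 1) / (p : F) ^ p) < 1 := by
  unfold IsDeepAt
  have h0 : 0 < V.valuation ((p : F) ^ p) :=
    zero_lt_iff.mpr ((map_ne_zero _).mpr (pow_ne_zero _ hp))
  rw [map_div₀, div_lt_one₀ h0]

/-- A deep element is `≡ 1`. -/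
theorem IsDeepAt.sub_one_lt {h : F} (hh : IsDeepAt p V h) : V.valuation (h - 1) < 1 := by
  rw [isDeepAt_iff] at hh
  by_contra hcon
  rw [not_lt] at hcon
  have h1 : (1 : V.ValueGroup) ≤ V.valuation (h - 1) ^ (p - 1) := one_le_pow₀ hcon
  have h2 : V.valuation (p : F) ^ p ≤ 1 := pow_le_one₀ zero_le (valuation_natCast_le_one V p)
  exact absurd (lt_of_le_of_lt h1 hh) (not_lt.mpr h2)

theorem IsDeepAt.valuation_eq_one {h : F} (hh : IsDeepAt p V h) : V.valuation h = 1 :=
  valuation_eq_one_of_sub_one_lt V hh.sub_one_lt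

theorem IsDeepAt.ne_zero {h : F} (hh : IsDeepAt p V h) : h ≠ 0 := by
  rintro rfl
  have h1 := hh.valuation_eq_one
  rw [map_zero] at h1
  exact zero_ne_one h1

/-- Deepness only depends on the valuation of `h - 1`. -/
theorem IsDeepAt.of_le {h h' : F} (hh : IsDeepAt p V h)
    (hle : V.valuation (h' - 1) ≤ V.valuation (h - 1)) : IsDeepAt p V h' := by
  rw [isDeepAt_iff] at hh ⊢
  exact lt_of_le_of_lt (pow_le_pow_left₀ zero_le hle _) hh

theorem IsDeepAt.mul {h h' : F} (hh : IsDeepAt p V h) (hh' : IsDeepAt p V h') :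
    IsDeepAt p V (h * h') := by
  have e : h * h' - 1 = (h - 1) * h' + (h' - 1) := by ring
  have hle : V.valuation (h * h' - 1) ≤ max (V.valuation (h - 1)) (V.valuation (h' - 1)) := by
    rw [e]
    refine le_trans (V.valuation.map_add _ _) (max_le_max ?_ le_rfl)
    rw [map_mul, hh'.valuation_eq_one, mul_one]
  rcases le_total (V.valuation (h - 1)) (V.valuation (h' - 1)) with h1 | h1
  · rw [max_eq_right h1] at hle
    exact hh'.of_le hle
  · rw [max_eq_left h1] at hle
    exact hh.of_le hle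

theorem IsDeepAt.inv {h : F} (hh : IsDeepAt p V h) : IsDeepAt p V h⁻¹ := by
  refine hh.of_le (le_of_eq ?_)
  have h0 := hh.ne_zero
  have e : h⁻¹ - 1 = -((h - 1) * h⁻¹) := by
    field_simp
    ring
  rw [e, Valuation.map_neg, map_mul, map_inv₀, hh.valuation_eq_one, inv_one, mul_one]

theorem IsDeepAt.pow {h : F} (hh : IsDeepAt p V h) (n : ℕ) : IsDeepAt p V (h ^ n) := by
  induction n with
  | zero => rw [pow_zero]; exact isDeepAt_one hh.one_lt hh.natCast_ne_zero
  | succ n ih => rw [pow_succ]; exact ih.mul hh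

theorem IsDeepAt.div {h h' : F} (hh : IsDeepAt p V h) (hh' : IsDeepAt p V h') :
    IsDeepAt p V (h / h') := by
  rw [div_eq_mul_inv]
  exact hh.mul hh'.inv

/-- Deepness for a pulled-back valuation subring. -/
theorem isDeepAt_comap_iff (W : F →+* F) {h : F} :
    IsDeepAt p (V.comap W) h ↔ IsDeepAt p V (W h) := by
  have key : ∀ hp : (p : F) ≠ 0, (IsDeepAt p (V.comap W) h ↔ IsDeepAt p V (W h)) := by
    intro hp
    rw [isDeepAt_iff_div_lt_one hp, isDeepAt_iff_div_lt_one hp, valuation_comap_lt_one_iff,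
      map_div₀, map_pow, map_pow, map_sub, map_one, map_natCast]
  constructor
  · intro hh
    exact (key hh.natCast_ne_zero).mp hh
  · intro hh
    exact (key hh.natCast_ne_zero).mpr hh

/-- Deepness is preserved by a ring automorphism which preserves the maximal ideal of `V`. -/
theorem IsDeepAt.map (g : F →+* F) (hg : ∀ x : F, V.valuation x < 1 → V.valuation (g x) < 1)
    {h : F} (hh : IsDeepAt p V h) : IsDeepAt p V (g h) := by
  have hp := hh.natCast_ne_zero
  rw [isDeepAt_iff_div_lt_one hp] at hh ⊢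
  have h1 := hg _ hh
  rwa [map_div₀, map_pow, map_pow, map_sub, map_one, map_natCast] at h1

end Deep

/-! ### The abstract subgroup `T` -/

section Abstract

variable (K : Type*) {F : Type*} [Field K] [Field F] [Algebra K F] [HasPrincipalDivisors K F]

/-- `T`: the classes of `p`-Kummer elements having one representative which is deep for both
valuation subrings `V₁`, `V₂`. -/
def kDeepAbs (p : ℕ) (V₁ V₂ : ValuationSubring F) : AddSubgroup (Pic0 K F) where
  carrier := {x | x = 0 ∨ ∃ h : F, IsKummer K p h ∧ IsDeepAt p V₁ h ∧ IsDeepAt p V₂ h ∧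
    kummerClass K p h = x}
  zero_mem' := Or.inl rfl
  add_mem' := by
    rintro x y (rfl | ⟨h, hk, h1, h2, rfl⟩) (rfl | ⟨h', hk', h1', h2', rfl⟩)
    · exact Or.inl (add_zero _)
    · rw [zero_add]
      exact Or.inr ⟨h', hk', h1', h2', rfl⟩
    · rw [add_zero]
      exact Or.inr ⟨h, hk, h1, h2, rfl⟩
    · exact Or.inr ⟨h * h', hk.mul hk', h1.mul h1', h2.mul h2', kummerClass_mul hk hk'⟩
  neg_mem' := by
    rintro x (rfl | ⟨h, hk, h1, h2, rfl⟩)
    · exact Or.inl neg_zero
    · exact Or.inr ⟨h⁻¹, hk.inv, h1.inv, h2.inv, kummerClass_inv hk⟩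

variable {K}

theorem mem_kDeepAbs_iff' {p : ℕ} {V₁ V₂ : ValuationSubring F} {x : Pic0 K F} :
    x ∈ kDeepAbs K p V₁ V₂ ↔ x = 0 ∨ ∃ h : F, IsKummer K p h ∧ IsDeepAt p V₁ h ∧
      IsDeepAt p V₂ h ∧ kummerClass K p h = x :=
  Iff.rfl

theorem mem_kDeepAbs_of {p : ℕ} {V₁ V₂ : ValuationSubring F} {h : F} (hk : IsKummer K p h)
    (h1 : IsDeepAt p V₁ h) (h2 : IsDeepAt p V₂ h) : kummerClass K p h ∈ kDeepAbs K p V₁ V₂ :=
  Or.inr ⟨h, hk, h1, h2, rfl⟩

theorem mem_kDeepAbs_iff {p : ℕ} (hp1 : 1 < p) (hp : (p : F) ≠ 0) {V₁ V₂ : ValuationSubring F}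
    {x : Pic0 K F} :
    x ∈ kDeepAbs K p V₁ V₂ ↔ ∃ h : F, IsKummer K p h ∧ IsDeepAt p V₁ h ∧
      IsDeepAt p V₂ h ∧ kummerClass K p h = x := by
  constructor
  · rintro (rfl | hx)
    · exact ⟨1, isKummer_one p, isDeepAt_one hp1 hp, isDeepAt_one hp1 hp, kummerClass_one p⟩
    · exact hx
  · exact fun hx => Or.inr hx

/-- `T ≤ K_p`. -/
theorem kDeepAbs_le_kBothAbs {p : ℕ} {V₁ V₂ : ValuationSubring F} :
    kDeepAbs K p V₁ V₂ ≤ kBothAbs K p V₁ V₂ := by
  rintro x (rfl | ⟨h, hk, h1, h2, rfl⟩)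
  · exact zero_mem _
  · exact ⟨h, hk, h1.sub_one_lt, h2.sub_one_lt, rfl⟩

/-- `T` is stable under a semilinear automorphism preserving deepness at both valuations. -/
theorem smul_mem_kDeepAbs {p : ℕ} (g : SemilinearAut K F) {V₁ V₂ : ValuationSubring F}
    (hg₁ : ∀ x : F, IsDeepAt p V₁ x → IsDeepAt p V₁ (g • x))
    (hg₂ : ∀ x : F, IsDeepAt p V₂ x → IsDeepAt p V₂ (g • x))
    {x : Pic0 K F} (hx : x ∈ kDeepAbs K p V₁ V₂) : g • x ∈ kDeepAbs K p V₁ V₂ := by
  rcases hx with rfl | ⟨h, hk, h1, h2, rfl⟩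
  · exact Or.inl (smul_zero (A := Pic0 K F) g)
  · exact Or.inr ⟨g • h, (isKummer_smul_iff g).mpr hk, hg₁ h h1, hg₂ h h2,
      (smul_kummerClass g p h).symm⟩

end Abstract

/-! ### The modular instance -/

section Modular

local notation "Qb" => AlgebraicClosure ℚ

variable (A : ValuationSubring Qb) (N p : ℕ)
  [HasPrincipalDivisors Qb (modularFunctionFieldBar N)]

/-- **`T`** at level `N`: the classes in `J₀(N)` of the `p`-Kummer functions with one
representative deep at the Gauss valuation of `A` and at its `W`-twin. -/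
def kDeep (W : modularFunctionFieldBar N ≃ₐ[Qb] modularFunctionFieldBar N) :
    AddSubgroup (JZero N) :=
  kDeepAbs Qb p (gaussV A N) ((gaussV A N).comap (ringHomOf N W))

variable {A N p}

omit [HasPrincipalDivisors Qb (modularFunctionFieldBar N)] in
theorem natCast_ne_zero_bar (hp : p ≠ 0) : ((p : ℕ) : modularFunctionFieldBar N) ≠ 0 := by
  have h : ((p : ℕ) : modularFunctionFieldBar N) =
      algebraMap Qb (modularFunctionFieldBar N) (p : Qb) := (map_natCast _ p).symm
  rw [h]
  exact (map_ne_zero _).mpr (Nat.cast_ne_zero.mpr hp)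

theorem mem_kDeep_iff' {W : modularFunctionFieldBar N ≃ₐ[Qb] modularFunctionFieldBar N}
    {x : JZero N} :
    x ∈ kDeep A N p W ↔ x = 0 ∨ ∃ h : modularFunctionFieldBar N, IsKummer Qb p h ∧
      IsDeepAt p (gaussV A N) h ∧ IsDeepAt p (gaussV A N) (W h) ∧ kummerClass Qb p h = x := by
  refine or_congr Iff.rfl (exists_congr fun h => and_congr_right fun _ => and_congr_right fun _ =>
    and_congr_left fun _ => ?_)
  exact isDeepAt_comap_iff (ringHomOf N W)

theorem mem_kDeep_iff (hp1 : 1 < p)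
    {W : modularFunctionFieldBar N ≃ₐ[Qb] modularFunctionFieldBar N} {x : JZero N} :
    x ∈ kDeep A N p W ↔ ∃ h : modularFunctionFieldBar N, IsKummer Qb p h ∧
      IsDeepAt p (gaussV A N) h ∧ IsDeepAt p (gaussV A N) (W h) ∧ kummerClass Qb p h = x := by
  rw [mem_kDeep_iff']
  constructor
  · rintro (rfl | hx)
    · have hp : ((p : ℕ) : modularFunctionFieldBar N) ≠ 0 := natCast_ne_zero_bar (by omega)
      refine ⟨1, isKummer_one p, isDeepAt_one hp1 hp, ?_, kummerClass_one p⟩
      rw [map_one]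
      exact isDeepAt_one hp1 hp
    · exact hx
  · exact fun hx => Or.inr hx

theorem mem_kDeep_of {W : modularFunctionFieldBar N ≃ₐ[Qb] modularFunctionFieldBar N}
    {h : modularFunctionFieldBar N} (hk : IsKummer Qb p h) (h1 : IsDeepAt p (gaussV A N) h)
    (h2 : IsDeepAt p (gaussV A N) (W h)) : kummerClass Qb p h ∈ kDeep A N p W :=
  mem_kDeep_iff'.mpr (Or.inr ⟨h, hk, h1, h2, rfl⟩)

/-- `T ≤ K_p` (the landed `Fermat.Agent.S33.helper3511.kBoth`). -/
theorem kDeep_le_kBoth {W : modularFunctionFieldBar N ≃ₐ[Qb] modularFunctionFieldBar N} :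
    kDeep A N p W ≤ kBoth A N p W :=
  kDeepAbs_le_kBothAbs

/-- `T` is killed by `p`. -/
theorem nsmul_eq_zero_of_mem_kDeep
    {W : modularFunctionFieldBar N ≃ₐ[Qb] modularFunctionFieldBar N}
    {x : JZero N} (hx : x ∈ kDeep A N p W) : p • x = 0 :=
  nsmul_eq_zero_of_mem_kBoth (kDeep_le_kBoth hx)

omit [HasPrincipalDivisors Qb (modularFunctionFieldBar N)] in
/-- The decomposition group of `A` preserves deepness at the Gauss valuation. -/
theorem isDeepAt_gaussV_decomp {σ : Qb ≃ₐ[ℚ] Qb} (hσ : σ ∈ A.decompositionSubgroup ℚ)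
    {h : modularFunctionFieldBar N} (hh : IsDeepAt p (gaussV A N) h) :
    IsDeepAt p (gaussV A N) (arithmeticGalois (modularFunctionFieldFull N) σ • h) := by
  have hp := hh.natCast_ne_zero
  rw [isDeepAt_iff_div_lt_one hp] at hh ⊢
  have h1 := gaussF_valuation_decomp_lt A N hσ _ hh
  have e : arithmeticGalois (modularFunctionFieldFull N) σ •
      ((h - 1) ^ (p - 1) / (p : modularFunctionFieldBar N) ^ p) =
      (arithmeticGalois (modularFunctionFieldFull N) σ • h - 1) ^ (p - 1) /
        (p : modularFunctionFieldBar N) ^ p := by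
    simp only [SemilinearAut.smul_def, map_div₀, map_pow, map_sub, map_one, map_natCast]
  rwa [e] at h1

/-- **(F1)** `T` is stable under the decomposition group of `A` (for `W` commuting with the
coefficientwise Galois action). -/
theorem smul_mem_kDeep {W : modularFunctionFieldBar N ≃ₐ[Qb] modularFunctionFieldBar N}
    {σ : Qb ≃ₐ[ℚ] Qb} (hσ : σ ∈ A.decompositionSubgroup ℚ)
    (hWσ : ∀ x : modularFunctionFieldBar N,
      W (arithmeticGalois (modularFunctionFieldFull N) σ • x) =
        arithmeticGalois (modularFunctionFieldFull N) σ • W x)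
    {x : JZero N} (hx : x ∈ kDeep A N p W) : σ • x ∈ kDeep A N p W := by
  rw [galois_smul_pic0_def]
  refine smul_mem_kDeepAbs _ (fun y hy => isDeepAt_gaussV_decomp hσ hy) ?_ hx
  intro y hy
  rw [isDeepAt_comap_iff] at hy ⊢
  have e : ringHomOf N W (arithmeticGalois (modularFunctionFieldFull N) σ • y) =
      arithmeticGalois (modularFunctionFieldFull N) σ • ringHomOf N W y := hWσ y
  rw [e]
  exact isDeepAt_gaussV_decomp hσ hy

/-! ### The statement: inertia acts on `T` through the cyclotomic character -/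

/-- **(TORCHI), element form**: the wild twin of `Fermat.Agent.S34.helper584.Stmt_TorFix`.  For
every `p`-Kummer function `h` deep at both Gauss valuations, `τ h / h ^ k` is a divisor-free
element times a `p`-th power.  To be used with `N = p * N₀`, `p ∤ N₀`, `W = W_p`, `A` over `p`,
`τ` in the inertia group of `A` and `τ ζ = ζ ^ k` for a primitive `p`-th root of unity `ζ`. -/
def Stmt_TorChiElt (N p : ℕ) (A : ValuationSubring Qb)
    (W : modularFunctionFieldBar N ≃ₐ[Qb] modularFunctionFieldBar N) (τ : Qb ≃ₐ[ℚ] Qb)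
    (k : ℕ) : Prop :=
  ∀ h : modularFunctionFieldBar N, IsKummer Qb p h →
    IsDeepAt p (gaussV A N) h → IsDeepAt p (gaussV A N) (W h) →
    ∃ w c : modularFunctionFieldBar N, w ≠ 0 ∧ c ≠ 0 ∧
      (∀ v : Place Qb (modularFunctionFieldBar N), v.ord c = 0) ∧
      arithmeticGalois (modularFunctionFieldFull N) τ • h = h ^ k * (c * w ^ p)

/-- **(TORCHI), class form**: `τ x = k • x` for every `x ∈ T`. -/
theorem torChi_class {W : modularFunctionFieldBar N ≃ₐ[Qb] modularFunctionFieldBar N}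
    {τ : Qb ≃ₐ[ℚ] Qb} {k : ℕ} (hp : p ≠ 0) (H : Stmt_TorChiElt N p A W τ k)
    {x : JZero N} (hx : x ∈ kDeep A N p W) : τ • x = k • x := by
  rcases mem_kDeep_iff'.mp hx with rfl | ⟨h, hk, h1, h2, rfl⟩
  · rw [nsmul_zero]
    exact smul_zero (A := JZero N) τ
  · rw [galois_smul_kummerClass, ← kummerClass_pow hk]
    exact (kummerClass_eq_iff hp ((isKummer_smul_iff _).mpr hk) (hk.pow k)).mpr (H h hk h1 h2)

/-- The `χ`-action and a unipotent action are incompatible off the `χ`-line: if `τ x = k • x`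
and `τ x - x ∈ ⟨v₁⟩` for a subgroup `V₁`, then `(k - 1) • x ∈ V₁`. -/
theorem sub_one_nsmul_mem_of_torChi {W : modularFunctionFieldBar N ≃ₐ[Qb] modularFunctionFieldBar N}
    {τ : Qb ≃ₐ[ℚ] Qb} {k : ℕ} (hp : p ≠ 0) (H : Stmt_TorChiElt N p A W τ k)
    (V₁ : AddSubgroup (JZero N)) {x : JZero N} (hx : x ∈ kDeep A N p W)
    (hτ : τ • x - x ∈ V₁) : ((k : ℤ) - 1) • x ∈ V₁ := by
  have h1 := torChi_class hp H hx
  rw [h1] at hτ
  have e : ((k : ℤ) - 1) • x = k • x - x := by
    rw [sub_smul, one_smul, natCast_zsmul]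
  rw [e]
  exact hτ

end Modular

end

end Fermat.Agent.S44.helper6715
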