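/-
S44, leaf L2-INST (helper6715): the two carriers of `T` agree.

* `Fermat.Agent.S44.helper560.kDeep A N p W` (Spec of the block (TOR), architect helper560):
  classes of `p`-Kummer functions `h` such that `h` and `W h` are approximable to every depth by
  `p`-th powers of functions at the Gauss valuation;
* `Fermat.Agent.S44.helper6715.kDeep A N p W` (internal carrier of L2-INST): classes with ONE
  representative deep at both Gauss valuations.

`mem_kDeep_of_sep` : separate approximations `g`, `g'` at the deep level give a member (strong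
approximation for the two Gauss valuations, quantitative form `exists_approx_lt_of_arch`);
`mem_kDeep_of_mem_kDeep560` : `helper560.kDeep ⊆ kDeep`; `..._atkinLehner` : the instances at the
level `q * M` with `W = W_q` (witnesses of the landed `helper584.exists_witness`).
-/
import Fermat.Agent.S44.helper6715_DeepSpec
import Fermat.Agent.S44.helper560_TorSpec

set_option autoImplicit false

namespace Fermat.Agent.S44.helper6715

open AlgebraicCurve ModularCurve
open Fermat.Agent.S29.helper8217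
open Fermat.Agent.S34.helper584
open Fermat.Agent.S18
open Fermat.Agent.S33.helper3511

noncomputable section

/-! ### Quantitative strong approximation for two valuations -/

section Approx

variable {F Γ₁ Γ₂ : Type*} [Field F] [LinearOrderedCommGroupWithZero Γ₁]
  [LinearOrderedCommGroupWithZero Γ₂]

/-- **Strong approximation for two valuations, quantitative form.**  `b` a unit for `v₁` and
small for `v₂`, `c` small for `v₁` and a unit for `v₂`, the powers of `c` (resp. `b`) becoming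
arbitrarily small for `v₁` (resp. `v₂`).  Then for all `d, f` and all `x₁, x₂ ≠ 0` there is `g`
with `v₁ (g - d) < v₁ x₁` and `v₂ (g - f) < v₂ x₂`. -/
theorem exists_approx_lt_of_arch (v₁ : Valuation F Γ₁) (v₂ : Valuation F Γ₂) (b c : F)
    (hb₁ : v₁ b = 1) (hb₂ : v₂ b < 1) (hc₁ : v₁ c < 1) (hc₂ : v₂ c = 1)
    (harch₁ : ∀ x : F, x ≠ 0 → ∃ k : ℕ, v₁ (c ^ k / x) < 1)
    (harch₂ : ∀ x : F, x ≠ 0 → ∃ k : ℕ, v₂ (b ^ k / x) < 1)
    (d f x₁ x₂ : F) (hx₁ : x₁ ≠ 0) (hx₂ : x₂ ≠ 0) :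
    ∃ g : F, v₁ (g - d) < v₁ x₁ ∧ v₂ (g - f) < v₂ x₂ := by
  have hx₁' : 0 < v₁ x₁ := zero_lt_iff.mpr ((Valuation.ne_zero_iff _).mpr hx₁)
  have hx₂' : 0 < v₂ x₂ := zero_lt_iff.mpr ((Valuation.ne_zero_iff _).mpr hx₂)
  rcases eq_or_ne f d with rfl | hfd
  · exact ⟨f, by rw [sub_self, map_zero]; exact hx₁', by rw [sub_self, map_zero]; exact hx₂'⟩
  have hx : f - d ≠ 0 := sub_ne_zero.mpr hfd
  have hx' : d - f ≠ 0 := sub_ne_zero.mpr (Ne.symm hfd)
  obtain ⟨k₁, hk₁⟩ := harch₁ (x₁ / (f - d)) (div_ne_zero hx₁ hx)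
  obtain ⟨k₂, hk₂⟩ := harch₂ (x₂ / (d - f)) (div_ne_zero hx₂ hx')
  obtain ⟨N, hN⟩ : ∃ N : ℕ, N = max k₁ k₂ + 1 := ⟨_, rfl⟩
  have hN1 : k₁ ≤ N := by rw [hN]; exact (le_max_left _ _).trans (Nat.le_succ _)
  have hN2 : k₂ ≤ N := by rw [hN]; exact (le_max_right _ _).trans (Nat.le_succ _)
  have hN0 : N ≠ 0 := by rw [hN]; exact Nat.succ_ne_zero _
  have hcN : v₁ (c ^ N) < 1 := by
    rw [map_pow]
    exact pow_lt_one₀ zero_le hc₁ hN0
  have hbN : v₂ (b ^ N) < 1 := by
    rw [map_pow]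
    exact pow_lt_one₀ zero_le hb₂ hN0
  have hD₁ : v₁ (b ^ N + c ^ N) = 1 := by
    have h1 : v₁ (b ^ N) = 1 := by rw [map_pow, hb₁, one_pow]
    rw [Valuation.map_add_eq_of_lt_left _ (by rw [h1]; exact hcN), h1]
  have hD₂ : v₂ (b ^ N + c ^ N) = 1 := by
    have h1 : v₂ (c ^ N) = 1 := by rw [map_pow, hc₂, one_pow]
    rw [Valuation.map_add_eq_of_lt_right _ (by rw [h1]; exact hbN), h1]
  have hD0 : b ^ N + c ^ N ≠ 0 := by
    intro h0
    rw [h0, map_zero] at hD₁
    exact zero_ne_one hD₁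
  have e₁ : v₁ (c ^ N * (f - d)) < v₁ x₁ := by
    have h1 : v₁ (c ^ k₁ * (f - d)) < v₁ x₁ := by
      have h2 : c ^ k₁ / (x₁ / (f - d)) = c ^ k₁ * (f - d) / x₁ := by
        field_simp
      rw [h2, map_div₀, div_lt_one₀ hx₁'] at hk₁
      exact hk₁
    refine lt_of_le_of_lt ?_ h1
    rw [map_mul, map_mul, map_pow, map_pow]
    exact mul_le_mul' (pow_le_pow_of_le_one zero_le hc₁.le hN1) le_rfl
  have e₂ : v₂ (b ^ N * (d - f)) < v₂ x₂ := by
    have h1 : v₂ (b ^ k₂ * (d - f)) < v₂ x₂ := by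
      have h2 : b ^ k₂ / (x₂ / (d - f)) = b ^ k₂ * (d - f) / x₂ := by
        field_simp
      rw [h2, map_div₀, div_lt_one₀ hx₂'] at hk₂
      exact hk₂
    refine lt_of_le_of_lt ?_ h1
    rw [map_mul, map_mul, map_pow, map_pow]
    exact mul_le_mul' (pow_le_pow_of_le_one zero_le hb₂.le hN2) le_rfl
  refine ⟨(d * b ^ N + f * c ^ N) / (b ^ N + c ^ N), ?_, ?_⟩
  · have h1 : (d * b ^ N + f * c ^ N) / (b ^ N + c ^ N) - d
        = c ^ N * (f - d) / (b ^ N + c ^ N) := by
      field_simp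
      ring
    rw [h1, map_div₀, hD₁, div_one]
    exact e₁
  · have h1 : (d * b ^ N + f * c ^ N) / (b ^ N + c ^ N) - f
        = b ^ N * (d - f) / (b ^ N + c ^ N) := by
      field_simp
      ring
    rw [h1, map_div₀, hD₂, div_one]
    exact e₂

end Approx

/-! ### Deep elements: an explicit threshold, and common representatives -/

section Common

variable {F : Type*} [Field F] {p : ℕ}

/-- An explicit deep threshold: `|t - 1| ≤ |c * p ^ 3|` with `|c| < 1` implies deep. -/
theorem isDeepAt_of_le_mul (hp1 : 1 < p) {V : ValuationSubring F} (hp : (p : F) ≠ 0) {c t : F}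
    (hc : V.valuation c < 1) (ht : V.valuation (t - 1) ≤ V.valuation (c * (p : F) ^ 3)) :
    IsDeepAt p V t := by
  rw [isDeepAt_iff]
  have hP1 : V.valuation (p : F) ≤ 1 := valuation_natCast_le_one V p
  have hP0 : 0 < V.valuation (p : F) := zero_lt_iff.mpr ((map_ne_zero _).mpr hp)
  have h1 : V.valuation (t - 1) ^ (p - 1) ≤ V.valuation (c * (p : F) ^ 3) ^ (p - 1) :=
    pow_le_pow_left₀ zero_le ht _
  refine lt_of_le_of_lt h1 ?_
  rw [map_mul, map_pow, mul_pow, ← pow_mul]
  have h2 : V.valuation (p : F) ^ (3 * (p - 1)) ≤ V.valuation (p : F) ^ p :=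
    pow_le_pow_of_le_one zero_le hP1 (by omega)
  have h3 : V.valuation c ^ (p - 1) < 1 := pow_lt_one₀ zero_le hc (by omega)
  calc V.valuation c ^ (p - 1) * V.valuation (p : F) ^ (3 * (p - 1))
      ≤ V.valuation c ^ (p - 1) * V.valuation (p : F) ^ p := mul_le_mul' le_rfl h2
    _ < 1 * V.valuation (p : F) ^ p := mul_lt_mul_of_pos_right h3 (pow_pos hP0 p)
    _ = _ := one_mul _

/-- **Common deep representative.**  If `h / g₁ ^ p` is deep at `V₁` and `h / g₂ ^ p` is deep at
`V₂`, and the two valuations satisfy strong approximation (witnesses `b`, `c`, rank one), then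
`h / G ^ p` is deep at both for a single `G`. -/
theorem exists_common_deep (V₁ V₂ : ValuationSubring F) (b c : F)
    (hb₁ : V₁.valuation b = 1) (hb₂ : V₂.valuation b < 1) (hc₁ : V₁.valuation c < 1)
    (hc₂ : V₂.valuation c = 1)
    (harch₁ : ∀ x : F, x ≠ 0 → ∃ k : ℕ, V₁.valuation (c ^ k / x) < 1)
    (harch₂ : ∀ x : F, x ≠ 0 → ∃ k : ℕ, V₂.valuation (b ^ k / x) < 1)
    {h g₁ g₂ : F} (hg₁ : g₁ ≠ 0) (hg₂ : g₂ ≠ 0)
    (h1 : IsDeepAt p V₁ (h / g₁ ^ p)) (h2 : IsDeepAt p V₂ (h / g₂ ^ p)) :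
    ∃ G : F, G ≠ 0 ∧ IsDeepAt p V₁ (h / G ^ p) ∧ IsDeepAt p V₂ (h / G ^ p) := by
  have hp1 := h1.one_lt
  have hp := h1.natCast_ne_zero
  have hb0 : b ≠ 0 := by
    rintro rfl
    rw [map_zero] at hb₁
    exact zero_ne_one hb₁
  have hc0 : c ≠ 0 := by
    rintro rfl
    rw [map_zero] at hc₂
    exact zero_ne_one hc₂
  have hP3 : (p : F) ^ 3 ≠ 0 := pow_ne_zero 3 hp
  obtain ⟨G, hG1, hG2⟩ := exists_approx_lt_of_arch V₁.valuation V₂.valuation b c hb₁ hb₂ hc₁ hc₂
    harch₁ harch₂ g₁ g₂ (g₁ * (c * (p : F) ^ 3)) (g₂ * (b * (p : F) ^ 3))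
    (mul_ne_zero hg₁ (mul_ne_zero hc0 hP3)) (mul_ne_zero hg₂ (mul_ne_zero hb0 hP3))
  have key : ∀ (V : ValuationSubring F) (g cc : F), g ≠ 0 → V.valuation cc < 1 →
      V.valuation (G - g) < V.valuation (g * (cc * (p : F) ^ 3)) → IsDeepAt p V (h / g ^ p) →
      G ≠ 0 ∧ IsDeepAt p V (h / G ^ p) := by
    intro V g cc hg hcc hG hd
    have hg' : 0 < V.valuation g := zero_lt_iff.mpr ((Valuation.ne_zero_iff _).mpr hg)
    have hκ : V.valuation (cc * (p : F) ^ 3) ≤ 1 := by
      rw [map_mul, map_pow]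
      exact mul_le_one' hcc.le (pow_le_one' (valuation_natCast_le_one V p) 3)
    have hG' : V.valuation (G - g) < V.valuation g * V.valuation (cc * (p : F) ^ 3) := by
      rw [← map_mul]
      exact hG
    have hlt : V.valuation (G - g) < V.valuation g :=
      lt_of_lt_of_le hG' (mul_le_of_le_one_right' hκ)
    have hGv : V.valuation G = V.valuation g := by
      have e : G = g + (G - g) := by ring
      rw [e]
      exact Valuation.map_add_eq_of_lt_left _ hlt
    have hG0 : G ≠ 0 := by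
      rintro rfl
      rw [map_zero] at hGv
      exact hg'.ne hGv
    refine ⟨hG0, ?_⟩
    have e : h / G ^ p = (h / g ^ p) * (g / G) ^ p := by
      rw [div_pow]
      field_simp
    rw [e]
    refine hd.mul (IsDeepAt.pow ?_ p)
    refine isDeepAt_of_le_mul hp1 hp hcc ?_
    have e2 : g / G - 1 = -((G - g) / G) := by
      field_simp
      ring
    rw [e2, Valuation.map_neg, map_div₀, hGv, div_le_iff₀ hg', mul_comm]
    exact hG'.le
  obtain ⟨hG0, hd1⟩ := key V₁ g₁ c hg₁ hc₁ hG1 h1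
  obtain ⟨-, hd2⟩ := key V₂ g₂ b hg₂ hb₂ hG2 h2
  exact ⟨G, hG0, hd1, hd2⟩

end Common

/-! ### The modular instance -/

section Modular

local notation "Qb" => AlgebraicClosure ℚ

variable {A : ValuationSubring Qb} {N p : ℕ}
  [HasPrincipalDivisors Qb (modularFunctionFieldBar N)]

/-- **Separate approximations at the deep level give a member of `T`.** -/
theorem mem_kDeep_of_sep {q : ℕ} (hq : q.Prime) (hA : A.LiesOverPrime q)
    (W : modularFunctionFieldBar N ≃ₐ[Qb] modularFunctionFieldBar N)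
    (b c' : modularFunctionFieldBar N)
    (hb₁ : (gaussV A N).valuation b = 1) (hb₂ : (gaussV A N).valuation (W b) < 1)
    (hc₁ : (gaussV A N).valuation c' < 1) (hc₂ : (gaussV A N).valuation (W c') = 1)
    {h : modularFunctionFieldBar N} (hk : IsKummer Qb p h)
    (h1 : ∃ g : modularFunctionFieldBar N, g ≠ 0 ∧ IsDeepAt p (gaussV A N) (h / g ^ p))
    (h2 : ∃ g' : modularFunctionFieldBar N, g' ≠ 0 ∧ IsDeepAt p (gaussV A N) (W h / g' ^ p)) :
    kummerClass Qb p h ∈ kDeep A N p W := by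
  obtain ⟨g₁, hg₁, hd₁⟩ := h1
  obtain ⟨g', hg', hd'⟩ := h2
  have hWr : ∀ x, ringHomOf N W x = W x := fun _ => rfl
  have hg₂ : W.symm g' ≠ 0 := (map_ne_zero_iff W.symm W.symm.injective).mpr hg'
  have hd₂ : IsDeepAt p ((gaussV A N).comap (ringHomOf N W)) (h / W.symm g' ^ p) := by
    rw [isDeepAt_comap_iff, hWr, map_div₀, map_pow, AlgEquiv.apply_symm_apply]
    exact hd'
  have hb₂' : ((gaussV A N).comap (ringHomOf N W)).valuation b < 1 := by
    rw [valuation_comap_lt_one_iff, hWr]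
    exact hb₂
  have hc₂' : ((gaussV A N).comap (ringHomOf N W)).valuation c' = 1 := by
    rw [valuation_comap_eq_one_iff, hWr]
    exact hc₂
  obtain ⟨G, hG0, hG1, hG2⟩ := exists_common_deep (gaussV A N)
    ((gaussV A N).comap (ringHomOf N W)) b c' hb₁ hb₂' hc₁ hc₂'
    (fun x hx => gaussV_arch hq A hA N hc₁ hx)
    (fun x hx => by
      obtain ⟨k, hk'⟩ := gaussV_arch hq A hA N hb₂ ((map_ne_zero W).mpr hx)
      refine ⟨k, ?_⟩
      rw [valuation_comap_lt_one_iff, hWr, map_div₀, map_pow]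
      exact hk')
    hg₁ hg₂ hd₁ hd₂
  have hp0 : p ≠ 0 := by
    have := hd₁.one_lt
    omega
  have hKG : IsKummer Qb p (G ^ p) := isKummer_pow_self p hG0
  have e : kummerClass Qb p h = kummerClass Qb p (h / G ^ p) := by
    rw [kummerClass_div hk hKG, kummerClass_pow_self hp0 hG0, sub_zero]
  rw [e]
  exact mem_kDeep_of (hk.div hKG) hG1 ((isDeepAt_comap_iff (ringHomOf N W)).mp hG2)

/-- **The Spec carrier of the block (TOR) is contained in `T`**: a class whose Kummer function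
`h` and its twin `W h` are approximable to every depth by `p`-th powers of functions has one
representative deep at both Gauss valuations. -/
theorem mem_kDeep_of_mem_kDeep560 (hp1 : 1 < p) {q : ℕ} (hq : q.Prime) (hA : A.LiesOverPrime q)
    (W : modularFunctionFieldBar N ≃ₐ[Qb] modularFunctionFieldBar N)
    (b c' : modularFunctionFieldBar N)
    (hb₁ : (gaussV A N).valuation b = 1) (hb₂ : (gaussV A N).valuation (W b) < 1)
    (hc₁ : (gaussV A N).valuation c' < 1) (hc₂ : (gaussV A N).valuation (W c') = 1)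
    {x : JZero N} (hx : x ∈ Fermat.Agent.S44.helper560.kDeep A N p W) :
    x ∈ kDeep A N p W := by
  obtain ⟨h, hk, rfl, happ⟩ := hx
  have hp : ((p : ℕ) : modularFunctionFieldBar N) ≠ 0 := natCast_ne_zero_bar (by omega)
  have hc0 : c' ≠ 0 := by
    rintro rfl
    rw [map_zero, map_zero] at hc₂
    exact zero_ne_one hc₂
  have hκ0 : c' * (p : modularFunctionFieldBar N) ^ 3 ≠ 0 := mul_ne_zero hc0 (pow_ne_zero 3 hp)
  have hκ1 : (gaussV A N).valuation (c' * (p : modularFunctionFieldBar N) ^ 3) < 1 := by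
    rw [map_mul, map_pow]
    exact mul_lt_one_of_nonneg_of_lt_one_left zero_le hc₁
      (pow_le_one' (valuation_natCast_le_one _ p) 3)
  have key : ∀ y : modularFunctionFieldBar N, y ≠ 0 →
      (∃ g : modularFunctionFieldBar N, (gaussV A N).valuation (y - g ^ p) ≤
        (gaussV A N).valuation (y * (c' * (p : modularFunctionFieldBar N) ^ 3))) →
      ∃ g : modularFunctionFieldBar N, g ≠ 0 ∧ IsDeepAt p (gaussV A N) (y / g ^ p) := by
    rintro y hy ⟨g, hg⟩
    have hy' : 0 < (gaussV A N).valuation y :=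
      zero_lt_iff.mpr ((Valuation.ne_zero_iff _).mpr hy)
    rw [map_mul] at hg
    have hlt : (gaussV A N).valuation (y - g ^ p) < (gaussV A N).valuation y :=
      lt_of_le_of_lt hg (mul_lt_of_lt_one_right hy' hκ1)
    have hgv : (gaussV A N).valuation (g ^ p) = (gaussV A N).valuation y := by
      have e : g ^ p = y + -(y - g ^ p) := by ring
      rw [e]
      exact Valuation.map_add_eq_of_lt_left _ (by rw [Valuation.map_neg]; exact hlt)
    have hgp0 : g ^ p ≠ 0 := by
      intro h0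
      rw [h0, map_zero] at hgv
      exact hy'.ne hgv
    have hg0 : g ≠ 0 := by
      rintro rfl
      exact hgp0 (zero_pow (by omega))
    refine ⟨g, hg0, isDeepAt_of_le_mul hp1 hp hc₁ ?_⟩
    have e2 : y / g ^ p - 1 = (y - g ^ p) / g ^ p := by
      field_simp
    rw [e2, map_div₀, hgv, div_le_iff₀ hy', mul_comm]
    exact hg
  have hh0 : h ≠ 0 := hk.ne_zero
  have hWh0 : W h ≠ 0 := (map_ne_zero W).mpr hh0
  refine mem_kDeep_of_sep hq hA W b c' hb₁ hb₂ hc₁ hc₂ hk
    (key h hh0 (happ _ ?_).1) (key (W h) hWh0 (happ _ ?_).2)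
  · exact (Valuation.ne_zero_iff _).mpr (mul_ne_zero hh0 hκ0)
  · exact (Valuation.ne_zero_iff _).mpr (mul_ne_zero hWh0 hκ0)

end Modular

/-! ### The instance `N = q * M`, `W = W_q` -/

section AtkinLehner

local notation "Qb" => AlgebraicClosure ℚ

open Fermat.Agent.S35.helper1219

variable {q M : ℕ} [NeZero q] [NeZero M] (h : Nat.Coprime q M)
  [HasPrincipalDivisors Qb (modularFunctionFieldBar (q * M))]

/-- `mem_kDeep_of_sep` for the Atkin–Lehner involution at a prime `q ∥ q * M`. -/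
theorem mem_kDeep_of_sep_atkinLehner (hq : q.Prime) {A : ValuationSubring Qb}
    (hA : A.LiesOverPrime q) {p : ℕ} {u : modularFunctionFieldBar (q * M)}
    (hk : IsKummer Qb p u)
    (h1 : ∃ g : modularFunctionFieldBar (q * M), g ≠ 0 ∧
      IsDeepAt p (gaussV A (q * M)) (u / g ^ p))
    (h2 : ∃ g' : modularFunctionFieldBar (q * M), g' ≠ 0 ∧
      IsDeepAt p (gaussV A (q * M)) (atkinLehnerBar q M h u / g' ^ p)) :
    kummerClass Qb p u ∈ kDeep A (q * M) p (atkinLehnerBar q M h) := by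
  obtain ⟨b, c', hb₁, hb₂, hc₁, hc₂⟩ := exists_witness A hq hA (q * M) (Dvd.intro M rfl)
    (atkinLehnerBar q M h) (atkinLehnerBar_swap h)
  exact mem_kDeep_of_sep hq hA (atkinLehnerBar q M h) b c' hb₁ hb₂ hc₁ hc₂ hk h1 h2

/-- `helper560.kDeep ⊆ kDeep` for the Atkin–Lehner involution at a prime `q ∥ q * M`. -/
theorem mem_kDeep_of_mem_kDeep560_atkinLehner (hq : q.Prime) {A : ValuationSubring Qb}
    (hA : A.LiesOverPrime q) {p : ℕ} (hp1 : 1 < p) {x : JZero (q * M)}
    (hx : x ∈ Fermat.Agent.S44.helper560.kDeep A (q * M) p (atkinLehnerBar q M h)) :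
    x ∈ kDeep A (q * M) p (atkinLehnerBar q M h) := by
  obtain ⟨b, c', hb₁, hb₂, hc₁, hc₂⟩ := exists_witness A hq hA (q * M) (Dvd.intro M rfl)
    (atkinLehnerBar q M h) (atkinLehnerBar_swap h)
  exact mem_kDeep_of_mem_kDeep560 hp1 hq hA (atkinLehnerBar q M h) b c' hb₁ hb₂ hc₁ hc₂ hx

end AtkinLehner

end

end Fermat.Agent.S44.helper6715
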