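/-
S44, seam (T3b) `Fermat.Agent.S44.helper3130.Stmt_Tor` of the top Spec: THE SEAM WRAPPER.
(helper560; the accountable owner of the seam is helper6715, whose instance this file consumes.)

The Spec states (T3b) on the carrier `helper3130.InT` (a Kummer function which is a `p`-th power
to every precision at both Gauss valuations, approximants in the function field) and with
`helper3130.IsCycloExp p σ m` (`σ ζ = ζ ^ m`, `m : ℤ`, on all `p`-th roots of unity).  The instance
chain proves the element form `helper6715.Stmt_TorChiElt (p * M) p A W_p σ n` for `σ` in the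
inertia group of `A` with `σ ζ = ζ ^ n` (`n : ℕ`, `ζ` a primitive `p`-th root of unity) on the
one-representative carrier `helper6715.kDeep`.  This file joins the two:

* `isKummerFn_iff`        : `IsKummerFn N n c h ↔ IsKummer ℚ̄ n h ∧ kummerClass ℚ̄ n h = c`;
* `inT_iff_mem_kDeep`     : `InT p M hcop A c ↔ c ∈ helper560.kDeep A (p * M) p W_p`;
* `inT_imp_mem_kDeep6715` : `InT ⟹ c ∈ helper6715.kDeep` (through helper6715's bridge);
* `IsCycloExp.exists_nat` : `IsCycloExp p σ m ⟹ ∃ n : ℕ, σ ζ = ζ ^ n` on primitive roots and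
                            `n • c = m • c` on `p`-torsion;
* `stmt_Tor_of_torChiElt` : **the seam** from the element form.
-/
import Fermat.Agent.S44.helper3130_Spec
import Fermat.Agent.S44.helper6715_DeepBridge

set_option autoImplicit false

namespace Fermat.Agent.S44.helper560

open AlgebraicCurve ModularCurve
open Fermat.Agent.S29.helper8217
open Fermat.Agent.S34.helper584
open Fermat.Agent.S33.helper3511
open Fermat.Agent.S35.helper1219

local notation "Qb" => AlgebraicClosure ℚ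

/-- The Spec's "Kummer function of the class `c`" in the landed `S29.helper8217` vocabulary. -/
theorem isKummerFn_iff {N n : ℕ} [NeZero N] (hn : n ≠ 0) {c : JZero N}
    {h : modularFunctionFieldBar N} :
    Fermat.Agent.S44.helper3130.IsKummerFn N n c h ↔
      IsKummer Qb n h ∧ kummerClass Qb n h = c := by
  constructor
  · rintro ⟨h0, D, hD, hord⟩
    obtain ⟨hk, hdiv⟩ := isKummer_of_zsmul_eq (K := Qb) hn h0
      (D := (D : Divisor Qb (modularFunctionFieldBar N))) (fun v => (hord v).symm)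
    exact ⟨hk, (kummerClass_eq_mk_of_eq hk D hdiv.symm).trans hD⟩
  · rintro ⟨hk, hc⟩
    refine ⟨hk.ne_zero, ⟨kummerDivisor Qb n h, kummerDivisor_mem_degZero hk⟩, ?_, fun v => ?_⟩
    · rw [← hc, kummerClass_eq_mk hk]
    · exact (hk.mul_ediv_cancel v).symm

section Carrier

variable {p M : ℕ} [NeZero p] [NeZero M] (hcop : Nat.Coprime p M) (A : ValuationSubring Qb)

/-- The Spec carrier `InT` is the approximation-form carrier `helper560.kDeep` at the level
`p * M` with `W = W_p`. -/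
theorem inT_iff_mem_kDeep (c : JZero (p * M)) :
    Fermat.Agent.S44.helper3130.InT p M hcop A c ↔
      c ∈ kDeep A (p * M) p (atkinLehnerBar p M hcop) := by
  have hp0 : p ≠ 0 := NeZero.ne p
  constructor
  · rintro ⟨h, hK, happ⟩
    obtain ⟨hk, hc⟩ := (isKummerFn_iff hp0).1 hK
    refine ⟨h, hk, hc, fun ε hε => ⟨?_, ?_⟩⟩
    · obtain ⟨g, hg⟩ := happ ε hε 0
      exact ⟨g, hg⟩
    · obtain ⟨g, hg⟩ := happ ε hε 1
      refine ⟨atkinLehnerBar p M hcop g, ?_⟩
      have e : atkinLehnerBar p M hcop h - atkinLehnerBar p M hcop g ^ p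
          = atkinLehnerBar p M hcop (h - g ^ p) := by
        rw [map_sub, map_pow]
      rw [e]
      exact hg
  · rintro ⟨h, hk, hc, happ⟩
    refine ⟨h, (isKummerFn_iff hp0).2 ⟨hk, hc⟩, fun γ hγ i => ?_⟩
    fin_cases i
    · obtain ⟨g, hg⟩ := (happ γ hγ).1
      exact ⟨g, hg⟩
    · obtain ⟨g, hg⟩ := (happ γ hγ).2
      refine ⟨atkinLehnerBar p M hcop g, ?_⟩
      show (gaussV A (p * M)).valuation
        (atkinLehnerBar p M hcop (h - atkinLehnerBar p M hcop g ^ p)) ≤ γ
      rw [map_sub, map_pow, atkinLehnerBar_atkinLehnerBar]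
      exact hg

/-- The Spec carrier `InT` lies in the one-representative carrier `helper6715.kDeep`. -/
theorem inT_imp_mem_kDeep6715 (hp : p.Prime) (hA : A.LiesOverPrime p) {c : JZero (p * M)}
    (hc : Fermat.Agent.S44.helper3130.InT p M hcop A c) :
    c ∈ Fermat.Agent.S44.helper6715.kDeep A (p * M) p (atkinLehnerBar p M hcop) :=
  Fermat.Agent.S44.helper6715.mem_kDeep_of_mem_kDeep560_atkinLehner hcop hp hA hp.one_lt
    ((inT_iff_mem_kDeep hcop A c).1 hc)

end Carrier

/-- From the Spec's integer exponent to a natural one: if `σ ζ = ζ ^ m` on the `p`-th roots of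
unity, then `n := (m mod p)` satisfies `σ ζ = ζ ^ n` and `n • c = m • c` on `p`-torsion. -/
theorem IsCycloExp.exists_nat {p : ℕ} (hp0 : p ≠ 0) {σ : Qb ≃ₐ[ℚ] Qb} {m : ℤ}
    (hm : Fermat.Agent.S44.helper3130.IsCycloExp p σ m) :
    ∃ n : ℕ, (∀ ζ : Qb, ζ ^ p = 1 → σ ζ = ζ ^ n) ∧
      ∀ {G : Type*} [AddCommGroup G] (c : G), p • c = 0 → n • c = m • c := by
  have hpZ : (0 : ℤ) < (p : ℤ) := by exact_mod_cast Nat.pos_of_ne_zero hp0
  have hnn : 0 ≤ m % (p : ℤ) := Int.emod_nonneg m hpZ.ne'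
  refine ⟨(m % (p : ℤ)).toNat, fun ζ hζ => ?_, fun {G} _ c hc => ?_⟩
  · have hζ0 : ζ ≠ 0 := by
      rintro rfl
      rw [zero_pow hp0] at hζ
      exact zero_ne_one hζ
    rw [hm ζ hζ]
    have e : m = (p : ℤ) * (m / (p : ℤ)) + ((m % (p : ℤ)).toNat : ℤ) := by
      rw [Int.toNat_of_nonneg hnn]
      exact (Int.mul_ediv_add_emod m p).symm
    conv_lhs => rw [e]
    rw [zpow_add₀ hζ0, zpow_mul, zpow_natCast, zpow_natCast, hζ, one_zpow, one_mul]
  · have e : m = (p : ℤ) * (m / (p : ℤ)) + ((m % (p : ℤ)).toNat : ℤ) := by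
      rw [Int.toNat_of_nonneg hnn]
      exact (Int.mul_ediv_add_emod m p).symm
    have hc' : ((p : ℤ) * (m / (p : ℤ))) • c = 0 := by
      rw [mul_comm, mul_smul, natCast_zsmul, hc, smul_zero]
    conv_rhs => rw [e]
    rw [add_smul, hc', zero_add, natCast_zsmul]

/-- **Seam (T3b) from the element form.**  If, at every level `p * M` (`p ≥ 5` prime, `p ∤ M`,
`p * M` squarefree, `2 ∣ M`) and for every `A` over `p`, every `σ` in the inertia group of `A`
with `σ ζ = ζ ^ n` on a primitive `p`-th root of unity satisfies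
`helper6715.Stmt_TorChiElt (p * M) p A W_p σ n`, then the Spec seam `helper3130.Stmt_Tor` holds. -/
theorem stmt_Tor_of_torChiElt
    (H : ∀ (p : ℕ) (_ : p.Prime) (_ : 5 ≤ p) (M : ℕ) [NeZero p] [NeZero M]
      (hcop : Nat.Coprime p M), Squarefree (p * M) → 2 ∣ M →
      ∀ (A : ValuationSubring Qb), A.LiesOverPrime p →
      ∀ σ ∈ A.inertiaSubgroupIn ℚ, ∀ (ζ : Qb) (n : ℕ), IsPrimitiveRoot ζ p → σ ζ = ζ ^ n →
        Fermat.Agent.S44.helper6715.Stmt_TorChiElt (p * M) p A (atkinLehnerBar p M hcop) σ n) :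
    Fermat.Agent.S44.helper3130.Stmt_Tor := by
  intro p hp hp5 M _ _ hcop hsq h2 A hA c hpc hT σ hσ m hm
  have hc := inT_imp_mem_kDeep6715 hcop A hp hA hT
  obtain ⟨n, hn, hnc⟩ := IsCycloExp.exists_nat hp.ne_zero hm
  obtain ⟨ζ, hζ⟩ : ∃ ζ : Qb, IsPrimitiveRoot ζ p :=
    HasEnoughRootsOfUnity.exists_primitiveRoot Qb p
  have h1 := Fermat.Agent.S44.helper6715.torChi_class hp.ne_zero
    (H p hp hp5 M hcop hsq h2 A hA σ hσ ζ n hζ (hn ζ hζ.pow_eq_one)) hc
  rw [h1]
  exact hnc c hpc

end Fermat.Agent.S44.helper560
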