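/-
S44-L2-COUNT-FF (board #2481, helper6147): step (1) COUNT of blueprint #3246 in function-field form,
on the binders of the landed `Fermat.Agent.S35.helper603.twisted_lattice_of_components`.

Setting.  `F / K` the generic function field with a family of valuations `v i` and a reduction
datum `red` (weights `1`), every Riemann-Roch space cartesian; the special fibre has two components
`Fk₁`, `Fk₂` (function fields over `kk` with places of degree one and a Riemann bound), embedded by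
`jj : Fk₁ × Fk₂ → Fk`; `P i`, `Q i` are the two points of the `i`-th node.  `u` is a unit for all
the `v i` with `red u = jj (u₁, u₂)`.  `ρ = ord mod n`, `ν` = number of nodes with `ρ ≠ 0` on both
branches.

Results (no hypothesis on the characteristic unless stated).
* `count_ineq` : `n D₀ ≤ div u` ⟹ `Σ ρ(u₁) + Σ ρ(u₂) + n deg D₀ ≤ n ν`.
* `count_card` : any `u` with generic divisor `Du`:
  `#{n ∤ ord u₁} + #{n ∤ ord u₂} ≤ 2 ν + #{n ∤ ord u}` (and the two one-sided inequalities).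
* `count_of_chart`, `count_of_chart'`, `count_of_components` (Kummer case `div u = n D₀`):
  `n ∣ ord_w u_c` at every place which is not a node point, and at a node
  `n ∣ ord_{P i} u₁ ↔ n ∣ ord_{Q i} u₂`.  For `n = p = char kk` this is the COUNT step (the
  logarithmic differential of the reduction of a Kummer function of exponent `p` has poles at
  most at the nodes).
* `redBall_eq_gluedPowSub`, `redBall_eq_gluedPowSub_of_card`, `surj_of_chart`,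
  `surj_of_components` (exponent `p` in characteristic `p`): when the count is an equality (always
  in the Kummer case), for all large `m` the reduction of the unit ball of `L(D₀ + m E)` is the
  space of ALL pairs `(y₁, y₂)` with `(y₁ ^ p u₁, y₂ ^ p u₂)` regular off the poles and glued at
  the nodes (the bijection of (C-even); `red (M_D g) = R(E)` of step (2)).

Proof.  `X := red (ball ∩ L(D₀ + m E))` has dimension `≥ deg D₀ + m deg E + 1 - g(F)` (cartesian +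
Riemann); for `(y₁, y₂) ∈ X` the pair `(y₁ ^ n u₁, y₂ ^ n u₂)` is the reduction of
`f ^ n u ∈ L(n m E)`, so it is regular off the poles and glued at the nodes.  Hence
`y₁ ∈ L(m Y₁ + ⌊div u₁ / n⌋ - Σ_B P i)` and, when `y₁ = 0`, `y₂ ∈ L(m Y₂ + ⌊div u₂ / n⌋ - Σ_T Q i)`
(`B`: nodes with `n ∣ ord_P u₁`, `n ∤ ord_Q u₂`; `T`: nodes with `n ∣ ord_Q u₂`).  Kernel and image
of the first projection bound the dimension of any space of such pairs by the two Riemann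
equalities, which gives the inequality; the same for `u⁻¹` and a count finish the proof.
-/
import Mathlib
import Fermat.Agent.S35.helper603_TwistedFF

set_option autoImplicit false

namespace Fermat.Agent.S44.helper6147

open AlgebraicCurve WithZero Module
open Fermat.Agent.S35.helper2459 (RedDataW CartesianW)
open Fermat.Agent.S35.helper603 (valueAt valueAt_unique valueAt_eq_zero_iff valueAt_add
  valueAt_smul redBall finrank_le_finrank_redBall red_pow_of_ball)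
open Fermat.Agent.S18.helper981 (HasRiemannBound riemannGenus)

/-! ### Integers -/

section IntLemmas

theorem emod_add_neg_emod {n a : ℤ} (hn : 0 < n) (h : ¬ n ∣ a) : a % n + (-a) % n = n := by
  have h1 : 0 < a % n := by
    rcases (Int.emod_nonneg a hn.ne').lt_or_eq with h' | h'
    · exact h'
    · exact absurd (Int.dvd_of_emod_eq_zero h'.symm) h
  have h2 : a % n < n := Int.emod_lt_of_pos a hn
  have h3 : (-a) % n = n - a % n := by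
    have e : -a = (n - a % n) + n * (-(a / n) - 1) := by
      have := Int.emod_add_mul_ediv a n
      linarith
    rw [e, Int.add_mul_emod_self_left, Int.emod_eq_of_lt (by omega) (by omega)]
  omega

end IntLemmas

/-! ### One place -/

section Local

variable {k F : Type*} [Field k] [Field F] [Algebra k F]

theorem ord_pow_mul (w : Place k F) {y g : F} (hy : y ≠ 0) (hg : g ≠ 0) (n : ℕ) :
    w.ord (y ^ n * g) = n * w.ord y + w.ord g := by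
  rw [w.ord_mul (pow_ne_zero n hy) hg, ← zpow_natCast, w.ord_zpow]

/-- If `y ^ n g` has order `≥ -n A` then `y` has order `≥ -(A + ⌊ord g / n⌋)`. -/
theorem neg_floor_le_ord (w : Place k F) {y g : F} (hy : y ≠ 0) (hg : g ≠ 0) {n : ℕ} (hn : 0 < n)
    {A : ℤ} (h : -((n : ℤ) * A) ≤ w.ord (y ^ n * g)) : -(A + w.ord g / n) ≤ w.ord y := by
  rw [ord_pow_mul w hy hg] at h
  have hn' : (0 : ℤ) < n := by exact_mod_cast hn
  have h1 := Int.emod_add_mul_ediv (w.ord g) n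
  have h2 := Int.emod_lt_of_pos (w.ord g) hn'
  by_contra hcon
  rw [not_le] at hcon
  have h4 : w.ord y + A + w.ord g / n ≤ -1 := by omega
  have h5 : (n : ℤ) * (w.ord y + A + w.ord g / n) ≤ n * (-1) :=
    mul_le_mul_of_nonneg_left h4 hn'.le
  nlinarith

/-- If `n ∤ ord g` and `y ^ n g` is regular at `w`, it vanishes at `w`. -/
theorem ord_pos_of_not_dvd (w : Place k F) {y g : F} (hy : y ≠ 0) (hg : g ≠ 0) {n : ℕ}
    (hnd : ¬ (n : ℤ) ∣ w.ord g) (h : 0 ≤ w.ord (y ^ n * g)) : 0 < w.ord (y ^ n * g) := by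
  rcases h.lt_or_eq with h' | h'
  · exact h'
  · exfalso
    apply hnd
    rw [ord_pow_mul w hy hg] at h'
    exact ⟨-w.ord y, by linarith⟩

/-- If `n ∣ ord g` and `y ^ n g` vanishes at `w`, then `ord y + ord g / n ≥ 1`. -/
theorem one_le_of_dvd_of_pos (w : Place k F) {y g : F} (hy : y ≠ 0) (hg : g ≠ 0) {n : ℕ}
    (hn : 0 < n) (hd : (n : ℤ) ∣ w.ord g) (h : 0 < w.ord (y ^ n * g)) :
    1 ≤ w.ord y + w.ord g / n := by
  rw [ord_pow_mul w hy hg] at h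
  obtain ⟨c, hc⟩ := hd
  have hn' : (0 : ℤ) < n := by exact_mod_cast hn
  rw [hc, Int.mul_ediv_cancel_left _ hn'.ne']
  rw [hc] at h
  by_contra hcon
  rw [not_le] at hcon
  have h4 : w.ord y + c ≤ 0 := by omega
  have h5 : (n : ℤ) * (w.ord y + c) ≤ n * 0 := mul_le_mul_of_nonneg_left h4 hn'.le
  nlinarith

theorem valueAt_zero (w : Place k F) (hw : w.deg = 1) : valueAt w hw (0 : F) = 0 :=
  valueAt_unique w hw (by simp)

theorem valueAt_eq_zero_of_ord_pos (w : Place k F) (hw : w.deg = 1) {f : F} (hf : f ≠ 0)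
    (h : 0 < w.ord f) : valueAt w hw f = 0 := by
  have h1 : w.adicValuation f < 1 := by
    rw [w.adicValuation_eq_exp_neg_ord hf, ← exp_zero, exp_lt_exp]
    omega
  exact (valueAt_eq_zero_iff w hw h1.le).mpr h1

theorem ord_pos_of_valueAt_eq_zero (w : Place k F) (hw : w.deg = 1) {f : F} (hf : f ≠ 0)
    (h0 : 0 ≤ w.ord f) (h : valueAt w hw f = 0) : 0 < w.ord f := by
  have h1 : w.adicValuation f ≤ 1 := w.adicValuation_le_one_iff.mpr (Or.inr h0)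
  have h2 := (valueAt_eq_zero_iff w hw h1).mp h
  rw [w.adicValuation_eq_exp_neg_ord hf, ← exp_zero, exp_lt_exp] at h2
  omega

end Local

/-! ### Floor and remainder of a divisor -/

section FloorDiv

variable {k F : Type*} [Field k] [Field F] [Algebra k F]

/-- `⌊D / n⌋`. -/
noncomputable def floorDiv (n : ℕ) (D : Divisor k F) : Divisor k F :=
  D.mapRange (fun a => a / (n : ℤ)) (Int.zero_ediv _)

/-- `D mod n`, with values in `[0, n)`. -/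
noncomputable def remDiv (n : ℕ) (D : Divisor k F) : Divisor k F :=
  D.mapRange (fun a => a % (n : ℤ)) (Int.zero_emod _)

@[simp] theorem floorDiv_apply (n : ℕ) (D : Divisor k F) (w : Place k F) :
    floorDiv n D w = D w / (n : ℤ) := Finsupp.mapRange_apply

@[simp] theorem remDiv_apply (n : ℕ) (D : Divisor k F) (w : Place k F) :
    remDiv n D w = D w % (n : ℤ) := Finsupp.mapRange_apply

theorem smul_floorDiv_add_remDiv (n : ℕ) (D : Divisor k F) :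
    n • floorDiv n D + remDiv n D = D := by
  ext w
  simp only [Finsupp.add_apply, Finsupp.smul_apply, floorDiv_apply, remDiv_apply, nsmul_eq_mul]
  exact Int.mul_ediv_add_emod (D w) n

theorem degree_floorDiv_add (n : ℕ) (D : Divisor k F) :
    (n : ℤ) * Divisor.degree (floorDiv n D) + Divisor.degree (remDiv n D) = Divisor.degree D := by
  conv_rhs => rw [← smul_floorDiv_add_remDiv n D]
  rw [map_add, map_nsmul, nsmul_eq_mul]

theorem mem_support_remDiv {n : ℕ} {D : Divisor k F} {w : Place k F} :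
    w ∈ (remDiv n D).support ↔ ¬ (n : ℤ) ∣ D w := by
  rw [Finsupp.mem_support_iff, remDiv_apply, Ne, ← Int.dvd_iff_emod_eq_zero]

theorem support_remDiv_neg (n : ℕ) (D : Divisor k F) :
    (remDiv n (-D)).support = (remDiv n D).support := by
  ext w
  rw [mem_support_remDiv, mem_support_remDiv, Finsupp.neg_apply, dvd_neg]

/-- `deg (D mod n) + deg (-D mod n) = n · #{w | n ∤ D w}`. -/
theorem degree_remDiv_add_neg (hdeg : ∀ w : Place k F, w.deg = 1) {n : ℕ} (hn : 0 < n)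
    (D : Divisor k F) :
    Divisor.degree (remDiv n D) + Divisor.degree (remDiv n (-D)) =
      (n : ℤ) * ((remDiv n D).support.card : ℤ) := by
  have hn' : (0 : ℤ) < n := by exact_mod_cast hn
  rw [Fermat.Agent.S18.helper981.degree_eq_sum hdeg, Fermat.Agent.S18.helper981.degree_eq_sum hdeg,
    Finsupp.sum, Finsupp.sum, support_remDiv_neg, ← Finset.sum_add_distrib]
  rw [Finset.sum_congr rfl (g := fun _ => (n : ℤ))]
  · rw [Finset.sum_const, nsmul_eq_mul, mul_comm]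
  · intro w hw
    rw [remDiv_apply, remDiv_apply, Finsupp.neg_apply]
    exact emod_add_neg_emod hn' (mem_support_remDiv.mp hw)

end FloorDiv

/-! ### Points of a finite family of places -/

section Points

variable {k F : Type*} [Field k] [Field F] [Algebra k F] {I : Type*}

/-- The divisor `Σ_{i ∈ T} P i`. -/
noncomputable def ptsDiv (P : I → Place k F) (T : Finset I) : Divisor k F :=
  ∑ i ∈ T, Finsupp.single (P i) (1 : ℤ)

theorem ptsDiv_apply_mem (P : I → Place k F) (hP : Function.Injective P) (T : Finset I) {j : I}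
    (hj : j ∈ T) : ptsDiv P T (P j) = 1 := by
  classical
  rw [ptsDiv, Finsupp.finsetSum_apply, Finset.sum_eq_single j]
  · simp
  · intro i _ hij
    rw [Finsupp.single_apply, if_neg (fun h => hij (hP h))]
  · intro h
    exact absurd hj h

theorem ptsDiv_apply_of_ne (P : I → Place k F) (T : Finset I) (w : Place k F)
    (hw : ∀ i ∈ T, P i ≠ w) : ptsDiv P T w = 0 := by
  classical
  rw [ptsDiv, Finsupp.finsetSum_apply]
  refine Finset.sum_eq_zero fun i hi => ?_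
  rw [Finsupp.single_apply, if_neg (hw i hi)]

theorem degree_ptsDiv (hdeg : ∀ w : Place k F, w.deg = 1) (P : I → Place k F) (T : Finset I) :
    Divisor.degree (ptsDiv P T) = (T.card : ℤ) := by
  rw [ptsDiv, map_sum]
  simp [Divisor.degree_single, hdeg]

end Points

/-! ### One component -/

section OneComponent

variable {k F : Type*} [Field k] [Field F] [Algebra k F] {I : Type*}

/-- At a point off the pole divisor where `n ∤ ord g`, the regular function `y ^ n g` vanishes. -/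
theorem valueAt_pow_mul_eq_zero_of_not_dvd (hdeg : ∀ w : Place k F, w.deg = 1)
    (Y : Divisor k F) (w : Place k F) (hYw : Y w = 0) {n : ℕ} (hn : 0 < n) {m : ℕ} {y g : F}
    (hg : g ≠ 0) (hmem : y ^ n * g ∈ riemannRochSpace ((n * m) • Y))
    (hnd : ¬ (n : ℤ) ∣ w.ord g) : valueAt w (hdeg w) (y ^ n * g) = 0 := by
  by_cases hy : y = 0
  · rw [hy, zero_pow hn.ne', zero_mul]
    exact valueAt_zero _ _
  · have hyg : y ^ n * g ≠ 0 := mul_ne_zero (pow_ne_zero n hy) hg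
    have h1 := (mem_riemannRochSpace_iff.mp hmem w).resolve_left hyg
    rw [Finsupp.smul_apply, hYw, smul_zero, neg_zero] at h1
    exact valueAt_eq_zero_of_ord_pos w (hdeg w) hyg (ord_pos_of_not_dvd w hy hg hnd h1)

/-- If `y ^ n g` has poles bounded by `n m Y` and vanishes at the points `P i`, `i ∈ T`
(where `n ∣ ord g` and `Y = 0`), then `y ∈ L(m Y + ⌊div g / n⌋ - Σ_{i ∈ T} P i)`. -/
theorem mem_rr_floor (hdeg : ∀ w : Place k F, w.deg = 1) (Y : Divisor k F)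
    (P : I → Place k F) (hP : Function.Injective P) (hPY : ∀ i, Y (P i) = 0)
    {n : ℕ} (hn : 0 < n) (m : ℕ) {g : F} (hg : g ≠ 0) (Dg : Divisor k F)
    (hDg : ∀ w : Place k F, Dg w = w.ord g) (T : Finset I)
    (hT : ∀ i ∈ T, (n : ℤ) ∣ Dg (P i)) {y : F}
    (hmem : y ^ n * g ∈ riemannRochSpace ((n * m) • Y))
    (hval : ∀ i ∈ T, valueAt (P i) (hdeg (P i)) (y ^ n * g) = 0) :
    y ∈ riemannRochSpace (m • Y + floorDiv n Dg - ptsDiv P T) := by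
  rw [mem_riemannRochSpace_iff]
  intro w
  by_cases hy : y = 0
  · exact Or.inl hy
  right
  have hyg : y ^ n * g ≠ 0 := mul_ne_zero (pow_ne_zero n hy) hg
  have h1 := (mem_riemannRochSpace_iff.mp hmem w).resolve_left hyg
  rw [Finsupp.smul_apply, nsmul_eq_mul] at h1
  have h2 : -((n : ℤ) * ((m : ℤ) * Y w)) ≤ w.ord (y ^ n * g) := by
    push_cast at h1
    rw [mul_assoc] at h1
    exact h1
  have h3 := neg_floor_le_ord w hy hg hn h2
  rw [Finsupp.sub_apply, Finsupp.add_apply, Finsupp.smul_apply, floorDiv_apply, hDg w,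
    nsmul_eq_mul]
  by_cases hw : ∃ i ∈ T, P i = w
  · obtain ⟨i, hi, rfl⟩ := hw
    rw [ptsDiv_apply_mem P hP T hi, hPY i]
    have h0 : 0 ≤ (P i).ord (y ^ n * g) := by
      rw [hPY i] at h2
      simpa using h2
    have hpos := ord_pos_of_valueAt_eq_zero (P i) (hdeg (P i)) hyg h0 (hval i hi)
    have hd : (n : ℤ) ∣ (P i).ord g := by
      rw [← hDg]
      exact hT i hi
    have := one_le_of_dvd_of_pos (P i) hy hg hn hd hpos
    linarith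
  · simp only [not_exists, not_and] at hw
    rw [ptsDiv_apply_of_ne P T w hw]
    linarith

end OneComponent

/-! ### The count -/

section Count

variable {kk : Type*} [Field kk] {Fk₁ Fk₂ : Type*} [Field Fk₁] [Field Fk₂]
  [Algebra kk Fk₁] [Algebra kk Fk₂] {I : Type*}

/-- The pair `(y₁ ^ n u₁, y₂ ^ n u₂)` has poles bounded by `n m Y_c` and is glued at the nodes. -/
def GluedPow (hdeg₁ : ∀ w : Place kk Fk₁, w.deg = 1) (hdeg₂ : ∀ w : Place kk Fk₂, w.deg = 1)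
    (P : I → Place kk Fk₁) (Q : I → Place kk Fk₂) (Y₁ : Divisor kk Fk₁) (Y₂ : Divisor kk Fk₂)
    (u₁ : Fk₁) (u₂ : Fk₂) (n m : ℕ) (y : Fk₁ × Fk₂) : Prop :=
  y.1 ^ n * u₁ ∈ riemannRochSpace ((n * m) • Y₁) ∧
    y.2 ^ n * u₂ ∈ riemannRochSpace ((n * m) • Y₂) ∧
    ∀ i, valueAt (Q i) (hdeg₂ (Q i)) (y.2 ^ n * u₂) =
      valueAt (P i) (hdeg₁ (P i)) (y.1 ^ n * u₁)

section Nodes

variable [Fintype I]

/-- Nodes with `n ∣ ord_P u₁` and `n ∤ ord_Q u₂`. -/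
def nodesB (n : ℕ) (P : I → Place kk Fk₁) (Q : I → Place kk Fk₂) (Du₁ : Divisor kk Fk₁)
    (Du₂ : Divisor kk Fk₂) : Finset I :=
  Finset.univ.filter fun i => (n : ℤ) ∣ Du₁ (P i) ∧ ¬ (n : ℤ) ∣ Du₂ (Q i)

/-- Nodes with `n ∣ ord_Q u₂`. -/
def nodesT (n : ℕ) (Q : I → Place kk Fk₂) (Du₂ : Divisor kk Fk₂) : Finset I :=
  Finset.univ.filter fun i => (n : ℤ) ∣ Du₂ (Q i)

/-- Nodes with `n ∤ ord` on both branches. -/
def nodesC (n : ℕ) (P : I → Place kk Fk₁) (Q : I → Place kk Fk₂) (Du₁ : Divisor kk Fk₁)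
    (Du₂ : Divisor kk Fk₂) : Finset I :=
  Finset.univ.filter fun i => ¬ (n : ℤ) ∣ Du₁ (P i) ∧ ¬ (n : ℤ) ∣ Du₂ (Q i)

theorem card_nodes (n : ℕ) (P : I → Place kk Fk₁) (Q : I → Place kk Fk₂) (Du₁ : Divisor kk Fk₁)
    (Du₂ : Divisor kk Fk₂) :
    (nodesB n P Q Du₁ Du₂).card + (nodesT n Q Du₂).card + (nodesC n P Q Du₁ Du₂).card =
      Fintype.card I := by
  rw [nodesB, nodesT, nodesC, Finset.card_filter, Finset.card_filter, Finset.card_filter,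
    ← Finset.sum_add_distrib, ← Finset.sum_add_distrib, ← Finset.card_univ,
    Finset.card_eq_sum_ones]
  refine Finset.sum_congr rfl fun i _ => ?_
  by_cases h1 : (n : ℤ) ∣ Du₁ (P i) <;> by_cases h2 : (n : ℤ) ∣ Du₂ (Q i) <;> simp [h1, h2]

theorem nodesC_neg (n : ℕ) (P : I → Place kk Fk₁) (Q : I → Place kk Fk₂) (Du₁ : Divisor kk Fk₁)
    (Du₂ : Divisor kk Fk₂) : nodesC n P Q (-Du₁) (-Du₂) = nodesC n P Q Du₁ Du₂ := by
  rw [nodesC, nodesC]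
  refine Finset.filter_congr fun i _ => ?_
  rw [Finsupp.neg_apply, Finsupp.neg_apply, dvd_neg, dvd_neg]

/-- **Special-fibre bound.**  A subspace of pairs with glued `n`-th powers has dimension at most
`l(m Y₁ + ⌊div u₁ / n⌋ - Σ_B P i) + l(m Y₂ + ⌊div u₂ / n⌋ - Σ_T Q i)` (image and kernel of the
first projection). -/
theorem finrank_le_of_gluedPow
    [HasPrincipalDivisors kk Fk₁] [HasPrincipalDivisors kk Fk₂]
    (hdeg₁ : ∀ w : Place kk Fk₁, w.deg = 1) (hdeg₂ : ∀ w : Place kk Fk₂, w.deg = 1)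
    (P₁ : Place kk Fk₁) (P₂ : Place kk Fk₂)
    (P : I → Place kk Fk₁) (Q : I → Place kk Fk₂)
    (hP : Function.Injective P) (hQ : Function.Injective Q)
    (Y₁ : Divisor kk Fk₁) (Y₂ : Divisor kk Fk₂)
    (hPY : ∀ i, Y₁ (P i) = 0) (hQY : ∀ i, Y₂ (Q i) = 0)
    {n : ℕ} (hn : 0 < n) (m : ℕ) {u₁ : Fk₁} {u₂ : Fk₂} (hu₁ : u₁ ≠ 0) (hu₂ : u₂ ≠ 0)
    (Du₁ : Divisor kk Fk₁) (Du₂ : Divisor kk Fk₂)
    (hDu₁ : ∀ w : Place kk Fk₁, Du₁ w = w.ord u₁) (hDu₂ : ∀ w : Place kk Fk₂, Du₂ w = w.ord u₂)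
    (Z : Submodule kk (Fk₁ × Fk₂))
    (hZ : ∀ y ∈ Z, GluedPow hdeg₁ hdeg₂ P Q Y₁ Y₂ u₁ u₂ n m y) :
    Module.Finite kk Z ∧ finrank kk Z ≤
      finrank kk (riemannRochSpace
        (m • Y₁ + floorDiv n Du₁ - ptsDiv P (nodesB n P Q Du₁ Du₂))) +
      finrank kk (riemannRochSpace (m • Y₂ + floorDiv n Du₂ - ptsDiv Q (nodesT n Q Du₂))) := by
  classical
  set D₁ : Divisor kk Fk₁ := m • Y₁ + floorDiv n Du₁ - ptsDiv P (nodesB n P Q Du₁ Du₂) with hD₁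
  set D₂ : Divisor kk Fk₂ := m • Y₂ + floorDiv n Du₂ - ptsDiv Q (nodesT n Q Du₂) with hD₂
  set D₂' : Divisor kk Fk₂ := m • Y₂ + floorDiv n Du₂ - ptsDiv Q (∅ : Finset I) with hD₂'
  have : Module.Finite kk (riemannRochSpace D₁) :=
    Fermat.Agent.S18.helper981.finite_riemannRochSpace hdeg₁ P₁ D₁
  have : Module.Finite kk (riemannRochSpace D₂) :=
    Fermat.Agent.S18.helper981.finite_riemannRochSpace hdeg₂ P₂ D₂
  have : Module.Finite kk (riemannRochSpace D₂') :=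
    Fermat.Agent.S18.helper981.finite_riemannRochSpace hdeg₂ P₂ D₂'
  have hX1 : ∀ y ∈ Z, y.1 ∈ riemannRochSpace D₁ := by
    intro y hy
    obtain ⟨h1, h2, h3⟩ := hZ y hy
    refine mem_rr_floor hdeg₁ Y₁ P hP hPY hn m hu₁ Du₁ hDu₁ _ (fun i hi => ?_) h1
      (fun i hi => ?_)
    · exact (Finset.mem_filter.mp hi).2.1
    · rw [← h3 i]
      refine valueAt_pow_mul_eq_zero_of_not_dvd hdeg₂ Y₂ (Q i) (hQY i) hn hu₂ h2 ?_
      rw [← hDu₂]
      exact (Finset.mem_filter.mp hi).2.2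
  have hX2 : ∀ y ∈ Z, y.1 = 0 → y.2 ∈ riemannRochSpace D₂ := by
    intro y hy hy1
    obtain ⟨h1, h2, h3⟩ := hZ y hy
    refine mem_rr_floor hdeg₂ Y₂ Q hQ hQY hn m hu₂ Du₂ hDu₂ _ (fun i hi => ?_) h2
      (fun i hi => ?_)
    · exact (Finset.mem_filter.mp hi).2
    · rw [h3 i, hy1, zero_pow hn.ne', zero_mul]
      exact valueAt_zero _ _
  have hX2' : ∀ y ∈ Z, y.2 ∈ riemannRochSpace D₂' := by
    intro y hy
    obtain ⟨h1, h2, h3⟩ := hZ y hy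
    exact mem_rr_floor hdeg₂ Y₂ Q hQ hQY hn m hu₂ Du₂ hDu₂ ∅ (fun i hi => by simp at hi) h2
      (fun i hi => by simp at hi)
  have hXfin : Module.Finite kk Z := by
    let e : Z →ₗ[kk] riemannRochSpace D₁ × riemannRochSpace D₂' :=
      LinearMap.prod
        (LinearMap.codRestrict (riemannRochSpace D₁)
          ((LinearMap.fst kk Fk₁ Fk₂).comp Z.subtype) (fun y => hX1 y.1 y.2))
        (LinearMap.codRestrict (riemannRochSpace D₂')
          ((LinearMap.snd kk Fk₁ Fk₂).comp Z.subtype) (fun y => hX2' y.1 y.2))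
    have he : Function.Injective e := by
      intro a b hab
      have h1 : (a : Fk₁ × Fk₂).1 = (b : Fk₁ × Fk₂).1 :=
        congrArg (fun z : riemannRochSpace D₁ × riemannRochSpace D₂' => (z.1 : Fk₁)) hab
      have h2 : (a : Fk₁ × Fk₂).2 = (b : Fk₁ × Fk₂).2 :=
        congrArg (fun z : riemannRochSpace D₁ × riemannRochSpace D₂' => (z.2 : Fk₂)) hab
      exact Subtype.ext (Prod.ext h1 h2)
    exact FiniteDimensional.of_injective e he
  refine ⟨hXfin, ?_⟩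
  set φ : Z →ₗ[kk] Fk₁ := (LinearMap.fst kk Fk₁ Fk₂).comp Z.subtype with hφ
  have h_range : finrank kk (LinearMap.range φ) ≤ finrank kk (riemannRochSpace D₁) := by
    refine Submodule.finrank_mono ?_
    rintro _ ⟨y, rfl⟩
    exact hX1 y.1 y.2
  set ψ : LinearMap.ker φ →ₗ[kk] Fk₂ :=
    ((LinearMap.snd kk Fk₁ Fk₂).comp Z.subtype).comp (LinearMap.ker φ).subtype with hψ
  have hψinj : Function.Injective ψ := by
    intro a b hab
    have ha : ((a : Z) : Fk₁ × Fk₂).1 = 0 := LinearMap.mem_ker.mp a.2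
    have hb : ((b : Z) : Fk₁ × Fk₂).1 = 0 := LinearMap.mem_ker.mp b.2
    exact Subtype.ext (Subtype.ext (Prod.ext (ha.trans hb.symm) hab))
  have h_ker : finrank kk (LinearMap.ker φ) ≤ finrank kk (riemannRochSpace D₂) := by
    rw [← LinearMap.finrank_range_of_inj hψinj]
    refine Submodule.finrank_mono ?_
    rintro _ ⟨z, rfl⟩
    exact hX2 z.1.1 z.1.2 (LinearMap.mem_ker.mp z.2)
  have h_rn := φ.finrank_range_add_finrank_ker
  omega

/-- **Riemann equalities for the two twisted divisors**, for all large `m`. -/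
theorem exists_finrank_twisted
    [HasPrincipalDivisors kk Fk₁] [HasPrincipalDivisors kk Fk₂]
    (hdeg₁ : ∀ w : Place kk Fk₁, w.deg = 1) (hdeg₂ : ∀ w : Place kk Fk₂, w.deg = 1)
    (hRB₁ : HasRiemannBound kk Fk₁) (hRB₂ : HasRiemannBound kk Fk₂)
    (P₁ : Place kk Fk₁) (P₂ : Place kk Fk₂)
    (P : I → Place kk Fk₁) (Q : I → Place kk Fk₂)
    (Y₁ : Divisor kk Fk₁) (Y₂ : Divisor kk Fk₂)
    (d₁ d₂ : ℕ) (hd₁ : 0 < d₁) (hd₂ : 0 < d₂)
    (hdY₁ : Divisor.degree Y₁ = d₁) (hdY₂ : Divisor.degree Y₂ = d₂)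
    (n : ℕ) (Du₁ : Divisor kk Fk₁) (Du₂ : Divisor kk Fk₂) :
    ∃ m₀ : ℕ, ∀ m : ℕ, m₀ ≤ m →
      (finrank kk (riemannRochSpace
          (m • Y₁ + floorDiv n Du₁ - ptsDiv P (nodesB n P Q Du₁ Du₂))) : ℤ) =
        m * d₁ + Divisor.degree (floorDiv n Du₁) - (nodesB n P Q Du₁ Du₂).card + 1 -
          riemannGenus kk Fk₁ ∧
      (finrank kk (riemannRochSpace
          (m • Y₂ + floorDiv n Du₂ - ptsDiv Q (nodesT n Q Du₂))) : ℤ) =
        m * d₂ + Divisor.degree (floorDiv n Du₂) - (nodesT n Q Du₂).card + 1 -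
          riemannGenus kk Fk₂ := by
  obtain ⟨c₁, hc₁⟩ := Fermat.Agent.S18.helper981.exists_forall_finrank_eq hdeg₁ P₁ hRB₁
  obtain ⟨c₂, hc₂⟩ := Fermat.Agent.S18.helper981.exists_forall_finrank_eq hdeg₂ P₂ hRB₂
  set B := nodesB n P Q Du₁ Du₂ with hB
  set T := nodesT n Q Du₂ with hT
  set G₁ := floorDiv n Du₁ with hG₁
  set G₂ := floorDiv n Du₂ with hG₂
  refine ⟨(max (c₁ - Divisor.degree G₁ + B.card) (c₂ - Divisor.degree G₂ + T.card)).toNat,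
    fun m hm => ?_⟩
  have hmle : max (c₁ - Divisor.degree G₁ + B.card) (c₂ - Divisor.degree G₂ + T.card) ≤ (m : ℤ) :=
    (Int.self_le_toNat _).trans (by exact_mod_cast hm)
  have hdegD₁ : Divisor.degree (m • Y₁ + G₁ - ptsDiv P B) =
      m * d₁ + Divisor.degree G₁ - B.card := by
    rw [map_sub, map_add, map_nsmul, hdY₁, degree_ptsDiv hdeg₁, nsmul_eq_mul]
  have hdegD₂ : Divisor.degree (m • Y₂ + G₂ - ptsDiv Q T) =
      m * d₂ + Divisor.degree G₂ - T.card := by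
    rw [map_sub, map_add, map_nsmul, hdY₂, degree_ptsDiv hdeg₂, nsmul_eq_mul]
  have hm₁ : c₁ ≤ Divisor.degree (m • Y₁ + G₁ - ptsDiv P B) := by
    rw [hdegD₁]
    have h2 : (m : ℤ) ≤ m * d₁ :=
      le_mul_of_one_le_right (Int.natCast_nonneg m) (by exact_mod_cast hd₁)
    have h3 := le_max_left (c₁ - Divisor.degree G₁ + B.card) (c₂ - Divisor.degree G₂ + T.card)
    linarith
  have hm₂ : c₂ ≤ Divisor.degree (m • Y₂ + G₂ - ptsDiv Q T) := by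
    rw [hdegD₂]
    have h2 : (m : ℤ) ≤ m * d₂ :=
      le_mul_of_one_le_right (Int.natCast_nonneg m) (by exact_mod_cast hd₂)
    have h3 := le_max_right (c₁ - Divisor.degree G₁ + B.card) (c₂ - Divisor.degree G₂ + T.card)
    linarith
  refine ⟨?_, ?_⟩
  · rw [hc₁ _ hm₁, hdegD₁]
  · rw [hc₂ _ hm₂, hdegD₂]

end Nodes

/-- **The reduction of the ball of `L(D₀ + m E)` consists of pairs with glued `n`-th powers.** -/
theorem gluedPow_of_mem_redBall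
    {K F : Type*} [Field K] [Field F] [Algebra K F]
    {Γ₀ : Type*} [LinearOrderedCommGroupWithZero Γ₀] {ι : Type*}
    (v : ι → Valuation F Γ₀) (vL : Valuation K Γ₀)
    {Fk : Type*} [CommRing Fk] [Algebra kk Fk] {red : F → Fk}
    (hred : RedDataW v (fun _ => (1 : Γ₀)) vL kk red red)
    (jj : Fk₁ × Fk₂ →ₐ[kk] Fk) (hjj : Function.Injective jj)
    (hdeg₁ : ∀ w : Place kk Fk₁, w.deg = 1) (hdeg₂ : ∀ w : Place kk Fk₂, w.deg = 1)
    (P : I → Place kk Fk₁) (Q : I → Place kk Fk₂)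
    (Y₁ : Divisor kk Fk₁) (Y₂ : Divisor kk Fk₂) (E : Divisor K F)
    (hcont : ∀ m : ℕ, ∀ f ∈ riemannRochSpace (m • E), (∀ i, v i f ≤ 1) →
      ∃ y₁ ∈ riemannRochSpace (m • Y₁), ∃ y₂ ∈ riemannRochSpace (m • Y₂),
        red f = jj (y₁, y₂) ∧
          ∀ i, valueAt (Q i) (hdeg₂ (Q i)) y₂ = valueAt (P i) (hdeg₁ (P i)) y₁)
    {n : ℕ} (hn : 0 < n) (D0 : Divisor K F)
    (u : F) (hu0 : u ≠ 0) (hun : ∀ w : Place K F, (n : ℤ) * D0 w ≤ w.ord u)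
    (huv : ∀ i, v i u = 1)
    (u₁ : Fk₁) (u₂ : Fk₂) (hredu : red u = jj (u₁, u₂)) (m : ℕ)
    (y : Fk₁ × Fk₂) (hy : y ∈ redBall hred jj (riemannRochSpace (D0 + m • E))) :
    GluedPow hdeg₁ hdeg₂ P Q Y₁ Y₂ u₁ u₂ n m y := by
  obtain ⟨f, hfS, hfb, hfy⟩ := hy
  have hub : ∀ i, v i u ≤ 1 := fun i => (huv i).le
  have hfn : f ^ n * u ∈ riemannRochSpace ((n * m) • E) := by
    rw [mem_riemannRochSpace_iff] at hfS
    rw [mem_riemannRochSpace_iff]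
    intro w
    by_cases hf0 : f = 0
    · left
      rw [hf0, zero_pow hn.ne', zero_mul]
    · right
      have h1 := (hfS w).resolve_left hf0
      rw [Finsupp.add_apply, Finsupp.smul_apply, nsmul_eq_mul] at h1
      have h2 := hun w
      rw [w.ord_mul (pow_ne_zero n hf0) hu0, ← zpow_natCast, w.ord_zpow, Finsupp.smul_apply,
        nsmul_eq_mul]
      have hn' : (0 : ℤ) ≤ n := Int.natCast_nonneg n
      have h3 : (n : ℤ) * (-(D0 w + m * E w)) ≤ n * w.ord f :=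
        mul_le_mul_of_nonneg_left h1 hn'
      push_cast
      nlinarith
  have hfpb : ∀ i, v i (f ^ n) ≤ 1 := fun i => by
    rw [map_pow]
    exact pow_le_one' (hfb i) n
  have hfnb : ∀ i, v i (f ^ n * u) ≤ 1 := fun i => by
    rw [map_mul, huv i, mul_one]
    exact hfpb i
  obtain ⟨z₁, hz₁, z₂, hz₂, hz, hnode⟩ := hcont (n * m) _ hfn hfnb
  have hredfn : red (f ^ n * u) = jj (y.1 ^ n * u₁, y.2 ^ n * u₂) := by
    rw [hred.map_mul _ _ hfpb hub, red_pow_of_ball hred f hfb n, hfy, hredu, ← map_pow,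
      ← map_mul]
    rfl
  have hzz : (z₁, z₂) = (y.1 ^ n * u₁, y.2 ^ n * u₂) := hjj (hz.symm.trans hredfn)
  have e1 : z₁ = y.1 ^ n * u₁ := congrArg Prod.fst hzz
  have e2 : z₂ = y.2 ^ n * u₂ := congrArg Prod.snd hzz
  subst e1 e2
  exact ⟨hz₁, hz₂, hnode⟩

variable [Fintype I]

/-- **COUNT, quantitative form.**  One chart `E` of the generic fibre with reductions `Y₁`, `Y₂`
on the two components; `u` a unit for the valuations with `n D₀ ≤ div u`, reducing to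
`(u₁, u₂)`.  Then
`deg (div u₁ mod n) + deg (div u₂ mod n) + n deg D₀ ≤ n · #{i | n ∤ ord_{P i} u₁ ∧ n ∤ ord_{Q i} u₂}`. -/
theorem count_ineq
    {K F : Type*} [Field K] [Field F] [Algebra K F]
    (hRBK : HasRiemannBound K F)
    {Γ₀ : Type*} [LinearOrderedCommGroupWithZero Γ₀] {ι : Type*} [Finite ι] [Nonempty ι]
    (v : ι → Valuation F Γ₀) (vL : Valuation K Γ₀)
    {Fk : Type*} [CommRing Fk] [Algebra kk Fk] {red : F → Fk}
    (hred : RedDataW v (fun _ => (1 : Γ₀)) vL kk red red)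
    (hcart : ∀ D : Divisor K F, CartesianW v (fun _ => (1 : Γ₀)) vL (riemannRochSpace D))
    (jj : Fk₁ × Fk₂ →ₐ[kk] Fk) (hjj : Function.Injective jj)
    (hrange : ∀ f : F, (∀ i, v i f ≤ 1) → ∃ y : Fk₁ × Fk₂, red f = jj y)
    [HasPrincipalDivisors kk Fk₁] [HasPrincipalDivisors kk Fk₂]
    (hdeg₁ : ∀ w : Place kk Fk₁, w.deg = 1) (hdeg₂ : ∀ w : Place kk Fk₂, w.deg = 1)
    (hRB₁ : HasRiemannBound kk Fk₁) (hRB₂ : HasRiemannBound kk Fk₂)
    (P₁ : Place kk Fk₁) (P₂ : Place kk Fk₂)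
    (P : I → Place kk Fk₁) (Q : I → Place kk Fk₂)
    (hP : Function.Injective P) (hQ : Function.Injective Q)
    (Y₁ : Divisor kk Fk₁) (Y₂ : Divisor kk Fk₂)
    (d₁ d₂ : ℕ) (hd₁ : 0 < d₁) (hd₂ : 0 < d₂)
    (hdY₁ : Divisor.degree Y₁ = d₁) (hdY₂ : Divisor.degree Y₂ = d₂)
    (hPY : ∀ i, Y₁ (P i) = 0) (hQY : ∀ i, Y₂ (Q i) = 0)
    (E : Divisor K F) (hdE : Divisor.degree E = ((d₁ + d₂ : ℕ) : ℤ))
    (hcont : ∀ m : ℕ, ∀ f ∈ riemannRochSpace (m • E), (∀ i, v i f ≤ 1) →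
      ∃ y₁ ∈ riemannRochSpace (m • Y₁), ∃ y₂ ∈ riemannRochSpace (m • Y₂),
        red f = jj (y₁, y₂) ∧
          ∀ i, valueAt (Q i) (hdeg₂ (Q i)) y₂ = valueAt (P i) (hdeg₁ (P i)) y₁)
    (hcard : riemannGenus K F + 1 ≤
      riemannGenus kk Fk₁ + riemannGenus kk Fk₂ + Fintype.card I)
    (n : ℕ) (hn : 0 < n) (D0 : Divisor K F)
    (u : F) (hu0 : u ≠ 0) (hun : ∀ w : Place K F, (n : ℤ) * D0 w ≤ w.ord u)
    (huv : ∀ i, v i u = 1)
    (u₁ : Fk₁) (u₂ : Fk₂) (hu₁ : u₁ ≠ 0) (hu₂ : u₂ ≠ 0) (hredu : red u = jj (u₁, u₂))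
    (Du₁ : Divisor kk Fk₁) (Du₂ : Divisor kk Fk₂)
    (hDu₁ : ∀ w : Place kk Fk₁, Du₁ w = w.ord u₁) (hDu₂ : ∀ w : Place kk Fk₂, Du₂ w = w.ord u₂)
    (hDu₁0 : Divisor.degree Du₁ = 0) (hDu₂0 : Divisor.degree Du₂ = 0) :
    Divisor.degree (remDiv n Du₁) + Divisor.degree (remDiv n Du₂) + n * Divisor.degree D0 ≤
      (n : ℤ) * ((nodesC n P Q Du₁ Du₂).card : ℤ) := by
  obtain ⟨m, hm⟩ := exists_finrank_twisted hdeg₁ hdeg₂ hRB₁ hRB₂ P₁ P₂ P Q Y₁ Y₂ d₁ d₂ hd₁ hd₂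
    hdY₁ hdY₂ n Du₁ Du₂
  obtain ⟨hf₁, hf₂⟩ := hm m le_rfl
  set S : Submodule K F := riemannRochSpace (D0 + m • E) with hS
  set X : Submodule kk (Fk₁ × Fk₂) := redBall hred jj S with hX
  obtain ⟨hXfin, hXle⟩ := finrank_le_of_gluedPow hdeg₁ hdeg₂ P₁ P₂ P Q hP hQ Y₁ Y₂ hPY hQY hn m
    hu₁ hu₂ Du₁ Du₂ hDu₁ hDu₂ X (fun y hy => gluedPow_of_mem_redBall v vL hred jj hjj hdeg₁
      hdeg₂ P Q Y₁ Y₂ E hcont hn D0 u hu0 hun huv u₁ u₂ hredu m y hy)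
  have hlow : finrank K S ≤ finrank kk X :=
    finrank_le_finrank_redBall hred jj hjj (hcart (D0 + m • E)) (fun f _ hfb => hrange f hfb)
  have hgen := Fermat.Agent.S18.helper981.riemannGenus_mem hRBK (D0 + m • E)
  have hdegS : Divisor.degree (D0 + m • E) = Divisor.degree D0 + m * ((d₁ + d₂ : ℕ) : ℤ) := by
    rw [map_add, map_nsmul, hdE, nsmul_eq_mul]
  rw [hdegS] at hgen
  have hR₁ := degree_floorDiv_add n Du₁
  have hR₂ := degree_floorDiv_add n Du₂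
  rw [hDu₁0] at hR₁
  rw [hDu₂0] at hR₂
  have hlowZ : (finrank K S : ℤ) ≤ (finrank kk X : ℤ) := by exact_mod_cast hlow
  have hupZ : (finrank kk X : ℤ) ≤
      (finrank kk (riemannRochSpace
        (m • Y₁ + floorDiv n Du₁ - ptsDiv P (nodesB n P Q Du₁ Du₂))) : ℤ) +
      (finrank kk (riemannRochSpace
        (m • Y₂ + floorDiv n Du₂ - ptsDiv Q (nodesT n Q Du₂))) : ℤ) := by
    exact_mod_cast hXle
  have hcardI := card_nodes n P Q Du₁ Du₂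
  have hcardZ : (riemannGenus K F : ℤ) + 1 ≤
      (riemannGenus kk Fk₁ : ℤ) + (riemannGenus kk Fk₂ : ℤ) +
        ((nodesB n P Q Du₁ Du₂).card + (nodesT n Q Du₂).card +
          (nodesC n P Q Du₁ Du₂).card : ℕ) := by
    rw [hcardI]
    exact_mod_cast hcard
  have hGC : Divisor.degree D0 - ((nodesC n P Q Du₁ Du₂).card : ℤ) ≤
      Divisor.degree (floorDiv n Du₁) + Divisor.degree (floorDiv n Du₂) := by
    rw [hf₁, hf₂] at hupZ
    push_cast at hgen hupZ hcardZ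
    linarith
  have hn' : (0 : ℤ) ≤ n := Int.natCast_nonneg n
  have hfin := mul_le_mul_of_nonneg_left hGC hn'
  linarith

omit [Fintype I] in
/-- The reduction of a unit `u` has nonzero components and `red u⁻¹ = (u₁⁻¹, u₂⁻¹)`. -/
theorem red_inv_of_unit
    {K F : Type*} [Field K] [Field F] [Algebra K F]
    {Γ₀ : Type*} [LinearOrderedCommGroupWithZero Γ₀] {ι : Type*}
    (v : ι → Valuation F Γ₀) (vL : Valuation K Γ₀)
    {Fk : Type*} [CommRing Fk] [Algebra kk Fk] {red : F → Fk}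
    (hred : RedDataW v (fun _ => (1 : Γ₀)) vL kk red red)
    (jj : Fk₁ × Fk₂ →ₐ[kk] Fk) (hjj : Function.Injective jj)
    (hrange : ∀ f : F, (∀ i, v i f ≤ 1) → ∃ y : Fk₁ × Fk₂, red f = jj y)
    (u : F) (hu0 : u ≠ 0) (huv : ∀ i, v i u = 1)
    (u₁ : Fk₁) (u₂ : Fk₂) (hredu : red u = jj (u₁, u₂)) :
    u₁ ≠ 0 ∧ u₂ ≠ 0 ∧ (∀ i, v i u⁻¹ = 1) ∧ red u⁻¹ = jj (u₁⁻¹, u₂⁻¹) := by
  have hub : ∀ i, v i u ≤ 1 := fun i => (huv i).le
  have huiv : ∀ i, v i u⁻¹ = 1 := fun i => by rw [map_inv₀, huv i, inv_one]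
  have huib : ∀ i, v i u⁻¹ ≤ 1 := fun i => (huiv i).le
  obtain ⟨z, hz⟩ := hrange u⁻¹ huib
  have hxz : (u₁, u₂) * z = 1 := hjj (by
    rw [map_mul, ← hredu, ← hz, ← hred.map_mul u u⁻¹ hub huib, mul_inv_cancel₀ hu0,
      hred.map_one, map_one])
  have hz1 : u₁ * z.1 = 1 := congrArg Prod.fst hxz
  have hz2 : u₂ * z.2 = 1 := congrArg Prod.snd hxz
  have hz1' : z.1 = u₁⁻¹ := eq_inv_of_mul_eq_one_right hz1
  have hz2' : z.2 = u₂⁻¹ := eq_inv_of_mul_eq_one_right hz2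
  refine ⟨left_ne_zero_of_mul_eq_one hz1, left_ne_zero_of_mul_eq_one hz2, huiv, ?_⟩
  rw [hz, ← hz1', ← hz2']

/-- **COUNT, general function.**  `u` any unit for the valuations, with generic divisor `Du`,
reducing to `(u₁, u₂)`.  With `ρ = ord mod n`:
`Σ ρ(u₁) + Σ ρ(u₂) ≤ n ν + Σ ρ(u)`, the same for `u⁻¹`, and hence
`#{n ∤ ord u₁} + #{n ∤ ord u₂} ≤ 2 ν + #{n ∤ ord u}`. -/
theorem count_card
    {K F : Type*} [Field K] [Field F] [Algebra K F]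
    (hdegK : ∀ w : Place K F, w.deg = 1)
    (hRBK : HasRiemannBound K F)
    {Γ₀ : Type*} [LinearOrderedCommGroupWithZero Γ₀] {ι : Type*} [Finite ι] [Nonempty ι]
    (v : ι → Valuation F Γ₀) (vL : Valuation K Γ₀)
    {Fk : Type*} [CommRing Fk] [Algebra kk Fk] {red : F → Fk}
    (hred : RedDataW v (fun _ => (1 : Γ₀)) vL kk red red)
    (hcart : ∀ D : Divisor K F, CartesianW v (fun _ => (1 : Γ₀)) vL (riemannRochSpace D))
    (jj : Fk₁ × Fk₂ →ₐ[kk] Fk) (hjj : Function.Injective jj)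
    (hrange : ∀ f : F, (∀ i, v i f ≤ 1) → ∃ y : Fk₁ × Fk₂, red f = jj y)
    [HasPrincipalDivisors kk Fk₁] [HasPrincipalDivisors kk Fk₂]
    (hdeg₁ : ∀ w : Place kk Fk₁, w.deg = 1) (hdeg₂ : ∀ w : Place kk Fk₂, w.deg = 1)
    (hRB₁ : HasRiemannBound kk Fk₁) (hRB₂ : HasRiemannBound kk Fk₂)
    (P₁ : Place kk Fk₁) (P₂ : Place kk Fk₂)
    (P : I → Place kk Fk₁) (Q : I → Place kk Fk₂)
    (hP : Function.Injective P) (hQ : Function.Injective Q)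
    (Y₁ : Divisor kk Fk₁) (Y₂ : Divisor kk Fk₂)
    (d₁ d₂ : ℕ) (hd₁ : 0 < d₁) (hd₂ : 0 < d₂)
    (hdY₁ : Divisor.degree Y₁ = d₁) (hdY₂ : Divisor.degree Y₂ = d₂)
    (hPY : ∀ i, Y₁ (P i) = 0) (hQY : ∀ i, Y₂ (Q i) = 0)
    (E : Divisor K F) (hdE : Divisor.degree E = ((d₁ + d₂ : ℕ) : ℤ))
    (hcont : ∀ m : ℕ, ∀ f ∈ riemannRochSpace (m • E), (∀ i, v i f ≤ 1) →
      ∃ y₁ ∈ riemannRochSpace (m • Y₁), ∃ y₂ ∈ riemannRochSpace (m • Y₂),
        red f = jj (y₁, y₂) ∧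
          ∀ i, valueAt (Q i) (hdeg₂ (Q i)) y₂ = valueAt (P i) (hdeg₁ (P i)) y₁)
    (hcard : riemannGenus K F + 1 ≤
      riemannGenus kk Fk₁ + riemannGenus kk Fk₂ + Fintype.card I)
    (n : ℕ) (hn : 0 < n) (u : F) (hu0 : u ≠ 0) (huv : ∀ i, v i u = 1)
    (Du : Divisor K F) (hDu : ∀ w : Place K F, Du w = w.ord u) (hDu0 : Divisor.degree Du = 0)
    (u₁ : Fk₁) (u₂ : Fk₂) (hredu : red u = jj (u₁, u₂))
    (Du₁ : Divisor kk Fk₁) (Du₂ : Divisor kk Fk₂)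
    (hDu₁ : ∀ w : Place kk Fk₁, Du₁ w = w.ord u₁) (hDu₂ : ∀ w : Place kk Fk₂, Du₂ w = w.ord u₂)
    (hDu₁0 : Divisor.degree Du₁ = 0) (hDu₂0 : Divisor.degree Du₂ = 0) :
    Divisor.degree (remDiv n Du₁) + Divisor.degree (remDiv n Du₂) ≤
        (n : ℤ) * ((nodesC n P Q Du₁ Du₂).card : ℤ) + Divisor.degree (remDiv n Du) ∧
      Divisor.degree (remDiv n (-Du₁)) + Divisor.degree (remDiv n (-Du₂)) ≤
        (n : ℤ) * ((nodesC n P Q Du₁ Du₂).card : ℤ) + Divisor.degree (remDiv n (-Du)) ∧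
      (remDiv n Du₁).support.card + (remDiv n Du₂).support.card ≤
        2 * (nodesC n P Q Du₁ Du₂).card + (remDiv n Du).support.card := by
  have hn' : (0 : ℤ) < n := by exact_mod_cast hn
  obtain ⟨hu₁, hu₂, huiv, hredui⟩ := red_inv_of_unit v vL hred jj hjj hrange u hu0 huv u₁ u₂ hredu
  have h1 := count_ineq hRBK v vL hred hcart jj hjj hrange hdeg₁ hdeg₂ hRB₁ hRB₂ P₁ P₂ P Q hP hQ
    Y₁ Y₂ d₁ d₂ hd₁ hd₂ hdY₁ hdY₂ hPY hQY E hdE hcont hcard n hn (floorDiv n Du) u hu0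
    (fun w => by rw [floorDiv_apply, hDu w]; exact Int.mul_ediv_self_le hn'.ne') huv u₁ u₂
    hu₁ hu₂ hredu Du₁ Du₂ hDu₁ hDu₂ hDu₁0 hDu₂0
  have h2 := count_ineq hRBK v vL hred hcart jj hjj hrange hdeg₁ hdeg₂ hRB₁ hRB₂ P₁ P₂ P Q hP hQ
    Y₁ Y₂ d₁ d₂ hd₁ hd₂ hdY₁ hdY₂ hPY hQY E hdE hcont hcard n hn (floorDiv n (-Du)) u⁻¹
    (inv_ne_zero hu0)
    (fun w => by
      rw [floorDiv_apply, Finsupp.neg_apply, hDu w, w.ord_inv]
      exact Int.mul_ediv_self_le hn'.ne') huiv u₁⁻¹ u₂⁻¹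
    (inv_ne_zero hu₁) (inv_ne_zero hu₂) hredui (-Du₁) (-Du₂)
    (fun w => by rw [Finsupp.neg_apply, hDu₁ w, w.ord_inv])
    (fun w => by rw [Finsupp.neg_apply, hDu₂ w, w.ord_inv])
    (by rw [map_neg, hDu₁0, neg_zero]) (by rw [map_neg, hDu₂0, neg_zero])
  rw [nodesC_neg] at h2
  have e1 := degree_floorDiv_add n Du
  have e2 := degree_floorDiv_add n (-Du)
  rw [hDu0] at e1
  rw [map_neg, hDu0, neg_zero] at e2
  have g1 : Divisor.degree (remDiv n Du₁) + Divisor.degree (remDiv n Du₂) ≤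
      (n : ℤ) * ((nodesC n P Q Du₁ Du₂).card : ℤ) + Divisor.degree (remDiv n Du) := by linarith
  have g2 : Divisor.degree (remDiv n (-Du₁)) + Divisor.degree (remDiv n (-Du₂)) ≤
      (n : ℤ) * ((nodesC n P Q Du₁ Du₂).card : ℤ) + Divisor.degree (remDiv n (-Du)) := by
    linarith
  refine ⟨g1, g2, ?_⟩
  have h3 := degree_remDiv_add_neg hdeg₁ hn Du₁
  have h4 := degree_remDiv_add_neg hdeg₂ hn Du₂
  have h5 := degree_remDiv_add_neg hdegK hn Du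
  have h6 : (n : ℤ) * (((remDiv n Du₁).support.card : ℤ) + (remDiv n Du₂).support.card) ≤
      n * (2 * ((nodesC n P Q Du₁ Du₂).card : ℤ) + (remDiv n Du).support.card) := by linarith
  have h7 := le_of_mul_le_mul_left h6 hn'
  exact_mod_cast h7

/-- Multiples of `n` have no remainder. -/
theorem remDiv_nsmul {k F : Type*} [Field k] [Field F] [Algebra k F] {n : ℕ}
    (D : Divisor k F) : remDiv n (n • D) = 0 := by
  ext w
  simp [remDiv_apply, Finsupp.smul_apply]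

theorem floorDiv_nsmul {k F : Type*} [Field k] [Field F] [Algebra k F] {n : ℕ} (hn : 0 < n)
    (D : Divisor k F) : floorDiv n (n • D) = D := by
  ext w
  have hn' : (n : ℤ) ≠ 0 := by exact_mod_cast hn.ne'
  rw [floorDiv_apply, Finsupp.smul_apply, nsmul_eq_mul, Int.mul_ediv_cancel_left _ hn']

/-- **COUNT, one chart, Kummer case.**  `div u = n D₀`, `deg D₀ = 0`.  The places where
`n ∤ ord u_c` are exactly the two branches of a set `C` of nodes: `n ∣ ord_w u_c` off the nodes,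
and at a node `n ∤ ord` on one branch iff `n ∤ ord` on the other. -/
theorem count_of_chart
    {K F : Type*} [Field K] [Field F] [Algebra K F]
    (hdegK : ∀ w : Place K F, w.deg = 1)
    (hRBK : HasRiemannBound K F)
    {Γ₀ : Type*} [LinearOrderedCommGroupWithZero Γ₀] {ι : Type*} [Finite ι] [Nonempty ι]
    (v : ι → Valuation F Γ₀) (vL : Valuation K Γ₀)
    {Fk : Type*} [CommRing Fk] [Algebra kk Fk] {red : F → Fk}
    (hred : RedDataW v (fun _ => (1 : Γ₀)) vL kk red red)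
    (hcart : ∀ D : Divisor K F, CartesianW v (fun _ => (1 : Γ₀)) vL (riemannRochSpace D))
    (jj : Fk₁ × Fk₂ →ₐ[kk] Fk) (hjj : Function.Injective jj)
    (hrange : ∀ f : F, (∀ i, v i f ≤ 1) → ∃ y : Fk₁ × Fk₂, red f = jj y)
    [HasPrincipalDivisors kk Fk₁] [HasPrincipalDivisors kk Fk₂]
    (hdeg₁ : ∀ w : Place kk Fk₁, w.deg = 1) (hdeg₂ : ∀ w : Place kk Fk₂, w.deg = 1)
    (hRB₁ : HasRiemannBound kk Fk₁) (hRB₂ : HasRiemannBound kk Fk₂)
    (P₁ : Place kk Fk₁) (P₂ : Place kk Fk₂)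
    (P : I → Place kk Fk₁) (Q : I → Place kk Fk₂)
    (hP : Function.Injective P) (hQ : Function.Injective Q)
    (Y₁ : Divisor kk Fk₁) (Y₂ : Divisor kk Fk₂)
    (d₁ d₂ : ℕ) (hd₁ : 0 < d₁) (hd₂ : 0 < d₂)
    (hdY₁ : Divisor.degree Y₁ = d₁) (hdY₂ : Divisor.degree Y₂ = d₂)
    (hPY : ∀ i, Y₁ (P i) = 0) (hQY : ∀ i, Y₂ (Q i) = 0)
    (E : Divisor K F) (hdE : Divisor.degree E = ((d₁ + d₂ : ℕ) : ℤ))
    (hcont : ∀ m : ℕ, ∀ f ∈ riemannRochSpace (m • E), (∀ i, v i f ≤ 1) →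
      ∃ y₁ ∈ riemannRochSpace (m • Y₁), ∃ y₂ ∈ riemannRochSpace (m • Y₂),
        red f = jj (y₁, y₂) ∧
          ∀ i, valueAt (Q i) (hdeg₂ (Q i)) y₂ = valueAt (P i) (hdeg₁ (P i)) y₁)
    (hcard : riemannGenus K F + 1 ≤
      riemannGenus kk Fk₁ + riemannGenus kk Fk₂ + Fintype.card I)
    (n : ℕ) (hn : 0 < n) (D0 : Divisor K F) (hD0 : Divisor.degree D0 = 0)
    (u : F) (hu0 : u ≠ 0) (hun : ∀ w : Place K F, w.ord u = (n : ℤ) * D0 w)
    (huv : ∀ i, v i u = 1)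
    (u₁ : Fk₁) (u₂ : Fk₂) (hredu : red u = jj (u₁, u₂)) :
    u₁ ≠ 0 ∧ u₂ ≠ 0 ∧ ∃ C : Finset I,
      (∀ w : Place kk Fk₁, ¬ (n : ℤ) ∣ w.ord u₁ ↔ ∃ i ∈ C, P i = w) ∧
      (∀ w : Place kk Fk₂, ¬ (n : ℤ) ∣ w.ord u₂ ↔ ∃ i ∈ C, Q i = w) := by
  classical
  obtain ⟨hu₁, hu₂, -, -⟩ := red_inv_of_unit v vL hred jj hjj hrange u hu0 huv u₁ u₂ hredu
  refine ⟨hu₁, hu₂, ?_⟩
  obtain ⟨Du₁, hDu₁, hDu₁0⟩ := HasPrincipalDivisors.exists_divisor (K := kk) u₁ hu₁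
  obtain ⟨Du₂, hDu₂, hDu₂0⟩ := HasPrincipalDivisors.exists_divisor (K := kk) u₂ hu₂
  obtain ⟨-, -, h3⟩ := count_card hdegK hRBK v vL hred hcart jj hjj hrange hdeg₁ hdeg₂ hRB₁ hRB₂
    P₁ P₂ P Q hP hQ Y₁ Y₂ d₁ d₂ hd₁ hd₂ hdY₁ hdY₂ hPY hQY E hdE hcont hcard n hn u hu0 huv
    (n • D0) (fun w => by rw [Finsupp.smul_apply, nsmul_eq_mul, hun w])
    (by rw [map_nsmul, hD0, smul_zero]) u₁ u₂ hredu Du₁ Du₂ hDu₁ hDu₂ hDu₁0 hDu₂0
  rw [remDiv_nsmul, Finsupp.support_zero, Finset.card_empty, add_zero] at h3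
  set C : Finset I := nodesC n P Q Du₁ Du₂ with hC
  set S₁ : Finset (Place kk Fk₁) := (remDiv n Du₁).support with hS₁
  set S₂ : Finset (Place kk Fk₂) := (remDiv n Du₂).support with hS₂
  have hsub₁ : C.image P ⊆ S₁ := by
    intro w hw
    obtain ⟨i, hi, rfl⟩ := Finset.mem_image.mp hw
    exact mem_support_remDiv.mpr (Finset.mem_filter.mp hi).2.1
  have hsub₂ : C.image Q ⊆ S₂ := by
    intro w hw
    obtain ⟨i, hi, rfl⟩ := Finset.mem_image.mp hw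
    exact mem_support_remDiv.mpr (Finset.mem_filter.mp hi).2.2
  have hc₁ : (C.image P).card = C.card := Finset.card_image_of_injective C hP
  have hc₂ : (C.image Q).card = C.card := Finset.card_image_of_injective C hQ
  have hle₁ := Finset.card_le_card hsub₁
  have hle₂ := Finset.card_le_card hsub₂
  have he₁ : C.image P = S₁ := Finset.eq_of_subset_of_card_le hsub₁ (by omega)
  have he₂ : C.image Q = S₂ := Finset.eq_of_subset_of_card_le hsub₂ (by omega)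
  refine ⟨C, fun w => ?_, fun w => ?_⟩
  · rw [← hDu₁ w, ← mem_support_remDiv, ← hS₁, ← he₁, Finset.mem_image]
  · rw [← hDu₂ w, ← mem_support_remDiv, ← hS₂, ← he₂, Finset.mem_image]

/-- **COUNT, consumer form**: divisibility off the nodes, and both-or-none at a node. -/
theorem count_of_chart'
    {K F : Type*} [Field K] [Field F] [Algebra K F]
    (hdegK : ∀ w : Place K F, w.deg = 1)
    (hRBK : HasRiemannBound K F)
    {Γ₀ : Type*} [LinearOrderedCommGroupWithZero Γ₀] {ι : Type*} [Finite ι] [Nonempty ι]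
    (v : ι → Valuation F Γ₀) (vL : Valuation K Γ₀)
    {Fk : Type*} [CommRing Fk] [Algebra kk Fk] {red : F → Fk}
    (hred : RedDataW v (fun _ => (1 : Γ₀)) vL kk red red)
    (hcart : ∀ D : Divisor K F, CartesianW v (fun _ => (1 : Γ₀)) vL (riemannRochSpace D))
    (jj : Fk₁ × Fk₂ →ₐ[kk] Fk) (hjj : Function.Injective jj)
    (hrange : ∀ f : F, (∀ i, v i f ≤ 1) → ∃ y : Fk₁ × Fk₂, red f = jj y)
    [HasPrincipalDivisors kk Fk₁] [HasPrincipalDivisors kk Fk₂]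
    (hdeg₁ : ∀ w : Place kk Fk₁, w.deg = 1) (hdeg₂ : ∀ w : Place kk Fk₂, w.deg = 1)
    (hRB₁ : HasRiemannBound kk Fk₁) (hRB₂ : HasRiemannBound kk Fk₂)
    (P₁ : Place kk Fk₁) (P₂ : Place kk Fk₂)
    (P : I → Place kk Fk₁) (Q : I → Place kk Fk₂)
    (hP : Function.Injective P) (hQ : Function.Injective Q)
    (Y₁ : Divisor kk Fk₁) (Y₂ : Divisor kk Fk₂)
    (d₁ d₂ : ℕ) (hd₁ : 0 < d₁) (hd₂ : 0 < d₂)
    (hdY₁ : Divisor.degree Y₁ = d₁) (hdY₂ : Divisor.degree Y₂ = d₂)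
    (hPY : ∀ i, Y₁ (P i) = 0) (hQY : ∀ i, Y₂ (Q i) = 0)
    (E : Divisor K F) (hdE : Divisor.degree E = ((d₁ + d₂ : ℕ) : ℤ))
    (hcont : ∀ m : ℕ, ∀ f ∈ riemannRochSpace (m • E), (∀ i, v i f ≤ 1) →
      ∃ y₁ ∈ riemannRochSpace (m • Y₁), ∃ y₂ ∈ riemannRochSpace (m • Y₂),
        red f = jj (y₁, y₂) ∧
          ∀ i, valueAt (Q i) (hdeg₂ (Q i)) y₂ = valueAt (P i) (hdeg₁ (P i)) y₁)
    (hcard : riemannGenus K F + 1 ≤
      riemannGenus kk Fk₁ + riemannGenus kk Fk₂ + Fintype.card I)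
    (n : ℕ) (hn : 0 < n) (D0 : Divisor K F) (hD0 : Divisor.degree D0 = 0)
    (u : F) (hu0 : u ≠ 0) (hun : ∀ w : Place K F, w.ord u = (n : ℤ) * D0 w)
    (huv : ∀ i, v i u = 1)
    (u₁ : Fk₁) (u₂ : Fk₂) (hredu : red u = jj (u₁, u₂)) :
    u₁ ≠ 0 ∧ u₂ ≠ 0 ∧
      (∀ w : Place kk Fk₁, (∀ i, P i ≠ w) → (n : ℤ) ∣ w.ord u₁) ∧
      (∀ w : Place kk Fk₂, (∀ i, Q i ≠ w) → (n : ℤ) ∣ w.ord u₂) ∧
      (∀ i, (n : ℤ) ∣ (P i).ord u₁ ↔ (n : ℤ) ∣ (Q i).ord u₂) := by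
  obtain ⟨hu₁, hu₂, C, hC₁, hC₂⟩ := count_of_chart hdegK hRBK v vL hred hcart jj hjj hrange
    hdeg₁ hdeg₂ hRB₁ hRB₂ P₁ P₂ P Q hP hQ Y₁ Y₂ d₁ d₂ hd₁ hd₂ hdY₁ hdY₂ hPY hQY E hdE hcont
    hcard n hn D0 hD0 u hu0 hun huv u₁ u₂ hredu
  refine ⟨hu₁, hu₂, fun w hw => ?_, fun w hw => ?_, fun i => ?_⟩
  · by_contra hnd
    obtain ⟨i, -, hi⟩ := (hC₁ w).mp hnd
    exact hw i hi
  · by_contra hnd
    obtain ⟨i, -, hi⟩ := (hC₂ w).mp hnd
    exact hw i hi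
  · rw [← not_iff_not, hC₁, hC₂]
    constructor
    · rintro ⟨j, hj, hji⟩
      exact ⟨i, hP hji ▸ hj, rfl⟩
    · rintro ⟨j, hj, hji⟩
      exact ⟨i, hQ hji ▸ hj, rfl⟩

/-! ### Exponent `p` in characteristic `p`: the reduction is the whole glued space -/

section Surj

omit [Fintype I] in
theorem val_le_one_of_mem_nsmul {k F : Type*} [Field k] [Field F] [Algebra k F]
    (Y : Divisor k F) (w : Place k F) (hYw : Y w = 0) {j : ℕ} {f : F}
    (hf : f ∈ riemannRochSpace (j • Y)) : w.adicValuation f ≤ 1 := by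
  have h := hf w
  rwa [Finsupp.smul_apply, hYw, smul_zero, exp_zero] at h

variable (p : ℕ) [Fact p.Prime] [CharP kk p]

omit [Fintype I] in
/-- The subspace of pairs `(y₁, y₂)` with glued `p`-th powers `(y₁ ^ p u₁, y₂ ^ p u₂)`
(characteristic `p`: the condition is additive). -/
def gluedPowSub (hdeg₁ : ∀ w : Place kk Fk₁, w.deg = 1) (hdeg₂ : ∀ w : Place kk Fk₂, w.deg = 1)
    (P : I → Place kk Fk₁) (Q : I → Place kk Fk₂) (Y₁ : Divisor kk Fk₁) (Y₂ : Divisor kk Fk₂)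
    (hPY : ∀ i, Y₁ (P i) = 0) (hQY : ∀ i, Y₂ (Q i) = 0) (u₁ : Fk₁) (u₂ : Fk₂) (m : ℕ) :
    Submodule kk (Fk₁ × Fk₂) where
  carrier := {y | GluedPow hdeg₁ hdeg₂ P Q Y₁ Y₂ u₁ u₂ p m y}
  add_mem' := by
    rintro a b ⟨ha1, ha2, ha3⟩ ⟨hb1, hb2, hb3⟩
    have : CharP Fk₁ p := charP_of_injective_algebraMap (algebraMap kk Fk₁).injective p
    have : CharP Fk₂ p := charP_of_injective_algebraMap (algebraMap kk Fk₂).injective p
    have e1 : (a + b).1 ^ p * u₁ = a.1 ^ p * u₁ + b.1 ^ p * u₁ := by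
      rw [Prod.fst_add, add_pow_char, add_mul]
    have e2 : (a + b).2 ^ p * u₂ = a.2 ^ p * u₂ + b.2 ^ p * u₂ := by
      rw [Prod.snd_add, add_pow_char, add_mul]
    refine ⟨?_, ?_, fun i => ?_⟩
    · rw [e1]
      exact add_mem ha1 hb1
    · rw [e2]
      exact add_mem ha2 hb2
    · rw [e1, e2,
        valueAt_add _ _ (val_le_one_of_mem_nsmul Y₂ (Q i) (hQY i) ha2)
          (val_le_one_of_mem_nsmul Y₂ (Q i) (hQY i) hb2),
        valueAt_add _ _ (val_le_one_of_mem_nsmul Y₁ (P i) (hPY i) ha1)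
          (val_le_one_of_mem_nsmul Y₁ (P i) (hPY i) hb1), ha3 i, hb3 i]
  zero_mem' := by
    have hp0 : p ≠ 0 := (Fact.out : p.Prime).ne_zero
    refine ⟨?_, ?_, fun i => ?_⟩
    · rw [Prod.fst_zero, zero_pow hp0, zero_mul]
      exact zero_mem _
    · rw [Prod.snd_zero, zero_pow hp0, zero_mul]
      exact zero_mem _
    · simp only [Prod.fst_zero, Prod.snd_zero, zero_pow hp0, zero_mul, valueAt_zero]
  smul_mem' := by
    rintro c a ⟨ha1, ha2, ha3⟩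
    have e1 : (c • a).1 ^ p * u₁ = c ^ p • (a.1 ^ p * u₁) := by
      rw [Prod.smul_fst, smul_pow, smul_mul_assoc]
    have e2 : (c • a).2 ^ p * u₂ = c ^ p • (a.2 ^ p * u₂) := by
      rw [Prod.smul_snd, smul_pow, smul_mul_assoc]
    refine ⟨?_, ?_, fun i => ?_⟩
    · rw [e1]
      exact Submodule.smul_mem _ _ ha1
    · rw [e2]
      exact Submodule.smul_mem _ _ ha2
    · rw [e1, e2, valueAt_smul _ _ _ (val_le_one_of_mem_nsmul Y₂ (Q i) (hQY i) ha2),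
        valueAt_smul _ _ _ (val_le_one_of_mem_nsmul Y₁ (P i) (hPY i) ha1), ha3 i]

omit [Fintype I] in
theorem mem_gluedPowSub {hdeg₁ : ∀ w : Place kk Fk₁, w.deg = 1}
    {hdeg₂ : ∀ w : Place kk Fk₂, w.deg = 1}
    {P : I → Place kk Fk₁} {Q : I → Place kk Fk₂} {Y₁ : Divisor kk Fk₁} {Y₂ : Divisor kk Fk₂}
    {hPY : ∀ i, Y₁ (P i) = 0} {hQY : ∀ i, Y₂ (Q i) = 0} {u₁ : Fk₁} {u₂ : Fk₂} {m : ℕ}
    {y : Fk₁ × Fk₂} :
    y ∈ gluedPowSub p hdeg₁ hdeg₂ P Q Y₁ Y₂ hPY hQY u₁ u₂ m ↔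
      GluedPow hdeg₁ hdeg₂ P Q Y₁ Y₂ u₁ u₂ p m y := Iff.rfl

/-- **Tight count ⇒ the reduction is the whole glued space.**  If
`deg ⌊div u₁ / p⌋ + deg ⌊div u₂ / p⌋ + ν ≤ deg D₀` (the reverse of `count_ineq`), then for all
large `m` the reduction of the unit ball of `L(D₀ + m E)` is the space of ALL pairs with glued
`p`-th powers. -/
theorem redBall_eq_gluedPowSub
    {K F : Type*} [Field K] [Field F] [Algebra K F]
    (hRBK : HasRiemannBound K F)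
    {Γ₀ : Type*} [LinearOrderedCommGroupWithZero Γ₀] {ι : Type*} [Finite ι] [Nonempty ι]
    (v : ι → Valuation F Γ₀) (vL : Valuation K Γ₀)
    {Fk : Type*} [CommRing Fk] [Algebra kk Fk] {red : F → Fk}
    (hred : RedDataW v (fun _ => (1 : Γ₀)) vL kk red red)
    (hcart : ∀ D : Divisor K F, CartesianW v (fun _ => (1 : Γ₀)) vL (riemannRochSpace D))
    (jj : Fk₁ × Fk₂ →ₐ[kk] Fk) (hjj : Function.Injective jj)
    (hrange : ∀ f : F, (∀ i, v i f ≤ 1) → ∃ y : Fk₁ × Fk₂, red f = jj y)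
    [HasPrincipalDivisors kk Fk₁] [HasPrincipalDivisors kk Fk₂]
    (hdeg₁ : ∀ w : Place kk Fk₁, w.deg = 1) (hdeg₂ : ∀ w : Place kk Fk₂, w.deg = 1)
    (hRB₁ : HasRiemannBound kk Fk₁) (hRB₂ : HasRiemannBound kk Fk₂)
    (P₁ : Place kk Fk₁) (P₂ : Place kk Fk₂)
    (P : I → Place kk Fk₁) (Q : I → Place kk Fk₂)
    (hP : Function.Injective P) (hQ : Function.Injective Q)
    (Y₁ : Divisor kk Fk₁) (Y₂ : Divisor kk Fk₂)
    (d₁ d₂ : ℕ) (hd₁ : 0 < d₁) (hd₂ : 0 < d₂)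
    (hdY₁ : Divisor.degree Y₁ = d₁) (hdY₂ : Divisor.degree Y₂ = d₂)
    (hPY : ∀ i, Y₁ (P i) = 0) (hQY : ∀ i, Y₂ (Q i) = 0)
    (E : Divisor K F) (hdE : Divisor.degree E = ((d₁ + d₂ : ℕ) : ℤ))
    (hcont : ∀ m : ℕ, ∀ f ∈ riemannRochSpace (m • E), (∀ i, v i f ≤ 1) →
      ∃ y₁ ∈ riemannRochSpace (m • Y₁), ∃ y₂ ∈ riemannRochSpace (m • Y₂),
        red f = jj (y₁, y₂) ∧
          ∀ i, valueAt (Q i) (hdeg₂ (Q i)) y₂ = valueAt (P i) (hdeg₁ (P i)) y₁)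
    (hcard : riemannGenus K F + 1 ≤
      riemannGenus kk Fk₁ + riemannGenus kk Fk₂ + Fintype.card I)
    (D0 : Divisor K F)
    (u : F) (hu0 : u ≠ 0) (hun : ∀ w : Place K F, (p : ℤ) * D0 w ≤ w.ord u)
    (huv : ∀ i, v i u = 1)
    (u₁ : Fk₁) (u₂ : Fk₂) (hu₁ : u₁ ≠ 0) (hu₂ : u₂ ≠ 0) (hredu : red u = jj (u₁, u₂))
    (Du₁ : Divisor kk Fk₁) (Du₂ : Divisor kk Fk₂)
    (hDu₁ : ∀ w : Place kk Fk₁, Du₁ w = w.ord u₁) (hDu₂ : ∀ w : Place kk Fk₂, Du₂ w = w.ord u₂)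
    (htight : Divisor.degree (floorDiv p Du₁) + Divisor.degree (floorDiv p Du₂) +
      ((nodesC p P Q Du₁ Du₂).card : ℤ) ≤ Divisor.degree D0) :
    ∃ m₀ : ℕ, ∀ m : ℕ, m₀ ≤ m →
      redBall hred jj (riemannRochSpace (D0 + m • E)) =
        gluedPowSub p hdeg₁ hdeg₂ P Q Y₁ Y₂ hPY hQY u₁ u₂ m := by
  have hp : 0 < p := (Fact.out : p.Prime).pos
  obtain ⟨m₀, hm₀⟩ := exists_finrank_twisted hdeg₁ hdeg₂ hRB₁ hRB₂ P₁ P₂ P Q Y₁ Y₂ d₁ d₂ hd₁ hd₂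
    hdY₁ hdY₂ p Du₁ Du₂
  refine ⟨m₀, fun m hm => ?_⟩
  obtain ⟨hf₁, hf₂⟩ := hm₀ m hm
  set S : Submodule K F := riemannRochSpace (D0 + m • E) with hS
  set X : Submodule kk (Fk₁ × Fk₂) := redBall hred jj S with hX
  set Y : Submodule kk (Fk₁ × Fk₂) := gluedPowSub p hdeg₁ hdeg₂ P Q Y₁ Y₂ hPY hQY u₁ u₂ m with hY
  have hXY : X ≤ Y := fun y hy => gluedPow_of_mem_redBall v vL hred jj hjj hdeg₁ hdeg₂ P Q Y₁ Y₂
    E hcont hp D0 u hu0 hun huv u₁ u₂ hredu m y hy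
  obtain ⟨hYfin, hYle⟩ := finrank_le_of_gluedPow hdeg₁ hdeg₂ P₁ P₂ P Q hP hQ Y₁ Y₂ hPY hQY hp m
    hu₁ hu₂ Du₁ Du₂ hDu₁ hDu₂ Y (fun y hy => hy)
  have hXfin : Module.Finite kk X := Submodule.finiteDimensional_of_le hXY
  have hlow : finrank K S ≤ finrank kk X :=
    finrank_le_finrank_redBall hred jj hjj (hcart (D0 + m • E)) (fun f _ hfb => hrange f hfb)
  have hgen := Fermat.Agent.S18.helper981.riemannGenus_mem hRBK (D0 + m • E)
  have hdegS : Divisor.degree (D0 + m • E) = Divisor.degree D0 + m * ((d₁ + d₂ : ℕ) : ℤ) := by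
    rw [map_add, map_nsmul, hdE, nsmul_eq_mul]
  rw [hdegS] at hgen
  have hlowZ : (finrank K S : ℤ) ≤ (finrank kk X : ℤ) := by exact_mod_cast hlow
  have hupZ : (finrank kk Y : ℤ) ≤
      (finrank kk (riemannRochSpace
        (m • Y₁ + floorDiv p Du₁ - ptsDiv P (nodesB p P Q Du₁ Du₂))) : ℤ) +
      (finrank kk (riemannRochSpace
        (m • Y₂ + floorDiv p Du₂ - ptsDiv Q (nodesT p Q Du₂))) : ℤ) := by
    exact_mod_cast hYle
  have hcardI := card_nodes p P Q Du₁ Du₂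
  have hcardZ : (riemannGenus K F : ℤ) + 1 ≤
      (riemannGenus kk Fk₁ : ℤ) + (riemannGenus kk Fk₂ : ℤ) +
        ((nodesB p P Q Du₁ Du₂).card + (nodesT p Q Du₂).card +
          (nodesC p P Q Du₁ Du₂).card : ℕ) := by
    rw [hcardI]
    exact_mod_cast hcard
  refine Submodule.eq_of_le_of_finrank_le hXY ?_
  have hfinal : (finrank kk Y : ℤ) ≤ (finrank kk X : ℤ) := by
    rw [hf₁, hf₂] at hupZ
    push_cast at hgen hupZ hcardZ
    linarith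
  exact_mod_cast hfinal

/-- **Equality in the count ⇒ the reduction is the whole glued space** (general function `u`
with generic divisor `Du`, twist `D₀ = ⌊Du / p⌋`).  If
`2 ν + #{p ∤ ord u} ≤ #{p ∤ ord u₁} + #{p ∤ ord u₂}` (the reverse of `count_card`), then for all
large `m` the reduction of the unit ball of `L(⌊Du / p⌋ + m E)` is the space of all pairs with
glued `p`-th powers. -/
theorem redBall_eq_gluedPowSub_of_card
    {K F : Type*} [Field K] [Field F] [Algebra K F]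
    (hdegK : ∀ w : Place K F, w.deg = 1)
    (hRBK : HasRiemannBound K F)
    {Γ₀ : Type*} [LinearOrderedCommGroupWithZero Γ₀] {ι : Type*} [Finite ι] [Nonempty ι]
    (v : ι → Valuation F Γ₀) (vL : Valuation K Γ₀)
    {Fk : Type*} [CommRing Fk] [Algebra kk Fk] {red : F → Fk}
    (hred : RedDataW v (fun _ => (1 : Γ₀)) vL kk red red)
    (hcart : ∀ D : Divisor K F, CartesianW v (fun _ => (1 : Γ₀)) vL (riemannRochSpace D))
    (jj : Fk₁ × Fk₂ →ₐ[kk] Fk) (hjj : Function.Injective jj)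
    (hrange : ∀ f : F, (∀ i, v i f ≤ 1) → ∃ y : Fk₁ × Fk₂, red f = jj y)
    [HasPrincipalDivisors kk Fk₁] [HasPrincipalDivisors kk Fk₂]
    (hdeg₁ : ∀ w : Place kk Fk₁, w.deg = 1) (hdeg₂ : ∀ w : Place kk Fk₂, w.deg = 1)
    (hRB₁ : HasRiemannBound kk Fk₁) (hRB₂ : HasRiemannBound kk Fk₂)
    (P₁ : Place kk Fk₁) (P₂ : Place kk Fk₂)
    (P : I → Place kk Fk₁) (Q : I → Place kk Fk₂)
    (hP : Function.Injective P) (hQ : Function.Injective Q)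
    (Y₁ : Divisor kk Fk₁) (Y₂ : Divisor kk Fk₂)
    (d₁ d₂ : ℕ) (hd₁ : 0 < d₁) (hd₂ : 0 < d₂)
    (hdY₁ : Divisor.degree Y₁ = d₁) (hdY₂ : Divisor.degree Y₂ = d₂)
    (hPY : ∀ i, Y₁ (P i) = 0) (hQY : ∀ i, Y₂ (Q i) = 0)
    (E : Divisor K F) (hdE : Divisor.degree E = ((d₁ + d₂ : ℕ) : ℤ))
    (hcont : ∀ m : ℕ, ∀ f ∈ riemannRochSpace (m • E), (∀ i, v i f ≤ 1) →
      ∃ y₁ ∈ riemannRochSpace (m • Y₁), ∃ y₂ ∈ riemannRochSpace (m • Y₂),
        red f = jj (y₁, y₂) ∧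
          ∀ i, valueAt (Q i) (hdeg₂ (Q i)) y₂ = valueAt (P i) (hdeg₁ (P i)) y₁)
    (hcard : riemannGenus K F + 1 ≤
      riemannGenus kk Fk₁ + riemannGenus kk Fk₂ + Fintype.card I)
    (u : F) (hu0 : u ≠ 0) (huv : ∀ i, v i u = 1)
    (Du : Divisor K F) (hDu : ∀ w : Place K F, Du w = w.ord u) (hDu0 : Divisor.degree Du = 0)
    (u₁ : Fk₁) (u₂ : Fk₂) (hredu : red u = jj (u₁, u₂))
    (Du₁ : Divisor kk Fk₁) (Du₂ : Divisor kk Fk₂)
    (hDu₁ : ∀ w : Place kk Fk₁, Du₁ w = w.ord u₁) (hDu₂ : ∀ w : Place kk Fk₂, Du₂ w = w.ord u₂)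
    (hDu₁0 : Divisor.degree Du₁ = 0) (hDu₂0 : Divisor.degree Du₂ = 0)
    (hN : 2 * (nodesC p P Q Du₁ Du₂).card + (remDiv p Du).support.card ≤
      (remDiv p Du₁).support.card + (remDiv p Du₂).support.card) :
    ∃ m₀ : ℕ, ∀ m : ℕ, m₀ ≤ m →
      redBall hred jj (riemannRochSpace (floorDiv p Du + m • E)) =
        gluedPowSub p hdeg₁ hdeg₂ P Q Y₁ Y₂ hPY hQY u₁ u₂ m := by
  have hp : 0 < p := (Fact.out : p.Prime).pos
  have hp' : (0 : ℤ) < p := by exact_mod_cast hp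
  obtain ⟨hu₁, hu₂, -, -⟩ := red_inv_of_unit v vL hred jj hjj hrange u hu0 huv u₁ u₂ hredu
  obtain ⟨g1, g2, -⟩ := count_card hdegK hRBK v vL hred hcart jj hjj hrange hdeg₁ hdeg₂ hRB₁ hRB₂
    P₁ P₂ P Q hP hQ Y₁ Y₂ d₁ d₂ hd₁ hd₂ hdY₁ hdY₂ hPY hQY E hdE hcont hcard p hp u hu0 huv
    Du hDu hDu0 u₁ u₂ hredu Du₁ Du₂ hDu₁ hDu₂ hDu₁0 hDu₂0
  have h3 := degree_remDiv_add_neg hdeg₁ hp Du₁
  have h4 := degree_remDiv_add_neg hdeg₂ hp Du₂
  have h5 := degree_remDiv_add_neg hdegK hp Du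
  have e := degree_floorDiv_add p Du
  have e₁ := degree_floorDiv_add p Du₁
  have e₂ := degree_floorDiv_add p Du₂
  rw [hDu0] at e
  rw [hDu₁0] at e₁
  rw [hDu₂0] at e₂
  have hNZ : (2 * ((nodesC p P Q Du₁ Du₂).card : ℤ) + ((remDiv p Du).support.card : ℤ)) ≤
      ((remDiv p Du₁).support.card : ℤ) + ((remDiv p Du₂).support.card : ℤ) := by
    exact_mod_cast hN
  have hNp := mul_le_mul_of_nonneg_left hNZ hp'.le
  have htight' : (p : ℤ) * (Divisor.degree (floorDiv p Du₁) + Divisor.degree (floorDiv p Du₂) +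
      ((nodesC p P Q Du₁ Du₂).card : ℤ)) ≤ p * Divisor.degree (floorDiv p Du) := by
    linarith
  have htight := le_of_mul_le_mul_left htight' hp'
  exact redBall_eq_gluedPowSub p hRBK v vL hred hcart jj hjj hrange hdeg₁ hdeg₂ hRB₁ hRB₂ P₁ P₂
    P Q hP hQ Y₁ Y₂ d₁ d₂ hd₁ hd₂ hdY₁ hdY₂ hPY hQY E hdE hcont hcard (floorDiv p Du) u hu0
    (fun w => by rw [floorDiv_apply, hDu w]; exact Int.mul_ediv_self_le hp'.ne') huv u₁ u₂
    hu₁ hu₂ hredu Du₁ Du₂ hDu₁ hDu₂ htight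

/-- **Kummer case, exponent `p` in characteristic `p`: every pair with glued `p`-th powers is a
reduction.**  `div u = p D₀`, `deg D₀ = 0`, `u` a unit for the valuations, `red u = (u₁, u₂)`.
For all large `m`, every pair `(y₁, y₂)` such that `(y₁ ^ p u₁, y₂ ^ p u₂)` has poles bounded by
`p m Y_c` and is glued at the nodes is the reduction of an element of the unit ball of
`L(D₀ + m E)`.  (For `u = g ^ p` locally this is `red (M_D g) = R(E)` of step (2).) -/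
theorem surj_of_chart
    {K F : Type*} [Field K] [Field F] [Algebra K F]
    (hdegK : ∀ w : Place K F, w.deg = 1)
    (hRBK : HasRiemannBound K F)
    {Γ₀ : Type*} [LinearOrderedCommGroupWithZero Γ₀] {ι : Type*} [Finite ι] [Nonempty ι]
    (v : ι → Valuation F Γ₀) (vL : Valuation K Γ₀)
    {Fk : Type*} [CommRing Fk] [Algebra kk Fk] {red : F → Fk}
    (hred : RedDataW v (fun _ => (1 : Γ₀)) vL kk red red)
    (hcart : ∀ D : Divisor K F, CartesianW v (fun _ => (1 : Γ₀)) vL (riemannRochSpace D))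
    (jj : Fk₁ × Fk₂ →ₐ[kk] Fk) (hjj : Function.Injective jj)
    (hrange : ∀ f : F, (∀ i, v i f ≤ 1) → ∃ y : Fk₁ × Fk₂, red f = jj y)
    [HasPrincipalDivisors kk Fk₁] [HasPrincipalDivisors kk Fk₂]
    (hdeg₁ : ∀ w : Place kk Fk₁, w.deg = 1) (hdeg₂ : ∀ w : Place kk Fk₂, w.deg = 1)
    (hRB₁ : HasRiemannBound kk Fk₁) (hRB₂ : HasRiemannBound kk Fk₂)
    (P₁ : Place kk Fk₁) (P₂ : Place kk Fk₂)
    (P : I → Place kk Fk₁) (Q : I → Place kk Fk₂)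
    (hP : Function.Injective P) (hQ : Function.Injective Q)
    (Y₁ : Divisor kk Fk₁) (Y₂ : Divisor kk Fk₂)
    (d₁ d₂ : ℕ) (hd₁ : 0 < d₁) (hd₂ : 0 < d₂)
    (hdY₁ : Divisor.degree Y₁ = d₁) (hdY₂ : Divisor.degree Y₂ = d₂)
    (hPY : ∀ i, Y₁ (P i) = 0) (hQY : ∀ i, Y₂ (Q i) = 0)
    (E : Divisor K F) (hdE : Divisor.degree E = ((d₁ + d₂ : ℕ) : ℤ))
    (hcont : ∀ m : ℕ, ∀ f ∈ riemannRochSpace (m • E), (∀ i, v i f ≤ 1) →
      ∃ y₁ ∈ riemannRochSpace (m • Y₁), ∃ y₂ ∈ riemannRochSpace (m • Y₂),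
        red f = jj (y₁, y₂) ∧
          ∀ i, valueAt (Q i) (hdeg₂ (Q i)) y₂ = valueAt (P i) (hdeg₁ (P i)) y₁)
    (hcard : riemannGenus K F + 1 ≤
      riemannGenus kk Fk₁ + riemannGenus kk Fk₂ + Fintype.card I)
    (D0 : Divisor K F) (hD0 : Divisor.degree D0 = 0)
    (u : F) (hu0 : u ≠ 0) (hun : ∀ w : Place K F, w.ord u = (p : ℤ) * D0 w)
    (huv : ∀ i, v i u = 1)
    (u₁ : Fk₁) (u₂ : Fk₂) (hredu : red u = jj (u₁, u₂)) :
    ∃ m₀ : ℕ, ∀ m : ℕ, m₀ ≤ m → ∀ y : Fk₁ × Fk₂,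
      GluedPow hdeg₁ hdeg₂ P Q Y₁ Y₂ u₁ u₂ p m y →
        ∃ f ∈ riemannRochSpace (D0 + m • E), (∀ i, v i f ≤ 1) ∧ red f = jj y := by
  classical
  have hp : 0 < p := (Fact.out : p.Prime).pos
  obtain ⟨hu₁, hu₂, -, -⟩ := red_inv_of_unit v vL hred jj hjj hrange u hu0 huv u₁ u₂ hredu
  obtain ⟨Du₁, hDu₁, hDu₁0⟩ := HasPrincipalDivisors.exists_divisor (K := kk) u₁ hu₁
  obtain ⟨Du₂, hDu₂, hDu₂0⟩ := HasPrincipalDivisors.exists_divisor (K := kk) u₂ hu₂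
  set C : Finset I := nodesC p P Q Du₁ Du₂ with hC
  have hsub₁ : C.image P ⊆ (remDiv p Du₁).support := by
    intro w hw
    obtain ⟨i, hi, rfl⟩ := Finset.mem_image.mp hw
    exact mem_support_remDiv.mpr (Finset.mem_filter.mp hi).2.1
  have hsub₂ : C.image Q ⊆ (remDiv p Du₂).support := by
    intro w hw
    obtain ⟨i, hi, rfl⟩ := Finset.mem_image.mp hw
    exact mem_support_remDiv.mpr (Finset.mem_filter.mp hi).2.2
  have hc₁ : (C.image P).card = C.card := Finset.card_image_of_injective C hP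
  have hc₂ : (C.image Q).card = C.card := Finset.card_image_of_injective C hQ
  have hle₁ := Finset.card_le_card hsub₁
  have hle₂ := Finset.card_le_card hsub₂
  obtain ⟨m₀, hm₀⟩ := redBall_eq_gluedPowSub_of_card p hdegK hRBK v vL hred hcart jj hjj hrange
    hdeg₁ hdeg₂ hRB₁ hRB₂ P₁ P₂ P Q hP hQ Y₁ Y₂ d₁ d₂ hd₁ hd₂ hdY₁ hdY₂ hPY hQY E hdE hcont
    hcard u hu0 huv (p • D0) (fun w => by rw [Finsupp.smul_apply, nsmul_eq_mul, hun w])
    (by rw [map_nsmul, hD0, smul_zero]) u₁ u₂ hredu Du₁ Du₂ hDu₁ hDu₂ hDu₁0 hDu₂0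
    (by
      rw [remDiv_nsmul, Finsupp.support_zero, Finset.card_empty, add_zero, ← hC]
      omega)
  refine ⟨m₀, fun m hm y hy => ?_⟩
  have h := hm₀ m hm
  rw [floorDiv_nsmul hp] at h
  have hy' : y ∈ redBall hred jj (riemannRochSpace (D0 + m • E)) := by
    rw [h]
    exact hy
  exact hy'

end Surj

/-! ### On the binders of `helper603.twisted_lattice_of_components` -/

/-- **COUNT on the binders of `helper603.twisted_lattice_of_components`** (verbatim geometric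
hypotheses of the S35/S34 two-component module; the node count `g(F) + 1 = g₁ + g₂ + #I` and
`deg E₁ = d₁ + d₂` are taken from that theorem).  For `u` with `div u = n D₀`, a unit for the
valuations `v i`, with `red u = jj (u₁, u₂)`: `n ∣ ord_w u_c` at every place which is not a node
point, and at a node `n ∣ ord_{P i} u₁ ↔ n ∣ ord_{Q i} u₂`. -/
theorem count_of_components
    {K F : Type*} [Field K] [Field F] [Algebra K F] [HasPrincipalDivisors K F]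
    (hdegK : ∀ w : Place K F, w.deg = 1)
    (hRBK : HasRiemannBound K F) (P₀ : Place K F)
    {Γ₀ : Type*} [LinearOrderedCommGroupWithZero Γ₀] {ι : Type*} [Finite ι] [Nonempty ι]
    (v : ι → Valuation F Γ₀) (vL : Valuation K Γ₀)
    {Fk : Type*} [CommRing Fk] [Algebra kk Fk] {red : F → Fk}
    (hred : RedDataW v (fun _ => (1 : Γ₀)) vL kk red red)
    (hconst : ∀ c : K, vL c ≤ 1 → ∃ κ : kk, red (algebraMap K F c) = algebraMap kk Fk κ)
    (hcart : ∀ D : Divisor K F, CartesianW v (fun _ => (1 : Γ₀)) vL (riemannRochSpace D))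
    (jj : Fk₁ × Fk₂ →ₐ[kk] Fk) (hjj : Function.Injective jj)
    (hrange : ∀ f : F, (∀ i, v i f ≤ 1) → ∃ y : Fk₁ × Fk₂, red f = jj y)
    [HasPrincipalDivisors kk Fk₁] [HasPrincipalDivisors kk Fk₂]
    (hdeg₁ : ∀ w : Place kk Fk₁, w.deg = 1) (hdeg₂ : ∀ w : Place kk Fk₂, w.deg = 1)
    (hRB₁ : HasRiemannBound kk Fk₁) (hRB₂ : HasRiemannBound kk Fk₂)
    (P₁ : Place kk Fk₁) (P₂ : Place kk Fk₂)
    (P : I → Place kk Fk₁) (Q : I → Place kk Fk₂)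
    (hP : Function.Injective P) (hQ : Function.Injective Q)
    (Yinf₁ Y0₁ : Divisor kk Fk₁) (Yinf₂ Y0₂ : Divisor kk Fk₂)
    (hYinf₁ : 0 ≤ Yinf₁) (hY0₁ : 0 ≤ Y0₁) (hYinf₂ : 0 ≤ Yinf₂) (hY0₂ : 0 ≤ Y0₂)
    (hdisj₁ : ∀ w : Place kk Fk₁, Yinf₁ w = 0 ∨ Y0₁ w = 0)
    (hdisj₂ : ∀ w : Place kk Fk₂, Yinf₂ w = 0 ∨ Y0₂ w = 0)
    (d₁ d₂ : ℕ) (hd₁ : 0 < d₁) (hd₂ : 0 < d₂)
    (hdY₁ : Divisor.degree Yinf₁ = d₁) (hdY0₁ : Divisor.degree Y0₁ = d₁)
    (hdY₂ : Divisor.degree Yinf₂ = d₂) (hdY0₂ : Divisor.degree Y0₂ = d₂)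
    (hPY : ∀ i, Yinf₁ (P i) = 0 ∧ Y0₁ (P i) = 0) (hQY : ∀ i, Yinf₂ (Q i) = 0 ∧ Y0₂ (Q i) = 0)
    (E1 E2 : Divisor K F) (hE1 : 0 ≤ E1) (hE2 : 0 ≤ E2) (hdE1 : 0 < Divisor.degree E1)
    (x : F) (hx0 : x ≠ 0) (hxord : ∀ w : Place K F, w.ord x = E2 w - E1 w)
    (hxv : ∀ i, v i x = 1)
    (x₁ : Fk₁) (x₂ : Fk₂) (hredx : red x = jj (x₁, x₂))
    (hx₁ : ∀ w : Place kk Fk₁, w.ord x₁ = Y0₁ w - Yinf₁ w)
    (hx₂ : ∀ w : Place kk Fk₂, w.ord x₂ = Y0₂ w - Yinf₂ w)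
    (hcont : ∀ a b : ℕ, ∀ f ∈ riemannRochSpace (a • E1 + b • E2), (∀ i, v i f ≤ 1) →
      ∃ y₁ ∈ riemannRochSpace (a • Yinf₁ + b • Y0₁),
        ∃ y₂ ∈ riemannRochSpace (a • Yinf₂ + b • Y0₂), red f = jj (y₁, y₂) ∧
          ∀ i, valueAt (Q i) (hdeg₂ (Q i)) y₂ = valueAt (P i) (hdeg₁ (P i)) y₁)
    (hK1 : ∀ a : ℕ, ∀ y₁ ∈ riemannRochSpace (a • Yinf₁), ∀ y₂ ∈ riemannRochSpace (a • Yinf₂),
      (∀ i, valueAt (Q i) (hdeg₂ (Q i)) y₂ = valueAt (P i) (hdeg₁ (P i)) y₁) →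
      ∃ a' : ℕ, ∃ f ∈ riemannRochSpace (a' • E1), (∀ i, v i f ≤ 1) ∧ red f = jj (y₁, y₂))
    (hK2 : ∀ b : ℕ, ∀ y₁ ∈ riemannRochSpace (b • Y0₁), ∀ y₂ ∈ riemannRochSpace (b • Y0₂),
      (∀ i, valueAt (Q i) (hdeg₂ (Q i)) y₂ = valueAt (P i) (hdeg₁ (P i)) y₁) →
      ∃ b' : ℕ, ∃ f ∈ riemannRochSpace (b' • E2), (∀ i, v i f ≤ 1) ∧ red f = jj (y₁, y₂))
    (n : ℕ) (hn : 0 < n) (D0 : Divisor K F) (hD0 : Divisor.degree D0 = 0)
    (u : F) (hu0 : u ≠ 0) (hun : ∀ w : Place K F, w.ord u = (n : ℤ) * D0 w)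
    (huv : ∀ i, v i u = 1)
    (u₁ : Fk₁) (u₂ : Fk₂) (hredu : red u = jj (u₁, u₂)) :
    u₁ ≠ 0 ∧ u₂ ≠ 0 ∧
      (∀ w : Place kk Fk₁, (∀ i, P i ≠ w) → (n : ℤ) ∣ w.ord u₁) ∧
      (∀ w : Place kk Fk₂, (∀ i, Q i ≠ w) → (n : ℤ) ∣ w.ord u₂) ∧
      (∀ i, (n : ℤ) ∣ (P i).ord u₁ ↔ (n : ℤ) ∣ (Q i).ord u₂) := by
  obtain ⟨n₀, -, hdegE1, hcard, -⟩ := Fermat.Agent.S35.helper603.twisted_lattice_of_components
    hdegK hRBK P₀ v vL hred hconst hcart jj hjj hrange hdeg₁ hdeg₂ hRB₁ hRB₂ P₁ P₂ P Q hP hQ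
    Yinf₁ Y0₁ Yinf₂ Y0₂ hYinf₁ hY0₁ hYinf₂ hY0₂ hdisj₁ hdisj₂ d₁ d₂ hd₁ hd₂ hdY₁ hdY0₁ hdY₂ hdY0₂
    hPY hQY E1 E2 hE1 hE2 hdE1 x hx0 hxord hxv x₁ x₂ hredx hx₁ hx₂ hcont hK1 hK2
  exact count_of_chart' hdegK hRBK v vL hred hcart jj hjj hrange hdeg₁ hdeg₂ hRB₁ hRB₂ P₁ P₂ P Q
    hP hQ Yinf₁ Yinf₂ d₁ d₂ hd₁ hd₂ hdY₁ hdY₂ (fun i => (hPY i).1) (fun i => (hQY i).1) E1
    hdegE1
    (fun m f hf hfb => by
      have hf' : f ∈ riemannRochSpace (m • E1 + 0 • E2) := by rwa [zero_smul, add_zero]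
      obtain ⟨y₁, hy₁, y₂, hy₂, h⟩ := hcont m 0 f hf' hfb
      rw [zero_smul, add_zero] at hy₁ hy₂
      exact ⟨y₁, hy₁, y₂, hy₂, h⟩)
    hcard.le n hn D0 hD0 u hu0 hun huv u₁ u₂ hredu

/-- **Surjectivity on the binders of `helper603.twisted_lattice_of_components`**, exponent `p` in
characteristic `p`: for `u` with `div u = p D₀`, a unit for the valuations, `red u = jj (u₁, u₂)`,
and all large `m`, every pair `(y₁, y₂)` with `y_c ^ p u_c ∈ L(p m Yinf_c)` and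
`(y₂ ^ p u₂)(Q i) = (y₁ ^ p u₁)(P i)` at every node is the reduction of an element of the unit
ball of `L(D₀ + m E₁)`. -/
theorem surj_of_components (p : ℕ) [Fact p.Prime] [CharP kk p]
    {K F : Type*} [Field K] [Field F] [Algebra K F] [HasPrincipalDivisors K F]
    (hdegK : ∀ w : Place K F, w.deg = 1)
    (hRBK : HasRiemannBound K F) (P₀ : Place K F)
    {Γ₀ : Type*} [LinearOrderedCommGroupWithZero Γ₀] {ι : Type*} [Finite ι] [Nonempty ι]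
    (v : ι → Valuation F Γ₀) (vL : Valuation K Γ₀)
    {Fk : Type*} [CommRing Fk] [Algebra kk Fk] {red : F → Fk}
    (hred : RedDataW v (fun _ => (1 : Γ₀)) vL kk red red)
    (hconst : ∀ c : K, vL c ≤ 1 → ∃ κ : kk, red (algebraMap K F c) = algebraMap kk Fk κ)
    (hcart : ∀ D : Divisor K F, CartesianW v (fun _ => (1 : Γ₀)) vL (riemannRochSpace D))
    (jj : Fk₁ × Fk₂ →ₐ[kk] Fk) (hjj : Function.Injective jj)
    (hrange : ∀ f : F, (∀ i, v i f ≤ 1) → ∃ y : Fk₁ × Fk₂, red f = jj y)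
    [HasPrincipalDivisors kk Fk₁] [HasPrincipalDivisors kk Fk₂]
    (hdeg₁ : ∀ w : Place kk Fk₁, w.deg = 1) (hdeg₂ : ∀ w : Place kk Fk₂, w.deg = 1)
    (hRB₁ : HasRiemannBound kk Fk₁) (hRB₂ : HasRiemannBound kk Fk₂)
    (P₁ : Place kk Fk₁) (P₂ : Place kk Fk₂)
    (P : I → Place kk Fk₁) (Q : I → Place kk Fk₂)
    (hP : Function.Injective P) (hQ : Function.Injective Q)
    (Yinf₁ Y0₁ : Divisor kk Fk₁) (Yinf₂ Y0₂ : Divisor kk Fk₂)
    (hYinf₁ : 0 ≤ Yinf₁) (hY0₁ : 0 ≤ Y0₁) (hYinf₂ : 0 ≤ Yinf₂) (hY0₂ : 0 ≤ Y0₂)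
    (hdisj₁ : ∀ w : Place kk Fk₁, Yinf₁ w = 0 ∨ Y0₁ w = 0)
    (hdisj₂ : ∀ w : Place kk Fk₂, Yinf₂ w = 0 ∨ Y0₂ w = 0)
    (d₁ d₂ : ℕ) (hd₁ : 0 < d₁) (hd₂ : 0 < d₂)
    (hdY₁ : Divisor.degree Yinf₁ = d₁) (hdY0₁ : Divisor.degree Y0₁ = d₁)
    (hdY₂ : Divisor.degree Yinf₂ = d₂) (hdY0₂ : Divisor.degree Y0₂ = d₂)
    (hPY : ∀ i, Yinf₁ (P i) = 0 ∧ Y0₁ (P i) = 0) (hQY : ∀ i, Yinf₂ (Q i) = 0 ∧ Y0₂ (Q i) = 0)
    (E1 E2 : Divisor K F) (hE1 : 0 ≤ E1) (hE2 : 0 ≤ E2) (hdE1 : 0 < Divisor.degree E1)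
    (x : F) (hx0 : x ≠ 0) (hxord : ∀ w : Place K F, w.ord x = E2 w - E1 w)
    (hxv : ∀ i, v i x = 1)
    (x₁ : Fk₁) (x₂ : Fk₂) (hredx : red x = jj (x₁, x₂))
    (hx₁ : ∀ w : Place kk Fk₁, w.ord x₁ = Y0₁ w - Yinf₁ w)
    (hx₂ : ∀ w : Place kk Fk₂, w.ord x₂ = Y0₂ w - Yinf₂ w)
    (hcont : ∀ a b : ℕ, ∀ f ∈ riemannRochSpace (a • E1 + b • E2), (∀ i, v i f ≤ 1) →
      ∃ y₁ ∈ riemannRochSpace (a • Yinf₁ + b • Y0₁),
        ∃ y₂ ∈ riemannRochSpace (a • Yinf₂ + b • Y0₂), red f = jj (y₁, y₂) ∧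
          ∀ i, valueAt (Q i) (hdeg₂ (Q i)) y₂ = valueAt (P i) (hdeg₁ (P i)) y₁)
    (hK1 : ∀ a : ℕ, ∀ y₁ ∈ riemannRochSpace (a • Yinf₁), ∀ y₂ ∈ riemannRochSpace (a • Yinf₂),
      (∀ i, valueAt (Q i) (hdeg₂ (Q i)) y₂ = valueAt (P i) (hdeg₁ (P i)) y₁) →
      ∃ a' : ℕ, ∃ f ∈ riemannRochSpace (a' • E1), (∀ i, v i f ≤ 1) ∧ red f = jj (y₁, y₂))
    (hK2 : ∀ b : ℕ, ∀ y₁ ∈ riemannRochSpace (b • Y0₁), ∀ y₂ ∈ riemannRochSpace (b • Y0₂),
      (∀ i, valueAt (Q i) (hdeg₂ (Q i)) y₂ = valueAt (P i) (hdeg₁ (P i)) y₁) →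
      ∃ b' : ℕ, ∃ f ∈ riemannRochSpace (b' • E2), (∀ i, v i f ≤ 1) ∧ red f = jj (y₁, y₂))
    (D0 : Divisor K F) (hD0 : Divisor.degree D0 = 0)
    (u : F) (hu0 : u ≠ 0) (hun : ∀ w : Place K F, w.ord u = (p : ℤ) * D0 w)
    (huv : ∀ i, v i u = 1)
    (u₁ : Fk₁) (u₂ : Fk₂) (hredu : red u = jj (u₁, u₂)) :
    ∃ m₀ : ℕ, ∀ m : ℕ, m₀ ≤ m → ∀ y₁ : Fk₁, ∀ y₂ : Fk₂,
      y₁ ^ p * u₁ ∈ riemannRochSpace ((p * m) • Yinf₁) →
      y₂ ^ p * u₂ ∈ riemannRochSpace ((p * m) • Yinf₂) →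
      (∀ i, valueAt (Q i) (hdeg₂ (Q i)) (y₂ ^ p * u₂) =
        valueAt (P i) (hdeg₁ (P i)) (y₁ ^ p * u₁)) →
      ∃ f ∈ riemannRochSpace (D0 + m • E1), (∀ i, v i f ≤ 1) ∧ red f = jj (y₁, y₂) := by
  obtain ⟨n₀, -, hdegE1, hcard, -⟩ := Fermat.Agent.S35.helper603.twisted_lattice_of_components
    hdegK hRBK P₀ v vL hred hconst hcart jj hjj hrange hdeg₁ hdeg₂ hRB₁ hRB₂ P₁ P₂ P Q hP hQ
    Yinf₁ Y0₁ Yinf₂ Y0₂ hYinf₁ hY0₁ hYinf₂ hY0₂ hdisj₁ hdisj₂ d₁ d₂ hd₁ hd₂ hdY₁ hdY0₁ hdY₂ hdY0₂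
    hPY hQY E1 E2 hE1 hE2 hdE1 x hx0 hxord hxv x₁ x₂ hredx hx₁ hx₂ hcont hK1 hK2
  obtain ⟨m₀, hm₀⟩ := surj_of_chart p hdegK hRBK v vL hred hcart jj hjj hrange hdeg₁ hdeg₂ hRB₁
    hRB₂ P₁ P₂ P Q hP hQ Yinf₁ Yinf₂ d₁ d₂ hd₁ hd₂ hdY₁ hdY₂ (fun i => (hPY i).1)
    (fun i => (hQY i).1) E1 hdegE1
    (fun m f hf hfb => by
      have hf' : f ∈ riemannRochSpace (m • E1 + 0 • E2) := by rwa [zero_smul, add_zero]
      obtain ⟨y₁, hy₁, y₂, hy₂, h⟩ := hcont m 0 f hf' hfb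
      rw [zero_smul, add_zero] at hy₁ hy₂
      exact ⟨y₁, hy₁, y₂, hy₂, h⟩)
    hcard.le D0 hD0 u hu0 hun huv u₁ u₂ hredu
  exact ⟨m₀, fun m hm y₁ y₂ h1 h2 h3 => hm₀ m hm (y₁, y₂) ⟨h1, h2, h3⟩⟩

end Count

end Fermat.Agent.S44.helper6147
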