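/-
S44 — block (CNT), function-field assembly, GENERAL POLE BOUNDS (one lattice).

Generalisation of `helper6147_CountFF` (chart lattice `L(D₀ + m E)`, pole bound `n m Y_c`):
here the generic lattice is `L(A)` for ONE divisor `A`, and the reductions of `f ^ n u`,
`f ∈ L(A)` in the unit ball, are only assumed to lie in `L(G₁) × L(G₂)` (glued at the nodes) for
two arbitrary divisors `G₁`, `G₂` of the components which vanish at the node points.  This serves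

* the two-chart lattices `L(D₀ + a E1 + b E2)` of `helper603.twisted_lattice_of_components`;
* the cusp-free twisted lattices `L(D + a J + a' J')` (mixed containment), where
  `div H = p D + m (J - J')` and `G_c = (p a - m) J̄_c + (p a' + m) J̄'_c`.

Main statements (`ν` = number of nodes with `n ∤ ord` on both branches):

* `count_general` : `deg A ≤ deg ⌊(G₁ + div u₁) / n⌋ + deg ⌊(G₂ + div u₂) / n⌋ + ν`;
* `redBall_eq_gluedSubG` : exponent `p` in characteristic `p`; if the reverse inequality holds,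
  the reduction of the unit ball of `L(A)` is the space of ALL pairs with glued `p`-th powers;
* `count_str_general` : the count for `u` on `(A, G)` and for `u⁻¹` on `(A', G')`, with
  `n ∣ G_c + G'_c` and slack at most `n (#Z₁ + #Z₂)`: every place `w` with
  `n ∤ G_c w + ord_w u_c` is in `Z_c` or is a node branch whose other branch is odd too, and both
  counts are tight.
-/
import Mathlib
import Fermat.Agent.S44.helper6147_CountFF

set_option autoImplicit false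

namespace Fermat.Agent.S44.helper6147

open AlgebraicCurve WithZero Module
open Fermat.Agent.S35.helper2459 (RedDataW CartesianW)
open Fermat.Agent.S35.helper603 (valueAt valueAt_unique valueAt_eq_zero_iff valueAt_add
  valueAt_smul redBall finrank_le_finrank_redBall red_pow_of_ball)
open Fermat.Agent.S18.helper981 (HasRiemannBound riemannGenus)

/-! ### One place, one component -/

section LocalG

variable {k F : Type*} [Field k] [Field F] [Algebra k F] {I : Type*}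

/-- If `y ^ n g` has order `≥ -c` then `y` has order `≥ -⌊(c + ord g) / n⌋`. -/
theorem neg_floor_le_ordG (w : Place k F) {y g : F} (hy : y ≠ 0) (hg : g ≠ 0) {n : ℕ} (hn : 0 < n)
    {c : ℤ} (h : -c ≤ w.ord (y ^ n * g)) : -((c + w.ord g) / n) ≤ w.ord y := by
  rw [ord_pow_mul w hy hg] at h
  have hn' : (0 : ℤ) < n := by exact_mod_cast hn
  have h1 : -w.ord y ≤ (c + w.ord g) / n := Int.le_ediv_of_mul_le hn' (by linarith)
  linarith

theorem val_le_one_of_mem_rr (G : Divisor k F) (w : Place k F) (hGw : G w = 0) {f : F}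
    (hf : f ∈ riemannRochSpace G) : w.adicValuation f ≤ 1 := by
  have h := hf w
  rwa [hGw, exp_zero] at h

/-- At a point off the pole divisor where `n ∤ ord g`, the regular function `y ^ n g` vanishes. -/
theorem valueAt_pow_mul_eq_zero_of_not_dvdG (hdeg : ∀ w : Place k F, w.deg = 1)
    (G : Divisor k F) (w : Place k F) (hGw : G w = 0) {n : ℕ} (hn : 0 < n) {y g : F}
    (hg : g ≠ 0) (hmem : y ^ n * g ∈ riemannRochSpace G)
    (hnd : ¬ (n : ℤ) ∣ w.ord g) : valueAt w (hdeg w) (y ^ n * g) = 0 := by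
  by_cases hy : y = 0
  · rw [hy, zero_pow hn.ne', zero_mul]
    exact valueAt_zero _ _
  · have hyg : y ^ n * g ≠ 0 := mul_ne_zero (pow_ne_zero n hy) hg
    have h1 := (mem_riemannRochSpace_iff.mp hmem w).resolve_left hyg
    rw [hGw, neg_zero] at h1
    exact valueAt_eq_zero_of_ord_pos w (hdeg w) hyg (ord_pos_of_not_dvd w hy hg hnd h1)

/-- If `y ^ n g ∈ L(G)` vanishes at the points `P i`, `i ∈ T` (where `n ∣ ord g` and `G = 0`),
then `y ∈ L(⌊(G + div g) / n⌋ - Σ_{i ∈ T} P i)`. -/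
theorem mem_rr_floorG (hdeg : ∀ w : Place k F, w.deg = 1) (G : Divisor k F)
    (P : I → Place k F) (hP : Function.Injective P) (hGP : ∀ i, G (P i) = 0)
    {n : ℕ} (hn : 0 < n) {g : F} (hg : g ≠ 0) (Dg : Divisor k F)
    (hDg : ∀ w : Place k F, Dg w = w.ord g) (T : Finset I)
    (hT : ∀ i ∈ T, (n : ℤ) ∣ Dg (P i)) {y : F}
    (hmem : y ^ n * g ∈ riemannRochSpace G)
    (hval : ∀ i ∈ T, valueAt (P i) (hdeg (P i)) (y ^ n * g) = 0) :
    y ∈ riemannRochSpace (floorDiv n (G + Dg) - ptsDiv P T) := by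
  rw [mem_riemannRochSpace_iff]
  intro w
  by_cases hy : y = 0
  · exact Or.inl hy
  right
  have hyg : y ^ n * g ≠ 0 := mul_ne_zero (pow_ne_zero n hy) hg
  have h1 := (mem_riemannRochSpace_iff.mp hmem w).resolve_left hyg
  have h3 := neg_floor_le_ordG w hy hg hn h1
  rw [Finsupp.sub_apply, floorDiv_apply, Finsupp.add_apply, hDg w]
  by_cases hw : ∃ i ∈ T, P i = w
  · obtain ⟨i, hi, rfl⟩ := hw
    rw [ptsDiv_apply_mem P hP T hi, hGP i, zero_add]
    have h0 : 0 ≤ (P i).ord (y ^ n * g) := by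
      rw [hGP i] at h1
      simpa using h1
    have hpos := ord_pos_of_valueAt_eq_zero (P i) (hdeg (P i)) hyg h0 (hval i hi)
    have hd : (n : ℤ) ∣ (P i).ord g := by
      rw [← hDg]
      exact hT i hi
    have := one_le_of_dvd_of_pos (P i) hy hg hn hd hpos
    linarith
  · simp only [not_exists, not_and] at hw
    rw [ptsDiv_apply_of_ne P T w hw]
    linarith

end LocalG

/-! ### The special fibre with general pole bounds -/

section CountG

variable {kk : Type*} [Field kk] {Fk₁ Fk₂ : Type*} [Field Fk₁] [Field Fk₂]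
  [Algebra kk Fk₁] [Algebra kk Fk₂] {I : Type*}

/-- The pair `(y₁ ^ n u₁, y₂ ^ n u₂)` lies in `L(G₁) × L(G₂)` and is glued at the nodes. -/
def GluedG (hdeg₁ : ∀ w : Place kk Fk₁, w.deg = 1) (hdeg₂ : ∀ w : Place kk Fk₂, w.deg = 1)
    (P : I → Place kk Fk₁) (Q : I → Place kk Fk₂) (G₁ : Divisor kk Fk₁) (G₂ : Divisor kk Fk₂)
    (u₁ : Fk₁) (u₂ : Fk₂) (n : ℕ) (y : Fk₁ × Fk₂) : Prop :=
  y.1 ^ n * u₁ ∈ riemannRochSpace G₁ ∧
    y.2 ^ n * u₂ ∈ riemannRochSpace G₂ ∧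
    ∀ i, valueAt (Q i) (hdeg₂ (Q i)) (y.2 ^ n * u₂) =
      valueAt (P i) (hdeg₁ (P i)) (y.1 ^ n * u₁)

theorem gluedPow_iff_gluedG {hdeg₁ : ∀ w : Place kk Fk₁, w.deg = 1}
    {hdeg₂ : ∀ w : Place kk Fk₂, w.deg = 1} {P : I → Place kk Fk₁} {Q : I → Place kk Fk₂}
    {Y₁ : Divisor kk Fk₁} {Y₂ : Divisor kk Fk₂} {u₁ : Fk₁} {u₂ : Fk₂} {n m : ℕ}
    {y : Fk₁ × Fk₂} :
    GluedPow hdeg₁ hdeg₂ P Q Y₁ Y₂ u₁ u₂ n m y ↔
      GluedG hdeg₁ hdeg₂ P Q ((n * m) • Y₁) ((n * m) • Y₂) u₁ u₂ n y := Iff.rfl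

section NodesG

variable [Fintype I]

/-- **Special-fibre bound, general pole bounds.** -/
theorem finrank_le_of_gluedG
    [HasPrincipalDivisors kk Fk₁] [HasPrincipalDivisors kk Fk₂]
    (hdeg₁ : ∀ w : Place kk Fk₁, w.deg = 1) (hdeg₂ : ∀ w : Place kk Fk₂, w.deg = 1)
    (P₁ : Place kk Fk₁) (P₂ : Place kk Fk₂)
    (P : I → Place kk Fk₁) (Q : I → Place kk Fk₂)
    (hP : Function.Injective P) (hQ : Function.Injective Q)
    (G₁ : Divisor kk Fk₁) (G₂ : Divisor kk Fk₂)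
    (hG₁P : ∀ i, G₁ (P i) = 0) (hG₂Q : ∀ i, G₂ (Q i) = 0)
    {n : ℕ} (hn : 0 < n) {u₁ : Fk₁} {u₂ : Fk₂} (hu₁ : u₁ ≠ 0) (hu₂ : u₂ ≠ 0)
    (Du₁ : Divisor kk Fk₁) (Du₂ : Divisor kk Fk₂)
    (hDu₁ : ∀ w : Place kk Fk₁, Du₁ w = w.ord u₁) (hDu₂ : ∀ w : Place kk Fk₂, Du₂ w = w.ord u₂)
    (Z : Submodule kk (Fk₁ × Fk₂))
    (hZ : ∀ y ∈ Z, GluedG hdeg₁ hdeg₂ P Q G₁ G₂ u₁ u₂ n y) :
    Module.Finite kk Z ∧ finrank kk Z ≤
      finrank kk (riemannRochSpace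
        (floorDiv n (G₁ + Du₁) - ptsDiv P (nodesB n P Q Du₁ Du₂))) +
      finrank kk (riemannRochSpace (floorDiv n (G₂ + Du₂) - ptsDiv Q (nodesT n Q Du₂))) := by
  classical
  set D₁ : Divisor kk Fk₁ := floorDiv n (G₁ + Du₁) - ptsDiv P (nodesB n P Q Du₁ Du₂) with hD₁
  set D₂ : Divisor kk Fk₂ := floorDiv n (G₂ + Du₂) - ptsDiv Q (nodesT n Q Du₂) with hD₂
  set D₂' : Divisor kk Fk₂ := floorDiv n (G₂ + Du₂) - ptsDiv Q (∅ : Finset I) with hD₂'
  have : Module.Finite kk (riemannRochSpace D₁) :=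
    Fermat.Agent.S18.helper981.finite_riemannRochSpace hdeg₁ P₁ D₁
  have : Module.Finite kk (riemannRochSpace D₂) :=
    Fermat.Agent.S18.helper981.finite_riemannRochSpace hdeg₂ P₂ D₂
  have : Module.Finite kk (riemannRochSpace D₂') :=
    Fermat.Agent.S18.helper981.finite_riemannRochSpace hdeg₂ P₂ D₂'
  have hX1 : ∀ y ∈ Z, y.1 ∈ riemannRochSpace D₁ := by
    intro y hy
    obtain ⟨h1, h2, h3⟩ := hZ y hy
    refine mem_rr_floorG hdeg₁ G₁ P hP hG₁P hn hu₁ Du₁ hDu₁ _ (fun i hi => ?_) h1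
      (fun i hi => ?_)
    · exact (Finset.mem_filter.mp hi).2.1
    · rw [← h3 i]
      refine valueAt_pow_mul_eq_zero_of_not_dvdG hdeg₂ G₂ (Q i) (hG₂Q i) hn hu₂ h2 ?_
      rw [← hDu₂]
      exact (Finset.mem_filter.mp hi).2.2
  have hX2 : ∀ y ∈ Z, y.1 = 0 → y.2 ∈ riemannRochSpace D₂ := by
    intro y hy hy1
    obtain ⟨h1, h2, h3⟩ := hZ y hy
    refine mem_rr_floorG hdeg₂ G₂ Q hQ hG₂Q hn hu₂ Du₂ hDu₂ _ (fun i hi => ?_) h2
      (fun i hi => ?_)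
    · exact (Finset.mem_filter.mp hi).2
    · rw [h3 i, hy1, zero_pow hn.ne', zero_mul]
      exact valueAt_zero _ _
  have hX2' : ∀ y ∈ Z, y.2 ∈ riemannRochSpace D₂' := by
    intro y hy
    obtain ⟨h1, h2, h3⟩ := hZ y hy
    exact mem_rr_floorG hdeg₂ G₂ Q hQ hG₂Q hn hu₂ Du₂ hDu₂ ∅ (fun i hi => by simp at hi) h2
      (fun i hi => by simp at hi)
  have hXfin : Module.Finite kk Z := by
    let e : Z →ₗ[kk] riemannRochSpace D₁ × riemannRochSpace D₂' :=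
      LinearMap.prod
        (LinearMap.codRestrict (riemannRochSpace D₁)
          ((LinearMap.fst kk Fk₁ Fk₂).comp Z.subtype) (fun y => hX1 y.1 y.2))
        (LinearMap.codRestrict (riemannRochSpace D₂')
          ((LinearMap.snd kk Fk₁ Fk₂).comp Z.subtype) (fun y => hX2' y.1 y.2))
    have he : Function.Injective e := by
      intro a b hab
      have h1 : (a : Fk₁ × Fk₂).1 = (b : Fk₁ × Fk₂).1 :=
        congrArg (fun z : riemannRochSpace D₁ × riemannRochSpace D₂' => (z.1 : Fk₁)) hab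
      have h2 : (a : Fk₁ × Fk₂).2 = (b : Fk₁ × Fk₂).2 :=
        congrArg (fun z : riemannRochSpace D₁ × riemannRochSpace D₂' => (z.2 : Fk₂)) hab
      exact Subtype.ext (Prod.ext h1 h2)
    exact FiniteDimensional.of_injective e he
  refine ⟨hXfin, ?_⟩
  set φ : Z →ₗ[kk] Fk₁ := (LinearMap.fst kk Fk₁ Fk₂).comp Z.subtype with hφ
  have h_range : finrank kk (LinearMap.range φ) ≤ finrank kk (riemannRochSpace D₁) := by
    refine Submodule.finrank_mono ?_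
    rintro _ ⟨y, rfl⟩
    exact hX1 y.1 y.2
  set ψ : LinearMap.ker φ →ₗ[kk] Fk₂ :=
    ((LinearMap.snd kk Fk₁ Fk₂).comp Z.subtype).comp (LinearMap.ker φ).subtype with hψ
  have hψinj : Function.Injective ψ := by
    intro a b hab
    have ha : ((a : Z) : Fk₁ × Fk₂).1 = 0 := LinearMap.mem_ker.mp a.2
    have hb : ((b : Z) : Fk₁ × Fk₂).1 = 0 := LinearMap.mem_ker.mp b.2
    exact Subtype.ext (Subtype.ext (Prod.ext (ha.trans hb.symm) hab))
  have h_ker : finrank kk (LinearMap.ker φ) ≤ finrank kk (riemannRochSpace D₂) := by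
    rw [← LinearMap.finrank_range_of_inj hψinj]
    refine Submodule.finrank_mono ?_
    rintro _ ⟨z, rfl⟩
    exact hX2 z.1.1 z.1.2 (LinearMap.mem_ker.mp z.2)
  have h_rn := φ.finrank_range_add_finrank_ker
  omega

/-- One Riemann constant for both components. -/
theorem exists_riemann_const
    [HasPrincipalDivisors kk Fk₁] [HasPrincipalDivisors kk Fk₂]
    (hdeg₁ : ∀ w : Place kk Fk₁, w.deg = 1) (hdeg₂ : ∀ w : Place kk Fk₂, w.deg = 1)
    (hRB₁ : HasRiemannBound kk Fk₁) (hRB₂ : HasRiemannBound kk Fk₂)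
    (P₁ : Place kk Fk₁) (P₂ : Place kk Fk₂) :
    ∃ N : ℤ, (∀ D : Divisor kk Fk₁, N ≤ Divisor.degree D →
        (finrank kk (riemannRochSpace D) : ℤ) = Divisor.degree D + 1 - riemannGenus kk Fk₁) ∧
      (∀ D : Divisor kk Fk₂, N ≤ Divisor.degree D →
        (finrank kk (riemannRochSpace D) : ℤ) = Divisor.degree D + 1 - riemannGenus kk Fk₂) := by
  obtain ⟨c₁, hc₁⟩ := Fermat.Agent.S18.helper981.exists_forall_finrank_eq hdeg₁ P₁ hRB₁
  obtain ⟨c₂, hc₂⟩ := Fermat.Agent.S18.helper981.exists_forall_finrank_eq hdeg₂ P₂ hRB₂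
  exact ⟨max c₁ c₂, fun D hD => hc₁ D ((le_max_left _ _).trans hD),
    fun D hD => hc₂ D ((le_max_right _ _).trans hD)⟩

/-- **COUNT, one lattice, general pole bounds.**  If the reduction of the unit ball of `L(A)`
consists of pairs `y` with `(y₁ ^ n u₁, y₂ ^ n u₂) ∈ L(G₁) × L(G₂)` glued at the nodes, then
`deg A ≤ deg ⌊(G₁ + div u₁) / n⌋ + deg ⌊(G₂ + div u₂) / n⌋ + ν`. -/
theorem count_general
    {K F : Type*} [Field K] [Field F] [Algebra K F]
    (hRBK : HasRiemannBound K F)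
    {Γ₀ : Type*} [LinearOrderedCommGroupWithZero Γ₀] {ι : Type*} [Finite ι] [Nonempty ι]
    (v : ι → Valuation F Γ₀) (vL : Valuation K Γ₀)
    {Fk : Type*} [CommRing Fk] [Algebra kk Fk] {red : F → Fk}
    (hred : RedDataW v (fun _ => (1 : Γ₀)) vL kk red red)
    (hcart : ∀ D : Divisor K F, CartesianW v (fun _ => (1 : Γ₀)) vL (riemannRochSpace D))
    (jj : Fk₁ × Fk₂ →ₐ[kk] Fk) (hjj : Function.Injective jj)
    (hrange : ∀ f : F, (∀ i, v i f ≤ 1) → ∃ y : Fk₁ × Fk₂, red f = jj y)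
    [HasPrincipalDivisors kk Fk₁] [HasPrincipalDivisors kk Fk₂]
    (hdeg₁ : ∀ w : Place kk Fk₁, w.deg = 1) (hdeg₂ : ∀ w : Place kk Fk₂, w.deg = 1)
    (hRB₁ : HasRiemannBound kk Fk₁) (hRB₂ : HasRiemannBound kk Fk₂)
    (P₁ : Place kk Fk₁) (P₂ : Place kk Fk₂)
    (P : I → Place kk Fk₁) (Q : I → Place kk Fk₂)
    (hP : Function.Injective P) (hQ : Function.Injective Q)
    (hcard : riemannGenus K F + 1 ≤
      riemannGenus kk Fk₁ + riemannGenus kk Fk₂ + Fintype.card I) :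
    ∃ N : ℤ, ∀ (n : ℕ), 0 < n → ∀ (A : Divisor K F) (G₁ : Divisor kk Fk₁) (G₂ : Divisor kk Fk₂),
      (∀ i, G₁ (P i) = 0) → (∀ i, G₂ (Q i) = 0) →
      ∀ (u₁ : Fk₁) (u₂ : Fk₂), u₁ ≠ 0 → u₂ ≠ 0 →
      ∀ (Du₁ : Divisor kk Fk₁) (Du₂ : Divisor kk Fk₂),
      (∀ w : Place kk Fk₁, Du₁ w = w.ord u₁) → (∀ w : Place kk Fk₂, Du₂ w = w.ord u₂) →
      (∀ y ∈ redBall hred jj (riemannRochSpace A), GluedG hdeg₁ hdeg₂ P Q G₁ G₂ u₁ u₂ n y) →
      N + Fintype.card I ≤ Divisor.degree (floorDiv n (G₁ + Du₁)) →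
      N + Fintype.card I ≤ Divisor.degree (floorDiv n (G₂ + Du₂)) →
      Divisor.degree A ≤ Divisor.degree (floorDiv n (G₁ + Du₁)) +
        Divisor.degree (floorDiv n (G₂ + Du₂)) + ((nodesC n P Q Du₁ Du₂).card : ℤ) := by
  obtain ⟨N, hN₁, hN₂⟩ := exists_riemann_const hdeg₁ hdeg₂ hRB₁ hRB₂ P₁ P₂
  refine ⟨N, fun n hn A G₁ G₂ hG₁P hG₂Q u₁ u₂ hu₁ hu₂ Du₁ Du₂ hDu₁ hDu₂ hInto ht₁ ht₂ => ?_⟩
  set S : Submodule K F := riemannRochSpace A with hS
  set X : Submodule kk (Fk₁ × Fk₂) := redBall hred jj S with hX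
  obtain ⟨hXfin, hXle⟩ := finrank_le_of_gluedG hdeg₁ hdeg₂ P₁ P₂ P Q hP hQ G₁ G₂ hG₁P hG₂Q hn
    hu₁ hu₂ Du₁ Du₂ hDu₁ hDu₂ X hInto
  have hlow : finrank K S ≤ finrank kk X :=
    finrank_le_finrank_redBall hred jj hjj (hcart A) (fun f _ hfb => hrange f hfb)
  have hgen := Fermat.Agent.S18.helper981.riemannGenus_mem hRBK A
  have hcardI := card_nodes n P Q Du₁ Du₂
  have hB : ((nodesB n P Q Du₁ Du₂).card : ℤ) ≤ Fintype.card I := by
    have : (nodesB n P Q Du₁ Du₂).card ≤ Fintype.card I := by omega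
    exact_mod_cast this
  have hT : ((nodesT n Q Du₂).card : ℤ) ≤ Fintype.card I := by
    have : (nodesT n Q Du₂).card ≤ Fintype.card I := by omega
    exact_mod_cast this
  have hd₁ : Divisor.degree (floorDiv n (G₁ + Du₁) - ptsDiv P (nodesB n P Q Du₁ Du₂)) =
      Divisor.degree (floorDiv n (G₁ + Du₁)) - (nodesB n P Q Du₁ Du₂).card := by
    rw [map_sub, degree_ptsDiv hdeg₁]
  have hd₂ : Divisor.degree (floorDiv n (G₂ + Du₂) - ptsDiv Q (nodesT n Q Du₂)) =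
      Divisor.degree (floorDiv n (G₂ + Du₂)) - (nodesT n Q Du₂).card := by
    rw [map_sub, degree_ptsDiv hdeg₂]
  have hf₁ := hN₁ (floorDiv n (G₁ + Du₁) - ptsDiv P (nodesB n P Q Du₁ Du₂)) (by rw [hd₁]; linarith)
  have hf₂ := hN₂ (floorDiv n (G₂ + Du₂) - ptsDiv Q (nodesT n Q Du₂)) (by rw [hd₂]; linarith)
  rw [hd₁] at hf₁
  rw [hd₂] at hf₂
  have hlowZ : (finrank K S : ℤ) ≤ (finrank kk X : ℤ) := by exact_mod_cast hlow
  have hupZ : (finrank kk X : ℤ) ≤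
      (finrank kk (riemannRochSpace
        (floorDiv n (G₁ + Du₁) - ptsDiv P (nodesB n P Q Du₁ Du₂))) : ℤ) +
      (finrank kk (riemannRochSpace
        (floorDiv n (G₂ + Du₂) - ptsDiv Q (nodesT n Q Du₂))) : ℤ) := by
    exact_mod_cast hXle
  have hcardZ : (riemannGenus K F : ℤ) + 1 ≤
      (riemannGenus kk Fk₁ : ℤ) + (riemannGenus kk Fk₂ : ℤ) +
        ((nodesB n P Q Du₁ Du₂).card + (nodesT n Q Du₂).card +
          (nodesC n P Q Du₁ Du₂).card : ℕ) := by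
    rw [hcardI]
    exact_mod_cast hcard
  rw [hf₁, hf₂] at hupZ
  push_cast at hcardZ
  linarith

end NodesG

/-! ### Exponent `p` in characteristic `p` -/

section SurjG

variable (p : ℕ) [Fact p.Prime] [CharP kk p]

/-- The subspace of pairs `(y₁, y₂)` with `(y₁ ^ p u₁, y₂ ^ p u₂) ∈ L(G₁) × L(G₂)` glued at the
nodes (characteristic `p`: the condition is additive). -/
def gluedSubG (hdeg₁ : ∀ w : Place kk Fk₁, w.deg = 1) (hdeg₂ : ∀ w : Place kk Fk₂, w.deg = 1)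
    (P : I → Place kk Fk₁) (Q : I → Place kk Fk₂) (G₁ : Divisor kk Fk₁) (G₂ : Divisor kk Fk₂)
    (hG₁P : ∀ i, G₁ (P i) = 0) (hG₂Q : ∀ i, G₂ (Q i) = 0) (u₁ : Fk₁) (u₂ : Fk₂) :
    Submodule kk (Fk₁ × Fk₂) where
  carrier := {y | GluedG hdeg₁ hdeg₂ P Q G₁ G₂ u₁ u₂ p y}
  add_mem' := by
    rintro a b ⟨ha1, ha2, ha3⟩ ⟨hb1, hb2, hb3⟩
    have : CharP Fk₁ p := charP_of_injective_algebraMap (algebraMap kk Fk₁).injective p
    have : CharP Fk₂ p := charP_of_injective_algebraMap (algebraMap kk Fk₂).injective p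
    have e1 : (a + b).1 ^ p * u₁ = a.1 ^ p * u₁ + b.1 ^ p * u₁ := by
      rw [Prod.fst_add, add_pow_char, add_mul]
    have e2 : (a + b).2 ^ p * u₂ = a.2 ^ p * u₂ + b.2 ^ p * u₂ := by
      rw [Prod.snd_add, add_pow_char, add_mul]
    refine ⟨?_, ?_, fun i => ?_⟩
    · rw [e1]
      exact add_mem ha1 hb1
    · rw [e2]
      exact add_mem ha2 hb2
    · rw [e1, e2,
        valueAt_add _ _ (val_le_one_of_mem_rr G₂ (Q i) (hG₂Q i) ha2)
          (val_le_one_of_mem_rr G₂ (Q i) (hG₂Q i) hb2),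
        valueAt_add _ _ (val_le_one_of_mem_rr G₁ (P i) (hG₁P i) ha1)
          (val_le_one_of_mem_rr G₁ (P i) (hG₁P i) hb1), ha3 i, hb3 i]
  zero_mem' := by
    have hp0 : p ≠ 0 := (Fact.out : p.Prime).ne_zero
    refine ⟨?_, ?_, fun i => ?_⟩
    · rw [Prod.fst_zero, zero_pow hp0, zero_mul]
      exact zero_mem _
    · rw [Prod.snd_zero, zero_pow hp0, zero_mul]
      exact zero_mem _
    · simp only [Prod.fst_zero, Prod.snd_zero, zero_pow hp0, zero_mul, valueAt_zero]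
  smul_mem' := by
    rintro c a ⟨ha1, ha2, ha3⟩
    have e1 : (c • a).1 ^ p * u₁ = c ^ p • (a.1 ^ p * u₁) := by
      rw [Prod.smul_fst, smul_pow, smul_mul_assoc]
    have e2 : (c • a).2 ^ p * u₂ = c ^ p • (a.2 ^ p * u₂) := by
      rw [Prod.smul_snd, smul_pow, smul_mul_assoc]
    refine ⟨?_, ?_, fun i => ?_⟩
    · rw [e1]
      exact Submodule.smul_mem _ _ ha1
    · rw [e2]
      exact Submodule.smul_mem _ _ ha2
    · rw [e1, e2, valueAt_smul _ _ _ (val_le_one_of_mem_rr G₂ (Q i) (hG₂Q i) ha2),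
        valueAt_smul _ _ _ (val_le_one_of_mem_rr G₁ (P i) (hG₁P i) ha1), ha3 i]

theorem mem_gluedSubG {hdeg₁ : ∀ w : Place kk Fk₁, w.deg = 1}
    {hdeg₂ : ∀ w : Place kk Fk₂, w.deg = 1}
    {P : I → Place kk Fk₁} {Q : I → Place kk Fk₂} {G₁ : Divisor kk Fk₁} {G₂ : Divisor kk Fk₂}
    {hG₁P : ∀ i, G₁ (P i) = 0} {hG₂Q : ∀ i, G₂ (Q i) = 0} {u₁ : Fk₁} {u₂ : Fk₂}
    {y : Fk₁ × Fk₂} :
    y ∈ gluedSubG p hdeg₁ hdeg₂ P Q G₁ G₂ hG₁P hG₂Q u₁ u₂ ↔
      GluedG hdeg₁ hdeg₂ P Q G₁ G₂ u₁ u₂ p y := Iff.rfl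

variable [Fintype I]

/-- **Tight count ⇒ the reduction is the whole glued space** (one lattice, general pole bounds).
If `deg ⌊(G₁ + div u₁) / p⌋ + deg ⌊(G₂ + div u₂) / p⌋ + ν ≤ deg A` (the reverse of
`count_general`), the reduction of the unit ball of `L(A)` is the space of ALL pairs `y` with
`(y₁ ^ p u₁, y₂ ^ p u₂) ∈ L(G₁) × L(G₂)` glued at the nodes. -/
theorem redBall_eq_gluedSubG
    {K F : Type*} [Field K] [Field F] [Algebra K F]
    (hRBK : HasRiemannBound K F)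
    {Γ₀ : Type*} [LinearOrderedCommGroupWithZero Γ₀] {ι : Type*} [Finite ι] [Nonempty ι]
    (v : ι → Valuation F Γ₀) (vL : Valuation K Γ₀)
    {Fk : Type*} [CommRing Fk] [Algebra kk Fk] {red : F → Fk}
    (hred : RedDataW v (fun _ => (1 : Γ₀)) vL kk red red)
    (hcart : ∀ D : Divisor K F, CartesianW v (fun _ => (1 : Γ₀)) vL (riemannRochSpace D))
    (jj : Fk₁ × Fk₂ →ₐ[kk] Fk) (hjj : Function.Injective jj)
    (hrange : ∀ f : F, (∀ i, v i f ≤ 1) → ∃ y : Fk₁ × Fk₂, red f = jj y)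
    [HasPrincipalDivisors kk Fk₁] [HasPrincipalDivisors kk Fk₂]
    (hdeg₁ : ∀ w : Place kk Fk₁, w.deg = 1) (hdeg₂ : ∀ w : Place kk Fk₂, w.deg = 1)
    (hRB₁ : HasRiemannBound kk Fk₁) (hRB₂ : HasRiemannBound kk Fk₂)
    (P₁ : Place kk Fk₁) (P₂ : Place kk Fk₂)
    (P : I → Place kk Fk₁) (Q : I → Place kk Fk₂)
    (hP : Function.Injective P) (hQ : Function.Injective Q)
    (hcard : riemannGenus K F + 1 ≤
      riemannGenus kk Fk₁ + riemannGenus kk Fk₂ + Fintype.card I) :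
    ∃ N : ℤ, ∀ (A : Divisor K F) (G₁ : Divisor kk Fk₁) (G₂ : Divisor kk Fk₂)
      (hG₁P : ∀ i, G₁ (P i) = 0) (hG₂Q : ∀ i, G₂ (Q i) = 0)
      (u₁ : Fk₁) (u₂ : Fk₂), u₁ ≠ 0 → u₂ ≠ 0 →
      ∀ (Du₁ : Divisor kk Fk₁) (Du₂ : Divisor kk Fk₂),
      (∀ w : Place kk Fk₁, Du₁ w = w.ord u₁) → (∀ w : Place kk Fk₂, Du₂ w = w.ord u₂) →
      (∀ y ∈ redBall hred jj (riemannRochSpace A), GluedG hdeg₁ hdeg₂ P Q G₁ G₂ u₁ u₂ p y) →
      N + Fintype.card I ≤ Divisor.degree (floorDiv p (G₁ + Du₁)) →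
      N + Fintype.card I ≤ Divisor.degree (floorDiv p (G₂ + Du₂)) →
      Divisor.degree (floorDiv p (G₁ + Du₁)) + Divisor.degree (floorDiv p (G₂ + Du₂)) +
        ((nodesC p P Q Du₁ Du₂).card : ℤ) ≤ Divisor.degree A →
      redBall hred jj (riemannRochSpace A) = gluedSubG p hdeg₁ hdeg₂ P Q G₁ G₂ hG₁P hG₂Q u₁ u₂ := by
  have hp : 0 < p := (Fact.out : p.Prime).pos
  obtain ⟨N, hN₁, hN₂⟩ := exists_riemann_const hdeg₁ hdeg₂ hRB₁ hRB₂ P₁ P₂
  refine ⟨N, fun A G₁ G₂ hG₁P hG₂Q u₁ u₂ hu₁ hu₂ Du₁ Du₂ hDu₁ hDu₂ hInto ht₁ ht₂ htight => ?_⟩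
  set S : Submodule K F := riemannRochSpace A with hS
  set X : Submodule kk (Fk₁ × Fk₂) := redBall hred jj S with hX
  set Y : Submodule kk (Fk₁ × Fk₂) := gluedSubG p hdeg₁ hdeg₂ P Q G₁ G₂ hG₁P hG₂Q u₁ u₂ with hY
  have hXY : X ≤ Y := fun y hy => hInto y hy
  obtain ⟨hYfin, hYle⟩ := finrank_le_of_gluedG hdeg₁ hdeg₂ P₁ P₂ P Q hP hQ G₁ G₂ hG₁P hG₂Q hp
    hu₁ hu₂ Du₁ Du₂ hDu₁ hDu₂ Y (fun y hy => hy)
  have hXfin : Module.Finite kk X := Submodule.finiteDimensional_of_le hXY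
  have hlow : finrank K S ≤ finrank kk X :=
    finrank_le_finrank_redBall hred jj hjj (hcart A) (fun f _ hfb => hrange f hfb)
  have hgen := Fermat.Agent.S18.helper981.riemannGenus_mem hRBK A
  have hcardI := card_nodes p P Q Du₁ Du₂
  have hB : ((nodesB p P Q Du₁ Du₂).card : ℤ) ≤ Fintype.card I := by
    have : (nodesB p P Q Du₁ Du₂).card ≤ Fintype.card I := by omega
    exact_mod_cast this
  have hT : ((nodesT p Q Du₂).card : ℤ) ≤ Fintype.card I := by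
    have : (nodesT p Q Du₂).card ≤ Fintype.card I := by omega
    exact_mod_cast this
  have hd₁ : Divisor.degree (floorDiv p (G₁ + Du₁) - ptsDiv P (nodesB p P Q Du₁ Du₂)) =
      Divisor.degree (floorDiv p (G₁ + Du₁)) - (nodesB p P Q Du₁ Du₂).card := by
    rw [map_sub, degree_ptsDiv hdeg₁]
  have hd₂ : Divisor.degree (floorDiv p (G₂ + Du₂) - ptsDiv Q (nodesT p Q Du₂)) =
      Divisor.degree (floorDiv p (G₂ + Du₂)) - (nodesT p Q Du₂).card := by
    rw [map_sub, degree_ptsDiv hdeg₂]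
  have hf₁ := hN₁ (floorDiv p (G₁ + Du₁) - ptsDiv P (nodesB p P Q Du₁ Du₂)) (by rw [hd₁]; linarith)
  have hf₂ := hN₂ (floorDiv p (G₂ + Du₂) - ptsDiv Q (nodesT p Q Du₂)) (by rw [hd₂]; linarith)
  rw [hd₁] at hf₁
  rw [hd₂] at hf₂
  have hlowZ : (finrank K S : ℤ) ≤ (finrank kk X : ℤ) := by exact_mod_cast hlow
  have hupZ : (finrank kk Y : ℤ) ≤
      (finrank kk (riemannRochSpace
        (floorDiv p (G₁ + Du₁) - ptsDiv P (nodesB p P Q Du₁ Du₂))) : ℤ) +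
      (finrank kk (riemannRochSpace
        (floorDiv p (G₂ + Du₂) - ptsDiv Q (nodesT p Q Du₂))) : ℤ) := by
    exact_mod_cast hYle
  have hcardZ : (riemannGenus K F : ℤ) + 1 ≤
      (riemannGenus kk Fk₁ : ℤ) + (riemannGenus kk Fk₂ : ℤ) +
        ((nodesB p P Q Du₁ Du₂).card + (nodesT p Q Du₂).card +
          (nodesC p P Q Du₁ Du₂).card : ℕ) := by
    rw [hcardI]
    exact_mod_cast hcard
  refine Submodule.eq_of_le_of_finrank_le hXY ?_
  have hfinal : (finrank kk Y : ℤ) ≤ (finrank kk X : ℤ) := by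
    rw [hf₁, hf₂] at hupZ
    push_cast at hcardZ
    linarith
  exact_mod_cast hfinal

end SurjG

/-! ### The structure theorem: the count for `u` and for `u⁻¹` -/

section StrG

variable [Fintype I]

/-- **COUNT, structure (one lattice for `u`, one for `u⁻¹`, general pole bounds).**
Let the reductions of the unit balls of `L(A)`, `L(A')` consist of pairs with glued `n`-th powers
for `(u₁, u₂)`, `(G₁, G₂)`, resp. for `(u₁⁻¹, u₂⁻¹)`, `(G₁', G₂')`, with `n ∣ G_c + G_c'` and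
`deg G₁ + deg G₂ + deg G₁' + deg G₂' ≤ n (deg A + deg A') + n (#Z₁ + #Z₂)`, where `Z_c` are finite
sets of places of the components, not node points, with `n ∤ G_c w + ord_w u_c`.  Then every place
`w` with `n ∤ G_c w + ord_w u_c` is in `Z_c` or is a node branch whose other branch has `n ∤ ord`
too, and both counts are tight. -/
theorem count_str_general
    {K F : Type*} [Field K] [Field F] [Algebra K F]
    (hRBK : HasRiemannBound K F)
    {Γ₀ : Type*} [LinearOrderedCommGroupWithZero Γ₀] {ι : Type*} [Finite ι] [Nonempty ι]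
    (v : ι → Valuation F Γ₀) (vL : Valuation K Γ₀)
    {Fk : Type*} [CommRing Fk] [Algebra kk Fk] {red : F → Fk}
    (hred : RedDataW v (fun _ => (1 : Γ₀)) vL kk red red)
    (hcart : ∀ D : Divisor K F, CartesianW v (fun _ => (1 : Γ₀)) vL (riemannRochSpace D))
    (jj : Fk₁ × Fk₂ →ₐ[kk] Fk) (hjj : Function.Injective jj)
    (hrange : ∀ f : F, (∀ i, v i f ≤ 1) → ∃ y : Fk₁ × Fk₂, red f = jj y)
    [HasPrincipalDivisors kk Fk₁] [HasPrincipalDivisors kk Fk₂]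
    (hdeg₁ : ∀ w : Place kk Fk₁, w.deg = 1) (hdeg₂ : ∀ w : Place kk Fk₂, w.deg = 1)
    (hRB₁ : HasRiemannBound kk Fk₁) (hRB₂ : HasRiemannBound kk Fk₂)
    (P₁ : Place kk Fk₁) (P₂ : Place kk Fk₂)
    (P : I → Place kk Fk₁) (Q : I → Place kk Fk₂)
    (hP : Function.Injective P) (hQ : Function.Injective Q)
    (hcard : riemannGenus K F + 1 ≤
      riemannGenus kk Fk₁ + riemannGenus kk Fk₂ + Fintype.card I) :
    ∃ N : ℤ, ∀ (n : ℕ), 0 < n → ∀ (A A' : Divisor K F) (G₁ G₁' : Divisor kk Fk₁)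
      (G₂ G₂' : Divisor kk Fk₂),
      (∀ i, G₁ (P i) = 0) → (∀ i, G₂ (Q i) = 0) → (∀ i, G₁' (P i) = 0) → (∀ i, G₂' (Q i) = 0) →
      (∀ w : Place kk Fk₁, (n : ℤ) ∣ G₁ w + G₁' w) →
      (∀ w : Place kk Fk₂, (n : ℤ) ∣ G₂ w + G₂' w) →
      ∀ (u₁ : Fk₁) (u₂ : Fk₂), u₁ ≠ 0 → u₂ ≠ 0 →
      ∀ (Du₁ : Divisor kk Fk₁) (Du₂ : Divisor kk Fk₂),
      (∀ w : Place kk Fk₁, Du₁ w = w.ord u₁) → (∀ w : Place kk Fk₂, Du₂ w = w.ord u₂) →
      Divisor.degree Du₁ = 0 → Divisor.degree Du₂ = 0 →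
      (∀ y ∈ redBall hred jj (riemannRochSpace A), GluedG hdeg₁ hdeg₂ P Q G₁ G₂ u₁ u₂ n y) →
      (∀ y ∈ redBall hred jj (riemannRochSpace A'),
        GluedG hdeg₁ hdeg₂ P Q G₁' G₂' u₁⁻¹ u₂⁻¹ n y) →
      N + Fintype.card I ≤ Divisor.degree (floorDiv n (G₁ + Du₁)) →
      N + Fintype.card I ≤ Divisor.degree (floorDiv n (G₂ + Du₂)) →
      N + Fintype.card I ≤ Divisor.degree (floorDiv n (G₁' - Du₁)) →
      N + Fintype.card I ≤ Divisor.degree (floorDiv n (G₂' - Du₂)) →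
      ∀ (Z₁ : Finset (Place kk Fk₁)) (Z₂ : Finset (Place kk Fk₂)),
      (∀ w ∈ Z₁, (∀ i, P i ≠ w) ∧ ¬ (n : ℤ) ∣ G₁ w + w.ord u₁) →
      (∀ w ∈ Z₂, (∀ i, Q i ≠ w) ∧ ¬ (n : ℤ) ∣ G₂ w + w.ord u₂) →
      Divisor.degree G₁ + Divisor.degree G₂ + Divisor.degree G₁' + Divisor.degree G₂' ≤
        (n : ℤ) * (Divisor.degree A + Divisor.degree A') +
          (n : ℤ) * ((Z₁.card : ℤ) + (Z₂.card : ℤ)) →
      (∀ w : Place kk Fk₁, ¬ (n : ℤ) ∣ G₁ w + w.ord u₁ →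
        w ∈ Z₁ ∨ ∃ i, P i = w ∧ ¬ (n : ℤ) ∣ (Q i).ord u₂) ∧
      (∀ w : Place kk Fk₂, ¬ (n : ℤ) ∣ G₂ w + w.ord u₂ →
        w ∈ Z₂ ∨ ∃ i, Q i = w ∧ ¬ (n : ℤ) ∣ (P i).ord u₁) ∧
      Divisor.degree (floorDiv n (G₁ + Du₁)) + Divisor.degree (floorDiv n (G₂ + Du₂)) +
        ((nodesC n P Q Du₁ Du₂).card : ℤ) ≤ Divisor.degree A ∧
      Divisor.degree (floorDiv n (G₁' - Du₁)) + Divisor.degree (floorDiv n (G₂' - Du₂)) +
        ((nodesC n P Q Du₁ Du₂).card : ℤ) ≤ Divisor.degree A' := by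
  classical
  obtain ⟨N, hN⟩ := count_general hRBK v vL hred hcart jj hjj hrange hdeg₁ hdeg₂ hRB₁ hRB₂ P₁ P₂
    P Q hP hQ hcard
  refine ⟨N, fun n hn A A' G₁ G₁' G₂ G₂' hG₁P hG₂Q hG₁'P hG₂'Q hGG₁ hGG₂ u₁ u₂ hu₁ hu₂ Du₁ Du₂
    hDu₁ hDu₂ hDu₁0 hDu₂0 hInto hInto' ht₁ ht₂ ht₁' ht₂' Z₁ Z₂ hZ₁ hZ₂ hslack => ?_⟩
  have hn' : (0 : ℤ) < n := by exact_mod_cast hn
  have h1 := hN n hn A G₁ G₂ hG₁P hG₂Q u₁ u₂ hu₁ hu₂ Du₁ Du₂ hDu₁ hDu₂ hInto ht₁ ht₂
  have h2 := hN n hn A' G₁' G₂' hG₁'P hG₂'Q u₁⁻¹ u₂⁻¹ (inv_ne_zero hu₁) (inv_ne_zero hu₂)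
    (-Du₁) (-Du₂)
    (fun w => by rw [Finsupp.neg_apply, hDu₁ w, w.ord_inv])
    (fun w => by rw [Finsupp.neg_apply, hDu₂ w, w.ord_inv]) hInto'
    (by rw [← sub_eq_add_neg]; exact ht₁') (by rw [← sub_eq_add_neg]; exact ht₂')
  rw [nodesC_neg, ← sub_eq_add_neg, ← sub_eq_add_neg] at h2
  -- degrees of floors and remainders
  have e₁ := degree_floorDiv_add n (G₁ + Du₁)
  have e₂ := degree_floorDiv_add n (G₂ + Du₂)
  have e₁' := degree_floorDiv_add n (G₁' - Du₁)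
  have e₂' := degree_floorDiv_add n (G₂' - Du₂)
  rw [map_add, hDu₁0, add_zero] at e₁
  rw [map_add, hDu₂0, add_zero] at e₂
  rw [map_sub, hDu₁0, sub_zero] at e₁'
  rw [map_sub, hDu₂0, sub_zero] at e₂'
  have hr₁ : remDiv n (G₁' - Du₁) = remDiv n (-(G₁ + Du₁)) := by
    ext w
    rw [remDiv_apply, remDiv_apply, Finsupp.sub_apply, Finsupp.neg_apply, Finsupp.add_apply]
    obtain ⟨c, hc⟩ := hGG₁ w
    have : G₁' w - Du₁ w = -(G₁ w + Du₁ w) + n * c := by linarith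
    rw [this, Int.add_mul_emod_self_left]
  have hr₂ : remDiv n (G₂' - Du₂) = remDiv n (-(G₂ + Du₂)) := by
    ext w
    rw [remDiv_apply, remDiv_apply, Finsupp.sub_apply, Finsupp.neg_apply, Finsupp.add_apply]
    obtain ⟨c, hc⟩ := hGG₂ w
    have : G₂' w - Du₂ w = -(G₂ w + Du₂ w) + n * c := by linarith
    rw [this, Int.add_mul_emod_self_left]
  have q₁ := degree_remDiv_add_neg hdeg₁ hn (G₁ + Du₁)
  have q₂ := degree_remDiv_add_neg hdeg₂ hn (G₂ + Du₂)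
  rw [← hr₁] at q₁
  rw [← hr₂] at q₂
  -- the supports
  set s₁ : Finset (Place kk Fk₁) := (remDiv n (G₁ + Du₁)).support with hs₁
  set s₂ : Finset (Place kk Fk₂) := (remDiv n (G₂ + Du₂)).support with hs₂
  set C : Finset I := nodesC n P Q Du₁ Du₂ with hC
  set NP : Finset I := Finset.univ.filter fun i => ¬ (n : ℤ) ∣ Du₁ (P i) with hNP
  set NQ : Finset I := Finset.univ.filter fun i => ¬ (n : ℤ) ∣ Du₂ (Q i) with hNQ
  have hCP : C ⊆ NP := fun i hi => by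
    rw [hC, nodesC, Finset.mem_filter] at hi
    exact Finset.mem_filter.mpr ⟨Finset.mem_univ _, hi.2.1⟩
  have hCQ : C ⊆ NQ := fun i hi => by
    rw [hC, nodesC, Finset.mem_filter] at hi
    exact Finset.mem_filter.mpr ⟨Finset.mem_univ _, hi.2.2⟩
  have hsub₁ : Z₁ ∪ NP.image P ⊆ s₁ := by
    intro w hw
    rw [Finset.mem_union] at hw
    rw [hs₁, mem_support_remDiv, Finsupp.add_apply]
    rcases hw with hw | hw
    · rw [hDu₁ w]
      exact (hZ₁ w hw).2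
    · obtain ⟨i, hi, rfl⟩ := Finset.mem_image.mp hw
      rw [hG₁P i, zero_add]
      exact (Finset.mem_filter.mp hi).2
  have hsub₂ : Z₂ ∪ NQ.image Q ⊆ s₂ := by
    intro w hw
    rw [Finset.mem_union] at hw
    rw [hs₂, mem_support_remDiv, Finsupp.add_apply]
    rcases hw with hw | hw
    · rw [hDu₂ w]
      exact (hZ₂ w hw).2
    · obtain ⟨i, hi, rfl⟩ := Finset.mem_image.mp hw
      rw [hG₂Q i, zero_add]
      exact (Finset.mem_filter.mp hi).2
  have hdisj₁ : Disjoint Z₁ (NP.image P) := by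
    rw [Finset.disjoint_left]
    intro w hw hw'
    obtain ⟨i, -, rfl⟩ := Finset.mem_image.mp hw'
    exact (hZ₁ _ hw).1 i rfl
  have hdisj₂ : Disjoint Z₂ (NQ.image Q) := by
    rw [Finset.disjoint_left]
    intro w hw hw'
    obtain ⟨i, -, rfl⟩ := Finset.mem_image.mp hw'
    exact (hZ₂ _ hw).1 i rfl
  have hcu₁ : (Z₁ ∪ NP.image P).card = Z₁.card + NP.card := by
    rw [Finset.card_union_of_disjoint hdisj₁, Finset.card_image_of_injective _ hP]
  have hcu₂ : (Z₂ ∪ NQ.image Q).card = Z₂.card + NQ.card := by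
    rw [Finset.card_union_of_disjoint hdisj₂, Finset.card_image_of_injective _ hQ]
  have hc₁ : Z₁.card + NP.card ≤ s₁.card := hcu₁ ▸ Finset.card_le_card hsub₁
  have hc₂ : Z₂.card + NQ.card ≤ s₂.card := hcu₂ ▸ Finset.card_le_card hsub₂
  have hνP : C.card ≤ NP.card := Finset.card_le_card hCP
  have hνQ : C.card ≤ NQ.card := Finset.card_le_card hCQ
  have h1n := mul_le_mul_of_nonneg_left h1 hn'.le
  have h2n := mul_le_mul_of_nonneg_left h2 hn'.le
  have hnum : (n : ℤ) * ((s₁.card : ℤ) + (s₂.card : ℤ)) ≤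
      (n : ℤ) * ((Z₁.card : ℤ) + (Z₂.card : ℤ) + 2 * (C.card : ℤ)) := by
    linarith
  have hnum' : s₁.card + s₂.card ≤ Z₁.card + Z₂.card + 2 * C.card := by
    have := le_of_mul_le_mul_left hnum hn'
    exact_mod_cast this
  have hNPeq : NP.card = C.card := by omega
  have hNQeq : NQ.card = C.card := by omega
  have hs₁eq : s₁.card = Z₁.card + NP.card := by omega
  have hs₂eq : s₂.card = Z₂.card + NQ.card := by omega
  have hCNP : C = NP := Finset.eq_of_subset_of_card_le hCP hNPeq.le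
  have hCNQ : C = NQ := Finset.eq_of_subset_of_card_le hCQ hNQeq.le
  have hS₁ : Z₁ ∪ NP.image P = s₁ :=
    Finset.eq_of_subset_of_card_le hsub₁ (by rw [hcu₁]; exact hs₁eq.le)
  have hS₂ : Z₂ ∪ NQ.image Q = s₂ :=
    Finset.eq_of_subset_of_card_le hsub₂ (by rw [hcu₂]; exact hs₂eq.le)
  have hs₁Z : (s₁.card : ℤ) = (Z₁.card : ℤ) + (C.card : ℤ) := by
    rw [hs₁eq, hNPeq]
    push_cast
    rfl
  have hs₂Z : (s₂.card : ℤ) = (Z₂.card : ℤ) + (C.card : ℤ) := by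
    rw [hs₂eq, hNQeq]
    push_cast
    rfl
  refine ⟨fun w hw => ?_, fun w hw => ?_, ?_, ?_⟩
  · have hws : w ∈ s₁ := by
      rw [hs₁, mem_support_remDiv, Finsupp.add_apply, hDu₁ w]
      exact hw
    rw [← hS₁, Finset.mem_union] at hws
    rcases hws with h | h
    · exact Or.inl h
    · obtain ⟨i, hi, rfl⟩ := Finset.mem_image.mp h
      rw [← hCNP, hC, nodesC, Finset.mem_filter] at hi
      exact Or.inr ⟨i, rfl, by rw [← hDu₂]; exact hi.2.2⟩
  · have hws : w ∈ s₂ := by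
      rw [hs₂, mem_support_remDiv, Finsupp.add_apply, hDu₂ w]
      exact hw
    rw [← hS₂, Finset.mem_union] at hws
    rcases hws with h | h
    · exact Or.inl h
    · obtain ⟨i, hi, rfl⟩ := Finset.mem_image.mp h
      rw [← hCNQ, hC, nodesC, Finset.mem_filter] at hi
      exact Or.inr ⟨i, rfl, by rw [← hDu₁]; exact hi.2.1⟩
  · have : (n : ℤ) * (Divisor.degree (floorDiv n (G₁ + Du₁)) +
        Divisor.degree (floorDiv n (G₂ + Du₂)) + (C.card : ℤ)) ≤ n * Divisor.degree A := by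
      have e := mul_comm (n : ℤ) ((s₁.card : ℤ))
      have e' := mul_comm (n : ℤ) ((s₂.card : ℤ))
      rw [hs₁Z] at q₁
      rw [hs₂Z] at q₂
      linarith
    exact le_of_mul_le_mul_left this hn'
  · have : (n : ℤ) * (Divisor.degree (floorDiv n (G₁' - Du₁)) +
        Divisor.degree (floorDiv n (G₂' - Du₂)) + (C.card : ℤ)) ≤ n * Divisor.degree A' := by
      rw [hs₁Z] at q₁
      rw [hs₂Z] at q₂
      linarith
    exact le_of_mul_le_mul_left this hn'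

end StrG

end CountG

end Fermat.Agent.S44.helper6147
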