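/-
S44 — block (CNT), even case: the block export `CntEven` (one Prop) on the binders of
`Fermat.Agent.S35.helper603.twisted_lattice_of_components`, and its proof from the count of
`helper6147_CountFF`.

`CntEven p v red jj hdeg₁ hdeg₂ P Q Yinf₁ Y0₁ Yinf₂ Y0₂ E1 E2` says: for every function `u` which
is a unit for the valuations `v i`, with `red u = jj (u₁, u₂)`, and for every choice of finite
sets `Z₁`, `Z₂` of places of the two components which are not node points, where `p ∤ ord u_c`,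
and which are at least as numerous as the places of the generic fibre with `p ∤ ord u`
(for a Kummer function: `S = Z₁ = Z₂ = ∅`; for `h * eps ^ j`: the cusps and their reductions):

* (STR) `p ∣ ord_w u_c` at every place `w` which is neither a node point nor in `Z_c`, and at a
  node `p ∣ ord_{P i} u₁ ↔ p ∣ ord_{Q i} u₂`;
* (INTO/ONTO) for `D0 = ⌊div u / p⌋` and `a + b` large, the reduction of the unit ball of
  `L(D0 + a E1 + b E2)` is EXACTLY the set of pairs `ψ` such that `(ψ₁ ^ p u₁, ψ₂ ^ p u₂)` has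
  poles bounded by `p (a Yinf_c + b Y0_c)` and is glued at the nodes.
-/
import Mathlib
import Fermat.Agent.S44.helper6147_CountGen

set_option autoImplicit false

namespace Fermat.Agent.S44.helper6147

open AlgebraicCurve WithZero Module
open Fermat.Agent.S35.helper2459 (RedDataW CartesianW)
open Fermat.Agent.S35.helper603 (valueAt valueAt_unique valueAt_eq_zero_iff valueAt_add
  valueAt_smul redBall finrank_le_finrank_redBall red_pow_of_ball)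
open Fermat.Agent.S18.helper981 (HasRiemannBound riemannGenus)

/-- **Block (CNT), even case — the export.** -/
def CntEven (p : ℕ)
    {K F : Type*} [Field K] [Field F] [Algebra K F]
    {Γ₀ : Type*} [LinearOrderedCommGroupWithZero Γ₀] {ι : Type*}
    (v : ι → Valuation F Γ₀)
    {kk : Type*} [Field kk] {Fk₁ Fk₂ : Type*} [Field Fk₁] [Field Fk₂]
    [Algebra kk Fk₁] [Algebra kk Fk₂]
    {Fk : Type*} [CommRing Fk] [Algebra kk Fk] (red : F → Fk)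
    (jj : Fk₁ × Fk₂ →ₐ[kk] Fk)
    (hdeg₁ : ∀ w : Place kk Fk₁, w.deg = 1) (hdeg₂ : ∀ w : Place kk Fk₂, w.deg = 1)
    {I : Type*} (P : I → Place kk Fk₁) (Q : I → Place kk Fk₂)
    (Yinf₁ Y0₁ : Divisor kk Fk₁) (Yinf₂ Y0₂ : Divisor kk Fk₂)
    (E1 E2 : Divisor K F) : Prop :=
  ∀ u : F, u ≠ 0 → (∀ i, v i u = 1) → ∀ (u₁ : Fk₁) (u₂ : Fk₂), red u = jj (u₁, u₂) →
  ∀ D0 : Divisor K F, (∀ w : Place K F, D0 w = w.ord u / (p : ℤ)) →
  ∀ S : Finset (Place K F), (∀ w : Place K F, ¬ (p : ℤ) ∣ w.ord u → w ∈ S) →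
  ∀ (Z₁ : Finset (Place kk Fk₁)) (Z₂ : Finset (Place kk Fk₂)),
    (∀ w ∈ Z₁, (∀ i, P i ≠ w) ∧ ¬ (p : ℤ) ∣ w.ord u₁) →
    (∀ w ∈ Z₂, (∀ i, Q i ≠ w) ∧ ¬ (p : ℤ) ∣ w.ord u₂) →
    S.card ≤ Z₁.card + Z₂.card →
    u₁ ≠ 0 ∧ u₂ ≠ 0 ∧
    (∀ w : Place kk Fk₁, (∀ i, P i ≠ w) → w ∉ Z₁ → (p : ℤ) ∣ w.ord u₁) ∧
    (∀ w : Place kk Fk₂, (∀ i, Q i ≠ w) → w ∉ Z₂ → (p : ℤ) ∣ w.ord u₂) ∧
    (∀ i, (p : ℤ) ∣ (P i).ord u₁ ↔ (p : ℤ) ∣ (Q i).ord u₂) ∧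
    (∀ a b : ℕ, ∀ f ∈ riemannRochSpace (D0 + a • E1 + b • E2), (∀ i, v i f ≤ 1) →
      ∃ ψ : Fk₁ × Fk₂, red f = jj ψ ∧
        ψ.1 ^ p * u₁ ∈ riemannRochSpace (p • (a • Yinf₁ + b • Y0₁)) ∧
        ψ.2 ^ p * u₂ ∈ riemannRochSpace (p • (a • Yinf₂ + b • Y0₂)) ∧
        ∀ i, valueAt (Q i) (hdeg₂ (Q i)) (ψ.2 ^ p * u₂) =
          valueAt (P i) (hdeg₁ (P i)) (ψ.1 ^ p * u₁)) ∧
    ∃ n₀ : ℕ, ∀ a b : ℕ, n₀ ≤ a + b → ∀ ψ : Fk₁ × Fk₂,
      ψ.1 ^ p * u₁ ∈ riemannRochSpace (p • (a • Yinf₁ + b • Y0₁)) →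
      ψ.2 ^ p * u₂ ∈ riemannRochSpace (p • (a • Yinf₂ + b • Y0₂)) →
      (∀ i, valueAt (Q i) (hdeg₂ (Q i)) (ψ.2 ^ p * u₂) =
        valueAt (P i) (hdeg₁ (P i)) (ψ.1 ^ p * u₁)) →
      ∃ f ∈ riemannRochSpace (D0 + a • E1 + b • E2), (∀ i, v i f ≤ 1) ∧ red f = jj ψ

/-! ### Small lemmas -/

section Aux

variable {k F : Type*} [Field k] [Field F] [Algebra k F]

theorem nsmul_chart (p a b : ℕ) (X Y : Divisor k F) :
    p • (a • X + b • Y) = (p * a) • X + (p * b) • Y := by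
  rw [smul_add, smul_smul, smul_smul]

theorem floorDiv_nsmul_add {n : ℕ} (hn : 0 < n) (X D : Divisor k F) :
    floorDiv n (n • X + D) = X + floorDiv n D := by
  have hn' : ((n : ℤ)) ≠ 0 := by exact_mod_cast hn.ne'
  ext w
  rw [floorDiv_apply, Finsupp.add_apply, Finsupp.add_apply, floorDiv_apply, Finsupp.smul_apply,
    nsmul_eq_mul, add_comm, Int.add_mul_ediv_left _ _ hn', add_comm]

theorem floorDiv_nsmul_sub {n : ℕ} (hn : 0 < n) (X D : Divisor k F) :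
    floorDiv n (n • X - D) = X + floorDiv n (-D) := by
  rw [sub_eq_add_neg, floorDiv_nsmul_add hn]

theorem nsmul_dvd_add_iff {n : ℕ} (X : Divisor k F) (w : Place k F) (z : ℤ) :
    (n : ℤ) ∣ (n • X) w + z ↔ (n : ℤ) ∣ z := by
  rw [Finsupp.smul_apply, nsmul_eq_mul]
  exact dvd_add_right (dvd_mul_right _ _)

end Aux

section Into

variable {kk : Type*} [Field kk] {Fk₁ Fk₂ : Type*} [Field Fk₁] [Field Fk₂]
  [Algebra kk Fk₁] [Algebra kk Fk₂] {I : Type*}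

/-- **INTO, general form.**  If `n A ≤ E + div u` and the reduction of the unit ball of `L(E)`
lies in the glued pairs of `L(G₁) × L(G₂)`, then the reduction of the unit ball of `L(A)`
consists of pairs `y` with `(y₁ ^ n u₁, y₂ ^ n u₂)` glued in `L(G₁) × L(G₂)`. -/
theorem gluedG_of_mem_redBall
    {K F : Type*} [Field K] [Field F] [Algebra K F]
    {Γ₀ : Type*} [LinearOrderedCommGroupWithZero Γ₀] {ι : Type*}
    (v : ι → Valuation F Γ₀) (vL : Valuation K Γ₀)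
    {Fk : Type*} [CommRing Fk] [Algebra kk Fk] {red : F → Fk}
    (hred : RedDataW v (fun _ => (1 : Γ₀)) vL kk red red)
    (jj : Fk₁ × Fk₂ →ₐ[kk] Fk) (hjj : Function.Injective jj)
    (hdeg₁ : ∀ w : Place kk Fk₁, w.deg = 1) (hdeg₂ : ∀ w : Place kk Fk₂, w.deg = 1)
    (P : I → Place kk Fk₁) (Q : I → Place kk Fk₂)
    (A E : Divisor K F) (G₁ : Divisor kk Fk₁) (G₂ : Divisor kk Fk₂)
    (hcontE : ∀ f ∈ riemannRochSpace E, (∀ i, v i f ≤ 1) →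
      ∃ y₁ ∈ riemannRochSpace G₁, ∃ y₂ ∈ riemannRochSpace G₂, red f = jj (y₁, y₂) ∧
        ∀ i, valueAt (Q i) (hdeg₂ (Q i)) y₂ = valueAt (P i) (hdeg₁ (P i)) y₁)
    {n : ℕ} (hn : 0 < n) (u : F) (hu0 : u ≠ 0)
    (hAE : ∀ w : Place K F, (n : ℤ) * A w ≤ E w + w.ord u)
    (hub : ∀ i, v i u ≤ 1)
    (u₁ : Fk₁) (u₂ : Fk₂) (hredu : red u = jj (u₁, u₂))
    (y : Fk₁ × Fk₂) (hy : y ∈ redBall hred jj (riemannRochSpace A)) :
    GluedG hdeg₁ hdeg₂ P Q G₁ G₂ u₁ u₂ n y := by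
  obtain ⟨f, hfS, hfb, hfy⟩ := hy
  have hfn : f ^ n * u ∈ riemannRochSpace E := by
    rw [mem_riemannRochSpace_iff] at hfS
    rw [mem_riemannRochSpace_iff]
    intro w
    by_cases hf0 : f = 0
    · left
      rw [hf0, zero_pow hn.ne', zero_mul]
    · right
      have h1 := (hfS w).resolve_left hf0
      have h2 := hAE w
      rw [w.ord_mul (pow_ne_zero n hf0) hu0, ← zpow_natCast, w.ord_zpow]
      have hn' : (0 : ℤ) ≤ n := Int.natCast_nonneg n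
      have h3 : (n : ℤ) * (-(A w)) ≤ n * w.ord f := mul_le_mul_of_nonneg_left h1 hn'
      linarith
  have hfpb : ∀ i, v i (f ^ n) ≤ 1 := fun i => by
    rw [map_pow]
    exact pow_le_one' (hfb i) n
  have hfnb : ∀ i, v i (f ^ n * u) ≤ 1 := fun i => by
    rw [map_mul]
    exact mul_le_one' (hfpb i) (hub i)
  obtain ⟨z₁, hz₁, z₂, hz₂, hz, hnode⟩ := hcontE _ hfn hfnb
  have hredfn : red (f ^ n * u) = jj (y.1 ^ n * u₁, y.2 ^ n * u₂) := by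
    rw [hred.map_mul _ _ hfpb hub, red_pow_of_ball hred f hfb n, hfy, hredu, ← map_pow,
      ← map_mul]
    rfl
  have hzz : (z₁, z₂) = (y.1 ^ n * u₁, y.2 ^ n * u₂) := hjj (hz.symm.trans hredfn)
  have e1 : z₁ = y.1 ^ n * u₁ := congrArg Prod.fst hzz
  have e2 : z₂ = y.2 ^ n * u₂ := congrArg Prod.snd hzz
  subst e1 e2
  exact ⟨hz₁, hz₂, hnode⟩

end Into

section Main

variable {kk : Type*} [Field kk] {Fk₁ Fk₂ : Type*} [Field Fk₁] [Field Fk₂]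
  [Algebra kk Fk₁] [Algebra kk Fk₂] {I : Type*} [Fintype I]

/-- **Block (CNT), even case, on the binders of `helper603.twisted_lattice_of_components`**
(verbatim geometric hypotheses of the S35/S34 two-component module), exponent `p` in residue
characteristic `p`. -/
theorem cntEven_of_components (p : ℕ) [Fact p.Prime] [CharP kk p]
    {K F : Type*} [Field K] [Field F] [Algebra K F] [HasPrincipalDivisors K F]
    (hdegK : ∀ w : Place K F, w.deg = 1)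
    (hRBK : HasRiemannBound K F) (P₀ : Place K F)
    {Γ₀ : Type*} [LinearOrderedCommGroupWithZero Γ₀] {ι : Type*} [Finite ι] [Nonempty ι]
    (v : ι → Valuation F Γ₀) (vL : Valuation K Γ₀)
    {Fk : Type*} [CommRing Fk] [Algebra kk Fk] {red : F → Fk}
    (hred : RedDataW v (fun _ => (1 : Γ₀)) vL kk red red)
    (hconst : ∀ c : K, vL c ≤ 1 → ∃ κ : kk, red (algebraMap K F c) = algebraMap kk Fk κ)
    (hcart : ∀ D : Divisor K F, CartesianW v (fun _ => (1 : Γ₀)) vL (riemannRochSpace D))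
    (jj : Fk₁ × Fk₂ →ₐ[kk] Fk) (hjj : Function.Injective jj)
    (hrange : ∀ f : F, (∀ i, v i f ≤ 1) → ∃ y : Fk₁ × Fk₂, red f = jj y)
    [HasPrincipalDivisors kk Fk₁] [HasPrincipalDivisors kk Fk₂]
    (hdeg₁ : ∀ w : Place kk Fk₁, w.deg = 1) (hdeg₂ : ∀ w : Place kk Fk₂, w.deg = 1)
    (hRB₁ : HasRiemannBound kk Fk₁) (hRB₂ : HasRiemannBound kk Fk₂)
    (P₁ : Place kk Fk₁) (P₂ : Place kk Fk₂)
    (P : I → Place kk Fk₁) (Q : I → Place kk Fk₂)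
    (hP : Function.Injective P) (hQ : Function.Injective Q)
    (Yinf₁ Y0₁ : Divisor kk Fk₁) (Yinf₂ Y0₂ : Divisor kk Fk₂)
    (hYinf₁ : 0 ≤ Yinf₁) (hY0₁ : 0 ≤ Y0₁) (hYinf₂ : 0 ≤ Yinf₂) (hY0₂ : 0 ≤ Y0₂)
    (hdisj₁ : ∀ w : Place kk Fk₁, Yinf₁ w = 0 ∨ Y0₁ w = 0)
    (hdisj₂ : ∀ w : Place kk Fk₂, Yinf₂ w = 0 ∨ Y0₂ w = 0)
    (d₁ d₂ : ℕ) (hd₁ : 0 < d₁) (hd₂ : 0 < d₂)
    (hdY₁ : Divisor.degree Yinf₁ = d₁) (hdY0₁ : Divisor.degree Y0₁ = d₁)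
    (hdY₂ : Divisor.degree Yinf₂ = d₂) (hdY0₂ : Divisor.degree Y0₂ = d₂)
    (hPY : ∀ i, Yinf₁ (P i) = 0 ∧ Y0₁ (P i) = 0) (hQY : ∀ i, Yinf₂ (Q i) = 0 ∧ Y0₂ (Q i) = 0)
    (E1 E2 : Divisor K F) (hE1 : 0 ≤ E1) (hE2 : 0 ≤ E2) (hdE1 : 0 < Divisor.degree E1)
    (x : F) (hx0 : x ≠ 0) (hxord : ∀ w : Place K F, w.ord x = E2 w - E1 w)
    (hxv : ∀ i, v i x = 1)
    (x₁ : Fk₁) (x₂ : Fk₂) (hredx : red x = jj (x₁, x₂))
    (hx₁ : ∀ w : Place kk Fk₁, w.ord x₁ = Y0₁ w - Yinf₁ w)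
    (hx₂ : ∀ w : Place kk Fk₂, w.ord x₂ = Y0₂ w - Yinf₂ w)
    (hcont : ∀ a b : ℕ, ∀ f ∈ riemannRochSpace (a • E1 + b • E2), (∀ i, v i f ≤ 1) →
      ∃ y₁ ∈ riemannRochSpace (a • Yinf₁ + b • Y0₁),
        ∃ y₂ ∈ riemannRochSpace (a • Yinf₂ + b • Y0₂), red f = jj (y₁, y₂) ∧
          ∀ i, valueAt (Q i) (hdeg₂ (Q i)) y₂ = valueAt (P i) (hdeg₁ (P i)) y₁)
    (hK1 : ∀ a : ℕ, ∀ y₁ ∈ riemannRochSpace (a • Yinf₁), ∀ y₂ ∈ riemannRochSpace (a • Yinf₂),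
      (∀ i, valueAt (Q i) (hdeg₂ (Q i)) y₂ = valueAt (P i) (hdeg₁ (P i)) y₁) →
      ∃ a' : ℕ, ∃ f ∈ riemannRochSpace (a' • E1), (∀ i, v i f ≤ 1) ∧ red f = jj (y₁, y₂))
    (hK2 : ∀ b : ℕ, ∀ y₁ ∈ riemannRochSpace (b • Y0₁), ∀ y₂ ∈ riemannRochSpace (b • Y0₂),
      (∀ i, valueAt (Q i) (hdeg₂ (Q i)) y₂ = valueAt (P i) (hdeg₁ (P i)) y₁) →
      ∃ b' : ℕ, ∃ f ∈ riemannRochSpace (b' • E2), (∀ i, v i f ≤ 1) ∧ red f = jj (y₁, y₂)) :
    CntEven p v red jj hdeg₁ hdeg₂ P Q Yinf₁ Y0₁ Yinf₂ Y0₂ E1 E2 := by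
  classical
  have hp : 0 < p := (Fact.out : p.Prime).pos
  have hp' : (0 : ℤ) < p := by exact_mod_cast hp
  obtain ⟨-, -, hdegE1, hcard, -⟩ := Fermat.Agent.S35.helper603.twisted_lattice_of_components
    hdegK hRBK P₀ v vL hred hconst hcart jj hjj hrange hdeg₁ hdeg₂ hRB₁ hRB₂ P₁ P₂ P Q hP hQ
    Yinf₁ Y0₁ Yinf₂ Y0₂ hYinf₁ hY0₁ hYinf₂ hY0₂ hdisj₁ hdisj₂ d₁ d₂ hd₁ hd₂ hdY₁ hdY0₁ hdY₂ hdY0₂
    hPY hQY E1 E2 hE1 hE2 hdE1 x hx0 hxord hxv x₁ x₂ hredx hx₁ hx₂ hcont hK1 hK2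
  have hdegE2 : Divisor.degree E2 = ((d₁ + d₂ : ℕ) : ℤ) := by
    obtain ⟨Dx, hDx, hDx0⟩ := HasPrincipalDivisors.exists_divisor (K := K) x hx0
    have hDxE : Dx = E2 - E1 := by
      ext w
      rw [hDx w, hxord w, Finsupp.sub_apply]
    rw [hDxE, map_sub] at hDx0
    linarith
  obtain ⟨N₁, hN₁⟩ := count_str_general hRBK v vL hred hcart jj hjj hrange hdeg₁ hdeg₂ hRB₁ hRB₂
    P₁ P₂ P Q hP hQ hcard.le
  obtain ⟨N₂, hN₂⟩ := redBall_eq_gluedSubG p hRBK v vL hred hcart jj hjj hrange hdeg₁ hdeg₂ hRB₁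
    hRB₂ P₁ P₂ P Q hP hQ hcard.le
  intro u hu0 huv u₁ u₂ hredu D0 hD0 S hS Z₁ Z₂ hZ₁ hZ₂ hSZ
  obtain ⟨hu₁, hu₂, huiv, hredui⟩ := red_inv_of_unit v vL hred jj hjj hrange u hu0 huv u₁ u₂ hredu
  obtain ⟨Du, hDu, hDu0⟩ := HasPrincipalDivisors.exists_divisor (K := K) u hu0
  obtain ⟨Du₁, hDu₁, hDu₁0⟩ := HasPrincipalDivisors.exists_divisor (K := kk) u₁ hu₁
  obtain ⟨Du₂, hDu₂, hDu₂0⟩ := HasPrincipalDivisors.exists_divisor (K := kk) u₂ hu₂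
  have hD0eq : D0 = floorDiv p Du := by
    ext w
    rw [hD0 w, floorDiv_apply, hDu w]
  subst hD0eq
  -- the charts
  have hcontE : ∀ a b : ℕ, ∀ f ∈ riemannRochSpace (p • (a • E1 + b • E2)), (∀ i, v i f ≤ 1) →
      ∃ y₁ ∈ riemannRochSpace (p • (a • Yinf₁ + b • Y0₁)),
        ∃ y₂ ∈ riemannRochSpace (p • (a • Yinf₂ + b • Y0₂)), red f = jj (y₁, y₂) ∧
          ∀ i, valueAt (Q i) (hdeg₂ (Q i)) y₂ = valueAt (P i) (hdeg₁ (P i)) y₁ := by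
    intro a b f hf hfb
    rw [nsmul_chart] at hf
    obtain ⟨y₁, hy₁, y₂, hy₂, h⟩ := hcont (p * a) (p * b) f hf hfb
    exact ⟨y₁, by rw [nsmul_chart]; exact hy₁, y₂, by rw [nsmul_chart]; exact hy₂, h⟩
  have hInto : ∀ a b : ℕ, ∀ y ∈ redBall hred jj (riemannRochSpace (floorDiv p Du + a • E1 + b • E2)),
      GluedG hdeg₁ hdeg₂ P Q (p • (a • Yinf₁ + b • Y0₁)) (p • (a • Yinf₂ + b • Y0₂)) u₁ u₂ p y := by
    intro a b y hy
    refine gluedG_of_mem_redBall v vL hred jj hjj hdeg₁ hdeg₂ P Q _ (p • (a • E1 + b • E2)) _ _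
      (hcontE a b) hp u hu0 (fun w => ?_) (fun i => (huv i).le) u₁ u₂ hredu y hy
    have h1 := Int.mul_ediv_self_le (x := Du w) hp'.ne'
    simp only [Finsupp.add_apply, Finsupp.smul_apply, floorDiv_apply, nsmul_eq_mul]
    rw [← hDu w]
    linarith
  have hInto' : ∀ a b : ℕ,
      ∀ y ∈ redBall hred jj (riemannRochSpace (floorDiv p (-Du) + a • E1 + b • E2)),
      GluedG hdeg₁ hdeg₂ P Q (p • (a • Yinf₁ + b • Y0₁)) (p • (a • Yinf₂ + b • Y0₂))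
        u₁⁻¹ u₂⁻¹ p y := by
    intro a b y hy
    refine gluedG_of_mem_redBall v vL hred jj hjj hdeg₁ hdeg₂ P Q _ (p • (a • E1 + b • E2)) _ _
      (hcontE a b) hp u⁻¹ (inv_ne_zero hu0) (fun w => ?_) (fun i => (huiv i).le) u₁⁻¹ u₂⁻¹ hredui
      y hy
    have h1 := Int.mul_ediv_self_le (x := -Du w) hp'.ne'
    simp only [Finsupp.add_apply, Finsupp.smul_apply, floorDiv_apply, nsmul_eq_mul,
      Finsupp.neg_apply]
    rw [w.ord_inv, ← hDu w]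
    linarith
  -- degrees
  have hdegY₁ : ∀ a b : ℕ, Divisor.degree (a • Yinf₁ + b • Y0₁) = ((a + b : ℕ) : ℤ) * d₁ := by
    intro a b
    rw [map_add, map_nsmul, map_nsmul, hdY₁, hdY0₁, nsmul_eq_mul, nsmul_eq_mul]
    push_cast
    ring
  have hdegY₂ : ∀ a b : ℕ, Divisor.degree (a • Yinf₂ + b • Y0₂) = ((a + b : ℕ) : ℤ) * d₂ := by
    intro a b
    rw [map_add, map_nsmul, map_nsmul, hdY₂, hdY0₂, nsmul_eq_mul, nsmul_eq_mul]
    push_cast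
    ring
  have hdegE : ∀ a b : ℕ, Divisor.degree (a • E1 + b • E2) =
      ((a + b : ℕ) : ℤ) * ((d₁ : ℤ) + d₂) := by
    intro a b
    rw [map_add, map_nsmul, map_nsmul, hdegE1, hdegE2, nsmul_eq_mul, nsmul_eq_mul]
    push_cast
    ring
  have hd₁' : (1 : ℤ) ≤ d₁ := by exact_mod_cast hd₁
  have hd₂' : (1 : ℤ) ≤ d₂ := by exact_mod_cast hd₂
  -- the threshold
  set c : ℤ := max N₁ N₂ + Fintype.card I -
    min (min (Divisor.degree (floorDiv p Du₁)) (Divisor.degree (floorDiv p Du₂)))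
      (min (Divisor.degree (floorDiv p (-Du₁))) (Divisor.degree (floorDiv p (-Du₂)))) with hc
  have hth : ∀ a b : ℕ, c.toNat ≤ a + b →
      (max N₁ N₂ + Fintype.card I ≤ ((a + b : ℕ) : ℤ) * d₁ + Divisor.degree (floorDiv p Du₁)) ∧
      (max N₁ N₂ + Fintype.card I ≤ ((a + b : ℕ) : ℤ) * d₂ + Divisor.degree (floorDiv p Du₂)) ∧
      (max N₁ N₂ + Fintype.card I ≤
        ((a + b : ℕ) : ℤ) * d₁ + Divisor.degree (floorDiv p (-Du₁))) ∧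
      (max N₁ N₂ + Fintype.card I ≤
        ((a + b : ℕ) : ℤ) * d₂ + Divisor.degree (floorDiv p (-Du₂))) := by
    intro a b hab
    have h0 : c ≤ ((a + b : ℕ) : ℤ) := (Int.self_le_toNat c).trans (by exact_mod_cast hab)
    have hab0 : (0 : ℤ) ≤ ((a + b : ℕ) : ℤ) := Int.natCast_nonneg _
    have e1 : ((a + b : ℕ) : ℤ) ≤ ((a + b : ℕ) : ℤ) * d₁ := le_mul_of_one_le_right hab0 hd₁'
    have e2 : ((a + b : ℕ) : ℤ) ≤ ((a + b : ℕ) : ℤ) * d₂ := le_mul_of_one_le_right hab0 hd₂'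
    have m1 := min_le_left (min (Divisor.degree (floorDiv p Du₁)) (Divisor.degree (floorDiv p Du₂)))
      (min (Divisor.degree (floorDiv p (-Du₁))) (Divisor.degree (floorDiv p (-Du₂))))
    have m2 := min_le_right (min (Divisor.degree (floorDiv p Du₁)) (Divisor.degree (floorDiv p Du₂)))
      (min (Divisor.degree (floorDiv p (-Du₁))) (Divisor.degree (floorDiv p (-Du₂))))
    have m3 := min_le_left (Divisor.degree (floorDiv p Du₁)) (Divisor.degree (floorDiv p Du₂))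
    have m4 := min_le_right (Divisor.degree (floorDiv p Du₁)) (Divisor.degree (floorDiv p Du₂))
    have m5 := min_le_left (Divisor.degree (floorDiv p (-Du₁))) (Divisor.degree (floorDiv p (-Du₂)))
    have m6 := min_le_right (Divisor.degree (floorDiv p (-Du₁)))
      (Divisor.degree (floorDiv p (-Du₂)))
    refine ⟨?_, ?_, ?_, ?_⟩ <;> linarith
  -- zero at the nodes, divisibility
  have hG₁P : ∀ a b : ℕ, ∀ i, (p • (a • Yinf₁ + b • Y0₁)) (P i) = 0 := by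
    intro a b i
    simp [(hPY i).1, (hPY i).2]
  have hG₂Q : ∀ a b : ℕ, ∀ i, (p • (a • Yinf₂ + b • Y0₂)) (Q i) = 0 := by
    intro a b i
    simp [(hQY i).1, (hQY i).2]
  have hGG₁ : ∀ a b : ℕ, ∀ w : Place kk Fk₁, (p : ℤ) ∣
      (p • (a • Yinf₁ + b • Y0₁)) w + (p • (a • Yinf₁ + b • Y0₁)) w := by
    intro a b w
    rw [Finsupp.smul_apply, nsmul_eq_mul]
    exact ⟨2 * (a • Yinf₁ + b • Y0₁) w, by ring⟩
  have hGG₂ : ∀ a b : ℕ, ∀ w : Place kk Fk₂, (p : ℤ) ∣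
      (p • (a • Yinf₂ + b • Y0₂)) w + (p • (a • Yinf₂ + b • Y0₂)) w := by
    intro a b w
    rw [Finsupp.smul_apply, nsmul_eq_mul]
    exact ⟨2 * (a • Yinf₂ + b • Y0₂) w, by ring⟩
  have hZ₁' : ∀ a b : ℕ, ∀ w ∈ Z₁, (∀ i, P i ≠ w) ∧
      ¬ (p : ℤ) ∣ (p • (a • Yinf₁ + b • Y0₁)) w + w.ord u₁ := fun a b w hw =>
    ⟨(hZ₁ w hw).1, fun h => (hZ₁ w hw).2 ((nsmul_dvd_add_iff _ w _).mp h)⟩
  have hZ₂' : ∀ a b : ℕ, ∀ w ∈ Z₂, (∀ i, Q i ≠ w) ∧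
      ¬ (p : ℤ) ∣ (p • (a • Yinf₂ + b • Y0₂)) w + w.ord u₂ := fun a b w hw =>
    ⟨(hZ₂ w hw).1, fun h => (hZ₂ w hw).2 ((nsmul_dvd_add_iff _ w _).mp h)⟩
  -- the slack
  have hsupp : ((remDiv p Du).support.card : ℤ) ≤ (Z₁.card : ℤ) + (Z₂.card : ℤ) := by
    have h1 : (remDiv p Du).support ⊆ S := fun w hw =>
      hS w (by rw [← hDu w]; exact mem_support_remDiv.mp hw)
    have h2 := (Finset.card_le_card h1).trans hSZ
    exact_mod_cast h2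
  have hfl := degree_floorDiv_add p Du
  have hfl' := degree_floorDiv_add p (-Du)
  rw [hDu0] at hfl
  rw [map_neg, hDu0, neg_zero] at hfl'
  have hrem := degree_remDiv_add_neg hdegK hp Du
  have hslack : ∀ a b : ℕ,
      Divisor.degree (p • (a • Yinf₁ + b • Y0₁)) + Divisor.degree (p • (a • Yinf₂ + b • Y0₂)) +
        Divisor.degree (p • (a • Yinf₁ + b • Y0₁)) + Divisor.degree (p • (a • Yinf₂ + b • Y0₂)) ≤
      (p : ℤ) * (Divisor.degree (floorDiv p Du + a • E1 + b • E2) +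
          Divisor.degree (floorDiv p (-Du) + a • E1 + b • E2)) +
        (p : ℤ) * ((Z₁.card : ℤ) + (Z₂.card : ℤ)) := by
    intro a b
    have e1 : Divisor.degree (floorDiv p Du + a • E1 + b • E2) =
        Divisor.degree (floorDiv p Du) + ((a + b : ℕ) : ℤ) * ((d₁ : ℤ) + d₂) := by
      rw [add_assoc, map_add, hdegE]
    have e2 : Divisor.degree (floorDiv p (-Du) + a • E1 + b • E2) =
        Divisor.degree (floorDiv p (-Du)) + ((a + b : ℕ) : ℤ) * ((d₁ : ℤ) + d₂) := by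
      rw [add_assoc, map_add, hdegE]
    rw [map_nsmul, map_nsmul, hdegY₁, hdegY₂, e1, e2, nsmul_eq_mul, nsmul_eq_mul]
    have h3 := mul_le_mul_of_nonneg_left hsupp hp'.le
    linarith
  -- the structure at one chart, the tightness at every chart
  have hstr : ∀ a b : ℕ, c.toNat ≤ a + b →
      (∀ w : Place kk Fk₁, ¬ (p : ℤ) ∣ (p • (a • Yinf₁ + b • Y0₁)) w + w.ord u₁ →
        w ∈ Z₁ ∨ ∃ i, P i = w ∧ ¬ (p : ℤ) ∣ (Q i).ord u₂) ∧
      (∀ w : Place kk Fk₂, ¬ (p : ℤ) ∣ (p • (a • Yinf₂ + b • Y0₂)) w + w.ord u₂ →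
        w ∈ Z₂ ∨ ∃ i, Q i = w ∧ ¬ (p : ℤ) ∣ (P i).ord u₁) ∧
      Divisor.degree (floorDiv p (p • (a • Yinf₁ + b • Y0₁) + Du₁)) +
        Divisor.degree (floorDiv p (p • (a • Yinf₂ + b • Y0₂) + Du₂)) +
        ((nodesC p P Q Du₁ Du₂).card : ℤ) ≤
          Divisor.degree (floorDiv p Du + a • E1 + b • E2) ∧
      Divisor.degree (floorDiv p (p • (a • Yinf₁ + b • Y0₁) - Du₁)) +
        Divisor.degree (floorDiv p (p • (a • Yinf₂ + b • Y0₂) - Du₂)) +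
        ((nodesC p P Q Du₁ Du₂).card : ℤ) ≤
          Divisor.degree (floorDiv p (-Du) + a • E1 + b • E2) := by
    intro a b hab
    obtain ⟨t1, t2, t3, t4⟩ := hth a b hab
    have hmax := le_max_left N₁ N₂
    refine hN₁ p hp _ _ _ _ _ _ (hG₁P a b) (hG₂Q a b) (hG₁P a b) (hG₂Q a b) (hGG₁ a b) (hGG₂ a b)
      u₁ u₂ hu₁ hu₂ Du₁ Du₂ hDu₁ hDu₂ hDu₁0 hDu₂0 (hInto a b) (hInto' a b) ?_ ?_ ?_ ?_ Z₁ Z₂
      (hZ₁' a b) (hZ₂' a b) (hslack a b)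
    · rw [floorDiv_nsmul_add hp, map_add, hdegY₁]
      linarith
    · rw [floorDiv_nsmul_add hp, map_add, hdegY₂]
      linarith
    · rw [floorDiv_nsmul_sub hp, map_add, hdegY₁]
      linarith
    · rw [floorDiv_nsmul_sub hp, map_add, hdegY₂]
      linarith
  obtain ⟨hs₁, hs₂, -, -⟩ := hstr c.toNat 0 (by omega)
  refine ⟨hu₁, hu₂, fun w hw hwZ => ?_, fun w hw hwZ => ?_, fun i => ⟨fun h => ?_, fun h => ?_⟩,
    fun a b f hf hfb => ?_, c.toNat, fun a b hab ψ h1 h2 h3 => ?_⟩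
  · by_contra hnd
    rcases hs₁ w (fun h => hnd ((nsmul_dvd_add_iff _ w _).mp h)) with h | ⟨i, hi, -⟩
    · exact hwZ h
    · exact hw i hi
  · by_contra hnd
    rcases hs₂ w (fun h => hnd ((nsmul_dvd_add_iff _ w _).mp h)) with h | ⟨i, hi, -⟩
    · exact hwZ h
    · exact hw i hi
  · by_contra hnd
    rcases hs₂ (Q i) (fun h' => hnd ((nsmul_dvd_add_iff _ (Q i) _).mp h')) with h' | ⟨j, hj, hj'⟩
    · exact (hZ₂ _ h').1 i rfl
    · rw [hQ hj] at hj'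
      exact hj' h
  · by_contra hnd
    rcases hs₁ (P i) (fun h' => hnd ((nsmul_dvd_add_iff _ (P i) _).mp h')) with h' | ⟨j, hj, hj'⟩
    · exact (hZ₁ _ h').1 i rfl
    · rw [hP hj] at hj'
      exact hj' h
  · obtain ⟨ψ, hψ⟩ := hrange f hfb
    obtain ⟨g1, g2, g3⟩ := hInto a b ψ ⟨f, hf, hfb, hψ⟩
    exact ⟨ψ, hψ, g1, g2, g3⟩
  · obtain ⟨-, -, ht, -⟩ := hstr a b hab
    obtain ⟨t1, t2, -, -⟩ := hth a b hab
    have hmax := le_max_right N₁ N₂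
    have heq := hN₂ (floorDiv p Du + a • E1 + b • E2) (p • (a • Yinf₁ + b • Y0₁))
      (p • (a • Yinf₂ + b • Y0₂)) (hG₁P a b) (hG₂Q a b) u₁ u₂ hu₁ hu₂ Du₁ Du₂ hDu₁ hDu₂
      (hInto a b)
      (by rw [floorDiv_nsmul_add hp, map_add, hdegY₁]; linarith)
      (by rw [floorDiv_nsmul_add hp, map_add, hdegY₂]; linarith) ht
    have hψ : ψ ∈ gluedSubG p hdeg₁ hdeg₂ P Q (p • (a • Yinf₁ + b • Y0₁))
        (p • (a • Yinf₂ + b • Y0₂)) (hG₁P a b) (hG₂Q a b) u₁ u₂ := ⟨h1, h2, h3⟩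
    rw [← heq] at hψ
    obtain ⟨f, hf, hfb, hfψ⟩ := hψ
    exact ⟨f, hf, hfb, hfψ⟩

end Main

end Fermat.Agent.S44.helper6147
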