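/-
S44 — block (CNT), even case, CUSP-FREE TWISTED FORM (design delta findings #4107).

`J`, `J'` two divisors of the generic fibre (pole divisors of `j` and `W j`), with reductions
`A₁, A₁'` and `A₂, A₂'` on the two components (zero at the node points), and the MIXED
CONTAINMENT `hMC` (`helper1427.mixed_containment_exists`): the reduction of the unit ball of
`L(n J + n' J')` lies in the glued pairs of `L(n A₁ + n' A₁') × L(n A₂ + n' A₂')`.

For `H` a unit for the valuations with `div H = p D + m (J - J')` (`H = h · b ^ p · eps ^ m`, `h`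
a `p`-Kummer function, `div eps = J - J'`) and `red H = jj (H₁, H₂)`:

* `p ∣ ord_w H_c - m (A_c - A_c') w` at every place `w` of the components which is not a node
  point (so `p ∣ ord_w H_c` off the nodes and the cusps, and `ord_w H_c ≡ m ord_w eps_c` at the
  cusps: a CONCLUSION — no cusp matching, no cusp reduction map);
* at a node `p ∣ ord_{P i} H₁ ↔ p ∣ ord_{Q i} H₂`;
* for `a + a'` large, the reduction of the unit ball of `L(D + a J + a' J')` is EXACTLY the set of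
  pairs `ψ` with `(ψ₁ ^ p H₁, ψ₂ ^ p H₂)` glued in
  `L((p a - m) A₁ + (p a' + m) A₁') × L((p a - m) A₂ + (p a' + m) A₂')`.
-/
import Mathlib
import Fermat.Agent.S44.helper6147_CntEven

set_option autoImplicit false

namespace Fermat.Agent.S44.helper6147

open AlgebraicCurve WithZero Module
open Fermat.Agent.S35.helper2459 (RedDataW CartesianW)
open Fermat.Agent.S35.helper603 (valueAt valueAt_unique valueAt_eq_zero_iff valueAt_add
  valueAt_smul redBall finrank_le_finrank_redBall red_pow_of_ball)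
open Fermat.Agent.S18.helper981 (HasRiemannBound riemannGenus)

section AuxT

variable {k F : Type*} [Field k] [Field F] [Algebra k F]

theorem degree_remDiv_le (hdeg : ∀ w : Place k F, w.deg = 1) {n : ℕ} (hn : 0 < n)
    (X : Divisor k F) :
    Divisor.degree (remDiv n X) ≤ (n : ℤ) * (X.support.card : ℤ) := by
  classical
  have hn' : (0 : ℤ) < n := by exact_mod_cast hn
  rw [Fermat.Agent.S18.helper981.degree_eq_sum hdeg, Finsupp.sum]
  have h1 : ∑ w ∈ (remDiv n X).support, (remDiv n X) w ≤ ∑ _w ∈ (remDiv n X).support, (n : ℤ) :=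
    Finset.sum_le_sum fun w _ => by
      rw [remDiv_apply]
      exact (Int.emod_lt_of_pos _ hn').le
  have h2 : (remDiv n X).support ⊆ X.support := Finsupp.support_mapRange
  have h3 : ((remDiv n X).support.card : ℤ) ≤ (X.support.card : ℤ) := by
    exact_mod_cast Finset.card_le_card h2
  rw [Finset.sum_const, nsmul_eq_mul] at h1
  have h4 := mul_le_mul_of_nonneg_left h3 hn'.le
  linarith

theorem degree_le_floorDiv (hdeg : ∀ w : Place k F, w.deg = 1) {n : ℕ} (hn : 0 < n)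
    (X : Divisor k F) :
    Divisor.degree X ≤
      (n : ℤ) * Divisor.degree (floorDiv n X) + (n : ℤ) * (X.support.card : ℤ) := by
  have h1 := degree_floorDiv_add n X
  have h2 := degree_remDiv_le hdeg hn X
  linarith

theorem card_support_chart_add_le (n n' : ℕ) (A A' D : Divisor k F) :
    (n • A + n' • A' + D).support.card ≤ A.support.card + A'.support.card + D.support.card := by
  classical
  have h1 : (n • A + n' • A' + D).support ⊆ A.support ∪ A'.support ∪ D.support :=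
    Finsupp.support_add.trans (Finset.union_subset_union
      (Finsupp.support_add.trans
        (Finset.union_subset_union Finsupp.support_smul Finsupp.support_smul)) le_rfl)
  exact (Finset.card_le_card h1).trans ((Finset.card_union_le _ _).trans
    (Nat.add_le_add_right (Finset.card_union_le _ _) _))

theorem card_support_chart_sub_le (n n' : ℕ) (A A' D : Divisor k F) :
    (n • A + n' • A' - D).support.card ≤ A.support.card + A'.support.card + D.support.card := by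
  rw [sub_eq_add_neg]
  have h := card_support_chart_add_le n n' A A' (-D)
  rwa [Finsupp.support_neg] at h

end AuxT

section Twist

variable {kk : Type*} [Field kk] {Fk₁ Fk₂ : Type*} [Field Fk₁] [Field Fk₂]
  [Algebra kk Fk₁] [Algebra kk Fk₂] {I : Type*} [Fintype I]

/-- **Block (CNT), even case, cusp-free twisted form.** -/
theorem cntTwist_of_mixed (p : ℕ) [Fact p.Prime] [CharP kk p]
    {K F : Type*} [Field K] [Field F] [Algebra K F]
    (hRBK : HasRiemannBound K F)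
    {Γ₀ : Type*} [LinearOrderedCommGroupWithZero Γ₀] {ι : Type*} [Finite ι] [Nonempty ι]
    (v : ι → Valuation F Γ₀) (vL : Valuation K Γ₀)
    {Fk : Type*} [CommRing Fk] [Algebra kk Fk] {red : F → Fk}
    (hred : RedDataW v (fun _ => (1 : Γ₀)) vL kk red red)
    (hcart : ∀ D : Divisor K F, CartesianW v (fun _ => (1 : Γ₀)) vL (riemannRochSpace D))
    (jj : Fk₁ × Fk₂ →ₐ[kk] Fk) (hjj : Function.Injective jj)
    (hrange : ∀ f : F, (∀ i, v i f ≤ 1) → ∃ y : Fk₁ × Fk₂, red f = jj y)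
    [HasPrincipalDivisors kk Fk₁] [HasPrincipalDivisors kk Fk₂]
    (hdeg₁ : ∀ w : Place kk Fk₁, w.deg = 1) (hdeg₂ : ∀ w : Place kk Fk₂, w.deg = 1)
    (hRB₁ : HasRiemannBound kk Fk₁) (hRB₂ : HasRiemannBound kk Fk₂)
    (P₁ : Place kk Fk₁) (P₂ : Place kk Fk₂)
    (P : I → Place kk Fk₁) (Q : I → Place kk Fk₂)
    (hP : Function.Injective P) (hQ : Function.Injective Q)
    (hcard : riemannGenus K F + 1 ≤
      riemannGenus kk Fk₁ + riemannGenus kk Fk₂ + Fintype.card I)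
    (J J' : Divisor K F) (A₁ A₁' : Divisor kk Fk₁) (A₂ A₂' : Divisor kk Fk₂)
    (hA₁P : ∀ i, A₁ (P i) = 0) (hA₁'P : ∀ i, A₁' (P i) = 0)
    (hA₂Q : ∀ i, A₂ (Q i) = 0) (hA₂'Q : ∀ i, A₂' (Q i) = 0)
    (hA₁ : 0 < Divisor.degree A₁) (hA₁' : 0 < Divisor.degree A₁')
    (hA₂ : 0 < Divisor.degree A₂) (hA₂' : 0 < Divisor.degree A₂')
    (hdJ : Divisor.degree A₁ + Divisor.degree A₂ ≤ Divisor.degree J)
    (hdJ' : Divisor.degree A₁' + Divisor.degree A₂' ≤ Divisor.degree J')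
    (hMC : ∀ n n' : ℕ, ∀ f ∈ riemannRochSpace (n • J + n' • J'), (∀ i, v i f ≤ 1) →
      ∃ y₁ ∈ riemannRochSpace (n • A₁ + n' • A₁'),
        ∃ y₂ ∈ riemannRochSpace (n • A₂ + n' • A₂'), red f = jj (y₁, y₂) ∧
          ∀ i, valueAt (Q i) (hdeg₂ (Q i)) y₂ = valueAt (P i) (hdeg₁ (P i)) y₁)
    (H : F) (hH0 : H ≠ 0) (hHv : ∀ i, v i H = 1)
    (H₁ : Fk₁) (H₂ : Fk₂) (hredH : red H = jj (H₁, H₂))
    (D : Divisor K F) (m : ℤ)
    (hHord : ∀ w : Place K F, w.ord H = (p : ℤ) * D w + m * (J w - J' w)) :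
    H₁ ≠ 0 ∧ H₂ ≠ 0 ∧
    (∀ w : Place kk Fk₁, (∀ i, P i ≠ w) → (p : ℤ) ∣ w.ord H₁ - m * (A₁ w - A₁' w)) ∧
    (∀ w : Place kk Fk₂, (∀ i, Q i ≠ w) → (p : ℤ) ∣ w.ord H₂ - m * (A₂ w - A₂' w)) ∧
    (∀ i, (p : ℤ) ∣ (P i).ord H₁ ↔ (p : ℤ) ∣ (Q i).ord H₂) ∧
    (∀ a a' n n' : ℕ, (n : ℤ) = (p : ℤ) * a - m → (n' : ℤ) = (p : ℤ) * a' + m →
      ∀ f ∈ riemannRochSpace (D + a • J + a' • J'), (∀ i, v i f ≤ 1) →
      ∃ ψ : Fk₁ × Fk₂, red f = jj ψ ∧
        ψ.1 ^ p * H₁ ∈ riemannRochSpace (n • A₁ + n' • A₁') ∧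
        ψ.2 ^ p * H₂ ∈ riemannRochSpace (n • A₂ + n' • A₂') ∧
        ∀ i, valueAt (Q i) (hdeg₂ (Q i)) (ψ.2 ^ p * H₂) =
          valueAt (P i) (hdeg₁ (P i)) (ψ.1 ^ p * H₁)) ∧
    ∃ n₀ : ℕ, ∀ a a' n n' : ℕ, n₀ ≤ a + a' →
      (n : ℤ) = (p : ℤ) * a - m → (n' : ℤ) = (p : ℤ) * a' + m → ∀ ψ : Fk₁ × Fk₂,
      ψ.1 ^ p * H₁ ∈ riemannRochSpace (n • A₁ + n' • A₁') →
      ψ.2 ^ p * H₂ ∈ riemannRochSpace (n • A₂ + n' • A₂') →
      (∀ i, valueAt (Q i) (hdeg₂ (Q i)) (ψ.2 ^ p * H₂) =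
        valueAt (P i) (hdeg₁ (P i)) (ψ.1 ^ p * H₁)) →
      ∃ f ∈ riemannRochSpace (D + a • J + a' • J'), (∀ i, v i f ≤ 1) ∧ red f = jj ψ := by
  classical
  have hp : 0 < p := (Fact.out : p.Prime).pos
  have hp' : (0 : ℤ) < p := by exact_mod_cast hp
  obtain ⟨N₁, hN₁⟩ := count_str_general hRBK v vL hred hcart jj hjj hrange hdeg₁ hdeg₂ hRB₁ hRB₂
    P₁ P₂ P Q hP hQ hcard
  obtain ⟨N₂, hN₂⟩ := redBall_eq_gluedSubG p hRBK v vL hred hcart jj hjj hrange hdeg₁ hdeg₂ hRB₁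
    hRB₂ P₁ P₂ P Q hP hQ hcard
  obtain ⟨hH₁, hH₂, hHiv, hredHi⟩ := red_inv_of_unit v vL hred jj hjj hrange H hH0 hHv H₁ H₂ hredH
  obtain ⟨Du₁, hDu₁, hDu₁0⟩ := HasPrincipalDivisors.exists_divisor (K := kk) H₁ hH₁
  obtain ⟨Du₂, hDu₂, hDu₂0⟩ := HasPrincipalDivisors.exists_divisor (K := kk) H₂ hH₂
  -- INTO for `H` and for `H⁻¹`
  have hIntoH : ∀ a a' n n' : ℕ, (n : ℤ) = (p : ℤ) * a - m → (n' : ℤ) = (p : ℤ) * a' + m →
      ∀ y ∈ redBall hred jj (riemannRochSpace (D + a • J + a' • J')),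
        GluedG hdeg₁ hdeg₂ P Q (n • A₁ + n' • A₁') (n • A₂ + n' • A₂') H₁ H₂ p y := by
    intro a a' n n' hn hn' y hy
    refine gluedG_of_mem_redBall v vL hred jj hjj hdeg₁ hdeg₂ P Q _ (n • J + n' • J') _ _
      (hMC n n') hp H hH0 (fun w => ?_) (fun i => (hHv i).le) H₁ H₂ hredH y hy
    simp only [Finsupp.add_apply, Finsupp.smul_apply, nsmul_eq_mul]
    rw [hHord w, hn, hn']
    exact le_of_eq (by ring)
  have hIntoH' : ∀ b b' k k' : ℕ, (k : ℤ) = (p : ℤ) * b + m → (k' : ℤ) = (p : ℤ) * b' - m →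
      ∀ y ∈ redBall hred jj (riemannRochSpace (-D + b • J + b' • J')),
        GluedG hdeg₁ hdeg₂ P Q (k • A₁ + k' • A₁') (k • A₂ + k' • A₂') H₁⁻¹ H₂⁻¹ p y := by
    intro b b' k k' hk hk' y hy
    refine gluedG_of_mem_redBall v vL hred jj hjj hdeg₁ hdeg₂ P Q _ (k • J + k' • J') _ _
      (hMC k k') hp H⁻¹ (inv_ne_zero hH0) (fun w => ?_) (fun i => (hHiv i).le) H₁⁻¹ H₂⁻¹ hredHi
      y hy
    simp only [Finsupp.add_apply, Finsupp.smul_apply, nsmul_eq_mul, Finsupp.neg_apply]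
    rw [w.ord_inv, hHord w, hk, hk']
    exact le_of_eq (by ring)
  -- zero at the nodes
  have hG₁P : ∀ n n' : ℕ, ∀ i, (n • A₁ + n' • A₁') (P i) = 0 := by
    intro n n' i
    simp [hA₁P i, hA₁'P i]
  have hG₂Q : ∀ n n' : ℕ, ∀ i, (n • A₂ + n' • A₂') (Q i) = 0 := by
    intro n n' i
    simp [hA₂Q i, hA₂'Q i]
  -- thresholds
  set c₁ : ℕ := A₁.support.card + A₁'.support.card + Du₁.support.card with hc₁
  set c₂ : ℕ := A₂.support.card + A₂'.support.card + Du₂.support.card with hc₂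
  have hA₁1 : (1 : ℤ) ≤ Divisor.degree A₁ := hA₁
  have hA₁'1 : (1 : ℤ) ≤ Divisor.degree A₁' := hA₁'
  have hA₂1 : (1 : ℤ) ≤ Divisor.degree A₂ := hA₂
  have hA₂'1 : (1 : ℤ) ≤ Divisor.degree A₂' := hA₂'
  have hfloor₁ : ∀ (n n' : ℕ) (s : ℤ), (n : ℤ) + n' = p * s →
      s - c₁ ≤ Divisor.degree (floorDiv p (n • A₁ + n' • A₁' + Du₁)) := by
    intro n n' s hs
    have h1 := degree_le_floorDiv hdeg₁ hp (n • A₁ + n' • A₁' + Du₁)
    have h2 : ((n • A₁ + n' • A₁' + Du₁).support.card : ℤ) ≤ (c₁ : ℤ) := by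
      exact_mod_cast card_support_chart_add_le n n' A₁ A₁' Du₁
    have h3 : Divisor.degree (n • A₁ + n' • A₁' + Du₁) =
        n * Divisor.degree A₁ + n' * Divisor.degree A₁' := by
      rw [map_add, map_add, map_nsmul, map_nsmul, hDu₁0, add_zero, nsmul_eq_mul, nsmul_eq_mul]
    have h4 : (n : ℤ) ≤ n * Divisor.degree A₁ :=
      le_mul_of_one_le_right (Int.natCast_nonneg n) hA₁1
    have h5 : (n' : ℤ) ≤ n' * Divisor.degree A₁' :=
      le_mul_of_one_le_right (Int.natCast_nonneg n') hA₁'1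
    have h6 := mul_le_mul_of_nonneg_left h2 hp'.le
    have h7 : (p : ℤ) * s ≤
        p * (Divisor.degree (floorDiv p (n • A₁ + n' • A₁' + Du₁)) + c₁) := by
      linarith
    have h8 := le_of_mul_le_mul_left h7 hp'
    linarith
  have hfloor₁' : ∀ (n n' : ℕ) (s : ℤ), (n : ℤ) + n' = p * s →
      s - c₁ ≤ Divisor.degree (floorDiv p (n • A₁ + n' • A₁' - Du₁)) := by
    intro n n' s hs
    have h1 := degree_le_floorDiv hdeg₁ hp (n • A₁ + n' • A₁' - Du₁)
    have h2 : ((n • A₁ + n' • A₁' - Du₁).support.card : ℤ) ≤ (c₁ : ℤ) := by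
      exact_mod_cast card_support_chart_sub_le n n' A₁ A₁' Du₁
    have h3 : Divisor.degree (n • A₁ + n' • A₁' - Du₁) =
        n * Divisor.degree A₁ + n' * Divisor.degree A₁' := by
      rw [map_sub, map_add, map_nsmul, map_nsmul, hDu₁0, sub_zero, nsmul_eq_mul, nsmul_eq_mul]
    have h4 : (n : ℤ) ≤ n * Divisor.degree A₁ :=
      le_mul_of_one_le_right (Int.natCast_nonneg n) hA₁1
    have h5 : (n' : ℤ) ≤ n' * Divisor.degree A₁' :=
      le_mul_of_one_le_right (Int.natCast_nonneg n') hA₁'1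
    have h6 := mul_le_mul_of_nonneg_left h2 hp'.le
    have h7 : (p : ℤ) * s ≤
        p * (Divisor.degree (floorDiv p (n • A₁ + n' • A₁' - Du₁)) + c₁) := by
      linarith
    have h8 := le_of_mul_le_mul_left h7 hp'
    linarith
  have hfloor₂ : ∀ (n n' : ℕ) (s : ℤ), (n : ℤ) + n' = p * s →
      s - c₂ ≤ Divisor.degree (floorDiv p (n • A₂ + n' • A₂' + Du₂)) := by
    intro n n' s hs
    have h1 := degree_le_floorDiv hdeg₂ hp (n • A₂ + n' • A₂' + Du₂)
    have h2 : ((n • A₂ + n' • A₂' + Du₂).support.card : ℤ) ≤ (c₂ : ℤ) := by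
      exact_mod_cast card_support_chart_add_le n n' A₂ A₂' Du₂
    have h3 : Divisor.degree (n • A₂ + n' • A₂' + Du₂) =
        n * Divisor.degree A₂ + n' * Divisor.degree A₂' := by
      rw [map_add, map_add, map_nsmul, map_nsmul, hDu₂0, add_zero, nsmul_eq_mul, nsmul_eq_mul]
    have h4 : (n : ℤ) ≤ n * Divisor.degree A₂ :=
      le_mul_of_one_le_right (Int.natCast_nonneg n) hA₂1
    have h5 : (n' : ℤ) ≤ n' * Divisor.degree A₂' :=
      le_mul_of_one_le_right (Int.natCast_nonneg n') hA₂'1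
    have h6 := mul_le_mul_of_nonneg_left h2 hp'.le
    have h7 : (p : ℤ) * s ≤
        p * (Divisor.degree (floorDiv p (n • A₂ + n' • A₂' + Du₂)) + c₂) := by
      linarith
    have h8 := le_of_mul_le_mul_left h7 hp'
    linarith
  have hfloor₂' : ∀ (n n' : ℕ) (s : ℤ), (n : ℤ) + n' = p * s →
      s - c₂ ≤ Divisor.degree (floorDiv p (n • A₂ + n' • A₂' - Du₂)) := by
    intro n n' s hs
    have h1 := degree_le_floorDiv hdeg₂ hp (n • A₂ + n' • A₂' - Du₂)
    have h2 : ((n • A₂ + n' • A₂' - Du₂).support.card : ℤ) ≤ (c₂ : ℤ) := by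
      exact_mod_cast card_support_chart_sub_le n n' A₂ A₂' Du₂
    have h3 : Divisor.degree (n • A₂ + n' • A₂' - Du₂) =
        n * Divisor.degree A₂ + n' * Divisor.degree A₂' := by
      rw [map_sub, map_add, map_nsmul, map_nsmul, hDu₂0, sub_zero, nsmul_eq_mul, nsmul_eq_mul]
    have h4 : (n : ℤ) ≤ n * Divisor.degree A₂ :=
      le_mul_of_one_le_right (Int.natCast_nonneg n) hA₂1
    have h5 : (n' : ℤ) ≤ n' * Divisor.degree A₂' :=
      le_mul_of_one_le_right (Int.natCast_nonneg n') hA₂'1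
    have h6 := mul_le_mul_of_nonneg_left h2 hp'.le
    have h7 : (p : ℤ) * s ≤
        p * (Divisor.degree (floorDiv p (n • A₂ + n' • A₂' - Du₂)) + c₂) := by
      linarith
    have h8 := le_of_mul_le_mul_left h7 hp'
    linarith
  -- the threshold and the auxiliary lattice for `H⁻¹`
  set n₀ : ℕ := (max N₁ N₂ + Fintype.card I + c₁ + c₂).toNat with hn₀
  have hn₀le : max N₁ N₂ + Fintype.card I + c₁ + c₂ ≤ (n₀ : ℤ) := Int.self_le_toNat _
  set t : ℕ := max m.natAbs n₀ with ht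
  have htm : (m.natAbs : ℤ) ≤ (t : ℤ) := by exact_mod_cast le_max_left m.natAbs n₀
  have htn : (n₀ : ℤ) ≤ (t : ℤ) := by exact_mod_cast le_max_right m.natAbs n₀
  have hpt : (t : ℤ) ≤ (p : ℤ) * t := by
    have : t ≤ p * t := Nat.le_mul_of_pos_left t hp
    exact_mod_cast this
  have hm1 : m ≤ (m.natAbs : ℤ) := Int.le_natAbs
  have hm2 : -m ≤ (m.natAbs : ℤ) := by
    have := Int.le_natAbs (a := -m)
    rwa [Int.natAbs_neg] at this
  obtain ⟨k, hk⟩ := Int.eq_ofNat_of_zero_le (by linarith : (0 : ℤ) ≤ (p : ℤ) * t + m)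
  obtain ⟨k', hk'⟩ := Int.eq_ofNat_of_zero_le (by linarith : (0 : ℤ) ≤ (p : ℤ) * t - m)
  have hk := hk.symm
  have hk' := hk'.symm
  have hN₁max := le_max_left N₁ N₂
  have hN₂max := le_max_right N₁ N₂
  have hc₁0 : (0 : ℤ) ≤ (c₁ : ℤ) := Int.natCast_nonneg _
  have hc₂0 : (0 : ℤ) ≤ (c₂ : ℤ) := Int.natCast_nonneg _
  -- the structure theorem at `(a, a')` for `H`, `(t, t)` for `H⁻¹`
  have hstrAt : ∀ a a' n n' : ℕ, (n : ℤ) = (p : ℤ) * a - m → (n' : ℤ) = (p : ℤ) * a' + m →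
      n₀ ≤ a + a' →
      (∀ w : Place kk Fk₁, ¬ (p : ℤ) ∣ (n • A₁ + n' • A₁') w + w.ord H₁ →
        w ∈ (∅ : Finset (Place kk Fk₁)) ∨ ∃ i, P i = w ∧ ¬ (p : ℤ) ∣ (Q i).ord H₂) ∧
      (∀ w : Place kk Fk₂, ¬ (p : ℤ) ∣ (n • A₂ + n' • A₂') w + w.ord H₂ →
        w ∈ (∅ : Finset (Place kk Fk₂)) ∨ ∃ i, Q i = w ∧ ¬ (p : ℤ) ∣ (P i).ord H₁) ∧
      Divisor.degree (floorDiv p (n • A₁ + n' • A₁' + Du₁)) +
        Divisor.degree (floorDiv p (n • A₂ + n' • A₂' + Du₂)) +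
        ((nodesC p P Q Du₁ Du₂).card : ℤ) ≤ Divisor.degree (D + a • J + a' • J') ∧
      Divisor.degree (floorDiv p (k • A₁ + k' • A₁' - Du₁)) +
        Divisor.degree (floorDiv p (k • A₂ + k' • A₂' - Du₂)) +
        ((nodesC p P Q Du₁ Du₂).card : ℤ) ≤ Divisor.degree (-D + t • J + t • J') := by
    intro a a' n n' hn hn' hab
    have hab' : (n₀ : ℤ) ≤ (a : ℤ) + a' := by exact_mod_cast hab
    have s1 : (n : ℤ) + k = p * ((a : ℤ) + t) := by rw [hn, hk]; ring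
    have s2 : (n' : ℤ) + k' = p * ((a' : ℤ) + t) := by rw [hn', hk']; ring
    have f1 := hfloor₁ n n' ((a : ℤ) + a') (by rw [hn, hn']; ring)
    have f2 := hfloor₂ n n' ((a : ℤ) + a') (by rw [hn, hn']; ring)
    have f3 := hfloor₁' k k' ((t : ℤ) + t) (by rw [hk, hk']; ring)
    have f4 := hfloor₂' k k' ((t : ℤ) + t) (by rw [hk, hk']; ring)
    refine hN₁ p hp (D + a • J + a' • J') (-D + t • J + t • J') (n • A₁ + n' • A₁')
      (k • A₁ + k' • A₁') (n • A₂ + n' • A₂') (k • A₂ + k' • A₂') (hG₁P n n') (hG₂Q n n')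
      (hG₁P k k') (hG₂Q k k') (fun w => ?_) (fun w => ?_) H₁ H₂ hH₁ hH₂ Du₁ Du₂ hDu₁ hDu₂ hDu₁0
      hDu₂0 (hIntoH a a' n n' hn hn') (hIntoH' t t k k' hk hk') (by linarith) (by linarith)
      (by linarith) (by linarith) ∅ ∅ (by simp) (by simp) ?_
    · refine ⟨((a : ℤ) + t) * A₁ w + ((a' : ℤ) + t) * A₁' w, ?_⟩
      simp only [Finsupp.add_apply, Finsupp.smul_apply, nsmul_eq_mul]
      linear_combination (A₁ w) * s1 + (A₁' w) * s2
    · refine ⟨((a : ℤ) + t) * A₂ w + ((a' : ℤ) + t) * A₂' w, ?_⟩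
      simp only [Finsupp.add_apply, Finsupp.smul_apply, nsmul_eq_mul]
      linear_combination (A₂ w) * s1 + (A₂' w) * s2
    · have q1 := mul_le_mul_of_nonneg_left hdJ
        (mul_nonneg hp'.le (add_nonneg (Int.natCast_nonneg a) (Int.natCast_nonneg t)))
      have q2 := mul_le_mul_of_nonneg_left hdJ'
        (mul_nonneg hp'.le (add_nonneg (Int.natCast_nonneg a') (Int.natCast_nonneg t)))
      simp only [map_add, map_nsmul, map_neg, nsmul_eq_mul, Finset.card_empty, Nat.cast_zero,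
        add_zero, mul_zero]
      have e : (n : ℤ) * Divisor.degree A₁ + n' * Divisor.degree A₁' +
          (n * Divisor.degree A₂ + n' * Divisor.degree A₂') +
          (k * Divisor.degree A₁ + k' * Divisor.degree A₁') +
          (k * Divisor.degree A₂ + k' * Divisor.degree A₂') =
          ((n : ℤ) + k) * (Divisor.degree A₁ + Divisor.degree A₂) +
          ((n' : ℤ) + k') * (Divisor.degree A₁' + Divisor.degree A₂') := by ring
      rw [e, s1, s2]
      linarith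
  obtain ⟨hs₁, hs₂, -, -⟩ := hstrAt t t k' k (by rw [hk']) (by rw [hk]) (by omega)
  refine ⟨hH₁, hH₂, fun w hw => ?_, fun w hw => ?_, fun i => ⟨fun h => ?_, fun h => ?_⟩,
    fun a a' n n' hn hn' f hf hfb => ?_, n₀, fun a a' n n' hab hn hn' ψ h1 h2 h3 => ?_⟩
  · by_contra hnd
    have e : w.ord H₁ - m * (A₁ w - A₁' w) =
        ((k' • A₁ + k • A₁') w + w.ord H₁) - p * ((t : ℤ) * (A₁ w + A₁' w)) := by
      simp only [Finsupp.add_apply, Finsupp.smul_apply, nsmul_eq_mul]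
      rw [hk, hk']
      ring
    rcases hs₁ w (fun h => hnd (by rw [e]; exact dvd_sub h (dvd_mul_right _ _))) with
      h | ⟨i, hi, -⟩
    · simp at h
    · exact hw i hi
  · by_contra hnd
    have e : w.ord H₂ - m * (A₂ w - A₂' w) =
        ((k' • A₂ + k • A₂') w + w.ord H₂) - p * ((t : ℤ) * (A₂ w + A₂' w)) := by
      simp only [Finsupp.add_apply, Finsupp.smul_apply, nsmul_eq_mul]
      rw [hk, hk']
      ring
    rcases hs₂ w (fun h => hnd (by rw [e]; exact dvd_sub h (dvd_mul_right _ _))) with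
      h | ⟨i, hi, -⟩
    · simp at h
    · exact hw i hi
  · by_contra hnd
    rcases hs₂ (Q i) (by rw [hG₂Q, zero_add]; exact hnd) with h' | ⟨j, hj, hj'⟩
    · simp at h'
    · rw [hQ hj] at hj'
      exact hj' h
  · by_contra hnd
    rcases hs₁ (P i) (by rw [hG₁P, zero_add]; exact hnd) with h' | ⟨j, hj, hj'⟩
    · simp at h'
    · rw [hP hj] at hj'
      exact hj' h
  · obtain ⟨ψ, hψ⟩ := hrange f hfb
    obtain ⟨g1, g2, g3⟩ := hIntoH a a' n n' hn hn' ψ ⟨f, hf, hfb, hψ⟩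
    exact ⟨ψ, hψ, g1, g2, g3⟩
  · obtain ⟨-, -, htight, -⟩ := hstrAt a a' n n' hn hn' hab
    have hab' : (n₀ : ℤ) ≤ (a : ℤ) + a' := by exact_mod_cast hab
    have f1 := hfloor₁ n n' ((a : ℤ) + a') (by rw [hn, hn']; ring)
    have f2 := hfloor₂ n n' ((a : ℤ) + a') (by rw [hn, hn']; ring)
    have heq := hN₂ (D + a • J + a' • J') (n • A₁ + n' • A₁') (n • A₂ + n' • A₂') (hG₁P n n')
      (hG₂Q n n') H₁ H₂ hH₁ hH₂ Du₁ Du₂ hDu₁ hDu₂ (hIntoH a a' n n' hn hn') (by linarith)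
      (by linarith) htight
    have hψ : ψ ∈ gluedSubG p hdeg₁ hdeg₂ P Q (n • A₁ + n' • A₁') (n • A₂ + n' • A₂')
        (hG₁P n n') (hG₂Q n n') H₁ H₂ := ⟨h1, h2, h3⟩
    rw [← heq] at hψ
    obtain ⟨f, hf, hfb, hfψ⟩ := hψ
    exact ⟨f, hf, hfb, hfψ⟩

end Twist

end Fermat.Agent.S44.helper6147
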