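import Fermat.Agent.S13.helper853_FreyTorsion
import Fermat.Agent.S13.helper172_FreyAtTwo
import Fermat.Agent.S13.helper836_NodeVal
import Fermat.Agent.S58.helper6024_Unram
import Fermat.Agent.Lib.helper54_Frobenius
import Fermat.Prelude.Def_FLTPrelim_Ramification

/-!
# The mod `p` representation of the Frey curve is ramified at `2` (helper6254, S44 leaf L1-TWO)

For a Frey package `P` and EVERY valuation subring `A` of `ℚ̄` over `2`, the inertia group of `A`
moves some `p`-torsion point of the Frey curve: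

* `frey_ramified_two` : `∃ σ ∈ A.inertiaSubgroupIn ℚ, ∃ x : E[p], σ • x ≠ x`;
* `frey_not_unramified_two` : `¬ P.GaloisRepUnramifiedAt 2`.

Proof.  The Frey curve is `y² + x y = x³ + a₂ x² + a₄ x` with `b₆ = 0`, `b₈ = -a₄²`, so the
x-only ladder of `Lib/helper853` at `x = 0` (the 2-torsion point `(0, 0)`) is
`(a₄^e, 0)` / `(0, a₄^e)`, and the odd division polynomial `Ψ_p` has constant term `± a₄^E`,
`E ≥ 1`, while its leading coefficient is `-p`, a unit at `2`.  Hence some root `x` of `Ψ_p` in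
`ℚ̄` has `v x < 1`: a nonzero `p`-torsion point `Q = (x, y)` in the node region at `2`.  By the
node valuation law (`S13.helper836.nodeVal_gen`) `v a₄ < v x` and `v x ^ p = v a₄ ^ (2 j)`.
If inertia fixed `Q`, then `x` would lie in the inertia field, whose value group is generated by
`v 2` (`S58.helper6024.exists_zpow_valuation_eq`), so `v x = v 2 ^ d` with `0 < d < h`,
`p d = 2 j h`, where `v a₄ = v 2 ^ h` and `gcd (p, 2 h) = 1`: impossible
(`S13.helper3034.no_depth`).
-/

set_option autoImplicit false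

namespace Fermat.Agent.S44.helper6254

open WeierstrassCurve WeierstrassCurve.Affine Polynomial
open Fermat.Agent.Lib.helper853

local notation "Qb" => AlgebraicClosure ℚ

/-! ### The ladder at the 2-torsion point `x = 0` -/

section LadderZero

variable {R : Type*} [CommRing R]

/-- For a curve with `b₆ = 0`, `b₈ = -t²`, the x-only ladder at `x = 0` is `(t^e, 0)` for even
`n` and `(0, t^e)` for odd `n`, with `e ≥ 1` as soon as `n ≥ 2`. -/
theorem ladder_at_zero (b₂ b₄ t : R) (n : ℕ) :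
    ∃ e : ℕ, (2 ≤ n → 1 ≤ e) ∧
      ((Even n ∧ ladder b₂ b₄ 0 (-t ^ 2) 0 n = (t ^ e, 0)) ∨
        (Odd n ∧ ladder b₂ b₄ 0 (-t ^ 2) 0 n = (0, t ^ e))) := by
  induction n using ladder_induction with
  | h0 => exact ⟨0, by omega, Or.inl ⟨⟨0, rfl⟩, by rw [ladder_zero, pow_zero]⟩⟩
  | h1 => exact ⟨0, by omega, Or.inr ⟨odd_one, by rw [ladder_one, pow_zero]⟩⟩
  | heven k ih =>
    obtain ⟨e, he, ⟨hpar, hl⟩ | ⟨hpar, hl⟩⟩ := ih
    · refine ⟨4 * e, ?_, Or.inl ⟨even_two_mul _, ?_⟩⟩
      · intro _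
        have h2 : 2 ≤ k + 1 := by
          obtain ⟨r, hr⟩ := hpar
          omega
        have := he h2
        omega
      · rw [ladder_even, hl]
        simp only [dblX, dblZ]
        refine Prod.ext ?_ ?_
        · simp
          ring
        · simp
    · refine ⟨4 * e + 2, by omega, Or.inl ⟨even_two_mul _, ?_⟩⟩
      rw [ladder_even, hl]
      simp only [dblX, dblZ]
      refine Prod.ext ?_ ?_
      · simp
        ring
      · simp
  | hodd k ih2 ih1 =>
    obtain ⟨e', he', ⟨hpar', hl'⟩ | ⟨hpar', hl'⟩⟩ := ih2 <;>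
      obtain ⟨e, he, ⟨hpar, hl⟩ | ⟨hpar, hl⟩⟩ := ih1
    · exfalso
      obtain ⟨r, hr⟩ := hpar
      obtain ⟨r', hr'⟩ := hpar'
      omega
    · refine ⟨2 * (e' + e), ?_, Or.inr ⟨odd_two_mul_add_one _, ?_⟩⟩
      · intro _
        have := he' (by omega)
        omega
      · rw [ladder_odd, hl, hl']
        simp only [daddX, daddZ]
        refine Prod.ext ?_ ?_
        · simp
        · simp
          ring
    · refine ⟨2 * (e' + e), ?_, Or.inr ⟨odd_two_mul_add_one _, ?_⟩⟩
      · intro _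
        have := he' (by omega)
        omega
      · rw [ladder_odd, hl, hl']
        simp only [daddX, daddZ]
        refine Prod.ext ?_ ?_
        · simp
        · simp
          ring
    · exfalso
      obtain ⟨r, hr⟩ := hpar
      obtain ⟨r', hr'⟩ := hpar'
      omega

/-- The constant term of the odd division polynomial `Ψ_{2m+1}` (`m ≥ 1`) of a curve with
`b₆ = 0`, `b₈ = -t²` is `± t^E` with `E ≥ 1`. -/
theorem psiP_eval_zero (b₂ b₄ t : R) (m : ℕ) (hm : 1 ≤ m) :
    ∃ E : ℕ, 1 ≤ E ∧ ((psiP b₂ b₄ 0 (-t ^ 2) m).eval 0 = t ^ E ∨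
      (psiP b₂ b₄ 0 (-t ^ 2) m).eval 0 = -t ^ E) := by
  rw [psiP_eval]
  obtain ⟨e₁, he₁, h₁⟩ := ladder_at_zero b₂ b₄ t (m + 1)
  obtain ⟨e₀, -, h₀⟩ := ladder_at_zero b₂ b₄ t m
  have h1 : 1 ≤ e₁ := he₁ (by omega)
  rcases h₁ with ⟨hp1, hl1⟩ | ⟨hp1, hl1⟩ <;> rcases h₀ with ⟨hp0, hl0⟩ | ⟨hp0, hl0⟩
  · exfalso
    obtain ⟨r, hr⟩ := hp1
    obtain ⟨r', hr'⟩ := hp0
    omega
  · refine ⟨e₁ + e₀, by omega, Or.inl ?_⟩
    rw [hl1, hl0]
    simp [pow_add]
  · refine ⟨e₀ + e₁, by omega, Or.inr ?_⟩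
    rw [hl1, hl0]
    simp [pow_add]
  · exfalso
    obtain ⟨r, hr⟩ := hp1
    obtain ⟨r', hr'⟩ := hp0
    omega

end LadderZero

/-! ### A root of small valuation -/

/-- Over an algebraically closed field, a polynomial with unit leading coefficient and non-unit
constant term has a root of valuation `< 1`. -/
theorem exists_root_val_lt_one {K : Type*} [Field K] [IsAlgClosed K] {Γ₀ : Type*}
    [LinearOrderedCommGroupWithZero Γ₀] (v : Valuation K Γ₀) (f : K[X])
    (hlc : v f.leadingCoeff = 1) (h0 : v (f.eval 0) < 1) : ∃ x, f.eval x = 0 ∧ v x < 1 := by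
  by_contra hcon
  push Not at hcon
  have hf0 : f ≠ 0 := by
    rintro rfl
    simp at hlc
  have key : ∀ s : Multiset K, (∀ r ∈ s, 1 ≤ v r) →
      1 ≤ v (s.map (fun r => 0 - r)).prod := by
    intro s
    induction s using Multiset.induction_on with
    | empty =>
      intro _
      simp
    | cons a s ih =>
      intro h
      rw [Multiset.map_cons, Multiset.prod_cons, map_mul, zero_sub, Valuation.map_neg]
      calc (1 : Γ₀) = 1 * 1 := (mul_one 1).symm
        _ ≤ v a * v (s.map (fun r => 0 - r)).prod :=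
          mul_le_mul' (h a (Multiset.mem_cons_self a s))
            (ih fun r hr => h r (Multiset.mem_cons_of_mem hr))
  have h1 := (IsAlgClosed.splits f).eval_eq_prod_roots 0
  have h2 := key f.roots (fun r hr => hcon r ((mem_roots hf0).mp hr))
  rw [h1, map_mul, hlc, one_mul] at h0
  exact absurd h0 (not_lt.mpr h2)

/-! ### The Frey curve at `2` -/

/-- **A `p`-torsion point of the Frey curve in the node region at `2`**: for every valuation
`v` of `ℚ̄` with `v 2 < 1` there is a nonzero `p`-torsion point `(x, y)` with `v x < 1`. -/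
theorem frey_exists_node_point (P : FreyPackage) {Γ₀ : Type*} [LinearOrderedCommGroupWithZero Γ₀]
    (v : Valuation Qb Γ₀) (hv2 : v (2 : Qb) < 1) :
    ∃ (x y : Qb) (h : ((P.freyCurve)⁄Qb).Nonsingular x y), v x < 1 ∧
      P.p • (Point.some x y h : ((P.freyCurve)⁄Qb).Point) = 0 := by
  obtain ⟨m, hm⟩ := P.hp_odd
  have hm1 : 1 ≤ m := by
    have := P.hp5
    omega
  obtain ⟨E, hE, hG0⟩ := psiP_eval_zero (1 + 4 * S13.helper3034.A2 P) (2 * S13.helper3034.A4 P)
    (S13.helper3034.A4 P) m hm1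
  have hmap := S13.helper853.frey_psiP_map P Qb m
  have hA4lt : v ((S13.helper3034.A4 P : ℤ) : Qb) < 1 := by
    have h1 := S13.helper172.val_a₄_lt_one v P hv2
    rwa [S13.helper3034.frey_a₄, map_intCast] at h1
  -- constant term
  have hev0 : v ((psiP ((P.freyCurve)⁄Qb).b₂ ((P.freyCurve)⁄Qb).b₄ ((P.freyCurve)⁄Qb).b₆
      ((P.freyCurve)⁄Qb).b₈ m).eval 0) < 1 := by
    rw [← hmap, eval_zero_map]
    rcases hG0 with h | h
    · rw [h, eq_intCast, Int.cast_pow, map_pow]
      exact pow_lt_one₀ zero_le hA4lt (by omega)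
    · rw [h, eq_intCast, Int.cast_neg, Int.cast_pow, Valuation.map_neg, map_pow]
      exact pow_lt_one₀ zero_le hA4lt (by omega)
  -- leading coefficient
  have hLC := psiP_isLC ((P.freyCurve)⁄Qb).b₂ ((P.freyCurve)⁄Qb).b₄ ((P.freyCurve)⁄Qb).b₆
    ((P.freyCurve)⁄Qb).b₈ m
  have hlcv : v (-(2 * (m : Qb) + 1)) = 1 := by
    have h1 := S13.helper172.val_odd_eq_one v hv2 (n := 2 * (m : ℤ) + 1) ⟨m, rfl⟩
    rw [Valuation.map_neg]
    have e : ((2 * (m : ℤ) + 1 : ℤ) : Qb) = 2 * (m : Qb) + 1 := by push_cast; ring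
    rwa [e] at h1
  have hlc : -(2 * (m : Qb) + 1) ≠ 0 := by
    intro h0
    rw [h0, map_zero] at hlcv
    exact zero_ne_one hlcv
  have hnd := hLC.natDegree_eq hlc
  have hlead : v (psiP ((P.freyCurve)⁄Qb).b₂ ((P.freyCurve)⁄Qb).b₄ ((P.freyCurve)⁄Qb).b₆
      ((P.freyCurve)⁄Qb).b₈ m).leadingCoeff = 1 := by
    rw [leadingCoeff, hnd, hLC.2]
    exact hlcv
  obtain ⟨x, hx, hvx⟩ := exists_root_val_lt_one v _ hlead hev0
  -- the point
  have hdeg2 : (fiberPoly ((P.freyCurve)⁄Qb) x).degree ≠ 0 := by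
    rw [degree_eq_natDegree ((fiberPoly_isLC ((P.freyCurve)⁄Qb) x).ne_zero one_ne_zero),
      (fiberPoly_isLC ((P.freyCurve)⁄Qb) x).natDegree_eq one_ne_zero]
    norm_num
  obtain ⟨y, hy⟩ := IsAlgClosed.exists_root _ hdeg2
  have heq : ((P.freyCurve)⁄Qb).Equation x y := (fiberPoly_eval ((P.freyCurve)⁄Qb) x y).mp hy
  have hns : ((P.freyCurve)⁄Qb).Nonsingular x y :=
    (Affine.equation_iff_nonsingular_of_Δ_ne_zero
      (S13.helper853.frey_baseChange_Δ_ne_zero P Qb)).mp heq
  refine ⟨x, y, hns, hvx, ?_⟩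
  rw [hm]
  exact (nsmul_eq_zero_iff_psiP ((P.freyCurve)⁄Qb) hns m).mpr hx

/-- **The mod `p` representation of the Frey curve is ramified at `2`**, at every valuation
subring of `ℚ̄` over `2`: some inertia element moves some `p`-torsion point. -/
theorem frey_ramified_two (P : FreyPackage) (A : ValuationSubring Qb) (hA : A.LiesOverPrime 2) :
    ∃ σ ∈ A.inertiaSubgroupIn ℚ,
      ∃ x : Submodule.torsionBy ℤ ((P.freyCurve)⁄Qb).Point P.p, σ • x ≠ x := by
  by_contra hcon
  push Not at hcon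
  have hv2 := S13.helper3034.valuation_two_lt_one A hA
  obtain ⟨h, hh, hcop, -, -, -, -, -, -, -, hA40, hvalA4, -⟩ :=
    S13.helper3034.frey_at_two_of_liesOver A hA P
  obtain ⟨x, y, hns, hvx, hT⟩ := frey_exists_node_point P A.valuation hv2
  -- node valuation law
  have hbe : algebraMap ℚ Qb P.freyCurve.a₄ = ((S13.helper3034.A4 P : ℤ) : Qb) := by
    rw [S13.helper3034.frey_a₄, map_intCast]
  obtain ⟨hlt, j, hj⟩ := S13.helper836.nodeVal_gen A.valuation
    (S13.helper172.frey_shape_zero (K := Qb) P) (S13.helper172.val_four_mul_al A.valuation P hv2)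
    (S13.helper172.val_a₄_lt_one A.valuation P hv2) (S13.helper172.map_a₄_ne_zero P) P.hp_odd
    hns (by rwa [sub_zero]) hT
  rw [sub_zero, hbe, hvalA4] at hlt hj
  -- `x` is fixed by inertia
  have hmem : (Point.some x y hns : ((P.freyCurve)⁄Qb).Point) ∈
      Submodule.torsionBy ℤ ((P.freyCurve)⁄Qb).Point P.p := by
    rw [Submodule.mem_torsionBy_iff, natCast_zsmul]
    exact hT
  have hfix : ∀ σ ∈ A.inertiaSubgroupIn ℚ, σ x = x := by
    intro σ hσ
    have h1 := congrArg Subtype.val (hcon σ hσ ⟨_, hmem⟩)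
    have h2 : σ • (Point.some x y hns : ((P.freyCurve)⁄Qb).Point) = Point.some x y hns := h1
    rw [Point.algEquiv_smul_def, Point.map_some] at h2
    have h3 := Point.some.inj h2
    exact h3.1
  have hx0 : x ≠ 0 := by
    rintro rfl
    rw [map_zero] at hlt
    exact not_lt_zero hlt
  obtain ⟨d, hd⟩ := S58.helper6024.exists_zpow_valuation_eq A Nat.prime_two hA x hfix hx0
  rw [Nat.cast_ofNat] at hd
  -- arithmetic
  have hg0 : 0 < A.valuation (2 : Qb) := by
    rw [Valuation.pos_iff]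
    exact two_ne_zero
  rw [hd] at hlt hj hvx
  have hdh : d < (h : ℤ) := by
    rw [← zpow_natCast] at hlt
    exact (zpow_lt_zpow_iff_right_of_lt_one₀ hg0 hv2).mp hlt
  have hd0 : 0 < d := by
    rw [← zpow_zero (A.valuation (2 : Qb))] at hvx
    exact (zpow_lt_zpow_iff_right_of_lt_one₀ hg0 hv2).mp hvx
  have heq : d * (P.p : ℤ) = (h : ℤ) * (2 * j) := by
    rw [← zpow_natCast, ← zpow_natCast, ← zpow_mul, ← zpow_mul] at hj
    exact (zpow_right_inj₀ hg0 hv2.ne).mp hj
  exact S13.helper3034.no_depth hcop (d := d) (j := j) hd0 (by omega) (by linear_combination heq)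

/-- The mod `p` representation of the Frey curve is not unramified at `2`. -/
theorem frey_not_unramified_two (P : FreyPackage) : ¬ P.GaloisRepUnramifiedAt 2 := by
  intro hur
  obtain ⟨A, hA⟩ := Lib.helper54.exists_liesOverPrime Nat.prime_two
  obtain ⟨σ, hσ, x, hx⟩ := frey_ramified_two P A hA
  exact hx (hur A hA σ hσ x)

end Fermat.Agent.S44.helper6254
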