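import Fermat.Agent.S44.helper6254_FreyRamTwo
import Fermat.Agent.S17.helper5530_InertiaKF
import Fermat.Agent.S18.helper789_KF0All

/-!
# `2 ∣ N` is forced by an embedding of the Frey `E[p]` into `J₀(N)` (helper6254, S44 leaf L1-TWO)

* `jzero_inertia_two_fixed` : for `2 ∤ N`, inertia at `2` fixes every point of `JZero N` of odd
  order (landed `S17.helper5530.inertia_torsion_of_kf` fed with `S18.helper789.stmt_KF_all N 2`);
* `not_injective_of_not_two_dvd` : for `2 ∤ N` no `G_ℚ`-equivariant additive map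
  `E[p] → JZero N` is injective (equivariance is only used on the inertia group of one valuation
  subring over `2`);
* `two_dvd_of_embed` : an injective `G_ℚ`-equivariant additive map `E[p] →+ JZero N` forces
  `2 ∣ N` — because `E[p]` is ramified at `2` (`frey_ramified_two`);
* `two_dvd_div_of_embed` : in the situation of S44 (`p ∣ N`), also `2 ∣ N / p`.

So in frozen S44, after (EMBED), the auxiliary prime `r = 2` divides `N₀ = N / p` and the
whole chain runs at level `N` itself.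
-/

set_option autoImplicit false

namespace Fermat.Agent.S44.helper6254

open ModularCurve WeierstrassCurve WeierstrassCurve.Affine

local notation "Qb" => AlgebraicClosure ℚ

/-- For `2 ∤ N`, inertia at `2` fixes every point of `JZero N` of odd order. -/
theorem jzero_inertia_two_fixed {N : ℕ} [NeZero N] (h2N : ¬ 2 ∣ N) (A : ValuationSubring Qb)
    (hA : A.LiesOverPrime 2) {σ : Qb ≃ₐ[ℚ] Qb} (hσ : σ ∈ A.inertiaSubgroupIn ℚ) {m : ℕ}
    (hm : ¬ 2 ∣ m) (x : JZero N) (hx : m • x = 0) : σ • x = x :=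
  S17.helper5530.inertia_torsion_of_kf Nat.prime_two h2N
    (S18.helper789.stmt_KF_all N 2 Nat.prime_two h2N) A hA hσ hm x hx

/-- The prime of a Frey package is odd. -/
theorem frey_not_two_dvd_p (P : FreyPackage) : ¬ 2 ∣ P.p := by
  intro h
  have h1 := (Nat.prime_dvd_prime_iff_eq Nat.prime_two P.pp).mp h
  have h2 := P.hp5
  omega

/-- Local form at one valuation subring `A` over `2`: an additive map from the `p`-torsion of
the Frey curve to `JZero N`, `2 ∤ N`, which is equivariant for the inertia group of `A`, is not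
injective. -/
theorem not_injective_of_not_two_dvd (P : FreyPackage) {N : ℕ} [NeZero N] (h2N : ¬ 2 ∣ N)
    (A : ValuationSubring Qb) (hA : A.LiesOverPrime 2)
    (φ : Submodule.torsionBy ℤ ((P.freyCurve)⁄Qb).Point P.p →+ JZero N)
    (hφ : ∀ σ : Qb ≃ₐ[ℚ] Qb, σ ∈ A.inertiaSubgroupIn ℚ →
      ∀ x : Submodule.torsionBy ℤ ((P.freyCurve)⁄Qb).Point P.p, φ (σ • x) = σ • φ x) :
    ¬ Function.Injective φ := by
  intro hinj
  obtain ⟨σ, hσ, x, hx⟩ := frey_ramified_two P A hA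
  apply hx
  apply hinj
  rw [hφ σ hσ x]
  refine jzero_inertia_two_fixed h2N A hA hσ (frey_not_two_dvd_p P) (φ x) ?_
  have h0 : P.p • x = 0 := by
    have h1 := Submodule.smul_torsionBy (R := ℤ) (M := ((P.freyCurve)⁄Qb).Point) (P.p : ℤ) x
    rwa [natCast_zsmul] at h1
  rw [← map_nsmul, h0, map_zero]

/-- **`2 ∣ N` is forced by (EMBED).**  An injective `G_ℚ`-equivariant additive map from the
`p`-torsion of the Frey curve into `JZero N` exists only if `2 ∣ N`. -/
theorem two_dvd_of_embed (P : FreyPackage) {N : ℕ} [NeZero N]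
    (φ : Submodule.torsionBy ℤ ((P.freyCurve)⁄Qb).Point P.p →+ JZero N)
    (hinj : Function.Injective φ)
    (hφ : ∀ (σ : Qb ≃ₐ[ℚ] Qb) (x : Submodule.torsionBy ℤ ((P.freyCurve)⁄Qb).Point P.p),
      φ (σ • x) = σ • φ x) : 2 ∣ N := by
  by_contra h2N
  obtain ⟨A, hA⟩ := Lib.helper54.exists_liesOverPrime Nat.prime_two
  exact not_injective_of_not_two_dvd P h2N A hA φ (fun σ _ x => hφ σ x) hinj

/-- In the situation of S44 (`P.p ∣ N`): `2` divides `N / P.p`. -/
theorem two_dvd_div_of_embed (P : FreyPackage) {N : ℕ} [NeZero N] (hpN : P.p ∣ N)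
    (φ : Submodule.torsionBy ℤ ((P.freyCurve)⁄Qb).Point P.p →+ JZero N)
    (hinj : Function.Injective φ)
    (hφ : ∀ (σ : Qb ≃ₐ[ℚ] Qb) (x : Submodule.torsionBy ℤ ((P.freyCurve)⁄Qb).Point P.p),
      φ (σ • x) = σ • φ x) : 2 ∣ N / P.p := by
  have h2 := two_dvd_of_embed P φ hinj hφ
  obtain ⟨M, rfl⟩ := hpN
  rw [Nat.mul_div_cancel_left M P.pp.pos]
  exact ((Nat.Coprime.dvd_mul_left
    ((Nat.coprime_primes Nat.prime_two P.pp).mpr (fun h => frey_not_two_dvd_p P (h ▸ dvd_rfl)))).mp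
      h2)

/-- Level written as `M₁ * p` (the shape of the p-old exit): `2 ∣ M₁`. -/
theorem two_dvd_of_embed_mul (P : FreyPackage) {M₁ : ℕ} [NeZero (M₁ * P.p)]
    (φ : Submodule.torsionBy ℤ ((P.freyCurve)⁄Qb).Point P.p →+ JZero (M₁ * P.p))
    (hinj : Function.Injective φ)
    (hφ : ∀ (σ : Qb ≃ₐ[ℚ] Qb) (x : Submodule.torsionBy ℤ ((P.freyCurve)⁄Qb).Point P.p),
      φ (σ • x) = σ • φ x) : 2 ∣ M₁ := by
  have h2 := two_dvd_of_embed P φ hinj hφ
  exact (Nat.Coprime.dvd_mul_right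
    ((Nat.coprime_primes Nat.prime_two P.pp).mpr (fun h => frey_not_two_dvd_p P (h ▸ dvd_rfl)))).mp
      h2

/-- Level written as `p * M₁` (the shape of the S35/S34 geometry at `q * M`): `2 ∣ M₁`. -/
theorem two_dvd_of_embed_mul_left (P : FreyPackage) {M₁ : ℕ} [NeZero (P.p * M₁)]
    (φ : Submodule.torsionBy ℤ ((P.freyCurve)⁄Qb).Point P.p →+ JZero (P.p * M₁))
    (hinj : Function.Injective φ)
    (hφ : ∀ (σ : Qb ≃ₐ[ℚ] Qb) (x : Submodule.torsionBy ℤ ((P.freyCurve)⁄Qb).Point P.p),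
      φ (σ • x) = σ • φ x) : 2 ∣ M₁ := by
  have h2 := two_dvd_of_embed P φ hinj hφ
  exact (Nat.Coprime.dvd_mul_left
    ((Nat.coprime_primes Nat.prime_two P.pp).mpr (fun h => frey_not_two_dvd_p P (h ▸ dvd_rfl)))).mp
      h2

/-- The auxiliary chart prime of the S35/S34 geometry at the level `p * M₁` of an embedded
Frey `E[p]`: `r = 2` satisfies `(r = 2 ∨ r = 3) ∧ r ≠ p ∧ r ∣ M₁`, and `p` is coprime to `M₁`
as soon as the level is squarefree. -/
theorem chart_prime_of_embed (P : FreyPackage) {M₁ : ℕ} [NeZero (P.p * M₁)]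
    (φ : Submodule.torsionBy ℤ ((P.freyCurve)⁄Qb).Point P.p →+ JZero (P.p * M₁))
    (hinj : Function.Injective φ)
    (hφ : ∀ (σ : Qb ≃ₐ[ℚ] Qb) (x : Submodule.torsionBy ℤ ((P.freyCurve)⁄Qb).Point P.p),
      φ (σ • x) = σ • φ x) :
    ((2 : ℕ) = 2 ∨ (2 : ℕ) = 3) ∧ (2 : ℕ) ≠ P.p ∧ 2 ∣ M₁ :=
  ⟨Or.inl rfl, fun h => frey_not_two_dvd_p P (h ▸ dvd_rfl),
    two_dvd_of_embed_mul_left P φ hinj hφ⟩

/-- For a squarefree level `p * M₁`, `p` is coprime to `M₁`. -/
theorem coprime_of_squarefree_mul {p M₁ : ℕ} (hp : p.Prime) (hsq : Squarefree (p * M₁)) :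
    Nat.Coprime p M₁ := by
  rw [Nat.Prime.coprime_iff_not_dvd hp]
  rintro ⟨k, rfl⟩
  have h1 : p * p ∣ p * (p * k) := ⟨k, by ring⟩
  exact hp.not_isUnit (hsq p h1)

end Fermat.Agent.S44.helper6254
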