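import Fermat.Agent.S44.helper3130_Spec
import Fermat.Agent.S44.helper6254_TwoDvd

/-!
# S44 seam (T9) `Stmt_TwoDvd` (helper6254, leaf L1-TWO)

The level `p * M` of a `p`-new Frey module (`helper3130.NewFreyModule`) is EVEN: the module is an
injective `G_ℚ`-equivariant image of the Frey `E[p]` in `JZero (p * M)`, the Frey `E[p]` is ramified
at `2` (`frey_ramified_two`), and `JZero N [p]` is unramified at `2` when `2 ∤ N`
(`two_dvd_of_embed_mul_left`).

* `two_dvd_of_newFreyModule` : `NewFreyModule P M hcop W V → 2 ∣ M`;
* `seam_T9 : helper3130.Stmt_TwoDvd` : the tenth seam of the top Spec.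
-/

set_option autoImplicit false

open ModularCurve

noncomputable section

namespace Fermat.Agent.S44.helper6254

open Fermat.Agent.S44.helper3130

/-- **The level of a `p`-new Frey module is even.** -/
theorem two_dvd_of_newFreyModule (P : FreyPackage) (M : ℕ) [NeZero M] (hcop : Nat.Coprime P.p M)
    (W : WeierstrassCurve ℤ) (V : AddSubgroup (JZero (P.p * M)))
    (hV : NewFreyModule P M hcop W V) : 2 ∣ M := by
  obtain ⟨e, he⟩ := hV.iso
  refine two_dvd_of_embed_mul_left P (V.subtype.comp e.toAddMonoidHom) ?_ ?_
  · intro x y hxy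
    exact e.injective (Subtype.ext hxy)
  · intro σ x
    exact he σ x

/-- **Seam (T9)** of the S44 top Spec. -/
theorem seam_T9 : Stmt_TwoDvd :=
  fun P M _ hcop W V hV => two_dvd_of_newFreyModule P M hcop W V hV

end Fermat.Agent.S44.helper6254
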