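import Fermat.Agent.S49.helper529_Lift
import Fermat.Agent.S49.helper529_Hecke
import Fermat.Prelude.Def_FLTPrelim_ModularRep
import Fermat.Prelude.Def_CuspForm_IntegralStructure

/-!
# S44, exit step: Deligne–Serre lifting in the frozen vocabulary (helper6368)

The last arrow of the level-lowering route: a nonzero mod `p` Hecke eigen-object of level `M`
(with eigenvalues `a_ℓ(W)` at the good primes) lifts to a normalised eigenform of level `M`
congruent to `W` modulo a maximal ideal over `p`.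

* `exists_eigenform_of_ideal` : every proper ideal `I` of the full Hecke algebra of level `M`
  is contained in the kernel of a `mod 𝔪` eigen-character of a normalised eigenform.
* `isResiduallyModularOfLevel_of_ideal`, `modularRepOfLevel_of_ideal` : the same in the
  vocabulary of `WeierstrassCurve.IsResiduallyModularOfLevel` / `FreyPackage.ModularRepOfLevel`.
* `isResiduallyModularOfLevel_of_modEigen`, `modularRepOfLevel_of_modEigen` : coefficient form.
  A nonzero sequence `G : ℕ → k` (`k` any commutative ring with `p = 0`) which is a `k`-linear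
  combination of reductions of integral cusp forms of level `M` and satisfies the Hecke
  relations `G (n ℓ) + ℓ G (n / ℓ) = a_ℓ G n` at the good primes.

The hypothesis `CuspForm.HasIntegralStructure M 2` is statement S23 (on main).
-/

set_option autoImplicit false

open CuspForm CongruenceSubgroup ModularFormClass

namespace Fermat.Agent.S44.helper6368

open Fermat.Agent.S49

noncomputable section

variable {M : ℕ} [NeZero M]

/-! ### The core: proper ideals of the Hecke algebra -/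

/-- **Deligne–Serre lifting, ideal form.** Every proper ideal of the full weight-2 Hecke algebra
of level `M` lies in the preimage of a maximal ideal of `ℤ̄` under the eigen-character of a
normalised eigenform. -/
theorem exists_eigenform_of_ideal (hint : CuspForm.HasIntegralStructure M 2)
    (I : Ideal (CuspForm.heckeAlgebra M 2 (∅ : Set ℕ))) (hI : I ≠ ⊤) :
    ∃ (f : CuspForm (Gamma0 M) 2)
      (χ : CuspForm.heckeAlgebra M 2 (∅ : Set ℕ) →+* integralClosure ℤ ℂ)
      (𝔪 : Ideal (integralClosure ℤ ℂ)),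
      f.IsNormalizedEigenform ∧ 𝔪.IsMaximal ∧ (∀ t ∈ I, χ t ∈ 𝔪) ∧
      (∀ (ℓ : ℕ) (hℓ : ℓ.Prime) (hℓM : ¬ ℓ ∣ M),
        ((χ (CuspForm.heckeAlgebra.T hℓ hℓM (Set.notMem_empty ℓ)) : integralClosure ℤ ℂ) : ℂ)
          = qCoeff ⇑f ℓ) ∧
      (∀ (q : ℕ) (hq : q.Prime) (hqM : q ∣ M),
        ((χ (CuspForm.heckeAlgebra.U hq hqM (Set.notMem_empty q)) : integralClosure ℤ ℂ) : ℂ)
          = qCoeff ⇑f q) := by
  classical
  have hfg := CuspForm.intLattice_fg M 2
  have hspan : Submodule.span ℂ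
      ((CuspForm.intLattice M 2 : Submodule ℤ (CuspForm (Gamma0 M) 2)) :
        Set (CuspForm (Gamma0 M) 2)) = ⊤ := hint
  have hfin : FiniteDimensional ℂ (CuspForm (Gamma0 M) 2) := by
    obtain ⟨S, hS⟩ := hfg
    have h2 := hspan
    rw [← hS, Submodule.span_span_of_tower] at h2
    exact Module.finite_def.2 ⟨S, h2⟩
  obtain ⟨v, χ, 𝔪', hv0, hmax, hχ, hI'⟩ := helper529.exists_eigen_lift
    (V := CuspForm (Gamma0 M) 2) (A := CuspForm.heckeAlgebra M 2 (∅ : Set ℕ))
    (CuspForm.heckeAlgebra M 2 (∅ : Set ℕ)).val.toRingHom Subtype.val_injective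
    (CuspForm.intLattice M 2) hfg hspan
    (fun t x hx => CuspForm.mem_intLattice_of_mem_heckeAlgebra one_le_two t.2 hx)
    I hI
  let c : ℕ → ℂ := fun ℓ =>
    if hℓ : ℓ.Prime then
      if hN : ℓ ∣ M then
        ((χ (CuspForm.heckeAlgebra.U hℓ hN (Set.notMem_empty ℓ)) : integralClosure ℤ ℂ) : ℂ)
      else ((χ (CuspForm.heckeAlgebra.T hℓ hN (Set.notMem_empty ℓ)) : integralClosure ℤ ℂ) : ℂ)
    else 0
  have hT : ∀ (ℓ : ℕ) (hℓ : ℓ.Prime) (hℓN : ¬ ℓ ∣ M),
      CuspForm.heckeTLin 2 hℓ hℓN v = c ℓ • v := by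
    intro ℓ hℓ hℓN
    have := hχ (CuspForm.heckeAlgebra.T hℓ hℓN (Set.notMem_empty ℓ))
    simp only [c, dif_pos hℓ, dif_neg hℓN]
    exact this
  have hU : ∀ (q : ℕ) (_ : q.Prime) (hqN : q ∣ M),
      CuspForm.heckeULin 2 hqN v = c q • v := by
    intro q hq hqN
    have := hχ (CuspForm.heckeAlgebra.U hq hqN (Set.notMem_empty q))
    simp only [c, dif_pos hq, dif_pos hqN]
    exact this
  obtain ⟨f, hf, hfℓ⟩ := helper529.exists_normalized v hv0 c hT hU
  refine ⟨f, χ, 𝔪', hf, hmax, hI', fun ℓ hℓ hℓM => ?_, fun q hq hqM => ?_⟩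
  · rw [hfℓ ℓ hℓ]
    simp only [c, dif_pos hℓ, dif_neg hℓM]
  · rw [hfℓ q hq]
    simp only [c, dif_pos hq, dif_pos hqM]

/-- **Exit lifting, ideal form, `IsResiduallyModularOfLevel` vocabulary.** -/
theorem isResiduallyModularOfLevel_of_ideal (hint : CuspForm.HasIntegralStructure M 2)
    (W : WeierstrassCurve ℤ) (p : ℕ)
    (I : Ideal (CuspForm.heckeAlgebra M 2 (∅ : Set ℕ))) (hI : I ≠ ⊤)
    (hp : ((p : ℕ) : CuspForm.heckeAlgebra M 2 (∅ : Set ℕ)) ∈ I)
    (hT : ∀ (ℓ : ℕ) (hℓ : ℓ.Prime) (hℓM : ¬ ℓ ∣ M), W.IsGoodPrimeFor ℓ → ℓ ≠ p →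
      CuspForm.heckeAlgebra.T hℓ hℓM (Set.notMem_empty ℓ) -
        ((W.apOfModel ℓ : ℤ) : CuspForm.heckeAlgebra M 2 (∅ : Set ℕ)) ∈ I) :
    W.IsResiduallyModularOfLevel p M := by
  obtain ⟨f, χ, 𝔪, hf, hmax, hI', hTf, -⟩ := exists_eigenform_of_ideal hint I hI
  refine ⟨f, 𝔪, hf, hmax, ?_, fun ℓ hℓ hgood hℓM hℓp => ?_⟩
  · have := hI' _ hp
    rwa [map_natCast] at this
  · refine ⟨χ (CuspForm.heckeAlgebra.T hℓ hℓM (Set.notMem_empty ℓ)), hTf ℓ hℓ hℓM, ?_⟩
    have := hI' _ (hT ℓ hℓ hℓM hgood hℓp)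
    rwa [map_sub, map_intCast] at this

/-- **Exit lifting, ideal form, `FreyPackage.ModularRepOfLevel` vocabulary.** -/
theorem modularRepOfLevel_of_ideal (hint : CuspForm.HasIntegralStructure M 2)
    (P : FreyPackage) (W : WeierstrassCurve ℤ) (hW : W.IsIntegralModelOf P.freyCurve)
    (I : Ideal (CuspForm.heckeAlgebra M 2 (∅ : Set ℕ))) (hI : I ≠ ⊤)
    (hp : ((P.p : ℕ) : CuspForm.heckeAlgebra M 2 (∅ : Set ℕ)) ∈ I)
    (hT : ∀ (ℓ : ℕ) (hℓ : ℓ.Prime) (hℓM : ¬ ℓ ∣ M), W.IsGoodPrimeFor ℓ → ℓ ≠ P.p →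
      CuspForm.heckeAlgebra.T hℓ hℓM (Set.notMem_empty ℓ) -
        ((W.apOfModel ℓ : ℤ) : CuspForm.heckeAlgebra M 2 (∅ : Set ℕ)) ∈ I) :
    P.ModularRepOfLevel M := by
  obtain ⟨f, 𝔪, hf, hmax, hp𝔪, hcong⟩ :=
    isResiduallyModularOfLevel_of_ideal hint W P.p I hI hp hT
  exact ⟨f, W, 𝔪, hf, hW, hmax, hp𝔪, hcong⟩

/-! ### Integer coefficients of forms of the integral lattice -/

open Classical in
/-- The integer `q`-coefficient of a form of the integral lattice (junk value `0` if the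
coefficient is not an integer). -/
def intCoeff (f : CuspForm (Gamma0 M) 2) (n : ℕ) : ℤ :=
  if h : ∃ m : ℤ, qCoeff ⇑f n = (m : ℂ) then h.choose else 0

theorem intCoeff_spec {f : CuspForm (Gamma0 M) 2} (hf : f ∈ CuspForm.intLattice M 2) (n : ℕ) :
    ((intCoeff f n : ℤ) : ℂ) = qCoeff ⇑f n := by
  have h : ∃ m : ℤ, qCoeff ⇑f n = (m : ℂ) := (helper529.mem_intLattice_iff' f).1 hf n
  rw [intCoeff, dif_pos h]
  exact h.choose_spec.symm

theorem intCoeff_eq_of {f : CuspForm (Gamma0 M) 2} {n : ℕ} {m : ℤ}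
    (hf : f ∈ CuspForm.intLattice M 2) (h : (m : ℂ) = qCoeff ⇑f n) : intCoeff f n = m := by
  have := intCoeff_spec hf n
  rw [← h] at this
  exact_mod_cast this

theorem intCoeff_add {f g : CuspForm (Gamma0 M) 2} (hf : f ∈ CuspForm.intLattice M 2)
    (hg : g ∈ CuspForm.intLattice M 2) (n : ℕ) :
    intCoeff (f + g) n = intCoeff f n + intCoeff g n := by
  apply intCoeff_eq_of (add_mem hf hg)
  rw [helper529.qCoeff_addC, ← intCoeff_spec hf, ← intCoeff_spec hg]
  push_cast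
  rfl

theorem intCoeff_sub {f g : CuspForm (Gamma0 M) 2} (hf : f ∈ CuspForm.intLattice M 2)
    (hg : g ∈ CuspForm.intLattice M 2) (n : ℕ) :
    intCoeff (f - g) n = intCoeff f n - intCoeff g n := by
  apply intCoeff_eq_of (sub_mem hf hg)
  rw [helper529.qCoeff_subC, ← intCoeff_spec hf, ← intCoeff_spec hg]
  push_cast
  rfl

theorem intCoeff_zsmul {f : CuspForm (Gamma0 M) 2} (hf : f ∈ CuspForm.intLattice M 2)
    (m : ℤ) (n : ℕ) : intCoeff (m • f) n = m * intCoeff f n := by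
  apply intCoeff_eq_of ((CuspForm.intLattice M 2).smul_mem m hf)
  rw [← Int.cast_smul_eq_zsmul ℂ m f, helper529.qCoeff_smulC, ← intCoeff_spec hf]
  push_cast
  rfl

theorem intCoeff_heckeT {f : CuspForm (Gamma0 M) 2} (hf : f ∈ CuspForm.intLattice M 2)
    {ℓ : ℕ} (hℓ : ℓ.Prime) (hℓM : ¬ ℓ ∣ M) (n : ℕ) :
    intCoeff (CuspForm.heckeTLin 2 hℓ hℓM f) n =
      intCoeff f (n * ℓ) + if ℓ ∣ n then (ℓ : ℤ) * intCoeff f (n / ℓ) else 0 := by
  have hmem : CuspForm.heckeTLin 2 hℓ hℓM f ∈ CuspForm.intLattice M 2 :=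
    CuspForm.mem_intLattice_of_mem_heckeAlgebra one_le_two
      (CuspForm.heckeTLin_mem_heckeAlgebra (S := (∅ : Set ℕ)) hℓ hℓM (Set.notMem_empty ℓ)) hf
  apply intCoeff_eq_of hmem
  rw [helper529.qCoeff_heckeTLin, ← intCoeff_spec hf, ← intCoeff_spec hf]
  split_ifs <;> push_cast <;> rfl

theorem intCoeff_heckeU {f : CuspForm (Gamma0 M) 2} (hf : f ∈ CuspForm.intLattice M 2)
    {q : ℕ} (hq : q.Prime) (hqM : q ∣ M) (n : ℕ) :
    intCoeff (CuspForm.heckeULin 2 hqM f) n = intCoeff f (n * q) := by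
  have hmem : CuspForm.heckeULin 2 hqM f ∈ CuspForm.intLattice M 2 :=
    CuspForm.mem_intLattice_of_mem_heckeAlgebra one_le_two
      (CuspForm.heckeULin_mem_heckeAlgebra (S := (∅ : Set ℕ)) hq hqM (Set.notMem_empty q)) hf
  apply intCoeff_eq_of hmem
  rw [helper529.qCoeff_heckeULin hq.ne_zero, ← intCoeff_spec hf]

/-! ### Linear combinations of reductions -/

section Comb

variable {k : Type*} [CommRing k]

/-- The `k`-linear combination `∑ c_i · red (g_i)` of reductions of integral forms, as a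
sequence of coefficients. -/
def comb {ι : Type} (s : Finset ι) (c : ι → k) (g : ι → CuspForm (Gamma0 M) 2) (n : ℕ) : k :=
  ∑ i ∈ s, c i * ((intCoeff (g i) n : ℤ) : k)

/-- Well-definedness of the action of a Hecke operator on combinations of reductions. -/
def WD (k : Type*) [CommRing k] (t : Module.End ℂ (CuspForm (Gamma0 M) 2)) : Prop :=
  ∀ (ι : Type) (s : Finset ι) (c : ι → k) (g : ι → CuspForm (Gamma0 M) 2),
    (∀ i ∈ s, g i ∈ CuspForm.intLattice M 2) → (∀ n, comb s c g n = 0) →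
      ∀ n, comb s c (fun i => t (g i)) n = 0

theorem comb_heckeT {ι : Type} (s : Finset ι) (c : ι → k) (g : ι → CuspForm (Gamma0 M) 2)
    (hg : ∀ i ∈ s, g i ∈ CuspForm.intLattice M 2) {ℓ : ℕ} (hℓ : ℓ.Prime) (hℓM : ¬ ℓ ∣ M)
    (n : ℕ) :
    comb s c (fun i => CuspForm.heckeTLin 2 hℓ hℓM (g i)) n =
      comb s c g (n * ℓ) + if ℓ ∣ n then (ℓ : k) * comb s c g (n / ℓ) else 0 := by
  unfold comb
  by_cases hd : ℓ ∣ n
  · rw [if_pos hd, Finset.mul_sum, ← Finset.sum_add_distrib]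
    refine Finset.sum_congr rfl fun i hi => ?_
    rw [intCoeff_heckeT (hg i hi) hℓ hℓM, if_pos hd]
    push_cast
    ring
  · rw [if_neg hd, add_zero]
    refine Finset.sum_congr rfl fun i hi => ?_
    rw [intCoeff_heckeT (hg i hi) hℓ hℓM, if_neg hd, add_zero]

theorem comb_heckeU {ι : Type} (s : Finset ι) (c : ι → k) (g : ι → CuspForm (Gamma0 M) 2)
    (hg : ∀ i ∈ s, g i ∈ CuspForm.intLattice M 2) {q : ℕ} (hq : q.Prime) (hqM : q ∣ M)
    (n : ℕ) :
    comb s c (fun i => CuspForm.heckeULin 2 hqM (g i)) n = comb s c g (n * q) := by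
  unfold comb
  refine Finset.sum_congr rfl fun i hi => ?_
  rw [intCoeff_heckeU (hg i hi) hq hqM]

theorem comb_add {ι : Type} (s : Finset ι) (c : ι → k) (g g' : ι → CuspForm (Gamma0 M) 2)
    (hg : ∀ i ∈ s, g i ∈ CuspForm.intLattice M 2)
    (hg' : ∀ i ∈ s, g' i ∈ CuspForm.intLattice M 2) (n : ℕ) :
    comb s c (fun i => g i + g' i) n = comb s c g n + comb s c g' n := by
  unfold comb
  rw [← Finset.sum_add_distrib]
  refine Finset.sum_congr rfl fun i hi => ?_
  rw [intCoeff_add (hg i hi) (hg' i hi)]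
  push_cast
  ring

theorem comb_sub {ι : Type} (s : Finset ι) (c : ι → k) (g g' : ι → CuspForm (Gamma0 M) 2)
    (hg : ∀ i ∈ s, g i ∈ CuspForm.intLattice M 2)
    (hg' : ∀ i ∈ s, g' i ∈ CuspForm.intLattice M 2) (n : ℕ) :
    comb s c (fun i => g i - g' i) n = comb s c g n - comb s c g' n := by
  unfold comb
  rw [← Finset.sum_sub_distrib]
  refine Finset.sum_congr rfl fun i hi => ?_
  rw [intCoeff_sub (hg i hi) (hg' i hi)]
  push_cast
  ring

theorem comb_zsmul {ι : Type} (s : Finset ι) (c : ι → k) (g : ι → CuspForm (Gamma0 M) 2)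
    (hg : ∀ i ∈ s, g i ∈ CuspForm.intLattice M 2) (m : ℤ) (n : ℕ) :
    comb s c (fun i => m • g i) n = (m : k) * comb s c g n := by
  unfold comb
  rw [Finset.mul_sum]
  refine Finset.sum_congr rfl fun i hi => ?_
  rw [intCoeff_zsmul (hg i hi)]
  push_cast
  ring

/-- Every element of the Hecke algebra acts in a well-defined way on combinations of
reductions of integral forms. -/
theorem wd_of_mem (k : Type*) [CommRing k] {t : Module.End ℂ (CuspForm (Gamma0 M) 2)}
    (ht : t ∈ CuspForm.heckeAlgebra M 2 (∅ : Set ℕ)) : WD (M := M) k t := by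
  have hstab : ∀ {t' : Module.End ℂ (CuspForm (Gamma0 M) 2)},
      t' ∈ CuspForm.heckeAlgebra M 2 (∅ : Set ℕ) → ∀ {f : CuspForm (Gamma0 M) 2},
        f ∈ CuspForm.intLattice M 2 → t' f ∈ CuspForm.intLattice M 2 :=
    fun ht' _ hf => CuspForm.mem_intLattice_of_mem_heckeAlgebra one_le_two ht' hf
  unfold CuspForm.heckeAlgebra at ht
  induction ht using Algebra.adjoin_induction with
  | mem x hx =>
    intro ι s c g hg h0 n
    rcases hx with ⟨ℓ, hℓ, hℓM, -, rfl⟩ | ⟨q, hqM, hq, -, rfl⟩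
    · rw [comb_heckeT s c g hg hℓ hℓM, h0, h0]
      split_ifs <;> simp
    · rw [comb_heckeU s c g hg hq hqM, h0]
  | algebraMap r =>
    intro ι s c g hg h0 n
    have e : (fun i => (algebraMap ℤ (Module.End ℂ (CuspForm (Gamma0 M) 2)) r) (g i))
        = fun i => r • g i := by
      funext i
      rw [Algebra.algebraMap_eq_smul_one, LinearMap.smul_apply, Module.End.one_apply]
    rw [e, comb_zsmul s c g hg, h0, mul_zero]
  | add x y hx hy ihx ihy =>
    intro ι s c g hg h0 n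
    have hx' : x ∈ CuspForm.heckeAlgebra M 2 (∅ : Set ℕ) := hx
    have hy' : y ∈ CuspForm.heckeAlgebra M 2 (∅ : Set ℕ) := hy
    have e : (fun i => (x + y) (g i)) = fun i => x (g i) + y (g i) := by
      funext i
      rw [LinearMap.add_apply]
    rw [e, comb_add s c _ _ (fun i hi => hstab hx' (hg i hi)) (fun i hi => hstab hy' (hg i hi)),
      ihx ι s c g hg h0 n, ihy ι s c g hg h0 n, add_zero]
  | mul x y hx hy ihx ihy =>
    intro ι s c g hg h0 n
    have hy' : y ∈ CuspForm.heckeAlgebra M 2 (∅ : Set ℕ) := hy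
    have e : (fun i => (x * y) (g i)) = fun i => x ((fun j => y (g j)) i) := by
      funext i
      rw [Module.End.mul_apply]
    rw [e]
    exact ihx ι s c (fun j => y (g j)) (fun i hi => hstab hy' (hg i hi))
      (ihy ι s c g hg h0) n

/-- The ideal of Hecke operators killing a given combination of reductions. -/
def annIdeal {ι : Type} (s : Finset ι) (c : ι → k) (g : ι → CuspForm (Gamma0 M) 2)
    (hg : ∀ i ∈ s, g i ∈ CuspForm.intLattice M 2) :
    Ideal (CuspForm.heckeAlgebra M 2 (∅ : Set ℕ)) where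
  carrier := {t | ∀ n, comb s c
    (fun i => (t : Module.End ℂ (CuspForm (Gamma0 M) 2)) (g i)) n = 0}
  add_mem' := by
    intro a b ha hb n
    have e : (fun i => ((a + b : CuspForm.heckeAlgebra M 2 (∅ : Set ℕ)) :
        Module.End ℂ (CuspForm (Gamma0 M) 2)) (g i))
        = fun i => (a : Module.End ℂ (CuspForm (Gamma0 M) 2)) (g i) +
            (b : Module.End ℂ (CuspForm (Gamma0 M) 2)) (g i) := by
      funext i
      rw [Subalgebra.coe_add, LinearMap.add_apply]
    rw [e, comb_add s c _ _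
      (fun i hi => CuspForm.mem_intLattice_of_mem_heckeAlgebra one_le_two a.2 (hg i hi))
      (fun i hi => CuspForm.mem_intLattice_of_mem_heckeAlgebra one_le_two b.2 (hg i hi)),
      ha n, hb n, add_zero]
  zero_mem' := by
    intro n
    have e : (fun i => ((0 : CuspForm.heckeAlgebra M 2 (∅ : Set ℕ)) :
        Module.End ℂ (CuspForm (Gamma0 M) 2)) (g i)) = fun _ => (0 : CuspForm (Gamma0 M) 2) := by
      funext i
      rw [Subalgebra.coe_zero, LinearMap.zero_apply]
    rw [e]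
    unfold comb
    refine Finset.sum_eq_zero fun i _ => ?_
    have h0 : intCoeff (0 : CuspForm (Gamma0 M) 2) n = 0 := by
      have := intCoeff_zsmul (f := (0 : CuspForm (Gamma0 M) 2))
        (zero_mem (CuspForm.intLattice M 2)) 0 n
      rwa [zero_smul, zero_mul] at this
    rw [h0, Int.cast_zero, mul_zero]
  smul_mem' := by
    intro a b hb n
    have e : (fun i => ((a • b : CuspForm.heckeAlgebra M 2 (∅ : Set ℕ)) :
        Module.End ℂ (CuspForm (Gamma0 M) 2)) (g i))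
        = fun i => (a : Module.End ℂ (CuspForm (Gamma0 M) 2))
            ((fun j => (b : Module.End ℂ (CuspForm (Gamma0 M) 2)) (g j)) i) := by
      funext i
      rw [smul_eq_mul, Subalgebra.coe_mul, Module.End.mul_apply]
    rw [e]
    exact wd_of_mem k a.2 ι s c _
      (fun i hi => CuspForm.mem_intLattice_of_mem_heckeAlgebra one_le_two b.2 (hg i hi)) hb n

theorem mem_annIdeal {ι : Type} (s : Finset ι) (c : ι → k) (g : ι → CuspForm (Gamma0 M) 2)
    (hg : ∀ i ∈ s, g i ∈ CuspForm.intLattice M 2)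
    (t : CuspForm.heckeAlgebra M 2 (∅ : Set ℕ)) :
    t ∈ annIdeal s c g hg ↔ ∀ n, comb s c
      (fun i => (t : Module.End ℂ (CuspForm (Gamma0 M) 2)) (g i)) n = 0 := Iff.rfl

end Comb

/-! ### The coefficient form of the exit -/

section Exit

variable {k : Type*} [CommRing k]

/-- **Exit lifting, coefficient form, `IsResiduallyModularOfLevel` vocabulary.**
`G : ℕ → k` is a nonzero `k`-linear combination of reductions of integral weight-2 cusp forms
of level `M` (`k` a commutative ring in which `p = 0`), and satisfies the Hecke relation with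
eigenvalue `a_ℓ(W)` at every good prime `ℓ ∤ M`, `ℓ ≠ p`.  Then `W` is residually modular of
level `M` at `p`. -/
theorem isResiduallyModularOfLevel_of_modEigen (hint : CuspForm.HasIntegralStructure M 2)
    (W : WeierstrassCurve ℤ) (p : ℕ) (hpk : ((p : ℕ) : k) = 0)
    {ι : Type} (s : Finset ι) (c : ι → k) (g : ι → CuspForm (Gamma0 M) 2) (a : ι → ℕ → ℤ)
    (ha : ∀ i ∈ s, ∀ n, ((a i n : ℤ) : ℂ) = qCoeff ⇑(g i) n)
    (G : ℕ → k) (hG : ∀ n, G n = ∑ i ∈ s, c i * ((a i n : ℤ) : k)) (hG0 : ∃ n, G n ≠ 0)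
    (heig : ∀ ℓ : ℕ, ℓ.Prime → ¬ ℓ ∣ M → W.IsGoodPrimeFor ℓ → ℓ ≠ p → ∀ n : ℕ,
      G (n * ℓ) + (if ℓ ∣ n then (ℓ : k) * G (n / ℓ) else 0)
        = ((W.apOfModel ℓ : ℤ) : k) * G n) :
    W.IsResiduallyModularOfLevel p M := by
  have hg : ∀ i ∈ s, g i ∈ CuspForm.intLattice M 2 := fun i hi =>
    (helper529.mem_intLattice_iff' (g i)).2 fun n => ⟨a i n, (ha i hi n).symm⟩
  have hGc : ∀ n, G n = comb s c g n := by
    intro n
    rw [hG n]
    unfold comb
    refine Finset.sum_congr rfl fun i hi => ?_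
    rw [intCoeff_eq_of (hg i hi) (ha i hi n)]
  have hid : (fun i => ((1 : CuspForm.heckeAlgebra M 2 (∅ : Set ℕ)) :
      Module.End ℂ (CuspForm (Gamma0 M) 2)) (g i)) = g := by
    funext i
    rw [Subalgebra.coe_one, Module.End.one_apply]
  refine isResiduallyModularOfLevel_of_ideal hint W p (annIdeal s c g hg) ?_ ?_ ?_
  · -- the ideal is proper
    intro htop
    obtain ⟨n, hn⟩ := hG0
    have h1 : (1 : CuspForm.heckeAlgebra M 2 (∅ : Set ℕ)) ∈ annIdeal s c g hg := by
      rw [htop]; exact Submodule.mem_top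
    have h2 := (mem_annIdeal s c g hg 1).1 h1 n
    rw [hid] at h2
    exact hn ((hGc n).trans h2)
  · -- `p` lies in the ideal
    rw [mem_annIdeal]
    intro n
    have e : (fun i => (((p : ℕ) : CuspForm.heckeAlgebra M 2 (∅ : Set ℕ)) :
        Module.End ℂ (CuspForm (Gamma0 M) 2)) (g i)) = fun i => ((p : ℕ) : ℤ) • g i := by
      funext i
      have e0 : (((p : ℕ) : CuspForm.heckeAlgebra M 2 (∅ : Set ℕ)) :
          Module.End ℂ (CuspForm (Gamma0 M) 2)) = ((p : ℕ) : Module.End ℂ (CuspForm (Gamma0 M) 2)) :=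
        rfl
      rw [e0, Module.End.natCast_apply, natCast_zsmul]
    rw [e, comb_zsmul s c g hg]
    push_cast
    rw [hpk, zero_mul]
  · -- the Hecke relations
    intro ℓ hℓ hℓM hgood hℓp
    rw [mem_annIdeal]
    intro n
    have e : (fun i => ((CuspForm.heckeAlgebra.T hℓ hℓM (Set.notMem_empty ℓ) -
        ((W.apOfModel ℓ : ℤ) : CuspForm.heckeAlgebra M 2 (∅ : Set ℕ)) :
          CuspForm.heckeAlgebra M 2 (∅ : Set ℕ)) :
        Module.End ℂ (CuspForm (Gamma0 M) 2)) (g i))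
        = fun i => CuspForm.heckeTLin 2 hℓ hℓM (g i) - (W.apOfModel ℓ : ℤ) • g i := by
      funext i
      have e0 : (((W.apOfModel ℓ : ℤ) : CuspForm.heckeAlgebra M 2 (∅ : Set ℕ)) :
          Module.End ℂ (CuspForm (Gamma0 M) 2))
          = ((W.apOfModel ℓ : ℤ) : Module.End ℂ (CuspForm (Gamma0 M) 2)) := rfl
      rw [Subalgebra.coe_sub, e0, LinearMap.sub_apply,
        CuspForm.heckeAlgebra.coe_T, Module.End.intCast_apply]
    rw [e, comb_sub s c _ _
      (fun i hi => CuspForm.mem_intLattice_of_mem_heckeAlgebra one_le_two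
        (CuspForm.heckeTLin_mem_heckeAlgebra (S := (∅ : Set ℕ)) hℓ hℓM (Set.notMem_empty ℓ))
        (hg i hi))
      (fun i hi => (CuspForm.intLattice M 2).smul_mem _ (hg i hi)),
      comb_heckeT s c g hg hℓ hℓM, comb_zsmul s c g hg, ← hGc, ← hGc, ← hGc,
      heig ℓ hℓ hℓM hgood hℓp n, sub_self]

/-- **Exit lifting, coefficient form, `FreyPackage.ModularRepOfLevel` vocabulary.** -/
theorem modularRepOfLevel_of_modEigen (hint : CuspForm.HasIntegralStructure M 2)
    (P : FreyPackage) (W : WeierstrassCurve ℤ) (hW : W.IsIntegralModelOf P.freyCurve)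
    (hpk : ((P.p : ℕ) : k) = 0)
    {ι : Type} (s : Finset ι) (c : ι → k) (g : ι → CuspForm (Gamma0 M) 2) (a : ι → ℕ → ℤ)
    (ha : ∀ i ∈ s, ∀ n, ((a i n : ℤ) : ℂ) = qCoeff ⇑(g i) n)
    (G : ℕ → k) (hG : ∀ n, G n = ∑ i ∈ s, c i * ((a i n : ℤ) : k)) (hG0 : ∃ n, G n ≠ 0)
    (heig : ∀ ℓ : ℕ, ℓ.Prime → ¬ ℓ ∣ M → W.IsGoodPrimeFor ℓ → ℓ ≠ P.p → ∀ n : ℕ,
      G (n * ℓ) + (if ℓ ∣ n then (ℓ : k) * G (n / ℓ) else 0)
        = ((W.apOfModel ℓ : ℤ) : k) * G n) :
    P.ModularRepOfLevel M := by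
  obtain ⟨f, 𝔪, hf, hmax, hp𝔪, hcong⟩ :=
    isResiduallyModularOfLevel_of_modEigen hint W P.p hpk s c g a ha G hG hG0 heig
  exact ⟨f, W, 𝔪, hf, hW, hmax, hp𝔪, hcong⟩

end Exit

end

end Fermat.Agent.S44.helper6368
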