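import Fermat.Agent.S44.helper6368_ExitLiftFinal
import Fermat.Agent.S18.helper36_FunctionFieldK
import Fermat.Agent.Lib.helper9242_LaurentTheta

/-!
# S44, block (HOL) + (G-EXIT): the two seams of the exit, as exact Lean text (helper6368)

Chain of record (captain's ruling #1, R2):

* **(HOL)** `Stmt_HOL p N0` (a `Prop`, special-fibre form): for a valuation subring `A` of `ℚ̄`
  over `p`, `k` its residue field, and a nonzero function `hb` on the special fibre
  `modularFunctionFieldFullC k N0` all of whose orders away from the cusp `∞` are divisible by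
  `p` (`IsHolDlog p N0 A G`, `G = θ(hb)/hb`), the `q`-expansion `G` of `dlog hb` lies in
  `modCusp N0 k` = the `k`-span of the reductions of the `q`-expansions of the integral
  weight-2 cusp forms of level `N0`.
* **(G-EXIT)** (a theorem, proved here from the Deligne–Serre lifting brick
  `helper6368_ExitLift`): a nonzero `G ∈ modCusp N0 k` (`k` any commutative ring with `p = 0`)
  satisfying the Hecke relations `T_ℓ G = a_ℓ(W) G` at the good primes gives
  `P.ModularRepOfLevel N0`.
* `modularRepOfLevel_of_isHolDlog` : the compiled chain (HOL) + (HECKE) + (NZ) ⟹ exit.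
-/

set_option autoImplicit false

open CuspForm CongruenceSubgroup ModularFormClass AlgebraicCurve ModularCurve

namespace Fermat.Agent.S44.helper6368

/-! ### The carrier-free space of mod `p` cusp forms -/

/-- The reductions (as coefficient functions `ℕ → k`) of the `q`-expansions of the weight-2 cusp
forms of level `M` with integer `q`-coefficients. -/
def intRed (M : ℕ) (k : Type*) [CommRing k] : Set (ℕ → k) :=
  {v | ∃ (g : CuspForm (Gamma0 M) 2) (a : ℕ → ℤ),
    (∀ n, ((a n : ℤ) : ℂ) = qCoeff ⇑g n) ∧ v = fun n => ((a n : ℤ) : k)}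

/-- **`S₂(Γ₀(M); k)` by `q`-expansions**: the `k`-span of the reductions of the integral
weight-2 cusp forms of level `M`, inside `ℕ → k`. -/
def modCusp (M : ℕ) (k : Type*) [CommRing k] : Submodule k (ℕ → k) :=
  Submodule.span k (intRed M k)

theorem intRed_subset_modCusp (M : ℕ) (k : Type*) [CommRing k] :
    intRed M k ⊆ (modCusp M k : Set (ℕ → k)) :=
  Submodule.subset_span

theorem mem_modCusp_of_int {M : ℕ} {k : Type*} [CommRing k] (g : CuspForm (Gamma0 M) 2)
    (a : ℕ → ℤ) (ha : ∀ n, ((a n : ℤ) : ℂ) = qCoeff ⇑g n) :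
    (fun n => ((a n : ℤ) : k)) ∈ modCusp M k :=
  Submodule.subset_span ⟨g, a, ha, rfl⟩

/-- Explicit form of membership: a finite `k`-combination of reductions of integral forms. -/
theorem mem_modCusp_iff {M : ℕ} {k : Type*} [CommRing k] {G : ℕ → k} :
    G ∈ modCusp M k ↔ ∃ (r : ℕ) (c : Fin r → k) (g : Fin r → CuspForm (Gamma0 M) 2)
      (a : Fin r → ℕ → ℤ), (∀ i n, ((a i n : ℤ) : ℂ) = qCoeff ⇑(g i) n) ∧
        ∀ n, G n = ∑ i, c i * ((a i n : ℤ) : k) := by
  constructor
  · intro hG
    obtain ⟨r, c, x, hx⟩ := Submodule.mem_span_set'.1 hG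
    choose g a ha hv using fun i => (x i).2
    refine ⟨r, c, g, a, ha, fun n => ?_⟩
    rw [← hx, Finset.sum_apply]
    refine Finset.sum_congr rfl fun i _ => ?_
    rw [Pi.smul_apply, hv i, smul_eq_mul]
  · rintro ⟨r, c, g, a, ha, hG⟩
    have : G = ∑ i, c i • (fun n => ((a i n : ℤ) : k)) := by
      funext n
      rw [hG n, Finset.sum_apply]
      rfl
    rw [this]
    exact Submodule.sum_mem _ fun i _ =>
      Submodule.smul_mem _ _ (mem_modCusp_of_int (g i) (a i) (ha i))

/-- Membership from any finite family (the shape of `modularRepOfLevel_of_modEigen'`). -/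
theorem mem_modCusp_of_sum {M : ℕ} {k : Type*} [CommRing k] {ι : Type*} (s : Finset ι)
    (c : ι → k) (g : ι → CuspForm (Gamma0 M) 2) (a : ι → ℕ → ℤ)
    (ha : ∀ i ∈ s, ∀ n, ((a i n : ℤ) : ℂ) = qCoeff ⇑(g i) n)
    (G : ℕ → k) (hG : ∀ n, G n = ∑ i ∈ s, c i * ((a i n : ℤ) : k)) : G ∈ modCusp M k := by
  have : G = ∑ i ∈ s, c i • (fun n => ((a i n : ℤ) : k)) := by
    funext n
    rw [hG n, Finset.sum_apply]
    rfl
  rw [this]
  exact Submodule.sum_mem _ fun i hi =>
    Submodule.smul_mem _ _ (mem_modCusp_of_int (g i) (a i) (ha i hi))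

/-- Membership of a `k`-span of reductions of a family of integral forms (function carrier). -/
theorem span_le_modCusp {M : ℕ} {k : Type*} [CommRing k] {ι : Type*}
    (g : ι → CuspForm (Gamma0 M) 2) (a : ι → ℕ → ℤ)
    (ha : ∀ i n, ((a i n : ℤ) : ℂ) = qCoeff ⇑(g i) n) :
    Submodule.span k (Set.range fun i : ι => fun n : ℕ => ((a i n : ℤ) : k)) ≤ modCusp M k := by
  refine Submodule.span_le.2 ?_
  rintro _ ⟨i, rfl⟩
  exact mem_modCusp_of_int (g i) (a i) (ha i)

/-- Power-series carrier: the coefficient function of an element of the `k`-span of the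
reductions `PowerSeries.map (Int.castRingHom k) (PowerSeries.mk (a i))`. -/
theorem coeff_mem_modCusp_of_powerSeries {M : ℕ} {k : Type*} [CommRing k] {ι : Type*}
    (g : ι → CuspForm (Gamma0 M) 2) (a : ι → ℕ → ℤ)
    (ha : ∀ i n, ((a i n : ℤ) : ℂ) = qCoeff ⇑(g i) n) (G : PowerSeries k)
    (hG : G ∈ Submodule.span k (Set.range fun i : ι =>
      PowerSeries.map (Int.castRingHom k) (PowerSeries.mk (a i)))) :
    (fun n => PowerSeries.coeff n G) ∈ modCusp M k := by
  induction hG using Submodule.span_induction with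
  | mem x hx =>
    obtain ⟨i, rfl⟩ := hx
    have : (fun n => PowerSeries.coeff n
        (PowerSeries.map (Int.castRingHom k) (PowerSeries.mk (a i)))) =
        fun n => ((a i n : ℤ) : k) := by
      funext n
      rw [PowerSeries.coeff_map, PowerSeries.coeff_mk]
      rfl
    rw [this]
    exact mem_modCusp_of_int (g i) (a i) (ha i)
  | zero =>
    have : (fun n => PowerSeries.coeff n (0 : PowerSeries k)) = 0 := by
      funext n
      simp
    rw [this]
    exact Submodule.zero_mem _
  | add x y _ _ hx hy =>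
    have : (fun n => PowerSeries.coeff n (x + y)) =
        (fun n => PowerSeries.coeff n x) + fun n => PowerSeries.coeff n y := by
      funext n
      simp
    rw [this]
    exact Submodule.add_mem _ hx hy
  | smul c x _ hx =>
    have : (fun n => PowerSeries.coeff n (c • x)) = c • fun n => PowerSeries.coeff n x := by
      funext n
      simp
    rw [this]
    exact Submodule.smul_mem _ _ hx

/-! ### (G-EXIT) -/

variable {M : ℕ} [NeZero M]

/-- **(G-EXIT), `IsResiduallyModularOfLevel` form.** -/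
theorem isResiduallyModularOfLevel_of_mem_modCusp {k : Type*} [CommRing k]
    (W : WeierstrassCurve ℤ) (p : ℕ) (hpk : ((p : ℕ) : k) = 0)
    (G : ℕ → k) (hG : G ∈ modCusp M k) (hG0 : ∃ n, G n ≠ 0)
    (heig : ∀ ℓ : ℕ, ℓ.Prime → ¬ ℓ ∣ M → W.IsGoodPrimeFor ℓ → ℓ ≠ p → ∀ n : ℕ,
      G (n * ℓ) + (if ℓ ∣ n then (ℓ : k) * G (n / ℓ) else 0)
        = ((W.apOfModel ℓ : ℤ) : k) * G n) :
    W.IsResiduallyModularOfLevel p M := by
  obtain ⟨r, c, g, a, ha, hGs⟩ := mem_modCusp_iff.1 hG
  exact isResiduallyModularOfLevel_of_modEigen' W p hpk Finset.univ c g a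
    (fun i _ n => ha i n) G hGs hG0 heig

/-- **(G-EXIT).** A nonzero element `G` of `modCusp M k` (`k` any commutative ring in which
`p = 0`) satisfying the Hecke relations `T_ℓ G = a_ℓ(W) G` at the primes `ℓ ∤ M`, `ℓ ≠ p`, of
good reduction of the integral model `W` of the Frey curve: then `P.ModularRepOfLevel M`. -/
theorem modularRepOfLevel_of_mem_modCusp {k : Type*} [CommRing k]
    (P : FreyPackage) (W : WeierstrassCurve ℤ) (hW : W.IsIntegralModelOf P.freyCurve)
    (hpk : ((P.p : ℕ) : k) = 0)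
    (G : ℕ → k) (hG : G ∈ modCusp M k) (hG0 : ∃ n, G n ≠ 0)
    (heig : ∀ ℓ : ℕ, ℓ.Prime → ¬ ℓ ∣ M → W.IsGoodPrimeFor ℓ → ℓ ≠ P.p → ∀ n : ℕ,
      G (n * ℓ) + (if ℓ ∣ n then (ℓ : k) * G (n / ℓ) else 0)
        = ((W.apOfModel ℓ : ℤ) : k) * G n) :
    P.ModularRepOfLevel M := by
  obtain ⟨f, 𝔪, hf, hmax, hp𝔪, hcong⟩ :=
    isResiduallyModularOfLevel_of_mem_modCusp W P.p hpk G hG hG0 heig
  exact ⟨f, W, 𝔪, hf, hW, hmax, hp𝔪, hcong⟩

/-- **(G-EXIT)**, with the Hecke relation written with `ℓ * n` (the shape of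
`helper4264.coeff_dlogPS_of_tmul_eq`). -/
theorem modularRepOfLevel_of_mem_modCusp' {k : Type*} [CommRing k]
    (P : FreyPackage) (W : WeierstrassCurve ℤ) (hW : W.IsIntegralModelOf P.freyCurve)
    (hpk : ((P.p : ℕ) : k) = 0)
    (G : ℕ → k) (hG : G ∈ modCusp M k) (hG0 : ∃ n, G n ≠ 0)
    (heig : ∀ ℓ : ℕ, ℓ.Prime → ¬ ℓ ∣ M → W.IsGoodPrimeFor ℓ → ℓ ≠ P.p → ∀ n : ℕ,
      G (ℓ * n) + (ℓ : k) * (if ℓ ∣ n then G (n / ℓ) else 0)
        = ((W.apOfModel ℓ : ℤ) : k) * G n) :
    P.ModularRepOfLevel M := by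
  refine modularRepOfLevel_of_mem_modCusp P W hW hpk G hG hG0 ?_
  intro ℓ hℓ hℓM hgood hℓp n
  have h := heig ℓ hℓ hℓM hgood hℓp n
  rw [mul_comm n ℓ]
  by_cases hd : ℓ ∣ n
  · rw [if_pos hd] at h ⊢
    exact h
  · rw [if_neg hd] at h ⊢
    rw [mul_zero] at h
    exact h

/-! ### (HOL) -/

local notation "Qb" => AlgebraicClosure ℚ

/-- **Holomorphic logarithmic differentials on the special fibre, by `q`-expansion.**

`A` a valuation subring of `ℚ̄` (over `p`), `k` its residue field.  `IsHolDlog p N0 A G` says: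
`G = θ(hb)/hb` (`θ = q d/dq`; the `q`-expansion of `dlog hb` w.r.t. `dq/q`) for a nonzero
element `hb` of the function field `modularFunctionFieldFullC k N0` of the special fibre of
level `N0` whose order at every place other than the cusp `∞`
(`= S18.helper36.qPlaceK k N0`, the `q`-adic place) is divisible by `p`.

This is the hand-over of (CNT) + (EIS): `hb` = the reduction at the Gauss valuation of `A` of
the (Gauss-unit normalised) `p`-Kummer function of a class `v`, and `G = omega v`. -/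
def IsHolDlog (p N0 : ℕ) (A : ValuationSubring Qb)
    (G : LaurentSeries (IsLocalRing.ResidueField A)) : Prop :=
  ∃ hb : modularFunctionFieldFullC (IsLocalRing.ResidueField A) N0, hb ≠ 0 ∧
    (∀ y : Place (IsLocalRing.ResidueField A)
        (modularFunctionFieldFullC (IsLocalRing.ResidueField A) N0),
      y ≠ Fermat.Agent.S18.helper36.qPlaceK (IsLocalRing.ResidueField A) N0 →
        (p : ℤ) ∣ y.ord hb) ∧
    G = Fermat.Agent.Lib.helper9242.thetaFun (IsLocalRing.ResidueField A)
          (hb : LaurentSeries (IsLocalRing.ResidueField A)) /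
            (hb : LaurentSeries (IsLocalRing.ResidueField A))

/-- **(HOL)**, special-fibre form — the export of block L7.

For a prime `p ∤ N0`, a valuation subring `A` of `ℚ̄` over `p` with residue field `k`: the
`q`-expansion of a holomorphic logarithmic differential of the special fibre of level `N0`
(`IsHolDlog`) lies in `modCusp N0 k`, the `k`-span of the reductions of the `q`-expansions of
the integral weight-2 cusp forms of level `N0`. -/
def Stmt_HOL (p N0 : ℕ) : Prop :=
  p.Prime → ¬ p ∣ N0 → ∀ A : ValuationSubring Qb, A.LiesOverPrime p →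
    ∀ G : LaurentSeries (IsLocalRing.ResidueField A), IsHolDlog p N0 A G →
      (fun n : ℕ => G.coeff (n : ℤ)) ∈ modCusp N0 (IsLocalRing.ResidueField A)

/-- **The exit chain: (HOL) + (NZ) + (HECKE) ⟹ `P.ModularRepOfLevel N0`.**

`Gl = omega v` for a class `v` of the `p`-new copy of `E[p]`; `hGl` is the output of
(CNT) + (EIS); `hG0` is (NZ) (`omega v ≠ 0`; `omega v` has no polar part); `heig` is (HECKE). -/
theorem modularRepOfLevel_of_isHolDlog (P : FreyPackage) {N0 : ℕ} [NeZero N0]
    (hpN0 : ¬ P.p ∣ N0) (hHOL : Stmt_HOL P.p N0)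
    (W : WeierstrassCurve ℤ) (hW : W.IsIntegralModelOf P.freyCurve)
    (A : ValuationSubring Qb) (hA : A.LiesOverPrime P.p)
    (Gl : LaurentSeries (IsLocalRing.ResidueField A)) (hGl : IsHolDlog P.p N0 A Gl)
    (G : ℕ → IsLocalRing.ResidueField A) (hG : ∀ n : ℕ, G n = Gl.coeff (n : ℤ))
    (hG0 : ∃ n, G n ≠ 0)
    (heig : ∀ ℓ : ℕ, ℓ.Prime → ¬ ℓ ∣ N0 → W.IsGoodPrimeFor ℓ → ℓ ≠ P.p → ∀ n : ℕ,
      G (ℓ * n) + (ℓ : IsLocalRing.ResidueField A) * (if ℓ ∣ n then G (n / ℓ) else 0)
        = ((W.apOfModel ℓ : ℤ) : IsLocalRing.ResidueField A) * G n) :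
    P.ModularRepOfLevel N0 := by
  have := Fermat.Agent.Lib.helper6879.charP_residueField P.pp A hA
  have hpk : ((P.p : ℕ) : IsLocalRing.ResidueField A) = 0 := CharP.cast_eq_zero _ _
  have hmem : G ∈ modCusp N0 (IsLocalRing.ResidueField A) := by
    have h := hHOL P.pp hpN0 A hA Gl hGl
    have e : G = fun n : ℕ => Gl.coeff (n : ℤ) := funext hG
    rw [e]
    exact h
  exact modularRepOfLevel_of_mem_modCusp' P W hW hpk G hmem hG0 heig

/-- The same chain with the function `hb` of the special fibre given explicitly. -/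
theorem modularRepOfLevel_of_stmt_HOL (P : FreyPackage) {N0 : ℕ} [NeZero N0]
    (hpN0 : ¬ P.p ∣ N0) (hHOL : Stmt_HOL P.p N0)
    (W : WeierstrassCurve ℤ) (hW : W.IsIntegralModelOf P.freyCurve)
    (A : ValuationSubring Qb) (hA : A.LiesOverPrime P.p)
    (hb : modularFunctionFieldFullC (IsLocalRing.ResidueField A) N0) (hb0 : hb ≠ 0)
    (hord : ∀ y : Place (IsLocalRing.ResidueField A)
        (modularFunctionFieldFullC (IsLocalRing.ResidueField A) N0),
      y ≠ Fermat.Agent.S18.helper36.qPlaceK (IsLocalRing.ResidueField A) N0 →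
        (P.p : ℤ) ∣ y.ord hb)
    (G : ℕ → IsLocalRing.ResidueField A)
    (hG : ∀ n : ℕ, G n = (Fermat.Agent.Lib.helper9242.thetaFun (IsLocalRing.ResidueField A)
          (hb : LaurentSeries (IsLocalRing.ResidueField A)) /
            (hb : LaurentSeries (IsLocalRing.ResidueField A))).coeff (n : ℤ))
    (hG0 : ∃ n, G n ≠ 0)
    (heig : ∀ ℓ : ℕ, ℓ.Prime → ¬ ℓ ∣ N0 → W.IsGoodPrimeFor ℓ → ℓ ≠ P.p → ∀ n : ℕ,
      G (ℓ * n) + (ℓ : IsLocalRing.ResidueField A) * (if ℓ ∣ n then G (n / ℓ) else 0)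
        = ((W.apOfModel ℓ : ℤ) : IsLocalRing.ResidueField A) * G n) :
    P.ModularRepOfLevel N0 :=
  modularRepOfLevel_of_isHolDlog P hpN0 hHOL W hW A hA _ ⟨hb, hb0, hord, rfl⟩ G hG hG0 heig

end Fermat.Agent.S44.helper6368
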