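import Fermat.Agent.S44.helper3130_Spec
import Fermat.Agent.S44.helper6368_HolSpec
import Fermat.Prelude.Thm_CongruenceSubgroup_one_mem_strictPeriods_Gamma0

/-!
# S44, seam (T7): the adapter `Stmt_HOL → Stmt_HolExit` (helper6368)

`helper3130.Stmt_HolExit` (the top seam (T7) of the captain's Spec) from the block statement
`helper6368.Stmt_HOL` (the export of block L7):

* `G * x = θ x` with `x ≠ 0` gives `G = θ x / x`, so `IsHolDlog p M A G` (the order condition of
  (T7) holds at *every* place, in particular away from the `q`-place);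
* `G` has no polar part (`order G ≥ 0`, orders of Laurent series over a field);
* the constant term of `G` vanishes because `G` is a combination of reductions of cusp forms;
* `mem_modCusp_iff` is the finite-combination shape of `InCuspSpan`.
-/

set_option autoImplicit false

open CuspForm CongruenceSubgroup ModularFormClass AlgebraicCurve ModularCurve

namespace Fermat.Agent.S44.helper6368

local notation "Qb" => AlgebraicClosure ℚ

/-- Over a field: if `G * x = θ x` with `x ≠ 0`, then `G` has no polar part. -/
theorem coeff_eq_zero_of_mul_eq_thetaFun {k : Type*} [Field k] (x G : LaurentSeries k)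
    (hx : x ≠ 0) (h : G * x = Fermat.Agent.Lib.helper9242.thetaFun k x) (n : ℤ) (hn : n < 0) :
    G.coeff n = 0 := by
  by_cases hG : G = 0
  · rw [hG]
    simp
  have hGx : G * x ≠ 0 := mul_ne_zero hG hx
  have hθ : Fermat.Agent.Lib.helper9242.thetaFun k x ≠ 0 := by
    rw [← h]
    exact hGx
  have h1 : x.order ≤ (Fermat.Agent.Lib.helper9242.thetaFun k x).order := by
    apply HahnSeries.order_le_of_coeff_ne_zero
    have h2 : (Fermat.Agent.Lib.helper9242.thetaFun k x).coeff
        (Fermat.Agent.Lib.helper9242.thetaFun k x).order ≠ 0 :=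
      fun h0 => hθ (HahnSeries.coeff_order_eq_zero.1 h0)
    rw [Fermat.Agent.Lib.helper9242.thetaFun_coeff] at h2
    exact right_ne_zero_of_mul h2
  have h3 : (G * x).order = G.order + x.order := HahnSeries.order_mul hG hx
  rw [h] at h3
  have h4 : 0 ≤ G.order := by omega
  exact HahnSeries.coeff_eq_zero_of_lt_order (lt_of_lt_of_le hn h4)

/-- The constant `q`-coefficient of a weight-2 cusp form of level `Γ₀(M)` vanishes. -/
theorem qCoeff_zero_cuspForm {M : ℕ} (g : CuspForm (Gamma0 M) 2) : qCoeff ⇑g 0 = 0 :=
  CuspFormClass.qExpansion_coeff_zero g one_pos (CongruenceSubgroup.one_mem_strictPeriods_Gamma0 M)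

/-- **The adapter of seam (T7).**  The top seam `helper3130.Stmt_HolExit` from the block
statement `Stmt_HOL p M` at the primes `p ≥ 5` and the even levels `M`. -/
theorem stmt_HolExit_of_stmt_HOL
    (h : ∀ (p M : ℕ) [NeZero M], 5 ≤ p → 2 ∣ M → Stmt_HOL p M) :
    Fermat.Agent.S44.helper3130.Stmt_HolExit := by
  intro p hp h5 M _ hpM h2M A hA x hx0 hord G hG
  have hxL : (x : LaurentSeries (IsLocalRing.ResidueField A)) ≠ 0 := by
    intro h0
    exact hx0 (Subtype.ext h0)
  have hθ : G * (x : LaurentSeries (IsLocalRing.ResidueField A)) =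
      Fermat.Agent.Lib.helper9242.thetaFun (IsLocalRing.ResidueField A)
        (x : LaurentSeries (IsLocalRing.ResidueField A)) := by
    ext n
    rw [Fermat.Agent.Lib.helper9242.thetaFun_coeff]
    exact hG n
  have hGdiv : G = Fermat.Agent.Lib.helper9242.thetaFun (IsLocalRing.ResidueField A)
      (x : LaurentSeries (IsLocalRing.ResidueField A)) /
        (x : LaurentSeries (IsLocalRing.ResidueField A)) := eq_div_of_mul_eq hxL hθ
  have hmem := h p M h5 h2M hp hpM A hA G ⟨x, hx0, fun y _ => hord y, hGdiv⟩
  obtain ⟨r, c, g, a, ha, hGs⟩ := mem_modCusp_iff.1 hmem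
  refine ⟨?_, Fin r, Finset.univ, c, g, a, fun i _ n => ha i n, fun n => hGs n⟩
  intro n hn
  rcases lt_or_eq_of_le hn with hn | rfl
  · exact coeff_eq_zero_of_mul_eq_thetaFun _ G hxL hθ n hn
  · have h0 := hGs 0
    rw [Nat.cast_zero] at h0
    rw [h0]
    apply Finset.sum_eq_zero
    intro i _
    have ha0 : a i 0 = 0 := by
      have h1 := ha i 0
      rw [qCoeff_zero_cuspForm] at h1
      exact_mod_cast h1
    rw [ha0, Int.cast_zero, mul_zero]

end Fermat.Agent.S44.helper6368
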