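/-
S44-CNT-ODD-FF (board #2628, helper6565): the ODD case of the COUNT of blueprint #3246 / #3642 in
function-field form, on the binders of the landed
`Fermat.Agent.S35.helper603.twisted_lattice_of_components` (two valuations `v 0`, `v 1`).

Setting.  `F / K` the generic function field with two valuations `v 0`, `v 1` and a reduction
datum `red` (weights `1`), every Riemann-Roch space cartesian; the special fibre has two components
`Fk₁`, `Fk₂` (function fields over `kk` with places of degree one and a Riemann bound), embedded by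
`jj : Fk₁ × Fk₂ → Fk`; `P i`, `Q i` are the two points of the `i`-th node.

`H` is a function with `v 0 H = 1` and `v 1 H = |c₀|`, where `|ϖ| ^ p < |c₀| < 1` (in additive
terms `v_0(H) - v_∞(H) = m` with `0 < m < p`); its two reductions are
`red H = jj (H₁, 0)` and `red (c₀ H⁻¹) = jj (0, G₂)`.

Result (`odd_count_core`).  For divisors `D'`, `D''` of `F` with `p D' ≤ div H`,
`p D'' ≤ - div H`:
`deg D' + deg D'' + #{i | p ∣ ord_{P i} H₁} + #{i | p ∣ ord_{Q i} G₂} + #s₁ + #s₂ ≤ 0`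
for all finite sets `s₁`, `s₂` of non-node places with `p ∤ ord H₁`, resp. `p ∤ ord G₂`.
Consequences (`odd_count`, `odd_count_nodes`, `odd_count_kummer`): if the places of `F` where
`p ∤ ord H` are accounted for by such places of the special fibre (no such place at all when `H`
is a Kummer function), then `p ∤ ord_{P i} H₁` and `p ∤ ord_{Q i} G₂` at EVERY node.

No hypothesis on the characteristic, no perfectness, no twisted lattice.  The only input beyond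
the binders of the even count is `hjump`: an element of the unit ball of a chart lattice with
`v i f < 1` can be replaced, without changing its reduction, by one with `v i f' ≤ |ϖ|`
(`f' = f` when `v i` is discrete with uniformiser `ϖ`).

Proof.  `X := red (ball ∩ L(D' + m E))` has dimension `≥ deg D' + m deg E + 1 - g(F)`.  For
`(y₁, y₂) ∈ X` with lift `f`, the function `f ^ p H` is in the joint ball, regular off the chart
poles, and reduces to `(y₁ ^ p H₁, 0)`: by the glueing at the nodes `y₁ ^ p H₁` vanishes at every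
`P i`, hence `y₁ ∈ L(m Y₁ + ⌊div H₁ / p⌋ - Σ_{p ∣ ord} P i)`.  If `y₁ = 0`, a lift with
`v 0 f ≤ |ϖ|` gives `f ^ p H / c₀` in the joint ball with reduction `(0, y₂ ^ p / G₂)`, vanishing
at every `Q i`.  Rank-nullity and the Riemann equalities on the components give
`deg D' + z₁ + z₂ ≤ deg ⌊div H₁ / p⌋ + deg ⌊- div G₂ / p⌋ + #I`; the mirror statement for
`c₀ H⁻¹` (roles of `v 0`, `v 1` exchanged) and `⌊x / p⌋ + ⌊-x / p⌋ = -[p ∤ x]` finish.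
-/
import Mathlib
import Fermat.Agent.S35.helper603_TwistedFF

set_option autoImplicit false

namespace Fermat.Agent.S44.helper6565

open AlgebraicCurve WithZero Module
open Fermat.Agent.S35.helper2459 (RedDataW CartesianW)
open Fermat.Agent.S35.helper603 (valueAt valueAt_unique valueAt_eq_zero_iff redBall
  finrank_le_finrank_redBall red_pow_of_ball)
open Fermat.Agent.S18.helper981 (HasRiemannBound riemannGenus)

/-! ### Linear algebra: a two-step dimension bound -/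

section LinAlg

variable {k X V₁ V₂ : Type*} [Field k] [AddCommGroup X] [Module k X]
  [AddCommGroup V₁] [Module k V₁] [AddCommGroup V₂] [Module k V₂]

/-- If `φ` maps `X` into `A`, and `ψ` maps the kernel of `φ` injectively into `B`, then
`dim X ≤ dim A + dim B`. -/
theorem finrank_le_of_two_steps (φ : X →ₗ[k] V₁) (ψ : X →ₗ[k] V₂) (A : Submodule k V₁)
    (B : Submodule k V₂) [Module.Finite k A] [Module.Finite k B]
    (hφ : ∀ x, φ x ∈ A) (hψ : ∀ x, φ x = 0 → ψ x ∈ B)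
    (hinj : ∀ x, φ x = 0 → ψ x = 0 → x = 0) :
    Module.Finite k X ∧ finrank k X ≤ finrank k A + finrank k B := by
  have hrange : LinearMap.range φ ≤ A := by
    rintro _ ⟨x, rfl⟩
    exact hφ x
  have hfr : Module.Finite k (LinearMap.range φ) := Submodule.finiteDimensional_of_le hrange
  let ψ' : LinearMap.ker φ →ₗ[k] B :=
    LinearMap.codRestrict B (ψ.comp (LinearMap.ker φ).subtype)
      (fun x => hψ x.1 (LinearMap.mem_ker.mp x.2))
  have hψ' : Function.Injective ψ' := by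
    rw [← LinearMap.ker_eq_bot, LinearMap.ker_eq_bot']
    intro x hx
    have h1 : ψ (x : X) = 0 := congrArg Subtype.val hx
    exact Subtype.ext (hinj x.1 (LinearMap.mem_ker.mp x.2) h1)
  have hfk : Module.Finite k (LinearMap.ker φ) := FiniteDimensional.of_injective ψ' hψ'
  have hfq : Module.Finite k (X ⧸ LinearMap.ker φ) :=
    Module.Finite.equiv φ.quotKerEquivRange.symm
  have hfin : Module.Finite k X := Module.Finite.of_submodule_quotient (LinearMap.ker φ)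
  refine ⟨hfin, ?_⟩
  have h1 := φ.finrank_range_add_finrank_ker
  have h2 : finrank k (LinearMap.range φ) ≤ finrank k A := Submodule.finrank_mono hrange
  have h3 : finrank k (LinearMap.ker φ) ≤ finrank k B :=
    LinearMap.finrank_le_finrank_of_injective hψ'
  omega

end LinAlg

/-! ### Integers -/

section IntLemmas

theorem ediv_add_neg_ediv_of_dvd {n a : ℤ} (hn : 0 < n) (h : n ∣ a) : a / n + (-a) / n = 0 := by
  obtain ⟨c, rfl⟩ := h
  rw [Int.mul_ediv_cancel_left _ hn.ne', ← mul_neg, Int.mul_ediv_cancel_left _ hn.ne']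
  ring

theorem ediv_add_neg_ediv_of_not_dvd {n a : ℤ} (hn : 0 < n) (h : ¬ n ∣ a) :
    a / n + (-a) / n = -1 := by
  have h1 : 0 < a % n := by
    rcases (Int.emod_nonneg a hn.ne').lt_or_eq with h' | h'
    · exact h'
    · exact absurd (Int.dvd_of_emod_eq_zero h'.symm) h
  have h2 : a % n < n := Int.emod_lt_of_pos a hn
  have h3 := Int.emod_add_mul_ediv a n
  have h4 : (-a) / n = -(a / n) - 1 ∧ (-a) % n = n - a % n := by
    rw [Int.ediv_emod_unique hn]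
    refine ⟨?_, by omega, by omega⟩
    have e : n * (-(a / n) - 1) = -(n * (a / n)) - n := by ring
    rw [e]
    omega
  rw [h4.1]
  ring

end IntLemmas

/-! ### One place -/

section Local

variable {k F : Type*} [Field k] [Field F] [Algebra k F]

theorem ord_algebraMap_of_ne_zero (w : Place k F) {c : k} (hc : c ≠ 0) :
    w.ord (algebraMap k F c) = 0 := by
  have hcF : algebraMap k F c ≠ 0 := (map_ne_zero (algebraMap k F)).mpr hc
  have h1 := (w.adicValuation_le_one_iff.mp (w.adicValuation_algebraMap_le_one c)).resolve_left hcF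
  have h2 := (w.adicValuation_le_one_iff.mp
    (w.adicValuation_algebraMap_le_one c⁻¹)).resolve_left
    ((map_ne_zero (algebraMap k F)).mpr (inv_ne_zero hc))
  rw [map_inv₀, w.ord_inv] at h2
  omega

theorem ord_pow_mul (w : Place k F) {y g : F} (hy : y ≠ 0) (hg : g ≠ 0) (n : ℕ) :
    w.ord (y ^ n * g) = n * w.ord y + w.ord g := by
  rw [w.ord_mul (pow_ne_zero n hy) hg, ← zpow_natCast, w.ord_zpow]

/-- If `y ^ n g` has order `≥ -n A` then `y` has order `≥ -(A + ⌊ord g / n⌋)`. -/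
theorem neg_floor_le_ord (w : Place k F) {y g : F} (hy : y ≠ 0) (hg : g ≠ 0) {n : ℕ} (hn : 0 < n)
    {A : ℤ} (h : -((n : ℤ) * A) ≤ w.ord (y ^ n * g)) : -(A + w.ord g / n) ≤ w.ord y := by
  rw [ord_pow_mul w hy hg] at h
  have hn' : (0 : ℤ) < n := by exact_mod_cast hn
  have h1 := Int.emod_add_mul_ediv (w.ord g) n
  have h2 := Int.emod_lt_of_pos (w.ord g) hn'
  by_contra hcon
  rw [not_le] at hcon
  have h4 : w.ord y + A + w.ord g / n ≤ -1 := by omega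
  have h5 : (n : ℤ) * (w.ord y + A + w.ord g / n) ≤ n * (-1) :=
    mul_le_mul_of_nonneg_left h4 hn'.le
  nlinarith

/-- If `n ∣ ord g` and `y ^ n g` vanishes at `w`, then `ord y + ord g / n ≥ 1`. -/
theorem one_le_of_dvd_of_pos (w : Place k F) {y g : F} (hy : y ≠ 0) (hg : g ≠ 0) {n : ℕ}
    (hn : 0 < n) (hd : (n : ℤ) ∣ w.ord g) (h : 0 < w.ord (y ^ n * g)) :
    1 ≤ w.ord y + w.ord g / n := by
  rw [ord_pow_mul w hy hg] at h
  obtain ⟨c, hc⟩ := hd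
  have hn' : (0 : ℤ) < n := by exact_mod_cast hn
  rw [hc, Int.mul_ediv_cancel_left _ hn'.ne']
  rw [hc] at h
  by_contra hcon
  rw [not_le] at hcon
  have h4 : w.ord y + c ≤ 0 := by omega
  have h5 : (n : ℤ) * (w.ord y + c) ≤ n * 0 := mul_le_mul_of_nonneg_left h4 hn'.le
  nlinarith

theorem valueAt_zero (w : Place k F) (hw : w.deg = 1) : valueAt w hw (0 : F) = 0 :=
  valueAt_unique w hw (by simp)

theorem ord_pos_of_valueAt_eq_zero (w : Place k F) (hw : w.deg = 1) {f : F} (hf : f ≠ 0)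
    (h0 : 0 ≤ w.ord f) (h : valueAt w hw f = 0) : 0 < w.ord f := by
  have h1 : w.adicValuation f ≤ 1 := w.adicValuation_le_one_iff.mpr (Or.inr h0)
  have h2 := (valueAt_eq_zero_iff w hw h1).mp h
  rw [w.adicValuation_eq_exp_neg_ord hf, ← exp_zero, exp_lt_exp] at h2
  omega

end Local

/-! ### Floor of a divisor, points of a finite family -/

section FloorDiv

variable {k F : Type*} [Field k] [Field F] [Algebra k F] {I : Type*}

/-- `⌊D / n⌋`. -/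
noncomputable def floorDiv (n : ℕ) (D : Divisor k F) : Divisor k F :=
  D.mapRange (fun a => a / (n : ℤ)) (Int.zero_ediv _)

@[simp] theorem floorDiv_apply (n : ℕ) (D : Divisor k F) (w : Place k F) :
    floorDiv n D w = D w / (n : ℤ) := Finsupp.mapRange_apply

theorem mul_floorDiv_le {n : ℕ} (hn : 0 < n) (D : Divisor k F) (w : Place k F) :
    (n : ℤ) * floorDiv n D w ≤ D w := by
  rw [floorDiv_apply]
  exact Int.mul_ediv_self_le (by exact_mod_cast hn.ne')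

/-- `deg ⌊D / n⌋ + deg ⌊-D / n⌋ = - #{w | n ∤ D w}`. -/
theorem degree_floorDiv_add_neg (hdeg : ∀ w : Place k F, w.deg = 1) {n : ℕ} (hn : 0 < n)
    (D : Divisor k F) :
    Divisor.degree (floorDiv n D) + Divisor.degree (floorDiv n (-D)) =
      -(((D.support.filter fun w => ¬ (n : ℤ) ∣ D w).card : ℕ) : ℤ) := by
  classical
  have hn' : (0 : ℤ) < n := by exact_mod_cast hn
  have hs1 : (floorDiv n D).support ⊆ D.support := Finsupp.support_mapRange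
  have hs2 : (floorDiv n (-D)).support ⊆ D.support := by
    have h := Finsupp.support_mapRange (f := fun a : ℤ => a / (n : ℤ))
      (hf := Int.zero_ediv _) (g := -D)
    rwa [Finsupp.support_neg] at h
  rw [Fermat.Agent.S18.helper981.degree_eq_sum hdeg, Fermat.Agent.S18.helper981.degree_eq_sum hdeg,
    Finsupp.sum_of_support_subset _ hs1 _ (fun _ _ => rfl),
    Finsupp.sum_of_support_subset _ hs2 _ (fun _ _ => rfl), ← Finset.sum_add_distrib,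
    Finset.card_filter, Nat.cast_sum, ← Finset.sum_neg_distrib]
  refine Finset.sum_congr rfl fun w _ => ?_
  rw [floorDiv_apply, floorDiv_apply, Finsupp.neg_apply]
  by_cases h : (n : ℤ) ∣ D w
  · rw [ediv_add_neg_ediv_of_dvd hn' h]
    simp [h]
  · rw [ediv_add_neg_ediv_of_not_dvd hn' h]
    simp [h]

/-- The divisor `Σ_{i ∈ T} P i`. -/
noncomputable def ptsDiv (P : I → Place k F) (T : Finset I) : Divisor k F :=
  ∑ i ∈ T, Finsupp.single (P i) (1 : ℤ)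

theorem ptsDiv_apply_mem (P : I → Place k F) (hP : Function.Injective P) (T : Finset I) {j : I}
    (hj : j ∈ T) : ptsDiv P T (P j) = 1 := by
  classical
  rw [ptsDiv, Finsupp.finsetSum_apply, Finset.sum_eq_single j]
  · simp
  · intro i _ hij
    rw [Finsupp.single_apply, if_neg (fun h => hij (hP h))]
  · intro h
    exact absurd hj h

theorem ptsDiv_apply_of_ne (P : I → Place k F) (T : Finset I) (w : Place k F)
    (hw : ∀ i ∈ T, P i ≠ w) : ptsDiv P T w = 0 := by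
  classical
  rw [ptsDiv, Finsupp.finsetSum_apply]
  refine Finset.sum_eq_zero fun i hi => ?_
  rw [Finsupp.single_apply, if_neg (hw i hi)]

theorem degree_ptsDiv (hdeg : ∀ w : Place k F, w.deg = 1) (P : I → Place k F) (T : Finset I) :
    Divisor.degree (ptsDiv P T) = (T.card : ℤ) := by
  rw [ptsDiv, map_sum]
  simp [Divisor.degree_single, hdeg]

/-- If `y ^ n g` has poles bounded by `n m Y` and vanishes at the points `P i`, `i ∈ T`
(where `n ∣ ord g` and `Y = 0`), then `y ∈ L(m Y + ⌊div g / n⌋ - Σ_{i ∈ T} P i)`. -/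
theorem mem_rr_floor (hdeg : ∀ w : Place k F, w.deg = 1) (Y : Divisor k F)
    (P : I → Place k F) (hP : Function.Injective P) (hPY : ∀ i, Y (P i) = 0)
    {n : ℕ} (hn : 0 < n) (m : ℕ) {g : F} (hg : g ≠ 0) (Dg : Divisor k F)
    (hDg : ∀ w : Place k F, Dg w = w.ord g) (T : Finset I)
    (hT : ∀ i ∈ T, (n : ℤ) ∣ Dg (P i)) {y : F}
    (hmem : y ^ n * g ∈ riemannRochSpace ((n * m) • Y))
    (hval : ∀ i ∈ T, valueAt (P i) (hdeg (P i)) (y ^ n * g) = 0) :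
    y ∈ riemannRochSpace (m • Y + floorDiv n Dg - ptsDiv P T) := by
  rw [mem_riemannRochSpace_iff]
  intro w
  by_cases hy : y = 0
  · exact Or.inl hy
  right
  have hyg : y ^ n * g ≠ 0 := mul_ne_zero (pow_ne_zero n hy) hg
  have h1 := (mem_riemannRochSpace_iff.mp hmem w).resolve_left hyg
  rw [Finsupp.smul_apply, nsmul_eq_mul] at h1
  have h2 : -((n : ℤ) * ((m : ℤ) * Y w)) ≤ w.ord (y ^ n * g) := by
    push_cast at h1
    rw [mul_assoc] at h1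
    exact h1
  have h3 := neg_floor_le_ord w hy hg hn h2
  rw [Finsupp.sub_apply, Finsupp.add_apply, Finsupp.smul_apply, floorDiv_apply, hDg w,
    nsmul_eq_mul]
  by_cases hw : ∃ i ∈ T, P i = w
  · obtain ⟨i, hi, rfl⟩ := hw
    rw [ptsDiv_apply_mem P hP T hi, hPY i]
    have h0 : 0 ≤ (P i).ord (y ^ n * g) := by
      rw [hPY i] at h2
      simpa using h2
    have hpos := ord_pos_of_valueAt_eq_zero (P i) (hdeg (P i)) hyg h0 (hval i hi)
    have hd : (n : ℤ) ∣ (P i).ord g := by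
      rw [← hDg]
      exact hT i hi
    have := one_le_of_dvd_of_pos (P i) hy hg hn hd hpos
    linarith
  · simp only [not_exists, not_and] at hw
    rw [ptsDiv_apply_of_ne P T w hw]
    linarith

end FloorDiv

/-! ### The generic function field: reductions of `f ^ n U` -/

section Key

variable {kk : Type*} [Field kk] {Fk₁ Fk₂ : Type*} [Field Fk₁] [Field Fk₂]
  [Algebra kk Fk₁] [Algebra kk Fk₂] {I : Type*}
  {K F : Type*} [Field K] [Field F] [Algebra K F]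
  {Γ₀ : Type*} [LinearOrderedCommGroupWithZero Γ₀]
  {v : Fin 2 → Valuation F Γ₀} {vL : Valuation K Γ₀}
  {Fk : Type*} [CommRing Fk] [Algebra kk Fk] {red : F → Fk}

/-- `f ^ n U ∈ L(n m E)` for `f ∈ L(D₀ + m E)` and `n D₀ ≤ div U`. -/
theorem pow_mul_mem_rr_chart {n : ℕ} (hn : 0 < n) {D0 E : Divisor K F} {m : ℕ} {U f : F}
    (hU0 : U ≠ 0) (hUn : ∀ w : Place K F, (n : ℤ) * D0 w ≤ w.ord U)
    (hf : f ∈ riemannRochSpace (D0 + m • E)) :
    f ^ n * U ∈ riemannRochSpace ((n * m) • E) := by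
  rw [mem_riemannRochSpace_iff] at hf ⊢
  intro w
  by_cases hf0 : f = 0
  · left
    rw [hf0, zero_pow hn.ne', zero_mul]
  · right
    have h1 := (hf w).resolve_left hf0
    rw [Finsupp.add_apply, Finsupp.smul_apply, nsmul_eq_mul] at h1
    have h2 := hUn w
    rw [ord_pow_mul w hf0 hU0, Finsupp.smul_apply, nsmul_eq_mul]
    have hn' : (0 : ℤ) ≤ n := Int.natCast_nonneg n
    have h3 : (n : ℤ) * (-(D0 w + m * E w)) ≤ n * w.ord f :=
      mul_le_mul_of_nonneg_left h1 hn'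
    push_cast
    nlinarith

/-- The reduction of `f ^ n U`, `f` in the unit ball of `L(D₀ + m E)`, `U` in the joint ball with
`n D₀ ≤ div U`: the pair `y ^ n u` is regular off the chart poles and glued at the nodes. -/
theorem key_glued (hred : RedDataW v (fun _ => (1 : Γ₀)) vL kk red red)
    (jj : Fk₁ × Fk₂ →ₐ[kk] Fk) (hjj : Function.Injective jj)
    (hdeg₁ : ∀ w : Place kk Fk₁, w.deg = 1) (hdeg₂ : ∀ w : Place kk Fk₂, w.deg = 1)
    (P : I → Place kk Fk₁) (Q : I → Place kk Fk₂)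
    (Y₁ : Divisor kk Fk₁) (Y₂ : Divisor kk Fk₂) (E : Divisor K F)
    (hcont : ∀ m : ℕ, ∀ f ∈ riemannRochSpace (m • E), (∀ i, v i f ≤ 1) →
      ∃ y₁ ∈ riemannRochSpace (m • Y₁), ∃ y₂ ∈ riemannRochSpace (m • Y₂),
        red f = jj (y₁, y₂) ∧
          ∀ i, valueAt (Q i) (hdeg₂ (Q i)) y₂ = valueAt (P i) (hdeg₁ (P i)) y₁)
    {n : ℕ} (hn : 0 < n) (D0 : Divisor K F) (m : ℕ)
    {U : F} (hU0 : U ≠ 0) (hUb : ∀ i, v i U ≤ 1)
    (hUn : ∀ w : Place K F, (n : ℤ) * D0 w ≤ w.ord U)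
    {u : Fk₁ × Fk₂} (hredU : red U = jj u)
    {f : F} (hf : f ∈ riemannRochSpace (D0 + m • E)) (hfb : ∀ i, v i f ≤ 1)
    {y : Fk₁ × Fk₂} (hfy : red f = jj y) :
    y.1 ^ n * u.1 ∈ riemannRochSpace ((n * m) • Y₁) ∧
      y.2 ^ n * u.2 ∈ riemannRochSpace ((n * m) • Y₂) ∧
      ∀ i, valueAt (Q i) (hdeg₂ (Q i)) (y.2 ^ n * u.2) =
        valueAt (P i) (hdeg₁ (P i)) (y.1 ^ n * u.1) := by
  have hfn := pow_mul_mem_rr_chart hn hU0 hUn hf
  have hfpb : ∀ i, v i (f ^ n) ≤ 1 := fun i => by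
    rw [map_pow]
    exact pow_le_one' (hfb i) n
  have hfnb : ∀ i, v i (f ^ n * U) ≤ 1 := fun i => by
    rw [map_mul]
    exact mul_le_one' (hfpb i) (hUb i)
  obtain ⟨z₁, hz₁, z₂, hz₂, hz, hnode⟩ := hcont (n * m) _ hfn hfnb
  have hredfn : red (f ^ n * U) = jj (y ^ n * u) := by
    rw [hred.map_mul _ _ hfpb hUb, red_pow_of_ball hred f hfb n, hfy, hredU, ← map_pow, ← map_mul]
  have hzz : (z₁, z₂) = y ^ n * u := hjj (hz.symm.trans hredfn)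
  have e1 : z₁ = y.1 ^ n * u.1 := congrArg Prod.fst hzz
  have e2 : z₂ = y.2 ^ n * u.2 := congrArg Prod.snd hzz
  subst e1 e2
  exact ⟨hz₁, hz₂, hnode⟩

/-- The jump.  `U W = c₀` with `v i₀ U = 1`, `v i₁ U = |c₀| < 1`, `|ϖ| ^ n < |c₀|`.  If the
reduction `y` of `f` is killed by the reduction `u` of `U`, then `v i₀ f < 1`; replacing `f` by a
lift `f'` with `v i₀ f' ≤ |ϖ|`, the function `f' ^ n U / c₀` is in the joint ball and its reduction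
`z` satisfies `z w = y ^ n`, `z u = 0`. -/
theorem key_jump (hred : RedDataW v (fun _ => (1 : Γ₀)) vL kk red red)
    (jj : Fk₁ × Fk₂ →ₐ[kk] Fk) (hjj : Function.Injective jj)
    (hdeg₁ : ∀ w : Place kk Fk₁, w.deg = 1) (hdeg₂ : ∀ w : Place kk Fk₂, w.deg = 1)
    (P : I → Place kk Fk₁) (Q : I → Place kk Fk₂)
    (Y₁ : Divisor kk Fk₁) (Y₂ : Divisor kk Fk₂) (E : Divisor K F)
    (hcont : ∀ m : ℕ, ∀ f ∈ riemannRochSpace (m • E), (∀ i, v i f ≤ 1) →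
      ∃ y₁ ∈ riemannRochSpace (m • Y₁), ∃ y₂ ∈ riemannRochSpace (m • Y₂),
        red f = jj (y₁, y₂) ∧
          ∀ i, valueAt (Q i) (hdeg₂ (Q i)) y₂ = valueAt (P i) (hdeg₁ (P i)) y₁)
    {n : ℕ} (hn : 0 < n) (D0 : Divisor K F) (m : ℕ)
    (i₀ i₁ : Fin 2) (hi : ∀ i : Fin 2, i = i₀ ∨ i = i₁)
    {U W : F} {c₀ ϖ : K} (hUW : U * W = algebraMap K F c₀)
    (hU₀ : v i₀ U = 1) (hU₁ : v i₁ U = vL c₀) (hc₀ : vL c₀ < 1) (hϖ : vL ϖ ^ n < vL c₀)
    (hUn : ∀ w : Place K F, (n : ℤ) * D0 w ≤ w.ord U)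
    {u w : Fk₁ × Fk₂} (hredU : red U = jj u) (hredW : red W = jj w)
    {f : F} (hfb : ∀ i, v i f ≤ 1)
    (hjump : v i₀ f < 1 → ∃ f' ∈ riemannRochSpace (D0 + m • E),
      (∀ j, v j f' ≤ 1) ∧ v i₀ f' ≤ vL ϖ ∧ red f' = red f)
    {y : Fk₁ × Fk₂} (hfy : red f = jj y) (hyu : y * u = 0) :
    ∃ z : Fk₁ × Fk₂, z * w = y ^ n ∧ z * u = 0 ∧ z.1 ∈ riemannRochSpace ((n * m) • Y₁) ∧
      z.2 ∈ riemannRochSpace ((n * m) • Y₂) ∧
      ∀ i, valueAt (Q i) (hdeg₂ (Q i)) z.2 = valueAt (P i) (hdeg₁ (P i)) z.1 := by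
  have hc₀0 : vL c₀ ≠ 0 := fun h => by
    rw [h] at hϖ
    exact not_lt_zero hϖ
  have hc₀ne : c₀ ≠ 0 := fun h => hc₀0 (by rw [h, map_zero])
  have hUb : ∀ i, v i U ≤ 1 := fun i => by
    rcases hi i with rfl | rfl
    · exact hU₀.le
    · rw [hU₁]
      exact hc₀.le
  have hU0 : U ≠ 0 := fun h => by
    rw [h, map_zero] at hU₀
    exact zero_ne_one hU₀
  have hW₀ : v i₀ W = vL c₀ := by
    have h := congrArg (v i₀) hUW
    rwa [map_mul, hU₀, one_mul, hred.val_algebraMap] at h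
  have hW₁ : v i₁ W = 1 := by
    have h := congrArg (v i₁) hUW
    rw [map_mul, hU₁, hred.val_algebraMap] at h
    exact mul_left_cancel₀ hc₀0 (h.trans (mul_one _).symm)
  have hWb : ∀ i, v i W ≤ 1 := fun i => by
    rcases hi i with rfl | rfl
    · rw [hW₀]
      exact hc₀.le
    · exact hW₁.le
  -- `v i₀ f < 1`
  have hfU : red (f * U) = 0 := by
    rw [hred.map_mul f U hfb hUb, hfy, hredU, ← map_mul, hyu, map_zero]
  have hfUb : ∀ i, v i (f * U) ≤ 1 := fun i => by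
    rw [map_mul]
    exact mul_le_one' (hfb i) (hUb i)
  have hlt := (hred.eq_zero_iff (f * U) hfUb).mp hfU i₀
  rw [map_mul, hU₀, mul_one] at hlt
  obtain ⟨f', hf', hf'b, hf'₀, hf'red⟩ := hjump hlt
  -- the element `g = f' ^ n U / c₀`
  set g : F := (c₀⁻¹ : K) • (f' ^ n * U) with hg
  have hgmem : g ∈ riemannRochSpace ((n * m) • E) :=
    Submodule.smul_mem _ _ (pow_mul_mem_rr_chart hn hU0 hUn hf')
  have hgv : ∀ i, v i g = (vL c₀)⁻¹ * (v i f' ^ n * v i U) := fun i => by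
    rw [hg, hred.val_smul, map_inv₀, map_mul, map_pow]
  have hg₀ : v i₀ g < 1 := by
    rw [hgv, hU₀, mul_one]
    have h1 : v i₀ f' ^ n ≤ vL ϖ ^ n := pow_le_pow_left' hf'₀ n
    have h2 : v i₀ f' ^ n < vL c₀ := lt_of_le_of_lt h1 hϖ
    calc (vL c₀)⁻¹ * v i₀ f' ^ n < (vL c₀)⁻¹ * vL c₀ :=
          mul_lt_mul_of_pos_left h2 (zero_lt_iff.mpr (inv_ne_zero hc₀0))
      _ = 1 := inv_mul_cancel₀ hc₀0
  have hg₁ : v i₁ g ≤ 1 := by
    rw [hgv, hU₁, mul_comm (v i₁ f' ^ n), ← mul_assoc, inv_mul_cancel₀ hc₀0, one_mul]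
    exact pow_le_one' (hf'b i₁) n
  have hgb : ∀ i, v i g ≤ 1 := fun i => by
    rcases hi i with rfl | rfl
    · exact hg₀.le
    · exact hg₁
  obtain ⟨z₁, hz₁, z₂, hz₂, hz, hnode⟩ := hcont (n * m) g hgmem hgb
  refine ⟨(z₁, z₂), ?_, ?_, hz₁, hz₂, hnode⟩
  · apply hjj
    have hgW : g * W = f' ^ n := by
      rw [hg, Algebra.smul_def, mul_assoc, mul_assoc, hUW, mul_comm (f' ^ n), ← mul_assoc,
        ← map_mul, inv_mul_cancel₀ hc₀ne, map_one, one_mul]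
    rw [map_mul, ← hz, ← hredW, ← hred.map_mul g W hgb hWb, hgW,
      red_pow_of_ball hred f' hf'b n, hf'red, hfy, map_pow]
  · apply hjj
    rw [map_mul, ← hz, ← hredU, ← hred.map_mul g U hgb hUb, map_zero]
    refine (hred.eq_zero_iff (g * U) (fun i => by
      rw [map_mul]
      exact mul_le_one' (hgb i) (hUb i))).mpr (fun i => ?_)
    rw [map_mul]
    rcases hi i with rfl | rfl
    · rw [hU₀, mul_one]
      exact hg₀
    · rw [hU₁]
      exact lt_of_le_of_lt (mul_le_of_le_one_left' hg₁) hc₀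

end Key

/-! ### The count -/

section Count

variable {kk : Type*} [Field kk] {Fk₁ Fk₂ : Type*} [Field Fk₁] [Field Fk₂]
  [Algebra kk Fk₁] [Algebra kk Fk₂] {I : Type*} [Fintype I]

/-- Cartesian lower bound + Riemann on the generic fibre against the Riemann equalities on the two
components: if the reduction of the unit ball of `L(D' + m E)` has dimension at most
`l(m Y₁ + A₁) + l(m Y₂ + A₂)` for all `m`, then `deg D' ≤ deg A₁ + deg A₂ + nI`. -/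
theorem riemann_count
    {K F : Type*} [Field K] [Field F] [Algebra K F]
    (hRBK : HasRiemannBound K F)
    {Γ₀ : Type*} [LinearOrderedCommGroupWithZero Γ₀]
    (v : Fin 2 → Valuation F Γ₀) (vL : Valuation K Γ₀)
    {Fk : Type*} [CommRing Fk] [Algebra kk Fk] {red : F → Fk}
    (hred : RedDataW v (fun _ => (1 : Γ₀)) vL kk red red)
    (hcart : ∀ D : Divisor K F, CartesianW v (fun _ => (1 : Γ₀)) vL (riemannRochSpace D))
    (jj : Fk₁ × Fk₂ →ₐ[kk] Fk) (hjj : Function.Injective jj)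
    (hrange : ∀ f : F, (∀ i, v i f ≤ 1) → ∃ y : Fk₁ × Fk₂, red f = jj y)
    [HasPrincipalDivisors kk Fk₁] [HasPrincipalDivisors kk Fk₂]
    (hdeg₁ : ∀ w : Place kk Fk₁, w.deg = 1) (hdeg₂ : ∀ w : Place kk Fk₂, w.deg = 1)
    (hRB₁ : HasRiemannBound kk Fk₁) (hRB₂ : HasRiemannBound kk Fk₂)
    (P₁ : Place kk Fk₁) (P₂ : Place kk Fk₂)
    (Y₁ : Divisor kk Fk₁) (Y₂ : Divisor kk Fk₂)
    (d₁ d₂ : ℕ) (hd₁ : 0 < d₁) (hd₂ : 0 < d₂)
    (hdY₁ : Divisor.degree Y₁ = d₁) (hdY₂ : Divisor.degree Y₂ = d₂)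
    (E : Divisor K F) (hdE : Divisor.degree E = ((d₁ + d₂ : ℕ) : ℤ))
    (nI : ℕ) (hcard : riemannGenus K F + 1 ≤ riemannGenus kk Fk₁ + riemannGenus kk Fk₂ + nI)
    (D' : Divisor K F) (A₁ : Divisor kk Fk₁) (A₂ : Divisor kk Fk₂)
    (hdim : ∀ m : ℕ, Module.Finite kk (redBall hred jj (riemannRochSpace (D' + m • E))) ∧
      finrank kk (redBall hred jj (riemannRochSpace (D' + m • E))) ≤
        finrank kk (riemannRochSpace (m • Y₁ + A₁)) +
          finrank kk (riemannRochSpace (m • Y₂ + A₂))) :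
    Divisor.degree D' ≤ Divisor.degree A₁ + Divisor.degree A₂ + nI := by
  obtain ⟨c₁, hc₁⟩ := Fermat.Agent.S18.helper981.exists_forall_finrank_eq hdeg₁ P₁ hRB₁
  obtain ⟨c₂, hc₂⟩ := Fermat.Agent.S18.helper981.exists_forall_finrank_eq hdeg₂ P₂ hRB₂
  set m : ℕ := (max (c₁ - Divisor.degree A₁) (c₂ - Divisor.degree A₂)).toNat with hm
  have hmle : max (c₁ - Divisor.degree A₁) (c₂ - Divisor.degree A₂) ≤ (m : ℤ) :=
    Int.self_le_toNat _
  have hdeg1 : Divisor.degree (m • Y₁ + A₁) = m * d₁ + Divisor.degree A₁ := by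
    rw [map_add, map_nsmul, hdY₁, nsmul_eq_mul]
  have hdeg2 : Divisor.degree (m • Y₂ + A₂) = m * d₂ + Divisor.degree A₂ := by
    rw [map_add, map_nsmul, hdY₂, nsmul_eq_mul]
  have hm₁ : c₁ ≤ Divisor.degree (m • Y₁ + A₁) := by
    rw [hdeg1]
    have h2 : (m : ℤ) ≤ m * d₁ :=
      le_mul_of_one_le_right (Int.natCast_nonneg m) (by exact_mod_cast hd₁)
    have h3 := le_max_left (c₁ - Divisor.degree A₁) (c₂ - Divisor.degree A₂)
    linarith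
  have hm₂ : c₂ ≤ Divisor.degree (m • Y₂ + A₂) := by
    rw [hdeg2]
    have h2 : (m : ℤ) ≤ m * d₂ :=
      le_mul_of_one_le_right (Int.natCast_nonneg m) (by exact_mod_cast hd₂)
    have h3 := le_max_right (c₁ - Divisor.degree A₁) (c₂ - Divisor.degree A₂)
    linarith
  have hf₁ := hc₁ _ hm₁
  have hf₂ := hc₂ _ hm₂
  obtain ⟨hfin, hle⟩ := hdim m
  have hlow : finrank K (riemannRochSpace (D' + m • E)) ≤
      finrank kk (redBall hred jj (riemannRochSpace (D' + m • E))) :=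
    finrank_le_finrank_redBall hred jj hjj (hcart (D' + m • E)) (fun f _ hfb => hrange f hfb)
  have hgen := Fermat.Agent.S18.helper981.riemannGenus_mem hRBK (D' + m • E)
  have hdegS : Divisor.degree (D' + m • E) = Divisor.degree D' + m * ((d₁ + d₂ : ℕ) : ℤ) := by
    rw [map_add, map_nsmul, hdE, nsmul_eq_mul]
  rw [hdegS] at hgen
  have hlowZ : (finrank K (riemannRochSpace (D' + m • E)) : ℤ) ≤
      (finrank kk (redBall hred jj (riemannRochSpace (D' + m • E))) : ℤ) := by exact_mod_cast hlow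
  have hupZ : (finrank kk (redBall hred jj (riemannRochSpace (D' + m • E))) : ℤ) ≤
      (finrank kk (riemannRochSpace (m • Y₁ + A₁)) : ℤ) +
        (finrank kk (riemannRochSpace (m • Y₂ + A₂)) : ℤ) := by exact_mod_cast hle
  have hcardZ : (riemannGenus K F : ℤ) + 1 ≤
      (riemannGenus kk Fk₁ : ℤ) + (riemannGenus kk Fk₂ : ℤ) + nI := by exact_mod_cast hcard
  rw [hf₁, hf₂, hdeg1, hdeg2] at hupZ
  push_cast at hgen
  linarith

/-- **First half** (unit at `v 0`).  For `p D' ≤ div H`: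
`deg D' + z₁ + z₂ ≤ deg ⌊div H₁ / p⌋ + deg ⌊- div G₂ / p⌋ + #I`, where `z₁`, `z₂` count the nodes
with `p ∣ ord_{P i} H₁`, resp. `p ∣ ord_{Q i} G₂`. -/
theorem half_A
    {K F : Type*} [Field K] [Field F] [Algebra K F]
    (hRBK : HasRiemannBound K F)
    {Γ₀ : Type*} [LinearOrderedCommGroupWithZero Γ₀]
    (v : Fin 2 → Valuation F Γ₀) (vL : Valuation K Γ₀)
    {Fk : Type*} [CommRing Fk] [Algebra kk Fk] {red : F → Fk}
    (hred : RedDataW v (fun _ => (1 : Γ₀)) vL kk red red)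
    (hcart : ∀ D : Divisor K F, CartesianW v (fun _ => (1 : Γ₀)) vL (riemannRochSpace D))
    (jj : Fk₁ × Fk₂ →ₐ[kk] Fk) (hjj : Function.Injective jj)
    (hrange : ∀ f : F, (∀ i, v i f ≤ 1) → ∃ y : Fk₁ × Fk₂, red f = jj y)
    [HasPrincipalDivisors kk Fk₁] [HasPrincipalDivisors kk Fk₂]
    (hdeg₁ : ∀ w : Place kk Fk₁, w.deg = 1) (hdeg₂ : ∀ w : Place kk Fk₂, w.deg = 1)
    (hRB₁ : HasRiemannBound kk Fk₁) (hRB₂ : HasRiemannBound kk Fk₂)
    (P₁ : Place kk Fk₁) (P₂ : Place kk Fk₂)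
    (P : I → Place kk Fk₁) (Q : I → Place kk Fk₂)
    (hP : Function.Injective P) (hQ : Function.Injective Q)
    (Y₁ : Divisor kk Fk₁) (Y₂ : Divisor kk Fk₂)
    (d₁ d₂ : ℕ) (hd₁ : 0 < d₁) (hd₂ : 0 < d₂)
    (hdY₁ : Divisor.degree Y₁ = d₁) (hdY₂ : Divisor.degree Y₂ = d₂)
    (hPY : ∀ i, Y₁ (P i) = 0) (hQY : ∀ i, Y₂ (Q i) = 0)
    (E : Divisor K F) (hdE : Divisor.degree E = ((d₁ + d₂ : ℕ) : ℤ))
    (hcont : ∀ m : ℕ, ∀ f ∈ riemannRochSpace (m • E), (∀ i, v i f ≤ 1) →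
      ∃ y₁ ∈ riemannRochSpace (m • Y₁), ∃ y₂ ∈ riemannRochSpace (m • Y₂),
        red f = jj (y₁, y₂) ∧
          ∀ i, valueAt (Q i) (hdeg₂ (Q i)) y₂ = valueAt (P i) (hdeg₁ (P i)) y₁)
    (hcard : riemannGenus K F + 1 ≤
      riemannGenus kk Fk₁ + riemannGenus kk Fk₂ + Fintype.card I)
    (p : ℕ) (hp : 0 < p) (H : F) (c₀ ϖ : K)
    (hv0 : v 0 H = 1) (hv1 : v 1 H = vL c₀) (hc₀ : vL c₀ < 1) (hϖ : vL ϖ ^ p < vL c₀)
    (H₁ : Fk₁) (G₂ : Fk₂) (hH₁ : H₁ ≠ 0) (hG₂ : G₂ ≠ 0)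
    (hredH : red H = jj (H₁, 0)) (hredG : red (algebraMap K F c₀ * H⁻¹) = jj (0, G₂))
    (DH₁ : Divisor kk Fk₁) (hDH₁ : ∀ w : Place kk Fk₁, DH₁ w = w.ord H₁)
    (DG₂ : Divisor kk Fk₂) (hDG₂ : ∀ w : Place kk Fk₂, DG₂ w = w.ord G₂)
    (D' : Divisor K F) (hD' : ∀ w : Place K F, (p : ℤ) * D' w ≤ w.ord H)
    (hjump : ∀ m : ℕ, ∀ f ∈ riemannRochSpace (D' + m • E), (∀ j, v j f ≤ 1) → v 0 f < 1 →
      ∃ f' ∈ riemannRochSpace (D' + m • E), (∀ j, v j f' ≤ 1) ∧ v 0 f' ≤ vL ϖ ∧ red f' = red f) :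
    Divisor.degree D' + ((Finset.univ.filter fun i => (p : ℤ) ∣ DH₁ (P i)).card : ℤ) +
        ((Finset.univ.filter fun i => (p : ℤ) ∣ DG₂ (Q i)).card : ℤ) ≤
      Divisor.degree (floorDiv p DH₁) + Divisor.degree (floorDiv p (-DG₂)) + Fintype.card I := by
  classical
  set T₁ : Finset I := Finset.univ.filter fun i => (p : ℤ) ∣ DH₁ (P i) with hT₁
  set T₂ : Finset I := Finset.univ.filter fun i => (p : ℤ) ∣ DG₂ (Q i) with hT₂
  set A₁ : Divisor kk Fk₁ := floorDiv p DH₁ - ptsDiv P T₁ with hA₁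
  set A₂ : Divisor kk Fk₂ := floorDiv p (-DG₂) - ptsDiv Q T₂ with hA₂
  have hH0 : H ≠ 0 := fun h => by
    rw [h, map_zero] at hv0
    exact zero_ne_one hv0
  have hHb : ∀ i, v i H ≤ 1 := fun i => by
    fin_cases i
    · exact hv0.le
    · show v 1 H ≤ 1
      rw [hv1]
      exact hc₀.le
  have hHG : H * (algebraMap K F c₀ * H⁻¹) = algebraMap K F c₀ := by
    rw [mul_comm (algebraMap K F c₀), ← mul_assoc, mul_inv_cancel₀ hH0, one_mul]
  have hi : ∀ i : Fin 2, i = 0 ∨ i = 1 := by decide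
  have key : ∀ m : ℕ, ∀ y ∈ redBall hred jj (riemannRochSpace (D' + m • E)),
      y.1 ∈ riemannRochSpace (m • Y₁ + A₁) ∧
        (y.1 = 0 → y.2 ∈ riemannRochSpace (m • Y₂ + A₂)) := by
    rintro m y ⟨f, hfS, hfb, hfy⟩
    constructor
    · obtain ⟨h1, -, h3⟩ := key_glued hred jj hjj hdeg₁ hdeg₂ P Q Y₁ Y₂ E hcont hp D' m hH0 hHb
        hD' hredH hfS hfb hfy
      have h1' : y.1 ^ p * H₁ ∈ riemannRochSpace ((p * m) • Y₁) := h1
      have h3' : ∀ i, valueAt (Q i) (hdeg₂ (Q i)) (y.2 ^ p * 0) =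
          valueAt (P i) (hdeg₁ (P i)) (y.1 ^ p * H₁) := h3
      have h4 := mem_rr_floor hdeg₁ Y₁ P hP hPY hp m hH₁ DH₁ hDH₁ T₁
        (fun i hi => (Finset.mem_filter.mp hi).2) h1' (fun i _ => by
          rw [← h3' i, mul_zero]
          exact valueAt_zero _ _)
      rwa [hA₁, ← add_sub_assoc]
    · intro hy1
      obtain ⟨z, hzw, hzu, -, hz₂, hnode⟩ := key_jump hred jj hjj hdeg₁ hdeg₂ P Q Y₁ Y₂ E hcont hp
        D' m 0 1 hi hHG hv0 hv1 hc₀ hϖ hD' hredH hredG hfb (hjump m f hfS hfb) hfy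
        (Prod.ext (by show y.1 * H₁ = 0; rw [hy1, zero_mul]) (by show y.2 * 0 = 0; rw [mul_zero]))
      have e2 : z.2 * G₂ = y.2 ^ p := congrArg Prod.snd hzw
      have e1 : z.1 * H₁ = 0 := congrArg Prod.fst hzu
      have hz1 : z.1 = 0 := (mul_eq_zero.mp e1).resolve_right hH₁
      have hz2 : z.2 = y.2 ^ p * G₂⁻¹ := by
        rw [← e2, mul_assoc, mul_inv_cancel₀ hG₂, mul_one]
      have h4 := mem_rr_floor hdeg₂ Y₂ Q hQ hQY hp m (inv_ne_zero hG₂) (-DG₂)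
        (fun w => by rw [Finsupp.neg_apply, hDG₂, w.ord_inv]) T₂
        (fun i hi => by
          rw [Finsupp.neg_apply, dvd_neg]
          exact (Finset.mem_filter.mp hi).2)
        (y := y.2) (by rw [← hz2]; exact hz₂)
        (fun i _ => by
          rw [← hz2, hnode i, hz1]
          exact valueAt_zero _ _)
      rwa [hA₂, ← add_sub_assoc]
  have hdim : ∀ m : ℕ, Module.Finite kk (redBall hred jj (riemannRochSpace (D' + m • E))) ∧
      finrank kk (redBall hred jj (riemannRochSpace (D' + m • E))) ≤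
        finrank kk (riemannRochSpace (m • Y₁ + A₁)) +
          finrank kk (riemannRochSpace (m • Y₂ + A₂)) := by
    intro m
    have : Module.Finite kk (riemannRochSpace (m • Y₁ + A₁)) :=
      Fermat.Agent.S18.helper981.finite_riemannRochSpace hdeg₁ P₁ _
    have : Module.Finite kk (riemannRochSpace (m • Y₂ + A₂)) :=
      Fermat.Agent.S18.helper981.finite_riemannRochSpace hdeg₂ P₂ _
    exact finrank_le_of_two_steps
      ((LinearMap.fst kk Fk₁ Fk₂).comp (redBall hred jj (riemannRochSpace (D' + m • E))).subtype)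
      ((LinearMap.snd kk Fk₁ Fk₂).comp (redBall hred jj (riemannRochSpace (D' + m • E))).subtype)
      _ _ (fun x => (key m x.1 x.2).1) (fun x hx => (key m x.1 x.2).2 hx)
      (fun x h1 h2 => Subtype.ext (Prod.ext h1 h2))
  have hfinal := riemann_count hRBK v vL hred hcart jj hjj hrange hdeg₁ hdeg₂ hRB₁ hRB₂ P₁ P₂
    Y₁ Y₂ d₁ d₂ hd₁ hd₂ hdY₁ hdY₂ E hdE (Fintype.card I) hcard D' A₁ A₂ hdim
  rw [hA₁, hA₂, map_sub, map_sub, degree_ptsDiv hdeg₁, degree_ptsDiv hdeg₂] at hfinal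
  linarith

/-- **Second half** (unit at `v 1`, for `c₀ H⁻¹`).  For `p D'' ≤ - div H`:
`deg D'' + z₁ + z₂ ≤ deg ⌊- div H₁ / p⌋ + deg ⌊div G₂ / p⌋ + #I`. -/
theorem half_B
    {K F : Type*} [Field K] [Field F] [Algebra K F]
    (hRBK : HasRiemannBound K F)
    {Γ₀ : Type*} [LinearOrderedCommGroupWithZero Γ₀]
    (v : Fin 2 → Valuation F Γ₀) (vL : Valuation K Γ₀)
    {Fk : Type*} [CommRing Fk] [Algebra kk Fk] {red : F → Fk}
    (hred : RedDataW v (fun _ => (1 : Γ₀)) vL kk red red)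
    (hcart : ∀ D : Divisor K F, CartesianW v (fun _ => (1 : Γ₀)) vL (riemannRochSpace D))
    (jj : Fk₁ × Fk₂ →ₐ[kk] Fk) (hjj : Function.Injective jj)
    (hrange : ∀ f : F, (∀ i, v i f ≤ 1) → ∃ y : Fk₁ × Fk₂, red f = jj y)
    [HasPrincipalDivisors kk Fk₁] [HasPrincipalDivisors kk Fk₂]
    (hdeg₁ : ∀ w : Place kk Fk₁, w.deg = 1) (hdeg₂ : ∀ w : Place kk Fk₂, w.deg = 1)
    (hRB₁ : HasRiemannBound kk Fk₁) (hRB₂ : HasRiemannBound kk Fk₂)
    (P₁ : Place kk Fk₁) (P₂ : Place kk Fk₂)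
    (P : I → Place kk Fk₁) (Q : I → Place kk Fk₂)
    (hP : Function.Injective P) (hQ : Function.Injective Q)
    (Y₁ : Divisor kk Fk₁) (Y₂ : Divisor kk Fk₂)
    (d₁ d₂ : ℕ) (hd₁ : 0 < d₁) (hd₂ : 0 < d₂)
    (hdY₁ : Divisor.degree Y₁ = d₁) (hdY₂ : Divisor.degree Y₂ = d₂)
    (hPY : ∀ i, Y₁ (P i) = 0) (hQY : ∀ i, Y₂ (Q i) = 0)
    (E : Divisor K F) (hdE : Divisor.degree E = ((d₁ + d₂ : ℕ) : ℤ))
    (hcont : ∀ m : ℕ, ∀ f ∈ riemannRochSpace (m • E), (∀ i, v i f ≤ 1) →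
      ∃ y₁ ∈ riemannRochSpace (m • Y₁), ∃ y₂ ∈ riemannRochSpace (m • Y₂),
        red f = jj (y₁, y₂) ∧
          ∀ i, valueAt (Q i) (hdeg₂ (Q i)) y₂ = valueAt (P i) (hdeg₁ (P i)) y₁)
    (hcard : riemannGenus K F + 1 ≤
      riemannGenus kk Fk₁ + riemannGenus kk Fk₂ + Fintype.card I)
    (p : ℕ) (hp : 0 < p) (H : F) (c₀ ϖ : K)
    (hv0 : v 0 H = 1) (hv1 : v 1 H = vL c₀) (hc₀ : vL c₀ < 1) (hϖ : vL ϖ ^ p < vL c₀)
    (H₁ : Fk₁) (G₂ : Fk₂) (hH₁ : H₁ ≠ 0) (hG₂ : G₂ ≠ 0)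
    (hredH : red H = jj (H₁, 0)) (hredG : red (algebraMap K F c₀ * H⁻¹) = jj (0, G₂))
    (DH₁ : Divisor kk Fk₁) (hDH₁ : ∀ w : Place kk Fk₁, DH₁ w = w.ord H₁)
    (DG₂ : Divisor kk Fk₂) (hDG₂ : ∀ w : Place kk Fk₂, DG₂ w = w.ord G₂)
    (D'' : Divisor K F) (hD'' : ∀ w : Place K F, (p : ℤ) * D'' w ≤ -w.ord H)
    (hjump : ∀ m : ℕ, ∀ f ∈ riemannRochSpace (D'' + m • E), (∀ j, v j f ≤ 1) → v 1 f < 1 →
      ∃ f' ∈ riemannRochSpace (D'' + m • E), (∀ j, v j f' ≤ 1) ∧ v 1 f' ≤ vL ϖ ∧ red f' = red f) :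
    Divisor.degree D'' + ((Finset.univ.filter fun i => (p : ℤ) ∣ DH₁ (P i)).card : ℤ) +
        ((Finset.univ.filter fun i => (p : ℤ) ∣ DG₂ (Q i)).card : ℤ) ≤
      Divisor.degree (floorDiv p (-DH₁)) + Divisor.degree (floorDiv p DG₂) + Fintype.card I := by
  classical
  set T₁ : Finset I := Finset.univ.filter fun i => (p : ℤ) ∣ DH₁ (P i) with hT₁
  set T₂ : Finset I := Finset.univ.filter fun i => (p : ℤ) ∣ DG₂ (Q i) with hT₂
  set B₁ : Divisor kk Fk₁ := floorDiv p (-DH₁) - ptsDiv P T₁ with hB₁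
  set B₂ : Divisor kk Fk₂ := floorDiv p DG₂ - ptsDiv Q T₂ with hB₂
  have hc₀0 : vL c₀ ≠ 0 := fun h => by
    rw [h] at hϖ
    exact not_lt_zero hϖ
  have hc₀ne : c₀ ≠ 0 := fun h => hc₀0 (by rw [h, map_zero])
  have hH0 : H ≠ 0 := fun h => by
    rw [h, map_zero] at hv0
    exact zero_ne_one hv0
  set G : F := algebraMap K F c₀ * H⁻¹ with hG
  have hG0 : G ≠ 0 :=
    mul_ne_zero ((map_ne_zero (algebraMap K F)).mpr hc₀ne) (inv_ne_zero hH0)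
  have hGv0 : v 0 G = vL c₀ := by
    rw [hG, map_mul, hred.val_algebraMap, map_inv₀, hv0, inv_one, mul_one]
  have hGv1 : v 1 G = 1 := by
    rw [hG, map_mul, hred.val_algebraMap, map_inv₀, hv1, mul_inv_cancel₀ hc₀0]
  have hGb : ∀ i, v i G ≤ 1 := fun i => by
    fin_cases i
    · show v 0 G ≤ 1
      rw [hGv0]
      exact hc₀.le
    · exact hGv1.le
  have hGH : G * H = algebraMap K F c₀ := by
    rw [hG, mul_assoc, inv_mul_cancel₀ hH0, mul_one]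
  have hD''G : ∀ w : Place K F, (p : ℤ) * D'' w ≤ w.ord G := fun w => by
    rw [hG, w.ord_mul ((map_ne_zero (algebraMap K F)).mpr hc₀ne) (inv_ne_zero hH0),
      ord_algebraMap_of_ne_zero w hc₀ne, zero_add, w.ord_inv]
    exact hD'' w
  have hi : ∀ i : Fin 2, i = 1 ∨ i = 0 := by decide
  have key : ∀ m : ℕ, ∀ y ∈ redBall hred jj (riemannRochSpace (D'' + m • E)),
      y.2 ∈ riemannRochSpace (m • Y₂ + B₂) ∧
        (y.2 = 0 → y.1 ∈ riemannRochSpace (m • Y₁ + B₁)) := by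
    rintro m y ⟨f, hfS, hfb, hfy⟩
    constructor
    · obtain ⟨-, h2, h3⟩ := key_glued hred jj hjj hdeg₁ hdeg₂ P Q Y₁ Y₂ E hcont hp D'' m hG0 hGb
        hD''G hredG hfS hfb hfy
      have h2' : y.2 ^ p * G₂ ∈ riemannRochSpace ((p * m) • Y₂) := h2
      have h3' : ∀ i, valueAt (Q i) (hdeg₂ (Q i)) (y.2 ^ p * G₂) =
          valueAt (P i) (hdeg₁ (P i)) (y.1 ^ p * 0) := h3
      have h4 := mem_rr_floor hdeg₂ Y₂ Q hQ hQY hp m hG₂ DG₂ hDG₂ T₂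
        (fun i hi => (Finset.mem_filter.mp hi).2) h2' (fun i _ => by
          rw [h3' i, mul_zero]
          exact valueAt_zero _ _)
      rwa [hB₂, ← add_sub_assoc]
    · intro hy2
      obtain ⟨z, hzw, hzu, hz₁, -, hnode⟩ := key_jump hred jj hjj hdeg₁ hdeg₂ P Q Y₁ Y₂ E hcont hp
        D'' m 1 0 hi hGH hGv1 hGv0 hc₀ hϖ hD''G hredG hredH hfb (hjump m f hfS hfb) hfy
        (Prod.ext (by show y.1 * 0 = 0; rw [mul_zero]) (by show y.2 * G₂ = 0; rw [hy2, zero_mul]))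
      have e1 : z.1 * H₁ = y.1 ^ p := congrArg Prod.fst hzw
      have e2 : z.2 * G₂ = 0 := congrArg Prod.snd hzu
      have hz2 : z.2 = 0 := (mul_eq_zero.mp e2).resolve_right hG₂
      have hz1 : z.1 = y.1 ^ p * H₁⁻¹ := by
        rw [← e1, mul_assoc, mul_inv_cancel₀ hH₁, mul_one]
      have h4 := mem_rr_floor hdeg₁ Y₁ P hP hPY hp m (inv_ne_zero hH₁) (-DH₁)
        (fun w => by rw [Finsupp.neg_apply, hDH₁, w.ord_inv]) T₁
        (fun i hi => by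
          rw [Finsupp.neg_apply, dvd_neg]
          exact (Finset.mem_filter.mp hi).2)
        (y := y.1) (by rw [← hz1]; exact hz₁)
        (fun i _ => by
          rw [← hz1, ← hnode i, hz2]
          exact valueAt_zero _ _)
      rwa [hB₁, ← add_sub_assoc]
  have hdim : ∀ m : ℕ, Module.Finite kk (redBall hred jj (riemannRochSpace (D'' + m • E))) ∧
      finrank kk (redBall hred jj (riemannRochSpace (D'' + m • E))) ≤
        finrank kk (riemannRochSpace (m • Y₁ + B₁)) +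
          finrank kk (riemannRochSpace (m • Y₂ + B₂)) := by
    intro m
    have : Module.Finite kk (riemannRochSpace (m • Y₁ + B₁)) :=
      Fermat.Agent.S18.helper981.finite_riemannRochSpace hdeg₁ P₁ _
    have : Module.Finite kk (riemannRochSpace (m • Y₂ + B₂)) :=
      Fermat.Agent.S18.helper981.finite_riemannRochSpace hdeg₂ P₂ _
    rw [add_comm (finrank kk (riemannRochSpace (m • Y₁ + B₁)))]
    exact finrank_le_of_two_steps
      ((LinearMap.snd kk Fk₁ Fk₂).comp (redBall hred jj (riemannRochSpace (D'' + m • E))).subtype)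
      ((LinearMap.fst kk Fk₁ Fk₂).comp (redBall hred jj (riemannRochSpace (D'' + m • E))).subtype)
      _ _ (fun x => (key m x.1 x.2).1) (fun x hx => (key m x.1 x.2).2 hx)
      (fun x h1 h2 => Subtype.ext (Prod.ext h2 h1))
  have hfinal := riemann_count hRBK v vL hred hcart jj hjj hrange hdeg₁ hdeg₂ hRB₁ hRB₂ P₁ P₂
    Y₁ Y₂ d₁ d₂ hd₁ hd₂ hdY₁ hdY₂ E hdE (Fintype.card I) hcard D'' B₁ B₂ hdim
  rw [hB₁, hB₂, map_sub, map_sub, degree_ptsDiv hdeg₁, degree_ptsDiv hdeg₂] at hfinal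
  linarith

/-- `p ∣ ord (a b ^ p) ↔ p ∣ ord a`: twisting by a `p`-th power does not change the parity. -/
theorem dvd_ord_mul_pow_iff {k F : Type*} [Field k] [Field F] [Algebra k F] (w : Place k F)
    {a b : F} (ha : a ≠ 0) (hb : b ≠ 0) (p : ℕ) :
    (p : ℤ) ∣ w.ord (a * b ^ p) ↔ (p : ℤ) ∣ w.ord a := by
  rw [w.ord_mul ha (pow_ne_zero p hb), ← zpow_natCast, w.ord_zpow]
  exact dvd_add_left (dvd_mul_right _ _)

/-- **ODD COUNT, quantitative core.**  `H` with `v 0 H = 1`, `v 1 H = |c₀|`,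
`|ϖ| ^ p < |c₀| < 1`, reductions `red H = jj (H₁, 0)`, `red (c₀ H⁻¹) = jj (0, G₂)`; divisors
`p D' ≤ div H`, `p D'' ≤ - div H`.  Then `H₁, G₂ ≠ 0` and
`deg D' + deg D'' + #{i | p ∣ ord_{P i} H₁} + #{i | p ∣ ord_{Q i} G₂} + #s₁ + #s₂ ≤ 0`
for all finite sets `s₁`, `s₂` of non-node places where `p ∤ ord H₁`, resp. `p ∤ ord G₂`. -/
theorem odd_count_core
    {K F : Type*} [Field K] [Field F] [Algebra K F]
    (hRBK : HasRiemannBound K F)
    {Γ₀ : Type*} [LinearOrderedCommGroupWithZero Γ₀]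
    (v : Fin 2 → Valuation F Γ₀) (vL : Valuation K Γ₀)
    {Fk : Type*} [CommRing Fk] [Algebra kk Fk] {red : F → Fk}
    (hred : RedDataW v (fun _ => (1 : Γ₀)) vL kk red red)
    (hcart : ∀ D : Divisor K F, CartesianW v (fun _ => (1 : Γ₀)) vL (riemannRochSpace D))
    (jj : Fk₁ × Fk₂ →ₐ[kk] Fk) (hjj : Function.Injective jj)
    (hrange : ∀ f : F, (∀ i, v i f ≤ 1) → ∃ y : Fk₁ × Fk₂, red f = jj y)
    [HasPrincipalDivisors kk Fk₁] [HasPrincipalDivisors kk Fk₂]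
    (hdeg₁ : ∀ w : Place kk Fk₁, w.deg = 1) (hdeg₂ : ∀ w : Place kk Fk₂, w.deg = 1)
    (hRB₁ : HasRiemannBound kk Fk₁) (hRB₂ : HasRiemannBound kk Fk₂)
    (P₁ : Place kk Fk₁) (P₂ : Place kk Fk₂)
    (P : I → Place kk Fk₁) (Q : I → Place kk Fk₂)
    (hP : Function.Injective P) (hQ : Function.Injective Q)
    (Y₁ : Divisor kk Fk₁) (Y₂ : Divisor kk Fk₂)
    (d₁ d₂ : ℕ) (hd₁ : 0 < d₁) (hd₂ : 0 < d₂)
    (hdY₁ : Divisor.degree Y₁ = d₁) (hdY₂ : Divisor.degree Y₂ = d₂)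
    (hPY : ∀ i, Y₁ (P i) = 0) (hQY : ∀ i, Y₂ (Q i) = 0)
    (E : Divisor K F) (hdE : Divisor.degree E = ((d₁ + d₂ : ℕ) : ℤ))
    (hcont : ∀ m : ℕ, ∀ f ∈ riemannRochSpace (m • E), (∀ i, v i f ≤ 1) →
      ∃ y₁ ∈ riemannRochSpace (m • Y₁), ∃ y₂ ∈ riemannRochSpace (m • Y₂),
        red f = jj (y₁, y₂) ∧
          ∀ i, valueAt (Q i) (hdeg₂ (Q i)) y₂ = valueAt (P i) (hdeg₁ (P i)) y₁)
    (hcard : riemannGenus K F + 1 ≤
      riemannGenus kk Fk₁ + riemannGenus kk Fk₂ + Fintype.card I)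
    (p : ℕ) (hp : 0 < p) (H : F) (c₀ ϖ : K)
    (hv0 : v 0 H = 1) (hv1 : v 1 H = vL c₀) (hc₀ : vL c₀ < 1) (hϖ : vL ϖ ^ p < vL c₀)
    (H₁ : Fk₁) (G₂ : Fk₂)
    (hredH : red H = jj (H₁, 0)) (hredG : red (algebraMap K F c₀ * H⁻¹) = jj (0, G₂))
    (D' D'' : Divisor K F) (hD' : ∀ w : Place K F, (p : ℤ) * D' w ≤ w.ord H)
    (hD'' : ∀ w : Place K F, (p : ℤ) * D'' w ≤ -w.ord H)
    (hjump₀ : ∀ m : ℕ, ∀ f ∈ riemannRochSpace (D' + m • E), (∀ j, v j f ≤ 1) → v 0 f < 1 →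
      ∃ f' ∈ riemannRochSpace (D' + m • E), (∀ j, v j f' ≤ 1) ∧ v 0 f' ≤ vL ϖ ∧ red f' = red f)
    (hjump₁ : ∀ m : ℕ, ∀ f ∈ riemannRochSpace (D'' + m • E), (∀ j, v j f ≤ 1) → v 1 f < 1 →
      ∃ f' ∈ riemannRochSpace (D'' + m • E), (∀ j, v j f' ≤ 1) ∧ v 1 f' ≤ vL ϖ ∧ red f' = red f)
    (s₁ : Finset (Place kk Fk₁)) (s₂ : Finset (Place kk Fk₂))
    (hs₁ : ∀ w ∈ s₁, (∀ i, P i ≠ w) ∧ ¬ (p : ℤ) ∣ w.ord H₁)
    (hs₂ : ∀ w ∈ s₂, (∀ i, Q i ≠ w) ∧ ¬ (p : ℤ) ∣ w.ord G₂) :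
    H₁ ≠ 0 ∧ G₂ ≠ 0 ∧
      Divisor.degree D' + Divisor.degree D'' +
        (((Finset.univ.filter fun i => (p : ℤ) ∣ (P i).ord H₁).card +
          (Finset.univ.filter fun i => (p : ℤ) ∣ (Q i).ord G₂).card + s₁.card + s₂.card : ℕ) : ℤ)
        ≤ 0 := by
  classical
  have hc₀0 : vL c₀ ≠ 0 := fun h => by
    rw [h] at hϖ
    exact not_lt_zero hϖ
  have hH0 : H ≠ 0 := fun h => by
    rw [h, map_zero] at hv0
    exact zero_ne_one hv0
  have hHb : ∀ i, v i H ≤ 1 := fun i => by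
    fin_cases i
    · exact hv0.le
    · show v 1 H ≤ 1
      rw [hv1]
      exact hc₀.le
  have hGv0 : v 0 (algebraMap K F c₀ * H⁻¹) = vL c₀ := by
    rw [map_mul, hred.val_algebraMap, map_inv₀, hv0, inv_one, mul_one]
  have hGv1 : v 1 (algebraMap K F c₀ * H⁻¹) = 1 := by
    rw [map_mul, hred.val_algebraMap, map_inv₀, hv1, mul_inv_cancel₀ hc₀0]
  have hGb : ∀ i, v i (algebraMap K F c₀ * H⁻¹) ≤ 1 := fun i => by
    fin_cases i
    · show v 0 (algebraMap K F c₀ * H⁻¹) ≤ 1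
      rw [hGv0]
      exact hc₀.le
    · exact hGv1.le
  have hH₁ : H₁ ≠ 0 := by
    intro h
    have h0 : red H = 0 := by
      rw [hredH, h]
      exact map_zero jj
    have h1 := (hred.eq_zero_iff H hHb).mp h0 0
    rw [hv0] at h1
    exact lt_irrefl _ h1
  have hG₂ : G₂ ≠ 0 := by
    intro h
    have h0 : red (algebraMap K F c₀ * H⁻¹) = 0 := by
      rw [hredG, h]
      exact map_zero jj
    have h1 := (hred.eq_zero_iff _ hGb).mp h0 1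
    rw [hGv1] at h1
    exact lt_irrefl _ h1
  refine ⟨hH₁, hG₂, ?_⟩
  obtain ⟨DH₁, hDH₁, -⟩ := HasPrincipalDivisors.exists_divisor (K := kk) H₁ hH₁
  obtain ⟨DG₂, hDG₂, -⟩ := HasPrincipalDivisors.exists_divisor (K := kk) G₂ hG₂
  have hA := half_A hRBK v vL hred hcart jj hjj hrange hdeg₁ hdeg₂ hRB₁ hRB₂ P₁ P₂ P Q hP hQ
    Y₁ Y₂ d₁ d₂ hd₁ hd₂ hdY₁ hdY₂ hPY hQY E hdE hcont hcard
    p hp H c₀ ϖ hv0 hv1 hc₀ hϖ H₁ G₂ hH₁ hG₂ hredH hredG DH₁ hDH₁ DG₂ hDG₂ D' hD' hjump₀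
  have hB := half_B hRBK v vL hred hcart jj hjj hrange hdeg₁ hdeg₂ hRB₁ hRB₂ P₁ P₂ P Q hP hQ
    Y₁ Y₂ d₁ d₂ hd₁ hd₂ hdY₁ hdY₂ hPY hQY E hdE hcont hcard
    p hp H c₀ ϖ hv0 hv1 hc₀ hϖ H₁ G₂ hH₁ hG₂ hredH hredG DH₁ hDH₁ DG₂ hDG₂ D'' hD'' hjump₁
  have hN₁ := degree_floorDiv_add_neg hdeg₁ hp DH₁
  have hN₂ := degree_floorDiv_add_neg hdeg₂ hp DG₂
  have hT₁ : (Finset.univ.filter fun i => (p : ℤ) ∣ DH₁ (P i)) =
      Finset.univ.filter fun i => (p : ℤ) ∣ (P i).ord H₁ :=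
    Finset.filter_congr fun i _ => by rw [hDH₁]
  have hT₂ : (Finset.univ.filter fun i => (p : ℤ) ∣ DG₂ (Q i)) =
      Finset.univ.filter fun i => (p : ℤ) ∣ (Q i).ord G₂ :=
    Finset.filter_congr fun i _ => by rw [hDG₂]
  rw [hT₁, hT₂] at hA hB
  -- the places with `p ∤ ord`: the odd node branches and the given non-node places
  have hcount₁ : Fintype.card I + s₁.card ≤
      (Finset.univ.filter fun i => (p : ℤ) ∣ (P i).ord H₁).card +
        (DH₁.support.filter fun w => ¬ (p : ℤ) ∣ DH₁ w).card := by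
    have hsplit := Finset.card_filter_add_card_filter_not (s := (Finset.univ : Finset I))
      (fun i => (p : ℤ) ∣ (P i).ord H₁)
    rw [Finset.card_univ] at hsplit
    have hsub : (Finset.univ.filter fun i => ¬ (p : ℤ) ∣ (P i).ord H₁).image P ∪ s₁ ⊆
        DH₁.support.filter fun w => ¬ (p : ℤ) ∣ DH₁ w := by
      intro w hw
      have hnd : ¬ (p : ℤ) ∣ DH₁ w := by
        rcases Finset.mem_union.mp hw with hw | hw
        · obtain ⟨i, hi, rfl⟩ := Finset.mem_image.mp hw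
          rw [hDH₁]
          exact (Finset.mem_filter.mp hi).2
        · rw [hDH₁]
          exact (hs₁ w hw).2
      refine Finset.mem_filter.mpr ⟨Finsupp.mem_support_iff.mpr fun h0 => hnd ?_, hnd⟩
      rw [h0]
      exact dvd_zero _
    have hdisj : Disjoint ((Finset.univ.filter fun i => ¬ (p : ℤ) ∣ (P i).ord H₁).image P) s₁ := by
      rw [Finset.disjoint_left]
      intro w hw hw'
      obtain ⟨i, -, rfl⟩ := Finset.mem_image.mp hw
      exact (hs₁ _ hw').1 i rfl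
    have hcard := Finset.card_le_card hsub
    rw [Finset.card_union_of_disjoint hdisj, Finset.card_image_of_injective _ hP] at hcard
    omega
  have hcount₂ : Fintype.card I + s₂.card ≤
      (Finset.univ.filter fun i => (p : ℤ) ∣ (Q i).ord G₂).card +
        (DG₂.support.filter fun w => ¬ (p : ℤ) ∣ DG₂ w).card := by
    have hsplit := Finset.card_filter_add_card_filter_not (s := (Finset.univ : Finset I))
      (fun i => (p : ℤ) ∣ (Q i).ord G₂)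
    rw [Finset.card_univ] at hsplit
    have hsub : (Finset.univ.filter fun i => ¬ (p : ℤ) ∣ (Q i).ord G₂).image Q ∪ s₂ ⊆
        DG₂.support.filter fun w => ¬ (p : ℤ) ∣ DG₂ w := by
      intro w hw
      have hnd : ¬ (p : ℤ) ∣ DG₂ w := by
        rcases Finset.mem_union.mp hw with hw | hw
        · obtain ⟨i, hi, rfl⟩ := Finset.mem_image.mp hw
          rw [hDG₂]
          exact (Finset.mem_filter.mp hi).2
        · rw [hDG₂]
          exact (hs₂ w hw).2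
      refine Finset.mem_filter.mpr ⟨Finsupp.mem_support_iff.mpr fun h0 => hnd ?_, hnd⟩
      rw [h0]
      exact dvd_zero _
    have hdisj : Disjoint ((Finset.univ.filter fun i => ¬ (p : ℤ) ∣ (Q i).ord G₂).image Q) s₂ := by
      rw [Finset.disjoint_left]
      intro w hw hw'
      obtain ⟨i, -, rfl⟩ := Finset.mem_image.mp hw
      exact (hs₂ _ hw').1 i rfl
    have hcard := Finset.card_le_card hsub
    rw [Finset.card_union_of_disjoint hdisj, Finset.card_image_of_injective _ hQ] at hcard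
    omega
  have hc₁Z : (Fintype.card I : ℤ) + s₁.card ≤
      ((Finset.univ.filter fun i => (p : ℤ) ∣ (P i).ord H₁).card : ℤ) +
        ((DH₁.support.filter fun w => ¬ (p : ℤ) ∣ DH₁ w).card : ℤ) := by exact_mod_cast hcount₁
  have hc₂Z : (Fintype.card I : ℤ) + s₂.card ≤
      ((Finset.univ.filter fun i => (p : ℤ) ∣ (Q i).ord G₂).card : ℤ) +
        ((DG₂.support.filter fun w => ¬ (p : ℤ) ∣ DG₂ w).card : ℤ) := by exact_mod_cast hcount₂
  push_cast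
  linarith

/-- `deg D₀ + deg D₀' = - #supp (D₀ + D₀')` for `D₀ = ⌊g / n⌋`, `D₀' = ⌊-g / n⌋`, and `n ∤ g` on that
support. -/
theorem degree_add_of_floor {k F : Type*} [Field k] [Field F] [Algebra k F]
    (hdeg : ∀ w : Place k F, w.deg = 1) {n : ℕ} (hn : 0 < n) (g : Place k F → ℤ)
    (D0 D0' : Divisor k F) (hD0 : ∀ w : Place k F, D0 w = g w / (n : ℤ))
    (hD0' : ∀ w : Place k F, D0' w = (-g w) / (n : ℤ)) :
    Divisor.degree D0 + Divisor.degree D0' = -(((D0 + D0').support.card : ℕ) : ℤ) ∧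
      ∀ w ∈ (D0 + D0').support, ¬ (n : ℤ) ∣ g w := by
  have hn' : (0 : ℤ) < n := by exact_mod_cast hn
  have hmem : ∀ w ∈ (D0 + D0').support, ¬ (n : ℤ) ∣ g w := by
    intro w hw hd
    rw [Finsupp.mem_support_iff, Finsupp.add_apply, hD0, hD0',
      ediv_add_neg_ediv_of_dvd hn' hd] at hw
    exact hw rfl
  refine ⟨?_, hmem⟩
  rw [← map_add, Fermat.Agent.S18.helper981.degree_eq_sum hdeg, Finsupp.sum,
    Finset.sum_congr rfl (g := fun _ => (-1 : ℤ))]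
  · rw [Finset.sum_const, nsmul_eq_mul, mul_neg, mul_one]
  · intro w hw
    rw [Finsupp.add_apply, hD0, hD0', ediv_add_neg_ediv_of_not_dvd hn' (hmem w hw)]

/-- **ODD COUNT** (one chart), with `D₀ = ⌊div H / p⌋`, `D₀' = ⌊- div H / p⌋`: if `S` contains
every place of the generic fibre where `p ∤ ord H` (the cusps, for `H = h ε ^ j`; `S = ∅` for a
Kummer function), then `#{i | p ∣ ord_{P i} H₁} + #{i | p ∣ ord_{Q i} G₂} + #s₁ + #s₂ ≤ #S`. -/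
theorem odd_count
    {K F : Type*} [Field K] [Field F] [Algebra K F]
    (hRBK : HasRiemannBound K F)
    {Γ₀ : Type*} [LinearOrderedCommGroupWithZero Γ₀]
    (v : Fin 2 → Valuation F Γ₀) (vL : Valuation K Γ₀)
    {Fk : Type*} [CommRing Fk] [Algebra kk Fk] {red : F → Fk}
    (hred : RedDataW v (fun _ => (1 : Γ₀)) vL kk red red)
    (hcart : ∀ D : Divisor K F, CartesianW v (fun _ => (1 : Γ₀)) vL (riemannRochSpace D))
    (jj : Fk₁ × Fk₂ →ₐ[kk] Fk) (hjj : Function.Injective jj)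
    (hrange : ∀ f : F, (∀ i, v i f ≤ 1) → ∃ y : Fk₁ × Fk₂, red f = jj y)
    [HasPrincipalDivisors kk Fk₁] [HasPrincipalDivisors kk Fk₂]
    (hdeg₁ : ∀ w : Place kk Fk₁, w.deg = 1) (hdeg₂ : ∀ w : Place kk Fk₂, w.deg = 1)
    (hRB₁ : HasRiemannBound kk Fk₁) (hRB₂ : HasRiemannBound kk Fk₂)
    (P₁ : Place kk Fk₁) (P₂ : Place kk Fk₂)
    (P : I → Place kk Fk₁) (Q : I → Place kk Fk₂)
    (hP : Function.Injective P) (hQ : Function.Injective Q)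
    (Y₁ : Divisor kk Fk₁) (Y₂ : Divisor kk Fk₂)
    (d₁ d₂ : ℕ) (hd₁ : 0 < d₁) (hd₂ : 0 < d₂)
    (hdY₁ : Divisor.degree Y₁ = d₁) (hdY₂ : Divisor.degree Y₂ = d₂)
    (hPY : ∀ i, Y₁ (P i) = 0) (hQY : ∀ i, Y₂ (Q i) = 0)
    (E : Divisor K F) (hdE : Divisor.degree E = ((d₁ + d₂ : ℕ) : ℤ))
    (hcont : ∀ m : ℕ, ∀ f ∈ riemannRochSpace (m • E), (∀ i, v i f ≤ 1) →
      ∃ y₁ ∈ riemannRochSpace (m • Y₁), ∃ y₂ ∈ riemannRochSpace (m • Y₂),
        red f = jj (y₁, y₂) ∧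
          ∀ i, valueAt (Q i) (hdeg₂ (Q i)) y₂ = valueAt (P i) (hdeg₁ (P i)) y₁)
    (hcard : riemannGenus K F + 1 ≤
      riemannGenus kk Fk₁ + riemannGenus kk Fk₂ + Fintype.card I)
    (hdegK : ∀ w : Place K F, w.deg = 1)
    (p : ℕ) (hp : 0 < p) (H : F) (c₀ ϖ : K)
    (hv0 : v 0 H = 1) (hv1 : v 1 H = vL c₀) (hc₀ : vL c₀ < 1) (hϖ : vL ϖ ^ p < vL c₀)
    (H₁ : Fk₁) (G₂ : Fk₂)
    (hredH : red H = jj (H₁, 0)) (hredG : red (algebraMap K F c₀ * H⁻¹) = jj (0, G₂))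
    (D0 D0' : Divisor K F) (hD0 : ∀ w : Place K F, D0 w = w.ord H / (p : ℤ))
    (hD0' : ∀ w : Place K F, D0' w = (-w.ord H) / (p : ℤ))
    (hjump0 : ∀ m : ℕ, ∀ f ∈ riemannRochSpace (D0 + m • E), (∀ j, v j f ≤ 1) → v 0 f < 1 →
      ∃ f' ∈ riemannRochSpace (D0 + m • E), (∀ j, v j f' ≤ 1) ∧ v 0 f' ≤ vL ϖ ∧ red f' = red f)
    (hjump1 : ∀ m : ℕ, ∀ f ∈ riemannRochSpace (D0' + m • E), (∀ j, v j f ≤ 1) → v 1 f < 1 →
      ∃ f' ∈ riemannRochSpace (D0' + m • E), (∀ j, v j f' ≤ 1) ∧ v 1 f' ≤ vL ϖ ∧ red f' = red f)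
    (S : Finset (Place K F)) (hS : ∀ w : Place K F, ¬ (p : ℤ) ∣ w.ord H → w ∈ S)
    (s₁ : Finset (Place kk Fk₁)) (s₂ : Finset (Place kk Fk₂))
    (hs₁ : ∀ w ∈ s₁, (∀ i, P i ≠ w) ∧ ¬ (p : ℤ) ∣ w.ord H₁)
    (hs₂ : ∀ w ∈ s₂, (∀ i, Q i ≠ w) ∧ ¬ (p : ℤ) ∣ w.ord G₂) :
    H₁ ≠ 0 ∧ G₂ ≠ 0 ∧
      (Finset.univ.filter fun i => (p : ℤ) ∣ (P i).ord H₁).card +
        (Finset.univ.filter fun i => (p : ℤ) ∣ (Q i).ord G₂).card + s₁.card + s₂.card ≤ S.card := by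
  classical
  have hp' : (p : ℤ) ≠ 0 := by exact_mod_cast hp.ne'
  obtain ⟨h1, h2, h3⟩ := odd_count_core hRBK v vL hred hcart jj hjj hrange hdeg₁ hdeg₂ hRB₁ hRB₂ P₁ P₂ P Q hP hQ
    Y₁ Y₂ d₁ d₂ hd₁ hd₂ hdY₁ hdY₂ hPY hQY E hdE hcont hcard
    p hp H c₀ ϖ hv0 hv1 hc₀ hϖ H₁ G₂ hredH hredG D0 D0'
    (fun w => by
      rw [hD0 w]
      exact Int.mul_ediv_self_le hp')
    (fun w => by
      rw [hD0' w]
      exact Int.mul_ediv_self_le hp')
    hjump0 hjump1 s₁ s₂ hs₁ hs₂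
  refine ⟨h1, h2, ?_⟩
  obtain ⟨hdegsum, hsupp⟩ := degree_add_of_floor hdegK hp (fun w => w.ord H) D0 D0' hD0 hD0'
  rw [hdegsum] at h3
  have hsub : (D0 + D0').support ⊆ S := fun w hw => hS w (hsupp w hw)
  have hle : (((D0 + D0').support.card : ℕ) : ℤ) ≤ S.card := by
    exact_mod_cast Finset.card_le_card hsub
  have h4 : (((Finset.univ.filter fun i => (p : ℤ) ∣ (P i).ord H₁).card +
      (Finset.univ.filter fun i => (p : ℤ) ∣ (Q i).ord G₂).card + s₁.card + s₂.card : ℕ) : ℤ) ≤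
      S.card := by linarith
  exact_mod_cast h4

/-- **ODD COUNT, structure** (one chart; = `(IN-ODD)`): if the places of the generic fibre where
`p ∤ ord H` are accounted for by non-node places `Z₁`, `Z₂` of the special fibre where `p ∤ ord`
of the reductions (`#S ≤ #Z₁ + #Z₂`: the cusps reduce injectively to non-node points, with the
same order mod `p`), then `p ∤ ord_{P i} H₁` and `p ∤ ord_{Q i} G₂` at EVERY node, and
`p ∣ ord` at every other place outside `Z₁`, `Z₂`. -/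
theorem odd_count_str
    {K F : Type*} [Field K] [Field F] [Algebra K F]
    (hRBK : HasRiemannBound K F)
    {Γ₀ : Type*} [LinearOrderedCommGroupWithZero Γ₀]
    (v : Fin 2 → Valuation F Γ₀) (vL : Valuation K Γ₀)
    {Fk : Type*} [CommRing Fk] [Algebra kk Fk] {red : F → Fk}
    (hred : RedDataW v (fun _ => (1 : Γ₀)) vL kk red red)
    (hcart : ∀ D : Divisor K F, CartesianW v (fun _ => (1 : Γ₀)) vL (riemannRochSpace D))
    (jj : Fk₁ × Fk₂ →ₐ[kk] Fk) (hjj : Function.Injective jj)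
    (hrange : ∀ f : F, (∀ i, v i f ≤ 1) → ∃ y : Fk₁ × Fk₂, red f = jj y)
    [HasPrincipalDivisors kk Fk₁] [HasPrincipalDivisors kk Fk₂]
    (hdeg₁ : ∀ w : Place kk Fk₁, w.deg = 1) (hdeg₂ : ∀ w : Place kk Fk₂, w.deg = 1)
    (hRB₁ : HasRiemannBound kk Fk₁) (hRB₂ : HasRiemannBound kk Fk₂)
    (P₁ : Place kk Fk₁) (P₂ : Place kk Fk₂)
    (P : I → Place kk Fk₁) (Q : I → Place kk Fk₂)
    (hP : Function.Injective P) (hQ : Function.Injective Q)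
    (Y₁ : Divisor kk Fk₁) (Y₂ : Divisor kk Fk₂)
    (d₁ d₂ : ℕ) (hd₁ : 0 < d₁) (hd₂ : 0 < d₂)
    (hdY₁ : Divisor.degree Y₁ = d₁) (hdY₂ : Divisor.degree Y₂ = d₂)
    (hPY : ∀ i, Y₁ (P i) = 0) (hQY : ∀ i, Y₂ (Q i) = 0)
    (E : Divisor K F) (hdE : Divisor.degree E = ((d₁ + d₂ : ℕ) : ℤ))
    (hcont : ∀ m : ℕ, ∀ f ∈ riemannRochSpace (m • E), (∀ i, v i f ≤ 1) →
      ∃ y₁ ∈ riemannRochSpace (m • Y₁), ∃ y₂ ∈ riemannRochSpace (m • Y₂),
        red f = jj (y₁, y₂) ∧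
          ∀ i, valueAt (Q i) (hdeg₂ (Q i)) y₂ = valueAt (P i) (hdeg₁ (P i)) y₁)
    (hcard : riemannGenus K F + 1 ≤
      riemannGenus kk Fk₁ + riemannGenus kk Fk₂ + Fintype.card I)
    (hdegK : ∀ w : Place K F, w.deg = 1)
    (p : ℕ) (hp : 0 < p) (H : F) (c₀ ϖ : K)
    (hv0 : v 0 H = 1) (hv1 : v 1 H = vL c₀) (hc₀ : vL c₀ < 1) (hϖ : vL ϖ ^ p < vL c₀)
    (H₁ : Fk₁) (G₂ : Fk₂)
    (hredH : red H = jj (H₁, 0)) (hredG : red (algebraMap K F c₀ * H⁻¹) = jj (0, G₂))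
    (D0 D0' : Divisor K F) (hD0 : ∀ w : Place K F, D0 w = w.ord H / (p : ℤ))
    (hD0' : ∀ w : Place K F, D0' w = (-w.ord H) / (p : ℤ))
    (hjump0 : ∀ m : ℕ, ∀ f ∈ riemannRochSpace (D0 + m • E), (∀ j, v j f ≤ 1) → v 0 f < 1 →
      ∃ f' ∈ riemannRochSpace (D0 + m • E), (∀ j, v j f' ≤ 1) ∧ v 0 f' ≤ vL ϖ ∧ red f' = red f)
    (hjump1 : ∀ m : ℕ, ∀ f ∈ riemannRochSpace (D0' + m • E), (∀ j, v j f ≤ 1) → v 1 f < 1 →
      ∃ f' ∈ riemannRochSpace (D0' + m • E), (∀ j, v j f' ≤ 1) ∧ v 1 f' ≤ vL ϖ ∧ red f' = red f)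
    (S : Finset (Place K F)) (hS : ∀ w : Place K F, ¬ (p : ℤ) ∣ w.ord H → w ∈ S)
    (Z₁ : Finset (Place kk Fk₁)) (Z₂ : Finset (Place kk Fk₂))
    (hZ₁ : ∀ w ∈ Z₁, (∀ i, P i ≠ w) ∧ ¬ (p : ℤ) ∣ w.ord H₁)
    (hZ₂ : ∀ w ∈ Z₂, (∀ i, Q i ≠ w) ∧ ¬ (p : ℤ) ∣ w.ord G₂)
    (hcusp : S.card ≤ Z₁.card + Z₂.card) :
    H₁ ≠ 0 ∧ G₂ ≠ 0 ∧ (∀ i, ¬ (p : ℤ) ∣ (P i).ord H₁) ∧ (∀ i, ¬ (p : ℤ) ∣ (Q i).ord G₂) ∧
      (∀ w : Place kk Fk₁, (∀ i, P i ≠ w) → w ∉ Z₁ → (p : ℤ) ∣ w.ord H₁) ∧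
      (∀ w : Place kk Fk₂, (∀ i, Q i ≠ w) → w ∉ Z₂ → (p : ℤ) ∣ w.ord G₂) := by
  classical
  have hcnt := fun (s₁ : Finset (Place kk Fk₁)) (s₂ : Finset (Place kk Fk₂))
      (hs₁ : ∀ w ∈ s₁, (∀ i, P i ≠ w) ∧ ¬ (p : ℤ) ∣ w.ord H₁)
      (hs₂ : ∀ w ∈ s₂, (∀ i, Q i ≠ w) ∧ ¬ (p : ℤ) ∣ w.ord G₂) =>
    odd_count hRBK v vL hred hcart jj hjj hrange hdeg₁ hdeg₂ hRB₁ hRB₂ P₁ P₂ P Q hP hQ
    Y₁ Y₂ d₁ d₂ hd₁ hd₂ hdY₁ hdY₂ hPY hQY E hdE hcont hcard hdegK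
      p hp H c₀ ϖ hv0 hv1 hc₀ hϖ H₁ G₂ hredH hredG D0 D0' hD0 hD0' hjump0 hjump1 S hS s₁ s₂ hs₁ hs₂
  obtain ⟨h1, h2, h3⟩ := hcnt Z₁ Z₂ hZ₁ hZ₂
  refine ⟨h1, h2, fun i hd => ?_, fun i hd => ?_, fun w hw hwZ => ?_, fun w hw hwZ => ?_⟩
  · have hpos : 0 < (Finset.univ.filter fun i => (p : ℤ) ∣ (P i).ord H₁).card :=
      Finset.card_pos.mpr ⟨i, Finset.mem_filter.mpr ⟨Finset.mem_univ i, hd⟩⟩
    omega
  · have hpos : 0 < (Finset.univ.filter fun i => (p : ℤ) ∣ (Q i).ord G₂).card :=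
      Finset.card_pos.mpr ⟨i, Finset.mem_filter.mpr ⟨Finset.mem_univ i, hd⟩⟩
    omega
  · by_contra hnd
    obtain ⟨-, -, h5⟩ := hcnt (insert w Z₁) Z₂ (fun w' hw' => by
      rcases Finset.mem_insert.mp hw' with rfl | hw'
      · exact ⟨hw, hnd⟩
      · exact hZ₁ w' hw') hZ₂
    rw [Finset.card_insert_of_notMem hwZ] at h5
    omega
  · by_contra hnd
    obtain ⟨-, -, h5⟩ := hcnt Z₁ (insert w Z₂) hZ₁ (fun w' hw' => by
      rcases Finset.mem_insert.mp hw' with rfl | hw'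
      · exact ⟨hw, hnd⟩
      · exact hZ₂ w' hw')
    rw [Finset.card_insert_of_notMem hwZ] at h5
    omega

/-- **ODD COUNT, Kummer case** (one chart): `div H = p D₀`.  Then `p ∤ ord` of the reductions at
every node branch, and `p ∣ ord` at every other place of the two components. -/
theorem odd_count_kummer
    {K F : Type*} [Field K] [Field F] [Algebra K F]
    (hRBK : HasRiemannBound K F)
    {Γ₀ : Type*} [LinearOrderedCommGroupWithZero Γ₀]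
    (v : Fin 2 → Valuation F Γ₀) (vL : Valuation K Γ₀)
    {Fk : Type*} [CommRing Fk] [Algebra kk Fk] {red : F → Fk}
    (hred : RedDataW v (fun _ => (1 : Γ₀)) vL kk red red)
    (hcart : ∀ D : Divisor K F, CartesianW v (fun _ => (1 : Γ₀)) vL (riemannRochSpace D))
    (jj : Fk₁ × Fk₂ →ₐ[kk] Fk) (hjj : Function.Injective jj)
    (hrange : ∀ f : F, (∀ i, v i f ≤ 1) → ∃ y : Fk₁ × Fk₂, red f = jj y)
    [HasPrincipalDivisors kk Fk₁] [HasPrincipalDivisors kk Fk₂]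
    (hdeg₁ : ∀ w : Place kk Fk₁, w.deg = 1) (hdeg₂ : ∀ w : Place kk Fk₂, w.deg = 1)
    (hRB₁ : HasRiemannBound kk Fk₁) (hRB₂ : HasRiemannBound kk Fk₂)
    (P₁ : Place kk Fk₁) (P₂ : Place kk Fk₂)
    (P : I → Place kk Fk₁) (Q : I → Place kk Fk₂)
    (hP : Function.Injective P) (hQ : Function.Injective Q)
    (Y₁ : Divisor kk Fk₁) (Y₂ : Divisor kk Fk₂)
    (d₁ d₂ : ℕ) (hd₁ : 0 < d₁) (hd₂ : 0 < d₂)
    (hdY₁ : Divisor.degree Y₁ = d₁) (hdY₂ : Divisor.degree Y₂ = d₂)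
    (hPY : ∀ i, Y₁ (P i) = 0) (hQY : ∀ i, Y₂ (Q i) = 0)
    (E : Divisor K F) (hdE : Divisor.degree E = ((d₁ + d₂ : ℕ) : ℤ))
    (hcont : ∀ m : ℕ, ∀ f ∈ riemannRochSpace (m • E), (∀ i, v i f ≤ 1) →
      ∃ y₁ ∈ riemannRochSpace (m • Y₁), ∃ y₂ ∈ riemannRochSpace (m • Y₂),
        red f = jj (y₁, y₂) ∧
          ∀ i, valueAt (Q i) (hdeg₂ (Q i)) y₂ = valueAt (P i) (hdeg₁ (P i)) y₁)
    (hcard : riemannGenus K F + 1 ≤
      riemannGenus kk Fk₁ + riemannGenus kk Fk₂ + Fintype.card I)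
    (p : ℕ) (hp : 0 < p) (H : F) (c₀ ϖ : K)
    (hv0 : v 0 H = 1) (hv1 : v 1 H = vL c₀) (hc₀ : vL c₀ < 1) (hϖ : vL ϖ ^ p < vL c₀)
    (H₁ : Fk₁) (G₂ : Fk₂)
    (hredH : red H = jj (H₁, 0)) (hredG : red (algebraMap K F c₀ * H⁻¹) = jj (0, G₂))
    (D0 : Divisor K F) (hD0 : ∀ w : Place K F, w.ord H = (p : ℤ) * D0 w)
    (hjump0 : ∀ m : ℕ, ∀ f ∈ riemannRochSpace (D0 + m • E), (∀ j, v j f ≤ 1) → v 0 f < 1 →
      ∃ f' ∈ riemannRochSpace (D0 + m • E), (∀ j, v j f' ≤ 1) ∧ v 0 f' ≤ vL ϖ ∧ red f' = red f)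
    (hjump1 : ∀ m : ℕ, ∀ f ∈ riemannRochSpace (-D0 + m • E), (∀ j, v j f ≤ 1) → v 1 f < 1 →
      ∃ f' ∈ riemannRochSpace (-D0 + m • E), (∀ j, v j f' ≤ 1) ∧ v 1 f' ≤ vL ϖ ∧ red f' = red f) :
    H₁ ≠ 0 ∧ G₂ ≠ 0 ∧ (∀ i, ¬ (p : ℤ) ∣ (P i).ord H₁) ∧ (∀ i, ¬ (p : ℤ) ∣ (Q i).ord G₂) ∧
      (∀ w : Place kk Fk₁, (∀ i, P i ≠ w) → (p : ℤ) ∣ w.ord H₁) ∧
      (∀ w : Place kk Fk₂, (∀ i, Q i ≠ w) → (p : ℤ) ∣ w.ord G₂) := by
  classical
  have hcore := fun (s₁ : Finset (Place kk Fk₁)) (s₂ : Finset (Place kk Fk₂))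
      (hs₁ : ∀ w ∈ s₁, (∀ i, P i ≠ w) ∧ ¬ (p : ℤ) ∣ w.ord H₁)
      (hs₂ : ∀ w ∈ s₂, (∀ i, Q i ≠ w) ∧ ¬ (p : ℤ) ∣ w.ord G₂) =>
    odd_count_core hRBK v vL hred hcart jj hjj hrange hdeg₁ hdeg₂ hRB₁ hRB₂ P₁ P₂ P Q hP hQ
    Y₁ Y₂ d₁ d₂ hd₁ hd₂ hdY₁ hdY₂ hPY hQY E hdE hcont hcard
      p hp H c₀ ϖ hv0 hv1 hc₀ hϖ H₁ G₂ hredH hredG D0 (-D0) (fun w => (hD0 w).ge)
      (fun w => by rw [Finsupp.neg_apply, mul_neg, hD0 w])
      hjump0 hjump1 s₁ s₂ hs₁ hs₂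
  have hdeg0 : Divisor.degree D0 + Divisor.degree (-D0) = 0 := by
    rw [map_neg, add_neg_cancel]
  obtain ⟨h1, h2, h3⟩ := hcore ∅ ∅ (fun w hw => absurd hw (Finset.notMem_empty w))
    (fun w hw => absurd hw (Finset.notMem_empty w))
  rw [hdeg0, zero_add, Nat.cast_nonpos] at h3
  refine ⟨h1, h2, fun i hd => ?_, fun i hd => ?_, fun w hw => ?_, fun w hw => ?_⟩
  · have hpos : 0 < (Finset.univ.filter fun i => (p : ℤ) ∣ (P i).ord H₁).card :=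
      Finset.card_pos.mpr ⟨i, Finset.mem_filter.mpr ⟨Finset.mem_univ i, hd⟩⟩
    omega
  · have hpos : 0 < (Finset.univ.filter fun i => (p : ℤ) ∣ (Q i).ord G₂).card :=
      Finset.card_pos.mpr ⟨i, Finset.mem_filter.mpr ⟨Finset.mem_univ i, hd⟩⟩
    omega
  · by_contra hnd
    obtain ⟨-, -, h5⟩ := hcore {w} ∅ (fun w' hw' => by
      rw [Finset.mem_singleton] at hw'
      subst hw'
      exact ⟨hw, hnd⟩) (fun w hw => absurd hw (Finset.notMem_empty w))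
    rw [hdeg0, zero_add, Nat.cast_nonpos, Finset.card_singleton] at h5
    omega
  · by_contra hnd
    obtain ⟨-, -, h5⟩ := hcore ∅ {w} (fun w hw => absurd hw (Finset.notMem_empty w))
      (fun w' hw' => by
        rw [Finset.mem_singleton] at hw'
        subst hw'
        exact ⟨hw, hnd⟩)
    rw [hdeg0, zero_add, Nat.cast_nonpos, Finset.card_singleton] at h5
    omega

end Count

/-! ### The block export `(IN-ODD)` on the binders of `helper603.twisted_lattice_of_components` -/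

section Export

/-- **`(IN-ODD)`**: the odd clause of the `(CNT)` block, vocabulary-neutral (plain
`riemannRochSpace` / `Place.ord`), companion of `helper6147.CntEven`.

For `H` with `v 0 H = 1`, `v 1 H = |c₀|`, `|ϖ| ^ p < |c₀| < 1`, reductions
`red H = jj (H₁, 0)`, `red (c₀ H⁻¹) = jj (0, G₂)`; `D₀ = ⌊div H / p⌋`, `D₀' = ⌊- div H / p⌋`
with the two jump hypotheses; `S ⊇ {w | p ∤ ord_w H}` and the cusp matching
`#S ≤ #Z₁ + #Z₂`:  `p ∤ ord_{P i} H₁`, `p ∤ ord_{Q i} G₂` at EVERY node, and `p ∣ ord` at every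
non-node place outside `Z₁`, `Z₂`. -/
def InOdd (p : ℕ) {K F : Type*} [Field K] [Field F] [Algebra K F]
    {Γ₀ : Type*} [LinearOrderedCommGroupWithZero Γ₀]
    (v : Fin 2 → Valuation F Γ₀) (vL : Valuation K Γ₀)
    {kk : Type*} [Field kk] {Fk₁ Fk₂ : Type*} [Field Fk₁] [Field Fk₂]
    [Algebra kk Fk₁] [Algebra kk Fk₂] {Fk : Type*} [CommRing Fk] [Algebra kk Fk]
    (red : F → Fk) (jj : Fk₁ × Fk₂ →ₐ[kk] Fk)
    {I : Type*} (P : I → Place kk Fk₁) (Q : I → Place kk Fk₂)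
    (E1 E2 : Divisor K F) : Prop :=
  ∀ (H : F) (c₀ ϖ : K), v 0 H = 1 → v 1 H = vL c₀ → vL c₀ < 1 → vL ϖ ^ p < vL c₀ →
  ∀ (H₁ : Fk₁) (G₂ : Fk₂), red H = jj (H₁, 0) → red (algebraMap K F c₀ * H⁻¹) = jj (0, G₂) →
  ∀ D0 D0' : Divisor K F, (∀ w : Place K F, D0 w = w.ord H / (p : ℤ)) →
    (∀ w : Place K F, D0' w = (-w.ord H) / (p : ℤ)) →
  (∀ a b : ℕ, ∀ f ∈ riemannRochSpace (D0 + a • E1 + b • E2), (∀ j, v j f ≤ 1) → v 0 f < 1 →
    ∃ f' ∈ riemannRochSpace (D0 + a • E1 + b • E2),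
      (∀ j, v j f' ≤ 1) ∧ v 0 f' ≤ vL ϖ ∧ red f' = red f) →
  (∀ a b : ℕ, ∀ f ∈ riemannRochSpace (D0' + a • E1 + b • E2), (∀ j, v j f ≤ 1) → v 1 f < 1 →
    ∃ f' ∈ riemannRochSpace (D0' + a • E1 + b • E2),
      (∀ j, v j f' ≤ 1) ∧ v 1 f' ≤ vL ϖ ∧ red f' = red f) →
  ∀ S : Finset (Place K F), (∀ w : Place K F, ¬ (p : ℤ) ∣ w.ord H → w ∈ S) →
  ∀ (Z₁ : Finset (Place kk Fk₁)) (Z₂ : Finset (Place kk Fk₂)),
    (∀ w ∈ Z₁, (∀ i, P i ≠ w) ∧ ¬ (p : ℤ) ∣ w.ord H₁) →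
    (∀ w ∈ Z₂, (∀ i, Q i ≠ w) ∧ ¬ (p : ℤ) ∣ w.ord G₂) →
    S.card ≤ Z₁.card + Z₂.card →
    H₁ ≠ 0 ∧ G₂ ≠ 0 ∧ (∀ i, ¬ (p : ℤ) ∣ (P i).ord H₁) ∧ (∀ i, ¬ (p : ℤ) ∣ (Q i).ord G₂) ∧
      (∀ w : Place kk Fk₁, (∀ i, P i ≠ w) → w ∉ Z₁ → (p : ℤ) ∣ w.ord H₁) ∧
      (∀ w : Place kk Fk₂, (∀ i, Q i ≠ w) → w ∉ Z₂ → (p : ℤ) ∣ w.ord G₂)

/-- The jump hypotheses of `InOdd` hold with `f' = f` when the valuation `v i` is discrete with
uniformiser `ϖ` (the `O_L`-form: `K = L` finite over `K₀`, `F = F_L`). -/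
theorem jump_of_discrete
    {K F : Type*} [Field K] [Field F] [Algebra K F]
    {Γ₀ : Type*} [LinearOrderedCommGroupWithZero Γ₀]
    (v : Fin 2 → Valuation F Γ₀) (vL : Valuation K Γ₀)
    {Fk : Type*} (red : F → Fk) (E1 E2 : Divisor K F) (ϖ : K) (i : Fin 2)
    (hdisc : ∀ f : F, v i f < 1 → v i f ≤ vL ϖ) (D : Divisor K F) :
    ∀ a b : ℕ, ∀ f ∈ riemannRochSpace (D + a • E1 + b • E2), (∀ j, v j f ≤ 1) → v i f < 1 →
      ∃ f' ∈ riemannRochSpace (D + a • E1 + b • E2),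
        (∀ j, v j f' ≤ 1) ∧ v i f' ≤ vL ϖ ∧ red f' = red f :=
  fun _ _ f hf hfb hlt => ⟨f, hf, hfb, hdisc f hlt, rfl⟩

variable {kk : Type*} [Field kk] {Fk₁ Fk₂ : Type*} [Field Fk₁] [Field Fk₂]
  [Algebra kk Fk₁] [Algebra kk Fk₂] {I : Type*} [Fintype I]

/-- **`(IN-ODD)` on the binders of `helper603.twisted_lattice_of_components`** (verbatim
geometric hypotheses of the S35/S34 two-component module, `ι = Fin 2`; the node count
`g(F) + 1 = g₁ + g₂ + #I` and `deg E₁ = d₁ + d₂` are taken from that theorem).  No hypothesis on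
the characteristic: only `0 < p`. -/
theorem inOdd_of_components (p : ℕ) (hp : 0 < p)
    {K F : Type*} [Field K] [Field F] [Algebra K F] [HasPrincipalDivisors K F]
    (hdegK : ∀ w : Place K F, w.deg = 1)
    (hRBK : HasRiemannBound K F) (P₀ : Place K F)
    {Γ₀ : Type*} [LinearOrderedCommGroupWithZero Γ₀]
    (v : Fin 2 → Valuation F Γ₀) (vL : Valuation K Γ₀)
    {Fk : Type*} [CommRing Fk] [Algebra kk Fk] {red : F → Fk}
    (hred : RedDataW v (fun _ => (1 : Γ₀)) vL kk red red)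
    (hconst : ∀ c : K, vL c ≤ 1 → ∃ κ : kk, red (algebraMap K F c) = algebraMap kk Fk κ)
    (hcart : ∀ D : Divisor K F, CartesianW v (fun _ => (1 : Γ₀)) vL (riemannRochSpace D))
    (jj : Fk₁ × Fk₂ →ₐ[kk] Fk) (hjj : Function.Injective jj)
    (hrange : ∀ f : F, (∀ i, v i f ≤ 1) → ∃ y : Fk₁ × Fk₂, red f = jj y)
    [HasPrincipalDivisors kk Fk₁] [HasPrincipalDivisors kk Fk₂]
    (hdeg₁ : ∀ w : Place kk Fk₁, w.deg = 1) (hdeg₂ : ∀ w : Place kk Fk₂, w.deg = 1)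
    (hRB₁ : HasRiemannBound kk Fk₁) (hRB₂ : HasRiemannBound kk Fk₂)
    (P₁ : Place kk Fk₁) (P₂ : Place kk Fk₂)
    (P : I → Place kk Fk₁) (Q : I → Place kk Fk₂)
    (hP : Function.Injective P) (hQ : Function.Injective Q)
    (Yinf₁ Y0₁ : Divisor kk Fk₁) (Yinf₂ Y0₂ : Divisor kk Fk₂)
    (hYinf₁ : 0 ≤ Yinf₁) (hY0₁ : 0 ≤ Y0₁) (hYinf₂ : 0 ≤ Yinf₂) (hY0₂ : 0 ≤ Y0₂)
    (hdisj₁ : ∀ w : Place kk Fk₁, Yinf₁ w = 0 ∨ Y0₁ w = 0)
    (hdisj₂ : ∀ w : Place kk Fk₂, Yinf₂ w = 0 ∨ Y0₂ w = 0)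
    (d₁ d₂ : ℕ) (hd₁ : 0 < d₁) (hd₂ : 0 < d₂)
    (hdY₁ : Divisor.degree Yinf₁ = d₁) (hdY0₁ : Divisor.degree Y0₁ = d₁)
    (hdY₂ : Divisor.degree Yinf₂ = d₂) (hdY0₂ : Divisor.degree Y0₂ = d₂)
    (hPY : ∀ i, Yinf₁ (P i) = 0 ∧ Y0₁ (P i) = 0) (hQY : ∀ i, Yinf₂ (Q i) = 0 ∧ Y0₂ (Q i) = 0)
    (E1 E2 : Divisor K F) (hE1 : 0 ≤ E1) (hE2 : 0 ≤ E2) (hdE1 : 0 < Divisor.degree E1)
    (x : F) (hx0 : x ≠ 0) (hxord : ∀ w : Place K F, w.ord x = E2 w - E1 w)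
    (hxv : ∀ i, v i x = 1)
    (x₁ : Fk₁) (x₂ : Fk₂) (hredx : red x = jj (x₁, x₂))
    (hx₁ : ∀ w : Place kk Fk₁, w.ord x₁ = Y0₁ w - Yinf₁ w)
    (hx₂ : ∀ w : Place kk Fk₂, w.ord x₂ = Y0₂ w - Yinf₂ w)
    (hcont : ∀ a b : ℕ, ∀ f ∈ riemannRochSpace (a • E1 + b • E2), (∀ i, v i f ≤ 1) →
      ∃ y₁ ∈ riemannRochSpace (a • Yinf₁ + b • Y0₁),
        ∃ y₂ ∈ riemannRochSpace (a • Yinf₂ + b • Y0₂), red f = jj (y₁, y₂) ∧
          ∀ i, valueAt (Q i) (hdeg₂ (Q i)) y₂ = valueAt (P i) (hdeg₁ (P i)) y₁)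
    (hK1 : ∀ a : ℕ, ∀ y₁ ∈ riemannRochSpace (a • Yinf₁), ∀ y₂ ∈ riemannRochSpace (a • Yinf₂),
      (∀ i, valueAt (Q i) (hdeg₂ (Q i)) y₂ = valueAt (P i) (hdeg₁ (P i)) y₁) →
      ∃ a' : ℕ, ∃ f ∈ riemannRochSpace (a' • E1), (∀ i, v i f ≤ 1) ∧ red f = jj (y₁, y₂))
    (hK2 : ∀ b : ℕ, ∀ y₁ ∈ riemannRochSpace (b • Y0₁), ∀ y₂ ∈ riemannRochSpace (b • Y0₂),
      (∀ i, valueAt (Q i) (hdeg₂ (Q i)) y₂ = valueAt (P i) (hdeg₁ (P i)) y₁) →
      ∃ b' : ℕ, ∃ f ∈ riemannRochSpace (b' • E2), (∀ i, v i f ≤ 1) ∧ red f = jj (y₁, y₂)) :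
    InOdd p v vL red jj P Q E1 E2 := by
  obtain ⟨n₀, -, hdegE1, hcard, -⟩ := Fermat.Agent.S35.helper603.twisted_lattice_of_components
    hdegK hRBK P₀ v vL hred hconst hcart jj hjj hrange hdeg₁ hdeg₂ hRB₁ hRB₂ P₁ P₂ P Q hP hQ
    Yinf₁ Y0₁ Yinf₂ Y0₂ hYinf₁ hY0₁ hYinf₂ hY0₂ hdisj₁ hdisj₂ d₁ d₂ hd₁ hd₂ hdY₁ hdY0₁ hdY₂ hdY0₂
    hPY hQY E1 E2 hE1 hE2 hdE1 x hx0 hxord hxv x₁ x₂ hredx hx₁ hx₂ hcont hK1 hK2
  intro H c₀ ϖ hv0 hv1 hc₀ hϖ H₁ G₂ hredH hredG D0 D0' hD0 hD0' hjump0 hjump1 S hS Z₁ Z₂ hZ₁ hZ₂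
    hcusp
  have e : ∀ (D : Divisor K F) (m : ℕ), D + m • E1 + 0 • E2 = D + m • E1 := fun D m => by
    rw [zero_smul, add_zero]
  exact odd_count_str hRBK v vL hred hcart jj hjj hrange hdeg₁ hdeg₂ hRB₁ hRB₂ P₁ P₂ P Q hP hQ
    Yinf₁ Yinf₂ d₁ d₂ hd₁ hd₂ hdY₁ hdY₂ (fun i => (hPY i).1) (fun i => (hQY i).1) E1 hdegE1
    (fun m f hf hfb => by
      have hf' : f ∈ riemannRochSpace (m • E1 + 0 • E2) := by rwa [zero_smul, add_zero]
      obtain ⟨y₁, hy₁, y₂, hy₂, h⟩ := hcont m 0 f hf' hfb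
      rw [zero_smul, add_zero] at hy₁ hy₂
      exact ⟨y₁, hy₁, y₂, hy₂, h⟩)
    hcard.le hdegK p hp H c₀ ϖ hv0 hv1 hc₀ hϖ H₁ G₂ hredH hredG D0 D0' hD0 hD0'
    (fun m f hf hfb hlt => by
      obtain ⟨f', hf', h⟩ := hjump0 m 0 f (by rw [e]; exact hf) hfb hlt
      exact ⟨f', by rw [e] at hf'; exact hf', h⟩)
    (fun m f hf hfb hlt => by
      obtain ⟨f', hf', h⟩ := hjump1 m 0 f (by rw [e]; exact hf) hfb hlt
      exact ⟨f', by rw [e] at hf'; exact hf', h⟩)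
    S hS Z₁ Z₂ hZ₁ hZ₂ hcusp

end Export

end Fermat.Agent.S44.helper6565
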