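/-
S44, leaf L2-INST (helper6715): the `χ`-action on the deep classes from the two seed statements.

Abstract form (any function field `F / K` with principal divisors, two valuation subrings
`V₁`, `V₂`, a pole divisor `E1`, a semilinear automorphism `σ`):

* `valuation_twist_lt` : the twist lemma.  `ζ` a primitive `p`-th root of unity, `σ ζ = ζ ^ n`,
  `σ` trivial on the residue field of `V`, `|p| < 1`.  If `|a - 1| ^ (p - 1) ≤ |p|` (i.e.
  `a ≡ 1` modulo `π = ζ - 1`), then `|σ a * a ^ (p - n) - 1| ^ (p - 1) < |p|` (strictly deeper).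
* `torChi_of_seeds` : if every deep `p`-Kummer `u` has a shallow seed
  `a ∈ L(D_u + k E1)`, `|a - 1| ^ (p - 1) ≤ |p|` (step (A)), and a deep `p`-Kummer `u` with a
  seed strictly beyond `π` has a principal Kummer divisor (step (C′)), then for every deep
  `p`-Kummer `h`:  `σ h = h ^ n * (c * w ^ p)` with `c` divisor-free.
-/
import Mathlib
import Fermat.Agent.S18.helper4226_KummerInst
import Fermat.Agent.S56.helper4753_TameAdapt
import Fermat.Agent.S44.helper6715_DeepSpec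

set_option autoImplicit false

namespace Fermat.Agent.S44.helper6715

open AlgebraicCurve
open Fermat.Agent.S29.helper8217 Fermat.Agent.S18.helper4226

/-! ### The twist lemma -/

section Twist

variable {F : Type*} [Field F]

theorem le_of_pow_le_pow_val {Γ : Type*} [LinearOrderedCommGroupWithZero Γ] {x y : Γ} {n : ℕ}
    (hn : n ≠ 0) (h : x ^ n ≤ y ^ n) : x ≤ y := by
  by_contra hcon
  rw [not_le] at hcon
  exact absurd (pow_lt_pow_left₀ hcon zero_le hn) (not_lt.mpr h)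

/-- **Twist lemma.**  `ζ` a primitive `p`-th root of unity in `V`, `|p| < 1`, `σ` a ring
automorphism with `σ ζ = ζ ^ n` (`n ≤ p`) acting trivially on the residue field of `V`.  If
`a ≡ 1` to depth `≥ ζ - 1` (`|a - 1| ^ (p - 1) ≤ |p|`), then `σ a * a ^ (p - n) ≡ 1` to depth
`> ζ - 1`. -/
theorem valuation_twist_lt (V : ValuationSubring F) {p : ℕ} (hp : p.Prime) {ζ : F}
    (hζ : IsPrimitiveRoot ζ p) (hζV : ζ ∈ V) (hpV : V.valuation (p : F) < 1)
    (σ : F ≃+* F) {n : ℕ} (hnp : n ≤ p) (hσζ : σ ζ = ζ ^ n)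
    (hσr : ∀ f : F, f ∈ V → V.valuation (σ f - f) < 1)
    {a : F} (ha : V.valuation (a - 1) ^ (p - 1) ≤ V.valuation (p : F)) :
    V.valuation (σ a * a ^ (p - n) - 1) ^ (p - 1) < V.valuation (p : F) := by
  have hp1 : p - 1 ≠ 0 := by
    have := hp.two_le
    omega
  have hPp : V.valuation (ζ - 1) ^ (p - 1) = V.valuation (p : F) :=
    Fermat.Agent.S56.helper4753.val_primitiveRoot_sub_one_pow V.valuation hp hζ
  have hP1 : V.valuation (ζ - 1) < 1 := by
    by_contra hge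
    have h2 : (1 : V.ValueGroup) ≤ V.valuation (ζ - 1) ^ (p - 1) := one_le_pow₀ (not_lt.1 hge)
    rw [hPp] at h2
    exact absurd hpV (not_lt.2 h2)
  have hP0 : ζ - 1 ≠ 0 := sub_ne_zero.mpr (hζ.ne_one hp.one_lt)
  have hPpos : 0 < V.valuation (ζ - 1) := zero_lt_iff.mpr ((Valuation.ne_zero_iff _).mpr hP0)
  have hδ : V.valuation (a - 1) ≤ V.valuation (ζ - 1) :=
    le_of_pow_le_pow_val hp1 (by rw [hPp]; exact ha)
  have hle : ∀ x : F, x ∈ V → V.valuation x ≤ 1 := fun x hx => (V.valuation_le_one_iff x).mpr hx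
  have small_left : ∀ x y : F, V.valuation x < 1 → y ∈ V → V.valuation (x * y) < 1 := by
    intro x y hx hy
    rw [map_mul]
    exact mul_lt_one_of_nonneg_of_lt_one_left zero_le hx (hle y hy)
  have small_right : ∀ x y : F, x ∈ V → V.valuation y < 1 → V.valuation (x * y) < 1 := by
    intro x y hx hy
    rw [map_mul]
    exact mul_lt_one_of_nonneg_of_lt_one_right (hle x hx) zero_le hy
  -- `a = 1 + P * b`
  obtain ⟨b, hb⟩ : ∃ b : F, b = (a - 1) / (ζ - 1) := ⟨_, rfl⟩
  have hbV : b ∈ V := by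
    rw [← V.valuation_le_one_iff, hb, map_div₀, div_le_one₀ hPpos]
    exact hδ
  have ha_eq : a = 1 + (ζ - 1) * b := by
    rw [hb]
    field_simp
    ring
  have haV : a ∈ V := by
    rw [ha_eq]
    exact add_mem (one_mem V) (mul_mem (sub_mem hζV (one_mem V)) hbV)
  -- `σ P = P * S`
  obtain ⟨S, hS⟩ : ∃ S : F, S = ∑ i ∈ Finset.range n, ζ ^ i := ⟨_, rfl⟩
  have hσP : σ (ζ - 1) = (ζ - 1) * S := by
    rw [map_sub, map_one, hσζ, hS]
    exact (mul_geom_sum ζ n).symm
  have hgeomV : ∀ (x : F), x ∈ V → ∀ k : ℕ, ∑ i ∈ Finset.range k, x ^ i ∈ V :=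
    fun x hx k => V.sum_mem fun i _ => V.pow_mem hx i
  -- `∑_{i<k} x^i ≡ k` when `x ≡ 1`
  have hsum : ∀ (x : F), x ∈ V → V.valuation (x - 1) < 1 → ∀ k : ℕ,
      V.valuation (∑ i ∈ Finset.range k, x ^ i - (k : F)) < 1 := by
    intro x hx hx1 k
    have e : ∑ i ∈ Finset.range k, x ^ i - (k : F) = ∑ i ∈ Finset.range k, (x ^ i - 1) := by
      rw [Finset.sum_sub_distrib]
      simp
    rw [e]
    refine Valuation.map_sum_lt _ one_ne_zero fun i _ => ?_
    have e2 : x ^ i - 1 = (x - 1) * ∑ j ∈ Finset.range i, x ^ j := (mul_geom_sum x i).symm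
    rw [e2]
    exact small_left _ _ hx1 (hgeomV x hx i)
  have hSn : V.valuation (S - (n : F)) < 1 := by
    rw [hS]
    exact hsum ζ hζV hP1 n
  -- `a ^ m - 1 = P * b * T`
  obtain ⟨m, hm⟩ : ∃ m : ℕ, m = p - n := ⟨_, rfl⟩
  obtain ⟨T, hT⟩ : ∃ T : F, T = ∑ i ∈ Finset.range m, a ^ i := ⟨_, rfl⟩
  have ha1 : V.valuation (a - 1) < 1 := lt_of_le_of_lt hδ hP1
  have hTV : T ∈ V := by
    rw [hT]
    exact hgeomV a haV m
  have haT : a ^ m - 1 = (ζ - 1) * b * T := by
    rw [hT, ← mul_geom_sum a m]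
    congr 1
    rw [ha_eq]
    ring
  have hTm : V.valuation (T - (m : F)) < 1 := by
    rw [hT]
    exact hsum a haV ha1 m
  have hσb : V.valuation (σ b - b) < 1 := hσr b hbV
  have hσbV : σ b ∈ V := by
    have e : σ b = (σ b - b) + b := by ring
    rw [e]
    exact add_mem ((V.valuation_le_one_iff _).mp hσb.le) hbV
  have hamV : a ^ m ∈ V := V.pow_mem haV m
  have hnV : (n : F) ∈ V := natCast_mem V n
  have h1 : σ a = 1 + (ζ - 1) * S * σ b := by
    have h0 : σ a = σ (1 + (ζ - 1) * b) := congrArg σ ha_eq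
    rw [map_add, map_one, map_mul, hσP] at h0
    exact h0
  have hnm : (n : F) + (m : F) = (p : F) := by
    rw [← Nat.cast_add]
    congr 1
    omega
  have hmain : σ a * a ^ m - 1 = (ζ - 1) * ((S - n) * σ b * a ^ m + n * (σ b - b) * a ^ m +
      n * b * (a ^ m - 1) + b * (T - m) + b * p) := by
    linear_combination (a ^ m) * h1 + haT + ((ζ - 1) * b) * hnm
  have ham1 : V.valuation (a ^ m - 1) < 1 := by
    rw [haT]
    exact small_left _ _ (small_left _ _ hP1 hbV) hTV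
  have hbr : V.valuation ((S - n) * σ b * a ^ m + n * (σ b - b) * a ^ m +
      n * b * (a ^ m - 1) + b * (T - m) + b * p) < 1 := by
    refine Valuation.map_add_lt _ (Valuation.map_add_lt _ (Valuation.map_add_lt _
      (Valuation.map_add_lt _ ?_ ?_) ?_) ?_) ?_
    · exact small_left _ _ (small_left _ _ hSn hσbV) hamV
    · exact small_left _ _ (small_right _ _ hnV hσb) hamV
    · exact small_right _ _ (mul_mem hnV hbV) ham1
    · exact small_right _ _ hbV hTm
    · exact small_right _ _ hbV hpV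
  rw [← hm, hmain, map_mul, mul_pow, hPp]
  have hppos : 0 < V.valuation (p : F) := by
    rw [← hPp]
    exact pow_pos hPpos _
  exact mul_lt_of_lt_one_right hppos (pow_lt_one₀ zero_le hbr hp1)

end Twist

/-! ### The `χ`-action from the two seed statements -/

section Chi

variable {K F : Type*} [Field K] [Field F] [Algebra K F] [HasPrincipalDivisors K F]

/-- **(TOR), `χ`-action, abstract form.**  `V₁`, `V₂` two valuation subrings of `F` with
`|p| < 1`; `ζ` a primitive `p`-th root of unity; `σ` a semilinear automorphism with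
`σ ζ = ζ ^ n` (`n ≤ p`), trivial on both residue fields, preserving deepness and the divisor
`E1`.  Assume (A): every deep `p`-Kummer `u` has a seed `a ∈ L(D_u + k E1)` with
`|a - 1| ^ (p - 1) ≤ |p|` at both valuations, and (C′): a deep `p`-Kummer `u` with a seed
strictly beyond (`<`) has a principal Kummer divisor.  Then `σ h = h ^ n * (c * w ^ p)` with
`c` divisor-free, for every deep `p`-Kummer `h`. -/
theorem torChi_of_seeds {p : ℕ} (hp : p.Prime) (V₁ V₂ : ValuationSubring F) {ζ : F}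
    (hζ : IsPrimitiveRoot ζ p) (hζ₁ : ζ ∈ V₁) (hζ₂ : ζ ∈ V₂)
    (hp₁ : V₁.valuation (p : F) < 1) (hp₂ : V₂.valuation (p : F) < 1)
    (σ : SemilinearAut K F) {n : ℕ} (hnp : n ≤ p) (hσζ : σ • ζ = ζ ^ n)
    (hσr₁ : ∀ f : F, f ∈ V₁ → V₁.valuation (σ • f - f) < 1)
    (hσr₂ : ∀ f : F, f ∈ V₂ → V₂.valuation (σ • f - f) < 1)
    (hσd₁ : ∀ f : F, IsDeepAt p V₁ f → IsDeepAt p V₁ (σ • f))
    (hσd₂ : ∀ f : F, IsDeepAt p V₂ f → IsDeepAt p V₂ (σ • f))
    (E1 : Divisor K F) (hσE : ∀ w : Place K F, E1 (σ • w) = E1 w)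
    (hA : ∀ u : F, IsKummer K p u → IsDeepAt p V₁ u → IsDeepAt p V₂ u →
      ∃ (k : ℕ) (a : F), a ∈ riemannRochSpace (kummerDivisor K p u + k • E1) ∧
        V₁.valuation (a - 1) ^ (p - 1) ≤ V₁.valuation (p : F) ∧
        V₂.valuation (a - 1) ^ (p - 1) ≤ V₂.valuation (p : F))
    (hC : ∀ u : F, IsKummer K p u → IsDeepAt p V₁ u → IsDeepAt p V₂ u →
      (∃ (k : ℕ) (a : F), a ∈ riemannRochSpace (kummerDivisor K p u + k • E1) ∧
        V₁.valuation (a - 1) ^ (p - 1) < V₁.valuation (p : F) ∧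
        V₂.valuation (a - 1) ^ (p - 1) < V₂.valuation (p : F)) →
      Divisor.IsPrincipal (kummerDivisor K p u))
    (h : F) (hK : IsKummer K p h) (h1 : IsDeepAt p V₁ h) (h2 : IsDeepAt p V₂ h) :
    ∃ w c : F, w ≠ 0 ∧ c ≠ 0 ∧ (∀ v : Place K F, v.ord c = 0) ∧ σ • h = h ^ n * (c * w ^ p) := by
  have hp1 : p - 1 ≠ 0 := by
    have := hp.two_le
    omega
  have hppos : (0 : ℤ) < (p : ℤ) := by exact_mod_cast hp.pos
  obtain ⟨m, hm⟩ : ∃ m : ℕ, m = p - n := ⟨_, rfl⟩
  have hh0 : h ≠ 0 := hK.ne_zero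
  have hσh0 : σ • h ≠ 0 := by
    rw [SemilinearAut.smul_def]
    exact (map_ne_zero _).mpr hh0
  have hKum' : IsKummer K p (σ • h * h ^ m) := ((isKummer_smul_iff σ).mpr hK).mul (hK.pow m)
  have hd1 : IsDeepAt p V₁ (σ • h * h ^ m) := (hσd₁ h h1).mul (h1.pow m)
  have hd2 : IsDeepAt p V₂ (σ • h * h ^ m) := (hσd₂ h h2).mul (h2.pow m)
  obtain ⟨k₀, a, ha, ha1, ha2⟩ := hA h hK h1 h2
  -- `a ≠ 0`
  have ha0 : a ≠ 0 := by
    rintro rfl
    have e : V₁.valuation ((0 : F) - 1) = 1 := by rw [zero_sub, Valuation.map_neg, map_one]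
    rw [e, one_pow] at ha1
    exact absurd hp₁ (not_lt.mpr ha1)
  have hσa0 : σ • a ≠ 0 := by
    rw [SemilinearAut.smul_def]
    exact (map_ne_zero _).mpr ha0
  have hordσ : ∀ (v : Place K F) (f : F), v.ord (σ • f) = (σ⁻¹ • v).ord f := by
    intro v f
    have h3 := SemilinearAut.ord_smul σ (σ⁻¹ • v) f
    rwa [smul_inv_smul] at h3
  have hordpow : ∀ (v : Place K F) (f : F) (j : ℕ), v.ord (f ^ j) = (j : ℤ) * v.ord f := by
    intro v f j
    rw [← zpow_natCast, v.ord_zpow]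
  -- the twisted seed
  have hseed : ∃ (k : ℕ) (a' : F),
      a' ∈ riemannRochSpace (kummerDivisor K p (σ • h * h ^ m) + k • E1) ∧
      V₁.valuation (a' - 1) ^ (p - 1) < V₁.valuation (p : F) ∧
      V₂.valuation (a' - 1) ^ (p - 1) < V₂.valuation (p : F) := by
    refine ⟨k₀ * (m + 1), σ • a * a ^ m, ?_, ?_, ?_⟩
    · have ha'0 : σ • a * a ^ m ≠ 0 := mul_ne_zero hσa0 (pow_ne_zero m ha0)
      refine (mem_rr_iff_ord ha'0).mpr fun v => ?_
      have hmem := (mem_rr_iff_ord ha0).mp ha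
      have hw := hmem (σ⁻¹ • v)
      have hv := hmem v
      rw [add_nsmul_apply, kummerDivisor_apply] at hw hv ⊢
      have hEw : E1 (σ⁻¹ • v) = E1 v := by
        have h3 := hσE (σ⁻¹ • v)
        rw [smul_inv_smul] at h3
        exact h3.symm
      rw [hEw] at hw
      have e1 : v.ord (σ • a * a ^ m) = (σ⁻¹ • v).ord a + (m : ℤ) * v.ord a := by
        rw [v.ord_mul hσa0 (pow_ne_zero m ha0), hordσ, hordpow]
      have e2 : v.ord (σ • h * h ^ m) = (σ⁻¹ • v).ord h + (m : ℤ) * v.ord h := by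
        rw [v.ord_mul hσh0 (pow_ne_zero m hh0), hordσ, hordpow]
      have c1 := hK.mul_ediv_cancel (σ⁻¹ • v)
      have c2 := hK.mul_ediv_cancel v
      have c3 := hKum'.mul_ediv_cancel v
      rw [e2] at c3
      have hZ : v.ord (σ • h * h ^ m) / (p : ℤ) =
          (σ⁻¹ • v).ord h / (p : ℤ) + (m : ℤ) * (v.ord h / (p : ℤ)) := by
        rw [e2]
        have h4 : (p : ℤ) * (((σ⁻¹ • v).ord h + (m : ℤ) * v.ord h) / (p : ℤ)) =
            (p : ℤ) * ((σ⁻¹ • v).ord h / (p : ℤ) + (m : ℤ) * (v.ord h / (p : ℤ))) := by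
          rw [c3, mul_add, c1, mul_left_comm, c2]
        exact mul_left_cancel₀ hppos.ne' h4
      rw [hZ, e1]
      have hm0 : (0 : ℤ) ≤ (m : ℤ) := Int.natCast_nonneg m
      have hv' := mul_le_mul_of_nonneg_left hv hm0
      push_cast
      nlinarith
    · rw [hm]
      have := valuation_twist_lt V₁ hp hζ hζ₁ hp₁ (SemilinearAut.toRingAut σ) hnp hσζ hσr₁ ha1
      exact this
    · rw [hm]
      have := valuation_twist_lt V₂ hp hζ hζ₂ hp₂ (SemilinearAut.toRingAut σ) hnp hσζ hσr₂ ha2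
      exact this
  obtain ⟨f, hf0, hf⟩ := hC _ hKum' hd1 hd2 hseed
  have hu'0 : σ • h * h ^ m ≠ 0 := hKum'.ne_zero
  have hfp0 : f ^ p ≠ 0 := pow_ne_zero p hf0
  have hpow : h ^ n * h ^ m = h ^ p := by
    rw [← pow_add]
    congr 1
    omega
  refine ⟨f / h, σ • h * h ^ m / f ^ p, div_ne_zero hf0 hh0, div_ne_zero hu'0 hfp0,
    fun v => ?_, ?_⟩
  · rw [div_eq_mul_inv, v.ord_mul hu'0 (inv_ne_zero hfp0), v.ord_inv, hordpow, ← hf v,
      kummerDivisor_apply, hKum'.mul_ediv_cancel v, add_neg_cancel]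
  · have e : h ^ n * (σ • h * h ^ m / f ^ p * (f / h) ^ p) = σ • h * (h ^ n * h ^ m) / h ^ p := by
      rw [div_pow]
      field_simp
    rw [e, hpow, mul_div_assoc, div_self (pow_ne_zero p hh0), mul_one]

end Chi

end Fermat.Agent.S44.helper6715
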