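/-
S44, leaf L2-INST (helper6715): the block (TOR) at the level `p * M` from the two seed statements.

* `Stmt_SeedA h' A E1` : step (A) at the level `p * M`, place `A` over `p`, pole divisor `E1`, in the
  `gpVal` vocabulary of the landed S35 kit (`helper882.gpVal A (p * M) W_p`): every deep
  `p`-Kummer `u` has a seed `a ∈ L(D_u + k E1)` with `|a - 1| ^ (p - 1) ≤ |p|` at both Gauss
  valuations.  [= `Fermat.Agent.Lib.helper3195.exists_seed_mod_pi`, first half, at
  `D0 = kummerDivisor Qb p u`, `a = u`, `b = 1`.]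
* `Stmt_SeedC h' A E1` : step (C′): a deep `p`-Kummer `u` with a seed strictly beyond
  (`|a - 1| ^ (p - 1) < |p|`) has a principal Kummer divisor.
  [= `Fermat.Agent.Lib.helper3195.isPrincipal_of_deep_seed`.]
* `stmt_TorChiElt_of_seeds` : `Stmt_TorChiElt (p * M) p A W_p τ k` for `τ` in the inertia group of
  `A`, `τ ζ = ζ ^ k`, `E1` fixed by `τ`.
* `stmt_TOR_of_seeds` : the Spec Prop of the block, `Fermat.Agent.S44.helper560.Stmt_TOR p M h'`.
* `divisor_smul_eq_of_chart` : the pole divisor of an inertia-fixed chart function is fixed.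
-/
import Mathlib
import Fermat.Agent.S35.helper882_GaussPair
import Fermat.Agent.S44.helper6715_DeepBridge
import Fermat.Agent.S44.helper6715_TorTwist

set_option autoImplicit false

namespace Fermat.Agent.S44.helper6715

open AlgebraicCurve ModularCurve
open Fermat.Agent.S29.helper8217
open Fermat.Agent.S34.helper584
open Fermat.Agent.S18
open Fermat.Agent.S33.helper3511
open Fermat.Agent.S35.helper1219
open Fermat.Agent.S35.helper882 (gpVal gpBase gpRing gpVal_zero gpVal_one gpBase_lt_one_iff)

local notation "Qb" => AlgebraicClosure ℚ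

noncomputable section

/-! ### Comparison of values for a pulled-back valuation subring -/

section Comap

variable {F : Type*} [Field F]

theorem comap_pow_le_iff (V : ValuationSubring F) (W : F →+* F) {p : ℕ} (hp : (p : F) ≠ 0)
    (x : F) :
    (V.comap W).valuation x ^ (p - 1) ≤ (V.comap W).valuation (p : F) ↔
      V.valuation (W x) ^ (p - 1) ≤ V.valuation (p : F) := by
  have h0 : 0 < (V.comap W).valuation (p : F) := zero_lt_iff.mpr ((map_ne_zero _).mpr hp)
  have h0' : 0 < V.valuation (p : F) := zero_lt_iff.mpr ((map_ne_zero _).mpr hp)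
  have e : W (x ^ (p - 1) / (p : F)) = W x ^ (p - 1) / (p : F) := by
    rw [map_div₀, map_pow, map_natCast]
  rw [← map_pow, ← map_pow, ← div_le_one₀ h0, ← div_le_one₀ h0', ← map_div₀, ← map_div₀,
    valuation_comap_le_one_iff, e]

theorem comap_pow_lt_iff (V : ValuationSubring F) (W : F →+* F) {p : ℕ} (hp : (p : F) ≠ 0)
    (x : F) :
    (V.comap W).valuation x ^ (p - 1) < (V.comap W).valuation (p : F) ↔
      V.valuation (W x) ^ (p - 1) < V.valuation (p : F) := by
  have h0 : 0 < (V.comap W).valuation (p : F) := zero_lt_iff.mpr ((map_ne_zero _).mpr hp)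
  have h0' : 0 < V.valuation (p : F) := zero_lt_iff.mpr ((map_ne_zero _).mpr hp)
  have e : W (x ^ (p - 1) / (p : F)) = W x ^ (p - 1) / (p : F) := by
    rw [map_div₀, map_pow, map_natCast]
  rw [← map_pow, ← map_pow, ← div_lt_one₀ h0, ← div_lt_one₀ h0', ← map_div₀, ← map_div₀,
    valuation_comap_lt_one_iff, e]

end Comap

/-! ### The pole divisor of a fixed chart function is fixed -/

section Chart

variable {K F : Type*} [Field K] [Field F] [Algebra K F]

/-- If `σ x = x`, `ord x = E2 - E1` with `E1, E2 ≥ 0` of disjoint supports, then `σ E1 = E1`. -/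
theorem divisor_smul_eq_of_chart (σ : SemilinearAut K F) {x : F} (hσx : σ • x = x)
    (E1 E2 : Divisor K F) (hE1 : ∀ w : Place K F, 0 ≤ E1 w) (hE2 : ∀ w : Place K F, 0 ≤ E2 w)
    (hdisj : ∀ w : Place K F, E1 w = 0 ∨ E2 w = 0)
    (hxord : ∀ w : Place K F, w.ord x = E2 w - E1 w) (w : Place K F) :
    E1 (σ • w) = E1 w := by
  have key : ∀ w : Place K F, E1 w = max 0 (-(w.ord x)) := by
    intro w
    rw [hxord w]
    rcases hdisj w with h0 | h0
    · rw [h0, sub_zero, max_eq_left (neg_nonpos.mpr (hE2 w))]
    · rw [h0, zero_sub, neg_neg, max_eq_right (hE1 w)]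
  have h1 : (σ • w).ord x = w.ord x := by
    have h2 := SemilinearAut.ord_smul σ w x
    rwa [hσx] at h2
  rw [key (σ • w), key w, h1]

end Chart

/-! ### The instance at the level `p * M` -/

section Inst

variable {p M : ℕ} [NeZero p] [NeZero M] (h' : Nat.Coprime p M)
  [HasPrincipalDivisors Qb (modularFunctionFieldBar (p * M))]

/-- **Step (A) at the level `p * M`**: every deep `p`-Kummer function has a seed of the twisted
Riemann-Roch family of `E1` which is `≡ 1` modulo `π` at both Gauss valuations. -/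
def Stmt_SeedA (A : ValuationSubring Qb) (E1 : Divisor Qb (modularFunctionFieldBar (p * M))) :
    Prop :=
  ∀ u : modularFunctionFieldBar (p * M), IsKummer Qb p u →
    (∀ i, gpVal A (p * M) (atkinLehnerBar p M h') i (u - 1) ^ (p - 1) <
      gpVal A (p * M) (atkinLehnerBar p M h') i (p : modularFunctionFieldBar (p * M)) ^ p) →
    ∃ (k : ℕ) (a : modularFunctionFieldBar (p * M)),
      a ∈ riemannRochSpace (kummerDivisor Qb p u + k • E1) ∧
      ∀ i, gpVal A (p * M) (atkinLehnerBar p M h') i (a - 1) ^ (p - 1) ≤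
        gpVal A (p * M) (atkinLehnerBar p M h') i (p : modularFunctionFieldBar (p * M))

/-- **Step (C′) at the level `p * M`**: a deep `p`-Kummer function with a seed strictly beyond
`π` has a principal Kummer divisor. -/
def Stmt_SeedC (A : ValuationSubring Qb) (E1 : Divisor Qb (modularFunctionFieldBar (p * M))) :
    Prop :=
  ∀ u : modularFunctionFieldBar (p * M), IsKummer Qb p u →
    (∀ i, gpVal A (p * M) (atkinLehnerBar p M h') i (u - 1) ^ (p - 1) <
      gpVal A (p * M) (atkinLehnerBar p M h') i (p : modularFunctionFieldBar (p * M)) ^ p) →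
    ∀ (k : ℕ) (a : modularFunctionFieldBar (p * M)),
      a ∈ riemannRochSpace (kummerDivisor Qb p u + k • E1) →
      (∀ i, gpVal A (p * M) (atkinLehnerBar p M h') i (a - 1) ^ (p - 1) <
        gpVal A (p * M) (atkinLehnerBar p M h') i (p : modularFunctionFieldBar (p * M))) →
      Divisor.IsPrincipal (kummerDivisor Qb p u)

/-- **(TORCHI) at the level `p * M` from the two seed statements.** -/
theorem stmt_TorChiElt_of_seeds (hp : p.Prime) {A : ValuationSubring Qb}
    (hA : A.LiesOverPrime p) {τ : Qb ≃ₐ[ℚ] Qb} (hτ : τ ∈ A.inertiaSubgroupIn ℚ)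
    {ζ : Qb} (hζ : IsPrimitiveRoot ζ p) {k : ℕ} (hk : τ ζ = ζ ^ k)
    (E1 : Divisor Qb (modularFunctionFieldBar (p * M)))
    (hE1 : ∀ w : Place Qb (modularFunctionFieldBar (p * M)),
      E1 (arithmeticGalois (modularFunctionFieldFull (p * M)) τ • w) = E1 w)
    (hSA : Stmt_SeedA h' A E1) (hSC : Stmt_SeedC h' A E1) :
    Stmt_TorChiElt (p * M) p A (atkinLehnerBar p M h') τ k := by
  intro h hK h1 h2
  have hWr : ∀ x, ringHomOf (p * M) (atkinLehnerBar p M h') x = atkinLehnerBar p M h' x :=
    fun _ => rfl
  have hpF : ((p : ℕ) : modularFunctionFieldBar (p * M)) ≠ 0 := natCast_ne_zero_bar hp.ne_zero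
  have hcast : ((p : ℕ) : modularFunctionFieldBar (p * M)) =
      algebraMap Qb (modularFunctionFieldBar (p * M)) (p : Qb) := (map_natCast _ p).symm
  -- `|p| < 1` at both valuations
  have hp₁ : (gaussV A (p * M)).valuation (p : modularFunctionFieldBar (p * M)) < 1 := by
    rw [hcast]
    exact (gpBase_lt_one_iff A (p * M) (p : Qb)).mpr hA
  have hp₂ : ((gaussV A (p * M)).comap (ringHomOf (p * M) (atkinLehnerBar p M h'))).valuation
      (p : modularFunctionFieldBar (p * M)) < 1 := by
    rw [valuation_comap_lt_one_iff, map_natCast]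
    exact hp₁
  -- the root of unity
  have hζF : IsPrimitiveRoot (algebraMap Qb (modularFunctionFieldBar (p * M)) ζ) p :=
    hζ.map_of_injective (algebraMap Qb (modularFunctionFieldBar (p * M))).injective
  have hζmem : ∀ V : ValuationSubring (modularFunctionFieldBar (p * M)),
      algebraMap Qb (modularFunctionFieldBar (p * M)) ζ ∈ V := by
    intro V
    rw [← V.valuation_le_one_iff]
    refine le_of_pow_le_pow_val hp.ne_zero ?_
    rw [← map_pow, hζF.pow_eq_one, map_one, one_pow]
  -- `τ ζ = ζ ^ (k % p)`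
  have hσζ : arithmeticGalois (modularFunctionFieldFull (p * M)) τ •
      algebraMap Qb (modularFunctionFieldBar (p * M)) ζ =
      algebraMap Qb (modularFunctionFieldBar (p * M)) ζ ^ (k % p) := by
    rw [SemilinearAut.smul_algebraMap]
    show algebraMap Qb (modularFunctionFieldBar (p * M)) (τ ζ) = _
    rw [hk, pow_eq_pow_mod k hζ.pow_eq_one, map_pow]
  -- inertia is trivial on the residue fields
  have hσr₁ : ∀ f : modularFunctionFieldBar (p * M), f ∈ gaussV A (p * M) →
      (gaussV A (p * M)).valuation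
        (arithmeticGalois (modularFunctionFieldFull (p * M)) τ • f - f) < 1 :=
    fun f hf => gaussF_valuation_inertia_sub_lt A (p * M) hτ f
      ((ValuationSubring.valuation_le_one_iff _ _).mpr hf)
  have hσr₂ : ∀ f : modularFunctionFieldBar (p * M),
      f ∈ (gaussV A (p * M)).comap (ringHomOf (p * M) (atkinLehnerBar p M h')) →
      ((gaussV A (p * M)).comap (ringHomOf (p * M) (atkinLehnerBar p M h'))).valuation
        (arithmeticGalois (modularFunctionFieldFull (p * M)) τ • f - f) < 1 := by
    intro f hf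
    rw [ValuationSubring.mem_comap, hWr] at hf
    rw [valuation_comap_lt_one_iff, hWr, map_sub, atkinLehnerBar_arithmeticGalois_smul p M h' τ f]
    exact hσr₁ _ hf
  -- deepness is preserved
  have hdeep : ∀ (V : ValuationSubring (modularFunctionFieldBar (p * M))),
      (∀ f : modularFunctionFieldBar (p * M), f ∈ V →
        V.valuation (arithmeticGalois (modularFunctionFieldFull (p * M)) τ • f - f) < 1) →
      ∀ f : modularFunctionFieldBar (p * M), IsDeepAt p V f →
        IsDeepAt p V (arithmeticGalois (modularFunctionFieldFull (p * M)) τ • f) := by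
    intro V hσr f hf
    refine IsDeepAt.map
      ((SemilinearAut.toRingAut (arithmeticGalois (modularFunctionFieldFull (p * M)) τ) :
        modularFunctionFieldBar (p * M) ≃+* modularFunctionFieldBar (p * M)) :
        modularFunctionFieldBar (p * M) →+* modularFunctionFieldBar (p * M)) ?_ hf
    intro x hx
    have hxV : x ∈ V := (V.valuation_le_one_iff x).mp hx.le
    have e : SemilinearAut.toRingAut (arithmeticGalois (modularFunctionFieldFull (p * M)) τ) x =
        (arithmeticGalois (modularFunctionFieldFull (p * M)) τ • x - x) + x := by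
      rw [SemilinearAut.smul_def]
      ring
    show V.valuation
      (SemilinearAut.toRingAut (arithmeticGalois (modularFunctionFieldFull (p * M)) τ) x) < 1
    rw [e]
    exact Valuation.map_add_lt _ (hσr x hxV) hx
  -- the two seed statements in the two-ring form
  have hdeepgp : ∀ u : modularFunctionFieldBar (p * M), IsDeepAt p (gaussV A (p * M)) u →
      IsDeepAt p ((gaussV A (p * M)).comap (ringHomOf (p * M) (atkinLehnerBar p M h'))) u →
      ∀ i, gpVal A (p * M) (atkinLehnerBar p M h') i (u - 1) ^ (p - 1) <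
        gpVal A (p * M) (atkinLehnerBar p M h') i (p : modularFunctionFieldBar (p * M)) ^ p := by
    intro u hu1 hu2
    rw [Fin.forall_fin_two]
    refine ⟨?_, ?_⟩
    · rw [gpVal_zero, gpVal_zero]
      exact isDeepAt_iff.mp hu1
    · rw [gpVal_one, gpVal_one, map_sub, map_one, map_natCast]
      exact isDeepAt_iff.mp ((isDeepAt_comap_iff (ringHomOf (p * M) (atkinLehnerBar p M h'))).mp hu2)
  have hres := torChi_of_seeds hp (gaussV A (p * M))
    ((gaussV A (p * M)).comap (ringHomOf (p * M) (atkinLehnerBar p M h'))) hζF (hζmem _) (hζmem _)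
    hp₁ hp₂ (arithmeticGalois (modularFunctionFieldFull (p * M)) τ)
    (Nat.mod_lt k hp.pos).le hσζ hσr₁ hσr₂ (hdeep _ hσr₁) (hdeep _ hσr₂) E1 hE1
    (fun u hKu hu1 hu2 => by
      obtain ⟨k₀, a, ha, hav⟩ := hSA u hKu (hdeepgp u hu1 hu2)
      rw [Fin.forall_fin_two] at hav
      obtain ⟨hav0, hav1⟩ := hav
      refine ⟨k₀, a, ha, ?_, ?_⟩
      · rw [gpVal_zero, gpVal_zero] at hav0
        exact hav0
      · rw [gpVal_one, gpVal_one, map_natCast] at hav1
        exact (comap_pow_le_iff _ _ hpF _).mpr hav1)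
    (fun u hKu hu1 hu2 hseed => by
      obtain ⟨k₀, a, ha, hav0, hav1⟩ := hseed
      refine hSC u hKu (hdeepgp u hu1 hu2) k₀ a ha ?_
      rw [Fin.forall_fin_two]
      refine ⟨?_, ?_⟩
      · rw [gpVal_zero, gpVal_zero]
        exact hav0
      · rw [gpVal_one, gpVal_one, map_natCast]
        exact (comap_pow_lt_iff _ _ hpF _).mp hav1)
    h hK h1 ((isDeepAt_comap_iff (ringHomOf (p * M) (atkinLehnerBar p M h'))).mpr h2)
  obtain ⟨w, c, hw, hc, hcv, hrel⟩ := hres
  have hh0 : h ≠ 0 := hK.ne_zero
  have hpow : h ^ k = h ^ (k % p) * (h ^ (k / p)) ^ p := by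
    rw [← pow_mul, ← pow_add]
    congr 1
    exact (Nat.mod_add_div' k p).symm
  refine ⟨w / h ^ (k / p), c, div_ne_zero hw (pow_ne_zero _ hh0), hc, hcv, ?_⟩
  rw [hrel, hpow, div_pow]
  field_simp

/-- **The block (TOR) at the level `p * M` from the two seed statements**: the Spec Prop
`Fermat.Agent.S44.helper560.Stmt_TOR p M h'` (inertia acts on `T` through the mod `p` cyclotomic
character), given for every place `A` over `p` a pole divisor `E1` fixed by the inertia group of
`A` for which steps (A) and (C′) hold. -/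
theorem stmt_TOR_of_seeds (hp : p.Prime)
    (hS : ∀ A : ValuationSubring Qb, A.LiesOverPrime p →
      ∃ E1 : Divisor Qb (modularFunctionFieldBar (p * M)),
        (∀ τ ∈ A.inertiaSubgroupIn ℚ, ∀ w : Place Qb (modularFunctionFieldBar (p * M)),
          E1 (arithmeticGalois (modularFunctionFieldFull (p * M)) τ • w) = E1 w) ∧
        Stmt_SeedA h' A E1 ∧ Stmt_SeedC h' A E1) :
    Fermat.Agent.S44.helper560.Stmt_TOR p M h' := by
  intro P hP c hc s hs ζ n hζ hsζ
  obtain ⟨E1, hE1, hSA, hSC⟩ := hS P hP
  have hc' := mem_kDeep_of_mem_kDeep560_atkinLehner h' hp hP hp.one_lt hc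
  exact torChi_class hp.ne_zero
    (stmt_TorChiElt_of_seeds h' hp hP hs hζ hsζ E1 (hE1 s hs) hSA hSC) hc'

end Inst

end

end Fermat.Agent.S44.helper6715
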