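/-
S44, seam (T3b), the instance at the geometric data (helper6715).

For `G : helper3630.GeomData p M h' A` (`A` over the prime `p ∤ M`; the chart / node package of
the two-component reduction of `X₀(p M)`), the two seed statements of `helper6715_TorInst` hold
for the pole divisor `G.E1` of the chart function:

* `geomData_wildFamily` : the wild special-fibre family of `helper3195_WildKummerComp` (one call
  of `wild_family_of_components` on the fields of `G`);
* `geomData_seedA` : step (A), `Stmt_SeedA h' A G.E1` (`WildFamily.exists_seed_mod_pi`);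
* `geomData_seedC` : step (C′), `Stmt_SeedC h' A G.E1` (`isPrincipal_of_deep_seed_on`);
* `geomData_smul_E1` : `G.E1` is fixed by the inertia group of `A` (`G.hxgal`);
* `stmt_TorChiElt_of_geomData`, `stmt_TorChiElt_of_chartNodes` : the element form of the
  `χ`-action of the inertia group on the deep `p`-Kummer functions, from `GeomData` / from the
  S34 Prop `Stmt_ChartNodes p M h' A`.
-/
import Mathlib
import Fermat.Agent.Lib.helper3195_WildKummerComp
import Fermat.Agent.S44.helper3630_GeomP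
import Fermat.Agent.S44.helper6715_TorInst

set_option autoImplicit false

namespace Fermat.Agent.S44.helper6715

open AlgebraicCurve ModularCurve
open Fermat.Agent.S29.helper8217
open Fermat.Agent.S34.helper584
open Fermat.Agent.S35.helper1219
open Fermat.Agent.S35.helper882 (gpVal gpBase gpRed gpRing gpBase_lt_one_iff)
open Fermat.Agent.S35.helper1928 (fibreIncl)
open Fermat.Agent.S44.helper3630
open Fermat.Agent.Lib.helper3195 (WildFamily wild_family_of_components
  isPrincipal_of_deep_seed_on)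

local notation "Qb" => AlgebraicClosure ℚ

variable {p M : ℕ} [NeZero p] [NeZero M] {h' : Nat.Coprime p M} {A : ValuationSubring Qb}

/-- **The wild special-fibre family at the geometric data** of the level `p * M`, `A` over `p`. -/
theorem geomData_wildFamily (G : GeomData p M h' A) (hp : p.Prime) (hA : A.LiesOverPrime p) :
    WildFamily (gpVal A (p * M) (atkinLehnerBar p M h')) (IsLocalRing.ResidueField A)
      (gpRed A (p * M) (atkinLehnerBar p M h')) G.E1 G.E2 p := by
  classical
  have := geom_hasPrincipalDivisors p M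
  have := geom_hasPrincipalDivisors_k h' hp A hA
  obtain ⟨P₁⟩ := geom_nonempty_place_k h' hp A hA
  have hA' : (p : Qb) ∈ A.nonunits := hA
  exact wild_family_of_components (geom_hdegK p M) (geom_hRBK p M) (geomP0 p M)
    (gpVal A (p * M) (atkinLehnerBar p M h')) (gpBase A (p * M))
    (geom_hred h' A) (geom_hconst h' A) (geom_hcart h' hp A hA)
    (fibreIncl (IsLocalRing.ResidueField A) M) (geom_hjj M A) (geom_hrange h' hp A hA)
    G.hdegk G.hdegk (geom_hRBk h' hp A hA) (geom_hRBk h' hp A hA) P₁ P₁ G.P G.Q G.hP G.hQ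
    G.Yinf₁ G.Y0₁ G.Yinf₂ G.Y0₂ G.hYinf₁ G.hY0₁ G.hYinf₂ G.hY0₂ G.hdisj₁ G.hdisj₂
    G.d₁ G.d₂ G.hd₁ G.hd₂ G.hdY₁ G.hdY0₁ G.hdY₂ G.hdY0₂ G.hPY G.hQY G.E1 G.E2 G.hE1 G.hE2 G.hdE1
    G.x G.hx0 G.hxord G.hxv G.x₁ G.x₂ G.hredx G.hx₁ G.hx₂ G.hcont G.hK1 G.hK2
    p hp ((gpBase_lt_one_iff A (p * M) (p : Qb)).mpr hA')

theorem geomData_E1_nonneg (G : GeomData p M h' A)
    (w : Place Qb (modularFunctionFieldBar (p * M))) : 0 ≤ G.E1 w := by
  simpa using Finsupp.le_def.mp G.hE1 w

theorem geomData_E2_nonneg (G : GeomData p M h' A)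
    (w : Place Qb (modularFunctionFieldBar (p * M))) : 0 ≤ G.E2 w := by
  simpa using Finsupp.le_def.mp G.hE2 w

/-- The pole divisor of the chart function is fixed by the inertia group of `A`. -/
theorem geomData_smul_E1 (G : GeomData p M h' A) {τ : Qb ≃ₐ[ℚ] Qb}
    (hτ : τ ∈ A.inertiaSubgroupIn ℚ) (w : Place Qb (modularFunctionFieldBar (p * M))) :
    G.E1 (arithmeticGalois (modularFunctionFieldFull (p * M)) τ • w) = G.E1 w :=
  divisor_smul_eq_of_chart _ (G.hxgal τ hτ) G.E1 G.E2 (geomData_E1_nonneg G)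
    (geomData_E2_nonneg G) G.hdisj G.hxord w

section Seeds

variable [HasPrincipalDivisors Qb (modularFunctionFieldBar (p * M))]

/-- **Step (A) at the geometric data.** -/
theorem geomData_seedA (G : GeomData p M h' A) (hp : p.Prime) (hA : A.LiesOverPrime p) :
    Stmt_SeedA h' A G.E1 := by
  intro u hK hdeep
  have hA' : (p : Qb) ∈ A.nonunits := hA
  exact ((geomData_wildFamily G hp hA).exists_seed_mod_pi (geomData_E1_nonneg G)
    (geomData_E2_nonneg G) hp (gpBase A (p * M))
    (Fermat.Agent.S35.helper882.gp_arch A (p * M) hp hA') (natCast_ne_zero_bar hp.ne_zero)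
    (geom_hred h' A) (fun S hS => haveI := hS; geom_hcart_submodule h' hp A hA S)
    (fun D => geom_finite_rr p M D) hK hdeep).1

/-- **Step (C′) at the geometric data.** -/
theorem geomData_seedC (G : GeomData p M h' A) (hp : p.Prime) (hA : A.LiesOverPrime p) :
    Stmt_SeedC h' A G.E1 := by
  intro u hK hdeep k a ha hva
  have hA' : (p : Qb) ∈ A.nonunits := hA
  obtain ⟨d, γ, c, N, S, hd, hRiemF, hfin, hNmono, hNinf, hNred0, hRiemk, hS, hNroot, hNAS⟩ :=
    geomData_wildFamily G hp hA
  have hp1 : 0 < p - 1 := by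
    have := hp.two_le
    omega
  obtain ⟨π, hπ⟩ : ∃ π : Qb, π ^ (p - 1) = -(p : Qb) :=
    IsAlgClosed.exists_pow_nat_eq (-(p : Qb)) hp1
  have hord0 : ∀ w : Place Qb (modularFunctionFieldBar (p * M)),
      (p : ℤ) * kummerDivisor Qb p u w = w.ord u - w.ord (1 : modularFunctionFieldBar (p * M)) :=
    fun w => by
      rw [Place.ord_one, sub_zero]
      exact hK.mul_ediv_cancel w
  exact isPrincipal_of_deep_seed_on
    (fun w => by rw [geom_hdegK p M w]; exact one_pos)
    (kummerDivisor Qb p u) G.E1 G.E2 (geomData_E1_nonneg G) (geomData_E2_nonneg G) G.hdisj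
    (degree_kummerDivisor hK) p hp u 1 hK.ne_zero one_ne_zero hord0
    (gpVal A (p * M) (atkinLehnerBar p M h')) (gpBase A (p * M))
    (Fermat.Agent.S35.helper882.gp_arch A (p * M) hp hA') (natCast_ne_zero_bar hp.ne_zero)
    ((gpBase_lt_one_iff A (p * M) (p : Qb)).mpr hA') π hπ (by simpa using hdeep)
    (geom_hred h' A)
    (Fermat.Agent.S35.helper882.exists_gpBase_eq A (p * M) (atkinLehnerBar p M h'))
    (fun S hS => haveI := hS; geom_hcart_submodule h' hp A hA S)
    (fun D => geom_finite_rr p M D) d γ c hd (hRiemF _ (degree_kummerDivisor hK))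
    (hRiemF 0 (map_zero _)) N hfin hNmono hNinf hNred0 hRiemk S hS hNroot hNAS k a ha hva

/-- **The `χ`-action at the geometric data**: for `τ` in the inertia group of `A` with
`τ ζ = ζ ^ k`, every `p`-Kummer function `h` deep at both Gauss valuations satisfies
`τ h = h ^ k * (c * w ^ p)` with `c` divisor-free. -/
theorem stmt_TorChiElt_of_geomData (G : GeomData p M h' A) (hp : p.Prime)
    (hA : A.LiesOverPrime p) {τ : Qb ≃ₐ[ℚ] Qb} (hτ : τ ∈ A.inertiaSubgroupIn ℚ)
    {ζ : Qb} (hζ : IsPrimitiveRoot ζ p) {k : ℕ} (hk : τ ζ = ζ ^ k) :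
    Stmt_TorChiElt (p * M) p A (atkinLehnerBar p M h') τ k :=
  stmt_TorChiElt_of_seeds h' hp hA hτ hζ hk G.E1 (fun w => geomData_smul_E1 G hτ w)
    (geomData_seedA G hp hA) (geomData_seedC G hp hA)

/-- **The `χ`-action from the chart / node package** `Stmt_ChartNodes p M h' A` of S34. -/
theorem stmt_TorChiElt_of_chartNodes (hp : p.Prime) (hA : A.LiesOverPrime p)
    (hC : Fermat.Agent.S34.helper2423.Stmt_ChartNodes p M h' A)
    {τ : Qb ≃ₐ[ℚ] Qb} (hτ : τ ∈ A.inertiaSubgroupIn ℚ)
    {ζ : Qb} (hζ : IsPrimitiveRoot ζ p) {k : ℕ} (hk : τ ζ = ζ ^ k) :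
    Stmt_TorChiElt (p * M) p A (atkinLehnerBar p M h') τ k := by
  obtain ⟨G⟩ := nonempty_geomData h' hp A hA hC
  exact stmt_TorChiElt_of_geomData G hp hA hτ hζ hk

end Seeds

end Fermat.Agent.S44.helper6715
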