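/-
S44, seam (T3b) of the top Spec (`Fermat.Agent.S44.helper3130.Stmt_Tor`), owner helper6715:
the inertia group at `A` acts on the `p`-torsion classes of `T` through the cyclotomic character.

Chain: `Stmt_Tor`
  ⟸ [wrapper of record `helper560.stmt_Tor_of_torChiElt`: Spec vocabulary `InT`, `IsCycloExp`
      ⟹ `kDeep`, natural exponent]
    the element form `helper6715.Stmt_TorChiElt (p * M) p A W_p σ n` (`σ ∈ I_A`, `σ ζ = ζ ^ n`)
  ⟸ [`helper6715_TorInst.stmt_TorChiElt_of_seeds`: twist lemma + inertia facts at the Gauss pair]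
    the seed statements (A), (C′) for an inertia-fixed pole divisor `E1`
  ⟸ [`helper6715_TorGeom`: helper3195's wild special-fibre family on helper3630's `GeomData`]
    the S34 chart / node package `Stmt_ChartNodes p M hcop A` (used with `2 ∣ M`).

* `stmt_Tor_of_seeds`      : the seam from the seed statements;
* `stmt_Tor_of_chartNodes` : the seam from `Stmt_ChartNodes p M hcop A` at every `A` over `p`
  (`p ≥ 5`, `p * M` squarefree, `2 ∣ M`);
* `seam_T3b : Fermat.Agent.S44.helper3130.Stmt_Tor` : **the seam**, with the landed S34 theorem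
  `helper8267.stmt_ChartNodes_t2` (chart `t₂`, available because `2 ∣ M` and `p ≠ 2`).
-/
import Mathlib
import Fermat.Agent.S34.helper8267_ChartNodesAll
import Fermat.Agent.S44.helper560_SeamTor
import Fermat.Agent.S44.helper6715_TorGeom

set_option autoImplicit false

namespace Fermat.Agent.S44.helper6715

open AlgebraicCurve ModularCurve
open Fermat.Agent.S35.helper1219

local notation "Qb" => AlgebraicClosure ℚ

/-- **Seam (T3b) from the two seed statements** (A), (C′) of `helper6715_TorInst` at every place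
`A` over `p` (with a pole divisor `E1` fixed by the inertia group of `A`). -/
theorem stmt_Tor_of_seeds
    (H : ∀ (p : ℕ), p.Prime → 5 ≤ p → ∀ (M : ℕ) [NeZero p] [NeZero M] (hcop : Nat.Coprime p M),
      Squarefree (p * M) → 2 ∣ M → ∀ A : ValuationSubring Qb, A.LiesOverPrime p →
      ∃ E1 : Divisor Qb (modularFunctionFieldBar (p * M)),
        (∀ τ ∈ A.inertiaSubgroupIn ℚ, ∀ w : Place Qb (modularFunctionFieldBar (p * M)),
          E1 (arithmeticGalois (modularFunctionFieldFull (p * M)) τ • w) = E1 w) ∧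
        Stmt_SeedA hcop A E1 ∧ Stmt_SeedC hcop A E1) :
    Fermat.Agent.S44.helper3130.Stmt_Tor := by
  refine Fermat.Agent.S44.helper560.stmt_Tor_of_torChiElt ?_
  intro p hp hp5 M _ _ hcop hsq h2 A hA σ hσ ζ n hζ hσζ
  obtain ⟨E1, hE1, hSA, hSC⟩ := H p hp hp5 M hcop hsq h2 A hA
  exact stmt_TorChiElt_of_seeds hcop hp hA hσ hζ hσζ E1 (hE1 σ hσ) hSA hSC

/-- **Seam (T3b) from the chart / node package of S34**: if `Stmt_ChartNodes p M hcop A` holds
for every prime `p ≥ 5`, every `M` prime to `p` with `p * M` squarefree and `2 ∣ M`, and every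
`A` over `p`, then the Spec seam `helper3130.Stmt_Tor` holds. -/
theorem stmt_Tor_of_chartNodes
    (H : ∀ (p : ℕ), p.Prime → 5 ≤ p → ∀ (M : ℕ) [NeZero p] [NeZero M] (hcop : Nat.Coprime p M),
      Squarefree (p * M) → 2 ∣ M → ∀ A : ValuationSubring Qb, A.LiesOverPrime p →
      Fermat.Agent.S34.helper2423.Stmt_ChartNodes p M hcop A) :
    Fermat.Agent.S44.helper3130.Stmt_Tor := by
  refine Fermat.Agent.S44.helper560.stmt_Tor_of_torChiElt ?_
  intro p hp hp5 M _ _ hcop hsq h2 A hA σ hσ ζ n hζ hσζ
  exact stmt_TorChiElt_of_chartNodes hp hA (H p hp hp5 M hcop hsq h2 A hA) hσ hζ hσζ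

/-- **SEAM (T3b)**: the inertia group at `A` acts on the `p`-torsion classes of `T` through the
cyclotomic character (level `p * M`, `p ≥ 5`, `2 ∣ M`). -/
theorem seam_T3b : Fermat.Agent.S44.helper3130.Stmt_Tor :=
  stmt_Tor_of_chartNodes fun p hp hp5 M _ _ hcop _ h2 A hA =>
    Fermat.Agent.S34.helper8267.stmt_ChartNodes_t2 p M hcop hp (by omega) h2 A hA

end Fermat.Agent.S44.helper6715
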