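/-
S44, leaf L1-FIXEDNF (helper8007), instance in the canonical two-valuation vocabulary of the
S35/S34 geometry module (`helper882.gpRing / gpRingW / gpVal / gpBase`,
`W := helper1219.atkinLehnerBar q M hc`, `π := IsLocalRing.residue A`).

For a subgroup `H` of `Gal(ℚ̄/ℚ)` whose fixed constants are `ϖ ^ n * (unit of A)`:

* `gp_exists_zpow_mul` : an `H`-fixed function `f ≠ 0` of level `q * M` is
  `ϖ ^ n * u = ϖ ^ m * u'` with `u` and `W u'` fixed units of the Gauss ring `V_∞`;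
* `gp_exists_val_eq_zpow` : `gpVal 0 f = gpBase ϖ ^ n` and `gpVal 1 f = gpBase ϖ ^ m`
  ("both Gauss valuations of an `H`-fixed function lie in the value group of the `H`-fixed
  constants");
* `gp_variation` : for `τ` moving the `H`-fixed elements of `A` by multiples of `d`
  (`d ≠ 0` in the maximal ideal): `τ f = (τ ϖ / ϖ) ^ n * f * (1 + d * g)` with `g ∈ V_∞`, and
  `τ f = (τ ϖ / ϖ) ^ m * f * (1 + d * g')` with `g' ∈ V_0`.
-/
import Mathlib
import Fermat.Agent.S44.helper8007_FixedNormalForm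
import Fermat.Agent.S35.helper1219_AtkinLehnerFF
import Fermat.Agent.S35.helper882_GaussPair

set_option autoImplicit false

open HahnSeries ModularCurve

namespace Fermat.Agent.S44.helper8007

noncomputable section

open Fermat.Agent.S18.helper8991 Fermat.Agent.S35

local notation "Qb" => AlgebraicClosure ℚ
local notation "GQ" => (AlgebraicClosure ℚ ≃ₐ[ℚ] AlgebraicClosure ℚ)

variable (q M : ℕ) [NeZero q] [NeZero M] (hc : Nat.Coprime q M)
  (A : ValuationSubring Qb) (H : Subgroup GQ)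

/-- **Both Gauss valuations, unit form.**  An `H`-fixed function of level `q * M` is
`ϖ ^ n * u = ϖ ^ m * u'` with `u` and `W u'` fixed units of the Gauss ring. -/
theorem gp_exists_zpow_mul (ϖ : Qb) (hϖ0 : ϖ ≠ 0) (hϖ : ∀ σ ∈ H, σ ϖ = ϖ)
    (hdisc : ∀ c : Qb, c ≠ 0 → (∀ σ ∈ H, σ c = c) → ∃ n : ℤ, c / ϖ ^ n ∈ A ∧ ϖ ^ n / c ∈ A)
    (f : modularFunctionFieldBar (q * M)) (hf0 : f ≠ 0)
    (hfix : ∀ σ ∈ H, arithmeticRingAut (modularFunctionFieldFull (q * M)) σ f = f) :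
    ∃ (n m : ℤ) (u u' : modularFunctionFieldBar (q * M)),
      IsFixedUnit A (IsLocalRing.residue A) H (q * M) u ∧
      IsFixedUnit A (IsLocalRing.residue A) H (q * M) (helper1219.atkinLehnerBar q M hc u') ∧
      f = algebraMap Qb (modularFunctionFieldBar (q * M)) ϖ ^ n * u ∧
      f = algebraMap Qb (modularFunctionFieldBar (q * M)) ϖ ^ m * u' := by
  obtain ⟨n, u, hu, h⟩ :=
    exists_zpow_mul_fixedUnit A (IsLocalRing.residue A) H (q * M) ϖ hϖ0 hϖ hdisc f hf0 hfix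
  obtain ⟨m, u', hu', h'⟩ :=
    exists_zpow_mul_fixedUnit_comap A (IsLocalRing.residue A) H (q * M)
      (helper1219.atkinLehnerBar q M hc)
      (fun σ _ z => helper1219.atkinLehnerBar_arithmeticRingAut q M hc σ z)
      ϖ hϖ0 hϖ hdisc f hf0 hfix
  exact ⟨n, m, u, u', hu, hu', h, h'⟩

/-- **Both Gauss valuations of an `H`-fixed function lie in the value group of the `H`-fixed
constants** (`gpVal` / `gpBase` vocabulary of `helper882`). -/
theorem gp_exists_val_eq_zpow (ϖ : Qb) (hϖ0 : ϖ ≠ 0) (hϖ : ∀ σ ∈ H, σ ϖ = ϖ)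
    (hdisc : ∀ c : Qb, c ≠ 0 → (∀ σ ∈ H, σ c = c) → ∃ n : ℤ, c / ϖ ^ n ∈ A ∧ ϖ ^ n / c ∈ A)
    (f : modularFunctionFieldBar (q * M)) (hf0 : f ≠ 0)
    (hfix : ∀ σ ∈ H, arithmeticRingAut (modularFunctionFieldFull (q * M)) σ f = f) :
    ∃ n m : ℤ,
      helper882.gpVal A (q * M) (helper1219.atkinLehnerBar q M hc) 0 f
        = helper882.gpBase A (q * M) ϖ ^ n ∧
      helper882.gpVal A (q * M) (helper1219.atkinLehnerBar q M hc) 1 f
        = helper882.gpBase A (q * M) ϖ ^ m := by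
  obtain ⟨n, m, u, u', hu, hu', h, h'⟩ := gp_exists_zpow_mul q M hc A H ϖ hϖ0 hϖ hdisc f hf0 hfix
  refine ⟨n, m, ?_, ?_⟩
  · rw [helper882.gpVal_zero, h, map_mul, map_zpow₀, hu.valuation_eq_one, mul_one]
    rfl
  · rw [helper882.gpVal_one, h', map_mul, map_mul, map_zpow₀, map_zpow₀, AlgEquiv.commutes,
      hu'.valuation_eq_one, mul_one]
    rfl

/-- **Variation at both Gauss valuations.**  Let `τ ∈ Gal(ℚ̄/ℚ)` and `d ∈ A`, `d ≠ 0`, in the
maximal ideal, with `τ a - a ∈ d A` for every `H`-fixed `a ∈ A`.  Then for an `H`-fixed `f ≠ 0`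
with `v_∞ f = v ϖ ^ n`, `v_0 f = v ϖ ^ m` (as in `gp_exists_zpow_mul`):
`τ f = (τ ϖ / ϖ) ^ n * f * (1 + d g)`, `g ∈ V_∞`, and `τ f = (τ ϖ / ϖ) ^ m * f * (1 + d g')`,
`g' ∈ V_0`. -/
theorem gp_variation (ϖ : Qb) (hϖ0 : ϖ ≠ 0) (hϖ : ∀ σ ∈ H, σ ϖ = ϖ)
    (hdisc : ∀ c : Qb, c ≠ 0 → (∀ σ ∈ H, σ c = c) → ∃ n : ℤ, c / ϖ ^ n ∈ A ∧ ϖ ^ n / c ∈ A)
    (f : modularFunctionFieldBar (q * M)) (hf0 : f ≠ 0)
    (hfix : ∀ σ ∈ H, arithmeticRingAut (modularFunctionFieldFull (q * M)) σ f = f)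
    (τ : GQ) (d : A) (hd0 : (d : Qb) ≠ 0) (hdm : d ∈ IsLocalRing.maximalIdeal A)
    (hd : ∀ a : A, (∀ σ ∈ H, σ (a : Qb) = (a : Qb)) → (τ (a : Qb) - (a : Qb)) / (d : Qb) ∈ A) :
    ∃ (n m : ℤ) (g g' : modularFunctionFieldBar (q * M)),
      helper882.gpVal A (q * M) (helper1219.atkinLehnerBar q M hc) 0 f
        = helper882.gpBase A (q * M) ϖ ^ n ∧
      helper882.gpVal A (q * M) (helper1219.atkinLehnerBar q M hc) 1 f
        = helper882.gpBase A (q * M) ϖ ^ m ∧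
      g ∈ helper882.gpRing A (q * M) ∧
      g' ∈ helper882.gpRingW A (q * M) (helper1219.atkinLehnerBar q M hc) ∧
      arithmeticRingAut (modularFunctionFieldFull (q * M)) τ f
        = algebraMap Qb (modularFunctionFieldBar (q * M)) (τ ϖ / ϖ) ^ n * f
          * (1 + algebraMap Qb (modularFunctionFieldBar (q * M)) (d : Qb) * g) ∧
      arithmeticRingAut (modularFunctionFieldFull (q * M)) τ f
        = algebraMap Qb (modularFunctionFieldBar (q * M)) (τ ϖ / ϖ) ^ m * f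
          * (1 + algebraMap Qb (modularFunctionFieldBar (q * M)) (d : Qb) * g') := by
  have hπd : IsLocalRing.residue A d = 0 := (IsLocalRing.residue_eq_zero_iff d).mpr hdm
  obtain ⟨n, m, u, u', hu, hu', h, h'⟩ := gp_exists_zpow_mul q M hc A H ϖ hϖ0 hϖ hdisc f hf0 hfix
  obtain ⟨g, hg, hτu⟩ := hu.variation τ d hd0 hπd hd
  obtain ⟨g', hg', hτu'⟩ := hu'.variation_comap (helper1219.atkinLehnerBar q M hc) τ
    (fun z => helper1219.atkinLehnerBar_arithmeticRingAut q M hc τ z) d hd0 hπd hd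
  have hϖF : algebraMap Qb (modularFunctionFieldBar (q * M)) ϖ ≠ 0 := by
    rw [ne_eq, map_eq_zero]
    exact hϖ0
  have key : ∀ (r : ℤ) (w : modularFunctionFieldBar (q * M)),
      arithmeticRingAut (modularFunctionFieldFull (q * M)) τ
          (algebraMap Qb (modularFunctionFieldBar (q * M)) ϖ ^ r * w)
        = algebraMap Qb (modularFunctionFieldBar (q * M)) (τ ϖ / ϖ) ^ r
          * (algebraMap Qb (modularFunctionFieldBar (q * M)) ϖ ^ r
            * arithmeticRingAut (modularFunctionFieldFull (q * M)) τ w) := by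
    intro r w
    rw [map_mul, map_zpow₀, arithmeticRingAut_algebraMap, ← mul_assoc, ← mul_zpow, ← map_mul,
      div_mul_cancel₀ _ hϖ0]
  refine ⟨n, m, g, g', ?_, ?_, hg, hg', ?_, ?_⟩
  · rw [helper882.gpVal_zero, h, map_mul, map_zpow₀, hu.valuation_eq_one, mul_one]
    rfl
  · rw [helper882.gpVal_one, h', map_mul, map_mul, map_zpow₀, map_zpow₀, AlgEquiv.commutes,
      hu'.valuation_eq_one, mul_one]
    rfl
  · conv_lhs => rw [h]
    rw [key, hτu]
    conv_rhs => rw [h]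
    ring
  · conv_lhs => rw [h']
    rw [key, hτu']
    conv_rhs => rw [h']
    ring

end

end Fermat.Agent.S44.helper8007
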