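/-
S44, leaf L1-FIXEDNF (helper8007): the HYPOTHESIS-FREE instances of the fixed normal form, for
the inertia field `K0` and for every layer `K0(t)` of `helper2530_BaseField`
(`K = K0(ζ)`, `L = K0(y)`, `L' = K0(ζ, y)`).

`A` a valuation subring of `ℚ̄` over the prime `p`, `I := A.inertiaSubgroupIn ℚ`.

* (K0-form)    `H := I`, `ϖ := p`   (discreteness: landed `S58.helper6024`);
* (layer form) `H := helper2530.layerGroup A t`, `ϖ` with `helper2530.IsLayerUnif A t ϖ`
  (instances there: `isLayerUnif_pi` (`t = ζ`, `ϖ = ζ - 1`), `isLayerUnif_root_sub_one`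
  (`t = y`, `ϖ = y - 1`), `isLayerUnif_wild` (`t = (ζ, y)`, `ϖ = (ζ - 1)/(y - 1)`)).

Results:

* `inertia_hdisc`, `layer_hdisc` : the `hdisc` hypotheses of `exists_zpow_mul_fixedUnit`;
* `layer_sub_div_mem` : for `τ ∈ I` and `a` in the layer ring, `(τ a - a) / ϖ ∈ A`
  (the `hd` hypothesis of `IsFixedUnit.variation` with `d = ϖ`);
* `inertia_exists_zpow_mul`, `layer_exists_zpow_mul` (any level `N`): an `H`-fixed function
  `f ≠ 0` is `ϖ ^ n * u`, `u` an `H`-fixed unit of the Gauss ring;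
* `inertia_gp_val_eq_zpow`, `layer_gp_val_eq_zpow` (level `q * M`, both Gauss valuations):
  `gpVal 0 f = gpBase ϖ ^ n` and `gpVal 1 f = gpBase ϖ ^ m`;
* `inertia_gpVal_unif`, `layer_gpVal_unif`, `cyc_gpVal_unif` : `∃ n : ℤ, v f = v ϖ ^ n` at
  `v := gpVal A (q * M) W i` (the last one is the literal `unif` field of `helper8352.WildHyp`
  for the `cycInertia`-fixed functions, with `ζ_F := algebraMap ζ`);
* `gp_hdiv`, `inertia_gp_hdiv`, `layer_gp_hdiv` : the `hdiv` hypothesis of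
  `S19.helper3214.gp_exists_fixed_cartesian / gp_exists_fixed_same_red`, verbatim
  (`arithmeticGalois … σ • f = f`, `helper1928.wAL`);
* `layer_gp_variation` : for `τ ∈ I` and a layer-rational `f ≠ 0`,
  `τ f = (τ ϖ / ϖ) ^ n * f * (1 + ϖ * g)`, `g ∈ V_∞`, and the same with `m` and `g' ∈ V_0`.
-/
import Mathlib
import Fermat.Agent.S44.helper8007_FixedNormalFormGP
import Fermat.Agent.S44.helper2530_BaseField
import Fermat.Agent.S35.helper1928_TwoValBasis

set_option autoImplicit false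

open HahnSeries ModularCurve

namespace Fermat.Agent.S44.helper8007

noncomputable section

open Fermat.Agent.S18.helper8991 Fermat.Agent.S35

local notation "Qb" => AlgebraicClosure ℚ
local notation "GQ" => (AlgebraicClosure ℚ ≃ₐ[ℚ] AlgebraicClosure ℚ)

/-! ### The discreteness hypotheses -/

section hdisc

variable {p : ℕ} {A : ValuationSubring Qb} {X : Type*} [MulAction GQ X] {t : X} {ϖ : Qb}

/-- From `v c = v ϖ ^ n` to the membership form used by `exists_zpow_mul_fixedUnit`. -/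
theorem div_zpow_mem_of_valuation_eq {c ϖ : Qb} (hϖ : ϖ ≠ 0) {n : ℤ}
    (h : A.valuation c = A.valuation ϖ ^ n) : c / ϖ ^ n ∈ A ∧ ϖ ^ n / c ∈ A := by
  have hv : A.valuation (c / ϖ ^ n) = 1 := by
    rw [map_div₀, map_zpow₀, h]
    exact div_self (zpow_ne_zero n ((map_ne_zero _).mpr hϖ))
  refine ⟨(A.valuation_le_one_iff _).mp hv.le, ?_⟩
  rw [← inv_div]
  exact (A.valuation_le_one_iff _).mp (by rw [map_inv₀, hv, inv_one])

/-- (K0-form) discreteness of the inertia field with uniformiser `p`. -/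
theorem inertia_hdisc (hp : p.Prime) (hA : A.LiesOverPrime p) :
    ∀ c : Qb, c ≠ 0 → (∀ σ ∈ A.inertiaSubgroupIn ℚ, σ c = c) →
      ∃ n : ℤ, c / (p : Qb) ^ n ∈ A ∧ (p : Qb) ^ n / c ∈ A := by
  intro c hc hfix
  obtain ⟨n, hn⟩ := Fermat.Agent.S58.helper6024.exists_zpow_valuation_eq A hp hA c hfix hc
  exact ⟨n, div_zpow_mem_of_valuation_eq (Nat.cast_ne_zero.mpr hp.ne_zero) hn⟩

/-- (layer form) discreteness of the layer field with uniformiser `ϖ`. -/
theorem layer_hdisc (h : helper2530.IsLayerUnif A t ϖ) :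
    ∀ c : Qb, c ≠ 0 → (∀ σ ∈ helper2530.layerGroup A t, σ c = c) →
      ∃ n : ℤ, c / ϖ ^ n ∈ A ∧ ϖ ^ n / c ∈ A :=
  fun _ hc hfix => h.exists_zpow_div_mem hfix hc

theorem inertia_natCast_fixed (σ : GQ) : σ (p : Qb) = (p : Qb) := map_natCast σ p

/-- **The variation hypothesis for `d = ϖ`.**  An inertia element moves the integers of the
layer `K0(t)` by multiples of the uniformiser `ϖ`. -/
theorem layer_sub_div_mem (hp : p.Prime) (hA : A.LiesOverPrime p)
    (h : helper2530.IsLayerUnif A t ϖ) {τ : GQ} (hτ : τ ∈ A.inertiaSubgroupIn ℚ) {a : Qb}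
    (ha : a ∈ helper2530.layerRing A t) : (τ a - a) / ϖ ∈ A := by
  have hϖ0 := h.ne_zero
  obtain ⟨g, hg, x', hx', rfl⟩ := h.exists_eq_add_mul hp hA ha
  have hτx : τ x' ∈ A := by
    rw [← A.valuation_le_one_iff, helper2530.valuation_apply hτ]
    exact (A.valuation_le_one_iff _).mpr hx'.1
  have hτϖ : τ ϖ / ϖ ∈ A := by
    rw [← A.valuation_le_one_iff, map_div₀, helper2530.valuation_apply hτ,
      div_self h.valuation_pos.ne']
  have hτg : τ g = g := hg.2 τ hτ
  have hkey : (τ (g + ϖ * x') - (g + ϖ * x')) / ϖ = τ ϖ / ϖ * τ x' - x' := by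
    rw [map_add, map_mul, hτg]
    field_simp
    ring
  rw [hkey]
  exact sub_mem (A.mul_mem _ _ hτϖ hτx) hx'.1

end hdisc

/-! ### Any level, one Gauss ring -/

section anyLevel

variable {p : ℕ} (A : ValuationSubring Qb) {X : Type*} [MulAction GQ X] {t : X} {ϖ : Qb}

/-- (K0-form) An inertia-fixed function `f ≠ 0` of level `N` is `p ^ n` times an inertia-fixed
unit of the Gauss ring. -/
theorem inertia_exists_zpow_mul (hp : p.Prime) (hA : A.LiesOverPrime p) (N : ℕ)
    (f : modularFunctionFieldBar N) (hf0 : f ≠ 0)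
    (hfix : ∀ σ ∈ A.inertiaSubgroupIn ℚ, arithmeticRingAut (modularFunctionFieldFull N) σ f = f) :
    ∃ (n : ℤ) (u : modularFunctionFieldBar N),
      IsFixedUnit A (IsLocalRing.residue A) (A.inertiaSubgroupIn ℚ) N u ∧
      f = algebraMap Qb (modularFunctionFieldBar N) (p : Qb) ^ n * u :=
  exists_zpow_mul_fixedUnit A (IsLocalRing.residue A) (A.inertiaSubgroupIn ℚ) N (p : Qb)
    (Nat.cast_ne_zero.mpr hp.ne_zero) (fun σ _ => inertia_natCast_fixed σ)
    (inertia_hdisc hp hA) f hf0 hfix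

/-- (layer form) A function `f ≠ 0` of level `N` fixed by the layer group is `ϖ ^ n` times a
layer-fixed unit of the Gauss ring. -/
theorem layer_exists_zpow_mul (h : helper2530.IsLayerUnif A t ϖ)
    (N : ℕ) (f : modularFunctionFieldBar N) (hf0 : f ≠ 0)
    (hfix : ∀ σ ∈ helper2530.layerGroup A t,
      arithmeticRingAut (modularFunctionFieldFull N) σ f = f) :
    ∃ (n : ℤ) (u : modularFunctionFieldBar N),
      IsFixedUnit A (IsLocalRing.residue A) (helper2530.layerGroup A t) N u ∧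
      f = algebraMap Qb (modularFunctionFieldBar N) ϖ ^ n * u :=
  exists_zpow_mul_fixedUnit A (IsLocalRing.residue A) (helper2530.layerGroup A t) N ϖ
    h.ne_zero h.fixed (layer_hdisc h) f hf0 hfix

end anyLevel

/-! ### Level `q * M`, both Gauss valuations -/

section gp

variable (q M : ℕ) [NeZero q] [NeZero M] (hc : Nat.Coprime q M)
  {p : ℕ} (A : ValuationSubring Qb) {X : Type*} [MulAction GQ X] {t : X} {ϖ : Qb}

/-- (K0-form) Both Gauss valuations of an inertia-fixed function are integral powers of the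
valuation of `p`. -/
theorem inertia_gp_val_eq_zpow (hp : p.Prime) (hA : A.LiesOverPrime p)
    (f : modularFunctionFieldBar (q * M)) (hf0 : f ≠ 0)
    (hfix : ∀ σ ∈ A.inertiaSubgroupIn ℚ,
      arithmeticRingAut (modularFunctionFieldFull (q * M)) σ f = f) :
    ∃ n m : ℤ,
      helper882.gpVal A (q * M) (helper1219.atkinLehnerBar q M hc) 0 f
        = helper882.gpBase A (q * M) (p : Qb) ^ n ∧
      helper882.gpVal A (q * M) (helper1219.atkinLehnerBar q M hc) 1 f
        = helper882.gpBase A (q * M) (p : Qb) ^ m :=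
  gp_exists_val_eq_zpow q M hc A (A.inertiaSubgroupIn ℚ) (p : Qb)
    (Nat.cast_ne_zero.mpr hp.ne_zero) (fun σ _ => inertia_natCast_fixed σ)
    (inertia_hdisc hp hA) f hf0 hfix

/-- (layer form) Both Gauss valuations of a layer-rational function are integral powers of the
valuation of the uniformiser `ϖ` of the layer. -/
theorem layer_gp_val_eq_zpow (h : helper2530.IsLayerUnif A t ϖ)
    (f : modularFunctionFieldBar (q * M)) (hf0 : f ≠ 0)
    (hfix : ∀ σ ∈ helper2530.layerGroup A t,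
      arithmeticRingAut (modularFunctionFieldFull (q * M)) σ f = f) :
    ∃ n m : ℤ,
      helper882.gpVal A (q * M) (helper1219.atkinLehnerBar q M hc) 0 f
        = helper882.gpBase A (q * M) ϖ ^ n ∧
      helper882.gpVal A (q * M) (helper1219.atkinLehnerBar q M hc) 1 f
        = helper882.gpBase A (q * M) ϖ ^ m :=
  gp_exists_val_eq_zpow q M hc A (helper2530.layerGroup A t) ϖ
    h.ne_zero h.fixed (layer_hdisc h) f hf0 hfix

/-- Either Gauss valuation of an `H`-fixed function is an integral power of `gpBase ϖ`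
(generic form: any `H`, `ϖ` with the discreteness hypothesis). -/
theorem gp_exists_val_eq_zpow_fin (H : Subgroup GQ) (ϖ : Qb) (hϖ0 : ϖ ≠ 0)
    (hϖ : ∀ σ ∈ H, σ ϖ = ϖ)
    (hdisc : ∀ c : Qb, c ≠ 0 → (∀ σ ∈ H, σ c = c) → ∃ n : ℤ, c / ϖ ^ n ∈ A ∧ ϖ ^ n / c ∈ A)
    (i : Fin 2) (f : modularFunctionFieldBar (q * M)) (hf0 : f ≠ 0)
    (hfix : ∀ σ ∈ H, arithmeticRingAut (modularFunctionFieldFull (q * M)) σ f = f) :
    ∃ n : ℤ, helper882.gpVal A (q * M) (helper1219.atkinLehnerBar q M hc) i f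
      = helper882.gpBase A (q * M) ϖ ^ n := by
  obtain ⟨n, m, h0, h1⟩ := gp_exists_val_eq_zpow q M hc A H ϖ hϖ0 hϖ hdisc f hf0 hfix
  fin_cases i
  · exact ⟨n, h0⟩
  · exact ⟨m, h1⟩

/-- (layer form) `∃ n : ℤ, v f = v ϖ ^ n` at either Gauss valuation `v := gpVal A (q * M) W i`,
with `ϖ_F := algebraMap ϖ`. -/
theorem layer_gpVal_unif (h : helper2530.IsLayerUnif A t ϖ)
    (i : Fin 2) (f : modularFunctionFieldBar (q * M)) (hf0 : f ≠ 0)
    (hfix : ∀ σ ∈ helper2530.layerGroup A t,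
      arithmeticRingAut (modularFunctionFieldFull (q * M)) σ f = f) :
    ∃ n : ℤ, helper882.gpVal A (q * M) (helper1219.atkinLehnerBar q M hc) i f
      = helper882.gpVal A (q * M) (helper1219.atkinLehnerBar q M hc) i
          (algebraMap Qb (modularFunctionFieldBar (q * M)) ϖ) ^ n := by
  rw [helper882.gpVal_algebraMap]
  exact gp_exists_val_eq_zpow_fin q M hc A (helper2530.layerGroup A t) ϖ
    h.ne_zero h.fixed (layer_hdisc h) i f hf0 hfix

/-- (K-form) **The `unif` field of `helper8352.WildHyp`** at either Gauss valuation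
`v := gpVal A (q * M) W i`, for the `cycInertia`-fixed functions, with `ζ_F := algebraMap ζ`:
`∃ n : ℤ, v f = v (ζ_F - 1) ^ n`. -/
theorem cyc_gpVal_unif {ζ : Qb} (hp : p.Prime) (hA : A.LiesOverPrime p)
    (hζ : IsPrimitiveRoot ζ p)
    (i : Fin 2) (f : modularFunctionFieldBar (q * M)) (hf0 : f ≠ 0)
    (hfix : ∀ σ ∈ helper2530.cycInertia A ζ,
      arithmeticRingAut (modularFunctionFieldFull (q * M)) σ f = f) :
    ∃ n : ℤ, helper882.gpVal A (q * M) (helper1219.atkinLehnerBar q M hc) i f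
      = helper882.gpVal A (q * M) (helper1219.atkinLehnerBar q M hc) i
          (algebraMap Qb (modularFunctionFieldBar (q * M)) ζ - 1) ^ n := by
  have hπ : algebraMap Qb (modularFunctionFieldBar (q * M)) ζ - 1
      = algebraMap Qb (modularFunctionFieldBar (q * M)) (ζ - 1) := by
    rw [map_sub, map_one]
  rw [hπ]
  exact layer_gpVal_unif q M hc A (helper2530.isLayerUnif_pi hp hA hζ) i f hf0 hfix

/-- (K0-form) `∃ n : ℤ, v f = v p ^ n` at either Gauss valuation, for inertia-fixed functions. -/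
theorem inertia_gpVal_unif (hp : p.Prime) (hA : A.LiesOverPrime p)
    (i : Fin 2) (f : modularFunctionFieldBar (q * M)) (hf0 : f ≠ 0)
    (hfix : ∀ σ ∈ A.inertiaSubgroupIn ℚ,
      arithmeticRingAut (modularFunctionFieldFull (q * M)) σ f = f) :
    ∃ n : ℤ, helper882.gpVal A (q * M) (helper1219.atkinLehnerBar q M hc) i f
      = helper882.gpVal A (q * M) (helper1219.atkinLehnerBar q M hc) i
          ((p : ℕ) : modularFunctionFieldBar (q * M)) ^ n := by
  have hπ : ((p : ℕ) : modularFunctionFieldBar (q * M))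
      = algebraMap Qb (modularFunctionFieldBar (q * M)) (p : Qb) := (map_natCast _ p).symm
  rw [hπ, helper882.gpVal_algebraMap]
  exact gp_exists_val_eq_zpow_fin q M hc A (A.inertiaSubgroupIn ℚ) (p : Qb)
    (Nat.cast_ne_zero.mpr hp.ne_zero) (fun σ _ => inertia_natCast_fixed σ)
    (inertia_hdisc hp hA) i f hf0 hfix

/-- **The `hdiv` hypothesis of `S19.helper3214.gp_exists_fixed_cartesian`** (generic form: any
`H`, `ϖ` in the maximal ideal with the discreteness hypothesis): an `H`-fixed function in the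
open unit ball of both Gauss valuations is divisible by `ϖ` at both. -/
theorem gp_hdiv (H : Subgroup GQ) (ϖ : Qb) (hϖ0 : ϖ ≠ 0) (hϖA : ϖ ∈ A.nonunits)
    (hϖ : ∀ σ ∈ H, σ ϖ = ϖ)
    (hdisc : ∀ c : Qb, c ≠ 0 → (∀ σ ∈ H, σ c = c) → ∃ n : ℤ, c / ϖ ^ n ∈ A ∧ ϖ ^ n / c ∈ A) :
    ∀ f : ↥(modularFunctionFieldBar (q * M)),
      (∀ σ ∈ H, arithmeticGalois (modularFunctionFieldFull (q * M)) σ • f = f) →
      (∀ i, helper882.gpVal A (q * M) (helper1219.atkinLehnerBar q M hc) i f < 1) →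
      ∀ i, helper882.gpVal A (q * M) (helper1219.atkinLehnerBar q M hc) i f ≤
        helper882.gpBase A (q * M) ϖ := by
  intro f hfix hlt i
  by_cases hf0 : f = 0
  · rw [hf0, map_zero]
    exact zero_le
  obtain ⟨n, hn⟩ := gp_exists_val_eq_zpow_fin q M hc A H ϖ hϖ0 hϖ hdisc i f hf0
    (fun σ hσ => hfix σ hσ)
  have hpos : 0 < helper882.gpBase A (q * M) ϖ :=
    zero_lt_iff.mpr ((Valuation.ne_zero_iff _).mpr hϖ0)
  have hlt1 : helper882.gpBase A (q * M) ϖ < 1 := (helper882.gpBase_lt_one_iff A (q * M) ϖ).mpr hϖA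
  have hi := hlt i
  rw [hn] at hi ⊢
  have h1 : 1 ≤ n := by
    have h' := (zpow_right_strictAnti₀ hpos hlt1).lt_iff_gt (a := n) (b := 0)
    have : (0 : ℤ) < n := by simpa using h'.mp (by simpa using hi)
    omega
  have h2 := zpow_le_zpow_right_of_le_one₀ hpos hlt1.le h1
  rwa [zpow_one] at h2

/-- (K0-form) the `hdiv` hypothesis of `S19.helper3214.gp_exists_fixed_cartesian` for
`H := I`, `ϖ := p`, in the `wAL` vocabulary. -/
theorem inertia_gp_hdiv (ℓ : ℕ) [Fact ℓ.Prime] (hℓM : ¬ ℓ ∣ M) (hA : A.LiesOverPrime ℓ) :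
    ∀ f : ↥(modularFunctionFieldBar (ℓ * M)),
      (∀ σ ∈ A.inertiaSubgroupIn ℚ,
        arithmeticGalois (modularFunctionFieldFull (ℓ * M)) σ • f = f) →
      (∀ i, helper882.gpVal A (ℓ * M) (helper1928.wAL ℓ M hℓM) i f < 1) →
      ∀ i, helper882.gpVal A (ℓ * M) (helper1928.wAL ℓ M hℓM) i f ≤
        helper882.gpBase A (ℓ * M) (ℓ : Qb) := by
  have hℓ : ℓ.Prime := Fact.out
  haveI : NeZero ℓ := ⟨hℓ.ne_zero⟩
  exact gp_hdiv ℓ M ((Nat.Prime.coprime_iff_not_dvd hℓ).mpr hℓM) A (A.inertiaSubgroupIn ℚ)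
    (ℓ : Qb) (Nat.cast_ne_zero.mpr hℓ.ne_zero) hA (fun σ _ => inertia_natCast_fixed σ)
    (inertia_hdisc hℓ hA)

/-- (layer form) the `hdiv` hypothesis of `S19.helper3214.gp_exists_fixed_cartesian` for
`H := layerGroup A t`, `ϖ` a uniformiser of the layer, in the `wAL` vocabulary. -/
theorem layer_gp_hdiv (ℓ : ℕ) [Fact ℓ.Prime] (hℓM : ¬ ℓ ∣ M)
    (h : helper2530.IsLayerUnif A t ϖ) :
    ∀ f : ↥(modularFunctionFieldBar (ℓ * M)),
      (∀ σ ∈ helper2530.layerGroup A t,
        arithmeticGalois (modularFunctionFieldFull (ℓ * M)) σ • f = f) →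
      (∀ i, helper882.gpVal A (ℓ * M) (helper1928.wAL ℓ M hℓM) i f < 1) →
      ∀ i, helper882.gpVal A (ℓ * M) (helper1928.wAL ℓ M hℓM) i f ≤
        helper882.gpBase A (ℓ * M) ϖ := by
  have hℓ : ℓ.Prime := Fact.out
  haveI : NeZero ℓ := ⟨hℓ.ne_zero⟩
  exact gp_hdiv ℓ M ((Nat.Prime.coprime_iff_not_dvd hℓ).mpr hℓM) A (helper2530.layerGroup A t)
    ϖ h.ne_zero h.mem_nonunits h.fixed (layer_hdisc h)

/-- (layer form) **Inertia acts on the layer-rational functions through the character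
`τ ↦ τ ϖ / ϖ` modulo `ϖ`**, at both Gauss valuations: for `τ ∈ I` and `f ≠ 0` fixed by the
layer group, with `v_∞ f = v ϖ ^ n`, `v_0 f = v ϖ ^ m`:
`τ f = (τ ϖ / ϖ) ^ n * f * (1 + ϖ g)`, `g ∈ V_∞`, and
`τ f = (τ ϖ / ϖ) ^ m * f * (1 + ϖ g')`, `g' ∈ V_0`. -/
theorem layer_gp_variation (hp : p.Prime) (hA : A.LiesOverPrime p)
    (h : helper2530.IsLayerUnif A t ϖ)
    (f : modularFunctionFieldBar (q * M)) (hf0 : f ≠ 0)
    (hfix : ∀ σ ∈ helper2530.layerGroup A t,
      arithmeticRingAut (modularFunctionFieldFull (q * M)) σ f = f)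
    (τ : GQ) (hτ : τ ∈ A.inertiaSubgroupIn ℚ) :
    ∃ (n m : ℤ) (g g' : modularFunctionFieldBar (q * M)),
      helper882.gpVal A (q * M) (helper1219.atkinLehnerBar q M hc) 0 f
        = helper882.gpBase A (q * M) ϖ ^ n ∧
      helper882.gpVal A (q * M) (helper1219.atkinLehnerBar q M hc) 1 f
        = helper882.gpBase A (q * M) ϖ ^ m ∧
      g ∈ helper882.gpRing A (q * M) ∧
      g' ∈ helper882.gpRingW A (q * M) (helper1219.atkinLehnerBar q M hc) ∧
      arithmeticRingAut (modularFunctionFieldFull (q * M)) τ f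
        = algebraMap Qb (modularFunctionFieldBar (q * M)) (τ ϖ / ϖ) ^ n * f
          * (1 + algebraMap Qb (modularFunctionFieldBar (q * M)) ϖ * g) ∧
      arithmeticRingAut (modularFunctionFieldFull (q * M)) τ f
        = algebraMap Qb (modularFunctionFieldBar (q * M)) (τ ϖ / ϖ) ^ m * f
          * (1 + algebraMap Qb (modularFunctionFieldBar (q * M)) ϖ * g') := by
  have hϖA : ϖ ∈ A := h.mem.1
  have hϖm : (⟨ϖ, hϖA⟩ : A) ∈ IsLocalRing.maximalIdeal A := by
    obtain ⟨_, hm⟩ := (ValuationSubring.mem_nonunits_iff_exists_mem_maximalIdeal).mp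
      h.mem_nonunits
    exact hm
  exact gp_variation q M hc A (helper2530.layerGroup A t) ϖ h.ne_zero h.fixed (layer_hdisc h)
    f hf0 hfix τ ⟨ϖ, hϖA⟩ h.ne_zero hϖm
    (fun a ha => layer_sub_div_mem hp hA h hτ ⟨a.2, ha⟩)

end gp

end

end Fermat.Agent.S44.helper8007
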