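/-
S44, leaf L1-FIXEDNF (helper8007): the FIXED NORMAL FORM on the real carrier.

`L` a field of characteristic zero (think `L = ℚ̄`), `A` a valuation subring of `L`, `π : A →+* k`
a ring homomorphism to a field, `H` a group of automorphisms of `L` (think: the group fixing a
discretely valued subfield `L₀ ⊆ ℚ̄`), `F = laurentBaseChange L (modularFunctionFieldFull N)` with
its Gauss valuation subring `gaussF A π N` of `S18/helper8991`.

The Gauss valuation of a function is NOT the maximum of the absolute values of its `q`-expansion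
coefficients (`1 / (j - j₀)` with `|j₀| > 1` has Gauss norm `|1 / j₀|` and unbounded
coefficients); the correct statement is a normal form as a QUOTIENT:

* `exists_fixed_normal_form` : a nonzero `f ∈ F` fixed coefficientwise by `H` is `c • X / Y`
  with `c ∈ L` and `X, Y ∈ A((q))`, where `c` and all coefficients of `X`, `Y` are fixed by `H`
  and `X`, `Y` have nonzero reduction.
* `IsFixedUnit`, `exists_const_mul_fixedUnit` : `f = c * u`, `u` an `H`-fixed unit of the Gauss
  ring of this special shape; `IsFixedUnit.mem`, `.inv_mem`, `.fixed`, `.valuation_eq_one`.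
* `exists_zpow_mul_fixedUnit` : if the `H`-fixed constants are `ϖ ^ n * (unit of A)`, then
  `f = ϖ ^ n * u` ("the value group of the `H`-fixed functions is the value group of the
  `H`-fixed constants").
* `IsFixedUnit.variation` : if `τ` preserves `A` and moves every `H`-fixed element of `A` by a
  multiple of `d` (`d ≠ 0`, `π d = 0`), then `τ u = u * (1 + d * g)` with `g` in the Gauss ring.
-/
import Mathlib
import Fermat.Agent.S18.helper8991_GaussInst
import Fermat.Agent.S29.helper6961_CoeffDescent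
import Fermat.Prelude.Def_ModularCurve_ArithmeticGalois

set_option autoImplicit false

open HahnSeries ModularCurve

namespace Fermat.Agent.S44.helper8007

noncomputable section

open Fermat.Agent.S18.helper8991

variable {L : Type*} [Field L] [Algebra ℚ L] (A : ValuationSubring L) {k : Type*} [Field k]
  (π : A →+* k) (H : Subgroup (L ≃ₐ[ℚ] L))

/-! ### The valuation subring of the fixed field -/

/-- The trace of `A` on the fixed field of `H`. -/
def fixA : ValuationSubring (IntermediateField.fixedField H) :=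
  A.comap (algebraMap (IntermediateField.fixedField H) L)

/-- The inclusion of the trace of `A` on the fixed field into `A`. -/
def fixIncl : fixA A H →+* A where
  toFun x := ⟨algebraMap (IntermediateField.fixedField H) L x.1, x.2⟩
  map_one' := Subtype.ext (map_one _)
  map_mul' x y := Subtype.ext (map_mul _ _ _)
  map_zero' := Subtype.ext (map_zero _)
  map_add' x y := Subtype.ext (map_add _ _ _)

theorem coe_fixIncl (x : fixA A H) :
    ((fixIncl A H x : A) : L) = algebraMap (IntermediateField.fixedField H) L x.1 := rfl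

theorem fixIncl_fixed (x : fixA A H) {σ : L ≃ₐ[ℚ] L} (hσ : σ ∈ H) :
    σ ((fixIncl A H x : A) : L) = ((fixIncl A H x : A) : L) := by
  have h := x.1.2
  rw [IntermediateField.mem_fixedField_iff] at h
  exact h σ hσ

theorem inc_coeffMap_fixIncl (X : LaurentSeries (fixA A H)) :
    inc A (coeffMap (fixIncl A H) X)
      = coeffMap (algebraMap (IntermediateField.fixedField H) L) (inc (fixA A H) X) := by
  ext n
  rfl

theorem red_coeffMap_fixIncl (X : LaurentSeries (fixA A H)) :
    red A π (coeffMap (fixIncl A H) X) = red (fixA A H) (π.comp (fixIncl A H)) X := by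
  ext n
  rfl

/-! ### (FN1) The fixed normal form -/

/-- **Fixed normal form.**  A nonzero element of the modular function field
`laurentBaseChange L (modularFunctionFieldFull N)` which is fixed by the coefficientwise action of
`H` is `C c * ι X / ι Y` where `c ∈ L` and the integral series `X`, `Y` have nonzero reduction,
lie in the function field, and `c` and ALL coefficients of `X` and `Y` are fixed by `H`. -/
theorem exists_fixed_normal_form (N : ℕ) {f : LaurentSeries L}
    (hf : f ∈ laurentBaseChange L (modularFunctionFieldFull N)) (hf0 : f ≠ 0)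
    (hfix : ∀ σ ∈ H, coeffMap ((σ : L ≃ₐ[ℚ] L) : L →+* L) f = f) :
    ∃ (c : L) (X Y : LaurentSeries A), c ≠ 0 ∧ (∀ σ ∈ H, σ c = c) ∧
      (∀ σ ∈ H, ∀ n, σ (X.coeff n : L) = (X.coeff n : L)) ∧
      (∀ σ ∈ H, ∀ n, σ (Y.coeff n : L) = (Y.coeff n : L)) ∧
      red A π X ≠ 0 ∧ red A π Y ≠ 0 ∧
      inc A X ∈ laurentBaseChange L (modularFunctionFieldFull N) ∧
      inc A Y ∈ laurentBaseChange L (modularFunctionFieldFull N) ∧
      f * inc A Y = HahnSeries.C c * inc A X := by
  classical
  have hcoef : ∀ n, f.coeff n ∈ Set.range (algebraMap (IntermediateField.fixedField H) L) := by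
    intro n
    have h1 : f.coeff n ∈ IntermediateField.fixedField H := by
      rw [IntermediateField.mem_fixedField_iff]
      intro σ hσ
      have h2 := congrArg (fun z : LaurentSeries L => z.coeff n) (hfix σ hσ)
      simpa using h2
    exact ⟨⟨f.coeff n, h1⟩, rfl⟩
  obtain ⟨fK, hfK, hfKf⟩ :=
    Fermat.Agent.S29.helper6961.exists_mem_laurentBaseChange_coeffMap_eq
      (modularFunctionFieldFull N) (algebraMap (IntermediateField.fixedField H) L) hf hcoef
  have hfK0 : fK ≠ 0 := by
    rintro rfl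
    exact hf0 (by rw [← hfKf, map_zero])
  obtain ⟨c, X, Y, hc, hX, hY, hXm, hYm, h⟩ :=
    exists_normal_form (fixA A H) (π.comp (fixIncl A H)) N hfK hfK0
  refine ⟨algebraMap (IntermediateField.fixedField H) L c, coeffMap (fixIncl A H) X,
    coeffMap (fixIncl A H) Y, ?_, ?_, ?_, ?_, ?_, ?_, ?_, ?_, ?_⟩
  · exact fun h0 => hc ((algebraMap (IntermediateField.fixedField H) L).injective
      (by rw [h0, map_zero]))
  · intro σ hσ
    have h1 := c.2
    rw [IntermediateField.mem_fixedField_iff] at h1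
    exact h1 σ hσ
  · intro σ hσ n
    exact fixIncl_fixed A H (X.coeff n) hσ
  · intro σ hσ n
    exact fixIncl_fixed A H (Y.coeff n) hσ
  · rw [red_coeffMap_fixIncl]
    exact hX
  · rw [red_coeffMap_fixIncl]
    exact hY
  · rw [inc_coeffMap_fixIncl]
    exact Fermat.Agent.S29.helper6961.coeffMap_mem_laurentBaseChange_of_mem _ _ hXm
  · rw [inc_coeffMap_fixIncl]
    exact Fermat.Agent.S29.helper6961.coeffMap_mem_laurentBaseChange_of_mem _ _ hYm
  · rw [inc_coeffMap_fixIncl, inc_coeffMap_fixIncl, ← hfKf, ← map_mul, h, map_mul]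
    congr 1
    rw [HahnSeries.C_apply, HahnSeries.C_apply, coeffMap_single]

/-! ### (FN2) Fixed units of the Gauss ring -/

/-- An `H`-fixed unit of the Gauss ring in normal form: `u = ι X / ι Y` with `X`, `Y` integral
series of the function field, of nonzero reduction, fixed coefficientwise by `H`. -/
def IsFixedUnit (N : ℕ) (u : ↥(laurentBaseChange L (modularFunctionFieldFull N))) : Prop :=
  ∃ X Y : LaurentSeries A,
    (∀ σ ∈ H, coeffMap ((σ : L ≃ₐ[ℚ] L) : L →+* L) (inc A X) = inc A X) ∧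
    (∀ σ ∈ H, coeffMap ((σ : L ≃ₐ[ℚ] L) : L →+* L) (inc A Y) = inc A Y) ∧
    red A π X ≠ 0 ∧ red A π Y ≠ 0 ∧
    inc A X ∈ laurentBaseChange L (modularFunctionFieldFull N) ∧
    inc A Y ∈ laurentBaseChange L (modularFunctionFieldFull N) ∧
    (u : LaurentSeries L) * inc A Y = inc A X

variable {A π H}

theorem IsFixedUnit.mem {N : ℕ} {u : ↥(laurentBaseChange L (modularFunctionFieldFull N))}
    (hu : IsFixedUnit A π H N u) : u ∈ gaussF A π N := by
  obtain ⟨X, Y, -, -, -, hY, -, -, h⟩ := hu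
  exact (mem_gaussF_iff A π N u).mpr ⟨X, Y, hY, h⟩

theorem IsFixedUnit.coe_ne_zero {N : ℕ} {u : ↥(laurentBaseChange L (modularFunctionFieldFull N))}
    (hu : IsFixedUnit A π H N u) : (u : LaurentSeries L) ≠ 0 := by
  obtain ⟨X, Y, -, -, hX, -, -, -, h⟩ := hu
  intro h0
  rw [h0, zero_mul] at h
  exact inc_ne_zero A π hX h.symm

theorem IsFixedUnit.ne_zero {N : ℕ} {u : ↥(laurentBaseChange L (modularFunctionFieldFull N))}
    (hu : IsFixedUnit A π H N u) : u ≠ 0 := by
  rintro rfl
  exact hu.coe_ne_zero rfl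

theorem IsFixedUnit.inv {N : ℕ} {u : ↥(laurentBaseChange L (modularFunctionFieldFull N))}
    (hu : IsFixedUnit A π H N u) : IsFixedUnit A π H N u⁻¹ := by
  have hu0 := hu.coe_ne_zero
  obtain ⟨X, Y, hXf, hYf, hX, hY, hXm, hYm, h⟩ := hu
  refine ⟨Y, X, hYf, hXf, hY, hX, hYm, hXm, ?_⟩
  show (u : LaurentSeries L)⁻¹ * inc A X = inc A Y
  rw [← h, ← mul_assoc, inv_mul_cancel₀ hu0, one_mul]

theorem IsFixedUnit.inv_mem {N : ℕ} {u : ↥(laurentBaseChange L (modularFunctionFieldFull N))}
    (hu : IsFixedUnit A π H N u) : u⁻¹ ∈ gaussF A π N :=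
  hu.inv.mem

theorem IsFixedUnit.fixed {N : ℕ} {u : ↥(laurentBaseChange L (modularFunctionFieldFull N))}
    (hu : IsFixedUnit A π H N u) {σ : L ≃ₐ[ℚ] L} (hσ : σ ∈ H) :
    arithmeticRingAut (modularFunctionFieldFull N) σ u = u := by
  obtain ⟨X, Y, hXf, hYf, -, hY, -, -, h⟩ := hu
  apply Subtype.ext
  show coeffMap ((σ : L ≃ₐ[ℚ] L) : L →+* L) (u : LaurentSeries L) = (u : LaurentSeries L)
  have h1 := congrArg (coeffMap ((σ : L ≃ₐ[ℚ] L) : L →+* L)) h
  rw [map_mul, hXf σ hσ, hYf σ hσ, ← h] at h1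
  exact mul_right_cancel₀ (inc_ne_zero A π hY) h1

theorem IsFixedUnit.mul {N : ℕ} {u v : ↥(laurentBaseChange L (modularFunctionFieldFull N))}
    (hu : IsFixedUnit A π H N u) (hv : IsFixedUnit A π H N v) : IsFixedUnit A π H N (u * v) := by
  obtain ⟨X, Y, hXf, hYf, hX, hY, hXm, hYm, h⟩ := hu
  obtain ⟨X', Y', hXf', hYf', hX', hY', hXm', hYm', h'⟩ := hv
  refine ⟨X * X', Y * Y', ?_, ?_, ?_, ?_, ?_, ?_, ?_⟩
  · intro σ hσ
    rw [map_mul, map_mul, hXf σ hσ, hXf' σ hσ]
  · intro σ hσ
    rw [map_mul, map_mul, hYf σ hσ, hYf' σ hσ]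
  · rw [map_mul]
    exact mul_ne_zero hX hX'
  · rw [map_mul]
    exact mul_ne_zero hY hY'
  · rw [map_mul]
    exact mul_mem hXm hXm'
  · rw [map_mul]
    exact mul_mem hYm hYm'
  · show (u : LaurentSeries L) * (v : LaurentSeries L) * inc A (Y * Y') = inc A (X * X')
    rw [map_mul, map_mul, ← h, ← h']
    ring

/-- The Gauss valuation of a fixed unit is `1`. -/
theorem IsFixedUnit.valuation_eq_one {N : ℕ}
    {u : ↥(laurentBaseChange L (modularFunctionFieldFull N))} (hu : IsFixedUnit A π H N u) :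
    (gaussF A π N).valuation u = 1 := by
  have h1 : (gaussF A π N).valuation u ≤ 1 :=
    ((gaussF A π N).valuation_le_one_iff u).mpr hu.mem
  have h2 : (gaussF A π N).valuation u⁻¹ ≤ 1 :=
    ((gaussF A π N).valuation_le_one_iff u⁻¹).mpr hu.inv_mem
  have h3 : (gaussF A π N).valuation u ≠ 0 := by
    rw [ne_eq, map_eq_zero]
    exact hu.ne_zero
  rw [map_inv₀] at h2
  refine le_antisymm h1 ?_
  by_contra hlt
  rw [not_le] at hlt
  have h4 : (1 : (gaussF A π N).ValueGroup) < ((gaussF A π N).valuation u)⁻¹ :=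
    (one_lt_inv₀ (zero_lt_iff.mpr h3)).mpr hlt
  exact absurd h2 (not_le.mpr h4)

/-- A unit of `A` fixed by `H` is a fixed unit of the Gauss ring. -/
theorem isFixedUnit_algebraMap (N : ℕ) {e : L} (he0 : e ≠ 0) (he : e ∈ A) (he' : e⁻¹ ∈ A)
    (hfix : ∀ σ ∈ H, σ e = e) :
    IsFixedUnit A π H N
      (algebraMap L ↥(laurentBaseChange L (modularFunctionFieldFull N)) e) := by
  have hπe : π ⟨e, he⟩ ≠ 0 := by
    intro h0
    have h1 : (⟨e, he⟩ : A) * ⟨e⁻¹, he'⟩ = 1 := Subtype.ext (mul_inv_cancel₀ he0)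
    have h2 := congrArg π h1
    rw [map_mul, h0, zero_mul, map_one] at h2
    exact zero_ne_one h2
  have hC : inc A (HahnSeries.C (⟨e, he⟩ : A)) = algebraMap L (LaurentSeries L) e := by
    rw [inc_C, Fermat.Agent.S18.helper8991.C_eq_algebraMap]
  refine ⟨HahnSeries.C ⟨e, he⟩, 1, ?_, ?_, ?_, ?_, ?_, ?_, ?_⟩
  · intro σ hσ
    rw [hC, coeffMap_algebraMap]
    show algebraMap L (LaurentSeries L) (σ e) = algebraMap L (LaurentSeries L) e
    rw [hfix σ hσ]
  · intro σ hσ
    rw [map_one, map_one]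
  · rw [red_C]
    intro h0
    apply hπe
    have h1 := congrArg (fun z : LaurentSeries k => z.coeff 0) h0
    simpa [HahnSeries.C_apply] using h1
  · rw [map_one]
    exact one_ne_zero
  · rw [hC]
    exact (laurentBaseChange L (modularFunctionFieldFull N)).algebraMap_mem e
  · rw [map_one]
    exact one_mem _
  · rw [map_one, mul_one, hC]
    rfl

variable (A π H)

/-- **(FN2)** A nonzero `H`-fixed function is an `H`-fixed constant times a fixed unit of the
Gauss ring. -/
theorem exists_const_mul_fixedUnit (N : ℕ)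
    (f : ↥(laurentBaseChange L (modularFunctionFieldFull N))) (hf0 : f ≠ 0)
    (hfix : ∀ σ ∈ H, arithmeticRingAut (modularFunctionFieldFull N) σ f = f) :
    ∃ (c : L) (u : ↥(laurentBaseChange L (modularFunctionFieldFull N))), c ≠ 0 ∧
      (∀ σ ∈ H, σ c = c) ∧ IsFixedUnit A π H N u ∧
      f = algebraMap L ↥(laurentBaseChange L (modularFunctionFieldFull N)) c * u := by
  have hf0' : (f : LaurentSeries L) ≠ 0 := fun h0 => hf0 (Subtype.ext h0)
  have hfix' : ∀ σ ∈ H, coeffMap ((σ : L ≃ₐ[ℚ] L) : L →+* L) (f : LaurentSeries L)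
      = (f : LaurentSeries L) := fun σ hσ => congrArg Subtype.val (hfix σ hσ)
  obtain ⟨c, X, Y, hc, hcf, hXf, hYf, hX, hY, hXm, hYm, h⟩ :=
    exists_fixed_normal_form A π H N f.2 hf0' hfix'
  refine ⟨c, algebraMap L _ c⁻¹ * f, hc, hcf, ⟨X, Y, ?_, ?_, hX, hY, hXm, hYm, ?_⟩, ?_⟩
  · intro σ hσ
    ext n
    exact hXf σ hσ n
  · intro σ hσ
    ext n
    exact hYf σ hσ n
  · show algebraMap L (LaurentSeries L) c⁻¹ * (f : LaurentSeries L) * inc A Y = inc A X
    rw [mul_assoc, h, ← Fermat.Agent.S18.helper8991.C_eq_algebraMap, C_inv_mul_C_mul hc]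
  · rw [← mul_assoc, ← map_mul, mul_inv_cancel₀ hc, map_one, one_mul]

/-- **(FN2), valuation form**: the Gauss valuation of an `H`-fixed function is the Gauss
valuation of an `H`-fixed constant. -/
theorem exists_valuation_eq_const (N : ℕ)
    (f : ↥(laurentBaseChange L (modularFunctionFieldFull N))) (hf0 : f ≠ 0)
    (hfix : ∀ σ ∈ H, arithmeticRingAut (modularFunctionFieldFull N) σ f = f) :
    ∃ c : L, c ≠ 0 ∧ (∀ σ ∈ H, σ c = c) ∧
      (gaussF A π N).valuation f = (gaussF A π N).valuation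
        (algebraMap L ↥(laurentBaseChange L (modularFunctionFieldFull N)) c) := by
  obtain ⟨c, u, hc, hcf, hu, rfl⟩ := exists_const_mul_fixedUnit A π H N f hf0 hfix
  exact ⟨c, hc, hcf, by rw [map_mul, hu.valuation_eq_one, mul_one]⟩

/-- **(FN2), discrete form**: if every nonzero `H`-fixed constant is `ϖ ^ n` times a unit of `A`
(`ϖ` itself `H`-fixed), then every nonzero `H`-fixed function is `ϖ ^ n` times a fixed unit of
the Gauss ring: the value group of the `H`-fixed functions is that of the `H`-fixed constants. -/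
theorem exists_zpow_mul_fixedUnit (N : ℕ) (ϖ : L) (hϖ0 : ϖ ≠ 0) (hϖ : ∀ σ ∈ H, σ ϖ = ϖ)
    (hdisc : ∀ c : L, c ≠ 0 → (∀ σ ∈ H, σ c = c) → ∃ n : ℤ, c / ϖ ^ n ∈ A ∧ ϖ ^ n / c ∈ A)
    (f : ↥(laurentBaseChange L (modularFunctionFieldFull N))) (hf0 : f ≠ 0)
    (hfix : ∀ σ ∈ H, arithmeticRingAut (modularFunctionFieldFull N) σ f = f) :
    ∃ (n : ℤ) (u : ↥(laurentBaseChange L (modularFunctionFieldFull N))),
      IsFixedUnit A π H N u ∧
      f = algebraMap L ↥(laurentBaseChange L (modularFunctionFieldFull N)) ϖ ^ n * u := by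
  obtain ⟨c, u, hc, hcf, hu, rfl⟩ := exists_const_mul_fixedUnit A π H N f hf0 hfix
  obtain ⟨n, h1, h2⟩ := hdisc c hc hcf
  have hϖn : ϖ ^ n ≠ 0 := zpow_ne_zero n hϖ0
  have he0 : c / ϖ ^ n ≠ 0 := div_ne_zero hc hϖn
  have he' : (c / ϖ ^ n)⁻¹ ∈ A := by rwa [inv_div]
  have hef : ∀ σ ∈ H, σ (c / ϖ ^ n) = c / ϖ ^ n := by
    intro σ hσ
    rw [map_div₀, map_zpow₀, hcf σ hσ, hϖ σ hσ]
  refine ⟨n, algebraMap L _ (c / ϖ ^ n) * u,
    (isFixedUnit_algebraMap N he0 h1 he' hef).mul hu, ?_⟩
  rw [← mul_assoc, ← map_zpow₀, ← map_mul, mul_div_cancel₀ c hϖn]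

/-! ### (FN4) Variation of a fixed unit under an automorphism close to the identity -/

variable {A π H}

/-- **Variation.**  Let `τ` be an automorphism of `L` and `d ∈ A`, `d ≠ 0`, `π d = 0`, such that
`τ a - a ∈ d A` for every `H`-fixed `a ∈ A`.  Then for every fixed unit `u` of the Gauss ring,
`τ u = u * (1 + d * g)` with `g` in the Gauss ring. -/
theorem IsFixedUnit.variation {N : ℕ}
    {u : ↥(laurentBaseChange L (modularFunctionFieldFull N))} (hu : IsFixedUnit A π H N u)
    (τ : L ≃ₐ[ℚ] L) (d : A) (hd0 : (d : L) ≠ 0) (hπd : π d = 0)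
    (hd : ∀ a : A, (∀ σ ∈ H, σ (a : L) = (a : L)) → (τ (a : L) - (a : L)) / (d : L) ∈ A) :
    ∃ g : ↥(laurentBaseChange L (modularFunctionFieldFull N)), g ∈ gaussF A π N ∧
      arithmeticRingAut (modularFunctionFieldFull N) τ u
        = u * (1 + algebraMap L ↥(laurentBaseChange L (modularFunctionFieldFull N)) (d : L) * g) := by
  obtain ⟨X, Y, hXf, hYf, hX, hY, hXm, hYm, h⟩ := hu
  have hXc : ∀ n, ∀ σ ∈ H, σ ((X.coeff n : A) : L) = ((X.coeff n : A) : L) := by
    intro n σ hσ
    exact congrArg (fun z : LaurentSeries L => z.coeff n) (hXf σ hσ)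
  have hYc : ∀ n, ∀ σ ∈ H, σ ((Y.coeff n : A) : L) = ((Y.coeff n : A) : L) := by
    intro n σ hσ
    exact congrArg (fun z : LaurentSeries L => z.coeff n) (hYf σ hσ)
  have hX1 : ∀ n, (coeffMap ((τ : L ≃ₐ[ℚ] L) : L →+* L) (inc A X) - inc A X).coeff n / (d : L)
      ∈ A := fun n => hd (X.coeff n) (hXc n)
  have hY1 : ∀ n, (coeffMap ((τ : L ≃ₐ[ℚ] L) : L →+* L) (inc A Y) - inc A Y).coeff n / (d : L)
      ∈ A := fun n => hd (Y.coeff n) (hYc n)
  have hX1e := C_mul_inc_liftDiv A _ (d : L) hd0 hX1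
  have hY1e := C_mul_inc_liftDiv A _ (d : L) hd0 hY1
  set X1 : LaurentSeries A :=
    liftDiv A (coeffMap ((τ : L ≃ₐ[ℚ] L) : L →+* L) (inc A X) - inc A X) (d : L) hX1 with hX1def
  set Y1 : LaurentSeries A :=
    liftDiv A (coeffMap ((τ : L ≃ₐ[ℚ] L) : L →+* L) (inc A Y) - inc A Y) (d : L) hY1 with hY1def
  have hτX : coeffMap ((τ : L ≃ₐ[ℚ] L) : L →+* L) (inc A X)
      ∈ laurentBaseChange L (modularFunctionFieldFull N) := coeffMap_mem_laurentBaseChange τ hXm
  have hτY : coeffMap ((τ : L ≃ₐ[ℚ] L) : L →+* L) (inc A Y)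
      ∈ laurentBaseChange L (modularFunctionFieldFull N) := coeffMap_mem_laurentBaseChange τ hYm
  have hX1m : inc A X1 ∈ laurentBaseChange L (modularFunctionFieldFull N) := by
    have h1 : inc A X1 = algebraMap L (LaurentSeries L) (d : L)⁻¹
        * (coeffMap ((τ : L ≃ₐ[ℚ] L) : L →+* L) (inc A X) - inc A X) := by
      rw [← hX1e, ← Fermat.Agent.S18.helper8991.C_eq_algebraMap, C_inv_mul_C_mul hd0]
    rw [h1]
    exact mul_mem ((laurentBaseChange L (modularFunctionFieldFull N)).algebraMap_mem _)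
      (sub_mem hτX hXm)
  have hY1m : inc A Y1 ∈ laurentBaseChange L (modularFunctionFieldFull N) := by
    have h1 : inc A Y1 = algebraMap L (LaurentSeries L) (d : L)⁻¹
        * (coeffMap ((τ : L ≃ₐ[ℚ] L) : L →+* L) (inc A Y) - inc A Y) := by
      rw [← hY1e, ← Fermat.Agent.S18.helper8991.C_eq_algebraMap, C_inv_mul_C_mul hd0]
    rw [h1]
    exact mul_mem ((laurentBaseChange L (modularFunctionFieldFull N)).algebraMap_mem _)
      (sub_mem hτY hYm)
  -- the elements of the function field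
  set xF : ↥(laurentBaseChange L (modularFunctionFieldFull N)) := ⟨inc A X, hXm⟩ with hxF
  set yF : ↥(laurentBaseChange L (modularFunctionFieldFull N)) := ⟨inc A Y, hYm⟩ with hyF
  set x1F : ↥(laurentBaseChange L (modularFunctionFieldFull N)) := ⟨inc A X1, hX1m⟩ with hx1F
  set y1F : ↥(laurentBaseChange L (modularFunctionFieldFull N)) := ⟨inc A Y1, hY1m⟩ with hy1F
  set dF : ↥(laurentBaseChange L (modularFunctionFieldFull N)) :=
    algebraMap L ↥(laurentBaseChange L (modularFunctionFieldFull N)) (d : L) with hdF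
  have hx0 : xF ≠ 0 := fun h0 => inc_ne_zero A π hX (congrArg Subtype.val h0)
  have hy0 : yF ≠ 0 := fun h0 => inc_ne_zero A π hY (congrArg Subtype.val h0)
  have e1 : u * yF = xF := Subtype.ext h
  have eτx : arithmeticRingAut (modularFunctionFieldFull N) τ xF = xF + dF * x1F := by
    apply Subtype.ext
    show coeffMap ((τ : L ≃ₐ[ℚ] L) : L →+* L) (inc A X)
      = inc A X + algebraMap L (LaurentSeries L) (d : L) * inc A X1
    rw [← Fermat.Agent.S18.helper8991.C_eq_algebraMap, hX1e]
    ring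
  have eτy : arithmeticRingAut (modularFunctionFieldFull N) τ yF = yF + dF * y1F := by
    apply Subtype.ext
    show coeffMap ((τ : L ≃ₐ[ℚ] L) : L →+* L) (inc A Y)
      = inc A Y + algebraMap L (LaurentSeries L) (d : L) * inc A Y1
    rw [← Fermat.Agent.S18.helper8991.C_eq_algebraMap, hY1e]
    ring
  have hτy0 : yF + dF * y1F ≠ 0 := by
    rw [← eτy]
    exact (map_ne_zero_iff _ (arithmeticRingAut (modularFunctionFieldFull N) τ).injective).mpr hy0
  have e2 : arithmeticRingAut (modularFunctionFieldFull N) τ u * (yF + dF * y1F)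
      = xF + dF * x1F := by
    rw [← eτx, ← eτy, ← map_mul, e1]
  have hden0 : xF * (yF + dF * y1F) ≠ 0 := mul_ne_zero hx0 hτy0
  refine ⟨(x1F * yF - y1F * xF) / (xF * (yF + dF * y1F)), ?_, ?_⟩
  · refine (mem_gaussF_iff A π N _).mpr
      ⟨X1 * Y - Y1 * X, X * (Y + HahnSeries.C d * Y1), ?_, ?_⟩
    · rw [map_mul, map_add, map_mul, red_C, hπd, map_zero, zero_mul, add_zero]
      exact mul_ne_zero hX hY
    · have hden : inc A (X * (Y + HahnSeries.C d * Y1))
          = ((xF * (yF + dF * y1F) : ↥(laurentBaseChange L (modularFunctionFieldFull N))) :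
            LaurentSeries L) := by
        rw [map_mul, map_add, map_mul, inc_C, Fermat.Agent.S18.helper8991.C_eq_algebraMap]
        rfl
      have hnum : inc A (X1 * Y - Y1 * X)
          = ((x1F * yF - y1F * xF : ↥(laurentBaseChange L (modularFunctionFieldFull N))) :
            LaurentSeries L) := by
        rw [map_sub, map_mul, map_mul]
        rfl
      rw [hden, hnum]
      exact congrArg Subtype.val (div_mul_cancel₀ (x1F * yF - y1F * xF) hden0)
  · have hu : u = xF / yF := by
      rw [eq_div_iff hy0]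
      exact e1
    have hτu : arithmeticRingAut (modularFunctionFieldFull N) τ u
        = (xF + dF * x1F) / (yF + dF * y1F) := by
      rw [eq_div_iff hτy0]
      exact e2
    rw [hτu, hu]
    field_simp
    ring

/-! ### The twins for a second Gauss ring `(gaussF A π N).comap W` -/

variable (A π H)

/-- **(FN3)** Twin of `exists_const_mul_fixedUnit` for the Gauss ring pulled back along an
`L`-automorphism `W` of the function field commuting with the arithmetic action of `H` (the
Atkin–Lehner involution): `f = c * u` with `W u` a fixed unit. -/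
theorem exists_const_mul_fixedUnit_comap (N : ℕ)
    (W : ↥(laurentBaseChange L (modularFunctionFieldFull N)) ≃ₐ[L]
      ↥(laurentBaseChange L (modularFunctionFieldFull N)))
    (hW : ∀ σ ∈ H, ∀ z, W (arithmeticRingAut (modularFunctionFieldFull N) σ z)
      = arithmeticRingAut (modularFunctionFieldFull N) σ (W z))
    (f : ↥(laurentBaseChange L (modularFunctionFieldFull N))) (hf0 : f ≠ 0)
    (hfix : ∀ σ ∈ H, arithmeticRingAut (modularFunctionFieldFull N) σ f = f) :
    ∃ (c : L) (u : ↥(laurentBaseChange L (modularFunctionFieldFull N))), c ≠ 0 ∧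
      (∀ σ ∈ H, σ c = c) ∧ IsFixedUnit A π H N (W u) ∧
      f = algebraMap L ↥(laurentBaseChange L (modularFunctionFieldFull N)) c * u := by
  have hWf0 : W f ≠ 0 := fun h0 => hf0 (W.injective (by rw [h0, map_zero]))
  have hWfix : ∀ σ ∈ H, arithmeticRingAut (modularFunctionFieldFull N) σ (W f) = W f :=
    fun σ hσ => by rw [← hW σ hσ, hfix σ hσ]
  obtain ⟨c, u', hc, hcf, hu', h⟩ := exists_const_mul_fixedUnit A π H N (W f) hWf0 hWfix
  refine ⟨c, W.symm u', hc, hcf, by rwa [AlgEquiv.apply_symm_apply], ?_⟩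
  apply W.injective
  rw [h, map_mul, AlgEquiv.commutes, AlgEquiv.apply_symm_apply]

/-- **(FN3), discrete form**: twin of `exists_zpow_mul_fixedUnit` for `(gaussF A π N).comap W`. -/
theorem exists_zpow_mul_fixedUnit_comap (N : ℕ)
    (W : ↥(laurentBaseChange L (modularFunctionFieldFull N)) ≃ₐ[L]
      ↥(laurentBaseChange L (modularFunctionFieldFull N)))
    (hW : ∀ σ ∈ H, ∀ z, W (arithmeticRingAut (modularFunctionFieldFull N) σ z)
      = arithmeticRingAut (modularFunctionFieldFull N) σ (W z))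
    (ϖ : L) (hϖ0 : ϖ ≠ 0) (hϖ : ∀ σ ∈ H, σ ϖ = ϖ)
    (hdisc : ∀ c : L, c ≠ 0 → (∀ σ ∈ H, σ c = c) → ∃ n : ℤ, c / ϖ ^ n ∈ A ∧ ϖ ^ n / c ∈ A)
    (f : ↥(laurentBaseChange L (modularFunctionFieldFull N))) (hf0 : f ≠ 0)
    (hfix : ∀ σ ∈ H, arithmeticRingAut (modularFunctionFieldFull N) σ f = f) :
    ∃ (n : ℤ) (u : ↥(laurentBaseChange L (modularFunctionFieldFull N))),
      IsFixedUnit A π H N (W u) ∧
      f = algebraMap L ↥(laurentBaseChange L (modularFunctionFieldFull N)) ϖ ^ n * u := by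
  have hWf0 : W f ≠ 0 := fun h0 => hf0 (W.injective (by rw [h0, map_zero]))
  have hWfix : ∀ σ ∈ H, arithmeticRingAut (modularFunctionFieldFull N) σ (W f) = W f :=
    fun σ hσ => by rw [← hW σ hσ, hfix σ hσ]
  obtain ⟨n, u', hu', h⟩ :=
    exists_zpow_mul_fixedUnit A π H N ϖ hϖ0 hϖ hdisc (W f) hWf0 hWfix
  refine ⟨n, W.symm u', by rwa [AlgEquiv.apply_symm_apply], ?_⟩
  apply W.injective
  rw [h, map_mul, map_zpow₀, AlgEquiv.commutes, AlgEquiv.apply_symm_apply]

variable {A π H}

/-- **(FN4), twin**: variation of `u` with `W u` a fixed unit, for `τ` commuting with `W`: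
`τ u = u * (1 + d * g)` with `W g` in the Gauss ring (i.e. `g ∈ (gaussF A π N).comap W`). -/
theorem IsFixedUnit.variation_comap {N : ℕ}
    (W : ↥(laurentBaseChange L (modularFunctionFieldFull N)) ≃ₐ[L]
      ↥(laurentBaseChange L (modularFunctionFieldFull N)))
    {u : ↥(laurentBaseChange L (modularFunctionFieldFull N))}
    (hu : IsFixedUnit A π H N (W u)) (τ : L ≃ₐ[ℚ] L)
    (hWτ : ∀ z, W (arithmeticRingAut (modularFunctionFieldFull N) τ z)
      = arithmeticRingAut (modularFunctionFieldFull N) τ (W z))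
    (d : A) (hd0 : (d : L) ≠ 0) (hπd : π d = 0)
    (hd : ∀ a : A, (∀ σ ∈ H, σ (a : L) = (a : L)) → (τ (a : L) - (a : L)) / (d : L) ∈ A) :
    ∃ g : ↥(laurentBaseChange L (modularFunctionFieldFull N)), W g ∈ gaussF A π N ∧
      arithmeticRingAut (modularFunctionFieldFull N) τ u
        = u * (1 + algebraMap L ↥(laurentBaseChange L (modularFunctionFieldFull N)) (d : L) * g) := by
  obtain ⟨g, hg, h⟩ := hu.variation τ d hd0 hπd hd
  refine ⟨W.symm g, by rwa [AlgEquiv.apply_symm_apply], ?_⟩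
  apply W.injective
  rw [hWτ, h, map_mul, map_add, map_one, map_mul, AlgEquiv.commutes, AlgEquiv.apply_symm_apply]

end

end Fermat.Agent.S44.helper8007
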