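/-
helper923 — the formal residue `(f, g) ↦ coeff_0 (f · θ g)` on Laurent series (`θ = q d/dq`),
in every characteristic.

* `coeff_pow_eq` : the universal identity `[Xⁿ] (X · Uⁿ⁻¹ · U') = [Xⁿ] Uⁿ` for a power series `U`
  over ANY commutative ring (specialisation from `ℤ[U₀, U₁, …]`, where it follows from
  `n · [Xⁿ] Uⁿ = [Xⁿ] (X · (Uⁿ)')`);
* `coeff_zero_inv_pow_mul_theta` : for a Laurent series `τ` of order `1` over a field,
  `coeff_0 (τ⁻ʲ · θ τ) = 1` if `j = 1` and `0` if `j ≥ 2` — invariance of the residue under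
  change of uniformiser, char-free;
* `fres` and its rules (bilinear, Leibniz, zero on power series, zero on constants).
-/
import Mathlib
import Fermat.Agent.Lib.helper9242_LaurentTheta

set_option autoImplicit false

noncomputable section

namespace Fermat.Agent.S44.helper923

open Fermat.Agent.Lib.helper9242 (thetaFun thetaFun_mul thetaFun_ofPowerSeries thetaFun_single
  thetaFun_one thetaFun_C thetaFun_add thetaFun_coeff)

/-! ## The universal identity -/

section Universal

open PowerSeries

/-- The identity over a ring in which positive integers are not zero divisors. -/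
theorem coeff_pow_eq_of_torsionFree {R : Type*} [CommRing R]
    (hR : ∀ (n : ℕ) (x : R), n ≠ 0 → (n : R) * x = 0 → x = 0) (U : R⟦X⟧) {n : ℕ} (hn : 1 ≤ n) :
    coeff n (X * (U ^ (n - 1) * d⁄dX R U)) = coeff n (U ^ n) := by
  obtain ⟨m, rfl⟩ : ∃ m, n = m + 1 := ⟨n - 1, by omega⟩
  have h1 : d⁄dX R (U ^ (m + 1)) = ((m + 1 : ℕ) : R⟦X⟧) * (U ^ m * d⁄dX R U) := by
    rw [derivative_pow, Nat.add_sub_cancel, mul_assoc]
  have h2 : coeff (m + 1) (X * d⁄dX R (U ^ (m + 1)))
      = ((m + 1 : ℕ) : R) * coeff (m + 1) (U ^ (m + 1)) := by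
    rw [coeff_succ_X_mul, coeff_derivative]
    push_cast
    ring
  have h3 : coeff (m + 1) (X * d⁄dX R (U ^ (m + 1)))
      = ((m + 1 : ℕ) : R) * coeff (m + 1) (X * (U ^ m * d⁄dX R U)) := by
    rw [h1, mul_left_comm, ← map_natCast (C (R := R)), coeff_C_mul]
  rw [Nat.add_sub_cancel]
  have h4 : ((m + 1 : ℕ) : R) * (coeff (m + 1) (X * (U ^ m * d⁄dX R U))
      - coeff (m + 1) (U ^ (m + 1))) = 0 := by
    rw [mul_sub, ← h3, h2, sub_self]
  exact sub_eq_zero.mp (hR (m + 1) _ (Nat.succ_ne_zero m) h4)

theorem map_derivative {R S : Type*} [CommRing R] [CommRing S] (φ : R →+* S) (f : R⟦X⟧) :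
    PowerSeries.map φ (d⁄dX R f) = d⁄dX S (PowerSeries.map φ f) := by
  ext n
  rw [coeff_map, coeff_derivative, coeff_derivative, coeff_map, map_mul, map_add, map_natCast,
    map_one]

/-- **The universal identity** `[Xⁿ] (X Uⁿ⁻¹ U') = [Xⁿ] Uⁿ`, over any commutative ring. -/
theorem coeff_pow_eq {R : Type*} [CommRing R] (U : R⟦X⟧) {n : ℕ} (hn : 1 ≤ n) :
    coeff n (X * (U ^ (n - 1) * d⁄dX R U)) = coeff n (U ^ n) := by
  let S := MvPolynomial ℕ ℤ
  let V : S⟦X⟧ := PowerSeries.mk fun i => MvPolynomial.X i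
  let φ : S →+* R := MvPolynomial.eval₂Hom (Int.castRingHom R) fun i => coeff i U
  have hV : PowerSeries.map φ V = U := by
    ext i
    rw [coeff_map, coeff_mk]
    exact MvPolynomial.eval₂_X _ _ i
  have hS : ∀ (n : ℕ) (x : S), n ≠ 0 → (n : S) * x = 0 → x = 0 := by
    intro n x hn hx
    rcases mul_eq_zero.mp hx with h | h
    · exact absurd (Nat.cast_eq_zero.mp h) hn
    · exact h
  have h := congrArg φ (coeff_pow_eq_of_torsionFree hS V hn)
  rw [← coeff_map, ← coeff_map] at h
  have e1 : PowerSeries.map φ (X * (V ^ (n - 1) * d⁄dX S V)) = X * (U ^ (n - 1) * d⁄dX R U) := by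
    rw [RingHom.map_mul, RingHom.map_mul, RingHom.map_pow, map_derivative, hV, PowerSeries.map_X]
  have e2 : PowerSeries.map φ (V ^ n) = U ^ n := by
    rw [RingHom.map_pow, hV]
  rw [e1, e2] at h
  exact h

end Universal

/-! ## The formal residue -/

section Laurent

open HahnSeries

variable {K : Type*} [Field K]

/-- The formal residue `res (f dg) = coeff_0 (f · θ g)`. -/
def fres (f g : LaurentSeries K) : K := (f * thetaFun K g).coeff 0

theorem fres_add_left (f f' g : LaurentSeries K) : fres (f + f') g = fres f g + fres f' g := by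
  unfold fres
  rw [add_mul, HahnSeries.coeff_add]

theorem fres_C_mul_left (c : K) (f g : LaurentSeries K) :
    fres (HahnSeries.C c * f) g = c * fres f g := by
  unfold fres
  rw [mul_assoc, HahnSeries.C_mul_eq_smul, HahnSeries.coeff_smul, smul_eq_mul]

theorem fres_add_right (f g g' : LaurentSeries K) : fres f (g + g') = fres f g + fres f g' := by
  unfold fres
  rw [thetaFun_add, mul_add, HahnSeries.coeff_add]

theorem fres_C_mul_right (c : K) (f g : LaurentSeries K) :
    fres f (HahnSeries.C c * g) = c * fres f g := by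
  unfold fres
  rw [Fermat.Agent.Lib.helper9242.thetaFun_C_mul, mul_left_comm, HahnSeries.C_mul_eq_smul,
    HahnSeries.coeff_smul, smul_eq_mul]

/-- Leibniz rule. -/
theorem fres_mul_right (f g h : LaurentSeries K) :
    fres f (g * h) = fres (f * g) h + fres (f * h) g := by
  unfold fres
  rw [thetaFun_mul, ← HahnSeries.coeff_add]
  congr 1
  ring

theorem fres_C_right (f : LaurentSeries K) (c : K) : fres f (HahnSeries.C c) = 0 := by
  unfold fres
  rw [thetaFun_C, mul_zero, HahnSeries.coeff_zero]

theorem fres_one_right (f : LaurentSeries K) : fres f 1 = 0 := by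
  unfold fres
  rw [thetaFun_one, mul_zero, HahnSeries.coeff_zero]

/-- The residue of two power series vanishes. -/
theorem fres_eq_zero_of_nonneg {f g : LaurentSeries K} (hf : ∀ n : ℤ, n < 0 → f.coeff n = 0)
    (hg : ∀ n : ℤ, n < 0 → g.coeff n = 0) : fres f g = 0 := by
  unfold fres
  rw [HahnSeries.coeff_mul]
  refine Finset.sum_eq_zero ?_
  intro ij hij
  have hsum : ij.1 + ij.2 = 0 := (Finset.mem_antidiagonal.mp hij).2.2
  rcases lt_or_ge ij.1 0 with h1 | h1
  · rw [hf _ h1, zero_mul]
  · rw [thetaFun_coeff]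
    rcases eq_or_lt_of_le h1 with h2 | h2
    · have h3 : ij.2 = 0 := by omega
      rw [h3, Int.cast_zero, zero_mul, mul_zero]
    · rw [hg _ (by omega), mul_zero, mul_zero]

theorem coeff_zero_single_neg_mul_coe (n : ℕ) (P : PowerSeries K) :
    ((HahnSeries.single (-(n : ℤ)) (1 : K) : LaurentSeries K)
      * HahnSeries.ofPowerSeries ℤ K P).coeff 0 = PowerSeries.coeff n P := by
  have h := HahnSeries.coeff_single_mul_add (r := (1 : K))
    (x := HahnSeries.ofPowerSeries ℤ K P) (a := (n : ℤ)) (b := -(n : ℤ))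
  rw [add_neg_cancel, one_mul, HahnSeries.ofPowerSeries_apply_coeff] at h
  exact h

/-- **Invariance of the formal residue under change of uniformiser** (any characteristic):
for `τ` of order `1`, `res (τ⁻ʲ dτ) = 1` if `j = 1` and `0` if `j ≥ 2`. -/
theorem fres_inv_pow_self (τ : LaurentSeries K) (hτ : τ.order = 1) {j : ℕ} (hj : 1 ≤ j) :
    fres (τ⁻¹ ^ j) τ = if j = 1 then 1 else 0 := by
  have hτ0 : τ ≠ 0 := by
    rintro rfl
    rw [HahnSeries.order_zero] at hτ
    exact zero_ne_one hτ
  set σ := τ⁻¹ with hσ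
  have hστ : σ * τ = 1 := inv_mul_cancel₀ hτ0
  have hσ0 : σ ≠ 0 := inv_ne_zero hτ0
  have hσord : σ.order = -1 := by
    have h := HahnSeries.order_mul hσ0 hτ0
    rw [hστ, HahnSeries.order_one, hτ] at h
    omega
  set U := σ.powerSeriesPart with hU
  have hσU : σ = HahnSeries.single (-1) (1 : K) * HahnSeries.ofPowerSeries ℤ K U := by
    have h := LaurentSeries.single_order_mul_powerSeriesPart σ
    rw [hσord] at h
    exact h.symm
  set u := τ.powerSeriesPart with hu
  have hτu : τ = HahnSeries.single 1 (1 : K) * HahnSeries.ofPowerSeries ℤ K u := by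
    have h := LaurentSeries.single_order_mul_powerSeriesPart τ
    rw [hτ] at h
    exact h.symm
  have hθσ : thetaFun K σ = HahnSeries.single (-1) (1 : K)
      * HahnSeries.ofPowerSeries ℤ K (PowerSeries.X * PowerSeries.derivative K U - U) := by
    conv_lhs => rw [hσU]
    rw [thetaFun_mul, thetaFun_ofPowerSeries, thetaFun_single, map_sub, mul_sub]
    have e : (HahnSeries.single (-1) (((-1 : ℤ) : K) * 1) : LaurentSeries K)
        = -HahnSeries.single (-1) (1 : K) := by
      rw [mul_one, Int.cast_neg, Int.cast_one, HahnSeries.single_neg]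
    rw [e]
    ring
  have h0 : σ * thetaFun K τ = -(τ * thetaFun K σ) := by
    have h := thetaFun_mul K σ τ
    rw [hστ, thetaFun_one] at h
    exact eq_neg_of_add_eq_zero_left h.symm
  unfold fres
  rcases eq_or_lt_of_le hj with hj1 | hj2
  · -- `j = 1`
    rw [← hj1, if_pos rfl, pow_one, h0, hθσ, map_sub, mul_sub, mul_sub]
    have e1 : τ * (HahnSeries.single (-1) (1 : K) * HahnSeries.ofPowerSeries ℤ K U) = 1 := by
      rw [← hσU, mul_comm, hστ]
    have e2 : τ * (HahnSeries.single (-1) (1 : K) * HahnSeries.ofPowerSeries ℤ K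
        (PowerSeries.X * PowerSeries.derivative K U))
        = HahnSeries.single (-((0 : ℕ) : ℤ)) (1 : K) * HahnSeries.ofPowerSeries ℤ K
          (PowerSeries.X * (u * PowerSeries.derivative K U)) := by
      conv_lhs => rw [hτu]
      rw [map_mul, map_mul, map_mul]
      have e3 : (HahnSeries.single 1 (1 : K) : LaurentSeries K) * HahnSeries.single (-1) (1 : K)
          = HahnSeries.single (-((0 : ℕ) : ℤ)) (1 : K) := by
        rw [HahnSeries.single_mul_single]
        norm_num
      rw [← e3]
      ring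
    rw [e1, e2, HahnSeries.coeff_neg, HahnSeries.coeff_sub, coeff_zero_single_neg_mul_coe,
      HahnSeries.coeff_one, if_pos rfl, PowerSeries.coeff_zero_eq_constantCoeff, map_mul,
      PowerSeries.constantCoeff_X, zero_mul]
    ring
  · -- `j ≥ 2`
    obtain ⟨m, rfl⟩ : ∃ m, j = m + 2 := ⟨j - 2, by omega⟩
    rw [if_neg (by omega)]
    have e1 : σ ^ (m + 2) * thetaFun K τ = -(σ ^ m * thetaFun K σ) := by
      have e : σ ^ (m + 2) * thetaFun K τ = σ ^ (m + 1) * (σ * thetaFun K τ) := by ring
      rw [e, h0]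
      have e' : σ ^ (m + 1) * -(τ * thetaFun K σ) = -(σ ^ m * (σ * τ) * thetaFun K σ) := by ring
      rw [e', hστ, mul_one]
    have e2 : σ ^ m = HahnSeries.single (-(m : ℤ)) (1 : K)
        * HahnSeries.ofPowerSeries ℤ K (U ^ m) := by
      conv_lhs => rw [hσU]
      rw [mul_pow, HahnSeries.single_pow, one_pow, map_pow]
      congr 2
      simp
    have e3 : σ ^ m * thetaFun K σ = HahnSeries.single (-((m + 1 : ℕ) : ℤ)) (1 : K)
        * HahnSeries.ofPowerSeries ℤ K
          (PowerSeries.X * (U ^ m * PowerSeries.derivative K U) - U ^ (m + 1)) := by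
      rw [e2, hθσ]
      have e4 : (HahnSeries.single (-(m : ℤ)) (1 : K) : LaurentSeries K)
          * HahnSeries.single (-1) (1 : K) = HahnSeries.single (-((m + 1 : ℕ) : ℤ)) (1 : K) := by
        have e5 : -(m : ℤ) + -1 = -((m + 1 : ℕ) : ℤ) := by push_cast; ring
        rw [HahnSeries.single_mul_single, mul_one, e5]
      rw [← e4]
      simp only [map_sub, map_mul, map_pow]
      ring
    have h5 := coeff_pow_eq U (n := m + 1) (by omega)
    rw [Nat.add_sub_cancel] at h5
    rw [e1, e3, HahnSeries.coeff_neg, coeff_zero_single_neg_mul_coe, map_sub, h5, sub_self,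
      neg_zero]

end Laurent

end Fermat.Agent.S44.helper923
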