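/-
helper923 — S44 / L7-RESIDUE, adelic design: the residue theorem for `φ dlog ψ` in
characteristic `p`, in the Prelude `Place` vocabulary, on top of the compiled global residue
theorem `Lib.helper923.tres_const_const` (Tate residues on repartitions).

* `tres_pow_right`, `tres_pow_char`      : `res (α d(βⁿ)) = n res (α βⁿ⁻¹ dβ)`, `= 0` for `n = p`;
* `tres_loc`                             : localisation at an idempotent repartition;
* `tres_single_pow_const`                : `res_v (sⁿ ds) = 0` (`n ≥ 0`), every characteristic;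
* `tres_single_const_eq_fres` (P2)       : `res_v (f dg) = coeff_0 (ι f · θ (ι g))` for an
  expansion `ι : F →ₐ[K] K((q))` at `v`;
* `tres_single_dlog_eq_zero` (P1)        : char `p`, `φ` regular off `v`, `p ∣ ord_w ψ` for all
  `w ≠ v`  ⟹  `res_v (φ dψ/ψ) = 0`;
* `coeff_zero_mul_dlog_eq_zero` (RT)     : `coeff_0 (ι φ · (ι ψ)⁻¹ · θ (ι ψ)) = 0`.
-/
import Fermat.Agent.Lib.helper923_KaehlerWeil
import Fermat.Agent.S44.helper923_FormalResidue

set_option autoImplicit false

namespace Fermat.Agent.S44.helper923

open AlgebraicCurve WithZero Module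
open Fermat.Agent.S27
open Fermat.Agent.Lib.helper923
open Fermat.Agent.Lib.helper9242 (thetaFun)

noncomputable section

universe u v

/-! ## Abstract complements on Tate residues -/

section Abstract

variable {K : Type*} [Field K] {V : Type*} [AddCommGroup V] [Module K V]
variable {A : Submodule K V} {f g : V →ₗ[K] V} {X Y : A →ₗ[K] A}

/-- The residue vanishes as soon as two lifts commute. -/
theorem res_eq_zero_of_lifts_commute (hfg : f ∘ₗ g = g ∘ₗ f) (hX : IsLift A f X)
    (hY : IsLift A g Y) (hXY : X ∘ₗ Y = Y ∘ₗ X) : res A f g = 0 := by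
  rw [res_eq hfg hX hY, hXY, sub_self, ftr_zero]

end Abstract

variable {K : Type u} {F : Type v} [Field K] [Field F] [Algebra K F]

/-! ## More rules for `tres` -/

section Rules

variable (hP : HasPrincipalDivisors K F)
  (hres : ∀ v : Place K F, Function.Surjective (algebraMap K v.ResidueField))
  (hdeg : ∀ v : Place K F, v.deg = 1)
include hP hres hdeg

theorem tres_zero_left (β : helper9330.Rep K F) : tres (0 : helper9330.Rep K F) β = 0 := by
  have h := tres_smul_left hP hres hdeg (0 : K) (0 : helper9330.Rep K F) β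
  rw [zero_smul, zero_mul] at h
  exact h

theorem tres_neg_right (α β : helper9330.Rep K F) : tres α (-β) = -tres α β := by
  have h := tres_smul_right hP hres hdeg (-1 : K) α β
  rw [neg_one_smul, neg_one_mul] at h
  exact h

theorem tres_sub_right (α β β' : helper9330.Rep K F) :
    tres α (β - β') = tres α β - tres α β' := by
  rw [sub_eq_add_neg, tres_add_right hP hres hdeg, tres_neg_right hP hres hdeg, ← sub_eq_add_neg]

theorem tres_neg_left (α β : helper9330.Rep K F) : tres (-α) β = -tres α β := by
  have h := tres_smul_left hP hres hdeg (-1 : K) α β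
  rw [neg_one_smul, neg_one_mul] at h
  exact h

theorem tres_sub_left (α α' β : helper9330.Rep K F) :
    tres (α - α') β = tres α β - tres α' β := by
  rw [sub_eq_add_neg, tres_add_left hP hres hdeg, tres_neg_left hP hres hdeg, ← sub_eq_add_neg]

/-- `res (α d(βⁿ⁺¹)) = (n + 1) res (α βⁿ dβ)`. -/
theorem tres_pow_right (α β : helper9330.Rep K F) (n : ℕ) :
    tres α (β ^ (n + 1)) = ((n + 1 : ℕ) : K) * tres (α * β ^ n) β := by
  induction n generalizing α with
  | zero => simp
  | succ n ih =>
    rw [pow_succ β (n + 1), tres_mul_right hP hres hdeg, ih (α * β)]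
    have e : α * β * β ^ n = α * β ^ (n + 1) := by rw [pow_succ]; ring
    rw [e]
    push_cast
    ring

/-- In characteristic `p`, `res (α d(βᵖ)) = 0`. -/
theorem tres_pow_char (p : ℕ) [CharP K p] (α β : helper9330.Rep K F) :
    tres α (β ^ p) = 0 := by
  rcases Nat.eq_zero_or_pos p with rfl | hp
  · rw [pow_zero, tres_one_right hP hres hdeg]
  · obtain ⟨n, rfl⟩ : ∃ n, p = n + 1 := ⟨p - 1, by omega⟩
    rw [tres_pow_right hP hres hdeg, CharP.cast_eq_zero K (n + 1), zero_mul]

/-- For an idempotent `e`: `res (e δ de) = 0`. -/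
theorem tres_idem_right {e : helper9330.Rep K F} (he : e * e = e) (δ : helper9330.Rep K F) :
    tres (e * δ) e = 0 := by
  have h := tres_mul_right hP hres hdeg (e * δ) e e
  have e1 : e * δ * e = e * δ := by
    calc e * δ * e = e * e * δ := by ring
      _ = e * δ := by rw [he]
  rw [he, e1] at h
  linear_combination -h

/-- Localisation at an idempotent: `res (e α dγ) = res (e α d(e γ))`. -/
theorem tres_loc {e : helper9330.Rep K F} (he : e * e = e) (α γ : helper9330.Rep K F) :
    tres (e * α) γ = tres (e * α) (e * γ) := by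
  have hγ : γ = e * γ + (1 - e) * γ := by ring
  have h1 : tres (e * α) ((1 - e) * γ) = 0 := by
    rw [tres_mul_right hP hres hdeg]
    have e1 : e * α * (1 - e) = 0 := by
      calc e * α * (1 - e) = e * α - e * e * α := by ring
        _ = 0 := by rw [he, sub_self]
    have e2 : e * α * γ = e * (α * γ) := by ring
    rw [e1, tres_zero_left hP hres hdeg, e2, tres_sub_right hP hres hdeg,
      tres_one_right hP hres hdeg, tres_idem_right hP hres hdeg he]
    ring
  conv_lhs => rw [hγ]
  rw [tres_add_right hP hres hdeg, h1, add_zero]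

omit hP hres hdeg in
theorem isLift_pow {β : helper9330.Rep K F} {Y : ↥(A0 K F) →ₗ[K] ↥(A0 K F)}
    (hY : IsLift (A0 K F) (mulR β) Y) (n : ℕ) : IsLift (A0 K F) (mulR (β ^ n)) (Y ^ n) := by
  induction n with
  | zero =>
    rw [pow_zero, pow_zero, mulR_one]
    exact IsLift.id
  | succ n ih =>
    rw [pow_succ, pow_succ, mulR_mul]
    exact ih.comp hY

omit hP hres hdeg in
theorem idem_mul_pow {e : helper9330.Rep K F} (he : e * e = e) (n : ℕ) : e * e ^ n = e := by
  induction n with
  | zero => rw [pow_zero, mul_one]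
  | succ n ih => rw [pow_succ, ← mul_assoc, ih, he]

/-- For an integral idempotent `e`: `res (e βⁿ d(e β)) = 0` for every `n ≥ 0`. -/
theorem tres_idem_pow {e : helper9330.Rep K F} (he : e * e = e) (heA : e ∈ A0 K F)
    (β : helper9330.Rep K F) (n : ℕ) : tres (e * β ^ n) (e * β) = 0 := by
  obtain ⟨Y, hY⟩ := liftable_mulR hP hres hdeg β
  set Xe : ↥(A0 K F) →ₗ[K] ↥(A0 K F) := (mulR e).restrict (mulR_mapsTo_A0 heA) with hXe
  have hXeL : IsLift (A0 K F) (mulR e) Xe := IsLift.of_mapsTo _
  set Z : ↥(A0 K F) →ₗ[K] ↥(A0 K F) := Xe ∘ₗ Y ∘ₗ Xe with hZ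
  have e1 : mulR (e * β) = mulR e ∘ₗ mulR β ∘ₗ mulR e := by
    rw [← mulR_mul, ← mulR_mul]
    congr 1
    calc e * β = e * e * β := by rw [he]
      _ = e * (β * e) := by ring
  have hZL : IsLift (A0 K F) (mulR (e * β)) Z := by
    rw [e1]
    exact hXeL.comp (hY.comp hXeL)
  have hXX : Xe * Xe = Xe := by
    apply LinearMap.ext
    intro a
    apply Subtype.ext
    show e * (e * (a : helper9330.Rep K F)) = e * (a : helper9330.Rep K F)
    rw [← mul_assoc, he]
  have h1 : Xe * Z = Z := by
    show Xe * (Xe * (Y * Xe)) = Xe * (Y * Xe)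
    rw [← mul_assoc, hXX]
  have h2 : Z * Xe = Z := by
    show Xe * (Y * Xe) * Xe = Xe * (Y * Xe)
    rw [mul_assoc, mul_assoc, hXX]
  have hc : Commute (Xe * Z ^ n) Z := by
    have hc1 : Commute Xe Z := by rw [commute_iff_eq, h1, h2]
    exact hc1.mul_left ((Commute.refl Z).pow_left n)
  have e2 : e * β ^ n = e * (e * β) ^ n := by
    rw [mul_pow, ← mul_assoc, idem_mul_pow he]
  have hL : IsLift (A0 K F) (mulR (e * β ^ n)) (Xe * Z ^ n) := by
    rw [e2, mulR_mul]
    exact hXeL.comp (isLift_pow hZL n)
  unfold tres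
  exact res_eq_zero_of_lifts_commute (mulR_comm _ _) hL hZL hc.eq

end Rules

/-! ## Local rules at a place -/

theorem single_one_mul_self (v : Place K F) :
    helper9330.single v (1 : F) * helper9330.single v (1 : F) = helper9330.single v (1 : F) := by
  apply Subtype.ext
  funext w
  rw [coe_mul_apply]
  by_cases hw : w = v
  · subst hw
    rw [helper9330.single_apply_same, mul_one]
  · rw [helper9330.single_apply_ne hw, mul_zero]

theorem single_eq_mul_const (v : Place K F) (f : F) :
    helper9330.single v f = helper9330.single v (1 : F) * helper3372.const K f := by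
  apply Subtype.ext
  funext w
  rw [coe_mul_apply, helper3372.coe_const_apply]
  by_cases hw : w = v
  · subst hw
    rw [helper9330.single_apply_same, helper9330.single_apply_same, one_mul]
  · rw [helper9330.single_apply_ne hw, helper9330.single_apply_ne hw, zero_mul]

theorem single_mul_const (v : Place K F) (f g : F) :
    helper9330.single v f * helper3372.const K g = helper9330.single v (f * g) := by
  apply Subtype.ext
  funext w
  rw [coe_mul_apply, helper3372.coe_const_apply]
  by_cases hw : w = v
  · subst hw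
    rw [helper9330.single_apply_same, helper9330.single_apply_same]
  · rw [helper9330.single_apply_ne hw, helper9330.single_apply_ne hw, zero_mul]

theorem const_pow (f : F) (n : ℕ) :
    helper3372.const K f ^ n = helper3372.const K (f ^ n) := by
  induction n with
  | zero =>
    rw [pow_zero, pow_zero]
    rfl
  | succ n ih => rw [pow_succ, pow_succ, ih, const_mul_const]

section Local

variable (hP : HasPrincipalDivisors K F)
  (hres : ∀ v : Place K F, Function.Surjective (algebraMap K v.ResidueField))
  (hdeg : ∀ v : Place K F, v.deg = 1)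
include hP hres hdeg

/-- `res_v (sⁿ ds) = 0` for every `n ≥ 0`, in every characteristic. -/
theorem tres_single_pow_const (v : Place K F) (s : F) (n : ℕ) :
    tres (helper9330.single v (s ^ n)) (helper3372.const K s) = 0 := by
  have he := single_one_mul_self (K := K) v
  rw [single_eq_mul_const v (s ^ n), ← const_pow, tres_loc hP hres hdeg he]
  exact tres_idem_pow hP hres hdeg he (single_one_mem_A0 v) _ n

/-- `res_v (f d(c)) = 0` for a constant `c`. -/
theorem tres_single_const_algebraMap (v : Place K F) (f : F) (c : K) :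
    tres (helper9330.single v f) (helper3372.const K (algebraMap K F c)) = 0 := by
  have e : helper3372.const K (algebraMap K F c) = c • (1 : helper9330.Rep K F) := by
    rw [Algebra.algebraMap_eq_smul_one, helper3372.const_smul]
    rfl
  rw [e, tres_smul_right hP hres hdeg, tres_one_right hP hres hdeg, mul_zero]

/-- `res_v (t⁻ʲ dt) = 0` for `j ≥ 2`. -/
theorem tres_single_inv_pow_const (v : Place K F) {t : F} (ht : t ≠ 0) {j : ℕ} (hj : 2 ≤ j) :
    tres (helper9330.single v (t⁻¹ ^ j)) (helper3372.const K t) = 0 := by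
  obtain ⟨m, rfl⟩ : ∃ m, j = m + 2 := ⟨j - 2, by omega⟩
  have huu' : helper3372.const K t⁻¹ * helper3372.const K t = 1 := by
    rw [const_mul_const, inv_mul_cancel₀ ht]
    rfl
  rw [tres_inv_right hP hres hdeg _ (helper3372.const K t⁻¹) (helper3372.const K t) huu',
    single_mul_const, single_mul_const]
  have e : t⁻¹ ^ (m + 2) * t * t = t⁻¹ ^ m := by
    have e' : t⁻¹ ^ (m + 2) * t * t = t⁻¹ ^ m * ((t⁻¹ * t) * (t⁻¹ * t)) := by ring
    rw [e', inv_mul_cancel₀ ht, mul_one, mul_one]
  rw [e, tres_single_pow_const hP hres hdeg, neg_zero]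

end Local

/-! ## Uniqueness of the local residue -/

section Unique

variable (v : Place K F) (hresv : Function.Surjective (algebraMap K v.ResidueField))
  {t : F} (ht : v.adicValuation t = exp (-1 : ℤ))

theorem unif_ne_zero {v : Place K F} {t : F} (ht : v.adicValuation t = exp (-1 : ℤ)) : t ≠ 0 := by
  rintro rfl
  rw [map_zero] at ht
  exact WithZero.exp_ne_zero ht.symm

include ht in
theorem adicValuation_pow_unif (M : ℕ) : v.adicValuation (t ^ M) = exp (-(M : ℤ)) := by
  rw [map_pow, ht, ← exp_nsmul]
  congr 1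
  simp

include ht in
theorem exists_pow_mul_le_one (f : F) : ∃ M : ℕ, v.adicValuation (f * t ^ M) ≤ 1 := by
  rcases eq_or_ne f 0 with rfl | hf
  · exact ⟨0, by simp⟩
  · refine ⟨(-v.ord f).toNat, ?_⟩
    rw [map_mul, adicValuation_pow_unif v ht, v.adicValuation_eq_exp_neg_ord hf, ← exp_add,
      ← exp_zero, exp_le_exp]
    have := Int.self_le_toNat (-v.ord f)
    omega

include hresv ht in
theorem exists_sub_const (M : ℕ) {f : F} (hf : v.adicValuation (f * t ^ (M + 1)) ≤ 1) :
    ∃ c : K, v.adicValuation ((f - algebraMap K F c * t⁻¹ ^ (M + 1)) * t ^ M) ≤ 1 := by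
  obtain ⟨c, hc⟩ := helper3372.exists_const_sub_lt v hresv hf
  refine ⟨c, ?_⟩
  have ht0 : t ≠ 0 := unif_ne_zero ht
  have h1 : t⁻¹ ^ M * t ^ M = 1 := by rw [← mul_pow, inv_mul_cancel₀ ht0, one_pow]
  have e : (f - algebraMap K F c * t⁻¹ ^ (M + 1)) * t ^ M
      = (f * t ^ (M + 1) - algebraMap K F c) * t⁻¹ := by
    have e1 : (f - algebraMap K F c * t⁻¹ ^ (M + 1)) * t ^ M
        = f * t ^ M - algebraMap K F c * (t⁻¹ ^ M * t ^ M) * t⁻¹ := by ring
    have e2 : (f * t ^ (M + 1) - algebraMap K F c) * t⁻¹
        = f * t ^ M * (t * t⁻¹) - algebraMap K F c * t⁻¹ := by ring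
    rw [e1, e2, h1, mul_inv_cancel₀ ht0, mul_one, mul_one]
  rw [e, map_mul, map_inv₀, ht]
  calc v.adicValuation (f * t ^ (M + 1) - algebraMap K F c) * (exp (-1 : ℤ))⁻¹
      ≤ exp (-1 : ℤ) * (exp (-1 : ℤ))⁻¹ := mul_le_mul_left hc _
    _ = 1 := mul_inv_cancel₀ WithZero.exp_ne_zero

include hresv ht in
/-- A pairing on `F` with the formal properties of a residue at `v` that kills `t⁻ʲ dt`
for all `j ≥ 1` vanishes identically. -/
theorem eq_zero_of_rules (D : F → F → K)
    (hadd_l : ∀ f f' g, D (f + f') g = D f g + D f' g)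
    (hsmul_l : ∀ (c : K) f g, D (algebraMap K F c * f) g = c * D f g)
    (hadd_r : ∀ f g g', D f (g + g') = D f g + D f g')
    (hleib : ∀ f g h, D f (g * h) = D (f * g) h + D (f * h) g)
    (hint : ∀ f g, v.adicValuation f ≤ 1 → v.adicValuation g ≤ 1 → D f g = 0)
    (hconst : ∀ f (c : K), D f (algebraMap K F c) = 0)
    (hpow : ∀ j : ℕ, 1 ≤ j → D (t⁻¹ ^ j) t = 0) (f g : F) : D f g = 0 := by
  have ht0 : t ≠ 0 := unif_ne_zero ht
  have htle : v.adicValuation t ≤ 1 := by rw [ht]; exact exp_neg_one_lt_one.le
  have step1 : ∀ (M : ℕ) (f : F), v.adicValuation (f * t ^ M) ≤ 1 → D f t = 0 := by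
    intro M
    induction M with
    | zero =>
      intro f hf
      rw [pow_zero, mul_one] at hf
      exact hint f t hf htle
    | succ M ih =>
      intro f hf
      obtain ⟨c, hc⟩ := exists_sub_const v hresv ht M hf
      have e : f = (f - algebraMap K F c * t⁻¹ ^ (M + 1)) + algebraMap K F c * t⁻¹ ^ (M + 1) := by
        ring
      rw [e, hadd_l, ih _ hc, hsmul_l, hpow (M + 1) (by omega), mul_zero, add_zero]
  have step1' : ∀ f, D f t = 0 := fun f => by
    obtain ⟨M, hM⟩ := exists_pow_mul_le_one v ht f
    exact step1 M f hM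
  have step2 : ∀ (m : ℕ) (g : F), v.adicValuation g ≤ 1 → D (t⁻¹ ^ m) g = 0 := by
    intro m
    induction m with
    | zero =>
      intro g hg
      rw [pow_zero]
      exact hint 1 g (by rw [map_one]) hg
    | succ m ih =>
      intro g hg
      obtain ⟨c, hc⟩ := helper3372.exists_const_sub_lt v hresv hg
      have hg₁le : v.adicValuation ((g - algebraMap K F c) * t⁻¹) ≤ 1 := by
        rw [map_mul, map_inv₀, ht]
        calc v.adicValuation (g - algebraMap K F c) * (exp (-1 : ℤ))⁻¹
            ≤ exp (-1 : ℤ) * (exp (-1 : ℤ))⁻¹ := mul_le_mul_left hc _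
          _ = 1 := mul_inv_cancel₀ WithZero.exp_ne_zero
      have e : g = algebraMap K F c + t * ((g - algebraMap K F c) * t⁻¹) := by
        have e' : t * ((g - algebraMap K F c) * t⁻¹) = (g - algebraMap K F c) * (t * t⁻¹) := by
          ring
        rw [e', mul_inv_cancel₀ ht0, mul_one]
        ring
      have e2 : t⁻¹ ^ (m + 1) * t = t⁻¹ ^ m := by
        rw [pow_succ, mul_assoc, inv_mul_cancel₀ ht0, mul_one]
      rw [e, hadd_r, hconst, zero_add, hleib, step1', add_zero, e2]
      exact ih _ hg₁le
  have step2' : ∀ (M : ℕ) (f g : F), v.adicValuation (f * t ^ M) ≤ 1 →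
      v.adicValuation g ≤ 1 → D f g = 0 := by
    intro M
    induction M with
    | zero =>
      intro f g hf hg
      rw [pow_zero, mul_one] at hf
      exact hint f g hf hg
    | succ M ih =>
      intro f g hf hg
      obtain ⟨c, hc⟩ := exists_sub_const v hresv ht M hf
      have e : f = (f - algebraMap K F c * t⁻¹ ^ (M + 1)) + algebraMap K F c * t⁻¹ ^ (M + 1) := by
        ring
      rw [e, hadd_l, ih _ g hc hg, hsmul_l, step2 (M + 1) g hg, mul_zero, add_zero]
  have step2'' : ∀ f g : F, v.adicValuation g ≤ 1 → D f g = 0 := fun f g hg => by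
    obtain ⟨M, hM⟩ := exists_pow_mul_le_one v ht f
    exact step2' M f g hM hg
  by_cases hg : v.adicValuation g ≤ 1
  · exact step2'' f g hg
  · have hg0 : g ≠ 0 := by
      rintro rfl
      exact hg (by simp)
    have hginv : v.adicValuation g⁻¹ ≤ 1 := by
      rw [map_inv₀]
      exact inv_le_one_of_one_le₀ (le_of_lt (not_le.mp hg))
    have h1 := hleib (f * g) g g⁻¹
    rw [mul_inv_cancel₀ hg0] at h1
    have h2 : D (f * g) 1 = 0 := by
      have h := hconst (f * g) 1
      rwa [map_one] at h
    have e3 : f * g * g⁻¹ = f := by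
      rw [mul_assoc, mul_inv_cancel₀ hg0, mul_one]
    rw [h2, e3, step2'' _ _ hginv, zero_add] at h1
    exact h1.symm

end Unique

/-! ## (P2) the local residue is the formal residue of the expansions -/

section Expansion

variable (hP : HasPrincipalDivisors K F)
  (hres : ∀ v : Place K F, Function.Surjective (algebraMap K v.ResidueField))
  (hdeg : ∀ v : Place K F, v.deg = 1)

omit [Algebra K F] in
theorem coeff_eq_zero_of_adicValuation_le_one [Algebra K F] {v : Place K F}
    {ι : F →ₐ[K] LaurentSeries K} (hι : ∀ x : F, x ≠ 0 → v.ord x = (ι x).order) {f : F}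
    (hf : v.adicValuation f ≤ 1) (n : ℤ) (hn : n < 0) : (ι f).coeff n = 0 := by
  rcases eq_or_ne f 0 with rfl | hf0
  · simp
  · have h := (v.adicValuation_le_one_iff.mp hf).resolve_left hf0
    rw [hι f hf0] at h
    exact HahnSeries.coeff_eq_zero_of_lt_order (lt_of_lt_of_le hn h)

include hP hres hdeg in
/-- **(P2)** For an expansion `ι : F →ₐ[K] K((q))` at the place `v` (orders agree), the local
Tate residue at `v` is the formal residue: `res_v (f dg) = coeff_0 (ι f · θ (ι g))`. -/
theorem tres_single_const_eq_fres (v : Place K F) (ι : F →ₐ[K] LaurentSeries K)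
    (hι : ∀ x : F, x ≠ 0 → v.ord x = (ι x).order) (f g : F) :
    tres (helper9330.single v f) (helper3372.const K g) = fres (ι f) (ι g) := by
  obtain ⟨t, ht⟩ := helper3372.exists_uniformizer v
  have ht0 : t ≠ 0 := unif_ne_zero ht
  have hτ : (ι t).order = 1 := by
    rw [← hι t ht0]
    have h := v.adicValuation_eq_exp_neg_ord ht0
    rw [ht, exp_inj] at h
    omega
  have key := eq_zero_of_rules v (hres v) ht
    (fun f g => tres (helper9330.single v f) (helper3372.const K g) - fres (ι f) (ι g))
    ?_ ?_ ?_ ?_ ?_ ?_ ?_ f g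
  · exact sub_eq_zero.mp key
  · intro f f' g
    have e : helper9330.single v (f + f') = helper9330.single v f + helper9330.single v f' :=
      (singleL (K := K) v).map_add f f'
    show tres (helper9330.single v (f + f')) _ - fres (ι (f + f')) _ = _
    rw [e, tres_add_left hP hres hdeg, map_add, fres_add_left]
    ring
  · intro c f g
    have e : helper9330.single v (algebraMap K F c * f) = c • helper9330.single v f := by
      rw [← Algebra.smul_def]
      exact (singleL (K := K) v).map_smul c f
    show tres (helper9330.single v (algebraMap K F c * f)) _ - fres (ι (algebraMap K F c * f)) _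
      = c * (tres _ _ - fres _ _)
    rw [e, tres_smul_left hP hres hdeg, map_mul, AlgHom.commutes,
      Fermat.Agent.Lib.helper9242.algebraMap_eq_C, fres_C_mul_left]
    ring
  · intro f g g'
    show tres _ (helper3372.const K (g + g')) - fres _ (ι (g + g')) = _
    rw [helper3372.const_add, tres_add_right hP hres hdeg, map_add, fres_add_right]
    ring
  · intro f g h
    show tres _ (helper3372.const K (g * h)) - fres _ (ι (g * h))
      = (tres (helper9330.single v (f * g)) _ - fres (ι (f * g)) _)
        + (tres (helper9330.single v (f * h)) _ - fres (ι (f * h)) _)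
    rw [← const_mul_const, tres_mul_right hP hres hdeg, single_mul_const, single_mul_const,
      map_mul, map_mul, map_mul, fres_mul_right]
    ring
  · intro f g hf hg
    show tres _ _ - fres _ _ = 0
    rw [tres_single_const_eq_zero hP hres hdeg v hf hg,
      fres_eq_zero_of_nonneg (coeff_eq_zero_of_adicValuation_le_one hι hf)
        (coeff_eq_zero_of_adicValuation_le_one hι hg), sub_zero]
  · intro f c
    show tres _ _ - fres _ _ = 0
    rw [tres_single_const_algebraMap hP hres hdeg, AlgHom.commutes,
      Fermat.Agent.Lib.helper9242.algebraMap_eq_C, fres_C_right, sub_zero]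
  · intro j hj
    show tres _ _ - fres _ _ = 0
    rw [map_pow, map_inv₀, fres_inv_pow_self (ι t) hτ hj]
    rcases eq_or_lt_of_le hj with hj1 | hj2
    · rw [← hj1, if_pos rfl, pow_one, tres_single_inv_const hP hres hdeg v ht, sub_self]
    · rw [if_neg (by omega), tres_single_inv_pow_const hP hres hdeg v ht0 (by omega), sub_zero]

end Expansion

/-! ## (P1) the logarithmic residue in characteristic `p` -/

section Dlog

theorem coe_pow_apply (α : helper9330.Rep K F) (n : ℕ) (w : Place K F) :
    ((α ^ n : helper9330.Rep K F) : Place K F → F) w = (α : Place K F → F) w ^ n := by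
  induction n with
  | zero => rw [pow_zero, pow_zero, coe_one_apply]
  | succ n ih => rw [pow_succ, pow_succ, coe_mul_apply, ih]

/-- A chosen uniformiser at each place. -/
def unif (w : Place K F) : F := (helper3372.exists_uniformizer w).choose

theorem unif_spec (w : Place K F) : w.adicValuation (unif w) = exp (-1 : ℤ) :=
  (helper3372.exists_uniformizer w).choose_spec

theorem adicValuation_unif_zpow (w : Place K F) (n : ℤ) :
    w.adicValuation (unif w ^ n) = exp (-n) := by
  rw [map_zpow₀, unif_spec, ← exp_zsmul]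
  congr 1
  simp

open Classical in
/-- The repartition with component `π_w ^ (n w)` at `w ≠ v` and `1` at `v`. -/
def powRep (v : Place K F) (n : Place K F → ℤ) (hn : (Function.support n).Finite) :
    helper9330.Rep K F :=
  ⟨fun w => if w = v then 1 else unif w ^ n w, mem_repartitions_of_finite <|
    hn.subset fun w hw => by
      by_contra hcon
      apply hw
      have h0 : n w = 0 := by
        by_contra h
        exact hcon h
      show w.adicValuation (if w = v then 1 else unif w ^ n w) ≤ 1
      by_cases h : w = v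
      · rw [if_pos h, map_one]
      · rw [if_neg h, h0, zpow_zero, map_one]⟩

open Classical in
theorem powRep_apply (v : Place K F) (n : Place K F → ℤ) (hn : (Function.support n).Finite)
    (w : Place K F) :
    (powRep v n hn : Place K F → F) w = if w = v then 1 else unif w ^ n w := rfl

theorem powRep_mul_neg (v : Place K F) (n : Place K F → ℤ) (hn : (Function.support n).Finite)
    (hn' : (Function.support (-n)).Finite) : powRep v n hn * powRep v (-n) hn' = 1 := by
  apply Subtype.ext
  funext w
  rw [coe_mul_apply, coe_one_apply, powRep_apply, powRep_apply]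
  by_cases h : w = v
  · rw [if_pos h, if_pos h, mul_one]
  · rw [if_neg h, if_neg h, Pi.neg_apply, zpow_neg]
    exact mul_inv_cancel₀ (zpow_ne_zero _ (unif_ne_zero (unif_spec w)))

variable (hP : HasPrincipalDivisors K F)
  (hres : ∀ v : Place K F, Function.Surjective (algebraMap K v.ResidueField))
  (hdeg : ∀ v : Place K F, v.deg = 1)
include hP hres hdeg

/-- Away from `v`: if `φ` is regular off `v` and all orders of `ψ` off `v` are divisible by the
characteristic, the residue of `φ dψ/ψ` summed over the places `≠ v` vanishes. -/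
theorem tres_off_dlog_eq_zero (p : ℕ) [CharP K p] (v : Place K F) {φ ψ : F} (hψ : ψ ≠ 0)
    (hφ : ∀ w : Place K F, w ≠ v → w.adicValuation φ ≤ 1)
    (hpψ : ∀ w : Place K F, w ≠ v → (p : ℤ) ∣ w.ord ψ) :
    tres ((1 - helper9330.single v (1 : F)) * helper3372.const K (φ / ψ))
      (helper3372.const K ψ) = 0 := by
  classical
  obtain ⟨E, hE, -⟩ := hP.exists_divisor ψ hψ
  set n : Place K F → ℤ := fun w => w.ord ψ / (p : ℤ) with hndef
  have hn : (Function.support n).Finite := by
    refine E.support.finite_toSet.subset fun w hw => ?_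
    rw [Finset.mem_coe, Finsupp.mem_support_iff, hE w]
    intro h0
    apply hw
    show w.ord ψ / (p : ℤ) = 0
    rw [h0, Int.zero_ediv]
  have hn' : (Function.support (-n)).Finite := by rwa [Function.support_neg]
  have hpn : ∀ w : Place K F, w ≠ v → (p : ℤ) * n w = w.ord ψ :=
    fun w hw => Int.mul_ediv_cancel' (hpψ w hw)
  set τ := powRep v n hn with hτ
  set τ' := powRep v (-n) hn' with hτ'
  have hττ' : τ * τ' = 1 := powRep_mul_neg v n hn hn'
  set e : helper9330.Rep K F := helper9330.single v (1 : F) with he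
  have hee : e * e = e := single_one_mul_self v
  have hee' : (1 - e) * (1 - e) = 1 - e := by
    calc (1 - e) * (1 - e) = 1 - e - e + e * e := by ring
      _ = 1 - e := by rw [hee]; ring
  set u : helper9330.Rep K F := helper3372.const K ψ * τ' ^ p with hu
  have hψu : helper3372.const K ψ = u * τ ^ p := by
    rw [hu, mul_assoc, ← mul_pow, mul_comm τ' τ, hττ', one_pow, mul_one]
  have hev : (e : Place K F → F) v = 1 := helper9330.single_apply_same v 1
  have hew : ∀ w : Place K F, w ≠ v → (e : Place K F → F) w = 0 :=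
    fun w hw => helper9330.single_apply_ne hw 1
  have h1 : (1 - e) * (helper3372.const K (φ / ψ) * τ ^ p) ∈ A0 K F := by
    rw [mem_A0_iff]
    intro w
    rw [coe_mul_apply, helper9330.coe_sub, coe_one_apply]
    by_cases hw : w = v
    · rw [hw, hev, sub_self, zero_mul, map_zero]
      exact zero_le
    · rw [hew w hw, sub_zero, one_mul, coe_mul_apply, helper3372.coe_const_apply, coe_pow_apply,
        hτ, powRep_apply, if_neg hw, map_mul, map_div₀, map_pow, adicValuation_unif_zpow,
        w.adicValuation_eq_exp_neg_ord hψ, ← exp_nsmul, div_mul_eq_mul_div, ← hpn w hw]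
      have e1 : exp (-((p : ℤ) * n w)) = exp (p • -n w) := by
        congr 1
        simp
      rw [e1, mul_div_assoc, div_self WithZero.exp_ne_zero, mul_one]
      exact hφ w hw
  have h2 : (1 - e) * u ∈ A0 K F := by
    rw [mem_A0_iff]
    intro w
    rw [coe_mul_apply, helper9330.coe_sub, coe_one_apply]
    by_cases hw : w = v
    · rw [hw, hev, sub_self, zero_mul, map_zero]
      exact zero_le
    · rw [hew w hw, sub_zero, one_mul, hu, coe_mul_apply, helper3372.coe_const_apply,
        coe_pow_apply, hτ', powRep_apply, if_neg hw, map_mul, map_pow, adicValuation_unif_zpow,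
        w.adicValuation_eq_exp_neg_ord hψ, ← exp_nsmul, ← exp_add, ← hpn w hw, Pi.neg_apply]
      have e1 : -((p : ℤ) * n w) + p • - -n w = 0 := by
        simp
      rw [e1, exp_zero]
  rw [hψu, tres_mul_right hP hres hdeg, tres_pow_char hP hres hdeg, zero_add, mul_assoc,
    tres_loc hP hres hdeg hee']
  exact tres_eq_zero_of_mem h1 h2

variable (hL : Module.Finite K ↥(riemannRochSpace (0 : Divisor K F)))
  (hH : Module.Finite K (H1 (0 : Divisor K F)))
include hL hH

/-- **(P1)** In characteristic `p`: if `φ` is regular off `v` and `p ∣ ord_w ψ` for every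
`w ≠ v`, then the residue at `v` of `φ dψ/ψ` vanishes. -/
theorem tres_single_dlog_eq_zero (p : ℕ) [CharP K p] (v : Place K F) {φ ψ : F} (hψ : ψ ≠ 0)
    (hφ : ∀ w : Place K F, w ≠ v → w.adicValuation φ ≤ 1)
    (hpψ : ∀ w : Place K F, w ≠ v → (p : ℤ) ∣ w.ord ψ) :
    tres (helper9330.single v (φ / ψ)) (helper3372.const K ψ) = 0 := by
  have h0 := tres_const_const hP hres hdeg hL hH (φ / ψ) ψ
  have h1 := tres_off_dlog_eq_zero hP hres hdeg p v hψ hφ hpψ
  have e : helper3372.const K (φ / ψ) = helper9330.single v (φ / ψ)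
      + (1 - helper9330.single v (1 : F)) * helper3372.const K (φ / ψ) := by
    rw [single_eq_mul_const v (φ / ψ)]
    ring
  rw [e, tres_add_left hP hres hdeg, h1, add_zero] at h0
  exact h0

/-- **(RT)** The residue theorem for `φ dlog ψ` in characteristic `p`, on expansions: if
`ι : F →ₐ[K] K((q))` is an expansion at the place `v`, `φ` is regular off `v` and `p ∣ ord_w ψ`
for every place `w ≠ v`, then the constant term of `ι φ · θ(ι ψ)/ι ψ` vanishes
(`θ = q d/dq`). -/
theorem coeff_zero_mul_dlog_eq_zero (v : Place K F) (ι : F →ₐ[K] LaurentSeries K)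
    (hι : ∀ x : F, x ≠ 0 → v.ord x = (ι x).order) (p : ℕ) [CharP K p] (φ ψ : F) (hψ : ψ ≠ 0)
    (hφ : ∀ w : Place K F, w ≠ v → φ = 0 ∨ 0 ≤ w.ord φ)
    (hpψ : ∀ w : Place K F, w ≠ v → (p : ℤ) ∣ w.ord ψ) :
    (ι φ * (ι ψ)⁻¹ * thetaFun K (ι ψ)).coeff 0 = 0 := by
  have h := tres_single_dlog_eq_zero hP hres hdeg hL hH p v hψ
    (fun w hw => w.adicValuation_le_one_iff.mpr (hφ w hw)) hpψ
  rw [tres_single_const_eq_fres hP hres hdeg v ι hι] at h
  unfold fres at h
  rwa [map_div₀, div_eq_mul_inv] at h

end Dlog

end

end Fermat.Agent.S44.helper923
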