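/-
helper923 — S44 / L7-RESIDUE (adelic design), the INSTANCE on the special fibre
`Fk = modularFunctionFieldFullC k N ⊆ k((q))`, `k` algebraically closed of characteristic `p`,
at the cusp `∞` (`S18.helper36.qPlaceK k N`, the `q`-adic place; `ι` = the inclusion):

  `φ` regular off `∞`, `p ∣ ord_w ψ` at every place `w ≠ ∞`
      ⟹  `coeff_0 (φ · θ(ψ)/ψ) = 0`        (`θ = q d/dq`).

All hypotheses of `coeff_zero_mul_dlog_eq_zero` are discharged from landed S18/S27 bricks.
-/
import Fermat.Agent.S44.helper923_ResidueDlog
import Fermat.Agent.S18.helper36_FunctionFieldK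

set_option autoImplicit false

namespace Fermat.Agent.S44.helper923

open AlgebraicCurve ModularCurve Module
open Fermat.Agent.S27
open Fermat.Agent.Lib.helper923
open Fermat.Agent.Lib.helper9242 (thetaFun)

noncomputable section

/-! ## Generic discharge of the hypotheses -/

section Generic

variable {K : Type*} {F : Type*} [Field K] [Field F] [Algebra K F]

/-- A place of degree one has residue field `K`. -/
theorem residue_surjective_of_deg (v : Place K F) (h : v.deg = 1) :
    Function.Surjective (algebraMap K v.ResidueField) := by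
  have h1 : (⊥ : Subalgebra K v.ResidueField) = ⊤ := Subalgebra.bot_eq_top_of_finrank_eq_one h
  exact Algebra.surjective_algebraMap_iff.mpr h1.symm

/-- `RiemannData` (the input of the landed S27 weak Riemann–Roch) from Riemann's inequality. -/
theorem riemannData_of_inequality (hdeg : ∀ v : Place K F, v.deg = 1) (P : Place K F) (g : ℕ)
    (hg : ∀ D : Divisor K F,
      Divisor.degree D + 1 - (g : ℤ) ≤ (finrank K (riemannRochSpace D) : ℤ)) :
    helper3372.RiemannData K F := by
  refine ⟨Finsupp.single P 1, Finsupp.single P (g : ℤ), 1, one_pos, ?_, ?_, ?_, ?_⟩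
  · exact Finsupp.single_nonneg.mpr zero_le_one
  · exact Finsupp.single_nonneg.mpr (Int.natCast_nonneg g)
  · rw [Divisor.degree_single, hdeg P]
    simp
  · intro l
    have h := hg (l • Finsupp.single P 1 + Finsupp.single P (g : ℤ))
    rw [map_add, map_nsmul, Divisor.degree_single, Divisor.degree_single, hdeg P] at h
    simp only [Nat.cast_one, mul_one, nsmul_eq_mul] at h
    have h2 : ((l : ℤ) + 1) ≤ (finrank K (riemannRochSpace
        (l • Finsupp.single P 1 + Finsupp.single P (g : ℤ))) : ℤ) := by linarith
    rw [one_mul]
    exact_mod_cast h2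

end Generic

/-! ## The special fibre -/

section Fk

variable (k : Type) [Field k] [IsAlgClosed k] (N : ℕ) [NeZero N]
  (hN : ∀ q : ℕ, q.Prime → q ∣ N → (q : k) ≠ 0)
include hN

theorem hres_fullC (v : Place k (modularFunctionFieldFullC k N)) :
    Function.Surjective (algebraMap k v.ResidueField) :=
  residue_surjective_of_deg v (Fermat.Agent.S18.helper4307.place_deg_eq_one_fullC k N hN v)

theorem riemannData_fullC : helper3372.RiemannData k (modularFunctionFieldFullC k N) :=
  riemannData_of_inequality (Fermat.Agent.S18.helper4307.place_deg_eq_one_fullC k N hN)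
    (Fermat.Agent.S18.helper36.qPlaceK k N) _
    (Fermat.Agent.S18.helper36.exists_forall_finrank_eq_K k N hN).1

theorem finite_L_zero_fullC :
    Module.Finite k ↥(riemannRochSpace (0 : Divisor k (modularFunctionFieldFullC k N))) :=
  helper3372.finite_riemannRochSpace (Fermat.Agent.S18.helper4307.hasPrincipalDivisors_fullC k N hN)
    (hres_fullC k N hN) (Fermat.Agent.S18.helper4307.place_deg_eq_one_fullC k N hN)
    ⟨Fermat.Agent.S18.helper36.qPlaceK k N⟩ 0

theorem finite_H1_zero_fullC :
    Module.Finite k (H1 (0 : Divisor k (modularFunctionFieldFullC k N))) :=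
  helper3372.finite_H1 (Fermat.Agent.S18.helper4307.hasPrincipalDivisors_fullC k N hN)
    (hres_fullC k N hN) (Fermat.Agent.S18.helper4307.place_deg_eq_one_fullC k N hN)
    ⟨Fermat.Agent.S18.helper36.qPlaceK k N⟩ (riemannData_fullC k N hN) 0

/-- **The residue theorem on the special fibre** (any characteristic):
`coeff_0 (x · θ y) = 0`... in local form: the local Tate residue at the cusp `∞` is the formal
residue of the `q`-expansions. -/
theorem tres_qPlaceK_eq_fres (f g : modularFunctionFieldFullC k N) :
    tres (helper9330.single (Fermat.Agent.S18.helper36.qPlaceK k N) f) (helper3372.const k g)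
      = fres (f : LaurentSeries k) (g : LaurentSeries k) :=
  tres_single_const_eq_fres (Fermat.Agent.S18.helper4307.hasPrincipalDivisors_fullC k N hN)
    (hres_fullC k N hN) (Fermat.Agent.S18.helper4307.place_deg_eq_one_fullC k N hN)
    (Fermat.Agent.S18.helper36.qPlaceK k N) (modularFunctionFieldFullC k N).val
    (fun _ hx => Fermat.Agent.S18.helper36.qPlaceK_ord k N hx) f g

/-- **(RT) on the special fibre.**  `k` algebraically closed of characteristic `p`, `φ ψ ∈ Fk`
with `φ` regular off the cusp `∞` and `p ∣ ord_w ψ` at every place `w ≠ ∞`: the constant term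
of `φ · ψ⁻¹ · θ ψ` vanishes. -/
theorem coeff_zero_mul_dlog_eq_zero_fullC (p : ℕ) [CharP k p]
    (φ ψ : modularFunctionFieldFullC k N) (hψ : ψ ≠ 0)
    (hφ : ∀ w : Place k (modularFunctionFieldFullC k N),
      w ≠ Fermat.Agent.S18.helper36.qPlaceK k N → φ = 0 ∨ 0 ≤ w.ord φ)
    (hpψ : ∀ w : Place k (modularFunctionFieldFullC k N),
      w ≠ Fermat.Agent.S18.helper36.qPlaceK k N → (p : ℤ) ∣ w.ord ψ) :
    ((φ : LaurentSeries k) * (ψ : LaurentSeries k)⁻¹ * thetaFun k (ψ : LaurentSeries k)).coeff 0
      = 0 :=
  coeff_zero_mul_dlog_eq_zero (Fermat.Agent.S18.helper4307.hasPrincipalDivisors_fullC k N hN)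
    (hres_fullC k N hN) (Fermat.Agent.S18.helper4307.place_deg_eq_one_fullC k N hN)
    (finite_L_zero_fullC k N hN) (finite_H1_zero_fullC k N hN)
    (Fermat.Agent.S18.helper36.qPlaceK k N) (modularFunctionFieldFullC k N).val
    (fun _ hx => Fermat.Agent.S18.helper36.qPlaceK_ord k N hx) p φ ψ hψ hφ hpψ

/-- The same with the logarithmic derivative written `θ ψ / ψ` (the shape of
`S44.helper4264.dlogPS` / `S44.helper2976.Ann`). -/
theorem coeff_zero_mul_dlog_div_fullC (p : ℕ) [CharP k p]
    (φ ψ : modularFunctionFieldFullC k N) (hψ : ψ ≠ 0)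
    (hφ : ∀ w : Place k (modularFunctionFieldFullC k N),
      w ≠ Fermat.Agent.S18.helper36.qPlaceK k N → φ = 0 ∨ 0 ≤ w.ord φ)
    (hpψ : ∀ w : Place k (modularFunctionFieldFullC k N),
      w ≠ Fermat.Agent.S18.helper36.qPlaceK k N → (p : ℤ) ∣ w.ord ψ) :
    ((φ : LaurentSeries k) * (thetaFun k (ψ : LaurentSeries k) / (ψ : LaurentSeries k))).coeff 0
      = 0 := by
  have h := coeff_zero_mul_dlog_eq_zero_fullC k N hN p φ ψ hψ hφ hpψ
  have e : (φ : LaurentSeries k) * (thetaFun k (ψ : LaurentSeries k) / (ψ : LaurentSeries k))
      = (φ : LaurentSeries k) * (ψ : LaurentSeries k)⁻¹ * thetaFun k (ψ : LaurentSeries k) := by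
    rw [div_eq_mul_inv]
    ring
  rw [e]
  exact h

/-- **The residue theorem on the special fibre** for two functions regular off the cusp `∞`
(any characteristic): `coeff_0 (a · θ b) = 0`  ("`res_∞ (a db) = 0`"). -/
theorem coeff_zero_mul_theta_eq_zero_fullC (a b : modularFunctionFieldFullC k N)
    (ha : ∀ w : Place k (modularFunctionFieldFullC k N),
      w ≠ Fermat.Agent.S18.helper36.qPlaceK k N → a = 0 ∨ 0 ≤ w.ord a)
    (hb : ∀ w : Place k (modularFunctionFieldFullC k N),
      w ≠ Fermat.Agent.S18.helper36.qPlaceK k N → b = 0 ∨ 0 ≤ w.ord b) :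
    ((a : LaurentSeries k) * thetaFun k (b : LaurentSeries k)).coeff 0 = 0 := by
  have hP := Fermat.Agent.S18.helper4307.hasPrincipalDivisors_fullC k N hN
  have hres := hres_fullC k N hN
  have hdeg := Fermat.Agent.S18.helper4307.place_deg_eq_one_fullC k N hN
  set v := Fermat.Agent.S18.helper36.qPlaceK k N with hv
  have h0 := tres_const_const hP hres hdeg (finite_L_zero_fullC k N hN)
    (finite_H1_zero_fullC k N hN) a b
  have e : helper3372.const k a = helper9330.single v a
      + (1 - helper9330.single v (1 : modularFunctionFieldFullC k N)) * helper3372.const k a := by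
    rw [single_eq_mul_const v a]
    ring
  have h1 : tres ((1 - helper9330.single v (1 : modularFunctionFieldFullC k N))
      * helper3372.const k a) (helper3372.const k b) = 0 := by
    have hee := single_one_mul_self (K := k) v
    have hee' : (1 - helper9330.single v (1 : modularFunctionFieldFullC k N))
        * (1 - helper9330.single v (1 : modularFunctionFieldFullC k N))
        = 1 - helper9330.single v (1 : modularFunctionFieldFullC k N) := by
      calc (1 - helper9330.single v (1 : modularFunctionFieldFullC k N))
            * (1 - helper9330.single v (1 : modularFunctionFieldFullC k N))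
          = 1 - helper9330.single v (1 : modularFunctionFieldFullC k N)
            - helper9330.single v (1 : modularFunctionFieldFullC k N)
            + helper9330.single v (1 : modularFunctionFieldFullC k N)
              * helper9330.single v (1 : modularFunctionFieldFullC k N) := by ring
        _ = 1 - helper9330.single v (1 : modularFunctionFieldFullC k N) := by rw [hee]; ring
    rw [tres_loc hP hres hdeg hee']
    refine tres_eq_zero_of_mem ?_ ?_
    · rw [mem_A0_iff]
      intro w
      rw [coe_mul_apply, helper9330.coe_sub, coe_one_apply, helper3372.coe_const_apply]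
      by_cases hw : w = v
      · rw [hw, helper9330.single_apply_same, sub_self, zero_mul, map_zero]
        exact zero_le
      · rw [helper9330.single_apply_ne hw, sub_zero, one_mul]
        exact w.adicValuation_le_one_iff.mpr (ha w hw)
    · rw [mem_A0_iff]
      intro w
      rw [coe_mul_apply, helper9330.coe_sub, coe_one_apply, helper3372.coe_const_apply]
      by_cases hw : w = v
      · rw [hw, helper9330.single_apply_same, sub_self, zero_mul, map_zero]
        exact zero_le
      · rw [helper9330.single_apply_ne hw, sub_zero, one_mul]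
        exact w.adicValuation_le_one_iff.mpr (hb w hw)
  rw [e, tres_add_left hP hres hdeg, h1, add_zero, hv, tres_qPlaceK_eq_fres k N hN] at h0
  exact h0

end Fk

end

end Fermat.Agent.S44.helper923
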