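/-
helper9651 — S44, backup of (EMBED): descent of a common eigenvector from `κ ⊗[ℤ] V` to `V`.

`V` an abelian group killed by a prime `p`, `κ` a field of characteristic `p`, `T j` a family of
endomorphisms of `V` and `a j` integers.  If some nonzero `x : κ ⊗[ℤ] V` satisfies
`(T j ⊗ 1) x = a j • x` for all `j`, then some nonzero `y : V` satisfies `T j y = a j • y` for
all `j`.  (Coordinates with respect to an `𝔽_p`-basis of `κ`.)
-/
import Mathlib

set_option autoImplicit false

open scoped TensorProduct

namespace Fermat.Agent.S44.helper9651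

section Descent

variable {p : ℕ} [Fact p.Prime] {κ : Type*} [CommRing κ] [Algebra (ZMod p) κ]
variable {V : Type*} [AddCommGroup V]

/-- A `ZMod p`-scalar acts on a `p`-torsion group as its value. -/
theorem zmod_smul_eq_val (hV : ∀ v : V, p • v = 0) (s : ZMod p) (v : V) :
    (AddCommGroup.zmodModule hV).toSMul.smul s v = s.val • v := by
  let _ : Module (ZMod p) V := AddCommGroup.zmodModule hV
  change s • v = s.val • v
  conv_lhs => rw [← ZMod.natCast_zmod_val s]
  rw [Nat.cast_smul_eq_nsmul]

/-- The `i`-th coordinate map `κ ⊗[ℤ] V → V` with respect to an `𝔽_p`-basis of `κ`. -/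
noncomputable def coordMap (hV : ∀ v : V, p • v = 0) {I : Type*}
    (b : Module.Basis I (ZMod p) κ) (i : I) : κ ⊗[ℤ] V →+ V :=
  letI := AddCommGroup.zmodModule hV
  (TensorProduct.lift
    (LinearMap.mk₂ ℤ (fun (a : κ) (v : V) => b.coord i a • v)
      (fun a a' v => by simp only [map_add, add_smul])
      (fun c a v => by simp only [map_zsmul, smul_assoc])
      (fun a v v' => by simp only [smul_add])
      (fun c a v => by rw [smul_comm]))).toAddMonoidHom

theorem coordMap_tmul (hV : ∀ v : V, p • v = 0) {I : Type*}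
    (b : Module.Basis I (ZMod p) κ) (i : I) (a : κ) (v : V) :
    coordMap hV b i (a ⊗ₜ[ℤ] v) = (b.repr a i).val • v := by
  rw [← zmod_smul_eq_val hV]
  rfl

/-- Coordinates commute with `S ⊗ 1`. -/
theorem coordMap_baseChange (hV : ∀ v : V, p • v = 0) {I : Type*}
    (b : Module.Basis I (ZMod p) κ) (i : I) (S : Module.End ℤ V)
    (x : κ ⊗[ℤ] V) : coordMap hV b i (S.baseChange κ x) = S (coordMap hV b i x) := by
  induction x using TensorProduct.induction_on with
  | zero => simp only [map_zero]
  | tmul a v => rw [LinearMap.baseChange_tmul, coordMap_tmul, coordMap_tmul, map_nsmul]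
  | add x y hx hy => simp only [map_add, hx, hy]

/-- Every tensor is recovered from its coordinates. -/
theorem exists_finset_eq_sum_coordMap (hV : ∀ v : V, p • v = 0) {I : Type*}
    (b : Module.Basis I (ZMod p) κ) (x : κ ⊗[ℤ] V) :
    ∃ s : Finset I, ∀ s' : Finset I, s ⊆ s' →
      x = ∑ i ∈ s', b i ⊗ₜ[ℤ] coordMap hV b i x := by
  classical
  induction x using TensorProduct.induction_on with
  | zero => exact ⟨∅, fun s' _ => by simp only [map_zero, TensorProduct.tmul_zero,
      Finset.sum_const_zero]⟩
  | tmul a v =>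
    refine ⟨(b.repr a).support, fun s' hs' => ?_⟩
    have h1 : a = ∑ i ∈ s', b.repr a i • b i := by
      conv_lhs => rw [← b.linearCombination_repr a]
      rw [Finsupp.linearCombination_apply, Finsupp.sum]
      refine Finset.sum_subset hs' (fun i _ hi => ?_)
      rw [Finsupp.notMem_support_iff.mp hi, zero_smul]
    conv_lhs => rw [h1]
    rw [TensorProduct.sum_tmul]
    refine Finset.sum_congr rfl (fun i _ => ?_)
    rw [coordMap_tmul]
    have h2 : b.repr a i • b i = (b.repr a i).val • b i := by
      conv_lhs => rw [← ZMod.natCast_zmod_val (b.repr a i)]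
      rw [Nat.cast_smul_eq_nsmul]
    rw [h2, ← natCast_zsmul, ← natCast_zsmul v, TensorProduct.smul_tmul]
  | add x y hx hy =>
    obtain ⟨sx, hsx⟩ := hx
    obtain ⟨sy, hsy⟩ := hy
    refine ⟨sx ∪ sy, fun s' hs' => ?_⟩
    have hx' := hsx s' (Finset.union_subset_left hs')
    have hy' := hsy s' (Finset.union_subset_right hs')
    conv_lhs => rw [hx', hy']
    rw [← Finset.sum_add_distrib]
    refine Finset.sum_congr rfl (fun i _ => ?_)
    rw [map_add, TensorProduct.tmul_add]

/-- A tensor all of whose coordinates vanish is zero. -/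
theorem eq_zero_of_coordMap_eq_zero (hV : ∀ v : V, p • v = 0) {I : Type*}
    (b : Module.Basis I (ZMod p) κ) (x : κ ⊗[ℤ] V)
    (h : ∀ i, coordMap hV b i x = 0) : x = 0 := by
  obtain ⟨s, hs⟩ := exists_finset_eq_sum_coordMap hV b x
  rw [hs s (Finset.Subset.refl s)]
  refine Finset.sum_eq_zero (fun i _ => ?_)
  rw [h i, TensorProduct.tmul_zero]

end Descent

/-- **Descent of a common eigenvector.**  `V` killed by `p`, `κ` a field of characteristic `p`.
A nonzero `x : κ ⊗[ℤ] V` with `(T j ⊗ 1) x = a j • x` (`a j : ℤ`) for all `j` yields a nonzero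
`y : V` with `T j y = a j • y` for all `j`. -/
theorem exists_eigen_of_baseChange {p : ℕ} [Fact p.Prime] {κ : Type*} [Field κ] [CharP κ p]
    {V : Type*} [AddCommGroup V] (hV : ∀ v : V, p • v = 0) {ι : Type*}
    (T : ι → Module.End ℤ V) (a : ι → ℤ) (x : κ ⊗[ℤ] V) (hx : x ≠ 0)
    (hT : ∀ j, (T j).baseChange κ x = (a j : κ) • x) :
    ∃ y : V, y ≠ 0 ∧ ∀ j, T j y = a j • y := by
  classical
  let _ : Algebra (ZMod p) κ := ZMod.algebra κ p
  let b := Module.Basis.ofVectorSpace (ZMod p) κ
  have hex : ∃ i, coordMap hV b i x ≠ 0 := by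
    by_contra hcon
    simp only [not_exists, not_not] at hcon
    exact hx (eq_zero_of_coordMap_eq_zero hV b x hcon)
  obtain ⟨i, hi⟩ := hex
  refine ⟨coordMap hV b i x, hi, fun j => ?_⟩
  rw [← coordMap_baseChange, hT j, Int.cast_smul_eq_zsmul, map_zsmul]

end Fermat.Agent.S44.helper9651
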