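/-
helper9651 — S44, backup of (EMBED): the abstract wiring onto Boston–Lenstra–Ribet.

`V` an irreducible plane over `𝔽_p` with an action `ρV` of a group `G`; `J` an abelian group with
a `G`-action and `M ⊆ J` a nonzero `G`-stable subgroup killed by `p`; `χ : G → 𝔽_pˣ` a character
with `χ c = -1` for an involution `c`.  If every `g` acts on `V`, on `M` and through `χ` like a
power `h ^ n` of an element `h` killed on `V` and on `M` by a common quadratic `X² - t X + χ h`
(Frobenius elements: Eichler–Shimura on both sides + Chebotarev), then `V` embeds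
`G`-equivariantly into `J` with image inside `M`.
-/
import Fermat.Agent.S44.helper929_BLR

set_option autoImplicit false

namespace Fermat.Agent.S44.helper9651

section Abstract

variable {G : Type*} [Group G] {p : ℕ} [Fact p.Prime]
variable {V : Type*} [AddCommGroup V] [Module (ZMod p) V]
variable {J : Type*} [AddCommGroup J] [DistribMulAction G J]

/-- The action of `g` on a `G`-stable subgroup, as an additive endomorphism. -/
def stableAct (M : AddSubgroup J) (hMG : ∀ (g : G), ∀ z ∈ M, g • z ∈ M) (g : G) : M →+ M where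
  toFun z := ⟨g • (z : J), hMG g z z.2⟩
  map_zero' := Subtype.ext (by simp)
  map_add' x y := Subtype.ext (by simp)

theorem coe_stableAct (M : AddSubgroup J) (hMG : ∀ (g : G), ∀ z ∈ M, g • z ∈ M) (g : G) (z : M) :
    ((stableAct M hMG g z : M) : J) = g • (z : J) := rfl

/-- **Abstract (EMBED), generator form.** -/
theorem exists_embedding_of_generator_quadratic
    (hp2 : p ≠ 2) (hV : Module.finrank (ZMod p) V = 2)
    (ρV : G →* Module.End (ZMod p) V)
    (hirr : ∀ W : Submodule (ZMod p) V, (∀ g, ∀ x ∈ W, ρV g x ∈ W) → W = ⊥ ∨ W = ⊤)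
    (M : AddSubgroup J) (hMp : ∀ z ∈ M, p • z = 0) (hMG : ∀ (g : G), ∀ z ∈ M, g • z ∈ M)
    (hM0 : ∃ z ∈ M, z ≠ 0)
    (χ : G →* (ZMod p)ˣ) (c : G) (hc : c * c = 1) (hχc : χ c = -1)
    (hq : ∀ g, ∃ (h : G) (n : ℕ) (t e : ℤ), ρV (h ^ n) = ρV g ∧ (∀ z ∈ M, h ^ n • z = g • z) ∧
      χ (h ^ n) = χ g ∧ (e : ZMod p) = (χ h : ZMod p) ∧
      ρV h * ρV h - (t : ZMod p) • ρV h + (χ h : ZMod p) • (1 : Module.End (ZMod p) V) = 0 ∧
      ∀ z ∈ M, h • h • z - t • h • z + e • z = 0) :
    ∃ φ : V →+ J, Function.Injective φ ∧ (∀ g v, φ (ρV g v) = g • φ v) ∧ ∀ v, φ v ∈ M := by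
  classical
  have instM : Module (ZMod p) M :=
    AddCommGroup.zmodModule (n := p) (fun x => Subtype.ext (by
      rw [AddSubgroup.coe_nsmul]; exact hMp x x.2))
  let ψ : G →* Module.End (ZMod p) M :=
    { toFun := fun g => AddMonoidHom.toZModLinearMap p (stableAct M hMG g)
      map_one' := by
        apply LinearMap.ext
        intro z
        apply Subtype.ext
        change (1 : G) • (z : J) = z
        rw [one_smul]
      map_mul' := by
        intro g h
        apply LinearMap.ext
        intro z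
        apply Subtype.ext
        change (g * h) • (z : J) = g • h • (z : J)
        rw [mul_smul] }
  have hψ : ∀ (g : G) (z : M), ((ψ g z : M) : J) = g • (z : J) := fun g z => rfl
  have hnt : Nontrivial M := by
    obtain ⟨z, hz, hz0⟩ := hM0
    exact ⟨⟨⟨z, hz⟩, 0, fun h => hz0 (congrArg Subtype.val h)⟩⟩
  have h2 : (2 : ZMod p) ≠ 0 := by
    intro h
    have h1 : p ∣ 2 := (ZMod.natCast_eq_zero_iff 2 p).mp (by exact_mod_cast h)
    have h3 := Nat.le_of_dvd (by norm_num) h1
    have h4 := (Fact.out : p.Prime).two_le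
    omega
  have hq' : ∀ g, ∃ (h : G) (n : ℕ) (t : ZMod p), ρV (h ^ n) = ρV g ∧ ψ (h ^ n) = ψ g ∧
      χ (h ^ n) = χ g ∧
      ρV h * ρV h - t • ρV h + (χ h : ZMod p) • (1 : Module.End (ZMod p) V) = 0 ∧
      ψ h * ψ h - t • ψ h + (χ h : ZMod p) • (1 : Module.End (ZMod p) M) = 0 := by
    intro g
    obtain ⟨h, n, t, e, e1, e2, e3, he, q1, q2⟩ := hq g
    refine ⟨h, n, (t : ZMod p), e1, ?_, e3, q1, ?_⟩
    · apply LinearMap.ext
      intro z
      apply Subtype.ext
      rw [hψ, hψ]
      exact e2 z z.2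
    · apply LinearMap.ext
      intro z
      apply Subtype.ext
      have key := q2 z z.2
      rw [← he]
      simp only [LinearMap.add_apply, LinearMap.sub_apply, LinearMap.smul_apply,
        Module.End.mul_apply, Module.End.one_apply, LinearMap.zero_apply]
      rw [Int.cast_smul_eq_zsmul, Int.cast_smul_eq_zsmul]
      simp only [AddSubgroup.coe_add, AddSubgroup.coe_sub, AddSubgroup.coe_zsmul, hψ,
        AddSubgroup.coe_zero]
      exact key
  obtain ⟨⟨j, hjinj, hjeq⟩, -, -⟩ :=
    Fermat.Agent.S44.helper929.exists_equivariant_injective_of_generator_quadratic h2 hV ρV hirr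
      ψ χ hq' c hc hχc
  refine ⟨M.subtype.comp j.toAddMonoidHom, ?_, ?_, ?_⟩
  · intro v w hvw
    apply hjinj
    apply Subtype.ext
    exact hvw
  · intro g v
    change ((j (ρV g v) : M) : J) = g • ((j v : M) : J)
    rw [hjeq g v, hψ]
  · intro v
    exact (j v).2

end Abstract

end Fermat.Agent.S44.helper9651
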