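/-
helper9651 — S44, backup copy of (EMBED) (module L8-MACHINE of the S44 blueprint).

For a Frey package `P` with `E[p]` irreducible and `P.ModularRepOfLevel N`: the `p`-torsion of
the Frey curve embeds `Gal(ℚ̄/ℚ)`-equivariantly into `JZero N`, with image inside the subgroup of
`p`-torsion classes on which `T_l` acts by `a_l(W)` for every prime `l ∤ N p` of good reduction
of the integral model `W` of `hmod`.

Far-end wiring of landed/compiled bricks, nothing new proved inside: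
* (OCC) the landed `S29.helper1590.stmt_Occ_of_multSpec` at the residue field of `𝔪`
  (`S29.helper6752.exists_residue_field`), followed by the `𝔽_p`-descent of
  `helper9651_EigenDescent`;
* Galois-stability (`S29.helper5500.galois_smul_heckeOperatorBar`), finite level
  (`S29.helper8527.exists_finiteLevel_of_finite`, `S29.helper288.finite_torsion_JZero`) and
  Eichler–Shimura (`S30.helper54.stmt_ESMod`) on the eigen-subgroup;
* generator-Chebotarev with the Frobenius relation on `E[p]` (`helper2984.exists_frob_pow_quad`,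
  `S58.helper5765.frob_relation_of_isIntegralModelOf`);
* Boston–Lenstra–Ribet in generator form (`helper929`, through `helper9651_EmbedCore`).
-/
import Fermat.Agent.S44.helper9651_EigenDescent
import Fermat.Agent.S44.helper9651_EmbedCore
import Fermat.Agent.S44.helper2984_OddSpanQ
import Fermat.Agent.S29.helper5782_Final
import Fermat.Agent.S29.helper288_FinTorsion
import Fermat.Agent.S30.helper54_MachineExport

set_option autoImplicit false

open scoped TensorProduct
open WeierstrassCurve WeierstrassCurve.Affine WeierstrassCurve.Affine.Point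
open ModularCurve CuspForm

namespace Fermat.Agent.S44.helper9651

local notation "Qb" => AlgebraicClosure ℚ
local notation "GQ" => (AlgebraicClosure ℚ ≃ₐ[ℚ] AlgebraicClosure ℚ)
local notation "Zc" => integralClosure ℤ ℂ

/-! ### (OCC) over `𝔽_p` -/

/-- **Occurrence over `𝔽_p`.**  If a normalised eigenform `f` of level `N` is congruent modulo a
maximal ideal `𝔪 ∋ p` to the integers `a_l(W)` at the good primes, then `JZero N` has a nonzero
`p`-torsion class on which `T_l` acts by `a_l(W)` for all good `l ∤ N p`. -/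
theorem exists_torsion_eigen {N : ℕ} [NeZero N] {p : ℕ} (hp : p.Prime)
    (W : WeierstrassCurve ℤ)
    (f : CuspForm (CongruenceSubgroup.Gamma0 N) 2) (𝔪 : Ideal Zc)
    (hf : f.IsNormalizedEigenform) (hmax : 𝔪.IsMaximal) (hpm : (p : Zc) ∈ 𝔪)
    (hcong : ∀ ℓ : ℕ, ℓ.Prime → W.IsGoodPrimeFor ℓ → ¬ ℓ ∣ N → ℓ ≠ p →
      ∃ a : Zc, (a : ℂ) = ModularFormClass.qCoeff f ℓ ∧
        a - ((W.apOfModel ℓ : ℤ) : Zc) ∈ 𝔪) :
    ∃ z : JZero N, z ≠ 0 ∧ p • z = 0 ∧
      ∀ (l : ℕ) (hl : l.Prime), ¬ l ∣ N → W.IsGoodPrimeFor l → l ≠ p →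
        heckeOperatorBar N ⟨l, hl⟩ z = W.apOfModel l • z := by
  classical
  have hpF : Fact p.Prime := ⟨hp⟩
  have hmax' := hmax
  let instFq : Field (Zc ⧸ 𝔪) := Ideal.Quotient.field 𝔪
  have hchar : CharP (Zc ⧸ 𝔪) p := by
    refine (CharP.charP_iff_prime_eq_zero hp).mpr ?_
    rw [← map_natCast (Ideal.Quotient.mk 𝔪)]
    exact Ideal.Quotient.eq_zero_iff_mem.mpr hpm
  obtain ⟨κ, instF, instAC, instCh, ψ, ι, hι, hψ⟩ :=
    Fermat.Agent.S29.helper6752.exists_residue_field (Ideal.Quotient.mk 𝔪) p hp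
  have hker : ∀ a ∈ 𝔪, ψ a = 0 := by
    intro a ha
    have h1 : ι (ψ a) = 0 := by
      have h2 : (ι.comp ψ) a = Ideal.Quotient.mk 𝔪 a := by rw [hι]
      rw [RingHom.comp_apply] at h2
      rw [h2]
      exact Ideal.Quotient.eq_zero_iff_mem.mpr ha
    exact (map_eq_zero ι).mp h1
  obtain ⟨x, hx0, hx⟩ := Fermat.Agent.S29.helper1590.stmt_Occ_of_multSpec
    Fermat.Agent.S29.helper5782.multSpecAll N f hf p hp κ ψ hψ
  have hV : ∀ v : Submodule.torsionBy ℤ (JZero N) (p : ℤ), p • v = 0 := by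
    intro v
    apply Subtype.ext
    have h := (Submodule.mem_torsionBy_iff _ _).mp v.2
    rw [natCast_zsmul] at h
    rw [Submodule.coe_smul_of_tower, Submodule.coe_zero]
    exact h
  obtain ⟨y, hy0, hy⟩ := exists_eigen_of_baseChange (κ := κ) hV
    (fun j : {l : Nat.Primes // ¬ (l : ℕ) ∣ N ∧ W.IsGoodPrimeFor l ∧ (l : ℕ) ≠ p} =>
      Fermat.Agent.S29.helper405.torsRestrict (p : ℤ) (heckeOperatorBar N j.1))
    (fun j => W.apOfModel j.1) x hx0 (fun j => by
      obtain ⟨a, ha, ham⟩ := hcong j.1 j.1.2 j.2.2.1 j.2.1 j.2.2.2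
      have hnd : ¬ ((j.1 : Nat.Primes) : ℕ) ∣ N * p := by
        intro hd
        rcases (Nat.Prime.dvd_mul j.1.2).mp hd with h | h
        · exact j.2.1 h
        · exact j.2.2.2 ((Nat.prime_dvd_prime_iff_eq j.1.2 hp).mp h)
      have h3 := hx j.1 hnd a ha
      have h4 : ψ a = ((W.apOfModel j.1 : ℤ) : κ) := by
        have h5 := hker _ ham
        rw [map_sub, map_intCast] at h5
        exact sub_eq_zero.mp h5
      rw [h3, h4])
  refine ⟨(y : JZero N), fun h => hy0 (Subtype.ext h), ?_, ?_⟩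
  · have h := (Submodule.mem_torsionBy_iff _ _).mp y.2
    rwa [natCast_zsmul] at h
  · intro l hl hlN hgood hlp
    have h := congrArg Subtype.val (hy ⟨⟨l, hl⟩, hlN, hgood, hlp⟩)
    rw [Fermat.Agent.S29.helper405.coe_torsRestrict_apply] at h
    rw [h]
    rfl

/-! ### The eigen-subgroup -/

/-- The subgroup of `p`-torsion classes of `JZero N` on which `T_l` acts by `a_l(W)` for every
prime `l ∤ N p` of good reduction of `W`. -/
def eigenSubgroup (N : ℕ) [NeZero N] (p : ℕ) (W : WeierstrassCurve ℤ) : AddSubgroup (JZero N) where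
  carrier := {z | p • z = 0 ∧ ∀ (l : ℕ) (hl : l.Prime), ¬ l ∣ N → W.IsGoodPrimeFor l → l ≠ p →
    heckeOperatorBar N ⟨l, hl⟩ z = W.apOfModel l • z}
  zero_mem' := ⟨nsmul_zero _, fun l hl _ _ _ => by rw [_root_.map_zero, zsmul_zero]⟩
  add_mem' := fun {a b} ha hb => ⟨by rw [nsmul_add, ha.1, hb.1, add_zero],
    fun l hl h1 h2 h3 => by
      rw [_root_.map_add, ha.2 l hl h1 h2 h3, hb.2 l hl h1 h2 h3, zsmul_add]⟩
  neg_mem' := fun {a} ha => ⟨by rw [neg_nsmul, ha.1, _root_.neg_zero],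
    fun l hl h1 h2 h3 => by rw [_root_.map_neg, ha.2 l hl h1 h2 h3, zsmul_neg]⟩

theorem mem_eigenSubgroup {N : ℕ} [NeZero N] {p : ℕ} {W : WeierstrassCurve ℤ} {z : JZero N} :
    z ∈ eigenSubgroup N p W ↔ p • z = 0 ∧ ∀ (l : ℕ) (hl : l.Prime), ¬ l ∣ N →
      W.IsGoodPrimeFor l → l ≠ p → heckeOperatorBar N ⟨l, hl⟩ z = W.apOfModel l • z :=
  Iff.rfl

/-- The eigen-subgroup is Galois-stable. -/
theorem smul_mem_eigenSubgroup {N : ℕ} [NeZero N] {p : ℕ} {W : WeierstrassCurve ℤ} (g : GQ)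
    {z : JZero N} (hz : z ∈ eigenSubgroup N p W) : g • z ∈ eigenSubgroup N p W := by
  refine ⟨?_, fun l hl h1 h2 h3 => ?_⟩
  · have h := _root_.map_nsmul (DistribSMul.toAddMonoidHom (JZero N) g) p z
    rw [DistribSMul.toAddMonoidHom_apply, DistribSMul.toAddMonoidHom_apply] at h
    rw [← h, hz.1, smul_zero]
  · rw [← Fermat.Agent.S29.helper5500.galois_smul_heckeOperatorBar N ⟨l, hl⟩ g z,
      hz.2 l hl h1 h2 h3]
    have h := _root_.map_zsmul (DistribSMul.toAddMonoidHom (JZero N) g) (W.apOfModel l) z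
    rw [DistribSMul.toAddMonoidHom_apply, DistribSMul.toAddMonoidHom_apply] at h
    exact h

/-! ### (EMBED) -/

open Fermat.Agent.Lib.helper1397 in
/-- **(EMBED), backup copy.**  For a Frey package with irreducible `E[p]` which is modular of
level `N`: an injective, Galois-equivariant homomorphism from the `p`-torsion of the Frey curve
to `JZero N`, with image in the `p`-torsion eigen-subgroup for the eigenvalues `a_l(W)`, `W` the
integral model of `hmod`. -/
theorem exists_frey_embedding (P : FreyPackage) {N : ℕ} [NeZero N]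
    (hirr : GaloisRepIsIrreducible (K := AlgebraicClosure ℚ) ℚ P.freyCurve P.p)
    (hmod : P.ModularRepOfLevel N) :
    ∃ (W : WeierstrassCurve ℤ) (_ : W.IsIntegralModelOf P.freyCurve)
      (φ : Submodule.torsionBy ℤ (P.freyCurve⁄Qb).Point P.p →+ JZero N),
      Function.Injective φ ∧ (∀ (σ : GQ) x, φ (σ • x) = σ • φ x) ∧ (∀ x, P.p • φ x = 0) ∧
      ∀ (l : ℕ) (hl : l.Prime), ¬ l ∣ N → W.IsGoodPrimeFor l → l ≠ P.p → ∀ x,
        heckeOperatorBar N ⟨l, hl⟩ (φ x) = W.apOfModel l • φ x := by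
  classical
  obtain ⟨f, W, 𝔪, hf, hW, hmax, hpm, hcong⟩ := hmod
  have hp : P.p.Prime := P.pp
  have hpF : Fact P.p.Prime := ⟨hp⟩
  have hpNe : NeZero P.p := ⟨hp.ne_zero⟩
  have hp2 : P.p ≠ 2 := by
    have := P.hp5
    omega
  have hN0 : N ≠ 0 := NeZero.ne N
  have hΔ : W.Δ ≠ 0 :=
    Fermat.Agent.S44.helper2984.Δ_ne_zero_of_isIntegralModelOf P.freyCurve W hW
  obtain ⟨z₀, hz₀, hpz₀, hTz₀⟩ := exists_torsion_eigen hp W f 𝔪 hf hmax hpm hcong
  -- finite level of the `p`-torsion of `JZero N`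
  obtain ⟨L₀, hL₀fin, hL₀⟩ := Fermat.Agent.S29.helper8527.exists_finiteLevel_of_finite N
    (S := {t : JZero N | P.p • t = 0}) (Fermat.Agent.S29.helper288.finite_torsion_JZero N hp.ne_zero)
  -- the cyclotomic character
  obtain ⟨ζ, hζ⟩ := HasEnoughRootsOfUnity.exists_primitiveRoot Qb P.p
  have hcyc : ∀ σ : GQ, ((hζ.autToPow ℚ σ : (ZMod P.p)ˣ) : ZMod P.p) =
      Fermat.Agent.S44.helper2984.cycChar ζ hζ σ := fun σ => rfl
  obtain ⟨φ, hφinj, hφeq, hφM⟩ := exists_embedding_of_generator_quadratic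
    (G := GQ) (p := P.p) (J := JZero N) hp2
    (Fermat.Agent.S44.helper2984.finrank_torE (E := P.freyCurve) (p := P.p))
    (galoisRepModuleEnd (S := ℚ) (K := AlgebraicClosure ℚ) P.freyCurve P.p)
    (fun U hU => hirr.2 U hU)
    (eigenSubgroup N P.p W) (fun z hz => hz.1) (fun g z hz => smul_mem_eigenSubgroup g hz)
    ⟨z₀, ⟨hpz₀, hTz₀⟩, hz₀⟩
    (hζ.autToPow ℚ) complexConjugation complexConjugation_mul_self
    (by
      apply Units.ext
      rw [hcyc, Fermat.Agent.S44.helper2984.cycChar_complexConjugation hp2 ζ hζ]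
      simp)
    (by
      intro g
      obtain ⟨ℓ, A, τ, j, hℓ, hℓT, hgood, hne, hA, hτ, hL, hE, -, hroot⟩ :=
        Fermat.Agent.S44.helper2984.exists_frob_pow_quad P.freyCurve W hW hΔ P.p hp L₀
          N.primeFactors g
      have hℓF : Fact ℓ.Prime := ⟨hℓ⟩
      have hℓN : ¬ ℓ ∣ N := fun hd => hℓT (Nat.mem_primeFactors.mpr ⟨hℓ, hd, hN0⟩)
      have hcop : Nat.Coprime P.p ℓ := (Nat.coprime_primes hp hℓ).mpr (Ne.symm hne)
      have hℓp : ¬ ℓ ∣ P.p := fun hd => hne ((Nat.prime_dvd_prime_iff_eq hℓ hp).mp hd)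
      have hτζ : τ ζ = ζ ^ ℓ :=
        Fermat.Agent.S58.helper5765.isFrobeniusAt_apply_of_pow_eq_one A hA τ ℓ hτ P.p
          hp.ne_zero hcop ζ hζ.pow_eq_one
      have hχτ : Fermat.Agent.S44.helper2984.cycChar ζ hζ τ = (ℓ : ZMod P.p) :=
        Fermat.Agent.S44.helper2984.cycChar_spec ζ hζ τ ℓ hτζ
      have hχg : Fermat.Agent.S44.helper2984.cycChar ζ hζ g = ((ℓ ^ j : ℕ) : ZMod P.p) :=
        Fermat.Agent.S44.helper2984.cycChar_spec ζ hζ g (ℓ ^ j) (hroot ζ hζ.pow_eq_one)
      refine ⟨τ, j, W.apOfModel ℓ, (ℓ : ℤ), ?_, ?_, ?_, ?_, ?_, ?_⟩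
      · -- `τ ^ j` and `g` agree on `E[p]`
        apply LinearMap.ext
        intro x
        apply Subtype.ext
        have hx : P.p • (x : (P.freyCurve⁄Qb).Point) = 0 := by
          have h := (Submodule.mem_torsionBy_iff _ _).mp x.2
          rwa [natCast_zsmul] at h
        exact (hE x.1 hx).symm
      · -- `τ ^ j` and `g` agree on the eigen-subgroup
        intro z hz
        have hfix : ∀ y ∈ L₀, ((τ ^ j)⁻¹ * g) y = y := by
          intro y hy
          have h1 : (τ ^ j) (((τ ^ j)⁻¹ * g) y) = (τ ^ j) y := by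
            rw [← AlgEquiv.mul_apply, mul_inv_cancel_left, hL y hy]
          exact (τ ^ j).injective h1
        have h2 := hL₀ ((τ ^ j)⁻¹ * g) hfix z hz.1
        have h3 : g • z = τ ^ j • ((τ ^ j)⁻¹ * g) • z := by
          rw [← mul_smul, mul_inv_cancel_left]
        rw [h3, h2]
      · -- the cyclotomic character
        apply Units.ext
        rw [hcyc, hcyc, map_pow, hχτ, hχg]
        push_cast
        rfl
      · rw [hcyc, hχτ]
        simp
      · -- the Frobenius relation on `E[p]`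
        have h := Fermat.Agent.S44.helper2984.rel_end_of_points (E := P.freyCurve) (p := P.p) τ
          (W.apOfModel ℓ) ℓ (fun Pt hPt =>
            Fermat.Agent.S58.helper5765.frob_relation_of_isIntegralModelOf P.freyCurve W hW ℓ
              hgood (fun K _ _ _ _ => Fermat.Agent.Lib.helper1844.frobCH_all ℓ W hgood K)
              A hA τ hτ P.p hcop Pt hPt)
        rw [hcyc, hχτ]
        exact h
      · -- Eichler–Shimura on the eigen-subgroup
        intro z hz
        have hES := Fermat.Agent.S30.helper54.stmt_ESMod N P.p ℓ hℓ hℓN hℓp A hA τ hτ z hz.1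
        rw [(smul_mem_eigenSubgroup τ hz).2 ℓ hℓ hℓN hgood hne, ← natCast_zsmul z ℓ] at hES
        exact hES)
  refine ⟨W, hW, φ, hφinj, fun σ x => hφeq σ x, fun x => (hφM x).1,
    fun l hl h1 h2 h3 x => (hφM x).2 l hl h1 h2 h3⟩

open Fermat.Agent.Lib.helper1397 in
/-- **(EMBED) in the binder shape of the L8 architect** (team_s44_chat #254 (1)): the integral
model first, then the map, then the five clauses as one conjunction. -/
theorem exists_embed (P : FreyPackage) {N : ℕ} [NeZero N]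
    (hirr : GaloisRepIsIrreducible (K := AlgebraicClosure ℚ) ℚ P.freyCurve P.p)
    (hmod : P.ModularRepOfLevel N) :
    ∃ (W : WeierstrassCurve ℤ)
      (φ : Submodule.torsionBy ℤ (P.freyCurve⁄Qb).Point P.p →+ JZero N),
      W.IsIntegralModelOf P.freyCurve ∧ Function.Injective φ ∧
      (∀ (σ : GQ) x, φ (σ • x) = σ • φ x) ∧ (∀ x, P.p • φ x = 0) ∧
      ∀ (ℓ : ℕ) (hℓ : ℓ.Prime), ¬ ℓ ∣ N → W.IsGoodPrimeFor ℓ → ℓ ≠ P.p → ∀ x,
        heckeOperatorBar N ⟨ℓ, hℓ⟩ (φ x) = W.apOfModel ℓ • φ x := by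
  obtain ⟨W, hW, φ, h1, h2, h3, h4⟩ := exists_frey_embedding P hirr hmod
  exact ⟨W, φ, hW, h1, h2, h3, h4⟩

end Fermat.Agent.S44.helper9651
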