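import Mathlib

/-!
# Normalised Hilbert 90 by Poincaré series (group-action form)

Abstract core of the descent step of the cover argument ("L5") for S44.

`E` is a field, `G` any group acting on `E` by ring automorphisms
(`MulSemiringAction G E`).  No Galois theory, no topology on `G`, no index hypothesis:
the only finiteness input is a *finite-level datum* for the element under consideration,
namely a finite `G`-stable set `s` of elements of `E` such that every `σ` fixing `s`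
pointwise fixes the element.

* `exists_poincare`: a 1-cocycle `b : G → Eˣ` (written with nonzero elements) that is
  trivial on the pointwise stabiliser of `s` is a coboundary, with the cobounding
  element inside any `G`-stable subfield containing `s` and the values of `b`.
* `exists_descent`: (A) descent of a `G`-invariant class modulo `p`-th powers to a
  `G`-fixed representative `h * w ^ p`, using a leading-coefficient normalisation `lc`.
* `exists_constant_of_pow_fixed`: (B) if `b ^ p` is `G`-fixed then `b = lam * k` with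
  `lam` a constant and `k` fixed by `G`.
* `exists_deck_constant`: (C) the one-stop corollary for a deck transformation `γ`.
-/

namespace Fermat.Agent.S44.helper9796

variable {E : Type*} [Field E] {G : Type*} [Group G] [MulSemiringAction G E]

/-- The pointwise stabiliser of a set `s` of elements of `E`. -/
def fixer (G : Type*) [Group G] [MulSemiringAction G E] (s : Set E) : Subgroup G where
  carrier := {σ | ∀ c ∈ s, σ • c = c}
  mul_mem' := fun {a b} ha hb c hc => by
    rw [mul_smul, hb c hc, ha c hc]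
  one_mem' := fun c _ => one_smul _ _
  inv_mem' := fun {a} ha c hc => by
    rw [inv_smul_eq_iff, ha c hc]

theorem mem_fixer {s : Set E} {σ : G} : σ ∈ fixer G s ↔ ∀ c ∈ s, σ • c = c := Iff.rfl

/-- The pointwise stabiliser of a finite `G`-stable set has finite index. -/
theorem finite_quotient_fixer {s : Set E} (hs : s.Finite)
    (hsG : ∀ (σ : G), ∀ c ∈ s, σ • c ∈ s) : Finite (G ⧸ fixer G s) := by
  have : Finite s := hs.to_subtype
  let f : G ⧸ fixer G s → (s → s) := fun q =>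
    Quotient.liftOn' q (fun σ c => (⟨σ • (c : E), hsG σ c c.2⟩ : s)) (by
      intro σ τ hστ
      rw [QuotientGroup.leftRel_apply] at hστ
      funext c
      apply Subtype.ext
      have h1 := hστ (c : E) c.2
      rw [mul_smul, inv_smul_eq_iff] at h1
      exact h1.symm)
  apply Finite.of_injective f
  intro q1 q2 h
  induction q1 using QuotientGroup.induction_on with
  | H σ =>
    induction q2 using QuotientGroup.induction_on with
    | H τ =>
      rw [QuotientGroup.eq]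
      intro c hc
      have h1 := congrArg Subtype.val (congrFun h ⟨c, hc⟩)
      have h2 : σ • c = τ • c := h1
      rw [mul_smul, inv_smul_eq_iff]
      exact h2.symm

/-- **Poincaré series / Hilbert 90 in group-action form.**  A cocycle `b` with nonzero
values in a `G`-stable subfield `C`, trivial on the pointwise stabiliser of a finite
`G`-stable subset `s` of `C`, is split by a nonzero element of `C`. -/
theorem exists_poincare (C : Subfield E) (hC : ∀ (σ : G), ∀ x ∈ C, σ • x ∈ C)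
    (s : Set E) (hs : s.Finite) (hsG : ∀ (σ : G), ∀ c ∈ s, σ • c ∈ s) (hsC : s ⊆ C)
    (b : G → E) (hbC : ∀ σ, b σ ∈ C) (hb0 : ∀ σ, b σ ≠ 0)
    (hbc : ∀ σ τ, b (σ * τ) = b σ * σ • b τ)
    (hbN : ∀ σ, (∀ c ∈ s, σ • c = c) → b σ = 1) :
    ∃ w ∈ C, w ≠ 0 ∧ ∀ σ : G, σ • w = (b σ)⁻¹ * w := by
  classical
  have : Finite (G ⧸ fixer G s) := finite_quotient_fixer hs hsG
  have : Fintype (G ⧸ fixer G s) := Fintype.ofFinite _
  -- the monoid of `N`-fixed elements of `C`
  let M : Submonoid E :=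
    { carrier := {z | z ∈ C ∧ ∀ n ∈ fixer G s, n • z = z}
      mul_mem' := fun {x y} hx hy =>
        ⟨C.mul_mem hx.1 hy.1, fun n hn => by rw [smul_mul', hx.2 n hn, hy.2 n hn]⟩
      one_mem' := ⟨C.one_mem, fun n _ => smul_one n⟩ }
  -- right invariance of the terms
  have hterm : ∀ (z : E), (∀ n ∈ fixer G s, n • z = z) → ∀ (τ : G) (n : G), n ∈ fixer G s →
      b (τ * n) * (τ * n) • z = b τ * τ • z := by
    intro z hz τ n hn
    rw [hbc, hbN n hn, smul_one, mul_one, mul_smul, hz n hn]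
  have hout : ∀ (z : E), (∀ n ∈ fixer G s, n • z = z) → ∀ (τ : G),
      b ((QuotientGroup.mk τ : G ⧸ fixer G s).out) * ((QuotientGroup.mk τ : G ⧸ fixer G s).out) • z
        = b τ * τ • z := by
    intro z hz τ
    have h1 : τ⁻¹ * (QuotientGroup.mk τ : G ⧸ fixer G s).out ∈ fixer G s := by
      rw [← QuotientGroup.eq]
      exact (QuotientGroup.out_eq' _).symm
    have h2 := hterm z hz τ _ h1
    rw [mul_inv_cancel_left] at h2
    exact h2
  -- the characters
  let φ : G ⧸ fixer G s → (M →* E) := fun q =>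
    { toFun := fun z => q.out • (z : E)
      map_one' := smul_one _
      map_mul' := fun x y => smul_mul' _ _ _ }
  have hφ : Function.Injective φ := by
    intro q1 q2 h
    have h1 : q1.out⁻¹ * q2.out ∈ fixer G s := by
      intro c hc
      have hcM : c ∈ M := ⟨hsC hc, fun n hn => hn c hc⟩
      have h2 : q1.out • c = q2.out • c := DFunLike.congr_fun h ⟨c, hcM⟩
      rw [mul_smul, inv_smul_eq_iff]
      exact h2.symm
    rw [← QuotientGroup.eq] at h1
    rw [QuotientGroup.out_eq', QuotientGroup.out_eq'] at h1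
    exact h1
  have hli : LinearIndependent E (fun q : G ⧸ fixer G s => ((φ q : M →* E) : M → E)) :=
    (linearIndependent_monoidHom M E).comp φ hφ
  -- nonvanishing of the Poincaré series
  have hex : ∃ z : M, ∑ q : G ⧸ fixer G s, b q.out * q.out • (z : E) ≠ 0 := by
    by_contra hcon
    have hall : ∀ z : M, ∑ q : G ⧸ fixer G s, b q.out * q.out • (z : E) = 0 := fun z => by
      by_contra h
      exact hcon ⟨z, h⟩
    have h0 : ∑ q : G ⧸ fixer G s, b q.out • ((φ q : M →* E) : M → E) = 0 := by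
      funext z
      simp only [Finset.sum_apply, Pi.smul_apply, smul_eq_mul, Pi.zero_apply]
      exact hall z
    have h1 := Fintype.linearIndependent_iff.mp hli (fun q => b q.out) h0
      (QuotientGroup.mk 1)
    exact hb0 _ h1
  obtain ⟨z, hz⟩ := hex
  refine ⟨∑ q : G ⧸ fixer G s, b q.out * q.out • (z : E), ?_, hz, ?_⟩
  · exact C.sum_mem fun q _ => C.mul_mem (hbC _) (hC _ _ z.2.1)
  · intro σ
    have hzN : ∀ n ∈ fixer G s, n • (z : E) = z := z.2.2
    rw [Finset.smul_sum, Finset.mul_sum]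
    -- reindex by left multiplication by `σ`
    rw [← Equiv.sum_comp (MulAction.toPerm σ : Equiv.Perm (G ⧸ fixer G s))
      (fun q => (b σ)⁻¹ * (b q.out * q.out • (z : E)))]
    refine Finset.sum_congr rfl fun q _ => ?_
    have h1 : (MulAction.toPerm σ : Equiv.Perm (G ⧸ fixer G s)) q
        = (QuotientGroup.mk (σ * q.out) : G ⧸ fixer G s) := by
      conv_lhs => rw [← QuotientGroup.out_eq' q]
      rfl
    rw [h1, hout (z : E) hzN (σ * q.out), hbc, smul_mul', mul_smul]
    field_simp [hb0 σ]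

/-- Uniqueness of normalised `p`-th roots. -/
theorem eq_of_pow_eq_of_lc (p : ℕ) (lc : E →*₀ E) (hlcμ : ∀ ζ : E, ζ ^ p = 1 → lc ζ = ζ)
    {x y : E} (hxy : x ^ p = y ^ p) (hx : lc x = 1) (hy : lc y = 1) : x = y := by
  have hy0 : y ≠ 0 := by
    rintro rfl
    rw [map_zero] at hy
    exact zero_ne_one hy
  have h1 : (x / y) ^ p = 1 := by
    rw [div_pow, hxy, div_self (pow_ne_zero p hy0)]
  have h2 : lc (x / y) = 1 := by
    rw [map_div₀, hx, hy, div_one]
  have h3 : x / y = 1 := by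
    rw [← hlcμ _ h1, h2]
  exact (div_eq_one_iff_eq hy0).mp h3

/-- **(A) Normalised descent.**  Let `h ≠ 0` be normalised (`lc h = 1`) with
`σ • h ∈ h * E ^ p` for every `σ`, and let `s` be a finite-level datum for `h`.
Then there is `w ≠ 0` such that `h * w ^ p` is fixed by `G`; moreover the cocycle of `w`
is the normalised root: whenever `σ • h = h * b ^ p` with `lc b = 1`, `σ • w = b⁻¹ * w`. -/
theorem exists_descent (p : ℕ) (lc : E →*₀ E)
    (hlcG : ∀ (σ : G) (x : E), lc (σ • x) = σ • lc x)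
    (hlcμ : ∀ ζ : E, ζ ^ p = 1 → lc ζ = ζ)
    (h : E) (hh0 : h ≠ 0) (hlch : lc h = 1)
    (hinv : ∀ σ : G, ∃ b : E, σ • h = h * b ^ p)
    (s : Set E) (hs : s.Finite) (hsG : ∀ (σ : G), ∀ c ∈ s, σ • c ∈ s)
    (hsh : ∀ σ : G, (∀ c ∈ s, σ • c = c) → σ • h = h) :
    ∃ w : E, w ≠ 0 ∧ (∀ σ : G, σ • (h * w ^ p) = h * w ^ p) ∧
      (∀ (σ : G) (b : E), σ • h = h * b ^ p → lc b = 1 → σ • w = b⁻¹ * w) ∧
      (∀ σ : G, (∀ c ∈ s, σ • c = c) → σ • w = w) := by
  classical
  -- existence of normalised roots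
  have hnorm : ∀ σ : G, ∃ b : E, σ • h = h * b ^ p ∧ lc b = 1 := by
    intro σ
    obtain ⟨b, hb, hb0⟩ : ∃ b : E, σ • h = h * b ^ p ∧ b ≠ 0 := by
      obtain ⟨b, hb⟩ := hinv σ
      by_cases hb0 : b = 0
      · by_cases hp : p = 0
        · refine ⟨1, ?_, one_ne_zero⟩
          rw [hb, hp, pow_zero, pow_zero]
        · exfalso
          rw [hb0, zero_pow hp, mul_zero] at hb
          exact hh0 ((smul_eq_zero_iff_eq σ).mp hb)
      · exact ⟨b, hb, hb0⟩
    have hζ : (lc b) ^ p = 1 := by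
      have h1 : lc (σ • h) = lc h * lc b ^ p := by rw [hb, map_mul, map_pow]
      rw [hlcG, hlch, smul_one, one_mul] at h1
      exact h1.symm
    have hζ0 : lc b ≠ 0 := by
      intro h0
      have := (map_eq_zero lc).mp h0
      exact hb0 this
    refine ⟨b / lc b, ?_, ?_⟩
    · rw [div_pow, hζ, div_one, hb]
    · rw [map_div₀, hlcμ _ hζ, div_self hζ0]
  choose b hb hlcb using hnorm
  have hb0 : ∀ σ, b σ ≠ 0 := by
    intro σ h0
    have := hlcb σ
    rw [h0, map_zero] at this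
    exact zero_ne_one this
  have huniq : ∀ (σ : G) (b' : E), σ • h = h * b' ^ p → lc b' = 1 → b' = b σ := by
    intro σ b' hb' hlcb'
    refine eq_of_pow_eq_of_lc p lc hlcμ ?_ hlcb' (hlcb σ)
    have h1 : h * b' ^ p = h * b σ ^ p := by rw [← hb', ← hb σ]
    exact mul_left_cancel₀ hh0 h1
  have hbc : ∀ σ τ, b (σ * τ) = b σ * σ • b τ := by
    intro σ τ
    refine (huniq (σ * τ) (b σ * σ • b τ) ?_ ?_).symm
    · rw [mul_smul, hb τ, smul_mul', smul_pow', hb σ, mul_pow, mul_assoc]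
    · rw [map_mul, hlcG, hlcb σ, hlcb τ, smul_one, mul_one]
  have hbN : ∀ σ, (∀ c ∈ s, σ • c = c) → b σ = 1 := by
    intro σ hσ
    refine (huniq σ 1 ?_ (map_one lc)).symm
    rw [one_pow, mul_one, hsh σ hσ]
  obtain ⟨w, -, hw0, hw⟩ := exists_poincare (⊤ : Subfield E) (fun _ _ _ => Subfield.mem_top _)
    s hs hsG (fun _ _ => Subfield.mem_top _) b (fun _ => Subfield.mem_top _) hb0 hbc hbN
  refine ⟨w, hw0, ?_, ?_, ?_⟩
  · intro σ
    rw [smul_mul', smul_pow', hb σ, hw σ, mul_pow, inv_pow]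
    field_simp [hb0 σ]
  · intro σ b' hb' hlcb'
    rw [hw σ, huniq σ b' hb' hlcb']
  · intro σ hσ
    rw [hw σ, hbN σ hσ, inv_one, one_mul]

/-- `σ • (x / y) = σ • x / σ • y` for a semiring action on a field. -/
theorem smul_div_field (σ : G) (x y : E) : σ • (x / y) = σ • x / σ • y := by
  rw [div_eq_mul_inv, smul_mul', smul_inv'', div_eq_mul_inv]

/-- **(B) Regularity, proved.**  Let `C` be a `G`-stable subfield ("constants") containing
the `p`-th roots of unity of `E`, all of them fixed by `G`.  If `b ≠ 0`, `b ^ p` is fixed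
by `G`, and `s ⊆ C` is a finite-level datum for `b`, then `b = lam * k` with `lam ∈ C`,
`lam ^ p` and `k` fixed by `G`; more precisely `σ • lam / lam = σ • b / b` for all `σ`. -/
theorem exists_constant_of_pow_fixed (p : ℕ)
    (C : Subfield E) (hC : ∀ (σ : G), ∀ x ∈ C, σ • x ∈ C)
    (hμC : ∀ ζ : E, ζ ^ p = 1 → ζ ∈ C) (hμG : ∀ ζ : E, ζ ^ p = 1 → ∀ σ : G, σ • ζ = ζ)
    (b : E) (hb0 : b ≠ 0) (hbp : ∀ σ : G, σ • (b ^ p) = b ^ p)
    (s : Set E) (hs : s.Finite) (hsG : ∀ (σ : G), ∀ c ∈ s, σ • c ∈ s) (hsC : s ⊆ C)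
    (hsb : ∀ σ : G, (∀ c ∈ s, σ • c = c) → σ • b = b) :
    ∃ lam : E, lam ∈ C ∧ lam ≠ 0 ∧ (∀ σ : G, σ • lam * b = lam * σ • b) ∧
      (∀ σ : G, σ • (lam ^ p) = lam ^ p) ∧ (∀ σ : G, σ • (b / lam) = b / lam) ∧
      (∀ σ : G, (∀ c ∈ s, σ • c = c) → σ • lam = lam) := by
  have hσb0 : ∀ σ : G, σ • b ≠ 0 := fun σ => (smul_ne_zero_iff_ne σ).mpr hb0
  have hχp : ∀ σ : G, (σ • b / b) ^ p = 1 := by
    intro σ
    rw [div_pow, ← smul_pow', hbp σ, div_self (pow_ne_zero p hb0)]
  have hχ0 : ∀ σ : G, σ • b / b ≠ 0 := fun σ => div_ne_zero (hσb0 σ) hb0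
  have hχc : ∀ σ τ : G, (σ * τ) • b / b = σ • b / b * σ • (τ • b / b) := by
    intro σ τ
    rw [hμG _ (hχp τ) σ, mul_smul]
    have h1 : τ • b = τ • b / b * b := by field_simp
    conv_lhs => rw [h1, smul_mul', hμG _ (hχp τ) σ]
    field_simp
  have hχN : ∀ σ : G, (∀ c ∈ s, σ • c = c) → σ • b / b = 1 := by
    intro σ hσ
    rw [hsb σ hσ, div_self hb0]
  obtain ⟨w, hwC, hw0, hw⟩ := exists_poincare C hC s hs hsG hsC (fun σ => σ • b / b)
    (fun σ => hμC _ (hχp σ)) hχ0 hχc hχN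
  have hlam : ∀ σ : G, σ • w⁻¹ = σ • b / b * w⁻¹ := by
    intro σ
    rw [smul_inv'', hw σ, mul_inv, inv_inv]
  refine ⟨w⁻¹, C.inv_mem hwC, inv_ne_zero hw0, ?_, ?_, ?_, ?_⟩
  · intro σ
    rw [hlam σ]
    field_simp
  · intro σ
    rw [smul_pow', hlam σ, mul_pow, hχp σ, one_mul]
  · intro σ
    rw [smul_div_field, hlam σ]
    have := hσb0 σ
    field_simp
  · intro σ hσ
    rw [hlam σ, hχN σ hσ, one_mul]

/-- **(C) One-stop deck corollary.**  `γ` is a ring automorphism of `E` commuting with `G`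
(the deck transformation of the cover), `h` is `γ`-fixed (it comes from downstairs),
normalised, and its class modulo `p`-th powers is `G`-invariant.  Then there are
`w, lam, k` with: `H := h * w ^ p` and `k` fixed by `G`, `lam` a constant whose `p`-th
power is `G`-fixed, `γ w = lam * k * w`, hence `γ H = lam ^ p * k ^ p * H`; and `lam` is
fixed by every `σ` for which `σ • h / h` is the `p`-th power of a `γ`-fixed element
(i.e. every `σ` fixing the class downstairs). -/
theorem exists_deck_constant (p : ℕ) (lc : E →*₀ E)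
    (hlcG : ∀ (σ : G) (x : E), lc (σ • x) = σ • lc x)
    (hlcμ : ∀ ζ : E, ζ ^ p = 1 → lc ζ = ζ)
    (C : Subfield E) (hC : ∀ (σ : G), ∀ x ∈ C, σ • x ∈ C)
    (hμC : ∀ ζ : E, ζ ^ p = 1 → ζ ∈ C) (hμG : ∀ ζ : E, ζ ^ p = 1 → ∀ σ : G, σ • ζ = ζ)
    (γ : E ≃+* E) (hγG : ∀ (σ : G) (x : E), γ (σ • x) = σ • γ x)
    (hγμ : ∀ ζ : E, ζ ^ p = 1 → γ ζ = ζ)
    (h : E) (hh0 : h ≠ 0) (hlch : lc h = 1) (hγh : γ h = h)
    (hinv : ∀ σ : G, ∃ b : E, σ • h = h * b ^ p)
    (s : Set E) (hs : s.Finite) (hsG : ∀ (σ : G), ∀ c ∈ s, σ • c ∈ s) (hsC : s ⊆ C)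
    (hsh : ∀ σ : G, (∀ c ∈ s, σ • c = c) → σ • h = h) :
    ∃ w lam k : E, w ≠ 0 ∧ lam ≠ 0 ∧ k ≠ 0 ∧ lam ∈ C ∧
      (∀ σ : G, σ • (h * w ^ p) = h * w ^ p) ∧
      (∀ σ : G, σ • k = k) ∧
      (∀ σ : G, σ • (lam ^ p) = lam ^ p) ∧
      γ w = lam * k * w ∧
      γ (h * w ^ p) = lam ^ p * k ^ p * (h * w ^ p) ∧
      (∀ (σ : G) (b : E), σ • h = h * b ^ p → lc b = 1 → σ • w = b⁻¹ * w) ∧
      (∀ σ : G, (∀ c ∈ s, σ • c = c) → σ • w = w ∧ σ • lam = lam) ∧
      (∀ σ : G, (∃ m : E, γ m = m ∧ σ • h = h * m ^ p) → σ • lam = lam) := by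
  obtain ⟨w, hw0, hH, hwb, hws⟩ := exists_descent p lc hlcG hlcμ h hh0 hlch hinv s hs hsG hsh
  have hγw0 : γ w ≠ 0 := (map_ne_zero γ).mpr hw0
  have hb0 : γ w / w ≠ 0 := div_ne_zero hγw0 hw0
  have hbp : ∀ σ : G, σ • ((γ w / w) ^ p) = (γ w / w) ^ p := by
    intro σ
    have h1 : (γ w / w) ^ p = γ (h * w ^ p) / (h * w ^ p) := by
      rw [map_mul, map_pow, hγh, div_pow]
      field_simp
    rw [h1, smul_div_field, ← hγG, hH σ]
  have hsb : ∀ σ : G, (∀ c ∈ s, σ • c = c) → σ • (γ w / w) = γ w / w := by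
    intro σ hσ
    rw [smul_div_field, ← hγG, hws σ hσ]
  obtain ⟨lam, hlamC, hlam0, hlamb, hlamp, hk, hlams⟩ :=
    exists_constant_of_pow_fixed p C hC hμC hμG (γ w / w) hb0 hbp s hs hsG hsC hsb
  have hγw : γ w = lam * (γ w / w / lam) * w := by field_simp
  refine ⟨w, lam, γ w / w / lam, hw0, hlam0, div_ne_zero hb0 hlam0, hlamC, hH, hk, hlamp, hγw,
    ?_, hwb, fun σ hσ => ⟨hws σ hσ, hlams σ hσ⟩, ?_⟩
  · rw [map_mul, map_pow, hγh]
    conv_lhs => rw [hγw]
    ring
  · rintro σ ⟨m, hγm, hm⟩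
    -- a nonzero `γ`-fixed root
    obtain ⟨m, hγm, hm, hm0⟩ : ∃ m : E, γ m = m ∧ σ • h = h * m ^ p ∧ m ≠ 0 := by
      by_cases hm0 : m = 0
      · by_cases hp : p = 0
        · refine ⟨1, map_one γ, ?_, one_ne_zero⟩
          rw [hm, hp, pow_zero, pow_zero]
        · exfalso
          rw [hm0, zero_pow hp, mul_zero] at hm
          exact hh0 ((smul_eq_zero_iff_eq σ).mp hm)
      · exact ⟨m, hγm, hm, hm0⟩
    have hζ : (lc m) ^ p = 1 := by
      have h1 : lc (σ • h) = lc h * lc m ^ p := by rw [hm, map_mul, map_pow]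
      rw [hlcG, hlch, smul_one, one_mul] at h1
      exact h1.symm
    have hζ0 : lc m ≠ 0 := fun h0 => hm0 ((map_eq_zero lc).mp h0)
    have hm' : σ • h = h * (m / lc m) ^ p := by rw [div_pow, hζ, div_one, hm]
    have hlcm' : lc (m / lc m) = 1 := by rw [map_div₀, hlcμ _ hζ, div_self hζ0]
    have hγm' : γ (m / lc m) = m / lc m := by rw [map_div₀, hγm, hγμ _ hζ]
    have hm'0 : m / lc m ≠ 0 := div_ne_zero hm0 hζ0
    have hσw : σ • w = (m / lc m)⁻¹ * w := hwb σ _ hm' hlcm'
    have hσb : σ • (γ w / w) = γ w / w := by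
      rw [smul_div_field, ← hγG, hσw, map_mul, map_inv₀, hγm']
      field_simp
    have h2 := hlamb σ
    rw [hσb] at h2
    exact mul_right_cancel₀ hb0 h2
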