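import Mathlib
import Fermat.Agent.S44.helper9796_DescentH90

/-!
# The cover field `F(g)`, `g ^ p ∈ F`, inside an ambient field, with its deck automorphism

Abstract (Mathlib-only) field-level package for the cover step ("L5") of S44.

`Λ` is an ambient field (instance: Laurent series over `ℚ̄`), `F : Subfield Λ` (instance:
the modular function field), `g ∈ Λ` with `g ^ p ∈ F`, `g ∉ F`, `ζ ∈ F` a primitive `p`-th
root of unity, `p` prime.

* `coverField F g : Subfield Λ` is `F(g)`.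
* `deck` is the ring automorphism of `coverField F g` fixing `F` with `g ↦ ζ * g`.
* `exists_cover_descent`: the one-stop descent statement in terms of elements of `Λ`,
  for a group `G` acting on `Λ` and preserving `F`, fixing `g` and `ζ`
  (instance: `G = Gal(ℚ̄/K)` acting on coefficients).
-/

namespace Fermat.Agent.S44.helper9796

open Polynomial

variable {Λ : Type*} [Field Λ]

/-- The cover field `F(g)` inside `Λ`. -/
@[reducible] def coverField (F : Subfield Λ) (g : Λ) : Subfield Λ := Subfield.closure (↑F ∪ {g})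

theorem le_coverField (F : Subfield Λ) (g : Λ) : F ≤ coverField F g :=
  fun _ hx => Subfield.subset_closure (Or.inl hx)

theorem gen_mem_coverField (F : Subfield Λ) (g : Λ) : g ∈ coverField F g :=
  Subfield.subset_closure (Or.inr rfl)

/-- `X ^ p - g ^ p` is irreducible over `F` when `g ∉ F` and `F` contains a primitive `p`-th
root of unity. -/
theorem irreducible_X_pow_sub_C_of_notMem (F : Subfield Λ) {p : ℕ} (hp : p.Prime) {ζ : Λ}
    (hζF : ζ ∈ F) (hζ : IsPrimitiveRoot ζ p) {g : Λ} (hgp : g ^ p ∈ F) (hgF : g ∉ F) :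
    Irreducible (X ^ p - C (⟨g ^ p, hgp⟩ : F)) := by
  have : NeZero p := ⟨hp.ne_zero⟩
  apply X_pow_sub_C_irreducible_of_prime hp
  intro b hb
  have hb' : (b : Λ) ^ p = g ^ p := by
    have := congrArg Subtype.val hb
    simpa using this
  have hg0 : g ≠ 0 := fun h0 => hgF (h0 ▸ F.zero_mem)
  have hb0 : (b : Λ) ≠ 0 := by
    intro h0
    rw [h0, zero_pow hp.ne_zero] at hb'
    exact hg0 (pow_eq_zero_iff hp.ne_zero |>.mp hb'.symm)
  have h1 : (g / (b : Λ)) ^ p = 1 := by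
    rw [div_pow, hb', div_self (pow_ne_zero p hg0)]
  obtain ⟨i, -, hi⟩ := hζ.eq_pow_of_pow_eq_one h1
  apply hgF
  have h2 : g = ζ ^ i * (b : Λ) := by
    rw [hi]
    field_simp
  rw [h2]
  exact F.mul_mem (F.pow_mem hζF i) b.2

section Deck

variable (F : Subfield Λ) {p : ℕ} (hp : p.Prime) {ζ : Λ} (hζF : ζ ∈ F)
  (hζ : IsPrimitiveRoot ζ p) {g : Λ} (hgp : g ^ p ∈ F) (hgF : g ∉ F)

/-- The evaluation map `F[X]/(X ^ p - g ^ p) → Λ`, `X ↦ g`. -/
noncomputable def coverLift : AdjoinRoot (X ^ p - C (⟨g ^ p, hgp⟩ : F)) →+* Λ :=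
  AdjoinRoot.lift F.subtype g (by
    rw [eval₂_sub, eval₂_pow, eval₂_X, eval₂_C]
    exact sub_self _)

theorem coverLift_of (x : F) : coverLift F hgp (AdjoinRoot.of _ x) = (x : Λ) := by
  rw [coverLift, AdjoinRoot.lift_of]
  rfl

theorem coverLift_root : coverLift F hgp (AdjoinRoot.root _) = g := by
  rw [coverLift, AdjoinRoot.lift_root]

theorem coverLift_mem (x : AdjoinRoot (X ^ p - C (⟨g ^ p, hgp⟩ : F))) :
    coverLift F hgp x ∈ coverField F g := by
  induction x using AdjoinRoot.induction_on with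
  | ih q =>
    rw [coverLift, AdjoinRoot.lift_mk, eval₂_eq_sum_range]
    refine (coverField F g).sum_mem fun i _ => ?_
    exact (coverField F g).mul_mem (le_coverField F g (q.coeff i).2)
      ((coverField F g).pow_mem (gen_mem_coverField F g) i)

/-- `F[X]/(X ^ p - g ^ p) ≃ F(g)`. -/
noncomputable def coverEquiv :
    AdjoinRoot (X ^ p - C (⟨g ^ p, hgp⟩ : F)) ≃+* coverField F g :=
  haveI : Fact (Irreducible (X ^ p - C (⟨g ^ p, hgp⟩ : F))) :=
    ⟨irreducible_X_pow_sub_C_of_notMem F hp hζF hζ hgp hgF⟩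
  RingEquiv.ofBijective ((coverLift F hgp).codRestrict (coverField F g) (coverLift_mem F hgp)) (by
    constructor
    · exact RingHom.injective _
    · rintro ⟨y, hy⟩
      have hle : coverField F g ≤ (coverLift F hgp).fieldRange := by
        rw [coverField, Subfield.closure_le]
        rintro z (hz | hz)
        · exact ⟨AdjoinRoot.of _ ⟨z, hz⟩, coverLift_of F hgp ⟨z, hz⟩⟩
        · rw [Set.mem_singleton_iff] at hz
          subst hz
          exact ⟨AdjoinRoot.root _, coverLift_root F hgp⟩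
      obtain ⟨x, hx⟩ := hle hy
      exact ⟨x, Subtype.ext hx⟩)

theorem coe_coverEquiv (x : AdjoinRoot (X ^ p - C (⟨g ^ p, hgp⟩ : F))) :
    ((coverEquiv F hp hζF hζ hgp hgF x : coverField F g) : Λ) = coverLift F hgp x := rfl

/-- The deck automorphism of `F(g)`: identity on `F`, `g ↦ ζ * g`. -/
noncomputable def deck : coverField F g ≃+* coverField F g :=
  haveI : NeZero p := ⟨hp.ne_zero⟩
  (coverEquiv F hp hζF hζ hgp hgF).symm.trans
    (((autAdjoinRootXPowSubC p (⟨g ^ p, hgp⟩ : F)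
        (rootsOfUnity.mkOfPowEq (⟨ζ, hζF⟩ : F) (Subtype.ext (by simpa using hζ.pow_eq_one)))).toRingEquiv).trans
      (coverEquiv F hp hζF hζ hgp hgF))

theorem deck_of_mem {x : Λ} (hx : x ∈ F) :
    deck F hp hζF hζ hgp hgF ⟨x, le_coverField F g hx⟩ = ⟨x, le_coverField F g hx⟩ := by
  have : NeZero p := ⟨hp.ne_zero⟩
  have h1 : (coverEquiv F hp hζF hζ hgp hgF).symm ⟨x, le_coverField F g hx⟩
      = AdjoinRoot.of _ ⟨x, hx⟩ := by
    rw [RingEquiv.symm_apply_eq]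
    exact Subtype.ext (by rw [coe_coverEquiv, coverLift_of])
  apply Subtype.ext
  simp only [deck, RingEquiv.trans_apply, h1]
  rw [coe_coverEquiv]
  have h2 : ∀ (e : AdjoinRoot (X ^ p - C (⟨g ^ p, hgp⟩ : F)) ≃ₐ[F]
      AdjoinRoot (X ^ p - C (⟨g ^ p, hgp⟩ : F))),
      e.toRingEquiv (AdjoinRoot.of _ ⟨x, hx⟩) = AdjoinRoot.of _ ⟨x, hx⟩ := fun e =>
    e.commutes ⟨x, hx⟩
  rw [h2, coverLift_of]

theorem deck_gen :
    deck F hp hζF hζ hgp hgF ⟨g, gen_mem_coverField F g⟩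
      = ⟨ζ * g, (coverField F g).mul_mem (le_coverField F g hζF) (gen_mem_coverField F g)⟩ := by
  have : NeZero p := ⟨hp.ne_zero⟩
  have h1 : (coverEquiv F hp hζF hζ hgp hgF).symm ⟨g, gen_mem_coverField F g⟩
      = AdjoinRoot.root _ := by
    rw [RingEquiv.symm_apply_eq]
    exact Subtype.ext (by rw [coe_coverEquiv, coverLift_root])
  apply Subtype.ext
  simp only [deck, RingEquiv.trans_apply, h1]
  rw [coe_coverEquiv]
  have h2 : ∀ (e : AdjoinRoot (X ^ p - C (⟨g ^ p, hgp⟩ : F)) ≃ₐ[F]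
      AdjoinRoot (X ^ p - C (⟨g ^ p, hgp⟩ : F))) (y : AdjoinRoot (X ^ p - C (⟨g ^ p, hgp⟩ : F))),
      e.toRingEquiv y = e y := fun e y => rfl
  rw [h2, autAdjoinRootXPowSubC_root, Algebra.smul_def, map_mul, AdjoinRoot.algebraMap_eq,
    coverLift_of, coverLift_root]
  simp

end Deck

/-- Two ring homomorphisms out of `F(g)` agreeing on `F` and at `g` are equal. -/
theorem coverField_hom_ext {F : Subfield Λ} {g : Λ} {Λ' : Type*} [Field Λ']
    (ψ1 ψ2 : coverField F g →+* Λ')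
    (hF : ∀ (x : Λ) (hx : x ∈ F), ψ1 ⟨x, le_coverField F g hx⟩ = ψ2 ⟨x, le_coverField F g hx⟩)
    (hg : ψ1 ⟨g, gen_mem_coverField F g⟩ = ψ2 ⟨g, gen_mem_coverField F g⟩) : ψ1 = ψ2 := by
  have h : ∀ (x : Λ) (hx : x ∈ coverField F g), ψ1 ⟨x, hx⟩ = ψ2 ⟨x, hx⟩ := by
    intro x hx
    induction hx using Subfield.closure_induction with
    | mem y hy =>
      rcases hy with hy | hy
      · exact hF y hy
      · obtain rfl : y = g := hy
        exact hg
    | one => exact (map_one ψ1).trans (map_one ψ2).symm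
    | add x y hx hy ihx ihy =>
      exact (map_add ψ1 ⟨x, hx⟩ ⟨y, hy⟩).trans
        ((congrArg₂ (· + ·) ihx ihy).trans (map_add ψ2 ⟨x, hx⟩ ⟨y, hy⟩).symm)
    | neg x hx ihx =>
      exact (map_neg ψ1 ⟨x, hx⟩).trans ((congrArg Neg.neg ihx).trans (map_neg ψ2 ⟨x, hx⟩).symm)
    | inv x hx ihx =>
      exact (map_inv₀ ψ1 ⟨x, hx⟩).trans ((congrArg Inv.inv ihx).trans (map_inv₀ ψ2 ⟨x, hx⟩).symm)
    | mul x y hx hy ihx ihy =>
      exact (map_mul ψ1 ⟨x, hx⟩ ⟨y, hy⟩).trans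
        ((congrArg₂ (· * ·) ihx ihy).trans (map_mul ψ2 ⟨x, hx⟩ ⟨y, hy⟩).symm)
  exact RingHom.ext fun x => h x.1 x.2

section Action

variable {G : Type*} [Group G] [MulSemiringAction G Λ]

theorem smul_mem_coverField {F : Subfield Λ} (hF : ∀ σ : G, ∀ x ∈ F, σ • x ∈ F) {g : Λ}
    (hgG : ∀ σ : G, σ • g = g) (σ : G) {x : Λ} (hx : x ∈ coverField F g) :
    σ • x ∈ coverField F g := by
  rw [coverField] at hx
  induction hx using Subfield.closure_induction with
  | mem y hy =>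
    rcases hy with hy | hy
    · exact le_coverField F g (hF σ y hy)
    · obtain rfl : y = g := hy
      rw [hgG σ]
      exact gen_mem_coverField F y
  | one => rw [smul_one]; exact (coverField F g).one_mem
  | add x y _ _ hx hy => rw [smul_add]; exact (coverField F g).add_mem hx hy
  | neg x _ hx => rw [smul_neg]; exact (coverField F g).neg_mem hx
  | inv x _ hx => rw [smul_inv'']; exact (coverField F g).inv_mem hx
  | mul x y _ _ hx hy => rw [smul_mul']; exact (coverField F g).mul_mem hx hy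

/-- The restricted action of `G` on the cover field `F(g)` (when `G` preserves `F` and
fixes `g`). -/
@[reducible] def coverAction {F : Subfield Λ} (hF : ∀ σ : G, ∀ x ∈ F, σ • x ∈ F) {g : Λ}
    (hgG : ∀ σ : G, σ • g = g) : MulSemiringAction G (coverField F g) where
  smul σ x := ⟨σ • (x : Λ), smul_mem_coverField hF hgG σ x.2⟩
  one_smul x := Subtype.ext (one_smul G (x : Λ))
  mul_smul σ τ x := Subtype.ext (mul_smul σ τ (x : Λ))
  smul_zero σ := Subtype.ext (smul_zero σ)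
  smul_add σ x y := Subtype.ext (smul_add σ (x : Λ) (y : Λ))
  smul_one σ := Subtype.ext (smul_one σ)
  smul_mul σ x y := Subtype.ext (smul_mul' σ (x : Λ) (y : Λ))

variable (F : Subfield Λ) {p : ℕ} (hp : p.Prime) {ζ : Λ} (hζF : ζ ∈ F)
  (hζ : IsPrimitiveRoot ζ p) {g : Λ} (hgp : g ^ p ∈ F) (hgF : g ∉ F)

/-- The deck automorphism commutes with the action of `G`. -/
theorem deck_smul (hF : ∀ σ : G, ∀ x ∈ F, σ • x ∈ F) (hgG : ∀ σ : G, σ • g = g)
    (hζG : ∀ σ : G, σ • ζ = ζ) (σ : G) (x : Λ) (hx : x ∈ coverField F g) :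
    ((deck F hp hζF hζ hgp hgF ⟨σ • x, smul_mem_coverField hF hgG σ hx⟩ : coverField F g) : Λ)
      = σ • ((deck F hp hζF hζ hgp hgF ⟨x, hx⟩ : coverField F g) : Λ) := by
  let _ := coverAction (G := G) hF hgG
  let ψ1 : coverField F g →+* Λ :=
    (coverField F g).subtype.comp ((deck F hp hζF hζ hgp hgF).toRingHom.comp
      (MulSemiringAction.toRingHom G (coverField F g) σ))
  let ψ2 : coverField F g →+* Λ :=
    (MulSemiringAction.toRingHom G Λ σ).comp
      ((coverField F g).subtype.comp (deck F hp hζF hζ hgp hgF).toRingHom)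
  have key : ψ1 = ψ2 := by
    apply coverField_hom_ext
    · intro y hy
      show ((deck F hp hζF hζ hgp hgF ⟨σ • y, _⟩ : coverField F g) : Λ)
        = σ • ((deck F hp hζF hζ hgp hgF ⟨y, _⟩ : coverField F g) : Λ)
      rw [deck_of_mem F hp hζF hζ hgp hgF hy, deck_of_mem F hp hζF hζ hgp hgF (hF σ y hy)]
    · show ((deck F hp hζF hζ hgp hgF ⟨σ • g, _⟩ : coverField F g) : Λ)
        = σ • ((deck F hp hζF hζ hgp hgF ⟨g, _⟩ : coverField F g) : Λ)
      have h1 : (⟨σ • g, smul_mem_coverField hF hgG σ (gen_mem_coverField F g)⟩ : coverField F g)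
          = ⟨g, gen_mem_coverField F g⟩ := Subtype.ext (hgG σ)
      rw [h1, deck_gen, smul_mul', hζG σ, hgG σ]
  exact DFunLike.congr_fun key ⟨x, hx⟩

/-- **One-stop cover descent, in terms of elements of the ambient field `Λ`.**

`G` acts on `Λ`, preserving the subfields `C₀ ≤ F` ("constants" and "function field
downstairs"), fixing `ζ ∈ C₀` (primitive `p`-th root of unity) and `g` (`g ^ p ∈ F`, `g ∉ F`);
`lc : Λ →*₀ Λ` is a `G`-equivariant normalisation with values in `C₀` and `lc ζ = ζ`.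
Let `h ∈ F`, `h ≠ 0`, `lc h = 1`, whose class modulo `p`-th powers of the cover field
`F(g)` is `G`-invariant, with a finite-level datum `s ⊆ C₀`.  Then there are `w, k ∈ F(g)`
and a constant `lam ∈ C₀` such that `H := h * w ^ p` and `k` are fixed by `G`, `lam ^ p` is
fixed by `G`, the deck automorphism sends `w` to `lam * k * w` (so `γ H = lam ^ p * k ^ p * H`),
and `lam` is fixed by every `σ` with `σ • h ∈ h * F ^ p`. -/
theorem exists_cover_descent
    (F C₀ : Subfield Λ) (hC₀F : C₀ ≤ F)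
    (hF : ∀ σ : G, ∀ x ∈ F, σ • x ∈ F) (hC₀ : ∀ σ : G, ∀ x ∈ C₀, σ • x ∈ C₀)
    {p : ℕ} (hp : p.Prime) {ζ : Λ} (hζC : ζ ∈ C₀) (hζ : IsPrimitiveRoot ζ p)
    (hζG : ∀ σ : G, σ • ζ = ζ)
    {g : Λ} (hgp : g ^ p ∈ F) (hgF : g ∉ F) (hgG : ∀ σ : G, σ • g = g)
    (lc : Λ →*₀ Λ) (hlcC : ∀ x, lc x ∈ C₀) (hlcG : ∀ (σ : G) (x : Λ), lc (σ • x) = σ • lc x)
    (hlcζ : lc ζ = ζ)
    (h : Λ) (hhF : h ∈ F) (hh0 : h ≠ 0) (hlch : lc h = 1)
    (hinv : ∀ σ : G, ∃ b ∈ coverField F g, σ • h = h * b ^ p)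
    (s : Set Λ) (hs : s.Finite) (hsG : ∀ σ : G, ∀ c ∈ s, σ • c ∈ s) (hsC : s ⊆ C₀)
    (hsh : ∀ σ : G, (∀ c ∈ s, σ • c = c) → σ • h = h) :
    ∃ w lam k : Λ, ∃ (hw : w ∈ coverField F g), k ∈ coverField F g ∧ lam ∈ C₀ ∧
      w ≠ 0 ∧ lam ≠ 0 ∧ k ≠ 0 ∧
      (∀ σ : G, σ • (h * w ^ p) = h * w ^ p) ∧ (∀ σ : G, σ • k = k) ∧
      (∀ σ : G, σ • (lam ^ p) = lam ^ p) ∧
      ((deck F hp (hC₀F hζC) hζ hgp hgF ⟨w, hw⟩ : coverField F g) : Λ) = lam * k * w ∧
      (∀ (σ : G) (b : Λ), b ∈ coverField F g → σ • h = h * b ^ p → lc b = 1 →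
        σ • w = b⁻¹ * w) ∧
      (∀ σ : G, (∀ c ∈ s, σ • c = c) → σ • w = w ∧ σ • lam = lam) ∧
      (∀ σ : G, (∃ m ∈ F, σ • h = h * m ^ p) → σ • lam = lam) := by
  have : NeZero p := ⟨hp.ne_zero⟩
  let _ := coverAction (G := G) hF hgG
  have hC₀E : C₀ ≤ coverField F g := hC₀F.trans (le_coverField F g)
  -- the normalisation on the cover field
  let lcE : coverField F g →*₀ coverField F g :=
    { toFun := fun x => ⟨lc (x : Λ), hC₀E (hlcC (x : Λ))⟩
      map_zero' := Subtype.ext (map_zero lc)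
      map_one' := Subtype.ext (map_one lc)
      map_mul' := fun x y => Subtype.ext (map_mul lc (x : Λ) (y : Λ)) }
  let C : Subfield (coverField F g) := C₀.comap (coverField F g).subtype
  -- roots of unity
  have hroot : ∀ z : coverField F g, z ^ p = 1 → ∃ i : ℕ, (z : Λ) = ζ ^ i := by
    intro z hz
    have hz' : (z : Λ) ^ p = 1 := congrArg Subtype.val hz
    obtain ⟨i, -, hi⟩ := hζ.eq_pow_of_pow_eq_one hz'
    exact ⟨i, hi.symm⟩
  have hlcμ : ∀ z : coverField F g, z ^ p = 1 → lcE z = z := by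
    intro z hz
    obtain ⟨i, hi⟩ := hroot z hz
    apply Subtype.ext
    show lc (z : Λ) = z
    rw [hi, map_pow, hlcζ]
  have hμC : ∀ z : coverField F g, z ^ p = 1 → z ∈ C := by
    intro z hz
    obtain ⟨i, hi⟩ := hroot z hz
    show (z : Λ) ∈ C₀
    rw [hi]
    exact C₀.pow_mem hζC i
  have hμG : ∀ z : coverField F g, z ^ p = 1 → ∀ σ : G, σ • z = z := by
    intro z hz σ
    obtain ⟨i, hi⟩ := hroot z hz
    apply Subtype.ext
    show σ • (z : Λ) = z
    rw [hi, smul_pow', hζG σ]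
  have hγμ : ∀ z : coverField F g, z ^ p = 1 → deck F hp (hC₀F hζC) hζ hgp hgF z = z := by
    intro z hz
    obtain ⟨i, hi⟩ := hroot z hz
    have hmem : ζ ^ i ∈ F := F.pow_mem (hC₀F hζC) i
    have hz' : z = ⟨ζ ^ i, le_coverField F g hmem⟩ := Subtype.ext hi
    rw [hz', deck_of_mem F hp (hC₀F hζC) hζ hgp hgF hmem]
  have hC : ∀ σ : G, ∀ x ∈ C, σ • x ∈ C := fun σ x hx => hC₀ σ (x : Λ) hx
  have hγG : ∀ (σ : G) (x : coverField F g),
      deck F hp (hC₀F hζC) hζ hgp hgF (σ • x) = σ • deck F hp (hC₀F hζC) hζ hgp hgF x :=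
    fun σ x => Subtype.ext (deck_smul F hp (hC₀F hζC) hζ hgp hgF hF hgG hζG σ x.1 x.2)
  have hinv' : ∀ σ : G, ∃ b : coverField F g,
      σ • (⟨h, le_coverField F g hhF⟩ : coverField F g) = ⟨h, le_coverField F g hhF⟩ * b ^ p := by
    intro σ
    obtain ⟨b, hb, hσ⟩ := hinv σ
    exact ⟨⟨b, hb⟩, Subtype.ext hσ⟩
  have hs' : (Subtype.val ⁻¹' s : Set (coverField F g)).Finite :=
    hs.preimage Subtype.val_injective.injOn
  have hfix : ∀ σ : G, (∀ c ∈ (Subtype.val ⁻¹' s : Set (coverField F g)), σ • c = c) →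
      ∀ c ∈ s, σ • c = c := by
    intro σ hσ c hc
    exact congrArg Subtype.val (hσ ⟨c, hC₀E (hsC hc)⟩ hc)
  obtain ⟨w, lam, k, hw0, hlam0, hk0, hlamC, hH, hk, hlamp, hγw, -, hwb, hws, hlast⟩ :=
    exists_deck_constant (E := coverField F g) (G := G) p lcE
      (fun σ x => Subtype.ext (hlcG σ x)) hlcμ C hC hμC hμG
      (deck F hp (hC₀F hζC) hζ hgp hgF) hγG hγμ ⟨h, le_coverField F g hhF⟩
      (fun h0 => hh0 (congrArg Subtype.val h0)) (Subtype.ext hlch)
      (deck_of_mem F hp (hC₀F hζC) hζ hgp hgF hhF) hinv'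
      (Subtype.val ⁻¹' s) hs' (fun σ c hc => hsG σ (c : Λ) hc) (fun c hc => hsC hc)
      (fun σ hσ => Subtype.ext (hsh σ (hfix σ hσ)))
  refine ⟨w, lam, k, w.2, k.2, hlamC, fun h0 => hw0 (Subtype.ext h0),
    fun h0 => hlam0 (Subtype.ext h0), fun h0 => hk0 (Subtype.ext h0),
    fun σ => congrArg Subtype.val (hH σ), fun σ => congrArg Subtype.val (hk σ),
    fun σ => congrArg Subtype.val (hlamp σ), congrArg Subtype.val hγw, ?_, ?_, ?_⟩
  · intro σ b hb hσ hlcb
    exact congrArg Subtype.val (hwb σ ⟨b, hb⟩ (Subtype.ext hσ) (Subtype.ext hlcb))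
  · intro σ hσ
    have h1 := hws σ (fun c hc => Subtype.ext (hσ (c : Λ) hc))
    exact ⟨congrArg Subtype.val h1.1, congrArg Subtype.val h1.2⟩
  · rintro σ ⟨m, hm, hσ⟩
    exact congrArg Subtype.val (hlast σ ⟨⟨m, le_coverField F g hm⟩,
      deck_of_mem F hp (hC₀F hζC) hζ hgp hgF hm, Subtype.ext hσ⟩)

/-- The restricted action of `G` on a `G`-stable subfield. -/
@[reducible] def subfieldAction {F : Subfield Λ} (hF : ∀ σ : G, ∀ x ∈ F, σ • x ∈ F) :
    MulSemiringAction G F where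
  smul σ x := ⟨σ • (x : Λ), hF σ x x.2⟩
  one_smul x := Subtype.ext (one_smul G (x : Λ))
  mul_smul σ τ x := Subtype.ext (mul_smul σ τ (x : Λ))
  smul_zero σ := Subtype.ext (smul_zero σ)
  smul_add σ x y := Subtype.ext (smul_add σ (x : Λ) (y : Λ))
  smul_one σ := Subtype.ext (smul_one σ)
  smul_mul σ x y := Subtype.ext (smul_mul' σ (x : Λ) (y : Λ))

/-- **Normalised descent inside a `G`-stable subfield `F` of `Λ`** (no cover): if `h ∈ F`,
`h ≠ 0`, `lc h = 1` and `σ • h ∈ h * F ^ p` for all `σ`, with a finite-level datum `s ⊆ F`,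
then there is `w ∈ F`, `w ≠ 0`, with `h * w ^ p` fixed by `G`. -/
theorem exists_descent_subfield (F : Subfield Λ) (hF : ∀ σ : G, ∀ x ∈ F, σ • x ∈ F) (p : ℕ)
    (lc : Λ →*₀ Λ) (hlcF : ∀ x, lc x ∈ F) (hlcG : ∀ (σ : G) (x : Λ), lc (σ • x) = σ • lc x)
    (hlcμ : ∀ z ∈ F, z ^ p = 1 → lc z = z)
    (h : Λ) (hhF : h ∈ F) (hh0 : h ≠ 0) (hlch : lc h = 1)
    (hinv : ∀ σ : G, ∃ b ∈ F, σ • h = h * b ^ p)
    (s : Set Λ) (hs : s.Finite) (hsG : ∀ σ : G, ∀ c ∈ s, σ • c ∈ s) (hsF : s ⊆ F)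
    (hsh : ∀ σ : G, (∀ c ∈ s, σ • c = c) → σ • h = h) :
    ∃ w ∈ F, w ≠ 0 ∧ (∀ σ : G, σ • (h * w ^ p) = h * w ^ p) ∧
      (∀ (σ : G) (b : Λ), b ∈ F → σ • h = h * b ^ p → lc b = 1 → σ • w = b⁻¹ * w) ∧
      (∀ σ : G, (∀ c ∈ s, σ • c = c) → σ • w = w) := by
  let _ := subfieldAction (G := G) hF
  let lcF : F →*₀ F :=
    { toFun := fun x => ⟨lc (x : Λ), hlcF (x : Λ)⟩
      map_zero' := Subtype.ext (map_zero lc)
      map_one' := Subtype.ext (map_one lc)
      map_mul' := fun x y => Subtype.ext (map_mul lc (x : Λ) (y : Λ)) }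
  have hinv' : ∀ σ : G, ∃ b : F, σ • (⟨h, hhF⟩ : F) = ⟨h, hhF⟩ * b ^ p := by
    intro σ
    obtain ⟨b, hb, hσ⟩ := hinv σ
    exact ⟨⟨b, hb⟩, Subtype.ext hσ⟩
  have hs' : (Subtype.val ⁻¹' s : Set F).Finite := hs.preimage Subtype.val_injective.injOn
  have hfix : ∀ σ : G, (∀ c ∈ (Subtype.val ⁻¹' s : Set F), σ • c = c) → ∀ c ∈ s, σ • c = c := by
    intro σ hσ c hc
    exact congrArg Subtype.val (hσ ⟨c, hsF hc⟩ hc)
  obtain ⟨w, hw0, hH, hwb, hws⟩ := exists_descent (E := F) (G := G) p lcF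
    (fun σ x => Subtype.ext (hlcG σ x))
    (fun z hz => Subtype.ext (hlcμ (z : Λ) z.2 (congrArg Subtype.val hz)))
    ⟨h, hhF⟩ (fun h0 => hh0 (congrArg Subtype.val h0)) (Subtype.ext hlch) hinv'
    (Subtype.val ⁻¹' s) hs' (fun σ c hc => hsG σ (c : Λ) hc)
    (fun σ hσ => Subtype.ext (hsh σ (hfix σ hσ)))
  refine ⟨w, w.2, fun h0 => hw0 (Subtype.ext h0), fun σ => congrArg Subtype.val (hH σ), ?_, ?_⟩
  · intro σ b hb hσ hlcb
    exact congrArg Subtype.val (hwb σ ⟨b, hb⟩ (Subtype.ext hσ) (Subtype.ext hlcb))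
  · intro σ hσ
    exact congrArg Subtype.val (hws σ (fun c hc => Subtype.ext (hσ (c : Λ) hc)))

end Action

end Fermat.Agent.S44.helper9796
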