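import Mathlib
import Fermat.Prelude.Def_ModularCurve_ArithmeticGalois
import Fermat.Agent.S44.helper9796_CoverField

/-!
# The cover descent on the Prelude carriers

Instance of `helper9796_CoverField` for `Λ = LaurentSeries ℚ̄`, `F = modularFunctionFieldBar N`
(a subfield of `Λ` by its `q`-expansion at the cusp `∞`), a subgroup `Γ` of `Gal(ℚ̄/ℚ)` acting
on coefficients (`coeffMap`), constants `ℚ̄ ⊆ Λ`, and `lc` = leading coefficient.

* `exists_finite_level`: every element of `laurentBaseChange ℚ̄ F₀` is fixed by the pointwise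
  stabiliser of a finite Galois-stable set of constants.
* `exists_modular_cover_descent`: the one-stop statement for step (4) of the S44 blueprint.
-/

namespace Fermat.Agent.S44.helper9796

open ModularCurve

local notation "Qb" => AlgebraicClosure ℚ
local notation "GQ" => (AlgebraicClosure ℚ ≃ₐ[ℚ] AlgebraicClosure ℚ)
local notation "Λb" => LaurentSeries (AlgebraicClosure ℚ)

/-- Coefficientwise maps along a field homomorphism preserve the order. -/
theorem order_coeffMap' {R S : Type*} [Field R] [Field S] (φ : R →+* S) (f : LaurentSeries R) :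
    (coeffMap φ f).order = f.order := by
  rcases eq_or_ne f 0 with rfl | hf
  · simp
  have hne : coeffMap φ f ≠ 0 := by
    intro h0
    have h1 : (coeffMap φ f).coeff f.order = 0 := by rw [h0, HahnSeries.coeff_zero]
    rw [coeffMap_coeff, map_eq_zero, HahnSeries.coeff_order_eq_zero] at h1
    exact hf h1
  apply le_antisymm
  · apply HahnSeries.order_le_of_coeff_ne_zero
    rw [coeffMap_coeff, Ne, map_eq_zero, HahnSeries.coeff_order_eq_zero]
    exact hf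
  · apply HahnSeries.order_le_of_coeff_ne_zero
    have h1 : (coeffMap φ f).coeff (coeffMap φ f).order ≠ 0 := by
      rw [Ne, HahnSeries.coeff_order_eq_zero]
      exact hne
    rw [coeffMap_coeff] at h1
    intro h0
    exact h1 (by rw [h0, map_zero])

theorem leadingCoeff_coeffMap' {R S : Type*} [Field R] [Field S] (φ : R →+* S)
    (f : LaurentSeries R) : (coeffMap φ f).leadingCoeff = φ f.leadingCoeff := by
  rw [HahnSeries.leadingCoeff_eq, HahnSeries.leadingCoeff_eq, order_coeffMap', coeffMap_coeff]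

/-- The coefficientwise action of a subgroup of `Gal(ℚ̄/ℚ)` on Laurent series. -/
@[reducible] noncomputable def coeffAction (Γ : Subgroup GQ) : MulSemiringAction Γ Λb where
  smul σ x := coeffMap ((σ : GQ) : Qb →+* Qb) x
  one_smul x := by
    show coeffMap (((1 : Γ) : GQ) : Qb →+* Qb) x = x
    rw [show ((((1 : Γ) : GQ)) : Qb →+* Qb) = RingHom.id Qb from RingHom.ext fun _ => rfl,
      coeffMap_id]
  mul_smul σ τ x := by
    show coeffMap (((σ * τ : Γ) : GQ) : Qb →+* Qb) x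
      = coeffMap ((σ : GQ) : Qb →+* Qb) (coeffMap ((τ : GQ) : Qb →+* Qb) x)
    rw [coeffMap_coeffMap]
    exact coeffMap_congr (RingHom.ext fun _ => rfl) _
  smul_zero σ := map_zero _
  smul_add σ x y := map_add _ x y
  smul_one σ := map_one _
  smul_mul σ x y := map_mul _ x y

/-- The leading coefficient, as a constant Laurent series: a multiplicative normalisation. -/
noncomputable def lcConst : Λb →*₀ Λb where
  toFun x := algebraMap Qb Λb x.leadingCoeff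
  map_zero' := by rw [HahnSeries.leadingCoeff_zero, map_zero]
  map_one' := by rw [HahnSeries.leadingCoeff_one, map_one]
  map_mul' x y := by rw [HahnSeries.leadingCoeff_mul, map_mul]

theorem leadingCoeff_algebraMap (c : Qb) : (algebraMap Qb Λb c).leadingCoeff = c := by
  rw [algebraMap_laurentSeries_eq_single, HahnSeries.leadingCoeff_of_single]

/-- **Finite level.**  Every element of `laurentBaseChange ℚ̄ F₀` is fixed by all `σ` fixing
pointwise a suitable finite Galois-stable set of constants. -/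
theorem exists_finite_level (F₀ : IntermediateField ℚ (LaurentSeries ℚ)) {x : Λb}
    (hx : x ∈ laurentBaseChange Qb F₀) :
    ∃ s : Set Qb, s.Finite ∧ (∀ σ : GQ, ∀ c ∈ s, σ c ∈ s) ∧
      ∀ σ : GQ, (∀ c ∈ s, σ c = c) → coeffMap (σ : Qb →+* Qb) x = x := by
  rw [mem_laurentBaseChange_iff] at hx
  induction hx using Subfield.closure_induction with
  | mem y hy =>
    rcases hy with ⟨a, rfl⟩ | ⟨z, hz, rfl⟩
    · refine ⟨Set.range fun σ : GQ => σ a, ?_, ?_, ?_⟩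
      · have hint : IsIntegral ℚ a := ((AlgebraicClosure.isAlgebraic ℚ).isAlgebraic a).isIntegral
        refine ((minpoly ℚ a).rootSet_finite Qb).subset ?_
        rintro _ ⟨σ, rfl⟩
        rw [Polynomial.mem_rootSet]
        refine ⟨minpoly.ne_zero hint, ?_⟩
        show Polynomial.aeval (σ a) (minpoly ℚ a) = 0
        have h1 := Polynomial.aeval_algHom_apply (σ : Qb →ₐ[ℚ] Qb) a (minpoly ℚ a)
        rw [minpoly.aeval, map_zero] at h1
        exact h1
      · rintro τ _ ⟨σ, rfl⟩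
        exact ⟨τ * σ, rfl⟩
      · intro σ hσ
        rw [coeffMap_algebraMap]
        congr 1
        exact hσ a ⟨1, rfl⟩
    · exact ⟨∅, Set.finite_empty, fun _ _ hc => hc.elim, fun σ _ => coeffMap_coeffEmb σ z⟩
  | one => exact ⟨∅, Set.finite_empty, fun _ _ hc => hc.elim, fun σ _ => map_one _⟩
  | add x y _ _ hx hy =>
    obtain ⟨s1, hs1, hG1, hf1⟩ := hx
    obtain ⟨s2, hs2, hG2, hf2⟩ := hy
    refine ⟨s1 ∪ s2, hs1.union hs2, ?_, ?_⟩
    · rintro σ c (hc | hc)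
      · exact Or.inl (hG1 σ c hc)
      · exact Or.inr (hG2 σ c hc)
    · intro σ hσ
      rw [map_add, hf1 σ fun c hc => hσ c (Or.inl hc), hf2 σ fun c hc => hσ c (Or.inr hc)]
  | neg x _ hx =>
    obtain ⟨s1, hs1, hG1, hf1⟩ := hx
    exact ⟨s1, hs1, hG1, fun σ hσ => by rw [map_neg, hf1 σ hσ]⟩
  | inv x _ hx =>
    obtain ⟨s1, hs1, hG1, hf1⟩ := hx
    exact ⟨s1, hs1, hG1, fun σ hσ => by rw [map_inv₀, hf1 σ hσ]⟩
  | mul x y _ _ hx hy =>
    obtain ⟨s1, hs1, hG1, hf1⟩ := hx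
    obtain ⟨s2, hs2, hG2, hf2⟩ := hy
    refine ⟨s1 ∪ s2, hs1.union hs2, ?_, ?_⟩
    · rintro σ c (hc | hc)
      · exact Or.inl (hG1 σ c hc)
      · exact Or.inr (hG2 σ c hc)
    · intro σ hσ
      rw [map_mul, hf1 σ fun c hc => hσ c (Or.inl hc), hf2 σ fun c hc => hσ c (Or.inr hc)]

/-- The modular function field of level `N` over `ℚ̄`, as a subfield of Laurent series. -/
@[reducible] noncomputable def fnSub (N : ℕ) : Subfield Λb :=
  (modularFunctionFieldBar N).toSubfield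

/-- The constants `ℚ̄` inside Laurent series. -/
@[reducible] noncomputable def constSub : Subfield Λb := (algebraMap Qb Λb).fieldRange

theorem constSub_le (N : ℕ) : constSub ≤ fnSub N := by
  rintro _ ⟨c, rfl⟩
  exact (modularFunctionFieldBar N).algebraMap_mem c

/-- The deck automorphism of the cover field `F_N(g)`, `g ^ p ∈ F_N`, `g ∉ F_N`:
identity on `F_N`, `g ↦ ζ * g`. -/
noncomputable def modularDeck (N : ℕ) {p : ℕ} (hp : p.Prime) {ζ : Qb}
    (hζ : IsPrimitiveRoot ζ p) {g : Λb} (hgp : g ^ p ∈ modularFunctionFieldBar N)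
    (hgF : g ∉ modularFunctionFieldBar N) : coverField (fnSub N) g ≃+* coverField (fnSub N) g :=
  deck (fnSub N) hp (constSub_le N ⟨ζ, rfl⟩)
    (hζ.map_of_injective (algebraMap Qb Λb).injective) hgp hgF

theorem modularDeck_of_mem (N : ℕ) {p : ℕ} (hp : p.Prime) {ζ : Qb}
    (hζ : IsPrimitiveRoot ζ p) {g : Λb} (hgp : g ^ p ∈ modularFunctionFieldBar N)
    (hgF : g ∉ modularFunctionFieldBar N) {x : Λb} (hx : x ∈ modularFunctionFieldBar N) :
    modularDeck N hp hζ hgp hgF ⟨x, le_coverField (fnSub N) g hx⟩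
      = ⟨x, le_coverField (fnSub N) g hx⟩ :=
  deck_of_mem (fnSub N) hp _ _ hgp hgF hx

theorem modularDeck_gen (N : ℕ) {p : ℕ} (hp : p.Prime) {ζ : Qb}
    (hζ : IsPrimitiveRoot ζ p) {g : Λb} (hgp : g ^ p ∈ modularFunctionFieldBar N)
    (hgF : g ∉ modularFunctionFieldBar N) :
    ((modularDeck N hp hζ hgp hgF ⟨g, gen_mem_coverField (fnSub N) g⟩ :
        coverField (fnSub N) g) : Λb) = algebraMap Qb Λb ζ * g :=
  congrArg Subtype.val (deck_gen (fnSub N) hp _ _ hgp hgF)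

/-- **Cover descent on the Prelude carriers (step (4) of the S44 blueprint, field level).**

`Γ ≤ Gal(ℚ̄/ℚ)` fixes `ζ` (primitive `p`-th root of unity) and the coefficients of `g`
(`g ^ p = h₁ ∈ F_N`, `g ∉ F_N`).  Let `h ∈ F_N` have leading `q`-coefficient `1` and
`σ h ∈ h * F_N(g) ^ p` for all `σ ∈ Γ`.  Then there are `w, k ∈ F_N(g)`, `lam ∈ ℚ̄` with:
`H := h * w ^ p` and `k` have `Γ`-fixed coefficients, `lam ^ p` is `Γ`-fixed, the deck
automorphism sends `w ↦ lam * k * w` (so `γ H = lam ^ p * k ^ p * H`), the cocycle of `w` is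
the normalised `p`-th root of `σ h / h`, and `lam` is fixed by every `σ ∈ Γ` such that
`σ h ∈ h * F_N ^ p`. -/
theorem exists_modular_cover_descent (N : ℕ) {p : ℕ} (hp : p.Prime) (Γ : Subgroup GQ)
    {ζ : Qb} (hζ : IsPrimitiveRoot ζ p) (hζΓ : ∀ σ ∈ Γ, σ ζ = ζ)
    {g : Λb} (hgp : g ^ p ∈ modularFunctionFieldBar N) (hgF : g ∉ modularFunctionFieldBar N)
    (hgΓ : ∀ σ ∈ Γ, coeffMap ((σ : GQ) : Qb →+* Qb) g = g)
    {h : Λb} (hhF : h ∈ modularFunctionFieldBar N) (hlch : h.leadingCoeff = 1)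
    (hinv : ∀ σ ∈ Γ, ∃ b ∈ coverField (fnSub N) g,
      coeffMap ((σ : GQ) : Qb →+* Qb) h = h * b ^ p) :
    ∃ (w k : Λb) (lam : Qb) (hw : w ∈ coverField (fnSub N) g),
      k ∈ coverField (fnSub N) g ∧ w ≠ 0 ∧ lam ≠ 0 ∧ k ≠ 0 ∧
      (∀ σ ∈ Γ, coeffMap ((σ : GQ) : Qb →+* Qb) (h * w ^ p) = h * w ^ p) ∧
      (∀ σ ∈ Γ, coeffMap ((σ : GQ) : Qb →+* Qb) k = k) ∧
      (∀ σ ∈ Γ, σ (lam ^ p) = lam ^ p) ∧
      ((modularDeck N hp hζ hgp hgF ⟨w, hw⟩ : coverField (fnSub N) g) : Λb)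
        = algebraMap Qb Λb lam * k * w ∧
      (∀ σ ∈ Γ, ∀ b ∈ coverField (fnSub N) g,
        coeffMap ((σ : GQ) : Qb →+* Qb) h = h * b ^ p → b.leadingCoeff = 1 →
          coeffMap ((σ : GQ) : Qb →+* Qb) w = b⁻¹ * w) ∧
      (∀ σ ∈ Γ, (∃ m ∈ modularFunctionFieldBar N,
        coeffMap ((σ : GQ) : Qb →+* Qb) h = h * m ^ p) → σ lam = lam) := by
  have hcC : ∀ (σ : Γ) (c : Qb), coeffMap ((σ : GQ) : Qb →+* Qb) (algebraMap Qb Λb c)
      = algebraMap Qb Λb ((σ : GQ) c) := fun σ c => coeffMap_algebraMap ((σ : GQ) : Qb →+* Qb) c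
  obtain ⟨s, hs, hsG, hsfix⟩ := exists_finite_level (modularFunctionFieldFull N) hhF
  have hF : ∀ σ : Γ, ∀ x ∈ fnSub N, coeffMap ((σ : GQ) : Qb →+* Qb) x ∈ fnSub N :=
    fun σ x hx => coeffMap_mem_laurentBaseChange (σ : GQ) hx
  have hC₀ : ∀ σ : Γ, ∀ x ∈ constSub, coeffMap ((σ : GQ) : Qb →+* Qb) x ∈ constSub := by
    rintro σ _ ⟨c, rfl⟩
    exact ⟨(σ : GQ) c, (hcC σ c).symm⟩
  have hh0 : h ≠ 0 := by
    intro h0
    rw [h0, HahnSeries.leadingCoeff_zero] at hlch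
    exact zero_ne_one hlch
  have hζG : ∀ σ : Γ, coeffMap ((σ : GQ) : Qb →+* Qb) (algebraMap Qb Λb ζ) = algebraMap Qb Λb ζ :=
    fun σ => by rw [hcC, hζΓ σ σ.2]
  have hlcG : ∀ (σ : Γ) (x : Λb), lcConst (coeffMap ((σ : GQ) : Qb →+* Qb) x)
      = coeffMap ((σ : GQ) : Qb →+* Qb) (lcConst x) := by
    intro σ x
    show algebraMap Qb Λb (coeffMap ((σ : GQ) : Qb →+* Qb) x).leadingCoeff
      = coeffMap ((σ : GQ) : Qb →+* Qb) (algebraMap Qb Λb x.leadingCoeff)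
    rw [leadingCoeff_coeffMap', hcC]
    rfl
  have hlcζ : lcConst (algebraMap Qb Λb ζ) = algebraMap Qb Λb ζ := by
    show algebraMap Qb Λb (algebraMap Qb Λb ζ).leadingCoeff = algebraMap Qb Λb ζ
    rw [leadingCoeff_algebraMap]
  have hlch' : lcConst h = 1 := by
    show algebraMap Qb Λb h.leadingCoeff = 1
    rw [hlch, map_one]
  have hsG' : ∀ σ : Γ, ∀ c ∈ algebraMap Qb Λb '' s,
      coeffMap ((σ : GQ) : Qb →+* Qb) c ∈ algebraMap Qb Λb '' s := by
    rintro σ _ ⟨c, hc, rfl⟩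
    exact ⟨(σ : GQ) c, hsG _ c hc, (hcC σ c).symm⟩
  have hsC : algebraMap Qb Λb '' s ⊆ (constSub : Set Λb) := by
    rintro _ ⟨c, hc, rfl⟩
    exact ⟨c, rfl⟩
  have hsh : ∀ σ : Γ, (∀ c ∈ algebraMap Qb Λb '' s, coeffMap ((σ : GQ) : Qb →+* Qb) c = c) →
      coeffMap ((σ : GQ) : Qb →+* Qb) h = h := by
    intro σ hσ
    refine hsfix (σ : GQ) (fun c hc => ?_)
    have h1 := hσ _ ⟨c, hc, rfl⟩
    rw [hcC] at h1
    exact (algebraMap Qb Λb).injective h1
  obtain ⟨w, lamΛ, k, hw, hk, hlamC, hw0, hlam0, hk0, hH, hkG, hlamp, hdeck, hwb, -, hlast⟩ :=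
    @exists_cover_descent Λb _ Γ _ (coeffAction Γ) (fnSub N) constSub (constSub_le N) hF hC₀ p hp
      (algebraMap Qb Λb ζ) ⟨ζ, rfl⟩ (hζ.map_of_injective (algebraMap Qb Λb).injective) hζG
      g hgp hgF (fun σ => hgΓ σ σ.2) lcConst (fun x => ⟨x.leadingCoeff, rfl⟩) hlcG hlcζ
      h hhF hh0 hlch' (fun σ => hinv σ σ.2) (algebraMap Qb Λb '' s) (hs.image _) hsG' hsC hsh
  obtain ⟨lam, rfl⟩ := hlamC
  refine ⟨w, k, lam, hw, hk, hw0, fun h0 => hlam0 (by rw [h0, map_zero]), hk0,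
    fun σ hσ => hH ⟨σ, hσ⟩, fun σ hσ => hkG ⟨σ, hσ⟩, ?_, hdeck, ?_, ?_⟩
  · intro σ hσ
    have h1 : coeffMap ((σ : GQ) : Qb →+* Qb) (algebraMap Qb Λb lam ^ p)
        = algebraMap Qb Λb lam ^ p := hlamp ⟨σ, hσ⟩
    rw [← map_pow, hcC ⟨σ, hσ⟩] at h1
    exact (algebraMap Qb Λb).injective h1
  · intro σ hσ b hb hσh hlcb
    exact hwb ⟨σ, hσ⟩ b hb hσh (by
      show algebraMap Qb Λb b.leadingCoeff = 1
      rw [hlcb, map_one])
  · rintro σ hσ ⟨m, hm, hσh⟩
    have h1 : coeffMap ((σ : GQ) : Qb →+* Qb) (algebraMap Qb Λb lam) = algebraMap Qb Λb lam :=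
      hlast ⟨σ, hσ⟩ ⟨m, hm, hσh⟩
    rw [hcC ⟨σ, hσ⟩] at h1
    exact (algebraMap Qb Λb).injective h1

/-- A `p`-th root of unity in `ℚ̄((q))` is a constant; in particular it is its own leading
coefficient. -/
theorem lcConst_of_pow_eq_one {p : ℕ} (hp : p ≠ 0) {z : Λb} (hz : z ^ p = 1) : lcConst z = z := by
  have : NeZero p := ⟨hp⟩
  have : NeZero (p : Qb) := ⟨Nat.cast_ne_zero.mpr hp⟩
  obtain ⟨ζ, hζ⟩ := HasEnoughRootsOfUnity.exists_primitiveRoot Qb p
  have hζ' : IsPrimitiveRoot (algebraMap Qb Λb ζ) p :=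
    hζ.map_of_injective (algebraMap Qb Λb).injective
  obtain ⟨i, -, hi⟩ := hζ'.eq_pow_of_pow_eq_one hz
  rw [← hi, ← map_pow]
  show algebraMap Qb Λb (algebraMap Qb Λb (ζ ^ i)).leadingCoeff = algebraMap Qb Λb (ζ ^ i)
  rw [leadingCoeff_algebraMap]

/-- **Descent of a `Γ`-invariant class to a representative with `Γ`-fixed coefficients
(Laurent form).**  `h ≠ 0` in the modular function field with `σ h ∈ h * F_N ^ p` for all
`σ ∈ Γ`.  Then some `c * h * w ^ p` (`c` a nonzero constant, `w ∈ F_N` nonzero) has leading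
coefficient `1` and all its `q`-coefficients fixed by `Γ`. -/
theorem exists_fixed_rep (N : ℕ) {p : ℕ} (hp : p ≠ 0) (Γ : Subgroup GQ) {h : Λb}
    (hhF : h ∈ modularFunctionFieldBar N) (hh0 : h ≠ 0)
    (hinv : ∀ σ ∈ Γ, ∃ b ∈ modularFunctionFieldBar N,
      coeffMap ((σ : GQ) : Qb →+* Qb) h = h * b ^ p) :
    ∃ (w : Λb) (c : Qb), w ∈ modularFunctionFieldBar N ∧ w ≠ 0 ∧ c ≠ 0 ∧
      (algebraMap Qb Λb c * h * w ^ p).leadingCoeff = 1 ∧
      ∀ σ ∈ Γ, coeffMap ((σ : GQ) : Qb →+* Qb) (algebraMap Qb Λb c * h * w ^ p)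
        = algebraMap Qb Λb c * h * w ^ p := by
  have hcC : ∀ (σ : Γ) (c : Qb), coeffMap ((σ : GQ) : Qb →+* Qb) (algebraMap Qb Λb c)
      = algebraMap Qb Λb ((σ : GQ) c) := fun σ c => coeffMap_algebraMap ((σ : GQ) : Qb →+* Qb) c
  have hlc0 : h.leadingCoeff ≠ 0 := HahnSeries.leadingCoeff_ne_zero.mpr hh0
  -- normalise `h`
  set h' : Λb := algebraMap Qb Λb h.leadingCoeff⁻¹ * h with hh'
  have hh'F : h' ∈ modularFunctionFieldBar N :=
    (modularFunctionFieldBar N).mul_mem ((modularFunctionFieldBar N).algebraMap_mem _) hhF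
  have hh'0 : h' ≠ 0 := mul_ne_zero ((map_ne_zero _).mpr (inv_ne_zero hlc0)) hh0
  have hlch' : lcConst h' = 1 := by
    show algebraMap Qb Λb h'.leadingCoeff = 1
    rw [hh', HahnSeries.leadingCoeff_mul, leadingCoeff_algebraMap, inv_mul_cancel₀ hlc0, map_one]
  obtain ⟨s, hs, hsG, hsfix⟩ := exists_finite_level (modularFunctionFieldFull N) hh'F
  have hF : ∀ σ : Γ, ∀ x ∈ fnSub N, coeffMap ((σ : GQ) : Qb →+* Qb) x ∈ fnSub N :=
    fun σ x hx => coeffMap_mem_laurentBaseChange (σ : GQ) hx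
  have hlcG : ∀ (σ : Γ) (x : Λb), lcConst (coeffMap ((σ : GQ) : Qb →+* Qb) x)
      = coeffMap ((σ : GQ) : Qb →+* Qb) (lcConst x) := by
    intro σ x
    show algebraMap Qb Λb (coeffMap ((σ : GQ) : Qb →+* Qb) x).leadingCoeff
      = coeffMap ((σ : GQ) : Qb →+* Qb) (algebraMap Qb Λb x.leadingCoeff)
    rw [leadingCoeff_coeffMap', hcC]
    rfl
  have hinv' : ∀ σ : Γ, ∃ b ∈ fnSub N, coeffMap ((σ : GQ) : Qb →+* Qb) h' = h' * b ^ p := by
    intro σ
    obtain ⟨b, hb, hσ⟩ := hinv σ σ.2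
    obtain ⟨d, hd⟩ := IsAlgClosed.exists_pow_nat_eq
      ((σ : GQ) h.leadingCoeff⁻¹ * h.leadingCoeff) (Nat.pos_of_ne_zero hp)
    refine ⟨algebraMap Qb Λb d * b,
      (modularFunctionFieldBar N).mul_mem ((modularFunctionFieldBar N).algebraMap_mem _) hb, ?_⟩
    rw [hh', map_mul, hcC, hσ, mul_pow, ← map_pow, hd, map_mul]
    have h1 : algebraMap Qb Λb h.leadingCoeff⁻¹ * algebraMap Qb Λb h.leadingCoeff = 1 := by
      rw [← map_mul, inv_mul_cancel₀ hlc0, map_one]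
    linear_combination (-(algebraMap Qb Λb ((σ : GQ) h.leadingCoeff⁻¹) * h * b ^ p)) * h1
  have hsG' : ∀ σ : Γ, ∀ c ∈ algebraMap Qb Λb '' s,
      coeffMap ((σ : GQ) : Qb →+* Qb) c ∈ algebraMap Qb Λb '' s := by
    rintro σ _ ⟨c, hc, rfl⟩
    exact ⟨(σ : GQ) c, hsG _ c hc, (hcC σ c).symm⟩
  have hsF : algebraMap Qb Λb '' s ⊆ (fnSub N : Set Λb) := by
    rintro _ ⟨c, hc, rfl⟩
    exact (modularFunctionFieldBar N).algebraMap_mem c
  have hsh : ∀ σ : Γ, (∀ c ∈ algebraMap Qb Λb '' s, coeffMap ((σ : GQ) : Qb →+* Qb) c = c) →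
      coeffMap ((σ : GQ) : Qb →+* Qb) h' = h' := by
    intro σ hσ
    refine hsfix (σ : GQ) (fun c hc => ?_)
    have h1 := hσ _ ⟨c, hc, rfl⟩
    rw [hcC] at h1
    exact (algebraMap Qb Λb).injective h1
  obtain ⟨w, hwF, hw0, hH, -, -⟩ :=
    @exists_descent_subfield Λb _ Γ _ (coeffAction Γ) (fnSub N) hF p lcConst
      (fun x => (modularFunctionFieldBar N).algebraMap_mem _) hlcG
      (fun z _ hz => lcConst_of_pow_eq_one hp hz) h' hh'F hh'0 hlch' hinv'
      (algebraMap Qb Λb '' s) (hs.image _) hsG' hsF hsh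
  -- normalise the product
  have hu0 : h' * w ^ p ≠ 0 := mul_ne_zero hh'0 (pow_ne_zero p hw0)
  have ha0 : (h' * w ^ p).leadingCoeff ≠ 0 := HahnSeries.leadingCoeff_ne_zero.mpr hu0
  have haΓ : ∀ σ : Γ, (σ : GQ) (h' * w ^ p).leadingCoeff = (h' * w ^ p).leadingCoeff := by
    intro σ
    have h1 : coeffMap ((σ : GQ) : Qb →+* Qb) (h' * w ^ p) = h' * w ^ p := hH σ
    have h2 := leadingCoeff_coeffMap' ((σ : GQ) : Qb →+* Qb) (h' * w ^ p)
    rw [h1] at h2
    exact h2.symm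
  refine ⟨w, (h' * w ^ p).leadingCoeff⁻¹ * h.leadingCoeff⁻¹, hwF, hw0,
    mul_ne_zero (inv_ne_zero ha0) (inv_ne_zero hlc0), ?_, ?_⟩
  · have h1 : algebraMap Qb Λb ((h' * w ^ p).leadingCoeff⁻¹ * h.leadingCoeff⁻¹) * h * w ^ p
        = algebraMap Qb Λb (h' * w ^ p).leadingCoeff⁻¹ * (h' * w ^ p) := by
      rw [hh', map_mul]
      ring
    rw [h1, HahnSeries.leadingCoeff_mul, leadingCoeff_algebraMap, inv_mul_cancel₀ ha0]
  · intro σ hσ
    have h1 : algebraMap Qb Λb ((h' * w ^ p).leadingCoeff⁻¹ * h.leadingCoeff⁻¹) * h * w ^ p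
        = algebraMap Qb Λb (h' * w ^ p).leadingCoeff⁻¹ * (h' * w ^ p) := by
      rw [hh', map_mul]
      ring
    have h2 : coeffMap ((σ : GQ) : Qb →+* Qb) (h' * w ^ p) = h' * w ^ p := hH ⟨σ, hσ⟩
    rw [h1, map_mul, hcC ⟨σ, hσ⟩, h2, map_inv₀, haΓ ⟨σ, hσ⟩]

end Fermat.Agent.S44.helper9796
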