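import Fermat.Agent.S29.helper8217_KummerClass
import Fermat.Agent.S29.helper36_FunctionFieldL
import Fermat.Agent.S44.helper9796_CoverModular

/-!
# Descent of a Galois-invariant torsion class of `J₀(N)` to a Kummer function with fixed
coefficients

`H` any subgroup of `Gal(ℚ̄/ℚ)` (instance: `Gal(ℚ̄/L)`), `x ∈ J₀(N)[p]` with `σ • x = x` for all
`σ ∈ H`.  Then `x` is the Kummer class of a function `u ∈ ℚ̄(X₀(N))` whose `q`-expansion has
leading coefficient `1` and all coefficients fixed by `H` ("`u` is `L`-rational").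

This is Hilbert 90 for the (arbitrary) group `H`, normalised at the rational cusp `∞`
(`helper9796_DescentH90.exists_descent`), in the Kummer vocabulary of `S29.helper8217`.
-/

set_option autoImplicit false

namespace Fermat.Agent.S44.helper9796

open ModularCurve AlgebraicCurve Fermat.Agent.S29.helper8217

local notation "Qb" => AlgebraicClosure ℚ
local notation "GQ" => (AlgebraicClosure ℚ ≃ₐ[ℚ] AlgebraicClosure ℚ)
local notation "Λb" => LaurentSeries (AlgebraicClosure ℚ)

/-- **`L`-rational Kummer function of an `H`-invariant `p`-torsion class.** -/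
theorem exists_fixed_kummer (N : ℕ) [NeZero N] {p : ℕ} (hp : p ≠ 0) (H : Subgroup GQ)
    (x : JZero N) (hx : x ∈ Pic0.torsion Qb (modularFunctionFieldBar N) p)
    (hfix : ∀ σ ∈ H, σ • x = x) :
    ∃ u : modularFunctionFieldBar N, IsKummer Qb p u ∧ kummerClass Qb p u = x ∧
      (u : Λb).leadingCoeff = 1 ∧
      (∀ σ ∈ H, coeffMap ((σ : GQ) : Qb →+* Qb) (u : Λb) = u) ∧
      ∀ σ ∈ H, arithmeticGalois (modularFunctionFieldFull N) σ • u = u := by
  obtain ⟨u0, hk0, hcl0⟩ := exists_kummerClass_eq hp hx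
  have hinv : ∀ σ ∈ H, ∃ b ∈ modularFunctionFieldBar N,
      coeffMap ((σ : GQ) : Qb →+* Qb) (u0 : Λb) = (u0 : Λb) * b ^ p := by
    intro σ hσ
    have h1 : kummerClass Qb p (arithmeticGalois (modularFunctionFieldFull N) σ • u0)
        = kummerClass Qb p u0 := by
      rw [← galois_smul_kummerClass, hcl0, hfix σ hσ]
    rw [kummerClass_eq_iff hp ((isKummer_smul_iff _).mpr hk0) hk0] at h1
    obtain ⟨w, c, -, hc0, hcv, he⟩ := h1
    obtain ⟨a, rfl⟩ := Fermat.Agent.S29.helper36.exists_algebraMap_eq_of_ord_eq_zero Qb N hcv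
    obtain ⟨d, hd⟩ := IsAlgClosed.exists_pow_nat_eq a (Nat.pos_of_ne_zero hp)
    refine ⟨algebraMap Qb Λb d * (w : Λb),
      (modularFunctionFieldBar N).mul_mem ((modularFunctionFieldBar N).algebraMap_mem _) w.2, ?_⟩
    have he' := congrArg (Subtype.val : modularFunctionFieldBar N → Λb) he
    rw [coe_arithmeticGalois_smul] at he'
    rw [he', mul_pow, ← map_pow, hd]
    rfl
  obtain ⟨w, c, hwF, hw0, hc0, hlc, hΓ⟩ :=
    exists_fixed_rep N hp H u0.2 (fun h0 => hk0.1 (Subtype.ext h0)) hinv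
  let u : modularFunctionFieldBar N :=
    algebraMap Qb (modularFunctionFieldBar N) c * u0 * (⟨w, hwF⟩ : modularFunctionFieldBar N) ^ p
  have hw0' : (⟨w, hwF⟩ : modularFunctionFieldBar N) ≠ 0 := fun h0 => hw0 (congrArg Subtype.val h0)
  have hcF0 : algebraMap Qb (modularFunctionFieldBar N) c ≠ 0 := (map_ne_zero _).mpr hc0
  have hcord : ∀ v : Place Qb (modularFunctionFieldBar N),
      v.ord (algebraMap Qb (modularFunctionFieldBar N) c) = 0 := fun v => ord_algebraMap v c
  have hu : (u : Λb) = algebraMap Qb Λb c * (u0 : Λb) * w ^ p := rfl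
  refine ⟨u, ?_, ?_, ?_, ?_, ?_⟩
  · exact ((isKummer_of_ord_eq_zero p hcF0 hcord).mul hk0).mul (isKummer_pow_self p hw0')
  · show kummerClass Qb p (algebraMap Qb (modularFunctionFieldBar N) c * u0 *
      (⟨w, hwF⟩ : modularFunctionFieldBar N) ^ p) = x
    rw [kummerClass_mul_pow_self hp hw0' ((isKummer_of_ord_eq_zero p hcF0 hcord).mul hk0),
      kummerClass_mul_of_ord_eq_zero hcF0 hcord hk0, hcl0]
  · rw [hu]
    exact hlc
  · intro σ hσ
    rw [hu]
    exact hΓ σ hσ
  · intro σ hσ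
    apply Subtype.ext
    rw [coe_arithmeticGalois_smul, hu]
    exact hΓ σ hσ

/-- The same statement in the binder shape of the `PL-LRAT` seam (`team_s44_chat` #293):
torsion as `(p : ℤ) • c = 0`, rationality as `arithmeticRingAut`-fixedness. -/
theorem exists_fixed_kummer_zsmul (N : ℕ) [NeZero N] {p : ℕ} (hp : p ≠ 0) (Γ : Subgroup GQ)
    (c : JZero N) (hpc : (p : ℤ) • c = 0) (hΓ : ∀ σ ∈ Γ, σ • c = c) :
    ∃ h : modularFunctionFieldBar N, IsKummer Qb p h ∧ kummerClass Qb p h = c ∧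
      (h : Λb).leadingCoeff = 1 ∧
      ∀ σ ∈ Γ, arithmeticRingAut (modularFunctionFieldFull N) σ h = h := by
  obtain ⟨u, hk, hcl, hlc, hco, -⟩ :=
    exists_fixed_kummer N hp Γ c (Pic0.mem_torsion.mpr hpc) hΓ
  exact ⟨u, hk, hcl, hlc, fun σ hσ => Subtype.ext (hco σ hσ)⟩

end Fermat.Agent.S44.helper9796
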