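import Fermat.Agent.S44.helper9796_KummerFixed
import Fermat.Agent.S44.helper8007_FixedNormalForm
import Fermat.Agent.S35.helper882_GaussPair

/-!
# `Γ`-fixed Kummer function of Gauss norm `1`

A `Γ`-invariant `p`-torsion class of `J₀(N)` is the Kummer class of a `Γ`-fixed function which is
a unit of the Gauss ring at `∞` (`helper9796.exists_fixed_kummer_zsmul` followed by
`helper8007.exists_const_mul_fixedUnit`).  This is the input shape of the `(PL)` block.
-/

set_option autoImplicit false

namespace Fermat.Agent.S44.helper9796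

open ModularCurve AlgebraicCurve Fermat.Agent.S29.helper8217
open Fermat.Agent.S35

local notation "Qb" => AlgebraicClosure ℚ
local notation "GQ" => (AlgebraicClosure ℚ ≃ₐ[ℚ] AlgebraicClosure ℚ)

/-- **`Γ`-fixed Kummer function of Gauss norm `1`** (the input shape of the `(PL)` block:
`IsKummer`, `(gpRing A N).valuation h = 1`, `Γ`-fixed).  No discreteness hypothesis: a `Γ`-fixed
function is a `Γ`-fixed constant times a `Γ`-fixed unit of the Gauss ring
(`helper8007.exists_const_mul_fixedUnit`). -/
theorem exists_fixed_kummer_gauss_one (N : ℕ) [NeZero N] (A : ValuationSubring Qb) {p : ℕ}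
    (hp : p ≠ 0) (Γ : Subgroup GQ) (c : JZero N) (hpc : (p : ℤ) • c = 0)
    (hΓ : ∀ σ ∈ Γ, σ • c = c) :
    ∃ h : modularFunctionFieldBar N, IsKummer Qb p h ∧ kummerClass Qb p h = c ∧
      (helper882.gpRing A N).valuation h = 1 ∧
      ∀ σ ∈ Γ, arithmeticRingAut (modularFunctionFieldFull N) σ h = h := by
  obtain ⟨h0, hk, hcl, -, hfix⟩ := exists_fixed_kummer_zsmul N hp Γ c hpc hΓ
  obtain ⟨a, u, ha0, -, hu, rfl⟩ :=
    helper8007.exists_const_mul_fixedUnit A (IsLocalRing.residue A) Γ N h0 hk.ne_zero hfix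
  have haF0 : algebraMap Qb (modularFunctionFieldBar N) a ≠ 0 := (map_ne_zero _).mpr ha0
  have haord : ∀ v : Place Qb (modularFunctionFieldBar N),
      v.ord (algebraMap Qb (modularFunctionFieldBar N) a) = 0 := fun v => ord_algebraMap v a
  have hainv0 : algebraMap Qb (modularFunctionFieldBar N) a⁻¹ ≠ 0 :=
    (map_ne_zero _).mpr (inv_ne_zero ha0)
  have hainvord : ∀ v : Place Qb (modularFunctionFieldBar N),
      v.ord (algebraMap Qb (modularFunctionFieldBar N) a⁻¹) = 0 := fun v => ord_algebraMap v a⁻¹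
  have hu_eq : u = algebraMap Qb (modularFunctionFieldBar N) a⁻¹
      * (algebraMap Qb (modularFunctionFieldBar N) a * u) := by
    rw [← mul_assoc, ← map_mul, inv_mul_cancel₀ ha0, map_one, one_mul]
  have huk : IsKummer Qb p u := by
    rw [hu_eq]
    exact (isKummer_of_ord_eq_zero p hainv0 hainvord).mul hk
  refine ⟨u, huk, ?_, hu.valuation_eq_one, fun σ hσ => hu.fixed hσ⟩
  rw [← hcl, kummerClass_mul_of_ord_eq_zero haF0 haord huk]

end Fermat.Agent.S44.helper9796
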